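import Mathlib

/-!
# Auxiliary primes for the crossing argument (P18, block C, slice C1)

For an odd prime `p` and `Q ≥ 2`, the number `S(Q) = 1 + Q + ⋯ + Q ^ (p - 1)` has a prime
factor `r ≠ p` (`ct_exists_prime_dvd_geomSum`): indeed `S(Q) > p` and `p ^ 2 ∤ S(Q)` (lifting
the exponent).  For such `r`, the class of `Q` in `ZMod r` has order exactly `p`.

Applying this to `Q = q` and to `Q = q ^ p` gives primes `q₁`, `q₂` different from `p` with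
`orderOf (q : ZMod q₁) = p` and `orderOf (q : ZMod q₂) = p ^ 2` (`ct_exists_aux_primes`).
-/

set_option autoImplicit false

namespace Fermat.Agent.S14

/-- `(1 + Q + ⋯ + Q ^ (n - 1)) * (Q - 1) = Q ^ n - 1` in `ℕ`, for `Q ≥ 1`. -/
theorem ct_carith_geomSum_mul {Q : ℕ} (hQ : 1 ≤ Q) (n : ℕ) :
    (∑ i ∈ Finset.range n, Q ^ i) * (Q - 1) = Q ^ n - 1 :=
  geom_sum_mul_of_one_le hQ n

/-- `n < 1 + Q + ⋯ + Q ^ (n - 1)` for `n ≥ 2` and `Q ≥ 2`. -/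
theorem ct_carith_lt_geomSum {Q : ℕ} (hQ : 2 ≤ Q) {n : ℕ} (hn : 2 ≤ n) :
    n < ∑ i ∈ Finset.range n, Q ^ i := by
  induction n, hn using Nat.le_induction with
  | base =>
    rw [Finset.sum_range_succ, Finset.sum_range_one, pow_zero, pow_one]
    omega
  | succ n hn ih =>
    rw [Finset.sum_range_succ]
    have h1 : 1 ≤ Q ^ n := Nat.one_le_pow _ _ (by omega)
    omega

/-- The geometric sum is nonzero. -/
theorem ct_carith_geomSum_ne_zero {Q : ℕ} (hQ : 2 ≤ Q) {n : ℕ} (hn : 2 ≤ n) :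
    ∑ i ∈ Finset.range n, Q ^ i ≠ 0 := by
  have := ct_carith_lt_geomSum hQ hn
  omega

/-- If `p ∤ Q - 1` then `p ∤ 1 + Q + ⋯ + Q ^ (p - 1)`. -/
theorem ct_carith_not_dvd_geomSum {p Q : ℕ} (hp : p.Prime) (hQ : 1 ≤ Q) (h : ¬ p ∣ Q - 1) :
    ¬ p ∣ ∑ i ∈ Finset.range p, Q ^ i := by
  have : Fact p.Prime := ⟨hp⟩
  intro hdvd
  apply h
  have h1 : ((∑ i ∈ Finset.range p, Q ^ i : ℕ) : ZMod p) = 0 :=
    (ZMod.natCast_eq_zero_iff _ _).mpr hdvd
  have h2 : (∑ i ∈ Finset.range p, (Q : ZMod p) ^ i) * ((Q : ZMod p) - 1) =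
      (Q : ZMod p) ^ p - 1 := geom_sum_mul _ _
  have h3 : (∑ i ∈ Finset.range p, (Q : ZMod p) ^ i) = 0 := by
    rw [← h1]
    push_cast
    rfl
  rw [h3, zero_mul, ZMod.pow_card] at h2
  rw [← ZMod.natCast_eq_zero_iff, Nat.cast_sub hQ, Nat.cast_one]
  exact h2.symm

/-- For an odd prime `p` and `Q ≥ 2`, `p ^ 2` does not divide `1 + Q + ⋯ + Q ^ (p - 1)`. -/
theorem ct_carith_sq_not_dvd_geomSum {p Q : ℕ} (hp : p.Prime) (hp2 : p ≠ 2) (hQ : 2 ≤ Q) :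
    ¬ p ^ 2 ∣ ∑ i ∈ Finset.range p, Q ^ i := by
  have : Fact p.Prime := ⟨hp⟩
  by_cases h : p ∣ Q - 1
  · have hodd : Odd p := hp.odd_of_ne_two hp2
    have hS0 : ∑ i ∈ Finset.range p, Q ^ i ≠ 0 := ct_carith_geomSum_ne_zero hQ hp.two_le
    have hQ1 : Q - 1 ≠ 0 := by omega
    have hnQ : ¬ p ∣ Q := by
      intro hpQ
      have h1 : p ∣ Q - (Q - 1) := Nat.dvd_sub hpQ h
      have h2 : Q - (Q - 1) = 1 := by omega
      rw [h2] at h1
      exact hp.one_lt.ne' (Nat.dvd_one.mp h1)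
    have hlte := padicValNat.pow_sub_pow (p := p) (x := Q) (y := 1) hodd (by omega) h hnQ
      (n := p) hp.ne_zero
    rw [one_pow, ← ct_carith_geomSum_mul (by omega) p, padicValNat.mul hS0 hQ1,
      padicValNat_self] at hlte
    have hv : padicValNat p (∑ i ∈ Finset.range p, Q ^ i) = 1 := by omega
    rw [padicValNat_dvd_iff_le hS0, hv]
    omega
  · intro hdvd
    exact ct_carith_not_dvd_geomSum hp (by omega) h (dvd_trans (dvd_pow_self p two_ne_zero) hdvd)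

/-- **Key lemma**: for an odd prime `p` and `Q ≥ 2` there is a prime `r ≠ p` dividing
`1 + Q + ⋯ + Q ^ (p - 1)`; for such a prime, `Q` has order `p` in `ZMod r`, i.e.
`(Q : ZMod r) ^ p = 1` and `(Q : ZMod r) ≠ 1`. -/
theorem ct_exists_prime_dvd_geomSum {p Q : ℕ} (hp : p.Prime) (hp2 : p ≠ 2) (hQ : 2 ≤ Q) :
    ∃ r : ℕ, r.Prime ∧ r ≠ p ∧ r ∣ ∑ i ∈ Finset.range p, Q ^ i ∧
      (Q : ZMod r) ^ p = 1 ∧ (Q : ZMod r) ≠ 1 := by
  have hS0 : ∑ i ∈ Finset.range p, Q ^ i ≠ 0 := ct_carith_geomSum_ne_zero hQ hp.two_le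
  have hSp : p < ∑ i ∈ Finset.range p, Q ^ i := ct_carith_lt_geomSum hQ hp.two_le
  have hsq := ct_carith_sq_not_dvd_geomSum hp hp2 hQ
  -- a prime factor different from `p`
  have hex : ∃ r : ℕ, r.Prime ∧ r ∣ ∑ i ∈ Finset.range p, Q ^ i ∧ r ≠ p := by
    by_contra hcon
    have hall : ∀ {d : ℕ}, d.Prime → d ∣ ∑ i ∈ Finset.range p, Q ^ i → d = p := by
      intro d hd hdS
      by_contra hne
      exact hcon ⟨d, hd, hdS, hne⟩
    have hpow := Nat.eq_prime_pow_of_unique_prime_dvd hS0 hall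
    set k := (∑ i ∈ Finset.range p, Q ^ i).primeFactorsList.length with hk
    have hk2 : 2 ≤ k := by
      by_contra hlt
      have hk1 : k ≤ 1 := by omega
      have hle : p ^ k ≤ p ^ 1 := Nat.pow_le_pow_right hp.pos hk1
      rw [pow_one] at hle
      omega
    exact hsq (hpow ▸ pow_dvd_pow p hk2)
  obtain ⟨r, hr, hrS, hrp⟩ := hex
  have : Fact r.Prime := ⟨hr⟩
  have h1 : ((∑ i ∈ Finset.range p, Q ^ i : ℕ) : ZMod r) = 0 :=
    (ZMod.natCast_eq_zero_iff _ _).mpr hrS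
  have h3 : (∑ i ∈ Finset.range p, (Q : ZMod r) ^ i) = 0 := by
    rw [← h1]
    push_cast
    rfl
  have h2 : (∑ i ∈ Finset.range p, (Q : ZMod r) ^ i) * ((Q : ZMod r) - 1) =
      (Q : ZMod r) ^ p - 1 := geom_sum_mul _ _
  refine ⟨r, hr, hrp, hrS, ?_, ?_⟩
  · rw [h3, zero_mul] at h2
    exact (sub_eq_zero.mp h2.symm)
  · intro hQ1
    rw [hQ1] at h3
    simp only [one_pow, Finset.sum_const, Finset.card_range, nsmul_eq_mul, mul_one] at h3
    have hrdvd : r ∣ p := (ZMod.natCast_eq_zero_iff _ _).mp h3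
    exact hrp ((Nat.prime_dvd_prime_iff_eq hr hp).mp hrdvd)

/-- **Auxiliary primes**: for an odd prime `p` and `q ≥ 2` there are distinct primes `q₁`, `q₂`,
different from `p` and not dividing `q`, such that `q` has order `p` modulo `q₁` and order
`p ^ 2` modulo `q₂`. -/
theorem ct_exists_aux_primes {p q : ℕ} (hp : p.Prime) (hp2 : p ≠ 2) (hq : 2 ≤ q) :
    ∃ q₁ q₂ : ℕ, q₁.Prime ∧ q₂.Prime ∧ q₁ ≠ p ∧ q₂ ≠ p ∧ q₁ ≠ q₂ ∧ ¬ q₁ ∣ q ∧ ¬ q₂ ∣ q ∧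
      orderOf (q : ZMod q₁) = p ∧ orderOf (q : ZMod q₂) = p ^ 2 := by
  have : Fact p.Prime := ⟨hp⟩
  obtain ⟨q₁, hq₁, hq₁p, -, h1pow, h1ne⟩ := ct_exists_prime_dvd_geomSum hp hp2 hq
  have hqp : 2 ≤ q ^ p := le_trans hq (Nat.le_self_pow hp.ne_zero q)
  obtain ⟨q₂, hq₂, hq₂p, -, h2pow, h2ne⟩ := ct_exists_prime_dvd_geomSum hp hp2 hqp
  rw [Nat.cast_pow] at h2pow h2ne
  have ho1 : orderOf (q : ZMod q₁) = p := orderOf_eq_prime h1pow h1ne
  have ho2 : orderOf (q : ZMod q₂) = p ^ 2 := by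
    refine orderOf_eq_prime_pow (n := 1) ?_ ?_
    · rwa [pow_one]
    · rw [← h2pow, ← pow_mul]
      congr 1
      ring
  have : Fact q₁.Prime := ⟨hq₁⟩
  have : Fact q₂.Prime := ⟨hq₂⟩
  refine ⟨q₁, q₂, hq₁, hq₂, hq₁p, hq₂p, ?_, ?_, ?_, ho1, ho2⟩
  · rintro rfl
    rw [ho1] at ho2
    have h3 : p ^ 1 = p ^ 2 := by rw [pow_one]; exact ho2
    have h4 := Nat.pow_right_injective hp.two_le h3
    omega
  · intro hdvd
    have h0 : (q : ZMod q₁) = 0 := (ZMod.natCast_eq_zero_iff _ _).mpr hdvd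
    rw [h0, zero_pow hp.ne_zero] at h1pow
    exact zero_ne_one h1pow
  · intro hdvd
    have h0 : (q : ZMod q₂) = 0 := (ZMod.natCast_eq_zero_iff _ _).mpr hdvd
    rw [h0, zero_pow hp.ne_zero, zero_pow hp.ne_zero] at h2pow
    exact zero_ne_one h2pow

end Fermat.Agent.S14
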