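import Mathlib
import Fermat.Agent.S42.CyclicInert
import Fermat.Agent.S42.FrobQbarCore

/-!
# P18 (S14), block C, slice CAux: Frobenius elements generating a given cyclic subgroup

For a Galois extension `E / K` of number fields and `φ₀ ∈ Gal(E/K)` there are, for arbitrarily
large prime numbers `ℓ`, a prime `𝔓` of `E` over `ℓ` whose contraction to `K` has absolute norm
`ℓ`, and a Frobenius element `φ` at `𝔓` (`φ x ≡ x ^ ℓ` modulo `𝔓`) generating the same subgroup as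
`φ₀` (`ct_exists_frob_zpowers`); equivalently `φ = φ₀ ^ e` with `e` prime to the order of `φ₀`
(`ct_exists_frob_pow`).

This is the relative version of `Fermat.Agent.S42.fq_exists_frob_pow_eq_of_inert`: apply the
infinitude of inert degree-one primes (`Fermat.Agent.S42.infinite_inertSet`) to the cyclic
extension `E / M`, where `M` is the fixed field of `φ₀`.
-/

set_option autoImplicit false

namespace Fermat.Agent.S14

open NumberField

/-- If `a ^ e` generates the same subgroup as `a` in a finite group, `e` is prime to the order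
of `a`. -/
theorem ct_caux_coprime_of_zpowers_pow_eq {G : Type*} [Group G] [Finite G] (a : G) (e : ℕ)
    (h : Subgroup.zpowers (a ^ e) = Subgroup.zpowers a) : Nat.Coprime e (orderOf a) := by
  have h1 : orderOf (a ^ e) = orderOf a := by
    rw [← Nat.card_zpowers, ← Nat.card_zpowers a, h]
  rw [orderOf_pow, Nat.div_eq_self] at h1
  rcases h1 with h1 | h1
  · exact absurd h1 (orderOf_pos a).ne'
  · rw [Nat.Coprime, Nat.gcd_comm]
    exact h1

/-- The contraction to `K` of a prime of prime norm `ℓ` of a finite extension again has norm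
`ℓ`. -/
theorem ct_caux_absNorm_under (K M : Type*) [Field K] [NumberField K] [Field M] [NumberField M]
    [Algebra K M] (𝔮 : Ideal (𝓞 M)) (hq : (Ideal.absNorm 𝔮).Prime) :
    Ideal.absNorm (Ideal.under (𝓞 K) 𝔮) = Ideal.absNorm 𝔮 := by
  have hqprime : 𝔮.IsPrime := Ideal.isPrime_of_irreducible_absNorm hq
  have hbprime : (Ideal.under (𝓞 K) 𝔮).IsPrime := Ideal.IsPrime.under (𝓞 K) 𝔮
  have hmem : ((Ideal.absNorm 𝔮 : ℕ) : 𝓞 K) ∈ Ideal.under (𝓞 K) 𝔮 := by
    rw [Ideal.under, Ideal.mem_comap, map_natCast]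
    exact Ideal.absNorm_mem 𝔮
  have hbbot : Ideal.under (𝓞 K) 𝔮 ≠ ⊥ := by
    intro h
    rw [h, Ideal.mem_bot] at hmem
    exact (Nat.cast_ne_zero.mpr hq.ne_zero) hmem
  have h1 := Ideal.absNorm_eq_pow_inertiaDeg'_of_liesOver 𝔮 (Ideal.under (𝓞 K) 𝔮) hbprime hbbot
  exact ((Nat.Prime.pow_eq_iff hq).mp h1.symm).1

/-- **Frobenius elements generating a given cyclic subgroup.** -/
theorem ct_exists_frob_zpowers (K E : Type*) [Field K] [NumberField K] [Field E] [NumberField E]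
    [Algebra K E] [IsGalois K E] (φ₀ : E ≃ₐ[K] E) (N : ℕ) :
    ∃ (ℓ : ℕ) (𝔓 : Ideal (𝓞 E)) (φ : E ≃ₐ[K] E),
      ℓ.Prime ∧ N < ℓ ∧ 𝔓.IsPrime ∧ (ℓ : 𝓞 E) ∈ 𝔓 ∧
      Subgroup.zpowers φ = Subgroup.zpowers φ₀ ∧
      (∀ x : 𝓞 E, φ • x - x ^ ℓ ∈ 𝔓) ∧ Ideal.absNorm (Ideal.under (𝓞 K) 𝔓) = ℓ := by
  classical
  let H : Subgroup (E ≃ₐ[K] E) := Subgroup.zpowers φ₀
  let M : IntermediateField K E := IntermediateField.fixedField H
  have hfix : M.fixingSubgroup = H := IntermediateField.fixingSubgroup_fixedField H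
  have hcyc : IsCyclic (E ≃ₐ[M] E) := by
    have h1 : IsCyclic M.fixingSubgroup := by
      rw [hfix]
      infer_instance
    exact isCyclic_of_injective (IntermediateField.fixingSubgroupEquiv M).symm.toMonoidHom
      (IntermediateField.fixingSubgroupEquiv M).symm.injective
  obtain ⟨𝔮, ⟨hqprime, hQ⟩, hN⟩ :=
    Fermat.Agent.S42.fq_exists_inert_gt M E (Fermat.Agent.S42.infinite_inertSet M E) N
  obtain ⟨φ', hφ', hgen⟩ := Fermat.Agent.S42.fq_exists_frob_generator M E 𝔮.asIdeal hqprime hQ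
  -- `φ'` as an element of the fixing subgroup of `M`
  have hφmem : φ'.restrictScalars K ∈ M.fixingSubgroup :=
    ((IntermediateField.fixingSubgroupEquiv M).symm φ').2
  refine ⟨Ideal.absNorm 𝔮.asIdeal, 𝔮.asIdeal.map (algebraMap (𝓞 M) (𝓞 E)),
    φ'.restrictScalars K, hqprime, hN, hQ, ?_, ?_, ?_, ?_⟩
  · have h1 : ((Ideal.absNorm 𝔮.asIdeal : ℕ) : 𝓞 M) ∈ 𝔮.asIdeal := Ideal.absNorm_mem _
    have h2 := Ideal.mem_map_of_mem (algebraMap (𝓞 M) (𝓞 E)) h1
    rwa [map_natCast] at h2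
  · apply le_antisymm
    · rw [Subgroup.zpowers_le]
      show φ'.restrictScalars K ∈ H
      rw [← hfix]
      exact hφmem
    · intro g hg
      have hg' : g ∈ M.fixingSubgroup := by
        rw [hfix]
        exact hg
      have h1 : IntermediateField.fixingSubgroupEquiv M ⟨g, hg'⟩ ∈ Subgroup.zpowers φ' := by
        rw [hgen]
        trivial
      obtain ⟨k, hk⟩ := Subgroup.mem_zpowers_iff.mp h1
      have h2 : ((IntermediateField.fixingSubgroupEquiv M).symm φ') ^ k = ⟨g, hg'⟩ := by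
        rw [← map_zpow, hk, MulEquiv.symm_apply_apply]
      have h3 := congrArg Subtype.val h2
      rw [Subgroup.coe_zpow] at h3
      exact Subgroup.mem_zpowers_iff.mpr ⟨k, h3⟩
  · intro x
    exact hφ' x
  · have hqmax : 𝔮.asIdeal.IsMaximal := 𝔮.isMaximal
    have hunder : Ideal.under (𝓞 M) (𝔮.asIdeal.map (algebraMap (𝓞 M) (𝓞 E))) = 𝔮.asIdeal :=
      (hqmax.eq_of_le (Ideal.comap_ne_top _ hQ.ne_top) Ideal.le_comap_map).symm
    rw [← Ideal.under_under (B := 𝓞 M), hunder]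
    exact ct_caux_absNorm_under K M 𝔮.asIdeal hqprime

/-- **Frobenius elements which are powers of a given element, with exponent prime to its
order.** -/
theorem ct_exists_frob_pow (K E : Type*) [Field K] [NumberField K] [Field E] [NumberField E]
    [Algebra K E] [IsGalois K E] (φ₀ : E ≃ₐ[K] E) (N : ℕ) :
    ∃ (ℓ : ℕ) (𝔓 : Ideal (𝓞 E)) (φ : E ≃ₐ[K] E) (e : ℕ),
      ℓ.Prime ∧ N < ℓ ∧ 𝔓.IsPrime ∧ (ℓ : 𝓞 E) ∈ 𝔓 ∧
      φ = φ₀ ^ e ∧ Nat.Coprime e (orderOf φ₀) ∧
      (∀ x : 𝓞 E, φ • x - x ^ ℓ ∈ 𝔓) ∧ Ideal.absNorm (Ideal.under (𝓞 K) 𝔓) = ℓ := by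
  obtain ⟨ℓ, 𝔓, φ, hℓ, hN, hP, hmem, hz, hfrob, hnorm⟩ := ct_exists_frob_zpowers K E φ₀ N
  have h1 : φ ∈ Subgroup.zpowers φ₀ := by
    rw [← hz]
    exact Subgroup.mem_zpowers φ
  obtain ⟨e, he⟩ := mem_powers_iff_mem_zpowers.mpr h1
  have he' : φ₀ ^ e = φ := he
  refine ⟨ℓ, 𝔓, φ, e, hℓ, hN, hP, hmem, he'.symm, ?_, hfrob, hnorm⟩
  apply ct_caux_coprime_of_zpowers_pow_eq
  rw [he', hz]

end Fermat.Agent.S14
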