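import Mathlib

/-!
# P18 (S14): shared definitions for the "CFT-lite" proof of `ExtCitation.ExtVanishingCts`

* `RayNormRel F M 𝔣 𝔞 𝔟` : the ideals `𝔞`, `𝔟` of `𝓞 F` differ by a principal ray modulo `𝔣`
  and by norms of ideals of `𝓞 M` prime to `𝔣` (integral formulation of
  `𝔞 𝔟⁻¹ ∈ P_{𝔣,1} · N_{M/F}(I_M(𝔣))`).  With `𝔣 = ⊤` this is "same class modulo norm classes".
* `InertiaTrivialAt`, `UnramifiedEverywhere`, `UnramifiedOutside` : ramification of a Galois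
  extension of number fields, phrased through inertia groups.
* `CounterField p L ζ` : the number field produced from a non-split admissible extension.
-/

set_option autoImplicit false

namespace Fermat.Agent.S14

open NumberField

/-- `𝔞 𝔟⁻¹ ∈ P_{𝔣,1} · N_{M/F}(I_M(𝔣))`, in integral form: there are `a ≡ b mod 𝔣` prime to `𝔣`
and nonzero ideals `𝔄`, `𝔅` of `𝓞 M` with norms prime to `𝔣` such that
`(a) 𝔞 N(𝔄) = (b) 𝔟 N(𝔅)`. -/
def RayNormRel (F M : Type*) [Field F] [NumberField F] [Field M] [NumberField M] [Algebra F M]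
    (𝔣 𝔞 𝔟 : Ideal (𝓞 F)) : Prop :=
  ∃ (a b : 𝓞 F) (𝔄 𝔅 : Ideal (𝓞 M)), a ≠ 0 ∧ b ≠ 0 ∧ a - b ∈ 𝔣 ∧
    IsCoprime (Ideal.span {a}) 𝔣 ∧ IsCoprime (Ideal.span {b}) 𝔣 ∧
    𝔄 ≠ ⊥ ∧ 𝔅 ≠ ⊥ ∧
    IsCoprime (Ideal.relNorm (𝓞 F) 𝔄) 𝔣 ∧ IsCoprime (Ideal.relNorm (𝓞 F) 𝔅) 𝔣 ∧
    Ideal.span {a} * 𝔞 * Ideal.relNorm (𝓞 F) 𝔄 = Ideal.span {b} * 𝔟 * Ideal.relNorm (𝓞 F) 𝔅

/-- The inertia group of the prime `P` of `𝓞 M` in `Gal(M/F)` is trivial. -/
def InertiaTrivialAt (F M : Type*) [Field F] [NumberField F] [Field M] [NumberField M]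
    [Algebra F M] (P : Ideal (𝓞 M)) : Prop :=
  ∀ σ : M ≃ₐ[F] M, (∀ x : 𝓞 M, σ • x - x ∈ P) → σ = 1

/-- `M/F` is unramified at every finite prime. -/
def UnramifiedEverywhere (F M : Type*) [Field F] [NumberField F] [Field M] [NumberField M]
    [Algebra F M] : Prop :=
  ∀ P : Ideal (𝓞 M), P.IsPrime → P ≠ ⊥ → InertiaTrivialAt F M P

/-- `M/F` is unramified at every finite prime of `M` whose restriction to `F` does not
divide `𝔪`. -/
def UnramifiedOutside (F M : Type*) [Field F] [NumberField F] [Field M] [NumberField M]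
    [Algebra F M] (𝔪 : Ideal (𝓞 F)) : Prop :=
  ∀ P : Ideal (𝓞 M), P.IsPrime → P ≠ ⊥ → ¬ 𝔪 ≤ Ideal.under (𝓞 F) P → InertiaTrivialAt F M P

/-- The field cut out by a non-split admissible extension: `L/ℚ` Galois of degree `p (p - 1)`
containing a primitive `p`-th root of unity `ζ`; `L/ℚ(ζ)` is unramified everywhere, and
`Gal(L/ℚ)` acts on `Gal(L/ℚ(ζ))` through the inverse of the cyclotomic character. -/
structure CounterField (p : ℕ) (L : Type*) [Field L] [NumberField L] (ζ : L) : Prop where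
  galois : IsGalois ℚ L
  prim : IsPrimitiveRoot ζ p
  finrank_eq : Module.finrank ℚ L = p * (p - 1)
  unram : ∀ P : Ideal (𝓞 L), P.IsPrime → P ≠ ⊥ → ∀ g : L ≃ₐ[ℚ] L, g ζ = ζ →
    (∀ x : 𝓞 L, g • x - x ∈ P) → g = 1
  twist : ∀ (τ g : L ≃ₐ[ℚ] L) (n : ℕ), g ζ = ζ → τ ζ = ζ ^ n → τ * g ^ n = g * τ

end Fermat.Agent.S14
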