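import Mathlib
import Fermat.Agent.S14.Defs

/-!
# P18 (S14): algebra of the relation `RayNormRel F M ⊤`

With modulus `⊤` the relation `RayNormRel F M ⊤ 𝔞 𝔟` says that `𝔞` and `𝔟` differ by principal
ideals and norms of ideals of `𝓞 M`: `(a) 𝔞 N(𝔄) = (b) 𝔟 N(𝔅)`.  It is a congruence on the monoid
of ideals of `𝓞 F`, it kills principal ideals, norms and `[M : F]`-th powers.
-/

set_option autoImplicit false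

namespace Fermat.Agent.S14

open NumberField

namespace RelAlg

/-- Every ideal is coprime to `⊤`. -/
theorem rel_isCoprime_top {R : Type*} [CommSemiring R] (I : Ideal R) : IsCoprime I ⊤ := by
  rw [← Ideal.one_eq_top]
  exact isCoprime_one_right

section
variable (F M : Type*) [Field F] [NumberField F] [Field M] [NumberField M] [Algebra F M]

/-- With modulus `⊤` the coprimality and congruence clauses of `RayNormRel` are void. -/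
theorem rel_top_iff {𝔞 𝔟 : Ideal (𝓞 F)} :
    RayNormRel F M ⊤ 𝔞 𝔟 ↔ ∃ (a b : 𝓞 F) (𝔄 𝔅 : Ideal (𝓞 M)), a ≠ 0 ∧ b ≠ 0 ∧ 𝔄 ≠ ⊥ ∧ 𝔅 ≠ ⊥ ∧
      Ideal.span {a} * 𝔞 * Ideal.relNorm (𝓞 F) 𝔄 =
        Ideal.span {b} * 𝔟 * Ideal.relNorm (𝓞 F) 𝔅 := by
  constructor
  · rintro ⟨a, b, 𝔄, 𝔅, ha, hb, -, -, -, h𝔄, h𝔅, -, -, h⟩
    exact ⟨a, b, 𝔄, 𝔅, ha, hb, h𝔄, h𝔅, h⟩
  · rintro ⟨a, b, 𝔄, 𝔅, ha, hb, h𝔄, h𝔅, h⟩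
    exact ⟨a, b, 𝔄, 𝔅, ha, hb, Submodule.mem_top, rel_isCoprime_top _, rel_isCoprime_top _,
      h𝔄, h𝔅, rel_isCoprime_top _, rel_isCoprime_top _, h⟩

end

end RelAlg

section
variable (F M : Type*) [Field F] [NumberField F] [Field M] [NumberField M] [Algebra F M]

theorem rel_of_rel {𝔣 𝔞 𝔟 : Ideal (𝓞 F)} (h : RayNormRel F M 𝔣 𝔞 𝔟) : RayNormRel F M ⊤ 𝔞 𝔟 := by
  obtain ⟨a, b, 𝔄, 𝔅, ha, hb, -, -, -, h𝔄, h𝔅, -, -, h⟩ := h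
  exact (RelAlg.rel_top_iff F M).2 ⟨a, b, 𝔄, 𝔅, ha, hb, h𝔄, h𝔅, h⟩

theorem rel_refl (𝔞 : Ideal (𝓞 F)) : RayNormRel F M ⊤ 𝔞 𝔞 :=
  (RelAlg.rel_top_iff F M).2 ⟨1, 1, ⊤, ⊤, one_ne_zero, one_ne_zero, top_ne_bot, top_ne_bot, rfl⟩

theorem rel_symm {𝔞 𝔟 : Ideal (𝓞 F)} (h : RayNormRel F M ⊤ 𝔞 𝔟) : RayNormRel F M ⊤ 𝔟 𝔞 := by
  obtain ⟨a, b, 𝔄, 𝔅, ha, hb, h𝔄, h𝔅, h⟩ := (RelAlg.rel_top_iff F M).1 h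
  exact (RelAlg.rel_top_iff F M).2 ⟨b, a, 𝔅, 𝔄, hb, ha, h𝔅, h𝔄, h.symm⟩

theorem rel_trans {𝔞 𝔟 𝔠 : Ideal (𝓞 F)} (h1 : RayNormRel F M ⊤ 𝔞 𝔟)
    (h2 : RayNormRel F M ⊤ 𝔟 𝔠) : RayNormRel F M ⊤ 𝔞 𝔠 := by
  obtain ⟨a, b, 𝔄, 𝔅, ha, hb, h𝔄, h𝔅, h⟩ := (RelAlg.rel_top_iff F M).1 h1
  obtain ⟨c, d, 𝔆, 𝔇, hc, hd, h𝔆, h𝔇, h'⟩ := (RelAlg.rel_top_iff F M).1 h2
  refine (RelAlg.rel_top_iff F M).2 ⟨a * c, b * d, 𝔄 * 𝔆, 𝔅 * 𝔇, mul_ne_zero ha hc,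
    mul_ne_zero hb hd, fun h0 => (Ideal.mul_eq_bot.1 h0).elim h𝔄 h𝔆,
    fun h0 => (Ideal.mul_eq_bot.1 h0).elim h𝔅 h𝔇, ?_⟩
  rw [← Ideal.span_singleton_mul_span_singleton, ← Ideal.span_singleton_mul_span_singleton,
    map_mul, map_mul]
  calc Ideal.span {a} * Ideal.span {c} * 𝔞 * (Ideal.relNorm (𝓞 F) 𝔄 * Ideal.relNorm (𝓞 F) 𝔆)
      = (Ideal.span {a} * 𝔞 * Ideal.relNorm (𝓞 F) 𝔄) *
          (Ideal.span {c} * Ideal.relNorm (𝓞 F) 𝔆) := by ring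
    _ = (Ideal.span {b} * 𝔟 * Ideal.relNorm (𝓞 F) 𝔅) *
          (Ideal.span {c} * Ideal.relNorm (𝓞 F) 𝔆) := by rw [h]
    _ = (Ideal.span {c} * 𝔟 * Ideal.relNorm (𝓞 F) 𝔆) *
          (Ideal.span {b} * Ideal.relNorm (𝓞 F) 𝔅) := by ring
    _ = (Ideal.span {d} * 𝔠 * Ideal.relNorm (𝓞 F) 𝔇) *
          (Ideal.span {b} * Ideal.relNorm (𝓞 F) 𝔅) := by rw [h']
    _ = Ideal.span {b} * Ideal.span {d} * 𝔠 *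
          (Ideal.relNorm (𝓞 F) 𝔅 * Ideal.relNorm (𝓞 F) 𝔇) := by ring

theorem rel_mul {𝔞 𝔟 𝔠 𝔡 : Ideal (𝓞 F)} (h1 : RayNormRel F M ⊤ 𝔞 𝔟)
    (h2 : RayNormRel F M ⊤ 𝔠 𝔡) : RayNormRel F M ⊤ (𝔞 * 𝔠) (𝔟 * 𝔡) := by
  obtain ⟨a, b, 𝔄, 𝔅, ha, hb, h𝔄, h𝔅, h⟩ := (RelAlg.rel_top_iff F M).1 h1
  obtain ⟨c, d, 𝔆, 𝔇, hc, hd, h𝔆, h𝔇, h'⟩ := (RelAlg.rel_top_iff F M).1 h2
  refine (RelAlg.rel_top_iff F M).2 ⟨a * c, b * d, 𝔄 * 𝔆, 𝔅 * 𝔇, mul_ne_zero ha hc,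
    mul_ne_zero hb hd, fun h0 => (Ideal.mul_eq_bot.1 h0).elim h𝔄 h𝔆,
    fun h0 => (Ideal.mul_eq_bot.1 h0).elim h𝔅 h𝔇, ?_⟩
  rw [← Ideal.span_singleton_mul_span_singleton, ← Ideal.span_singleton_mul_span_singleton,
    map_mul, map_mul]
  calc Ideal.span {a} * Ideal.span {c} * (𝔞 * 𝔠) *
        (Ideal.relNorm (𝓞 F) 𝔄 * Ideal.relNorm (𝓞 F) 𝔆)
      = (Ideal.span {a} * 𝔞 * Ideal.relNorm (𝓞 F) 𝔄) *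
          (Ideal.span {c} * 𝔠 * Ideal.relNorm (𝓞 F) 𝔆) := by ring
    _ = (Ideal.span {b} * 𝔟 * Ideal.relNorm (𝓞 F) 𝔅) *
          (Ideal.span {d} * 𝔡 * Ideal.relNorm (𝓞 F) 𝔇) := by rw [h, h']
    _ = Ideal.span {b} * Ideal.span {d} * (𝔟 * 𝔡) *
          (Ideal.relNorm (𝓞 F) 𝔅 * Ideal.relNorm (𝓞 F) 𝔇) := by ring

theorem rel_pow {𝔞 𝔟 : Ideal (𝓞 F)} (h : RayNormRel F M ⊤ 𝔞 𝔟) (n : ℕ) :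
    RayNormRel F M ⊤ (𝔞 ^ n) (𝔟 ^ n) := by
  induction n with
  | zero =>
    rw [pow_zero, pow_zero]
    exact rel_refl F M 1
  | succ n ih =>
    rw [pow_succ, pow_succ]
    exact rel_mul F M ih h

theorem rel_prod {ι : Type*} (s : Finset ι) (f g : ι → Ideal (𝓞 F))
    (h : ∀ i ∈ s, RayNormRel F M ⊤ (f i) (g i)) :
    RayNormRel F M ⊤ (∏ i ∈ s, f i) (∏ i ∈ s, g i) := by
  classical
  induction s using Finset.induction_on with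
  | empty =>
    rw [Finset.prod_empty, Finset.prod_empty]
    exact rel_refl F M 1
  | insert i s hi ih =>
    rw [Finset.prod_insert hi, Finset.prod_insert hi]
    exact rel_mul F M (h i (Finset.mem_insert_self i s))
      (ih fun j hj => h j (Finset.mem_insert_of_mem hj))

theorem rel_cancel {𝔞 𝔟 𝔠 : Ideal (𝓞 F)} (h𝔠 : 𝔠 ≠ ⊥)
    (h : RayNormRel F M ⊤ (𝔞 * 𝔠) (𝔟 * 𝔠)) : RayNormRel F M ⊤ 𝔞 𝔟 := by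
  obtain ⟨a, b, 𝔄, 𝔅, ha, hb, h𝔄, h𝔅, h⟩ := (RelAlg.rel_top_iff F M).1 h
  refine (RelAlg.rel_top_iff F M).2 ⟨a, b, 𝔄, 𝔅, ha, hb, h𝔄, h𝔅, ?_⟩
  have h2 : (Ideal.span {a} * 𝔞 * Ideal.relNorm (𝓞 F) 𝔄) * 𝔠 =
      (Ideal.span {b} * 𝔟 * Ideal.relNorm (𝓞 F) 𝔅) * 𝔠 := by
    calc (Ideal.span {a} * 𝔞 * Ideal.relNorm (𝓞 F) 𝔄) * 𝔠
        = Ideal.span {a} * (𝔞 * 𝔠) * Ideal.relNorm (𝓞 F) 𝔄 := by ring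
      _ = Ideal.span {b} * (𝔟 * 𝔠) * Ideal.relNorm (𝓞 F) 𝔅 := h
      _ = (Ideal.span {b} * 𝔟 * Ideal.relNorm (𝓞 F) 𝔅) * 𝔠 := by ring
  exact mul_right_cancel₀ h𝔠 h2

theorem rel_principal {x : 𝓞 F} (hx : x ≠ 0) : RayNormRel F M ⊤ (Ideal.span {x}) ⊤ := by
  refine (RelAlg.rel_top_iff F M).2 ⟨1, x, ⊤, ⊤, one_ne_zero, hx, top_ne_bot, top_ne_bot, ?_⟩
  rw [Ideal.span_singleton_one, Ideal.relNorm_top, Ideal.mul_top, Ideal.mul_top, Ideal.mul_top,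
    Ideal.top_mul]

theorem rel_relNorm {𝔄 : Ideal (𝓞 M)} (h𝔄 : 𝔄 ≠ ⊥) :
    RayNormRel F M ⊤ (Ideal.relNorm (𝓞 F) 𝔄) ⊤ := by
  refine (RelAlg.rel_top_iff F M).2 ⟨1, 1, ⊤, 𝔄, one_ne_zero, one_ne_zero, top_ne_bot, h𝔄, ?_⟩
  rw [Ideal.relNorm_top, Ideal.mul_top, Ideal.mul_top]

/-- `𝔞 ^ [M:F] = N(𝔞 𝓞_M)`. -/
theorem rel_pow_finrank {𝔞 : Ideal (𝓞 F)} (h𝔞 : 𝔞 ≠ ⊥) :
    RayNormRel F M ⊤ (𝔞 ^ Module.finrank F M) ⊤ := by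
  have h1 : Ideal.relNorm (𝓞 F) (𝔞.map (algebraMap (𝓞 F) (𝓞 M))) = 𝔞 ^ Module.finrank F M := by
    rw [Ideal.relNorm_algebraMap, IsFractionRing.finrank_eq (𝓞 F) F (𝓞 M) M]
  rw [← h1]
  apply rel_relNorm
  intro h
  rw [h, Ideal.relNorm_bot] at h1
  exact pow_ne_zero _ h𝔞 h1.symm

end

end Fermat.Agent.S14
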