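import Mathlib
import Fermat.Agent.S14.Defs
import Fermat.Agent.S14.RelAlg

/-!
# P18 (S14): further algebra of the relation `RayNormRel F M ⊤`

* `rel_of_pow_coprime`, `rel_of_pow_coprime'` : the classes modulo norms of two coprime powers
  determine the class;
* `rel_top_of_primes` : a relation `𝔮 ~ ⊤` valid for all nonzero primes holds for all nonzero
  ideals;
* `rel_map_relNorm` : push-down of the relation along the relative norm.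
-/

set_option autoImplicit false

namespace Fermat.Agent.S14

open NumberField

section
variable (F M : Type*) [Field F] [NumberField F] [Field M] [NumberField M] [Algebra F M]

/-- `𝔵 𝔠 ~ 𝔶 𝔡`, `𝔠 ~ ⊤`, `𝔡 ~ ⊤`, `𝔠 ≠ 0` ⟹ `𝔵 ~ 𝔶`. -/
private theorem rel_cancel_top {𝔵 𝔶 𝔠 𝔡 : Ideal (𝓞 F)} (h𝔠 : 𝔠 ≠ ⊥)
    (h : RayNormRel F M ⊤ (𝔵 * 𝔠) (𝔶 * 𝔡)) (hc : RayNormRel F M ⊤ 𝔠 ⊤)
    (hd : RayNormRel F M ⊤ 𝔡 ⊤) : RayNormRel F M ⊤ 𝔵 𝔶 := by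
  have hdc : RayNormRel F M ⊤ 𝔡 𝔠 := rel_trans F M hd (rel_symm F M hc)
  have h2 : RayNormRel F M ⊤ (𝔶 * 𝔡) (𝔶 * 𝔠) := rel_mul F M (rel_refl F M 𝔶) hdc
  exact rel_cancel F M h𝔠 (rel_trans F M h h2)

/-- Variant: `𝔞 ^ s ~ 𝔟 ^ s`, `𝔞 ^ n ~ ⊤`, `𝔟 ^ n ~ ⊤`, `gcd(s,n) = 1` ⟹ `𝔞 ~ 𝔟`. -/
theorem rel_of_pow_coprime' {𝔞 𝔟 : Ideal (𝓞 F)} (h𝔞 : 𝔞 ≠ ⊥) (h𝔟 : 𝔟 ≠ ⊥) {s n : ℕ}
    (hs : RayNormRel F M ⊤ (𝔞 ^ s) (𝔟 ^ s))
    (hna : RayNormRel F M ⊤ (𝔞 ^ n) ⊤) (hnb : RayNormRel F M ⊤ (𝔟 ^ n) ⊤)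
    (hsn : Nat.Coprime s n) : RayNormRel F M ⊤ 𝔞 𝔟 := by
  have _h𝔟 := h𝔟
  rcases Nat.lt_or_ge 1 n with hn1 | hn1
  · -- `n ≥ 2`: Bézout, `s * m = n * v + 1`
    obtain ⟨m, -, hm⟩ := Nat.exists_mul_mod_eq_one_of_coprime hsn hn1
    have hdiv : n * (s * m / n) + 1 = s * m := by
      have := Nat.div_add_mod (s * m) n
      omega
    have hA : 𝔞 ^ (s * m) = 𝔞 * (𝔞 ^ n) ^ (s * m / n) := by
      rw [← pow_mul, ← pow_succ', hdiv]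
    have hB : 𝔟 ^ (s * m) = 𝔟 * (𝔟 ^ n) ^ (s * m / n) := by
      rw [← pow_mul, ← pow_succ', hdiv]
    have h1 : RayNormRel F M ⊤ (𝔞 * (𝔞 ^ n) ^ (s * m / n)) (𝔟 * (𝔟 ^ n) ^ (s * m / n)) := by
      rw [← hA, ← hB, pow_mul, pow_mul]
      exact rel_pow F M hs m
    have hca : RayNormRel F M ⊤ ((𝔞 ^ n) ^ (s * m / n)) ⊤ := by
      have := rel_pow F M hna (s * m / n)
      rwa [← Ideal.one_eq_top, one_pow, Ideal.one_eq_top] at this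
    have hcb : RayNormRel F M ⊤ ((𝔟 ^ n) ^ (s * m / n)) ⊤ := by
      have := rel_pow F M hnb (s * m / n)
      rwa [← Ideal.one_eq_top, one_pow, Ideal.one_eq_top] at this
    have hne : (𝔞 ^ n) ^ (s * m / n) ≠ ⊥ := by
      rw [← Ideal.zero_eq_bot]
      exact pow_ne_zero _ (pow_ne_zero _ h𝔞)
    exact rel_cancel_top F M hne h1 hca hcb
  · interval_cases n
    · -- `n = 0`, hence `s = 1`
      rw [Nat.coprime_zero_right] at hsn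
      subst hsn
      rwa [pow_one, pow_one] at hs
    · -- `n = 1`
      rw [pow_one] at hna hnb
      exact rel_trans F M hna (rel_symm F M hnb)

theorem rel_of_pow_coprime {𝔞 : Ideal (𝓞 F)} (h𝔞 : 𝔞 ≠ ⊥) {s n : ℕ}
    (hs : RayNormRel F M ⊤ (𝔞 ^ s) ⊤)
    (hn : RayNormRel F M ⊤ (𝔞 ^ n) ⊤) (hsn : Nat.Coprime s n) : RayNormRel F M ⊤ 𝔞 ⊤ := by
  have htop : ∀ k : ℕ, (⊤ : Ideal (𝓞 F)) ^ k = ⊤ := fun k => by
    rw [← Ideal.one_eq_top, one_pow]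
  refine rel_of_pow_coprime' F M h𝔞 top_ne_bot (s := s) (n := n) ?_ hn ?_ hsn
  · rw [htop]
    exact hs
  · rw [htop]
    exact rel_refl F M ⊤

theorem rel_top_of_primes (h : ∀ 𝔮 : Ideal (𝓞 F), 𝔮.IsPrime → 𝔮 ≠ ⊥ → RayNormRel F M ⊤ 𝔮 ⊤)
    (𝔞 : Ideal (𝓞 F)) (h𝔞 : 𝔞 ≠ ⊥) : RayNormRel F M ⊤ 𝔞 ⊤ := by
  induction 𝔞 using UniqueFactorizationMonoid.induction_on_prime with
  | h₁ => exact absurd Ideal.zero_eq_bot h𝔞
  | h₂ x hx =>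
    rw [Ideal.isUnit_iff] at hx
    rw [hx]
    exact rel_refl F M ⊤
  | h₃ a p ha hp ih =>
    have hp0 : p ≠ ⊥ := by
      rw [← Ideal.zero_eq_bot]
      exact hp.ne_zero
    have h1 : RayNormRel F M ⊤ p ⊤ := h p (Ideal.isPrime_of_prime hp) hp0
    have h2 : RayNormRel F M ⊤ a ⊤ := ih (by rwa [← Ideal.zero_eq_bot])
    have h3 := rel_mul F M h1 h2
    rwa [Ideal.mul_top] at h3

end

/-- Push-down of the relation along norms: `K ⊆ F ⊆ M`, `K ⊆ L ⊆ M`. -/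
theorem rel_map_relNorm (K L F M : Type*) [Field K] [NumberField K] [Field L] [NumberField L]
    [Field F] [NumberField F] [Field M] [NumberField M]
    [Algebra K L] [Algebra K F] [Algebra K M] [Algebra L M] [Algebra F M]
    [IsScalarTower K L M] [IsScalarTower K F M]
    {𝔞 : Ideal (𝓞 F)} (h : RayNormRel F M ⊤ 𝔞 ⊤) :
    RayNormRel K L ⊤ (Ideal.relNorm (𝓞 K) 𝔞) ⊤ := by
  obtain ⟨a, b, 𝔄, 𝔅, ha, hb, -, -, -, h𝔄, h𝔅, -, -, heq⟩ := h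
  have htop : ∀ I : Ideal (𝓞 K), IsCoprime I ⊤ := fun I => by
    rw [← Ideal.one_eq_top]
    exact isCoprime_one_right
  refine ⟨Algebra.intNorm (𝓞 K) (𝓞 F) a, Algebra.intNorm (𝓞 K) (𝓞 F) b,
    Ideal.relNorm (𝓞 L) 𝔄, Ideal.relNorm (𝓞 L) 𝔅, ?_, ?_, Submodule.mem_top, htop _, htop _,
    ?_, ?_, htop _, htop _, ?_⟩
  · exact Algebra.intNorm_ne_zero.mpr ha
  · exact Algebra.intNorm_ne_zero.mpr hb
  · exact Ideal.relNorm_eq_bot_iff.not.mpr h𝔄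
  · exact Ideal.relNorm_eq_bot_iff.not.mpr h𝔅
  · have h1 := congrArg (Ideal.relNorm (𝓞 K)) heq
    rw [map_mul, map_mul, map_mul, map_mul, Ideal.relNorm_singleton, Ideal.relNorm_singleton,
      Ideal.relNorm_relNorm, Ideal.relNorm_relNorm, Ideal.relNorm_top] at h1
    rw [Ideal.relNorm_relNorm (𝓞 K) (𝓞 L), Ideal.relNorm_relNorm (𝓞 K) (𝓞 L)]
    exact h1

end Fermat.Agent.S14
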