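import Mathlib
import Fermat.Agent.S14.Defs
import Fermat.Agent.S14.RelAlg
import Fermat.Agent.S14.RelAlg2

/-!
# P18 (S14), block C (crossing), step (C7): combining the two crossed relations

Write `~` for `RayNormRel K L ⊤`.  From `𝔮 ^ e * 𝔟 ^ (p - 1) ~ ⊤` and
`𝔮' ^ e * 𝔟 ^ ((p - 1) * t) ~ ⊤` with `e` prime to `p = [L : K]` we get `𝔮' ~ 𝔮 ^ t`
(`ct_combine`): raise the first relation to the power `t`, cancel the power of `𝔟`, and remove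
the exponent `e` using that `p`-th powers are norms.
-/

set_option autoImplicit false

namespace Fermat.Agent.S14

open NumberField

/-- (C7) of the crossing argument. -/
theorem ct_combine (K L : Type*) [Field K] [NumberField K] [Field L] [NumberField L]
    [Algebra K L] {p e t : ℕ} (hdeg : Module.finrank K L = p) (hpe : Nat.Coprime e p)
    {𝔮 𝔮' 𝔟 : Ideal (𝓞 K)} (h𝔮 : 𝔮 ≠ ⊥) (h𝔮' : 𝔮' ≠ ⊥) (h𝔟 : 𝔟 ≠ ⊥)
    (h1 : RayNormRel K L ⊤ (𝔮 ^ e * 𝔟 ^ (p - 1)) ⊤)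
    (h2 : RayNormRel K L ⊤ (𝔮' ^ e * 𝔟 ^ ((p - 1) * t)) ⊤) :
    RayNormRel K L ⊤ 𝔮' (𝔮 ^ t) := by
  have htop : ∀ k : ℕ, (⊤ : Ideal (𝓞 K)) ^ k = ⊤ := fun k => by
    rw [← Ideal.one_eq_top, one_pow]
  have hne : ∀ {I : Ideal (𝓞 K)}, I ≠ ⊥ → ∀ k : ℕ, I ^ k ≠ ⊥ := fun {I} hI k => by
    rw [← Ideal.zero_eq_bot] at hI ⊢
    exact pow_ne_zero k hI
  -- the first relation to the power `t`
  have h3 : RayNormRel K L ⊤ ((𝔮 ^ t) ^ e * 𝔟 ^ ((p - 1) * t)) ⊤ := by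
    have h := rel_pow K L h1 t
    rw [htop, mul_pow, ← pow_mul, ← pow_mul] at h
    rw [← pow_mul, mul_comm t e]
    exact h
  -- cancel the power of `𝔟`
  have h4 : RayNormRel K L ⊤ (𝔮' ^ e) ((𝔮 ^ t) ^ e) :=
    rel_cancel K L (hne h𝔟 ((p - 1) * t)) (rel_trans K L h2 (rel_symm K L h3))
  -- `p`-th powers are norms
  have h5 : RayNormRel K L ⊤ (𝔮' ^ p) ⊤ := by
    have h := rel_pow_finrank K L h𝔮'
    rwa [hdeg] at h
  have h6 : RayNormRel K L ⊤ ((𝔮 ^ t) ^ p) ⊤ := by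
    have h := rel_pow_finrank K L (hne h𝔮 t)
    rwa [hdeg] at h
  exact rel_of_pow_coprime' K L h𝔮' (hne h𝔮 t) h4 h5 h6 hpe

end Fermat.Agent.S14
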