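import Mathlib
import Fermat.Agent.S14.Defs

/-!
# P18 (S14), block C, slice CF2: degree of `K(ξ)/K` for `K = ℚ(ζ_p)`

`ct_finrank_adjoin_root` : if `K` is the `p`-th cyclotomic field, `m` is prime to `p` and `ξ` is a
primitive `m`-th root of unity in a number field `Ω ⊇ K`, then `[K(ξ) : K] = φ(m)`.

Proof: `[K(ξ) : K] ≤ φ(m)` because the minimal polynomial of `ξ` over `K` divides the `m`-th
cyclotomic polynomial.  Conversely `ℚ(ζ_p) ⊔ ℚ(ξ)` (inside `Ω`) is a `p m`-th cyclotomic field,
of degree `φ(p) φ(m)` over `ℚ`, and it is contained in `K(ξ)`, whose degree over `ℚ` is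
`φ(p) [K(ξ) : K]` by the tower law.
-/

set_option autoImplicit false

namespace Fermat.Agent.S14

open NumberField

theorem ct_finrank_adjoin_root (p : ℕ) [Fact p.Prime] (K Ω : Type*) [Field K] [NumberField K]
    [Field Ω] [NumberField Ω] [Algebra K Ω] [IsCyclotomicExtension {p} ℚ K]
    (m : ℕ) [NeZero m] (hpm : Nat.Coprime p m) (ξ : Ω) (hξ : IsPrimitiveRoot ξ m) :
    Module.finrank K (IntermediateField.adjoin K {ξ}) = Nat.totient m := by
  classical
  have hp : p.Prime := Fact.out
  have hp0 : NeZero p := ⟨hp.ne_zero⟩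
  have hpm0 : NeZero (p * m) := ⟨Nat.mul_ne_zero hp.ne_zero (NeZero.ne m)⟩
  obtain ⟨ζ, hζ⟩ := IsCyclotomicExtension.exists_isPrimitiveRoot ℚ K (Set.mem_singleton p)
    (NeZero.ne p)
  have hζ' : IsPrimitiveRoot (algebraMap K Ω ζ) p :=
    hζ.map_of_injective (algebraMap K Ω).injective
  -- upper bound: the minimal polynomial of `ξ` over `K` divides `cyclotomic m K`
  have hint : IsIntegral K ξ := (hξ.isIntegral (NeZero.pos m)).tower_top
  have hle : Module.finrank K (IntermediateField.adjoin K {ξ}) ≤ Nat.totient m := by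
    rw [IntermediateField.adjoin.finrank hint, ← Polynomial.natDegree_cyclotomic m K]
    refine Polynomial.natDegree_le_of_dvd (minpoly.dvd K ξ ?_) (Polynomial.cyclotomic_ne_zero m K)
    rw [Polynomial.aeval_def, Polynomial.eval₂_eq_eval_map, Polynomial.map_cyclotomic]
    exact hξ.isRoot_cyclotomic (NeZero.pos m)
  -- lower bound: `ℚ(ζ) ⊔ ℚ(ξ)` is a `p * m`-th cyclotomic field contained in `K(ξ)`
  have h₁ := hζ'.intermediateField_adjoin_isCyclotomicExtension ℚ
  have h₂ := hξ.intermediateField_adjoin_isCyclotomicExtension ℚ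
  have h₃ := IntermediateField.isCyclotomicExtension_lcm_sup ℚ Ω p m
    (IntermediateField.adjoin ℚ {algebraMap K Ω ζ}) (IntermediateField.adjoin ℚ {ξ})
  rw [hpm.lcm_eq_mul] at h₃
  have hfr := @IsCyclotomicExtension.finrank (p * m) _ ℚ _ _ _ _ _ h₃
      (Polynomial.cyclotomic.irreducible_rat (NeZero.pos (p * m)))
  have hK : Module.finrank ℚ K = p.totient :=
    IsCyclotomicExtension.finrank K (Polynomial.cyclotomic.irreducible_rat (NeZero.pos p))
  have hsub : IntermediateField.adjoin ℚ {algebraMap K Ω ζ} ⊔ IntermediateField.adjoin ℚ {ξ} ≤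
      (IntermediateField.adjoin K {ξ}).restrictScalars ℚ := by
    refine sup_le ?_ ?_
    · rw [IntermediateField.adjoin_le_iff]
      rintro x hx
      rw [Set.mem_singleton_iff] at hx
      subst hx
      exact (IntermediateField.adjoin K {ξ}).algebraMap_mem ζ
    · rw [IntermediateField.adjoin_le_iff]
      rintro x hx
      rw [Set.mem_singleton_iff] at hx
      subst hx
      exact IntermediateField.mem_adjoin_simple_self K x
  have htower := Module.finrank_mul_finrank ℚ K (IntermediateField.adjoin K {ξ})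
  have key : ∀ a b : ℕ, a = (p * m).totient →
      Module.finrank ℚ K * Module.finrank K (IntermediateField.adjoin K {ξ}) = b → a ≤ b →
      m.totient ≤ Module.finrank K (IntermediateField.adjoin K {ξ}) := by
    intro a b ha hb hab
    rw [ha, Nat.totient_mul hpm, ← hb, hK] at hab
    exact Nat.le_of_mul_le_mul_left hab (Nat.totient_pos.mpr hp.pos)
  refine le_antisymm hle (key _ _ hfr htower ?_)
  -- the inclusion `ℚ(ζ) ⊔ ℚ(ξ) → K(ξ)` is additive, hence `ℚ`-linear, and injective
  let f : ↥(IntermediateField.adjoin ℚ {algebraMap K Ω ζ} ⊔ IntermediateField.adjoin ℚ {ξ}) →+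
      ↥(IntermediateField.adjoin K {ξ}) :=
    { toFun := fun x => ⟨x.1, hsub x.2⟩
      map_zero' := rfl
      map_add' := fun _ _ => rfl }
  have hf : Function.Injective f := by
    intro x y h
    have h' : ((f x : ↥(IntermediateField.adjoin K {ξ})) : Ω) = (f y : Ω) :=
      congrArg Subtype.val h
    exact Subtype.ext h'
  have hfin : FiniteDimensional K (IntermediateField.adjoin K {ξ}) :=
    IntermediateField.adjoin.finiteDimensional hint
  refine LinearMap.finrank_le_finrank_of_injective
    (f := @AddMonoidHom.toRatLinearMap _ _ _ _ _ _ f) hf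

end Fermat.Agent.S14
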