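import Mathlib
import Fermat.Agent.S14.Defs

/-!
# P18 (S14), block C, slice CF3: `Gal(K(ξ)/ℚ)` is abelian for `K = ℚ(ζ_p)`, `ξ` a root of unity

If `Ω = K(ξ)` with `K` the `p`-th cyclotomic field and `ξ` a primitive `m`-th root of unity, then
any two `ℚ`-automorphisms of `Ω` commute: an automorphism is determined by its values on the two
roots of unity `ζ` and `ξ`, and it raises each of them to a power.
-/

set_option autoImplicit false

namespace Fermat.Agent.S14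

open NumberField

/-- Two `ℚ`-automorphisms of `Ω = K(ξ)` that agree on `ξ` and on the image of a generator `ζ` of
`K` over `ℚ` are equal. -/
theorem ct_fa_ext (K Ω : Type*) [Field K] [Field Ω] [Algebra ℚ K] [Algebra ℚ Ω]
    [Algebra K Ω] [IsScalarTower ℚ K Ω] (ζ : K) (hζ : Algebra.adjoin ℚ {ζ} = ⊤) (ξ : Ω)
    (htop : IntermediateField.adjoin K {ξ} = ⊤) (f g : Ω ≃ₐ[ℚ] Ω)
    (h1 : f (algebraMap K Ω ζ) = g (algebraMap K Ω ζ)) (h2 : f ξ = g ξ) : f = g := by
  -- the two restrictions to `K` agree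
  have hK : (f : Ω →ₐ[ℚ] Ω).comp (IsScalarTower.toAlgHom ℚ K Ω) =
      (g : Ω →ₐ[ℚ] Ω).comp (IsScalarTower.toAlgHom ℚ K Ω) := by
    refine AlgHom.ext_of_adjoin_eq_top hζ ?_
    intro x hx
    rw [Set.mem_singleton_iff] at hx
    subst hx
    simpa using h1
  have hK' : ∀ x : K, f (algebraMap K Ω x) = g (algebraMap K Ω x) := by
    intro x
    have := DFunLike.congr_fun hK x
    simpa using this
  -- the equalizer as an intermediate field of `Ω/K`
  let E : IntermediateField K Ω :=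
    Subfield.toIntermediateField
      (RingHom.eqLocusField (f : Ω →+* Ω) (g : Ω →+* Ω)) (fun x => hK' x)
  have hE : IntermediateField.adjoin K {ξ} ≤ E := by
    rw [IntermediateField.adjoin_le_iff]
    intro x hx
    rw [Set.mem_singleton_iff] at hx
    subst hx
    exact h2
  rw [htop] at hE
  ext x
  exact hE (IntermediateField.mem_top : x ∈ (⊤ : IntermediateField K Ω))

/-- A ring automorphism sends a primitive root of unity to a power of itself. -/
theorem ct_fa_pow (Ω : Type*) [Field Ω] [Algebra ℚ Ω] (k : ℕ) [NeZero k] (ζ : Ω)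
    (hζ : IsPrimitiveRoot ζ k) (σ : Ω ≃ₐ[ℚ] Ω) : ∃ a : ℕ, σ ζ = ζ ^ a := by
  have h : (σ ζ) ^ k = 1 := by
    rw [← map_pow, hζ.pow_eq_one, map_one]
  obtain ⟨a, -, ha⟩ := hζ.eq_pow_of_pow_eq_one h
  exact ⟨a, ha.symm⟩

theorem ct_comm_of_adjoin_eq_top (p : ℕ) [Fact p.Prime] (K Ω : Type*) [Field K] [NumberField K]
    [Field Ω] [NumberField Ω] [Algebra K Ω] [IsCyclotomicExtension {p} ℚ K]
    (m : ℕ) [NeZero m] (ξ : Ω) (hξ : IsPrimitiveRoot ξ m)
    (htop : IntermediateField.adjoin K {ξ} = ⊤) (σ τ : Ω ≃ₐ[ℚ] Ω) : σ * τ = τ * σ := by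
  have : NeZero p := ⟨(Fact.out : p.Prime).ne_zero⟩
  obtain ⟨ζ, hζ⟩ := IsCyclotomicExtension.exists_isPrimitiveRoot ℚ K (Set.mem_singleton p)
    (NeZero.ne p)
  have hadj : Algebra.adjoin ℚ {ζ} = ⊤ := IsCyclotomicExtension.adjoin_primitive_root_eq_top hζ
  have hζ' : IsPrimitiveRoot (algebraMap K Ω ζ) p :=
    hζ.map_of_injective (algebraMap K Ω).injective
  obtain ⟨a, ha⟩ := ct_fa_pow Ω p _ hζ' σ
  obtain ⟨a', ha'⟩ := ct_fa_pow Ω p _ hζ' τ
  obtain ⟨b, hb⟩ := ct_fa_pow Ω m ξ hξ σ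
  obtain ⟨b', hb'⟩ := ct_fa_pow Ω m ξ hξ τ
  refine ct_fa_ext K Ω ζ hadj ξ htop (σ * τ) (τ * σ) ?_ ?_
  · rw [AlgEquiv.mul_apply, AlgEquiv.mul_apply, ha', ha, map_pow, map_pow, ha, ha', ← pow_mul,
      ← pow_mul, mul_comm]
  · rw [AlgEquiv.mul_apply, AlgEquiv.mul_apply, hb', hb, map_pow, map_pow, hb, hb', ← pow_mul,
      ← pow_mul, mul_comm]

end Fermat.Agent.S14
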