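import Mathlib
import Fermat.Agent.S14.Defs

/-!
# P18 (S14), block C, slice CF1: Galois theory of `Ω = L(ξ)` over `k`

For a tower `k ⊆ L ⊆ Ω` with `Ω` the `m`-th cyclotomic extension of `L`:

* `ct_isGalois` : if `L/k` is Galois (characteristic zero), then so is `Ω/k`;
* `ct_aut_ext` : a `k`-automorphism of `Ω` is determined by its values on `L` and on a
  primitive `m`-th root of unity;
* `ct_aut_restrict` : a `k`-automorphism of `Ω` restricts to `L` when `L/k` is normal;
* `ct_aut_comm` : if `L/k` is Galois of prime degree, then `Gal(Ω/k)` is commutative.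
-/

set_option autoImplicit false

namespace Fermat.Agent.S14

open NumberField

/-- A `k`-automorphism of `Ω = L(ξ)` is determined by its restriction to `L` and its value
at `ξ`. -/
theorem ct_aut_ext (k L Ω : Type*) [Field k] [Field L] [Field Ω]
    [Algebra k L] [Algebra L Ω] [Algebra k Ω] [IsScalarTower k L Ω]
    (m : ℕ) [NeZero m] [IsCyclotomicExtension {m} L Ω] (ξ : Ω) (hξ : IsPrimitiveRoot ξ m)
    (σ τ : Ω ≃ₐ[k] Ω) (hL : ∀ x : L, σ (algebraMap L Ω x) = τ (algebraMap L Ω x))
    (hx : σ ξ = τ ξ) : σ = τ := by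
  have htop : Algebra.adjoin L {ξ} = ⊤ := IsCyclotomicExtension.adjoin_primitive_root_eq_top hξ
  ext x
  have hxmem : x ∈ Algebra.adjoin L {ξ} := by rw [htop]; exact Algebra.mem_top
  induction hxmem using Algebra.adjoin_induction with
  | mem y hy =>
    rw [Set.mem_singleton_iff] at hy
    rw [hy]
    exact hx
  | algebraMap r => exact hL r
  | add x y _ _ hx hy => rw [map_add, map_add, hx, hy]
  | mul x y _ _ hx hy => rw [map_mul, map_mul, hx, hy]

/-- A `k`-automorphism of `Ω` restricts to the normal subextension `L`. -/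
theorem ct_aut_restrict (k L Ω : Type*) [Field k] [Field L] [Field Ω]
    [Algebra k L] [Algebra L Ω] [Algebra k Ω] [IsScalarTower k L Ω] [Normal k L]
    (σ : Ω ≃ₐ[k] Ω) :
    ∃ g : L ≃ₐ[k] L, ∀ x : L, σ (algebraMap L Ω x) = algebraMap L Ω (g x) :=
  ⟨σ.restrictNormal L, fun x => (AlgEquiv.restrictNormal_commutes σ L x).symm⟩

/-- If `L/k` is Galois of prime degree and `Ω = L(ξ)` is cyclotomic over `L`, then
`Gal(Ω/k)` is commutative. -/
theorem ct_aut_comm (k L Ω : Type*) [Field k] [Field L] [Field Ω]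
    [Algebra k L] [Algebra L Ω] [Algebra k Ω] [IsScalarTower k L Ω] [IsGalois k L]
    (m : ℕ) [NeZero m] [IsCyclotomicExtension {m} L Ω]
    (p : ℕ) (hp : p.Prime) (hdeg : Module.finrank k L = p)
    (σ τ : Ω ≃ₐ[k] Ω) : σ * τ = τ * σ := by
  obtain ⟨ξ, hξ⟩ :=
    IsCyclotomicExtension.exists_isPrimitiveRoot L Ω (Set.mem_singleton m) (NeZero.ne m)
  obtain ⟨g, hg⟩ := ct_aut_restrict k L Ω σ
  obtain ⟨h, hh⟩ := ct_aut_restrict k L Ω τ
  -- `Gal(L/k)` has prime order, hence is commutative
  have hfin : FiniteDimensional k L :=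
    Module.finite_of_finrank_pos (by rw [hdeg]; exact hp.pos)
  have hcard : Nat.card (L ≃ₐ[k] L) = p := by
    rw [IsGalois.card_aut_eq_finrank, hdeg]
  have : Fact p.Prime := ⟨hp⟩
  have hcyc : IsCyclic (L ≃ₐ[k] L) := isCyclic_of_prime_card hcard
  have hgh : g * h = h * g := by
    obtain ⟨c, hc⟩ := hcyc.exists_generator
    obtain ⟨a, rfl⟩ := hc g
    obtain ⟨b, rfl⟩ := hc h
    exact (Commute.zpow_zpow_self c a b).eq
  -- the action on the root of unity is by powers
  have hσξ : (σ ξ) ^ m = 1 := by rw [← map_pow, hξ.pow_eq_one, map_one]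
  have hτξ : (τ ξ) ^ m = 1 := by rw [← map_pow, hξ.pow_eq_one, map_one]
  obtain ⟨a, -, ha⟩ := hξ.eq_pow_of_pow_eq_one hσξ
  obtain ⟨b, -, hb⟩ := hξ.eq_pow_of_pow_eq_one hτξ
  refine ct_aut_ext k L Ω m ξ hξ (σ * τ) (τ * σ) ?_ ?_
  · intro x
    rw [AlgEquiv.mul_apply, AlgEquiv.mul_apply, hh, hg, hg, hh]
    have := congrArg (fun f : L ≃ₐ[k] L => f x) hgh
    simp only [AlgEquiv.mul_apply] at this
    rw [this]
  · rw [AlgEquiv.mul_apply, AlgEquiv.mul_apply, ← hb, ← ha, map_pow, map_pow, ← ha, ← hb,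
      ← pow_mul, ← pow_mul, mul_comm]

/-- If `L/k` is Galois in characteristic zero and `Ω` is a cyclotomic extension of `L`, then
`Ω/k` is Galois. -/
theorem ct_isGalois (k L Ω : Type*) [Field k] [Field L] [Field Ω] [CharZero k]
    [Algebra k L] [Algebra L Ω] [Algebra k Ω] [IsScalarTower k L Ω] [IsGalois k L]
    (m : ℕ) [NeZero m] [IsCyclotomicExtension {m} L Ω] : IsGalois k Ω := by
  obtain ⟨ξ, hξ⟩ :=
    IsCyclotomicExtension.exists_isPrimitiveRoot L Ω (Set.mem_singleton m) (NeZero.ne m)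
  have htop : Algebra.adjoin L {ξ} = ⊤ := IsCyclotomicExtension.adjoin_primitive_root_eq_top hξ
  have hmpos : 0 < m := Nat.pos_of_ne_zero (NeZero.ne m)
  -- `Ω` is generated over `k` by the image of `L` and `ξ`
  have hadj : ∀ x : Ω, x ∈ IntermediateField.adjoin k (Set.range (algebraMap L Ω) ∪ {ξ}) := by
    intro x
    have hx : x ∈ Algebra.adjoin L {ξ} := by rw [htop]; exact Algebra.mem_top
    induction hx using Algebra.adjoin_induction with
    | mem y hy => exact IntermediateField.subset_adjoin k _ (Or.inr hy)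
    | algebraMap r => exact IntermediateField.subset_adjoin k _ (Or.inl ⟨r, rfl⟩)
    | add x y _ _ hx hy => exact add_mem hx hy
    | mul x y _ _ hx hy => exact mul_mem hx hy
  -- the minimal polynomials of the generators split in `Ω`
  have hsplit : ∀ x ∈ Set.range (algebraMap L Ω) ∪ {ξ},
      IsIntegral k x ∧ ((minpoly k x).map (algebraMap k Ω)).Splits := by
    rintro x (⟨y, rfl⟩ | hx)
    · have hy : IsIntegral k y := Algebra.IsIntegral.isIntegral y
      refine ⟨hy.algebraMap, ?_⟩
      have hmin : minpoly k (algebraMap L Ω y) = minpoly k y :=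
        minpoly.algebraMap_eq (algebraMap L Ω).injective y
      have hs := Normal.splits (inferInstance : Normal k L) y
      rw [hmin, IsScalarTower.algebraMap_eq k L Ω, ← Polynomial.map_map]
      exact hs.map (algebraMap L Ω)
    · rw [Set.mem_singleton_iff] at hx
      subst hx
      have hint : IsIntegral k x :=
        ⟨Polynomial.X ^ m - 1, Polynomial.monic_X_pow_sub_C 1 (NeZero.ne m), by
          simp [hξ.pow_eq_one]⟩
      refine ⟨hint, ?_⟩
      have hdvd : minpoly k x ∣ Polynomial.X ^ m - Polynomial.C (1 : k) := by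
        apply minpoly.dvd
        simp [hξ.pow_eq_one]
      have hs : (Polynomial.X ^ m - Polynomial.C (1 : Ω)).Splits :=
        Polynomial.X_pow_sub_one_splits hξ
      have hmap : (Polynomial.X ^ m - Polynomial.C (1 : k)).map (algebraMap k Ω) =
          Polynomial.X ^ m - Polynomial.C (1 : Ω) := by simp
      refine Polynomial.Splits.of_dvd (hmap ▸ hs) ?_ (Polynomial.map_dvd _ hdvd)
      rw [hmap]
      exact Polynomial.X_pow_sub_C_ne_zero hmpos 1
  have hint : Algebra.IsIntegral k Ω :=
    haveI : Algebra.IsIntegral L Ω := IsCyclotomicExtension.integral {m} L Ω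
    Algebra.IsIntegral.trans L
  have hnormal : Normal k Ω :=
    normal_iff.2 fun x =>
      ⟨Algebra.IsIntegral.isIntegral x, IntermediateField.splits_of_mem_adjoin k Ω hsplit (hadj x)⟩
  exact IsGalois.mk

end Fermat.Agent.S14
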