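import Mathlib
import Fermat.Agent.S14.Defs
import Fermat.Agent.S14.CFieldGal
import Fermat.Agent.S14.CFieldAb

/-!
# P18 (S14), block C, slice CF4: the degree of `Ω` over `K(ξ)`

With `K = ℚ(ζ_p)`, `L/K` Galois of degree `p`, `L/ℚ` Galois and non-abelian, and `Ω = L(ξ)`
for a primitive `m`-th root of unity `ξ`, the field `N = K(ξ)` satisfies `[Ω : N] = p`:
restriction embeds `Gal(Ω/N)` into `Gal(L/K)`, a group of prime order `p`, and `Gal(Ω/N)` is
not trivial since otherwise `Ω = N` would be abelian over `ℚ`, whereas its quotient `Gal(L/ℚ)`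
is not.
-/

set_option autoImplicit false

namespace Fermat.Agent.S14

open NumberField

/-- Restriction `Gal(Ω/N) → Gal(L/K)` for an intermediate field `N` of `Ω/K`. -/
private noncomputable def ct_fd_res (K L Ω : Type*) [Field K] [Field L] [Field Ω]
    [Algebra K L] [Algebra L Ω] [Algebra K Ω] [IsScalarTower K L Ω] [Normal K L]
    (N : IntermediateField K Ω) : (Ω ≃ₐ[↥N] Ω) →* (L ≃ₐ[K] L) :=
  (AlgEquiv.restrictNormalHom L).comp (AlgEquiv.restrictScalarsHom K)

private theorem ct_fd_res_injective (K L Ω : Type*) [Field K] [Field L] [Field Ω]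
    [Algebra K L] [Algebra L Ω] [Algebra K Ω] [IsScalarTower K L Ω] [Normal K L]
    (m : ℕ) [NeZero m] [IsCyclotomicExtension {m} L Ω] (ξ : Ω) (hξ : IsPrimitiveRoot ξ m) :
    Function.Injective (ct_fd_res K L Ω (IntermediateField.adjoin K {ξ})) := by
  rw [injective_iff_map_eq_one]
  intro σ hσ
  have h1 : σ.restrictScalars K = 1 := by
    apply ct_aut_ext K L Ω m ξ hξ
    · intro x
      have h2 : AlgEquiv.restrictNormal (σ.restrictScalars K) L = 1 := hσ
      have h3 := AlgEquiv.restrictNormal_commutes (σ.restrictScalars K) L x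
      rw [h2] at h3
      simpa using h3.symm
    · have h4 := σ.commutes ⟨ξ, IntermediateField.mem_adjoin_simple_self K ξ⟩
      simpa using h4
  apply AlgEquiv.ext
  intro x
  have h5 := congrArg (fun f : Ω ≃ₐ[K] Ω => f x) h1
  simpa using h5

theorem ct_finrank_over_adjoin (p : ℕ) [Fact p.Prime] (K L Ω : Type*) [Field K] [NumberField K]
    [Field L] [NumberField L] [Field Ω] [NumberField Ω] [Algebra K L] [Algebra L Ω] [Algebra K Ω]
    [IsScalarTower K L Ω] [IsGalois K L] [IsCyclotomicExtension {p} ℚ K] [IsGalois ℚ L]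
    (m : ℕ) [NeZero m] [IsCyclotomicExtension {m} L Ω] (hdeg : Module.finrank K L = p)
    (hnab : ∃ σ τ : L ≃ₐ[ℚ] L, σ * τ ≠ τ * σ) (ξ : Ω) (hξ : IsPrimitiveRoot ξ m) :
    Module.finrank (IntermediateField.adjoin K {ξ}) Ω = p := by
  have hp : p.Prime := Fact.out
  have : IsGalois K Ω := ct_isGalois K L Ω m
  have : IsGalois ℚ Ω := ct_isGalois ℚ L Ω m
  have : FiniteDimensional K Ω := Module.Finite.of_restrictScalars_finite ℚ K Ω
  have : FiniteDimensional K L := Module.Finite.of_restrictScalars_finite ℚ K L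
  have hinj := ct_fd_res_injective K L Ω m ξ hξ
  have hdvd : Nat.card (Ω ≃ₐ[↥(IntermediateField.adjoin K {ξ})] Ω) ∣ Nat.card (L ≃ₐ[K] L) :=
    Subgroup.card_dvd_of_injective _ hinj
  rw [IsGalois.card_aut_eq_finrank, IsGalois.card_aut_eq_finrank, hdeg] at hdvd
  rcases (Nat.dvd_prime hp).1 hdvd with h1 | h1
  · exfalso
    have htop : IntermediateField.adjoin K {ξ} = ⊤ :=
      IntermediateField.finrank_eq_one_iff_eq_top.1 h1
    obtain ⟨σ, τ, hστ⟩ := hnab
    obtain ⟨σ', rfl⟩ := AlgEquiv.restrictNormalHom_surjective Ω σ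
    obtain ⟨τ', rfl⟩ := AlgEquiv.restrictNormalHom_surjective Ω τ
    apply hστ
    rw [← map_mul, ← map_mul, ct_comm_of_adjoin_eq_top p K Ω m ξ hξ htop σ' τ']
  · exact h1

end Fermat.Agent.S14
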