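import Mathlib
import Fermat.Agent.S14.Defs
import Fermat.Agent.S14.CFieldGal
import Fermat.Agent.S14.CFieldCyc
import Fermat.Agent.S14.CFieldDeg

/-!
# P18 (S14), block C, slice CF5: the degree of `Ω / K` and automorphisms with prescribed values

Setting: `K = ℚ(ζ_p)`, `L / K` Galois of degree `p` with `L / ℚ` Galois non-abelian,
`Ω = L(ξ)` with `ξ` a primitive `m`-th root of unity, `m` prime to `p`.

* `ct_finrank_top` : `[Ω : K] = p * φ(m)`.
* `ct_exists_aut` : for `g ∈ Gal(L/K)` and `b` prime to `m` there is `σ ∈ Gal(Ω/K)` restricting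
  to `g` on `L` and with `σ ξ = ξ ^ b`.
-/

set_option autoImplicit false

namespace Fermat.Agent.S14

open NumberField

theorem ct_finrank_top (p : ℕ) [Fact p.Prime] (K L Ω : Type*) [Field K] [NumberField K]
    [Field L] [NumberField L] [Field Ω] [NumberField Ω] [Algebra K L] [Algebra L Ω] [Algebra K Ω]
    [IsScalarTower K L Ω] [IsGalois K L] [IsCyclotomicExtension {p} ℚ K] [IsGalois ℚ L]
    (m : ℕ) [NeZero m] [IsCyclotomicExtension {m} L Ω] (hdeg : Module.finrank K L = p)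
    (hnab : ∃ σ τ : L ≃ₐ[ℚ] L, σ * τ ≠ τ * σ) (hpm : Nat.Coprime p m) :
    Module.finrank K Ω = p * Nat.totient m := by
  obtain ⟨ξ, hξ⟩ :=
    IsCyclotomicExtension.exists_isPrimitiveRoot L Ω (Set.mem_singleton m) (NeZero.ne m)
  have h1 : Module.finrank K (IntermediateField.adjoin K {ξ}) = Nat.totient m :=
    ct_finrank_adjoin_root p K Ω m hpm ξ hξ
  have h2 : Module.finrank (IntermediateField.adjoin K {ξ}) Ω = p :=
    ct_finrank_over_adjoin p K L Ω m hdeg hnab ξ hξ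
  have h3 : Module.finrank K (IntermediateField.adjoin K {ξ}) *
      Module.finrank (IntermediateField.adjoin K {ξ}) Ω = Module.finrank K Ω :=
    Module.finrank_mul_finrank K (IntermediateField.adjoin K {ξ}) Ω
  rw [← h3, h1, h2, Nat.mul_comm]

theorem ct_exists_aut (p : ℕ) [Fact p.Prime] (K L Ω : Type*) [Field K] [NumberField K]
    [Field L] [NumberField L] [Field Ω] [NumberField Ω] [Algebra K L] [Algebra L Ω] [Algebra K Ω]
    [IsScalarTower K L Ω] [IsGalois K L] [IsCyclotomicExtension {p} ℚ K] [IsGalois ℚ L]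
    (m : ℕ) [NeZero m] [IsCyclotomicExtension {m} L Ω] (hdeg : Module.finrank K L = p)
    (hnab : ∃ σ τ : L ≃ₐ[ℚ] L, σ * τ ≠ τ * σ) (hpm : Nat.Coprime p m)
    (ξ : Ω) (hξ : IsPrimitiveRoot ξ m) (g : L ≃ₐ[K] L) (b : ℕ) (hb : Nat.Coprime b m) :
    ∃ σ : Ω ≃ₐ[K] Ω, (∀ x : L, σ (algebraMap L Ω x) = algebraMap L Ω (g x)) ∧ σ ξ = ξ ^ b := by
  have : IsGalois K Ω := ct_isGalois K L Ω m
  have : FiniteDimensional K Ω := Module.Finite.of_restrictScalars_finite ℚ K Ω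
  have : FiniteDimensional K L := Module.Finite.of_restrictScalars_finite ℚ K L
  -- the restriction / cyclotomic character homomorphism
  let Φ : (Ω ≃ₐ[K] Ω) →* (L ≃ₐ[K] L) × (ZMod m)ˣ :=
    MonoidHom.prod (AlgEquiv.restrictNormalHom L) (hξ.autToPow K)
  have hΦ1 : ∀ σ : Ω ≃ₐ[K] Ω, (Φ σ).1 = AlgEquiv.restrictNormalHom L σ := fun _ => rfl
  have hΦ2 : ∀ σ : Ω ≃ₐ[K] Ω, (Φ σ).2 = hξ.autToPow K σ := fun _ => rfl
  have hcomm : ∀ (σ : Ω ≃ₐ[K] Ω) (x : L),
      algebraMap L Ω ((Φ σ).1 x) = σ (algebraMap L Ω x) := fun σ x =>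
    AlgEquiv.restrictNormal_commutes σ L x
  have hpow : ∀ σ : Ω ≃ₐ[K] Ω, ξ ^ (((Φ σ).2 : (ZMod m)ˣ) : ZMod m).val = σ ξ := fun σ =>
    hξ.autToPow_spec K σ
  have hinj : Function.Injective Φ := by
    intro σ τ h
    apply ct_aut_ext K L Ω m ξ hξ σ τ
    · intro x
      rw [← hcomm σ x, ← hcomm τ x, h]
    · rw [← hpow σ, ← hpow τ, h]
  -- cardinalities
  have hcΩ : Nat.card (Ω ≃ₐ[K] Ω) = p * Nat.totient m := by
    rw [IsGalois.card_aut_eq_finrank]
    exact ct_finrank_top p K L Ω m hdeg hnab hpm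
  have hcL : Nat.card (L ≃ₐ[K] L) = p := by
    rw [IsGalois.card_aut_eq_finrank, hdeg]
  have hcZ : Nat.card (ZMod m)ˣ = Nat.totient m := by
    rw [Nat.card_eq_fintype_card, ZMod.card_units_eq_totient]
  have hcard : Nat.card ((L ≃ₐ[K] L) × (ZMod m)ˣ) ≤ Nat.card (Ω ≃ₐ[K] Ω) := by
    rw [Nat.card_prod, hcL, hcZ, hcΩ]
  have hbij : Function.Bijective Φ := hinj.bijective_of_nat_card_le hcard
  obtain ⟨σ, hσ⟩ := hbij.2 (g, ZMod.unitOfCoprime b hb)
  refine ⟨σ, ?_, ?_⟩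
  · intro x
    rw [← hcomm σ x, hσ]
  · rw [← hpow σ, hσ]
    show ξ ^ ((ZMod.unitOfCoprime b hb : (ZMod m)ˣ) : ZMod m).val = ξ ^ b
    rw [ZMod.coe_unitOfCoprime, ZMod.val_natCast, pow_eq_pow_mod b hξ.pow_eq_one]

end Fermat.Agent.S14
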