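import Mathlib
import Fermat.Agent.S14.Defs

/-!
# P18 (S14), block C: the fixed field `F` of a subgroup `H ≤ Gal(Ω/K)` and the compositum `M = L·F`

For a tower `K ⊆ L ⊆ Ω` and a subgroup `H` of `Gal(Ω/K)`:

* `ctF K Ω H` is the fixed field of `H` (an intermediate field of `Ω/K`);
* `ctM K L Ω H` is the compositum `L·F`, as an intermediate field of `Ω/F`;
* `M` is made an `L`-algebra through the inclusion `ctLM`, with the two scalar towers
  `K → L → M` and `L → M → Ω`.
-/

set_option autoImplicit false

namespace Fermat.Agent.S14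

open NumberField

section CFixed

variable (K L Ω : Type*) [Field K] [Field L] [Field Ω] [Algebra K L] [Algebra L Ω] [Algebra K Ω]
  [IsScalarTower K L Ω] (H : Subgroup (Ω ≃ₐ[K] Ω))

/-- The fixed field of `H`. -/
abbrev ctF : IntermediateField K Ω := IntermediateField.fixedField H

/-- `M = L·F` as an intermediate field of `Ω / F`. -/
abbrev ctM : IntermediateField ↥(ctF K Ω H) Ω :=
  IntermediateField.adjoin ↥(ctF K Ω H) (Set.range (algebraMap L Ω))

/-- The embedding `L → M`. -/
noncomputable def ctLM : L →+* ↥(ctM K L Ω H) :=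
  (algebraMap L Ω).codRestrict (ctM K L Ω H)
    (fun x => IntermediateField.subset_adjoin _ _ ⟨x, rfl⟩)

noncomputable instance ctAlgebraLM : Algebra L ↥(ctM K L Ω H) := (ctLM K L Ω H).toAlgebra

omit [Algebra K L] [IsScalarTower K L Ω] in
theorem ct_algebraMap_LM (x : L) :
    ((algebraMap L ↥(ctM K L Ω H) x : ↥(ctM K L Ω H)) : Ω) = algebraMap L Ω x := rfl

instance ctTowerLMΩ : IsScalarTower L ↥(ctM K L Ω H) Ω :=
  IsScalarTower.of_algebraMap_eq (fun _ => rfl)

instance ctTowerKLM : IsScalarTower K L ↥(ctM K L Ω H) :=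
  IsScalarTower.of_algebraMap_eq (fun x => by
    apply Subtype.ext
    rw [ct_algebraMap_LM]
    rw [← IsScalarTower.algebraMap_apply K L Ω]
    rfl)

end CFixed

end Fermat.Agent.S14
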