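import Mathlib
import Fermat.Agent.S14.Defs
import Fermat.Agent.S14.CFixedDefs

/-!
# P18 (S14), block C, slice CX3: automorphisms over the fixed field `F` of `H ≤ Gal(Ω/K)`

For a tower `K ⊆ L ⊆ Ω` of number fields with `Ω/K` Galois, a subgroup `H` of `Gal(Ω/K)`,
`F = ctF K Ω H` the fixed field of `H` and `M = ctM K L Ω H = L·F`:

* `ct_adjoin_root` : if no nontrivial element of `H` fixes `ξ`, then `F(ξ) = Ω`;
* `ct_lift_aut` : every `h ∈ H` is an `F`-automorphism of `Ω`;
* `ct_fix_M` : an `F`-automorphism of `Ω` that fixes `L` pointwise fixes `M` pointwise.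
-/

set_option autoImplicit false

namespace Fermat.Agent.S14

open NumberField

section

variable (K L Ω : Type*) [Field K] [NumberField K] [Field L] [NumberField L]
  [Field Ω] [NumberField Ω] [Algebra K L] [Algebra L Ω] [Algebra K Ω] [IsScalarTower K L Ω]
  [IsGalois K L] [IsGalois K Ω] (H : Subgroup (Ω ≃ₐ[K] Ω))

/-- If no nontrivial element of `H` fixes `ξ`, then `ξ` generates `Ω` over the fixed field of
`H`. -/
theorem ct_adjoin_root (ξ : Ω) (hfix : ∀ h ∈ H, h ξ = ξ → h = 1) :
    IntermediateField.adjoin ↥(ctF K Ω H) {ξ} = ⊤ := by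
  have hfin : FiniteDimensional K Ω := Module.Finite.of_restrictScalars_finite ℚ K Ω
  have hfin' : FiniteDimensional ↥(ctF K Ω H) Ω := inferInstance
  have hgal : IsGalois ↥(ctF K Ω H) Ω := inferInstance
  have hbot : (IntermediateField.adjoin ↥(ctF K Ω H) {ξ}).fixingSubgroup = ⊥ := by
    rw [eq_bot_iff]
    intro σ hσ
    rw [Subgroup.mem_bot]
    have hσξ : σ ξ = ξ :=
      (IntermediateField.mem_fixingSubgroup_iff _ σ).1 hσ ξ
        (IntermediateField.mem_adjoin_simple_self _ ξ)
    have hmem : σ.restrictScalars K ∈ H :=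
      (IntermediateField.fixingSubgroup_fixedField H).le
        ((IntermediateField.mem_fixingSubgroup_iff _ _).2 fun x hx => σ.commutes ⟨x, hx⟩)
    have h1 := hfix _ hmem hσξ
    ext x
    exact DFunLike.congr_fun h1 x
  rw [← IsGalois.fixedField_fixingSubgroup (IntermediateField.adjoin ↥(ctF K Ω H) {ξ}), hbot,
    IntermediateField.fixedField_bot]

omit [NumberField K] [NumberField Ω] [IsGalois K Ω] in
/-- Every element of `H` is an automorphism of `Ω` over the fixed field of `H`. -/
theorem ct_lift_aut (h : Ω ≃ₐ[K] Ω) (hh : h ∈ H) :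
    ∃ h' : Ω ≃ₐ[↥(ctF K Ω H)] Ω, ∀ x : Ω, h' x = h x := by
  refine ⟨{ h.toRingEquiv with commutes' := fun x => ?_ }, fun x => rfl⟩
  exact x.2 ⟨h, hh⟩

omit [NumberField K] [NumberField L] [NumberField Ω] [Algebra K L] [IsScalarTower K L Ω]
  [IsGalois K L] [IsGalois K Ω] in
/-- An `F`-automorphism of `Ω` fixing `L` pointwise fixes the compositum `M = L·F` pointwise. -/
theorem ct_fix_M (h' : Ω ≃ₐ[↥(ctF K Ω H)] Ω)
    (hL : ∀ x : L, h' (algebraMap L Ω x) = algebraMap L Ω x) :
    ∀ x : ↥(ctM K L Ω H), h' (algebraMap ↥(ctM K L Ω H) Ω x)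
      = algebraMap ↥(ctM K L Ω H) Ω x := by
  rintro ⟨x, hx⟩
  change h' x = x
  induction hx using IntermediateField.adjoin_induction with
  | mem y hy => obtain ⟨z, rfl⟩ := hy; exact hL z
  | algebraMap y => exact h'.commutes y
  | add y z _ _ hy hz => rw [map_add, hy, hz]
  | inv y _ hy => rw [map_inv₀, hy]
  | mul y z _ _ hy hz => rw [map_mul, hy, hz]

end

end Fermat.Agent.S14
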