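import Mathlib
import Fermat.Agent.S14.Defs
import Fermat.Agent.S14.CFixedDefs

/-!
# P18 (S14), block C, slice CX1: the extension `M / F` is Galois of degree `p`

Setting: a tower `K ⊆ L ⊆ Ω` of number fields with `L / K` and `Ω / K` Galois and `Gal(Ω/K)`
abelian, a subgroup `H` of `Gal(Ω/K)`, its fixed field `F = ctF K Ω H` and the compositum
`M = ctM K L Ω H = L·F` inside `Ω`.

* `ct_isGalois_FM` : `M / F` is Galois (the fixing subgroup of `M` in the abelian group
  `Gal(Ω/F)` is normal).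
* `ct_finrank_FM` : if `[L : K] = p` is prime and some element of `H` moves some element of `L`,
  then `[M : F] = p` (restriction `Gal(M/F) → Gal(L/K)` is injective, and `M ≠ F`).
-/

set_option autoImplicit false

namespace Fermat.Agent.S14

open NumberField

section

variable (K L Ω : Type*) [Field K] [NumberField K] [Field L] [NumberField L]
  [Field Ω] [NumberField Ω] [Algebra K L] [Algebra L Ω] [Algebra K Ω] [IsScalarTower K L Ω]
  [IsGalois K L] [IsGalois K Ω] (H : Subgroup (Ω ≃ₐ[K] Ω))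

set_option linter.unusedSectionVars false in
/-- `M = L·F` is Galois over `F`, the fixed field of `H`, when `Gal(Ω/K)` is abelian. -/
theorem ct_isGalois_FM (hcomm : ∀ σ τ : Ω ≃ₐ[K] Ω, σ * τ = τ * σ) :
    IsGalois ↥(ctF K Ω H) ↥(ctM K L Ω H) := by
  -- `Gal(Ω/F)` is abelian, because it embeds into `Gal(Ω/K)`
  have hcommF : ∀ σ τ : Ω ≃ₐ[↥(ctF K Ω H)] Ω, σ * τ = τ * σ := by
    intro σ τ
    have h := hcomm (σ.restrictScalars K) (τ.restrictScalars K)
    ext x
    have hx := congrArg (fun f : Ω ≃ₐ[K] Ω => f x) h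
    exact hx
  -- hence the fixing subgroup of `M` is normal
  have hn : (ctM K L Ω H).fixingSubgroup.Normal := by
    constructor
    intro n hn g
    rw [hcommF g n, mul_inv_cancel_right]
    exact hn
  have hfix := IsGalois.fixedField_fixingSubgroup (ctM K L Ω H)
  have hgal : IsGalois ↥(ctF K Ω H)
      ↥(IntermediateField.fixedField (ctM K L Ω H).fixingSubgroup) :=
    IsGalois.of_fixedField_normal_subgroup _
  rw [hfix] at hgal
  exact hgal

/-- `[M : F] = p` when `[L : K] = p` is prime and `H` does not fix `L` pointwise. -/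
theorem ct_finrank_FM (p : ℕ) (hp : p.Prime) (hdeg : Module.finrank K L = p)
    (hcomm : ∀ σ τ : Ω ≃ₐ[K] Ω, σ * τ = τ * σ)
    (hmove : ∃ h ∈ H, ∃ x : L, h (algebraMap L Ω x) ≠ algebraMap L Ω x) :
    Module.finrank ↥(ctF K Ω H) ↥(ctM K L Ω H) = p := by
  have hG : IsGalois ↥(ctF K Ω H) ↥(ctM K L Ω H) := ct_isGalois_FM K L Ω H hcomm
  have hcard : Nat.card (↥(ctM K L Ω H) ≃ₐ[↥(ctF K Ω H)] ↥(ctM K L Ω H)) =
      Module.finrank ↥(ctF K Ω H) ↥(ctM K L Ω H) :=
    IsGalois.card_aut_eq_finrank _ _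
  -- the restriction homomorphism `Gal(M/F) → Gal(L/K)`
  let r : (↥(ctM K L Ω H) ≃ₐ[↥(ctF K Ω H)] ↥(ctM K L Ω H)) →* (L ≃ₐ[K] L) :=
    IntermediateField.restrictRestrictAlgEquivMapHom K L ↥(ctF K Ω H) ↥(ctM K L Ω H)
  have hr : ∀ σ x, algebraMap L ↥(ctM K L Ω H) (r σ x) =
      σ (algebraMap L ↥(ctM K L Ω H) x) := by
    intro σ x
    exact AlgEquiv.restrictNormal_commutes _ L x
  -- it is injective, because `M` is generated over `F` by the image of `L`
  have hinj : Function.Injective r := by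
    refine (injective_iff_map_eq_one _).mpr fun σ hσ => ?_
    have h1 : ∀ x : L, σ (algebraMap L ↥(ctM K L Ω H) x) = algebraMap L ↥(ctM K L Ω H) x := by
      intro x
      rw [← hr, hσ]; rfl
    have h2 : (ctM K L Ω H).val.comp σ.toAlgHom = (ctM K L Ω H).val := by
      apply IntermediateField.adjoin_algHom_ext
      rintro _ ⟨x, rfl⟩
      have := h1 x
      exact congrArg Subtype.val this
    ext y
    have := congrArg (fun f => f y) h2
    exact this
  have hdvd : Nat.card (↥(ctM K L Ω H) ≃ₐ[↥(ctF K Ω H)] ↥(ctM K L Ω H)) ∣ p := by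
    have := Subgroup.card_dvd_of_injective r hinj
    rwa [IsGalois.card_aut_eq_finrank K L, hdeg] at this
  rw [hcard] at hdvd
  rcases (Nat.dvd_prime hp).mp hdvd with h1 | h1
  · -- degree one would force `L ⊆ F`, i.e. `H` fixes `L` pointwise
    exfalso
    have hbot : ctM K L Ω H = ⊥ := IntermediateField.finrank_eq_one_iff.mp h1
    obtain ⟨h, hh, x, hx⟩ := hmove
    apply hx
    have hmem : algebraMap L Ω x ∈ ctM K L Ω H :=
      IntermediateField.subset_adjoin _ _ ⟨x, rfl⟩
    rw [hbot, IntermediateField.mem_bot] at hmem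
    obtain ⟨y, hy⟩ := hmem
    rw [← hy]
    exact (IntermediateField.mem_fixedField_iff H _).mp y.2 h hh
  · exact h1

end

end Fermat.Agent.S14
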