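import Mathlib
import Fermat.Agent.S14.Defs

/-!
# P18 (S14), block C, slice CUnram (F6): compositum with an unramified extension

If `L/K` is a normal extension of number fields that is unramified at all finite primes and
`M ⊇ L`, `M ⊇ F ⊇ K` is generated by `L` over `F`, then `M/F` is unramified at all finite primes.
-/

set_option autoImplicit false

namespace Fermat.Agent.S14

open NumberField
open scoped Pointwise

/-- The action of the Galois group on integers is compatible with the coercion to the field. -/
theorem ct_unram_coe_smul (F M : Type*) [Field F] [Field M] [Algebra F M]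
    (σ : M ≃ₐ[F] M) (x : 𝓞 M) : ((σ • x : 𝓞 M) : M) = σ (x : M) := rfl

/-- The inclusion of rings of integers is compatible with the coercions to the fields. -/
theorem ct_unram_coe_algebraMap (L M : Type*) [Field L] [Field M] [Algebra L M] (y : 𝓞 L) :
    ((algebraMap (𝓞 L) (𝓞 M) y : 𝓞 M) : M) = algebraMap L M (y : L) := rfl

/-- Restriction to a normal subextension is compatible with the inclusion of integers. -/
theorem ct_unram_algebraMap_restrict (K L F M : Type*) [Field K] [Field L] [Field F] [Field M]
    [Algebra K L] [Algebra K F] [Algebra K M] [Algebra L M] [Algebra F M]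
    [IsScalarTower K L M] [IsScalarTower K F M] [Normal K L] (σ : M ≃ₐ[F] M) (y : 𝓞 L) :
    algebraMap (𝓞 L) (𝓞 M) ((σ.restrictScalars K).restrictNormal L • y - y) =
      σ • algebraMap (𝓞 L) (𝓞 M) y - algebraMap (𝓞 L) (𝓞 M) y := by
  apply RingOfIntegers.ext
  have e1 : ((algebraMap (𝓞 L) (𝓞 M) ((σ.restrictScalars K).restrictNormal L • y - y) : 𝓞 M) : M)
      = algebraMap L M ((σ.restrictScalars K).restrictNormal L (y : L) - (y : L)) := rfl
  have e2 : ((σ • algebraMap (𝓞 L) (𝓞 M) y - algebraMap (𝓞 L) (𝓞 M) y : 𝓞 M) : M)
      = σ (algebraMap L M (y : L)) - algebraMap L M (y : L) := rfl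
  rw [e1, e2, map_sub, AlgEquiv.restrictNormal_commutes]
  rfl

/-- (F6) a compositum with an everywhere unramified extension is everywhere unramified. -/
theorem ct_unramified_compositum (K L F M : Type*) [Field K] [NumberField K] [Field L]
    [NumberField L] [Field F] [NumberField F] [Field M] [NumberField M]
    [Algebra K L] [Algebra K F] [Algebra K M] [Algebra L M] [Algebra F M]
    [IsScalarTower K L M] [IsScalarTower K F M] [Normal K L]
    (hunr : UnramifiedEverywhere K L)
    (hgen : ∀ σ : M ≃ₐ[F] M, (∀ y : L, σ (algebraMap L M y) = algebraMap L M y) → σ = 1) :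
    UnramifiedEverywhere F M := by
  intro P hP hPne σ hσ
  have hQp : (Ideal.under (𝓞 L) P).IsPrime := Ideal.IsPrime.under (𝓞 L) P
  have hQne : Ideal.under (𝓞 L) P ≠ ⊥ := mt Ideal.eq_bot_of_comap_eq_bot hPne
  have hτ : (σ.restrictScalars K).restrictNormal L = 1 := by
    refine hunr (Ideal.under (𝓞 L) P) hQp hQne _ fun y => ?_
    rw [Ideal.under, Ideal.mem_comap, ct_unram_algebraMap_restrict]
    exact hσ _
  refine hgen σ fun y => ?_
  have h1 := AlgEquiv.restrictNormal_commutes (σ.restrictScalars K) L y
  rw [hτ] at h1
  exact h1.symm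

end Fermat.Agent.S14
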