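import Mathlib
import Fermat.Agent.S14.Defs
import Fermat.Agent.S14.CFixedDefs
import Fermat.Agent.S14.CUnram

/-!
# P18 (S14), block C, slice CFixedUnram: `M = L·F` is unramified over `F`

For a tower `K ⊆ L ⊆ Ω` of number fields with `L/K` Galois and everywhere unramified, and a
subgroup `H ≤ Gal(Ω/K)` with fixed field `F`, the compositum `M = L·F` is everywhere unramified
over `F`.
-/

set_option autoImplicit false

namespace Fermat.Agent.S14

open NumberField

/-- An automorphism of `F(S)` over `F` that fixes the generators `S` is the identity. -/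
theorem ct_fixunr_algEquiv_eq_one (F Ω : Type*) [Field F] [Field Ω] [Algebra F Ω] (S : Set Ω)
    (σ : ↥(IntermediateField.adjoin F S) ≃ₐ[F] ↥(IntermediateField.adjoin F S))
    (hσ : ∀ (x : Ω) (hx : x ∈ S), σ ⟨x, IntermediateField.subset_adjoin F S hx⟩ =
      ⟨x, IntermediateField.subset_adjoin F S hx⟩) : σ = 1 := by
  have key : ∀ (x : Ω) (hx : x ∈ IntermediateField.adjoin F S), σ ⟨x, hx⟩ = ⟨x, hx⟩ := by
    intro x hx
    induction hx using IntermediateField.adjoin_induction with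
    | mem x hx => exact hσ x hx
    | algebraMap c => exact σ.commutes c
    | add x y hx hy ihx ihy =>
      have h : (⟨x + y, add_mem hx hy⟩ : ↥(IntermediateField.adjoin F S)) = ⟨x, hx⟩ + ⟨y, hy⟩ :=
        rfl
      rw [h, map_add, ihx, ihy]
    | inv x hx ihx =>
      have h : (⟨x⁻¹, inv_mem hx⟩ : ↥(IntermediateField.adjoin F S)) = (⟨x, hx⟩)⁻¹ := rfl
      rw [h, map_inv₀, ihx]
    | mul x y hx hy ihx ihy =>
      have h : (⟨x * y, mul_mem hx hy⟩ : ↥(IntermediateField.adjoin F S)) = ⟨x, hx⟩ * ⟨y, hy⟩ :=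
        rfl
      rw [h, map_mul, ihx, ihy]
  exact AlgEquiv.ext fun x => key x.1 x.2

/-- `M = L·F` is generated by `L` over `F`: an `F`-automorphism of `M` fixing `L` is trivial. -/
theorem ct_fixunr_gen (K L Ω : Type*) [Field K] [Field L] [Field Ω] [Algebra K L] [Algebra L Ω]
    [Algebra K Ω] [IsScalarTower K L Ω] (H : Subgroup (Ω ≃ₐ[K] Ω))
    (σ : ↥(ctM K L Ω H) ≃ₐ[↥(ctF K Ω H)] ↥(ctM K L Ω H))
    (hσ : ∀ y : L, σ (algebraMap L ↥(ctM K L Ω H) y) = algebraMap L ↥(ctM K L Ω H) y) :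
    σ = 1 := by
  refine ct_fixunr_algEquiv_eq_one ↥(ctF K Ω H) Ω (Set.range (algebraMap L Ω)) σ ?_
  rintro x ⟨y, rfl⟩
  exact hσ y

/-- (CFixedUnram) `M = L·F` is everywhere unramified over `F` when `L/K` is. -/
theorem ct_unram_FM (K L Ω : Type*) [Field K] [NumberField K] [Field L] [NumberField L]
    [Field Ω] [NumberField Ω] [Algebra K L] [Algebra L Ω] [Algebra K Ω] [IsScalarTower K L Ω]
    [IsGalois K L] [IsGalois K Ω] (H : Subgroup (Ω ≃ₐ[K] Ω)) (hunr : UnramifiedEverywhere K L) :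
    UnramifiedEverywhere ↥(ctF K Ω H) ↥(ctM K L Ω H) :=
  ct_unramified_compositum K L ↥(ctF K Ω H) ↥(ctM K L Ω H) hunr
    (fun σ hσ => ct_fixunr_gen K L Ω H σ hσ)

end Fermat.Agent.S14
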