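import Mathlib
import Fermat.Agent.S14.Defs

/-!
# P18 (S14), block C: generic lemmas on Frobenius and inertia elements

Galois extensions of number fields, with the conventions of block C: the Galois group acts on
the ring of integers by Mathlib's `σ • x`; "`φ` is a Frobenius element at `𝔓` with norm `ℓ`" means
`∀ x : 𝓞 E, φ • x - x ^ ℓ ∈ 𝔓`; "`σ` lies in the inertia group of `𝔓`" means
`∀ x : 𝓞 E, σ • x - x ∈ 𝔓`.

* `ct_frob_apply_of_pow_eq_one` (F1): a Frobenius element raises roots of unity of order prime to the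
  residue characteristic to the power `ℓ`;
* `ct_frob_restrict` (F2), `ct_inertia_restrict` (F2'): restriction to a normal subextension;
* `ct_frob_unique` (F3): with trivial inertia, the Frobenius element is unique;
* `ct_exists_frob` (F4): existence of a Frobenius element;
* `ct_frob_smul_mem` (F5): a Frobenius element stabilises its prime.

Auxiliary declarations carry the prefix `ct_fg_`.
-/

set_option autoImplicit false

namespace Fermat.Agent.S14

open NumberField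

open scoped Pointwise

/-! ### Auxiliary facts -/

/-- The Galois action on the ring of integers is the restriction of the action on the field. -/
theorem ct_fg_coe_smul {K E : Type*} [Field K] [Field E] [Algebra K E] (σ : E ≃ₐ[K] E)
    (x : 𝓞 E) : ((σ • x : 𝓞 E) : E) = σ (x : E) :=
  rfl

/-- The inclusion of rings of integers is the restriction of the inclusion of the fields. -/
theorem ct_fg_coe_algebraMap (L E : Type*) [Field L] [Field E] [Algebra L E] (y : 𝓞 L) :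
    ((algebraMap (𝓞 L) (𝓞 E) y : 𝓞 E) : E) = algebraMap L E (y : L) :=
  rfl

/-- Restriction to a normal subextension is compatible with the inclusion of the rings of
integers. -/
theorem ct_fg_algebraMap_restrict_smul (K L E : Type*) [Field K] [Field L] [Field E]
    [Algebra K L] [Algebra L E] [Algebra K E] [IsScalarTower K L E] [Normal K L]
    (ψ : E ≃ₐ[K] E) (y : 𝓞 L) :
    algebraMap (𝓞 L) (𝓞 E) ((AlgEquiv.restrictNormalHom L ψ) • y) =
      ψ • algebraMap (𝓞 L) (𝓞 E) y := by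
  apply RingOfIntegers.ext
  rw [ct_fg_coe_algebraMap, ct_fg_coe_smul, ct_fg_coe_smul, ct_fg_coe_algebraMap]
  exact AlgEquiv.restrictNormal_commutes ψ L (y : L)

/-- In a domain, two `m`-th roots of unity which are congruent modulo an ideal not containing
`m` are equal. -/
theorem ct_fg_eq_of_pow_eq_one_of_sub_mem {S : Type*} [CommRing S] [IsDomain S] (P : Ideal S)
    {m : ℕ} (hm : (m : S) ∉ P) {a b : S} (ha : a ^ m = 1) (hb : b ^ m = 1)
    (hab : a - b ∈ P) : a = b := by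
  have hm0 : m ≠ 0 := by
    rintro rfl
    exact hm (by rw [Nat.cast_zero]; exact P.zero_mem)
  obtain ⟨k, rfl⟩ : ∃ k, m = k + 1 := ⟨m - 1, by omega⟩
  have hbk : b ^ k * b = 1 := by rw [← pow_succ, hb]
  set c : S := a * b ^ k with hc
  have hcm : c ^ (k + 1) = 1 := by
    rw [hc, mul_pow, ha, one_mul, ← pow_mul, mul_comm k, pow_mul, hb, one_pow]
  have hc1 : c - 1 ∈ P := by
    have h1 : c - 1 = (a - b) * b ^ k := by
      rw [hc, sub_mul, mul_comm b (b ^ k), hbk]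
    rw [h1]
    exact P.mul_mem_right _ hab
  have hgeom : (∑ i ∈ Finset.range (k + 1), c ^ i) * (c - 1) = 0 := by
    rw [geom_sum_mul, hcm, sub_self]
  have hsum : ∑ i ∈ Finset.range (k + 1), c ^ i ≠ 0 := by
    intro h0
    apply hm
    have hmk : Ideal.Quotient.mk P c = 1 := by
      rw [← sub_eq_zero, ← map_one (Ideal.Quotient.mk P), ← map_sub,
        Ideal.Quotient.eq_zero_iff_mem]
      exact hc1
    have h1 := congrArg (Ideal.Quotient.mk P) h0
    rw [map_sum, map_zero] at h1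
    simp only [map_pow, hmk, one_pow, Finset.sum_const, Finset.card_range, nsmul_eq_mul,
      mul_one] at h1
    rw [← map_natCast (Ideal.Quotient.mk P), Ideal.Quotient.eq_zero_iff_mem] at h1
    exact h1
  have hc_one : c = 1 := by
    rcases mul_eq_zero.mp hgeom with h | h
    · exact absurd h hsum
    · exact sub_eq_zero.mp h
  calc a = a * (b ^ k * b) := by rw [hbk, mul_one]
    _ = c * b := by rw [hc, mul_assoc]
    _ = b := by rw [hc_one, one_mul]

/-! ### (F5), (F3): stabiliser and uniqueness -/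

/-- A Frobenius element maps its ideal into itself. -/
theorem ct_fg_frob_smul_mem_of_mem {K E : Type*} [Field K] [Field E] [Algebra K E]
    (𝔓 : Ideal (𝓞 E)) (φ : E ≃ₐ[K] E) (ℓ : ℕ) (hℓ : ℓ ≠ 0)
    (hφ : ∀ x : 𝓞 E, φ • x - x ^ ℓ ∈ 𝔓) {x : 𝓞 E} (hx : x ∈ 𝔓) : φ • x ∈ 𝔓 := by
  have h1 : φ • x = (φ • x - x ^ ℓ) + x ^ ℓ := by ring
  rw [h1]
  exact 𝔓.add_mem (hφ x) (𝔓.pow_mem_of_mem hx ℓ (Nat.pos_of_ne_zero hℓ))

/-- The powers of a Frobenius element map its ideal into itself. -/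
theorem ct_fg_frob_pow_smul_mem_of_mem {K E : Type*} [Field K] [Field E] [Algebra K E]
    (𝔓 : Ideal (𝓞 E)) (φ : E ≃ₐ[K] E) (ℓ : ℕ) (hℓ : ℓ ≠ 0)
    (hφ : ∀ x : 𝓞 E, φ • x - x ^ ℓ ∈ 𝔓) (n : ℕ) {x : 𝓞 E} (hx : x ∈ 𝔓) : (φ ^ n) • x ∈ 𝔓 := by
  induction n with
  | zero =>
    rw [pow_zero, one_smul]
    exact hx
  | succ n ih =>
    rw [pow_succ', mul_smul]
    exact ct_fg_frob_smul_mem_of_mem 𝔓 φ ℓ hℓ hφ ih

/-- (F5) a Frobenius element stabilises its prime. -/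
theorem ct_frob_smul_mem (K E : Type*) [Field K] [NumberField K] [Field E] [NumberField E]
    [Algebra K E] [FiniteDimensional K E] (𝔓 : Ideal (𝓞 E)) (φ : E ≃ₐ[K] E) (ℓ : ℕ) (hℓ : ℓ ≠ 0)
    (hφ : ∀ x : 𝓞 E, φ • x - x ^ ℓ ∈ 𝔓) (x : 𝓞 E) : φ • x ∈ 𝔓 ↔ x ∈ 𝔓 := by
  refine ⟨fun h => ?_, fun h => ct_fg_frob_smul_mem_of_mem 𝔓 φ ℓ hℓ hφ h⟩
  have hpos : 0 < orderOf φ := orderOf_pos φ
  have h1 := ct_fg_frob_pow_smul_mem_of_mem 𝔓 φ ℓ hℓ hφ (orderOf φ - 1) h
  have h2 : (φ ^ (orderOf φ - 1)) • (φ • x) = x := by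
    rw [← mul_smul, ← pow_succ, Nat.sub_add_cancel hpos, pow_orderOf_eq_one, one_smul]
  rw [h2] at h1
  exact h1

/-- (F3) with trivial inertia, the Frobenius element is unique. -/
theorem ct_frob_unique (K L : Type*) [Field K] [NumberField K] [Field L] [NumberField L]
    [Algebra K L] [FiniteDimensional K L] (𝔔 : Ideal (𝓞 L)) (hin : InertiaTrivialAt K L 𝔔)
    (q : ℕ) (hq : q ≠ 0) (g g' : L ≃ₐ[K] L) (hg : ∀ x : 𝓞 L, g • x - x ^ q ∈ 𝔔)
    (hg' : ∀ x : 𝓞 L, g' • x - x ^ q ∈ 𝔔) : g = g' := by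
  have h1 : g⁻¹ * g' = 1 := by
    refine hin (g⁻¹ * g') fun x => ?_
    have h2 : g' • x - g • x ∈ 𝔔 := by
      have h3 : g' • x - g • x = (g' • x - x ^ q) - (g • x - x ^ q) := by ring
      rw [h3]
      exact 𝔔.sub_mem (hg' x) (hg x)
    have h4 : g • ((g⁻¹ * g') • x - x) = g' • x - g • x := by
      rw [smul_sub, ← mul_smul, mul_inv_cancel_left]
    rw [← ct_frob_smul_mem K L 𝔔 g q hq hg, h4]
    exact h2
  exact (inv_mul_eq_one.mp h1)

/-! ### (F2), (F2'): restriction to a normal subextension -/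

/-- (F2) restriction of a Frobenius element to a normal subextension. -/
theorem ct_frob_restrict (K L E : Type*) [Field K] [NumberField K] [Field L] [NumberField L]
    [Field E] [NumberField E] [Algebra K L] [Algebra L E] [Algebra K E] [IsScalarTower K L E]
    [Normal K L] (𝔓 : Ideal (𝓞 E)) (ψ : E ≃ₐ[K] E) (q : ℕ)
    (hψ : ∀ x : 𝓞 E, ψ • x - x ^ q ∈ 𝔓) (y : 𝓞 L) :
    (AlgEquiv.restrictNormalHom L ψ) • y - y ^ q ∈ Ideal.under (𝓞 L) 𝔓 := by
  rw [Ideal.under_def, Ideal.mem_comap, map_sub, map_pow, ct_fg_algebraMap_restrict_smul]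
  exact hψ _

/-- (F2') restriction of an inertia element to a normal subextension. -/
theorem ct_inertia_restrict (K L E : Type*) [Field K] [NumberField K] [Field L] [NumberField L]
    [Field E] [NumberField E] [Algebra K L] [Algebra L E] [Algebra K E] [IsScalarTower K L E]
    [Normal K L] (𝔓 : Ideal (𝓞 E)) (ψ : E ≃ₐ[K] E)
    (hψ : ∀ x : 𝓞 E, ψ • x - x ∈ 𝔓) (y : 𝓞 L) :
    (AlgEquiv.restrictNormalHom L ψ) • y - y ∈ Ideal.under (𝓞 L) 𝔓 := by
  rw [Ideal.under_def, Ideal.mem_comap, map_sub, ct_fg_algebraMap_restrict_smul]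
  exact hψ _

/-! ### (F1), (F4): roots of unity, existence -/

set_option linter.unusedVariables false in
/-- (F1) a Frobenius element raises roots of unity of order prime to the residue characteristic
to the power `ℓ`. -/
theorem ct_frob_apply_of_pow_eq_one (K E : Type*) [Field K] [NumberField K] [Field E] [NumberField E]
    [Algebra K E] (𝔓 : Ideal (𝓞 E)) (h𝔓 : 𝔓.IsPrime) (φ : E ≃ₐ[K] E) (ℓ : ℕ)
    (hφ : ∀ x : 𝓞 E, φ • x - x ^ ℓ ∈ 𝔓) {m : ℕ} (hm : (m : 𝓞 E) ∉ 𝔓) {ξ : E} (hξ : ξ ^ m = 1) :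
    φ ξ = ξ ^ ℓ := by
  have hm0 : m ≠ 0 := by
    rintro rfl
    exact hm (by rw [Nat.cast_zero]; exact 𝔓.zero_mem)
  have hint : IsIntegral ℤ ξ :=
    IsIntegral.of_pow (Nat.pos_of_ne_zero hm0) (hξ ▸ isIntegral_one)
  have hξ'm : (⟨ξ, hint⟩ : 𝓞 E) ^ m = 1 := RingOfIntegers.ext hξ
  have ha : (φ • (⟨ξ, hint⟩ : 𝓞 E)) ^ m = 1 := by rw [← smul_pow', hξ'm, smul_one]
  have hb : ((⟨ξ, hint⟩ : 𝓞 E) ^ ℓ) ^ m = 1 := by
    rw [← pow_mul, mul_comm, pow_mul, hξ'm, one_pow]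
  have h := ct_fg_eq_of_pow_eq_one_of_sub_mem 𝔓 hm ha hb (hφ ⟨ξ, hint⟩)
  exact congrArg (fun z : 𝓞 E => (z : E)) h

/-- (F4) existence of a Frobenius element. -/
theorem ct_exists_frob (K E : Type*) [Field K] [NumberField K] [Field E] [NumberField E]
    [Algebra K E] [IsGalois K E] (𝔓 : Ideal (𝓞 E)) (h𝔓 : 𝔓.IsPrime) (h𝔓0 : 𝔓 ≠ ⊥) :
    ∃ ψ : E ≃ₐ[K] E, ∀ x : 𝓞 E, ψ • x - x ^ Ideal.absNorm (Ideal.under (𝓞 K) 𝔓) ∈ 𝔓 := by
  have hfin : Finite (𝓞 E ⧸ 𝔓) := Ideal.finiteQuotientOfFreeOfNeBot 𝔓 h𝔓0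
  have hcard : Nat.card (𝓞 K ⧸ Ideal.under (𝓞 K) 𝔓) = Ideal.absNorm (Ideal.under (𝓞 K) 𝔓) := by
    rw [Ideal.absNorm_apply, Submodule.cardQuot_apply]
  obtain ⟨ψ, hψ⟩ := IsArithFrobAt.exists_of_isInvariant (𝓞 K) (E ≃ₐ[K] E) 𝔓
  refine ⟨ψ, fun x => ?_⟩
  have h1 := hψ x
  rw [hcard] at h1
  exact h1

end Fermat.Agent.S14
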