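import Mathlib
import Fermat.Agent.S14.Defs
import Fermat.Agent.S14.CFrobGen

/-!
# P18 (S14), block C: the two Frobenius exports for the crossing assembly

* `ct_frob_apply_root`: a Frobenius element `σ` at a prime `𝔓` (in the sense
  `∀ x : 𝓞 E, σ • x - x ^ N ∈ 𝔓`) raises a primitive `m`-th root of unity to the power `N`, if
  `m ∉ 𝔓`;
* `ct_exists_frob_lift`: for a tower `K ⊂ L ⊂ E` of number fields with `L/K` and `E/K` Galois, a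
  nonzero prime `𝔔` of `L` with trivial inertia and a `q`-Frobenius element `g` of `L/K` at `𝔔`
  (`q` the absolute norm of `𝔔 ∩ 𝓞 K`), there are a prime `𝔓` of `E` above `𝔔` and a `q`-Frobenius
  element `ψ` of `E/K` at `𝔓` which restricts to `g` on `L`.

Auxiliary declarations carry the prefix `ct_fr_`.
-/

set_option autoImplicit false

namespace Fermat.Agent.S14

open NumberField

open scoped Pointwise

/-- A Frobenius element raises a primitive `m`-th root of unity to the power `N`, if `m` does not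
lie in the prime. -/
theorem ct_frob_apply_root (K E : Type*) [Field K] [NumberField K] [Field E] [NumberField E]
    [Algebra K E] (𝔓 : Ideal (𝓞 E)) (h𝔓 : 𝔓.IsPrime) (σ : E ≃ₐ[K] E) (N : ℕ)
    (hσ : ∀ x : 𝓞 E, σ • x - x ^ N ∈ 𝔓) (m : ℕ) (ξ : E) (hξ : IsPrimitiveRoot ξ m)
    (hm : (m : 𝓞 E) ∉ 𝔓) : σ ξ = ξ ^ N :=
  ct_frob_apply_of_pow_eq_one K E 𝔓 h𝔓 σ N hσ hm hξ.pow_eq_one

/-- There is a nonzero prime of `𝓞 E` above a given nonzero prime of `𝓞 L`. -/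
theorem ct_fr_exists_prime_over (L E : Type*) [Field L] [NumberField L] [Field E] [NumberField E]
    [Algebra L E] (𝔔 : Ideal (𝓞 L)) (h𝔔 : 𝔔.IsPrime) (h𝔔0 : 𝔔 ≠ ⊥) :
    ∃ 𝔓 : Ideal (𝓞 E), 𝔓.IsPrime ∧ 𝔓 ≠ ⊥ ∧ Ideal.under (𝓞 L) 𝔓 = 𝔔 := by
  obtain ⟨⟨𝔓, h𝔓, hover⟩⟩ := (inferInstance : Nonempty (Ideal.primesOver 𝔔 (𝓞 E)))
  exact ⟨𝔓, h𝔓, Ideal.ne_bot_of_liesOver_of_ne_bot h𝔔0 𝔓, hover.over.symm⟩

/-- The restriction to `𝓞 K` of a nonzero ideal of `𝓞 L` has nonzero absolute norm. -/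
theorem ct_fr_absNorm_under_ne_zero (K L : Type*) [Field K] [NumberField K] [Field L]
    [NumberField L] [Algebra K L] (𝔔 : Ideal (𝓞 L)) (h𝔔0 : 𝔔 ≠ ⊥) :
    Ideal.absNorm (Ideal.under (𝓞 K) 𝔔) ≠ 0 := by
  rw [Ne, Ideal.absNorm_eq_zero_iff]
  exact mt Ideal.eq_bot_of_comap_eq_bot h𝔔0

/-- Lifting a Frobenius element along a tower `K ⊂ L ⊂ E`: given a nonzero prime `𝔔` of `L` with
trivial inertia in `L/K` and a `q`-Frobenius element `g` at `𝔔`, there are a prime `𝔓` of `E`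
above `𝔔` and a `q`-Frobenius element `ψ` of `E/K` at `𝔓` restricting to `g`. -/
theorem ct_exists_frob_lift (K L E : Type*) [Field K] [NumberField K] [Field L] [NumberField L]
    [Field E] [NumberField E] [Algebra K L] [Algebra L E] [Algebra K E] [IsScalarTower K L E]
    [IsGalois K L] [IsGalois K E] (q : ℕ) (𝔔 : Ideal (𝓞 L)) (h𝔔 : 𝔔.IsPrime) (h𝔔0 : 𝔔 ≠ ⊥)
    (hq : Ideal.absNorm (Ideal.under (𝓞 K) 𝔔) = q) (hin : InertiaTrivialAt K L 𝔔)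
    (g : L ≃ₐ[K] L) (hF : ∀ x : 𝓞 L, g • x - x ^ q ∈ 𝔔) :
    ∃ (𝔓 : Ideal (𝓞 E)) (ψ : E ≃ₐ[K] E), 𝔓.IsPrime ∧ 𝔓 ≠ ⊥ ∧ Ideal.under (𝓞 L) 𝔓 = 𝔔 ∧
      (∀ x : 𝓞 E, ψ • x - x ^ q ∈ 𝔓) ∧ ∀ x : L, ψ (algebraMap L E x) = algebraMap L E (g x) := by
  obtain ⟨𝔓, h𝔓, h𝔓0, hunder⟩ := ct_fr_exists_prime_over L E 𝔔 h𝔔 h𝔔0
  obtain ⟨ψ, hψ⟩ := ct_exists_frob K E 𝔓 h𝔓 h𝔓0
  have hK : Ideal.under (𝓞 K) 𝔓 = Ideal.under (𝓞 K) 𝔔 := by
    rw [← hunder]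
    exact (Ideal.under_under (A := 𝓞 K) (B := 𝓞 L) 𝔓).symm
  rw [hK, hq] at hψ
  have hq0 : q ≠ 0 := by
    rw [← hq]
    exact ct_fr_absNorm_under_ne_zero K L 𝔔 h𝔔0
  have hτ : ∀ y : 𝓞 L, (AlgEquiv.restrictNormalHom L ψ) • y - y ^ q ∈ 𝔔 := by
    intro y
    have h := ct_frob_restrict K L E 𝔓 ψ q hψ y
    rw [hunder] at h
    exact h
  have hτg : AlgEquiv.restrictNormalHom L ψ = g :=
    ct_frob_unique K L 𝔔 hin q hq0 (AlgEquiv.restrictNormalHom L ψ) g hτ hF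
  refine ⟨𝔓, ψ, h𝔓, h𝔓0, hunder, hψ, fun x => ?_⟩
  rw [← hτg]
  exact (AlgEquiv.restrictNormal_commutes ψ L x).symm

end Fermat.Agent.S14
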