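import Mathlib

/-!
# Group theory for the crossing argument (P18, block C)

Pure group theory: in a commutative group `Γ` with homomorphisms `ρ : Γ →* G` (`G` of exponent
`p`) and `χ : Γ →* (ZMod (q₁ * q₂))ˣ` which are jointly injective, the subgroup generated by two
elements `φ`, `ψ` with `χ φ = b ^ e`, `χ ψ = q` (where `b ≡ q mod q₁`, `b ≡ 1 mod q₂`, `q` has
order `p` modulo `q₁` and order `p ^ 2` modulo `q₂`, and `p ∤ e`) meets `ker χ` trivially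
(`ct_closure_inter_ker`).
-/

set_option autoImplicit false

namespace Fermat.Agent.S14

/-- In a group of exponent `p`, every `k`-th power with `p ∣ k` is trivial. -/
theorem ct_cgroup_zpow_eq_one_of_dvd {G : Type*} [Group G] {p : ℕ} (hG : ∀ x : G, x ^ p = 1)
    (y : G) {k : ℤ} (hk : (p : ℤ) ∣ k) : y ^ k = 1 := by
  obtain ⟨c, rfl⟩ := hk
  rw [zpow_mul, zpow_natCast, hG, one_zpow]

/-- The value of the reduction modulo a divisor `d` of `m` of a unit of `ZMod m`. -/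
theorem ct_cgroup_val_map_castHom {m d : ℕ} (hd : d ∣ m) (u : (ZMod m)ˣ) :
    ((Units.map (ZMod.castHom hd (ZMod d)).toMonoidHom u : (ZMod d)ˣ) : ZMod d) =
      ZMod.castHom hd (ZMod d) (u : ZMod m) :=
  rfl

/-- The commutative-group version of `ct_closure_inter_ker`. -/
theorem ct_cgroup_core {Γ G : Type*} [CommGroup Γ] [Group G] (ρ : Γ →* G) {m : ℕ}
    (χ : Γ →* (ZMod m)ˣ) (hinj : ∀ x : Γ, ρ x = 1 → χ x = 1 → x = 1)
    (p q q₁ q₂ b e : ℕ) (hp : p.Prime) (hm : m = q₁ * q₂)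
    (h1 : orderOf (q : ZMod q₁) = p) (h2 : orderOf (q : ZMod q₂) = p ^ 2)
    (hb1 : b ≡ q [MOD q₁]) (hb2 : b ≡ 1 [MOD q₂]) (he : ¬ p ∣ e) (hG : ∀ x : G, x ^ p = 1)
    (φ ψ : Γ) (hφ : ((χ φ : (ZMod m)ˣ) : ZMod m) = (b : ZMod m) ^ e)
    (hψ : ((χ ψ : (ZMod m)ˣ) : ZMod m) = (q : ZMod m)) :
    ∀ x ∈ Subgroup.closure ({φ, ψ} : Set Γ), χ x = 1 → x = 1 := by
  intro x hx hχ
  obtain ⟨i, j, rfl⟩ := Subgroup.mem_closure_pair.mp hx
  have hd1 : q₁ ∣ m := hm ▸ dvd_mul_right q₁ q₂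
  have hd2 : q₂ ∣ m := hm ▸ dvd_mul_left q₂ q₁
  -- the reductions modulo `q₁` and `q₂` on units
  let π₁ : (ZMod m)ˣ →* (ZMod q₁)ˣ := Units.map (ZMod.castHom hd1 (ZMod q₁)).toMonoidHom
  let π₂ : (ZMod m)ˣ →* (ZMod q₂)ˣ := Units.map (ZMod.castHom hd2 (ZMod q₂)).toMonoidHom
  have hu1 : ((π₁ (χ ψ) : (ZMod q₁)ˣ) : ZMod q₁) = (q : ZMod q₁) := by
    rw [ct_cgroup_val_map_castHom hd1, hψ, map_natCast]
  have hv1 : ((π₁ (χ φ) : (ZMod q₁)ˣ) : ZMod q₁) = (q : ZMod q₁) ^ e := by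
    rw [ct_cgroup_val_map_castHom hd1, hφ, map_pow, map_natCast,
      (ZMod.natCast_eq_natCast_iff b q q₁).mpr hb1]
  have hu2 : ((π₂ (χ ψ) : (ZMod q₂)ˣ) : ZMod q₂) = (q : ZMod q₂) := by
    rw [ct_cgroup_val_map_castHom hd2, hψ, map_natCast]
  have hv2 : π₂ (χ φ) = 1 := by
    apply Units.ext
    rw [ct_cgroup_val_map_castHom hd2, hφ, map_pow, map_natCast,
      (ZMod.natCast_eq_natCast_iff b 1 q₂).mpr hb2, Nat.cast_one, one_pow, Units.val_one]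
  have ho1 : orderOf (π₁ (χ ψ)) = p := by rw [← orderOf_units, hu1, h1]
  have ho2 : orderOf (π₂ (χ ψ)) = p ^ 2 := by rw [← orderOf_units, hu2, h2]
  have hv1' : π₁ (χ φ) = π₁ (χ ψ) ^ e :=
    Units.ext (by rw [hv1, Units.val_pow_eq_pow_val, hu1])
  -- modulo `q₂`: `p ^ 2 ∣ j`
  have hx2 : π₂ (χ ψ) ^ j = 1 := by
    have h := congrArg π₂ hχ
    rw [map_mul, map_zpow, map_zpow, map_mul, map_zpow, map_zpow, hv2, one_zpow, one_mul,
      map_one] at h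
    exact h
  have hj2 : ((p ^ 2 : ℕ) : ℤ) ∣ j := by
    rw [← ho2]
    exact orderOf_dvd_iff_zpow_eq_one.mpr hx2
  have hj : (p : ℤ) ∣ j := by
    refine dvd_trans ?_ hj2
    rw [Nat.cast_pow]
    exact dvd_pow_self _ two_ne_zero
  -- modulo `q₁`: `p ∣ e * i + j`
  have hx1 : π₁ (χ ψ) ^ ((e : ℤ) * i + j) = 1 := by
    have h := congrArg π₁ hχ
    rw [map_mul, map_zpow, map_zpow, map_mul, map_zpow, map_zpow, hv1', map_one] at h
    rw [zpow_add, zpow_mul, zpow_natCast]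
    exact h
  have hei : (p : ℤ) ∣ (e : ℤ) * i + j := by
    rw [← ho1]
    exact orderOf_dvd_iff_zpow_eq_one.mpr hx1
  have hei' : (p : ℤ) ∣ (e : ℤ) * i := (dvd_add_left hj).mp hei
  have hpZ : Prime (p : ℤ) := Nat.prime_iff_prime_int.mp hp
  have hi : (p : ℤ) ∣ i := by
    rcases hpZ.dvd_or_dvd hei' with h | h
    · exact absurd (Int.natCast_dvd_natCast.mp h) he
    · exact h
  apply hinj _ _ hχ
  rw [map_mul, map_zpow, map_zpow, ct_cgroup_zpow_eq_one_of_dvd hG _ hi,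
    ct_cgroup_zpow_eq_one_of_dvd hG _ hj, one_mul]

/-- In a commutative group `Γ` with homomorphisms `ρ : Γ →* G` (`G` of exponent `p`) and
`χ : Γ →* (ZMod (q₁ * q₂))ˣ` jointly injective, the subgroup generated by `φ`, `ψ` with
`χ φ = b ^ e`, `χ ψ = q` meets `ker χ` trivially. -/
theorem ct_closure_inter_ker {Γ G : Type*} [Group Γ] [Group G] (ρ : Γ →* G) {m : ℕ}
    (χ : Γ →* (ZMod m)ˣ) (hinj : ∀ x : Γ, ρ x = 1 → χ x = 1 → x = 1)
    (hcomm : ∀ x y : Γ, x * y = y * x) (p q q₁ q₂ b e : ℕ) (hp : p.Prime) (hm : m = q₁ * q₂)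
    (h1 : orderOf (q : ZMod q₁) = p) (h2 : orderOf (q : ZMod q₂) = p ^ 2)
    (hb1 : b ≡ q [MOD q₁]) (hb2 : b ≡ 1 [MOD q₂]) (he : ¬ p ∣ e) (hG : ∀ x : G, x ^ p = 1)
    (φ ψ : Γ) (hφ : ((χ φ : (ZMod m)ˣ) : ZMod m) = (b : ZMod m) ^ e)
    (hψ : ((χ ψ : (ZMod m)ˣ) : ZMod m) = (q : ZMod m)) :
    ∀ x ∈ Subgroup.closure ({φ, ψ} : Set Γ), χ x = 1 → x = 1 :=
  @ct_cgroup_core Γ G { (inferInstance : Group Γ) with mul_comm := hcomm } _ ρ m χ hinj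
    p q q₁ q₂ b e hp hm h1 h2 hb1 hb2 he hG φ ψ hφ hψ

end Fermat.Agent.S14
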