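import Mathlib
import Fermat.Agent.S14.Defs
import Fermat.Agent.S14.CFixedDefs

/-!
# P18 (S14), block C: the kernel lemma as a hypothesis

`ct_KernelAt p K L Ω` is the statement of the kernel lemma (block K) for all the towers
`F = Ω^H ⊆ M = L·F ⊆ Ω`, `H` a subgroup of `Gal(Ω/K)`.  The crossing argument is proved relative
to this hypothesis; the hypothesis itself is discharged from the kernel lemma in the last step.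
-/

set_option autoImplicit false

namespace Fermat.Agent.S14

open NumberField

/-- The kernel lemma for the towers `F = Ω^H ⊆ M = L·F ⊆ Ω`, for all subgroups `H` of
`Gal(Ω/K)`. -/
def ct_KernelAt (p : ℕ) (K L Ω : Type*) [Field K] [NumberField K] [Field L] [NumberField L]
    [Field Ω] [NumberField Ω] [Algebra K L] [Algebra L Ω] [Algebra K Ω] [IsScalarTower K L Ω]
    [IsGalois K L] [IsGalois K Ω] : Prop :=
  ∀ H : Subgroup (Ω ≃ₐ[K] Ω), IsGalois ↥(ctF K Ω H) ↥(ctM K L Ω H) →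
    Module.finrank ↥(ctF K Ω H) ↥(ctM K L Ω H) = p →
    ∀ ζ : ↥(ctF K Ω H), IsPrimitiveRoot ζ p →
    UnramifiedEverywhere ↥(ctF K Ω H) ↥(ctM K L Ω H) →
    ∀ (m : ℕ), 0 < m → ∀ ξ : Ω, IsPrimitiveRoot ξ m →
    IntermediateField.adjoin ↥(ctF K Ω H) {ξ} = ⊤ →
    ∀ 𝔞 𝔟 : Ideal (𝓞 ↥(ctF K Ω H)), 𝔞 ≠ ⊥ → 𝔟 ≠ ⊥ →
    IsCoprime 𝔞 (Ideal.span {((m * p : ℕ) : 𝓞 ↥(ctF K Ω H))}) →
    IsCoprime 𝔟 (Ideal.span {((m * p : ℕ) : 𝓞 ↥(ctF K Ω H))}) →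
    (∃ h : Ω ≃ₐ[↥(ctF K Ω H)] Ω, h ξ = ξ ^ Ideal.absNorm 𝔟 ∧
      ∃ x : ↥(ctM K L Ω H), h (algebraMap ↥(ctM K L Ω H) Ω x) ≠ algebraMap ↥(ctM K L Ω H) Ω x) →
    (∃ h : Ω ≃ₐ[↥(ctF K Ω H)] Ω, h ξ = ξ ^ Ideal.absNorm 𝔞 ∧
      ∀ x : ↥(ctM K L Ω H), h (algebraMap ↥(ctM K L Ω H) Ω x) = algebraMap ↥(ctM K L Ω H) Ω x) →
    RayNormRel ↥(ctF K Ω H) ↥(ctM K L Ω H) ⊤ 𝔞 ⊤

end Fermat.Agent.S14
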