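import Mathlib

/-!
# P18 (S14), block C: small generic lemmas for the crossing argument

Seven elementary lemmas (Mathlib only) used in the core of the crossing argument: coprimality of
ideals from coprimality of norms, the cyclotomic character of an automorphism acting on a
primitive root of unity by a power, powers of such automorphisms, and nontriviality of powers in a
group of prime order.
-/

set_option autoImplicit false

namespace Fermat.Agent.S14

open NumberField

/-- a prime ideal cannot contain two coprime natural numbers -/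
theorem ct_natCast_notMem {R : Type*} [CommRing R] (P : Ideal R) (hP : P.IsPrime) (a b : ℕ)
    (hab : Nat.Coprime a b) (ha : (a : R) ∈ P) : (b : R) ∉ P := by
  intro hb
  obtain ⟨x, y, hxy⟩ := Nat.isCoprime_iff_coprime.mpr hab
  have h1 : (1 : R) = (x : R) * (a : R) + (y : R) * (b : R) := by
    have h := congrArg (Int.cast : ℤ → R) hxy
    push_cast at h
    exact h.symm
  refine hP.ne_top ((Ideal.eq_top_iff_one P).mpr ?_)
  rw [h1]
  exact P.add_mem (P.mul_mem_left _ ha) (P.mul_mem_left _ hb)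

/-- an ideal whose absolute norm is prime to `n` is coprime to `(n)` -/
theorem ct_isCoprime_span_natCast (F : Type*) [Field F] [NumberField F] (I : Ideal (𝓞 F)) (n : ℕ)
    (h : Nat.Coprime (Ideal.absNorm I) n) : IsCoprime I (Ideal.span {((n : ℕ) : 𝓞 F)}) := by
  rw [Ideal.isCoprime_iff_sup_eq, Ideal.eq_top_iff_one]
  obtain ⟨x, y, hxy⟩ := Nat.isCoprime_iff_coprime.mpr h
  have h1 : (1 : 𝓞 F) = (x : 𝓞 F) * ((Ideal.absNorm I : ℕ) : 𝓞 F) + (y : 𝓞 F) * ((n : ℕ) : 𝓞 F) := by
    have h' := congrArg (Int.cast : ℤ → 𝓞 F) hxy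
    push_cast at h'
    exact h'.symm
  rw [h1]
  exact Submodule.add_mem_sup (I.mul_mem_left _ (Ideal.absNorm_mem I))
    (Ideal.mul_mem_left _ _ (Ideal.subset_span rfl))

/-- the cyclotomic character of an automorphism acting as `ξ ↦ ξ ^ N` -/
theorem ct_autToPow_eq (K : Type*) {E : Type*} [Field K] [Field E] [Algebra K E] {m : ℕ} [NeZero m]
    {ξ : E} (hξ : IsPrimitiveRoot ξ m) (σ : E ≃ₐ[K] E) (N : ℕ) (hσ : σ ξ = ξ ^ N) :
    ((hξ.autToPow K σ : (ZMod m)ˣ) : ZMod m) = (N : ZMod m) := by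
  have hm : 0 < m := Nat.pos_of_ne_zero (NeZero.ne m)
  have key : ∀ a : ℕ, ξ ^ (a % m) = ξ ^ a := fun a => by
    have h := pow_mod_orderOf ξ a
    rwa [← hξ.eq_orderOf] at h
  have h1 : ξ ^ ((hξ.autToPow K σ : (ZMod m)ˣ) : ZMod m).val = ξ ^ N := by
    rw [hξ.autToPow_spec K σ, hσ]
  have h2 : ((hξ.autToPow K σ : (ZMod m)ˣ) : ZMod m).val % m = N % m := by
    refine hξ.pow_inj (Nat.mod_lt _ hm) (Nat.mod_lt _ hm) ?_
    rw [key, key]
    exact h1
  have h3 : ((((hξ.autToPow K σ : (ZMod m)ˣ) : ZMod m).val : ℕ) : ZMod m) = (N : ZMod m) :=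
    (ZMod.natCast_eq_natCast_iff _ _ _).mpr h2
  rwa [ZMod.natCast_zmod_val] at h3

/-- an automorphism with trivial cyclotomic character fixes the root of unity -/
theorem ct_apply_root_of_autToPow_eq_one (K : Type*) {E : Type*} [Field K] [Field E] [Algebra K E]
    {m : ℕ} [NeZero m] {ξ : E} (hξ : IsPrimitiveRoot ξ m) (σ : E ≃ₐ[K] E)
    (hσ : hξ.autToPow K σ = 1) : σ ξ = ξ := by
  have h1 := hξ.autToPow_spec K σ
  rw [hσ, Units.val_one, ZMod.val_one_eq_one_mod] at h1
  have h := pow_mod_orderOf ξ 1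
  rw [← hξ.eq_orderOf, pow_one] at h
  rw [← h1, h]

/-- powers of an automorphism acting as `ξ ↦ ξ ^ a` -/
theorem ct_pow_apply_root {K E : Type*} [Field K] [Field E] [Algebra K E] (σ : E ≃ₐ[K] E) (ξ : E)
    (a : ℕ) (hσ : σ ξ = ξ ^ a) (n : ℕ) : (σ ^ n) ξ = ξ ^ (a ^ n) := by
  induction n with
  | zero => simp
  | succ n ih =>
    rw [pow_succ, AlgEquiv.mul_apply, hσ, map_pow, ih, ← pow_mul, ← pow_succ]

/-- powers of an automorphism restricting to `g` on a subextension -/
theorem ct_pow_apply_algebraMap {K L E : Type*} [Field K] [Field L] [Field E] [Algebra K L]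
    [Algebra L E] [Algebra K E] (σ : E ≃ₐ[K] E) (g : L ≃ₐ[K] L)
    (hσ : ∀ x : L, σ (algebraMap L E x) = algebraMap L E (g x)) (n : ℕ) (x : L) :
    (σ ^ n) (algebraMap L E x) = algebraMap L E ((g ^ n) x) := by
  induction n generalizing x with
  | zero => simp
  | succ n ih =>
    rw [pow_succ, AlgEquiv.mul_apply, hσ, ih, pow_succ, AlgEquiv.mul_apply]

/-- a nontrivial element of a group of prime order `p` has no trivial power prime to `p` -/
theorem ct_pow_ne_one_of_prime_card {G : Type*} [Group G] (p : ℕ) (hp : p.Prime)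
    (hcard : Nat.card G = p) (g : G) (hg : g ≠ 1) (e : ℕ) (he : ¬ p ∣ e) : g ^ e ≠ 1 := by
  intro h
  have h1 : orderOf g ∣ p := hcard ▸ orderOf_dvd_natCard g
  rcases (Nat.dvd_prime hp).mp h1 with h2 | h2
  · exact hg (orderOf_eq_one_iff.mp h2)
  · exact he (h2 ▸ orderOf_dvd_of_pow_eq_one h)

end Fermat.Agent.S14
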