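import Mathlib

/-!
# Degree-one primes below a Frobenius-fixed prime (P18, block C, slice C5)

`K ⊂ F ⊂ E` are number fields, `𝔓` is a prime of `E` whose restriction `𝔮 = 𝔓 ∩ 𝓞 K` has
absolute norm a prime number `q`, and `ψ` is an automorphism of `E` over `K` which fixes `F`
pointwise and is a Frobenius at `𝔓` (`ψ x ≡ x ^ q mod 𝔓`).  Then `𝔓 ∩ 𝓞 F` has absolute norm `q`
and its relative norm to `K` is `𝔮` (`ct_degOne_under`).
-/

set_option autoImplicit false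

namespace Fermat.Agent.S14

open NumberField

/-- A finite field all of whose elements satisfy `y ^ q = y` has at most `q` elements. -/
theorem ct_pr_card_le_of_forall_pow_eq {k : Type*} [Field k] [Finite k] {q : ℕ} (hq : 1 < q)
    (h : ∀ y : k, y ^ q = y) : Nat.card k ≤ q := by
  classical
  have hfin : Fintype k := Fintype.ofFinite k
  have hne : (Polynomial.X ^ q - Polynomial.X : Polynomial k) ≠ 0 :=
    FiniteField.X_pow_card_sub_X_ne_zero k hq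
  have hdeg : (Polynomial.X ^ q - Polynomial.X : Polynomial k).natDegree = q :=
    FiniteField.X_pow_card_sub_X_natDegree_eq k hq
  have hsub : (Finset.univ : Finset k).val ⊆
      (Polynomial.X ^ q - Polynomial.X : Polynomial k).roots := by
    intro y _
    rw [Polynomial.mem_roots hne, Polynomial.IsRoot, Polynomial.eval_sub, Polynomial.eval_pow,
      Polynomial.eval_X, h y, sub_self]
  have hle := Polynomial.card_le_degree_of_subset_roots hsub
  rw [hdeg, Finset.card_univ] at hle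
  rw [Nat.card_eq_fintype_card]
  exact hle

/-- If `𝔓 ∩ 𝓞 K` has absolute norm `q`, then `q ∈ 𝔓`. -/
theorem ct_pr_natCast_mem_top (K E : Type*) [Field K] [NumberField K] [Field E] [NumberField E]
    [Algebra K E] (𝔓 : Ideal (𝓞 E)) (q : ℕ)
    (hnorm : Ideal.absNorm (Ideal.under (𝓞 K) 𝔓) = q) : (q : 𝓞 E) ∈ 𝔓 := by
  have h1 : ((Ideal.absNorm (Ideal.under (𝓞 K) 𝔓) : ℕ) : 𝓞 K) ∈ Ideal.under (𝓞 K) 𝔓 :=
    Ideal.absNorm_mem _
  rw [hnorm, Ideal.under_def, Ideal.mem_comap, map_natCast] at h1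
  exact h1

/-- If `𝔓 ∩ 𝓞 K` has absolute norm `q`, then `q ∈ 𝔓 ∩ 𝓞 F`. -/
theorem ct_pr_natCast_mem (K F E : Type*) [Field K] [NumberField K] [Field F] [NumberField F]
    [Field E] [NumberField E] [Algebra F E] [Algebra K E]
    (𝔓 : Ideal (𝓞 E)) (q : ℕ)
    (hnorm : Ideal.absNorm (Ideal.under (𝓞 K) 𝔓) = q) :
    (q : 𝓞 F) ∈ Ideal.under (𝓞 F) 𝔓 := by
  rw [Ideal.under_def, Ideal.mem_comap, map_natCast]
  exact ct_pr_natCast_mem_top K E 𝔓 q hnorm

/-- If `𝔓` is prime and `𝔓 ∩ 𝓞 K` has nonzero absolute norm `q`, then `𝔓 ∩ 𝓞 F` is a maximal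
ideal. -/
theorem ct_pr_under_isMaximal (K F E : Type*) [Field K] [NumberField K] [Field F] [NumberField F]
    [Field E] [NumberField E] [Algebra F E] [Algebra K E]
    (𝔓 : Ideal (𝓞 E)) (h𝔓 : 𝔓.IsPrime) (q : ℕ) (hq : q ≠ 0)
    (hnorm : Ideal.absNorm (Ideal.under (𝓞 K) 𝔓) = q) :
    (Ideal.under (𝓞 F) 𝔓).IsMaximal := by
  have hprime : (Ideal.under (𝓞 F) 𝔓).IsPrime := Ideal.IsPrime.under (𝓞 F) 𝔓
  refine hprime.isMaximal ?_
  intro hbot
  have hmem := ct_pr_natCast_mem K F E 𝔓 q hnorm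
  rw [hbot, Ideal.mem_bot] at hmem
  exact hq (by exact_mod_cast hmem)

/-- Elements of `𝓞 F` are fixed by an automorphism of `E` fixing `F` pointwise. -/
theorem ct_pr_smul_algebraMap (K F E : Type*) [Field K] [NumberField K] [Field F] [NumberField F]
    [Field E] [NumberField E] [Algebra K F] [Algebra F E] [Algebra K E] [IsScalarTower K F E]
    (ψ : E ≃ₐ[K] E) (hψF : ∀ x : F, ψ (algebraMap F E x) = algebraMap F E x) (x : 𝓞 F) :
    ψ • (algebraMap (𝓞 F) (𝓞 E) x) = algebraMap (𝓞 F) (𝓞 E) x := by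
  apply RingOfIntegers.ext
  exact hψF (x : F)

/-- **Degree-one primes below a Frobenius-fixed prime.**  Let `K ⊂ F ⊂ E` be number fields, `𝔓` a
prime of `E` such that `𝔓 ∩ 𝓞 K` has absolute norm a prime number `q`, and `ψ` an automorphism of
`E` over `K` fixing `F` pointwise with `ψ x ≡ x ^ q mod 𝔓` on `𝓞 E`.  Then `𝔓 ∩ 𝓞 F` has absolute
norm `q`, and its relative norm to `K` is `𝔓 ∩ 𝓞 K`. -/
theorem ct_degOne_under (K F E : Type*) [Field K] [NumberField K] [Field F] [NumberField F]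
    [Field E] [NumberField E] [Algebra K F] [Algebra F E] [Algebra K E] [IsScalarTower K F E]
    (𝔓 : Ideal (𝓞 E)) (h𝔓 : 𝔓.IsPrime) (q : ℕ) (hq : q.Prime)
    (hnorm : Ideal.absNorm (Ideal.under (𝓞 K) 𝔓) = q)
    (ψ : E ≃ₐ[K] E) (hψF : ∀ x : F, ψ (algebraMap F E x) = algebraMap F E x)
    (hψ : ∀ x : 𝓞 E, ψ • x - x ^ q ∈ 𝔓) :
    Ideal.absNorm (Ideal.under (𝓞 F) 𝔓) = q ∧
      Ideal.relNorm (𝓞 K) (Ideal.under (𝓞 F) 𝔓) = Ideal.under (𝓞 K) 𝔓 := by
  have hmax : (Ideal.under (𝓞 F) 𝔓).IsMaximal :=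
    ct_pr_under_isMaximal K F E 𝔓 h𝔓 q hq.ne_zero hnorm
  have hne : Ideal.under (𝓞 F) 𝔓 ≠ ⊥ := by
    intro hbot
    have hmem := ct_pr_natCast_mem K F E 𝔓 q hnorm
    rw [hbot, Ideal.mem_bot] at hmem
    exact hq.ne_zero (by exact_mod_cast hmem)
  -- (a) every element of the residue field of `𝔓 ∩ 𝓞 F` is fixed by `y ↦ y ^ q`
  have ha : ∀ x : 𝓞 F, x - x ^ q ∈ Ideal.under (𝓞 F) 𝔓 := by
    intro x
    have h := hψ (algebraMap (𝓞 F) (𝓞 E) x)
    rw [ct_pr_smul_algebraMap K F E ψ hψF x, ← map_pow, ← map_sub] at h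
    exact h
  have hne0 : Ideal.absNorm (Ideal.under (𝓞 F) 𝔓) ≠ 0 := by
    rw [Ne, Ideal.absNorm_eq_zero_iff]
    exact hne
  have hfin : Finite (𝓞 F ⧸ Ideal.under (𝓞 F) 𝔓) :=
    (Ideal.absNorm_ne_zero_iff _).mp hne0
  have hcard : Ideal.absNorm (Ideal.under (𝓞 F) 𝔓) =
      Nat.card (𝓞 F ⧸ Ideal.under (𝓞 F) 𝔓) := by
    rw [Ideal.absNorm_apply, Submodule.cardQuot_apply]
  have hle : Ideal.absNorm (Ideal.under (𝓞 F) 𝔓) ≤ q := by
    rw [hcard]
    let hfield := Ideal.Quotient.field (Ideal.under (𝓞 F) 𝔓)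
    refine ct_pr_card_le_of_forall_pow_eq hq.one_lt fun y => ?_
    obtain ⟨x, rfl⟩ := Ideal.Quotient.mk_surjective y
    rw [← map_pow, eq_comm, Ideal.Quotient.eq]
    exact ha x
  -- (b) the relative norm is contained in `𝔓 ∩ 𝓞 K` and has the same absolute norm
  have hunder : (Ideal.under (𝓞 F) 𝔓).under (𝓞 K) = Ideal.under (𝓞 K) 𝔓 :=
    Ideal.under_under (A := 𝓞 K) (B := 𝓞 F) 𝔓
  have hrel_le : Ideal.relNorm (𝓞 K) (Ideal.under (𝓞 F) 𝔓) ≤ Ideal.under (𝓞 K) 𝔓 := by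
    rw [← hunder]
    exact Ideal.relNorm_le_comap (𝓞 K) _
  have hrel_norm : Ideal.absNorm (Ideal.relNorm (𝓞 K) (Ideal.under (𝓞 F) 𝔓)) =
      Ideal.absNorm (Ideal.under (𝓞 F) 𝔓) := Ideal.absNorm_relNorm (𝓞 K) (𝓞 F) _
  have hdvd : q ∣ Ideal.absNorm (Ideal.under (𝓞 F) 𝔓) := by
    rw [← hrel_norm, ← hnorm]
    exact Ideal.absNorm_dvd_absNorm_of_le hrel_le
  have habs : Ideal.absNorm (Ideal.under (𝓞 F) 𝔓) = q :=
    le_antisymm hle (Nat.le_of_dvd (Nat.pos_of_ne_zero hne0) hdvd)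
  refine ⟨habs, ?_⟩
  -- (c) an ideal contained in `𝔓 ∩ 𝓞 K` with the same absolute norm is equal to it
  obtain ⟨J, hJ⟩ := Ideal.dvd_iff_le.mpr hrel_le
  have h1 : Ideal.absNorm J = 1 := by
    have h2 := congrArg Ideal.absNorm hJ
    rw [map_mul, hrel_norm, habs, hnorm] at h2
    exact Nat.eq_of_mul_eq_mul_left hq.pos (by rw [mul_one]; exact h2.symm)
  rw [Ideal.absNorm_eq_one_iff] at h1
  rw [hJ, h1, Ideal.mul_top]

end Fermat.Agent.S14
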