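import Mathlib
import Fermat.Agent.S14.Defs
import Fermat.Agent.S14.CFixedDefs
import Fermat.Agent.S14.CKernelAt
import Fermat.Agent.S14.RelAlg2
import Fermat.Agent.S14.CPrimes
import Fermat.Agent.S14.CFrob
import Fermat.Agent.S14.CGroup
import Fermat.Agent.S14.CFixedGal
import Fermat.Agent.S14.CFixedAut
import Fermat.Agent.S14.CMisc
import Fermat.Agent.S14.CFixedUnram

/-!
# P18 (S14), block C: one half of the crossing argument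

`ct_half`: let `Ω = L(ξ)` with `ξ` a primitive `q₁ q₂`-th root of unity, `φ₀ ∈ Gal(Ω/K)` restricting
to `g` on `L` with `φ₀ ξ = ξ ^ b`, and suppose `φ = φ₀ ^ e` is a Frobenius element at a prime `𝔓` of
`Ω` over a degree one prime `𝔟` of `K` of norm `ℓ`.  If `𝔔` is a prime of `L` over the degree one
prime `𝔮` of `K` of norm `q` whose Frobenius is `g ^ s`, then `𝔮 ^ e * 𝔟 ^ ((p - 1) s)` is trivial
modulo norms from `L` and principal ideals.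

The proof applies the kernel lemma (hypothesis `ct_KernelAt`) to the tower `F ⊆ M = L·F ⊆ Ω`, where
`F` is the fixed field of the subgroup `H` generated by `φ` and a Frobenius `ψ` of `Ω/K` above `𝔔`,
and pushes the resulting relation down to `K` with the norm.
-/

set_option autoImplicit false

namespace Fermat.Agent.S14

open NumberField
open scoped Pointwise

set_option linter.unusedVariables false in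
theorem ct_half (p : ℕ) [Fact p.Prime] (hp : 3 ≤ p) (K L Ω : Type*) [Field K] [NumberField K]
    [Field L] [NumberField L] [Field Ω] [NumberField Ω] [Algebra K L] [Algebra L Ω] [Algebra K Ω]
    [IsScalarTower K L Ω] [IsGalois K L] [IsGalois K Ω] [IsCyclotomicExtension {p} ℚ K]
    (hK : ct_KernelAt p K L Ω)
    (hdeg : Module.finrank K L = p) (hunr : UnramifiedEverywhere K L)
    (hcomm : ∀ σ τ : Ω ≃ₐ[K] Ω, σ * τ = τ * σ)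
    (q₁ q₂ : ℕ) (hq₁ : q₁.Prime) (hq₂ : q₂.Prime) (hq₁p : q₁ ≠ p) (hq₂p : q₂ ≠ p)
    (ξ : Ω) (hξ : IsPrimitiveRoot ξ (q₁ * q₂))
    (hext : ∀ σ : Ω ≃ₐ[K] Ω, (∀ x : L, σ (algebraMap L Ω x) = algebraMap L Ω x) → σ ξ = ξ → σ = 1)
    (q : ℕ) (hq : q.Prime) (hqp : q ≠ p) (hqq₁ : ¬ q₁ ∣ q) (hqq₂ : ¬ q₂ ∣ q)
    (ho₁ : orderOf (q : ZMod q₁) = p) (ho₂ : orderOf (q : ZMod q₂) = p ^ 2)
    (g : L ≃ₐ[K] L) (hg : g ≠ 1)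
    (b : ℕ) (hb₁ : b ≡ q [MOD q₁]) (hb₂ : b ≡ 1 [MOD q₂])
    (e : ℕ) (he : ¬ p ∣ e)
    (ℓ : ℕ) (hℓ : ℓ.Prime) (hℓp : ℓ ≠ p) (hℓq₁ : ℓ ≠ q₁) (hℓq₂ : ℓ ≠ q₂)
    (𝔓 : Ideal (𝓞 Ω)) (h𝔓 : 𝔓.IsPrime) (h𝔓ℓ : Ideal.absNorm (Ideal.under (𝓞 K) 𝔓) = ℓ)
    (φ₀ : Ω ≃ₐ[K] Ω) (hφ₀L : ∀ x : L, φ₀ (algebraMap L Ω x) = algebraMap L Ω (g x))
    (hφ₀ξ : φ₀ ξ = ξ ^ b) (hφF : ∀ x : 𝓞 Ω, (φ₀ ^ e) • x - x ^ ℓ ∈ 𝔓)
    (s : ℕ) (𝔮 : Ideal (𝓞 K)) (h𝔮 : Ideal.absNorm 𝔮 = q) (𝔔 : Ideal (𝓞 L)) (h𝔔 : 𝔔.IsPrime)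
    (h𝔔𝔮 : Ideal.under (𝓞 K) 𝔔 = 𝔮) (hF : ∀ x : 𝓞 L, (g ^ s) • x - x ^ q ∈ 𝔔) :
    RayNormRel K L ⊤ (𝔮 ^ e * (Ideal.under (𝓞 K) 𝔓) ^ ((p - 1) * s)) ⊤ := by
  classical
  have hpP : p.Prime := Fact.out
  have : NeZero (q₁ * q₂) := ⟨Nat.mul_ne_zero hq₁.ne_zero hq₂.ne_zero⟩
  have hm0 : 0 < q₁ * q₂ := Nat.pos_of_ne_zero (NeZero.ne _)
  -- coprimality facts
  have hqq₁' : Nat.Coprime q q₁ :=
    (Nat.coprime_primes hq hq₁).2 (fun h => hqq₁ (h ▸ dvd_rfl))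
  have hqq₂' : Nat.Coprime q q₂ :=
    (Nat.coprime_primes hq hq₂).2 (fun h => hqq₂ (h ▸ dvd_rfl))
  have hqm : Nat.Coprime q (q₁ * q₂) := Nat.Coprime.mul_right hqq₁' hqq₂'
  have hℓm : Nat.Coprime ℓ (q₁ * q₂) :=
    Nat.Coprime.mul_right ((Nat.coprime_primes hℓ hq₁).2 hℓq₁) ((Nat.coprime_primes hℓ hq₂).2 hℓq₂)
  have hqmp : Nat.Coprime q (q₁ * q₂ * p) :=
    Nat.Coprime.mul_right hqm ((Nat.coprime_primes hq hpP).2 hqp)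
  have hℓmp : Nat.Coprime ℓ (q₁ * q₂ * p) :=
    Nat.Coprime.mul_right hℓm ((Nat.coprime_primes hℓ hpP).2 hℓp)
  -- step 1: the Frobenius `ψ` of `Ω/K` above `𝔔`
  have h𝔔0 : 𝔔 ≠ ⊥ := by
    rintro rfl
    rw [Ideal.under_bot] at h𝔔𝔮
    rw [← h𝔔𝔮, Ideal.absNorm_bot] at h𝔮
    exact hq.ne_zero h𝔮.symm
  have hqnorm : Ideal.absNorm (Ideal.under (𝓞 K) 𝔔) = q := by rw [h𝔔𝔮, h𝔮]
  obtain ⟨𝔔t, ψ, h𝔔t, h𝔔t0, h𝔔tL, hψF, hψL⟩ :=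
    ct_exists_frob_lift K L Ω q 𝔔 h𝔔 h𝔔0 hqnorm (hunr 𝔔 h𝔔 h𝔔0) (g ^ s) hF
  have h𝔔tK : Ideal.under (𝓞 K) 𝔔t = 𝔮 := by
    rw [← h𝔔𝔮, ← h𝔔tL, Ideal.under_under]
  have hqt : Ideal.absNorm (Ideal.under (𝓞 K) 𝔔t) = q := by rw [h𝔔tK, h𝔮]
  -- step 2: action on `ξ`
  have hq𝔔t : (q : 𝓞 Ω) ∈ 𝔔t := ct_pr_natCast_mem_top K Ω 𝔔t q hqt
  have hm𝔔t : ((q₁ * q₂ : ℕ) : 𝓞 Ω) ∉ 𝔔t := ct_natCast_notMem 𝔔t h𝔔t q (q₁ * q₂) hqm hq𝔔t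
  have hψξ : ψ ξ = ξ ^ q := ct_frob_apply_root K Ω 𝔔t h𝔔t ψ q hψF (q₁ * q₂) ξ hξ hm𝔔t
  have hℓ𝔓 : (ℓ : 𝓞 Ω) ∈ 𝔓 := ct_pr_natCast_mem_top K Ω 𝔓 ℓ h𝔓ℓ
  have hm𝔓 : ((q₁ * q₂ : ℕ) : 𝓞 Ω) ∉ 𝔓 := ct_natCast_notMem 𝔓 h𝔓 ℓ (q₁ * q₂) hℓm hℓ𝔓
  have hφξ : (φ₀ ^ e) ξ = ξ ^ ℓ :=
    ct_frob_apply_root K Ω 𝔓 h𝔓 (φ₀ ^ e) ℓ hφF (q₁ * q₂) ξ hξ hm𝔓
  have hφξ' : (φ₀ ^ e) ξ = ξ ^ (b ^ e) := ct_pow_apply_root φ₀ ξ b hφ₀ξ e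
  have hφL : ∀ x : L, (φ₀ ^ e) (algebraMap L Ω x) = algebraMap L Ω ((g ^ e) x) :=
    fun x => ct_pow_apply_algebraMap φ₀ g hφ₀L e x
  -- step 3: the subgroup `H`
  have hcardG : Nat.card (L ≃ₐ[K] L) = p := by rw [IsGalois.card_aut_eq_finrank, hdeg]
  have hGp : ∀ x : L ≃ₐ[K] L, x ^ p = 1 := fun x => by
    rw [← hcardG]
    exact pow_card_eq_one'
  have hker : ∀ x ∈ Subgroup.closure ({φ₀ ^ e, ψ} : Set (Ω ≃ₐ[K] Ω)),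
      hξ.autToPow K x = 1 → x = 1 := by
    refine ct_closure_inter_ker (AlgEquiv.restrictNormalHom L) (hξ.autToPow K) ?_ hcomm
      p q q₁ q₂ b e hpP rfl ho₁ ho₂ hb₁ hb₂ he hGp (φ₀ ^ e) ψ ?_ ?_
    · intro x hx1 hx2
      apply hext
      · intro y
        have h1 := AlgEquiv.restrictNormal_commutes x L y
        have h2 : x.restrictNormal L = 1 := hx1
        rw [← h1, h2, AlgEquiv.one_apply]
      · exact ct_apply_root_of_autToPow_eq_one K hξ x hx2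
    · rw [ct_autToPow_eq K hξ (φ₀ ^ e) (b ^ e) hφξ']
      push_cast
      rfl
    · exact ct_autToPow_eq K hξ ψ q hψξ
  set H : Subgroup (Ω ≃ₐ[K] Ω) := Subgroup.closure ({φ₀ ^ e, ψ} : Set (Ω ≃ₐ[K] Ω)) with hH
  have hφH : φ₀ ^ e ∈ H := Subgroup.subset_closure (by simp)
  have hψH : ψ ∈ H := Subgroup.subset_closure (by simp)
  have hfixξ : ∀ h ∈ H, h ξ = ξ → h = 1 := by
    intro h hh hhξ
    apply hker h hh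
    apply Units.ext
    rw [ct_autToPow_eq K hξ h 1 (by rw [pow_one]; exact hhξ)]
    simp
  -- step 4: the fields `F` and `M`
  have hge : g ^ e ≠ 1 := ct_pow_ne_one_of_prime_card p hpP hcardG g hg e he
  obtain ⟨x₀, hx₀⟩ : ∃ x : L, (g ^ e) x ≠ x := by
    by_contra hcon
    exact hge (AlgEquiv.ext fun x => by
      by_contra hx
      exact hcon ⟨x, hx⟩)
  have hmove : ∃ h ∈ H, ∃ x : L, h (algebraMap L Ω x) ≠ algebraMap L Ω x :=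
    ⟨φ₀ ^ e, hφH, x₀, by
      rw [hφL]
      exact fun h => hx₀ ((algebraMap L Ω).injective h)⟩
  have hGal : IsGalois ↥(ctF K Ω H) ↥(ctM K L Ω H) := ct_isGalois_FM K L Ω H hcomm
  have hdegFM := ct_finrank_FM K L Ω H p hpP hdeg hcomm hmove
  have hunrFM := ct_unram_FM K L Ω H hunr
  have hgen := ct_adjoin_root K Ω H ξ hfixξ
  obtain ⟨ζK, hζK⟩ := IsCyclotomicExtension.exists_isPrimitiveRoot ℚ K (Set.mem_singleton p)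
    (NeZero.ne p)
  have hζ : IsPrimitiveRoot (algebraMap K ↥(ctF K Ω H) ζK) p :=
    hζK.map_of_injective (algebraMap K ↥(ctF K Ω H)).injective
  -- step 5: the primes of `F`
  have hfixF : ∀ h ∈ H, ∀ x : ↥(ctF K Ω H),
      h (algebraMap ↥(ctF K Ω H) Ω x) = algebraMap ↥(ctF K Ω H) Ω x := by
    intro h hh x
    exact (IntermediateField.mem_fixedField_iff H (x : Ω)).1 x.2 h hh
  obtain ⟨hQn, hQr⟩ := ct_degOne_under K ↥(ctF K Ω H) Ω 𝔔t h𝔔t q hq hqt ψ (hfixF ψ hψH) hψF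
  obtain ⟨hBn, hBr⟩ := ct_degOne_under K ↥(ctF K Ω H) Ω 𝔓 h𝔓 ℓ hℓ h𝔓ℓ (φ₀ ^ e)
    (hfixF (φ₀ ^ e) hφH) hφF
  have hnormA : Ideal.absNorm ((Ideal.under (𝓞 ↥(ctF K Ω H)) 𝔔t) ^ e *
      (Ideal.under (𝓞 ↥(ctF K Ω H)) 𝔓) ^ ((p - 1) * s)) = q ^ e * ℓ ^ ((p - 1) * s) := by
    rw [map_mul, map_pow, map_pow, hQn, hBn]
  have h𝔔F0 : Ideal.under (𝓞 ↥(ctF K Ω H)) 𝔔t ≠ ⊥ := by
    intro h0
    rw [h0, Ideal.absNorm_bot] at hQn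
    exact hq.ne_zero hQn.symm
  have h𝔅F0 : Ideal.under (𝓞 ↥(ctF K Ω H)) 𝔓 ≠ ⊥ := by
    intro h0
    rw [h0, Ideal.absNorm_bot] at hBn
    exact hℓ.ne_zero hBn.symm
  have hA0 : (Ideal.under (𝓞 ↥(ctF K Ω H)) 𝔔t) ^ e *
      (Ideal.under (𝓞 ↥(ctF K Ω H)) 𝔓) ^ ((p - 1) * s) ≠ ⊥ := by
    rw [← Ideal.zero_eq_bot]
    exact mul_ne_zero (pow_ne_zero _ h𝔔F0) (pow_ne_zero _ h𝔅F0)
  have hcopA : IsCoprime ((Ideal.under (𝓞 ↥(ctF K Ω H)) 𝔔t) ^ e *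
      (Ideal.under (𝓞 ↥(ctF K Ω H)) 𝔓) ^ ((p - 1) * s))
      (Ideal.span {((q₁ * q₂ * p : ℕ) : 𝓞 ↥(ctF K Ω H))}) := by
    apply ct_isCoprime_span_natCast
    rw [hnormA]
    exact Nat.Coprime.mul_left (Nat.Coprime.pow_left _ hqmp) (Nat.Coprime.pow_left _ hℓmp)
  have hcopB : IsCoprime (Ideal.under (𝓞 ↥(ctF K Ω H)) 𝔓)
      (Ideal.span {((q₁ * q₂ * p : ℕ) : 𝓞 ↥(ctF K Ω H))}) := by
    apply ct_isCoprime_span_natCast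
    rw [hBn]
    exact hℓmp
  -- the two automorphisms
  have h1 : ∃ h : Ω ≃ₐ[↥(ctF K Ω H)] Ω,
      h ξ = ξ ^ Ideal.absNorm (Ideal.under (𝓞 ↥(ctF K Ω H)) 𝔓) ∧
      ∃ x : ↥(ctM K L Ω H),
        h (algebraMap ↥(ctM K L Ω H) Ω x) ≠ algebraMap ↥(ctM K L Ω H) Ω x := by
    obtain ⟨h', hh'⟩ := ct_lift_aut K Ω H (φ₀ ^ e) hφH
    refine ⟨h', by rw [hh', hBn, hφξ], algebraMap L ↥(ctM K L Ω H) x₀, ?_⟩
    rw [← IsScalarTower.algebraMap_apply L ↥(ctM K L Ω H) Ω, hh', hφL]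
    exact fun h => hx₀ ((algebraMap L Ω).injective h)
  have h2 : ∃ h : Ω ≃ₐ[↥(ctF K Ω H)] Ω,
      h ξ = ξ ^ Ideal.absNorm ((Ideal.under (𝓞 ↥(ctF K Ω H)) 𝔔t) ^ e *
        (Ideal.under (𝓞 ↥(ctF K Ω H)) 𝔓) ^ ((p - 1) * s)) ∧
      ∀ x : ↥(ctM K L Ω H),
        h (algebraMap ↥(ctM K L Ω H) Ω x) = algebraMap ↥(ctM K L Ω H) Ω x := by
    have hmem : ψ ^ e * (φ₀ ^ e) ^ ((p - 1) * s) ∈ H :=
      H.mul_mem (H.pow_mem hψH e) (H.pow_mem hφH _)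
    obtain ⟨h', hh'⟩ := ct_lift_aut K Ω H (ψ ^ e * (φ₀ ^ e) ^ ((p - 1) * s)) hmem
    refine ⟨h', ?_, ct_fix_M K L Ω H h' ?_⟩
    · rw [hh', hnormA, AlgEquiv.mul_apply, ct_pow_apply_root (φ₀ ^ e) ξ ℓ hφξ ((p - 1) * s),
        map_pow, ct_pow_apply_root ψ ξ q hψξ e, ← pow_mul]
    · intro x
      rw [hh', AlgEquiv.mul_apply, ct_pow_apply_algebraMap (φ₀ ^ e) (g ^ e) hφL ((p - 1) * s) x,
        ct_pow_apply_algebraMap ψ (g ^ s) hψL e _]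
      have hone : (g ^ s) ^ e * (g ^ e) ^ ((p - 1) * s) = 1 := by
        rw [← pow_mul, ← pow_mul, ← pow_add]
        have hexp : s * e + e * ((p - 1) * s) = p * (s * e) := by
          obtain ⟨r, hr⟩ : ∃ r, p = r + 1 := ⟨p - 1, (Nat.sub_add_cancel hpP.one_le).symm⟩
          rw [hr, Nat.add_sub_cancel]
          ring
        rw [hexp, pow_mul, hGp, one_pow]
      rw [← AlgEquiv.mul_apply, hone, AlgEquiv.one_apply]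
  have hrel := hK H hGal hdegFM _ hζ hunrFM (q₁ * q₂) hm0 ξ hξ hgen _ _ hA0 h𝔅F0 hcopA hcopB h1 h2
  have hpush := rel_map_relNorm K L ↥(ctF K Ω H) ↥(ctM K L Ω H) hrel
  rw [map_mul, map_pow, map_pow, hQr, hBr, h𝔔tK] at hpush
  exact hpush

end Fermat.Agent.S14
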