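import Mathlib
import Fermat.Agent.S14.Defs
import Fermat.Agent.S14.CKernelAt
import Fermat.Agent.S14.CArith
import Fermat.Agent.S14.CAux
import Fermat.Agent.S14.CCombine
import Fermat.Agent.S14.CFieldGal
import Fermat.Agent.S14.CField
import Fermat.Agent.S14.CHalf

/-!
# P18 (S14), block C: the crossing lemma, relative to the kernel lemma
-/

set_option autoImplicit false

namespace Fermat.Agent.S14

open NumberField
open scoped Pointwise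

/-- Powers of an automorphism restricting to `g` on a subextension restrict to powers of `g`. -/
theorem ct_cross_pow_apply {K L E : Type*} [Field K] [Field L] [Field E] [Algebra K L]
    [Algebra L E] [Algebra K E] (σ : E ≃ₐ[K] E) (g : L ≃ₐ[K] L)
    (hσ : ∀ x : L, σ (algebraMap L E x) = algebraMap L E (g x)) (n : ℕ) (x : L) :
    (σ ^ n) (algebraMap L E x) = algebraMap L E ((g ^ n) x) := by
  induction n generalizing x with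
  | zero => simp
  | succ n ih =>
    rw [pow_succ, pow_succ, AlgEquiv.mul_apply, AlgEquiv.mul_apply, hσ, ih]

/-- The order of `g` divides the order of any automorphism restricting to `g`. -/
theorem ct_cross_orderOf_dvd {K L E : Type*} [Field K] [Field L] [Field E] [Algebra K L]
    [Algebra L E] [Algebra K E] (σ : E ≃ₐ[K] E) (g : L ≃ₐ[K] L)
    (hσ : ∀ x : L, σ (algebraMap L E x) = algebraMap L E (g x)) :
    orderOf g ∣ orderOf σ := by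
  apply orderOf_dvd_of_pow_eq_one
  ext x
  apply (algebraMap L E).injective
  rw [← ct_cross_pow_apply σ g hσ, pow_orderOf_eq_one]
  simp

/-- A nontrivial element of a Galois group of prime order `p` has order `p`. -/
theorem ct_cross_orderOf_eq (p : ℕ) (hp : p.Prime) (K L : Type*) [Field K] [Field L] [Algebra K L]
    [FiniteDimensional K L] [IsGalois K L] (hdeg : Module.finrank K L = p) (g : L ≃ₐ[K] L)
    (hg : g ≠ 1) : orderOf g = p := by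
  have hcard : Nat.card (L ≃ₐ[K] L) = p := by rw [IsGalois.card_aut_eq_finrank, hdeg]
  have h1 : orderOf g ∣ p := hcard ▸ orderOf_dvd_natCard g
  rcases (Nat.dvd_prime hp).mp h1 with h | h
  · exact absurd (orderOf_eq_one_iff.mp h) hg
  · exact h

universe u

theorem ct_crossing_of_kernel (p : ℕ) [Fact p.Prime] (hp : 3 ≤ p)
    (K : Type*) (L : Type u) [Field K] [NumberField K] [Field L] [NumberField L] [Algebra K L]
    [IsGalois K L] [IsCyclotomicExtension {p} ℚ K] [IsGalois ℚ L]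
    (hK : ∀ (Ω : Type u) [Field Ω] [NumberField Ω] [Algebra L Ω] [Algebra K Ω]
      [IsScalarTower K L Ω] [IsGalois K Ω], ct_KernelAt p K L Ω)
    (hdeg : Module.finrank K L = p)
    (hunr : UnramifiedEverywhere K L)
    (hnab : ∃ σ τ : L ≃ₐ[ℚ] L, σ * τ ≠ τ * σ)
    (q : ℕ) (hq : q.Prime) (hqp : q ≠ p)
    (𝔮 𝔮' : Ideal (𝓞 K)) (h𝔮 : Ideal.absNorm 𝔮 = q) (h𝔮' : Ideal.absNorm 𝔮' = q)
    (𝔔 𝔔' : Ideal (𝓞 L)) (h𝔔 : 𝔔.IsPrime) (h𝔔' : 𝔔'.IsPrime)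
    (h𝔔𝔮 : Ideal.under (𝓞 K) 𝔔 = 𝔮) (h𝔔𝔮' : Ideal.under (𝓞 K) 𝔔' = 𝔮')
    (g : L ≃ₐ[K] L) (hg : g ≠ 1) (t : ℕ)
    (hF : ∀ x : 𝓞 L, g • x - x ^ q ∈ 𝔔)
    (hF' : ∀ x : 𝓞 L, (g ^ t) • x - x ^ q ∈ 𝔔') :
    RayNormRel K L ⊤ 𝔮' (𝔮 ^ t) := by
  have hpp : p.Prime := Fact.out
  have hp2 : p ≠ 2 := by omega
  obtain ⟨q₁, q₂, hq₁, hq₂, hq₁p, hq₂p, hq₁₂, hqq₁, hqq₂, ho₁, ho₂⟩ :=
    ct_exists_aux_primes hpp hp2 hq.two_le
  -- the cyclotomic extension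
  have hm0 : q₁ * q₂ ≠ 0 := Nat.mul_ne_zero hq₁.ne_zero hq₂.ne_zero
  have : NeZero (q₁ * q₂) := ⟨hm0⟩
  let Ω : Type u := CyclotomicField (q₁ * q₂) L
  have : IsGalois K Ω := ct_isGalois K L Ω (q₁ * q₂)
  obtain ⟨ξ, hξ⟩ :=
    IsCyclotomicExtension.exists_isPrimitiveRoot L Ω (Set.mem_singleton (q₁ * q₂)) hm0
  -- the residue class `b`
  have hco : Nat.Coprime q₁ q₂ := (Nat.coprime_primes hq₁ hq₂).mpr hq₁₂
  obtain ⟨b, hb₁, hb₂⟩ := Nat.chineseRemainder hco q 1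
  have hbq₁ : Nat.Coprime b q₁ := by
    rw [Nat.coprime_comm, Nat.Prime.coprime_iff_not_dvd hq₁]
    intro h
    exact hqq₁ ((Nat.modEq_zero_iff_dvd.mp ((hb₁.symm.trans (Nat.modEq_zero_iff_dvd.mpr h)))))
  have hbq₂ : Nat.Coprime b q₂ := by
    rw [Nat.coprime_comm, Nat.Prime.coprime_iff_not_dvd hq₂]
    intro h
    have h1 : (1 : ℕ) ≡ 0 [MOD q₂] := hb₂.symm.trans (Nat.modEq_zero_iff_dvd.mpr h)
    exact hq₂.one_lt.ne' (Nat.dvd_one.mp (Nat.modEq_zero_iff_dvd.mp h1))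
  have hb : Nat.Coprime b (q₁ * q₂) := Nat.Coprime.mul_right hbq₁ hbq₂
  have hpm : Nat.Coprime p (q₁ * q₂) :=
    Nat.Coprime.mul_right ((Nat.coprime_primes hpp hq₁).mpr (Ne.symm hq₁p))
      ((Nat.coprime_primes hpp hq₂).mpr (Ne.symm hq₂p))
  -- the automorphism `φ₀`
  obtain ⟨φ₀, hφ₀L, hφ₀ξ⟩ := ct_exists_aut p K L Ω (q₁ * q₂) hdeg hnab hpm ξ hξ g b hb
  -- the auxiliary prime
  obtain ⟨ℓ, 𝔓, φ, e, hℓ, hN, h𝔓, hℓmem, hφ, hecop, hφF, h𝔓ℓ⟩ :=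
    ct_exists_frob_pow K Ω φ₀ (p + q₁ + q₂)
  have hpe : ¬ p ∣ e := by
    intro h
    have h1 : p ∣ orderOf φ₀ := by
      have := ct_cross_orderOf_dvd φ₀ g hφ₀L
      rwa [ct_cross_orderOf_eq p hpp K L hdeg g hg] at this
    have h2 : p ∣ Nat.gcd e (orderOf φ₀) := Nat.dvd_gcd h h1
    rw [hecop] at h2
    exact hpp.one_lt.ne' (Nat.dvd_one.mp h2)
  have hcomm : ∀ σ τ : Ω ≃ₐ[K] Ω, σ * τ = τ * σ :=
    ct_aut_comm K L Ω (q₁ * q₂) p hpp hdeg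
  have hext : ∀ σ : Ω ≃ₐ[K] Ω, (∀ x : L, σ (algebraMap L Ω x) = algebraMap L Ω x) →
      σ ξ = ξ → σ = 1 := by
    intro σ hσL hσξ
    exact ct_aut_ext K L Ω (q₁ * q₂) ξ hξ σ 1 (fun x => by rw [hσL]; rfl) (by rw [hσξ]; rfl)
  have hφF' : ∀ x : 𝓞 Ω, (φ₀ ^ e) • x - x ^ ℓ ∈ 𝔓 := by
    intro x
    rw [← hφ]
    exact hφF x
  have hF1 : ∀ x : 𝓞 L, (g ^ 1) • x - x ^ q ∈ 𝔔 := by
    intro x
    rw [pow_one]
    exact hF x
  have h1 := ct_half p hp K L Ω (hK Ω) hdeg hunr hcomm q₁ q₂ hq₁ hq₂ hq₁p hq₂p ξ hξ hext q hq hqp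
    hqq₁ hqq₂ ho₁ ho₂ g hg b hb₁ hb₂ e hpe ℓ hℓ (by omega) (by omega) (by omega) 𝔓 h𝔓 h𝔓ℓ φ₀ hφ₀L
    hφ₀ξ hφF' 1 𝔮 h𝔮 𝔔 h𝔔 h𝔔𝔮 hF1
  have h2 := ct_half p hp K L Ω (hK Ω) hdeg hunr hcomm q₁ q₂ hq₁ hq₂ hq₁p hq₂p ξ hξ hext q hq hqp
    hqq₁ hqq₂ ho₁ ho₂ g hg b hb₁ hb₂ e hpe ℓ hℓ (by omega) (by omega) (by omega) 𝔓 h𝔓 h𝔓ℓ φ₀ hφ₀L
    hφ₀ξ hφF' t 𝔮' h𝔮' 𝔔' h𝔔' h𝔔𝔮' hF'
  rw [mul_one] at h1
  have hne : ∀ {I : Ideal (𝓞 K)} {n : ℕ}, Ideal.absNorm I = n → n ≠ 0 → I ≠ ⊥ := by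
    intro I n hI hn h
    rw [h, Ideal.absNorm_bot] at hI
    exact hn hI.symm
  exact ct_combine K L hdeg ((Nat.Prime.coprime_iff_not_dvd hpp).mpr hpe).symm
    (hne h𝔮 hq.ne_zero) (hne h𝔮' hq.ne_zero) (hne h𝔓ℓ hℓ.ne_zero) h1 h2

end Fermat.Agent.S14
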