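import Mathlib
import Fermat.Agent.S14.Defs

/-!
# P18 (S14), block K: Frobenius elements act on roots of unity by the norm

For a Galois extension `E/M` of number fields containing a primitive `m`-th root of unity `ξ`:

* `kl_exists_aut_pow_absNorm_prime` : for a nonzero prime `𝔭` of `𝓞 M` of norm prime to `m` there
  is `σ ∈ Gal(E/M)` (a Frobenius element at a prime above `𝔭`) with `σ ξ = ξ ^ N𝔭`;
* `kl_exists_aut_pow_absNorm` : the same for every nonzero ideal `𝔄` of `𝓞 M` of norm prime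
  to `m` (by multiplicativity, using the prime factorisation of `𝔄`).
-/

set_option autoImplicit false

namespace Fermat.Agent.S14

open NumberField

/-- If the natural numbers `N` and `m` are coprime and `N` lies in the proper ideal `I`, then
`m` does not lie in `I`. -/
theorem kl_frob_natCast_notMem {R : Type*} [CommRing R] (I : Ideal R) (hI : I ≠ ⊤) {N m : ℕ}
    (hcop : Nat.Coprime N m) (hN : (N : R) ∈ I) : (m : R) ∉ I := by
  intro hmI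
  apply hI
  rw [Ideal.eq_top_iff_one]
  obtain ⟨a, b, hab⟩ := Nat.isCoprime_iff_coprime.mpr hcop
  have h1 : (a : R) * (N : R) + (b : R) * (m : R) = 1 := by
    have := congrArg (Int.cast : ℤ → R) hab
    push_cast at this
    exact this
  rw [← h1]
  exact I.add_mem (I.mul_mem_left _ hN) (I.mul_mem_left _ hmI)

/-- For a nonzero prime `𝔭` of `𝓞 M` of norm prime to `m`, a Frobenius element of `Gal(E/M)` at a prime above `𝔭` maps the primitive `m`-th root of unity `ξ` to `ξ ^ N𝔭`. -/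
theorem kl_exists_aut_pow_absNorm_prime (M E : Type*) [Field M] [NumberField M] [Field E]
    [NumberField E] [Algebra M E] [IsGalois M E] (m : ℕ) (hm : 0 < m) (ξ : E)
    (hξ : IsPrimitiveRoot ξ m) (𝔭 : Ideal (𝓞 M)) (h𝔭 : 𝔭.IsPrime) (h𝔭0 : 𝔭 ≠ ⊥)
    (hcop : Nat.Coprime (Ideal.absNorm 𝔭) m) :
    ∃ σ : E ≃ₐ[M] E, σ ξ = ξ ^ Ideal.absNorm 𝔭 := by
  classical
  -- `ξ` as an algebraic integer
  have hint : IsIntegral ℤ ξ := hξ.isIntegral hm
  obtain ⟨ξ', hξ'coe⟩ : ∃ ξ' : 𝓞 E, algebraMap (𝓞 E) E ξ' = ξ := ⟨⟨ξ, hint⟩, rfl⟩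
  have hξ'm : ξ' ^ m = 1 := by
    apply RingOfIntegers.coe_injective
    rw [map_pow, hξ'coe, hξ.pow_eq_one, map_one]
  -- a prime `𝔓` of `𝓞 E` above `𝔭`
  obtain ⟨𝔓, -, h𝔓prime, h𝔓over⟩ :=
    Ideal.exists_ideal_over_prime_of_isIntegral (S := 𝓞 E) 𝔭 ⊥
      (by rw [← RingHom.ker_eq_comap_bot, RingOfIntegers.ker_algebraMap_eq_bot]; exact bot_le)
  have hunder : 𝔓.under (𝓞 M) = 𝔭 := h𝔓over
  have h𝔓0 : 𝔓 ≠ ⊥ := by
    rintro rfl
    apply h𝔭0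
    rw [← hunder, Ideal.under, ← RingHom.ker_eq_comap_bot, RingOfIntegers.ker_algebraMap_eq_bot]
  have hfin : Finite (𝓞 E ⧸ 𝔓) := Ideal.finiteQuotientOfFreeOfNeBot 𝔓 h𝔓0
  have hcard : Nat.card (𝓞 M ⧸ 𝔓.under (𝓞 M)) = Ideal.absNorm 𝔭 := by
    rw [hunder, Ideal.absNorm_apply, Submodule.cardQuot_apply]
  -- the Frobenius element
  obtain ⟨σ, hσ⟩ := IsArithFrobAt.exists_of_isInvariant (𝓞 M) (E ≃ₐ[M] E) 𝔓
  -- `m ∉ 𝔓`
  have hm𝔓 : ((m : ℕ) : 𝓞 E) ∉ 𝔓 := by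
    intro hmem
    have h1 : ((m : ℕ) : 𝓞 M) ∈ 𝔭 := by
      rw [← hunder, Ideal.under, Ideal.mem_comap, map_natCast]
      exact hmem
    exact kl_frob_natCast_notMem 𝔭 h𝔭.ne_top hcop (Ideal.absNorm_mem 𝔭) h1
  have key := AlgHom.IsArithFrobAt.apply_of_pow_eq_one hσ hξ'm hm𝔓
  rw [hcard] at key
  refine ⟨σ, ?_⟩
  have key' := congrArg (algebraMap (𝓞 E) E) key
  rw [map_pow, hξ'coe] at key'
  rw [← key', ← hξ'coe]
  rfl

/-- For a nonzero ideal `𝔄` of `𝓞 M` of norm prime to `m`, some element of `Gal(E/M)` maps the primitive `m`-th root of unity `ξ` to `ξ ^ N𝔄`. -/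
theorem kl_exists_aut_pow_absNorm (M E : Type*) [Field M] [NumberField M] [Field E]
    [NumberField E] [Algebra M E] [IsGalois M E] (m : ℕ) (hm : 0 < m) (ξ : E)
    (hξ : IsPrimitiveRoot ξ m) (𝔄 : Ideal (𝓞 M)) (h𝔄 : 𝔄 ≠ ⊥)
    (hcop : Nat.Coprime (Ideal.absNorm 𝔄) m) :
    ∃ σ : E ≃ₐ[M] E, σ ξ = ξ ^ Ideal.absNorm 𝔄 := by
  classical
  revert h𝔄 hcop
  refine UniqueFactorizationMonoid.induction_on_prime
    (P := fun 𝔄 : Ideal (𝓞 M) => 𝔄 ≠ ⊥ → Nat.Coprime (Ideal.absNorm 𝔄) m →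
      ∃ σ : E ≃ₐ[M] E, σ ξ = ξ ^ Ideal.absNorm 𝔄) 𝔄 ?_ ?_ ?_
  · intro h
    exact absurd rfl h
  · intro x hx _ _
    rw [Ideal.isUnit_iff] at hx
    refine ⟨1, ?_⟩
    rw [hx, Ideal.absNorm_top, pow_one]
    rfl
  · intro a p ha0 hp ih _ hcop
    have hp0 : p ≠ ⊥ := hp.ne_zero
    have hpprime : p.IsPrime := (Ideal.prime_iff_isPrime hp0).mp hp
    have ha0' : a ≠ ⊥ := ha0
    rw [map_mul] at hcop
    have hcop1 : Nat.Coprime (Ideal.absNorm p) m := Nat.Coprime.coprime_mul_right hcop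
    have hcop2 : Nat.Coprime (Ideal.absNorm a) m := Nat.Coprime.coprime_mul_left hcop
    obtain ⟨σ₁, hσ₁⟩ := kl_exists_aut_pow_absNorm_prime M E m hm ξ hξ p hpprime hp0 hcop1
    obtain ⟨σ₂, hσ₂⟩ := ih ha0' hcop2
    refine ⟨σ₁ * σ₂, ?_⟩
    rw [AlgEquiv.mul_apply, hσ₂, map_pow, hσ₁, ← pow_mul, map_mul]

end Fermat.Agent.S14
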