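import Mathlib
import Fermat.Agent.S14.Defs

/-!
# P18 (S14), block K: norms and congruences modulo a natural number

* `kl_norm_cast_eq` : elements of `𝓞 F` congruent modulo `m` have norms congruent modulo `m`.
* `kl_absNorm_span_cast` : the absolute norms of the principal ideals they generate agree
  modulo `m` up to sign.
* `kl_coprime_absNorm` : an ideal coprime to `m` has absolute norm coprime to `m`.
-/

set_option autoImplicit false

namespace Fermat.Agent.S14

open NumberField

/-- Entries of the product of a square integer matrix with the scalar matrix `m`. -/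
theorem kl_norm_mul_natCast_apply {ι : Type*} [Fintype ι] [DecidableEq ι] (M : Matrix ι ι ℤ)
    (m : ℕ) (i j : ι) : (M * (m : Matrix ι ι ℤ)) i j = M i j * (m : ℤ) := by
  rw [← nsmul_eq_mul', Matrix.smul_apply, nsmul_eq_mul, mul_comm]

/-- Norms of elements of `𝓞 F` congruent modulo `m` are congruent modulo `m`. -/
theorem kl_norm_cast_eq (F : Type*) [Field F] [NumberField F] (m : ℕ) (a b : 𝓞 F)
    (hab : a - b ∈ Ideal.span {((m : ℕ) : 𝓞 F)}) :
    ((Algebra.norm ℤ a : ℤ) : ZMod m) = ((Algebra.norm ℤ b : ℤ) : ZMod m) := by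
  classical
  obtain ⟨c, hc⟩ := Ideal.mem_span_singleton'.mp hab
  have ha : a = b + c * (m : 𝓞 F) := by rw [hc]; ring
  rw [Algebra.norm_eq_matrix_det (NumberField.RingOfIntegers.basis F) a,
    Algebra.norm_eq_matrix_det (NumberField.RingOfIntegers.basis F) b,
    Int.cast_det, Int.cast_det]
  congr 1
  ext i j
  simp only [Matrix.map_apply]
  rw [ha, map_add, map_mul, map_natCast, Matrix.add_apply, kl_norm_mul_natCast_apply]
  push_cast
  rw [ZMod.natCast_self, mul_zero, add_zero]

/-- The absolute norms of the principal ideals generated by elements congruent modulo `m` agree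
modulo `m` up to sign. -/
theorem kl_absNorm_span_cast (F : Type*) [Field F] [NumberField F] (m : ℕ) (a b : 𝓞 F)
    (hab : a - b ∈ Ideal.span {((m : ℕ) : 𝓞 F)}) :
    ((Ideal.absNorm (Ideal.span {a}) : ℕ) : ZMod m) =
        ((Ideal.absNorm (Ideal.span {b}) : ℕ) : ZMod m) ∨
      ((Ideal.absNorm (Ideal.span {a}) : ℕ) : ZMod m) =
        -((Ideal.absNorm (Ideal.span {b}) : ℕ) : ZMod m) := by
  have h := kl_norm_cast_eq F m a b hab
  have key : ∀ n : ℤ, ((n.natAbs : ℕ) : ZMod m) = (n : ZMod m) ∨
      ((n.natAbs : ℕ) : ZMod m) = -(n : ZMod m) := by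
    intro n
    have h3 : ((n.natAbs : ℕ) : ZMod m) = (((n.natAbs : ℕ) : ℤ) : ZMod m) :=
      (Int.cast_natCast _).symm
    rcases Int.natAbs_eq n with hn | hn
    · left
      rw [h3, ← hn]
    · right
      rw [h3, ← Int.cast_neg]
      congr 1
      omega
  rw [Ideal.absNorm_span_singleton, Ideal.absNorm_span_singleton]
  rcases key (Algebra.norm ℤ a) with h1 | h1 <;> rcases key (Algebra.norm ℤ b) with h2 | h2
  · left; rw [h1, h2, h]
  · right; rw [h1, h2, h, neg_neg]
  · right; rw [h1, h2, h]
  · left; rw [h1, h2, h]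

/-- An ideal coprime to `m` has absolute norm coprime to `m`. -/
theorem kl_coprime_absNorm (F : Type*) [Field F] [NumberField F] (m : ℕ) (I : Ideal (𝓞 F))
    (hI : IsCoprime I (Ideal.span {((m : ℕ) : 𝓞 F)})) : Nat.Coprime (Ideal.absNorm I) m := by
  obtain ⟨x, hx, y, hy, hxy⟩ := Ideal.isCoprime_iff_exists.mp hI
  have h1 : x - 1 ∈ Ideal.span {((m : ℕ) : 𝓞 F)} := by
    have : x - 1 = -y := by rw [← hxy]; ring
    rw [this]
    exact neg_mem hy
  have h2 := kl_norm_cast_eq F m x 1 h1
  rw [map_one, Int.cast_one] at h2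
  obtain ⟨k, hk⟩ := Ideal.absNorm_dvd_norm_of_mem hx
  rw [hk] at h2
  push_cast at h2
  rw [← ZMod.isUnit_iff_coprime]
  exact IsUnit.of_mul_eq_one _ h2

end Fermat.Agent.S14
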