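import Mathlib
import Fermat.Agent.S14.Defs
import Fermat.Agent.S14.KernelNorm
import Fermat.Agent.S14.KernelFrob

/-!
# P18 (S14), block K: the kernel lemma relative to the second inequality

`kernel_lemma_of` is the kernel lemma with the conclusion of the second inequality (for the
modulus `𝔣₀ = (m)` and `𝔠 = 𝔞 𝔟`) as a hypothesis.

Setting: `F ⊆ M ⊆ E = F(ξ)`, `ξ` a primitive `m`-th root of unity, `M/F` Galois of prime degree
`p ≥ 3`.  `χ : Gal(E/F) → (ℤ/m)ˣ` is the cyclotomic character (injective), `ρ : Gal(E/F) →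
Gal(M/F)` the restriction.  The key invariance (`kl_rel_norm_cast`) is: if `𝔵 ~ 𝔶` modulo a
modulus `𝔣 ⊆ (m)`, then `N𝔵 ≡ ± χ(g) N𝔶` modulo `m` for some `g ∈ ker ρ` (Frobenius elements of
`E/M` act on `ξ` through the norm, and norms of elements congruent modulo `m` agree modulo `m` up
to sign).  The sign is harmless because `Gal(M/F)` has odd order.
-/

set_option autoImplicit false

namespace Fermat.Agent.S14

open NumberField

section

variable {F M E : Type*} [Field F] [Field M] [Field E]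
  [Algebra F M] [Algebra M E] [Algebra F E] [IsScalarTower F M E]

/-- An `F`-automorphism of `E = F(ξ)` fixing `ξ` is trivial. -/
theorem kl_core_eq_one_of_apply_eq {ξ : E} (hgen : IntermediateField.adjoin F {ξ} = ⊤)
    (g : E ≃ₐ[F] E) (hg : g ξ = ξ) : g = 1 := by
  ext x
  have hx : x ∈ IntermediateField.adjoin F {ξ} := by
    rw [hgen]
    trivial
  rw [AlgEquiv.one_apply]
  induction hx using IntermediateField.adjoin_induction with
  | mem y hy =>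
    rw [Set.mem_singleton_iff] at hy
    rw [hy, hg]
  | algebraMap c => exact g.commutes c
  | add x y _ _ hx hy => rw [map_add, hx, hy]
  | inv x _ hx => rw [map_inv₀, hx]
  | mul x y _ _ hx hy => rw [map_mul, hx, hy]

/-- The cyclotomic character of an automorphism mapping `ξ` to `ξ ^ k` is `k`. -/
theorem kl_core_autToPow_eq {m : ℕ} [NeZero m] {ξ : E} (hξ : IsPrimitiveRoot ξ m)
    (g : E ≃ₐ[F] E) (k : ℕ) (hg : g ξ = ξ ^ k) :
    ((hξ.autToPow F g : (ZMod m)ˣ) : ZMod m) = (k : ZMod m) := by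
  have h := hξ.autToPow_spec F g
  rw [hg] at h
  have hfin : IsOfFinOrder ξ :=
    isOfFinOrder_iff_pow_eq_one.mpr ⟨m, Nat.pos_of_ne_zero (NeZero.ne m), hξ.pow_eq_one⟩
  have h2 : ((hξ.autToPow F g : (ZMod m)ˣ) : ZMod m).val ≡ k [MOD orderOf ξ] :=
    hfin.pow_eq_pow_iff_modEq.mp h
  rw [← hξ.eq_orderOf] at h2
  rw [← ZMod.natCast_zmod_val ((hξ.autToPow F g : (ZMod m)ˣ) : ZMod m)]
  exact (ZMod.natCast_eq_natCast_iff _ _ _).mpr h2

/-- The cyclotomic character of `E = F(ξ)` over `F` is injective. -/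
theorem kl_core_autToPow_injective {m : ℕ} [NeZero m] {ξ : E} (hξ : IsPrimitiveRoot ξ m)
    (hgen : IntermediateField.adjoin F {ξ} = ⊤) : Function.Injective (hξ.autToPow F) := by
  rw [injective_iff_map_eq_one]
  intro g hg
  apply kl_core_eq_one_of_apply_eq hgen
  have h := hξ.autToPow_spec F g
  rw [hg, Units.val_one, ZMod.val_one_eq_one_mod, hξ.eq_orderOf, pow_mod_orderOf, pow_one] at h
  exact h.symm

variable [IsGalois F M]

/-- An automorphism of `E/F` restricts trivially to `M` iff it fixes `M` pointwise. -/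
theorem kl_core_restrict_eq_one_iff (g : E ≃ₐ[F] E) :
    AlgEquiv.restrictNormalHom M g = 1 ↔
      ∀ x : M, g (algebraMap M E x) = algebraMap M E x := by
  constructor
  · intro h x
    have h1 := AlgEquiv.restrictNormal_commutes g M x
    have h2 : g.restrictNormal M = 1 := h
    rw [← h1, h2, AlgEquiv.one_apply]
  · intro h
    ext x
    apply (algebraMap M E).injective
    have h1 := AlgEquiv.restrictNormal_commutes g M x
    rw [AlgEquiv.one_apply]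
    exact h1.trans (h x)

variable [FiniteDimensional F M]

/-- In `Gal(M/F)` of prime order `p`, a nontrivial element has order `p`. -/
theorem kl_core_dvd_of_pow_eq_one {p : ℕ} [Fact p.Prime] (hdeg : Module.finrank F M = p)
    (τ : M ≃ₐ[F] M) (hτ : τ ≠ 1) (j : ℕ) (hj : τ ^ j = 1) : p ∣ j := by
  have hcard : Nat.card (M ≃ₐ[F] M) = p := by
    rw [IsGalois.card_aut_eq_finrank, hdeg]
  have h1 : orderOf τ ∣ p := hcard ▸ orderOf_dvd_natCard τ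
  have h2 : orderOf τ = p := by
    rcases (Nat.dvd_prime Fact.out).mp h1 with h | h
    · exact absurd (orderOf_eq_one_iff.mp h) hτ
    · exact h
  rw [← h2]
  exact orderOf_dvd_of_pow_eq_one hj

/-- `Gal(M/F)` of odd prime order has no element of order two. -/
theorem kl_core_eq_one_of_sq {p : ℕ} [Fact p.Prime] (hp : 3 ≤ p)
    (hdeg : Module.finrank F M = p) (τ : M ≃ₐ[F] M) (hτ : τ ^ 2 = 1) : τ = 1 := by
  by_contra h
  have h1 := kl_core_dvd_of_pow_eq_one hdeg τ h 2 hτ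
  have h2 := Nat.le_of_dvd (by norm_num) h1
  omega

/-- If the cyclotomic character of `g` agrees up to sign with that of an element fixing `M`,
then `g` fixes `M`. -/
theorem kl_core_restrict_eq_one_of_sign {p : ℕ} [Fact p.Prime] (hp : 3 ≤ p)
    (hdeg : Module.finrank F M = p) {m : ℕ} [NeZero m] {ξ : E} (hξ : IsPrimitiveRoot ξ m)
    (hgen : IntermediateField.adjoin F {ξ} = ⊤) (g k : E ≃ₐ[F] E)
    (hk : AlgEquiv.restrictNormalHom M k = 1)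
    (h : ((hξ.autToPow F g : (ZMod m)ˣ) : ZMod m) = ((hξ.autToPow F k : (ZMod m)ˣ) : ZMod m) ∨
      ((hξ.autToPow F g : (ZMod m)ˣ) : ZMod m) =
        -((hξ.autToPow F k : (ZMod m)ˣ) : ZMod m)) :
    AlgEquiv.restrictNormalHom M g = 1 := by
  rcases h with h | h
  · have h1 : hξ.autToPow F g = hξ.autToPow F k := Units.ext h
    rw [kl_core_autToPow_injective hξ hgen h1]
    exact hk
  · have h1 : hξ.autToPow F g = -hξ.autToPow F k := Units.ext (by rw [Units.val_neg]; exact h)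
    have h2 : hξ.autToPow F ((g * k⁻¹) ^ 2) = 1 := by
      rw [map_pow, map_mul, map_inv, h1, neg_mul, mul_inv_cancel, neg_sq, one_pow]
    have h3 : (g * k⁻¹) ^ 2 = 1 := kl_core_autToPow_injective hξ hgen (h2.trans (map_one _).symm)
    have h4 : (AlgEquiv.restrictNormalHom M (g * k⁻¹)) ^ 2 = 1 := by
      rw [← map_pow, h3, map_one]
    have h5 := kl_core_eq_one_of_sq hp hdeg _ h4
    rw [map_mul, map_inv, hk, inv_one, mul_one] at h5
    exact h5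

end

section

variable {F M E : Type*} [Field F] [NumberField F] [Field M] [NumberField M] [Field E]
  [NumberField E] [Algebra F M] [Algebra M E] [Algebra F E] [IsScalarTower F M E]
  [IsGalois F M] [IsGalois F E]

/-- **Invariance.** If `𝔵 ~ 𝔶` modulo a modulus contained in `(m)`, then `N𝔵 ≡ ± χ(g) N𝔶`
modulo `m` for some `g ∈ Gal(E/F)` fixing `M`. -/
theorem kl_core_rel_norm_cast {m : ℕ} [NeZero m] {ξ : E} (hξ : IsPrimitiveRoot ξ m)
    (𝔣 𝔵 𝔶 : Ideal (𝓞 F)) (h𝔣 : 𝔣 ≤ Ideal.span {((m : ℕ) : 𝓞 F)})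
    (h : RayNormRel F M 𝔣 𝔵 𝔶) :
    ∃ g : E ≃ₐ[F] E, AlgEquiv.restrictNormalHom M g = 1 ∧
      (((Ideal.absNorm 𝔵 : ℕ) : ZMod m) =
          ((hξ.autToPow F g : (ZMod m)ˣ) : ZMod m) * ((Ideal.absNorm 𝔶 : ℕ) : ZMod m) ∨
        ((Ideal.absNorm 𝔵 : ℕ) : ZMod m) =
          -(((hξ.autToPow F g : (ZMod m)ˣ) : ZMod m) * ((Ideal.absNorm 𝔶 : ℕ) : ZMod m))) := by
  obtain ⟨a, b, 𝔄, 𝔅, -, -, hab, -, hcb, h𝔄, h𝔅, hc𝔄, hc𝔅, heq⟩ := h
  have hab' : a - b ∈ Ideal.span {((m : ℕ) : 𝓞 F)} := h𝔣 hab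
  have hmono : ∀ I : Ideal (𝓞 F), IsCoprime I 𝔣 →
      IsCoprime I (Ideal.span {((m : ℕ) : 𝓞 F)}) := by
    intro I hI
    rw [Ideal.isCoprime_iff_sup_eq] at hI ⊢
    exact eq_top_iff.mpr (hI ▸ sup_le_sup_left h𝔣 I)
  have hcopb : Nat.Coprime (Ideal.absNorm (Ideal.span {b})) m :=
    kl_coprime_absNorm F m _ (hmono _ hcb)
  have hcop𝔄 : Nat.Coprime (Ideal.absNorm 𝔄) m := by
    have h1 := kl_coprime_absNorm F m _ (hmono _ hc𝔄)
    rwa [Ideal.absNorm_relNorm] at h1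
  have hcop𝔅 : Nat.Coprime (Ideal.absNorm 𝔅) m := by
    have h1 := kl_coprime_absNorm F m _ (hmono _ hc𝔅)
    rwa [Ideal.absNorm_relNorm] at h1
  have hGal : IsGalois M E := IsGalois.tower_top_of_isGalois F M E
  have hm : 0 < m := Nat.pos_of_ne_zero (NeZero.ne m)
  obtain ⟨σ𝔄, hσ𝔄⟩ := kl_exists_aut_pow_absNorm M E m hm ξ hξ 𝔄 h𝔄 hcop𝔄
  obtain ⟨σ𝔅, hσ𝔅⟩ := kl_exists_aut_pow_absNorm M E m hm ξ hξ 𝔅 h𝔅 hcop𝔅
  have hg𝔄 : AlgEquiv.restrictNormalHom M (σ𝔄.restrictScalars F) = 1 :=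
    (kl_core_restrict_eq_one_iff _).mpr fun x => σ𝔄.commutes x
  have hg𝔅 : AlgEquiv.restrictNormalHom M (σ𝔅.restrictScalars F) = 1 :=
    (kl_core_restrict_eq_one_iff _).mpr fun x => σ𝔅.commutes x
  have hχ𝔄 : ((hξ.autToPow F (σ𝔄.restrictScalars F) : (ZMod m)ˣ) : ZMod m) =
      ((Ideal.absNorm 𝔄 : ℕ) : ZMod m) := kl_core_autToPow_eq hξ _ _ hσ𝔄
  have hχ𝔅 : ((hξ.autToPow F (σ𝔅.restrictScalars F) : (ZMod m)ˣ) : ZMod m) =
      ((Ideal.absNorm 𝔅 : ℕ) : ZMod m) := kl_core_autToPow_eq hξ _ _ hσ𝔅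
  -- the norm equation modulo `m`
  have hN := congrArg Ideal.absNorm heq
  rw [map_mul, map_mul, map_mul, map_mul, Ideal.absNorm_relNorm, Ideal.absNorm_relNorm] at hN
  have hN' := congrArg (Nat.cast : ℕ → ZMod m) hN
  push_cast at hN'
  rw [← hχ𝔄, ← hχ𝔅] at hN'
  have hub : IsUnit ((Ideal.absNorm (Ideal.span {b}) : ℕ) : ZMod m) :=
    (ZMod.isUnit_iff_coprime _ _).mpr hcopb
  set u := hξ.autToPow F (σ𝔄.restrictScalars F) with hu
  set v := hξ.autToPow F (σ𝔅.restrictScalars F) with hv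
  have hχ : hξ.autToPow F (σ𝔅.restrictScalars F * (σ𝔄.restrictScalars F)⁻¹) = v * u⁻¹ := by
    rw [map_mul, map_inv]
  refine ⟨σ𝔅.restrictScalars F * (σ𝔄.restrictScalars F)⁻¹, by
    rw [map_mul, map_inv, hg𝔄, hg𝔅, inv_one, mul_one], ?_⟩
  rw [hχ, Units.val_mul]
  have huu : ((u : (ZMod m)ˣ) : ZMod m) * ((u⁻¹ : (ZMod m)ˣ) : ZMod m) = 1 := by
    rw [← Units.val_mul, mul_inv_cancel, Units.val_one]
  rcases kl_absNorm_span_cast F m a b hab' with hs | hs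
  · left
    rw [hs] at hN'
    have h1 : ((Ideal.absNorm 𝔵 : ℕ) : ZMod m) * (u : ZMod m) =
        ((Ideal.absNorm 𝔶 : ℕ) : ZMod m) * (v : ZMod m) := by
      apply hub.mul_left_cancel
      rw [← mul_assoc, ← mul_assoc]
      exact hN'
    calc ((Ideal.absNorm 𝔵 : ℕ) : ZMod m)
        = ((Ideal.absNorm 𝔵 : ℕ) : ZMod m) * (u : ZMod m) * ((u⁻¹ : (ZMod m)ˣ) : ZMod m) := by
          rw [mul_assoc, huu, mul_one]
      _ = (v : ZMod m) * ((u⁻¹ : (ZMod m)ˣ) : ZMod m) * ((Ideal.absNorm 𝔶 : ℕ) : ZMod m) := by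
          rw [h1]
          ring
  · right
    rw [hs] at hN'
    have h1 : ((Ideal.absNorm 𝔵 : ℕ) : ZMod m) * (u : ZMod m) =
        -(((Ideal.absNorm 𝔶 : ℕ) : ZMod m) * (v : ZMod m)) := by
      apply hub.mul_left_cancel
      rw [mul_neg, ← mul_assoc, ← mul_assoc, ← hN']
      ring
    calc ((Ideal.absNorm 𝔵 : ℕ) : ZMod m)
        = ((Ideal.absNorm 𝔵 : ℕ) : ZMod m) * (u : ZMod m) * ((u⁻¹ : (ZMod m)ˣ) : ZMod m) := by
          rw [mul_assoc, huu, mul_one]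
      _ = -((v : ZMod m) * ((u⁻¹ : (ZMod m)ˣ) : ZMod m) *
            ((Ideal.absNorm 𝔶 : ℕ) : ZMod m)) := by
          rw [h1]
          ring

/-- **Kernel lemma**, relative to the conclusion of the second inequality for the modulus `(m)`
and the ideal `𝔞 𝔟`. -/
theorem kernel_lemma_of (p : ℕ) [Fact p.Prime] (hp : 3 ≤ p)
    (hdeg : Module.finrank F M = p)
    (m : ℕ) (hm : 0 < m) (ξ : E) (hξ : IsPrimitiveRoot ξ m)
    (hgen : IntermediateField.adjoin F {ξ} = ⊤)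
    (𝔞 𝔟 : Ideal (𝓞 F)) (h𝔞 : 𝔞 ≠ ⊥) (h𝔟 : 𝔟 ≠ ⊥)
    (h1 : ∃ h : E ≃ₐ[F] E, h ξ = ξ ^ Ideal.absNorm 𝔟 ∧
      ∃ x : M, h (algebraMap M E x) ≠ algebraMap M E x)
    (h2 : ∃ h : E ≃ₐ[F] E, h ξ = ξ ^ Ideal.absNorm 𝔞 ∧
      ∀ x : M, h (algebraMap M E x) = algebraMap M E x)
    (hH2 : ∃ 𝔣 : Ideal (𝓞 F), 𝔣 ≠ ⊥ ∧ 𝔣 ≤ Ideal.span {((m : ℕ) : 𝓞 F)} ∧
      IsCoprime (𝔞 * 𝔟) 𝔣 ∧
      ∀ 𝔞' 𝔟' : Ideal (𝓞 F), 𝔞' ≠ ⊥ → 𝔟' ≠ ⊥ → IsCoprime 𝔞' 𝔣 → IsCoprime 𝔟' 𝔣 →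
        ¬ RayNormRel F M 𝔣 𝔟' ⊤ → ∃ j : ℕ, RayNormRel F M 𝔣 (𝔞' * 𝔟' ^ j) ⊤) :
    RayNormRel F M ⊤ 𝔞 ⊤ := by
  have : NeZero m := ⟨hm.ne'⟩
  obtain ⟨𝔣, -, h𝔣m, hcop, hall⟩ := hH2
  obtain ⟨hb, hbξ, x₀, hx₀⟩ := h1
  obtain ⟨ha, haξ, hafix⟩ := h2
  have hρa : AlgEquiv.restrictNormalHom M ha = 1 := (kl_core_restrict_eq_one_iff _).mpr hafix
  have hρb : AlgEquiv.restrictNormalHom M hb ≠ 1 := fun h0 =>
    hx₀ ((kl_core_restrict_eq_one_iff _).mp h0 x₀)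
  have hχa : ((hξ.autToPow F ha : (ZMod m)ˣ) : ZMod m) = ((Ideal.absNorm 𝔞 : ℕ) : ZMod m) :=
    kl_core_autToPow_eq hξ _ _ haξ
  have hχb : ((hξ.autToPow F hb : (ZMod m)ˣ) : ZMod m) = ((Ideal.absNorm 𝔟 : ℕ) : ZMod m) :=
    kl_core_autToPow_eq hξ _ _ hbξ
  -- `𝔟` is not in the kernel
  have hnot : ¬ RayNormRel F M 𝔣 𝔟 ⊤ := by
    intro hrel
    obtain ⟨g, hg, hor⟩ := kl_core_rel_norm_cast hξ 𝔣 𝔟 ⊤ h𝔣m hrel
    rw [Ideal.absNorm_top, Nat.cast_one, mul_one, ← hχb] at hor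
    exact hρb (kl_core_restrict_eq_one_of_sign hp hdeg hξ hgen hb g hg hor)
  obtain ⟨j, hj⟩ := hall 𝔞 𝔟 h𝔞 h𝔟 hcop.of_mul_left_left hcop.of_mul_left_right hnot
  -- `p ∣ j`
  have hpj : p ∣ j := by
    obtain ⟨g, hg, hor⟩ := kl_core_rel_norm_cast hξ 𝔣 (𝔞 * 𝔟 ^ j) ⊤ h𝔣m hj
    rw [Ideal.absNorm_top, Nat.cast_one, mul_one, map_mul, map_pow, Nat.cast_mul, Nat.cast_pow,
      ← hχa, ← hχb, ← Units.val_pow_eq_pow_val, ← Units.val_mul, ← map_pow, ← map_mul] at hor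
    have h3 := kl_core_restrict_eq_one_of_sign hp hdeg hξ hgen (ha * hb ^ j) g hg hor
    rw [map_mul, hρa, one_mul, map_pow] at h3
    exact kl_core_dvd_of_pow_eq_one hdeg _ hρb j h3
  obtain ⟨i, rfl⟩ := hpj
  -- `𝔟 ^ (p * i)` is a norm
  have hfin : Module.finrank (𝓞 F) (𝓞 M) = p := by
    rw [← IsGaloisGroup.card_eq_finrank' (M ≃ₐ[F] M) (𝓞 F) (𝓞 M), IsGalois.card_aut_eq_finrank,
      hdeg]
  have hnorm : Ideal.relNorm (𝓞 F) ((𝔟 ^ i).map (algebraMap (𝓞 F) (𝓞 M))) = 𝔟 ^ (p * i) := by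
    rw [Ideal.relNorm_algebraMap, hfin, ← pow_mul, mul_comm]
  have hmap0 : (𝔟 ^ i).map (algebraMap (𝓞 F) (𝓞 M)) ≠ ⊥ := by
    rw [Ne, Ideal.map_eq_bot_iff_of_injective (RingOfIntegers.algebraMap.injective F M)]
    exact pow_ne_zero i h𝔟
  obtain ⟨a, b, 𝔄, 𝔅, ha0, hb0, -, -, -, h𝔄, h𝔅, -, -, heq⟩ := hj
  have htop : ∀ I : Ideal (𝓞 F), IsCoprime I ⊤ := fun I =>
    Ideal.isCoprime_iff_sup_eq.mpr (sup_top_eq I)
  refine ⟨a, b, (𝔟 ^ i).map (algebraMap (𝓞 F) (𝓞 M)) * 𝔄, 𝔅, ha0, hb0, Submodule.mem_top,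
    htop _, htop _, mul_ne_zero hmap0 h𝔄, h𝔅, htop _, htop _, ?_⟩
  rw [map_mul, hnorm, ← heq]
  ring

end

end Fermat.Agent.S14
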