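import Mathlib

/-!
# P18 (S14), block H1 (route B), slice (a): the abstract first-inequality lemma

`A`, `J` abelian groups with operators `N`, `D` (in the application `N = 1 + σ + ⋯ + σ^(p-1)`,
`D = σ - 1` for an automorphism `σ` of order `p`), `dv : A → J` an equivariant homomorphism with
finite cokernel and kernel `E`.  If `H¹(A) = 0` (`ker N_A ⊆ D A`) and `|Ĥ⁰(E)| < |H¹(E)|`
(`Ĥ⁰(E)` finite), then `J^σ ≠ dv(A^σ) + N J`.

* `h1aB_relIndex_le` : comparison of relative indices through a "reflecting" function.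
* `h1aB_abstract` : the lemma, additive form.
* `h1aB_abstract_mul` : the lemma, multiplicative form.
-/

set_option autoImplicit false

namespace Fermat.Agent.S14

/-- Comparison of relative indices: a function `g` sending `T` into `X` such that
`g t - g t' ∈ Y` implies `t - t' ∈ W` gives `[T : W ∩ T] ≤ [X : Y ∩ X]`. -/
theorem h1aB_relIndex_le {G G' : Type*} [AddCommGroup G] [AddCommGroup G']
    (W T : AddSubgroup G) (Y X : AddSubgroup G') (g : G → G')
    (hg : ∀ t ∈ T, g t ∈ X)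
    (hrefl : ∀ t ∈ T, ∀ t' ∈ T, g t - g t' ∈ Y → t - t' ∈ W)
    (hfin : Y.relIndex X ≠ 0) :
    W.relIndex T ≠ 0 ∧ W.relIndex T ≤ Y.relIndex X := by
  classical
  have : Finite (↥X ⧸ Y.addSubgroupOf X) := AddSubgroup.index_ne_zero_iff_finite.mp hfin
  let φ : (↥T ⧸ W.addSubgroupOf T) → (↥X ⧸ Y.addSubgroupOf X) :=
    fun c => QuotientAddGroup.mk ⟨g (Quotient.out c : ↥T), hg _ (Quotient.out c).2⟩
  have hφ : Function.Injective φ := by
    intro c c' h
    have h' := QuotientAddGroup.eq.mp h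
    rw [AddSubgroup.mem_addSubgroupOf] at h'
    have h2 : g ((Quotient.out c : ↥T) : G) - g ((Quotient.out c' : ↥T) : G) ∈ Y := by
      have h3 := Y.neg_mem h'
      have h4 : -(((-(⟨g (Quotient.out c : ↥T), hg _ (Quotient.out c).2⟩ : ↥X)
          + (⟨g (Quotient.out c' : ↥T), hg _ (Quotient.out c').2⟩ : ↥X) : ↥X)) : G')
          = g ((Quotient.out c : ↥T) : G) - g ((Quotient.out c' : ↥T) : G) := by
        simp only [AddSubgroup.coe_add, NegMemClass.coe_neg]
        abel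
      rw [← h4]
      exact h3
    have h5 := hrefl _ (Quotient.out c).2 _ (Quotient.out c').2 h2
    rw [← Quotient.out_eq c, ← Quotient.out_eq c']
    apply QuotientAddGroup.eq.mpr
    rw [AddSubgroup.mem_addSubgroupOf]
    have h6 := W.neg_mem h5
    have h7 : ((-(Quotient.out c : ↥T) + (Quotient.out c' : ↥T) : ↥T) : G)
        = -(((Quotient.out c : ↥T) : G) - ((Quotient.out c' : ↥T) : G)) := by
      simp only [AddSubgroup.coe_add, NegMemClass.coe_neg]
      abel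
    rw [h7]
    exact h6
  have : Finite (↥T ⧸ W.addSubgroupOf T) := Finite.of_injective φ hφ
  exact ⟨AddSubgroup.index_ne_zero_iff_finite.mpr inferInstance,
    Nat.card_le_card_of_injective φ hφ⟩

/-- **Abstract first-inequality lemma** (additive form).  `N`, `D` are operators on `A` and `J`
compatible with `dv : A → J`, with `D N = 0` on `A` and `N D = 0` on `J`; `ker N_A ⊆ D A`;
`dv` has finite cokernel; on `E = ker dv`, `Ĥ⁰(E) = (ker D ∩ E)/N E` is finite and strictly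
smaller than `H¹(E) = (ker N ∩ E)/D E`.  Then some `x ∈ ker D_J` is not of the form
`dv a + N y` with `D a = 0`. -/
theorem h1aB_abstract {A J : Type*} [AddCommGroup A] [AddCommGroup J]
    (NA DA : A →+ A) (NJ DJ : J →+ J) (dv : A →+ J)
    (hdN : ∀ a, dv (NA a) = NJ (dv a)) (hdD : ∀ a, dv (DA a) = DJ (dv a))
    (hDNA : ∀ a, DA (NA a) = 0) (hNDJ : ∀ x, NJ (DJ x) = 0)
    (hH1 : ∀ a, NA a = 0 → ∃ b, a = DA b)
    (hfin : dv.range.index ≠ 0)
    (h0 : (dv.ker.map NA).relIndex (DA.ker ⊓ dv.ker) ≠ 0)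
    (h1 : (dv.ker.map NA).relIndex (DA.ker ⊓ dv.ker)
      < (dv.ker.map DA).relIndex (NA.ker ⊓ dv.ker)) :
    ∃ x : J, DJ x = 0 ∧ ∀ a y, DA a = 0 → x ≠ dv a + NJ y := by
  by_contra hcon
  have hstar : ∀ x, ∃ a y, DJ x = 0 → (DA a = 0 ∧ x = dv a + NJ y) := by
    intro x
    by_cases hx : DJ x = 0
    · by_contra h
      refine hcon ⟨x, hx, fun a y ha hxy => h ⟨a, y, fun _ => ⟨ha, hxy⟩⟩⟩
    · exact ⟨0, 0, fun h => absurd h hx⟩
  choose fa fy hfa using hstar
  have hH1' : ∀ a, ∃ b, NA a = 0 → a = DA b := by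
    intro a
    by_cases ha : NA a = 0
    · obtain ⟨b, hb⟩ := hH1 a ha
      exact ⟨b, fun _ => hb⟩
    · exact ⟨0, fun h => absurd h ha⟩
  choose fb hfb using hH1'
  -- the subgroups
  let P : AddSubgroup J := dv.range
  let Z : AddSubgroup J := DJ.ker
  let B : AddSubgroup J := DA.ker.map dv
  let T : AddSubgroup J := P.comap DJ
  let R : AddSubgroup J := DJ.range
  have hBZP : B ≤ P ⊓ Z := by
    rintro _ ⟨a, ha, rfl⟩
    refine ⟨⟨a, rfl⟩, ?_⟩
    change DJ (dv a) = 0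
    rw [← hdD, AddMonoidHom.mem_ker.mp ha, map_zero]
  have hPT : P ≤ T := by
    rintro _ ⟨a, rfl⟩
    change DJ (dv a) ∈ dv.range
    exact ⟨DA a, hdD a⟩
  have hZT : Z ≤ T := by
    intro z hz
    change DJ z ∈ dv.range
    rw [AddMonoidHom.mem_ker.mp hz]
    exact zero_mem _
  have hfc : ∀ t, ∃ a, t ∈ T → dv a = DJ t := by
    intro t
    by_cases ht : t ∈ T
    · obtain ⟨a, ha⟩ := (ht : DJ t ∈ dv.range)
      exact ⟨a, fun _ => ha⟩
    · exact ⟨0, fun h => absurd h ht⟩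
  choose fc hfc using hfc
  -- (A) `[Z : B] ≤ [J : P + D J]`
  have hc1 : (P ⊔ R).index ≠ 0 :=
    ne_zero_of_dvd_ne_zero hfin (AddSubgroup.index_dvd_of_le le_sup_left)
  have hA := h1aB_relIndex_le B Z (P ⊔ R) ⊤ fy (fun _ _ => AddSubgroup.mem_top _)
    (by
      intro x hx x' hx' hyy
      obtain ⟨hax, hxe⟩ := hfa x (AddMonoidHom.mem_ker.mp hx)
      obtain ⟨hax', hxe'⟩ := hfa x' (AddMonoidHom.mem_ker.mp hx')
      obtain ⟨_, ⟨a2, rfl⟩, _, ⟨z, rfl⟩, hpd⟩ := AddSubgroup.mem_sup.mp hyy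
      refine ⟨fa x - fa x' + NA a2, ?_, ?_⟩
      · change DA (fa x - fa x' + NA a2) = 0
        rw [map_add, map_sub, hax, hax', hDNA, sub_zero, add_zero]
      · have h3 : NJ (fy x) - NJ (fy x') = dv (NA a2) := by
          rw [← map_sub, ← hpd, map_add, hNDJ, add_zero, hdN]
        rw [map_add, map_sub, ← h3]
        nth_rewrite 3 [hxe]
        nth_rewrite 3 [hxe']
        abel)
    (by rw [AddSubgroup.relIndex_top_right]; exact hc1)
  rw [AddSubgroup.relIndex_top_right] at hA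
  -- (B) `[ker N ∩ E : D E] ≤ [P ∩ Z : B]`
  have e1 : B.relIndex (P ⊓ Z) * (P ⊓ Z).relIndex Z = B.relIndex Z :=
    AddSubgroup.relIndex_mul_relIndex _ _ _ hBZP inf_le_right
  have hk : B.relIndex (P ⊓ Z) ≠ 0 := by
    intro h
    rw [h, zero_mul] at e1
    exact hA.1 e1.symm
  have hs : (P ⊓ Z).relIndex Z ≠ 0 := by
    intro h
    rw [h, mul_zero] at e1
    exact hA.1 e1.symm
  have hB := h1aB_relIndex_le (dv.ker.map DA) (NA.ker ⊓ dv.ker) B (P ⊓ Z) (fun e => dv (fb e))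
    (by
      rintro e ⟨he1, he2⟩
      refine ⟨⟨_, rfl⟩, ?_⟩
      change DJ (dv (fb e)) = 0
      rw [← hdD, ← hfb e (AddMonoidHom.mem_ker.mp he1)]
      exact AddMonoidHom.mem_ker.mp he2)
    (by
      rintro e ⟨he1, he2⟩ e' ⟨he1', he2'⟩ ⟨a0, ha0, ha0e⟩
      refine ⟨fb e - fb e' - a0, ?_, ?_⟩
      · change dv (fb e - fb e' - a0) = 0
        rw [map_sub, map_sub, ha0e, sub_self]
      · rw [map_sub, map_sub, ← hfb e (AddMonoidHom.mem_ker.mp he1),
          ← hfb e' (AddMonoidHom.mem_ker.mp he1'), AddMonoidHom.mem_ker.mp ha0, sub_zero])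
    hk
  -- (C) `[T : Z + P] ≤ [ker D ∩ E : N E]`
  have hC := h1aB_relIndex_le (Z ⊔ P) T (dv.ker.map NA) (DA.ker ⊓ dv.ker) (fun t => NA (fc t))
    (by
      intro t ht
      refine ⟨?_, ?_⟩
      · change DA (NA (fc t)) = 0
        exact hDNA _
      · change dv (NA (fc t)) = 0
        rw [hdN, hfc t ht, hNDJ])
    (by
      rintro t ht t' ht' ⟨e, he, hee⟩
      have h3 : NA (fc t - fc t' - e) = 0 := by
        rw [map_sub, map_sub, hee, sub_self]
      obtain ⟨b, hb⟩ := hH1 _ h3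
      have h4 : DJ (t - t' - dv b) = 0 := by
        rw [map_sub, map_sub, ← hfc t ht, ← hfc t' ht', ← hdD, ← hb, map_sub, map_sub,
          AddMonoidHom.mem_ker.mp he, sub_zero, sub_self]
      have h5 : t - t' = (t - t' - dv b) + dv b := by abel
      rw [h5]
      exact AddSubgroup.add_mem_sup (AddMonoidHom.mem_ker.mpr h4) ⟨b, rfl⟩)
    h0
  -- bookkeeping: `[J : P + D J] = [T : P]`
  have e2 : P.relIndex T * T.index = P.index := AddSubgroup.relIndex_mul_index hPT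
  have e3 : P.relIndex (P ⊔ R) * (P ⊔ R).index = P.index :=
    AddSubgroup.relIndex_mul_index le_sup_left
  have e4 : T.index = P.relIndex R := AddSubgroup.index_comap P DJ
  have e5 : P.relIndex (P ⊔ R) = P.relIndex R := AddSubgroup.relIndex_sup_left R P
  have hT0 : T.index ≠ 0 := ne_zero_of_dvd_ne_zero hfin (AddSubgroup.index_dvd_of_le hPT)
  have e6 : P.relIndex T = (P ⊔ R).index := by
    have h3 : T.index * P.relIndex T = T.index * (P ⊔ R).index := by
      rw [mul_comm, e2, ← e3, e5, e4]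
    exact Nat.eq_of_mul_eq_mul_left (Nat.pos_of_ne_zero hT0) h3
  have e7 : P.relIndex (Z ⊔ P) * (Z ⊔ P).relIndex T = P.relIndex T :=
    AddSubgroup.relIndex_mul_relIndex _ _ _ le_sup_right (sup_le hZT hPT)
  have e8 : P.relIndex (Z ⊔ P) = (P ⊓ Z).relIndex Z := by
    rw [AddSubgroup.relIndex_sup_right, AddSubgroup.inf_relIndex_right]
  -- conclusion
  have hfinal : (dv.ker.map DA).relIndex (NA.ker ⊓ dv.ker) * (P ⊓ Z).relIndex Z
      ≤ (P ⊓ Z).relIndex Z * (dv.ker.map NA).relIndex (DA.ker ⊓ dv.ker) :=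
    calc (dv.ker.map DA).relIndex (NA.ker ⊓ dv.ker) * (P ⊓ Z).relIndex Z
        ≤ B.relIndex (P ⊓ Z) * (P ⊓ Z).relIndex Z := Nat.mul_le_mul_right _ hB.2
      _ = B.relIndex Z := e1
      _ ≤ (P ⊔ R).index := hA.2
      _ = (P ⊓ Z).relIndex Z * (Z ⊔ P).relIndex T := by rw [← e6, ← e7, e8]
      _ ≤ (P ⊓ Z).relIndex Z * (dv.ker.map NA).relIndex (DA.ker ⊓ dv.ker) :=
        Nat.mul_le_mul_left _ hC.2
  rw [mul_comm] at hfinal
  exact absurd (Nat.le_of_mul_le_mul_left hfinal (Nat.pos_of_ne_zero hs)) (not_le.mpr h1)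

/-- **Abstract first-inequality lemma** (multiplicative form of `h1aB_abstract`). -/
theorem h1aB_abstract_mul {A J : Type*} [CommGroup A] [CommGroup J]
    (NA DA : A →* A) (NJ DJ : J →* J) (dv : A →* J)
    (hdN : ∀ a, dv (NA a) = NJ (dv a)) (hdD : ∀ a, dv (DA a) = DJ (dv a))
    (hDNA : ∀ a, DA (NA a) = 1) (hNDJ : ∀ x, NJ (DJ x) = 1)
    (hH1 : ∀ a, NA a = 1 → ∃ b, a = DA b)
    (hfin : dv.range.index ≠ 0)
    (h0 : (dv.ker.map NA).relIndex (DA.ker ⊓ dv.ker) ≠ 0)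
    (h1 : (dv.ker.map NA).relIndex (DA.ker ⊓ dv.ker)
      < (dv.ker.map DA).relIndex (NA.ker ⊓ dv.ker)) :
    ∃ x : J, DJ x = 1 ∧ ∀ a y, DA a = 1 → x ≠ dv a * NJ y := by
  have hr : (MonoidHom.toAdditive dv).range = Subgroup.toAddSubgroup dv.range := by
    ext x
    rfl
  have hk : (MonoidHom.toAdditive dv).ker = Subgroup.toAddSubgroup dv.ker := by
    ext x
    rfl
  have hkN : (MonoidHom.toAdditive NA).ker = Subgroup.toAddSubgroup NA.ker := by
    ext x
    rfl
  have hkD : (MonoidHom.toAdditive DA).ker = Subgroup.toAddSubgroup DA.ker := by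
    ext x
    rfl
  have hmN : (Subgroup.toAddSubgroup dv.ker).map (MonoidHom.toAdditive NA)
      = Subgroup.toAddSubgroup (dv.ker.map NA) := by
    ext x
    rfl
  have hmD : (Subgroup.toAddSubgroup dv.ker).map (MonoidHom.toAdditive DA)
      = Subgroup.toAddSubgroup (dv.ker.map DA) := by
    ext x
    rfl
  have hiD : Subgroup.toAddSubgroup DA.ker ⊓ Subgroup.toAddSubgroup dv.ker
      = Subgroup.toAddSubgroup (DA.ker ⊓ dv.ker) := by
    ext x
    rfl
  have hiN : Subgroup.toAddSubgroup NA.ker ⊓ Subgroup.toAddSubgroup dv.ker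
      = Subgroup.toAddSubgroup (NA.ker ⊓ dv.ker) := by
    ext x
    rfl
  obtain ⟨x, hx, hx2⟩ := h1aB_abstract (MonoidHom.toAdditive NA) (MonoidHom.toAdditive DA)
    (MonoidHom.toAdditive NJ) (MonoidHom.toAdditive DJ) (MonoidHom.toAdditive dv)
    hdN hdD hDNA hNDJ hH1
    (by rw [hr, Subgroup.index_toAddSubgroup]; exact hfin)
    (by rw [hk, hkD, hmN, hiD, Subgroup.relIndex_toAddSubgroup]; exact h0)
    (by
      rw [hk, hkD, hkN, hmN, hmD, hiD, hiN, Subgroup.relIndex_toAddSubgroup,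
        Subgroup.relIndex_toAddSubgroup]
      exact h1)
  exact ⟨Additive.toMul x, hx, fun a y ha => hx2 (Additive.ofMul a) (Additive.ofMul y) ha⟩

/-- Transport of a relative index along an injective homomorphism `j : E → A` defined on a
subgroup `E` of `U` and compatible with operators `f`, `g` on `U` and `f'`, `g'` on `A`. -/
theorem h1aB_relIndex_transport {U A : Type*} [CommGroup U] [CommGroup A]
    (E : Subgroup U) (j : ↥E →* A) (hj : Function.Injective j)
    (f g : U →* U) (f' g' : A →* A)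
    (hf : ∀ ε : ↥E, ∃ h : f (ε : U) ∈ E, j ⟨f (ε : U), h⟩ = f' (j ε))
    (hg : ∀ ε : ↥E, g (ε : U) = 1 ↔ g' (j ε) = 1) :
    (j.range.map f').relIndex (g'.ker ⊓ j.range) = (E.map f).relIndex (g.ker ⊓ E) := by
  have hfE : ∀ ε : ↥E, f (ε : U) ∈ E := fun ε => by
    obtain ⟨h, -⟩ := hf ε
    exact h
  let fE : ↥E →* ↥E := (f.comp E.subtype).codRestrict E hfE
  have hfE' : ∀ ε : ↥E, j (fE ε) = f' (j ε) := fun ε => by
    obtain ⟨h, h2⟩ := hf ε
    exact h2
  have h1 : j.range.map f' = fE.range.map j := by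
    rw [MonoidHom.range_eq_map, MonoidHom.range_eq_map, Subgroup.map_map, Subgroup.map_map]
    congr 1
    ext ε
    exact (hfE' ε).symm
  have h2 : g'.ker ⊓ j.range = (g'.ker.comap j).map j := by
    rw [Subgroup.map_comap_eq, inf_comm]
  rw [h1, h2, Subgroup.relIndex_map_map_of_injective _ _ hj]
  have h3 : fE.range = (E.map f).subgroupOf E := by
    ext ε
    rw [Subgroup.mem_subgroupOf]
    constructor
    · rintro ⟨δ, rfl⟩
      exact ⟨δ, δ.2, rfl⟩
    · rintro ⟨δ, hδ, hδε⟩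
      exact ⟨⟨δ, hδ⟩, Subtype.ext hδε⟩
  have h4 : g'.ker.comap j = (g.ker ⊓ E).subgroupOf E := by
    ext ε
    rw [Subgroup.mem_comap, MonoidHom.mem_ker, Subgroup.mem_subgroupOf, Subgroup.mem_inf,
      MonoidHom.mem_ker]
    constructor
    · intro h
      exact ⟨(hg ε).mpr h, ε.2⟩
    · intro h
      exact (hg ε).mp h.1
  rw [h3, h4, Subgroup.relIndex_subgroupOf inf_le_right]

/-- **Abstract first-inequality lemma**, multiplicative form, with the Herbrand-quotient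
hypothesis stated on a subgroup `E` of an auxiliary group `U` (the units) which is identified
with `ker dv` through an injective homomorphism `j : E → A` compatible with the operators. -/
theorem h1aB_abstract_units {A J U : Type*} [CommGroup A] [CommGroup J] [CommGroup U]
    (NA DA : A →* A) (NJ DJ : J →* J) (dv : A →* J)
    (hdN : ∀ a, dv (NA a) = NJ (dv a)) (hdD : ∀ a, dv (DA a) = DJ (dv a))
    (hDNA : ∀ a, DA (NA a) = 1) (hNDJ : ∀ x, NJ (DJ x) = 1)
    (hH1 : ∀ a, NA a = 1 → ∃ b, a = DA b)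
    (hfin : dv.range.index ≠ 0)
    (NU DU : U →* U) (E : Subgroup U) (j : ↥E →* A) (hj : Function.Injective j)
    (hjr : j.range = dv.ker)
    (hjN : ∀ ε : ↥E, ∃ h : NU (ε : U) ∈ E, j ⟨NU (ε : U), h⟩ = NA (j ε))
    (hjD : ∀ ε : ↥E, ∃ h : DU (ε : U) ∈ E, j ⟨DU (ε : U), h⟩ = DA (j ε))
    (h0 : (E.map NU).relIndex (DU.ker ⊓ E) ≠ 0)
    (h1 : (E.map NU).relIndex (DU.ker ⊓ E) < (E.map DU).relIndex (NU.ker ⊓ E)) :
    ∃ x : J, DJ x = 1 ∧ ∀ a y, DA a = 1 → x ≠ dv a * NJ y := by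
  have hkN : ∀ ε : ↥E, NU (ε : U) = 1 ↔ NA (j ε) = 1 := fun ε => by
    obtain ⟨h, h2⟩ := hjN ε
    rw [← h2, ← map_one j, hj.eq_iff, ← Subtype.coe_inj]
    rfl
  have hkD : ∀ ε : ↥E, DU (ε : U) = 1 ↔ DA (j ε) = 1 := fun ε => by
    obtain ⟨h, h2⟩ := hjD ε
    rw [← h2, ← map_one j, hj.eq_iff, ← Subtype.coe_inj]
    rfl
  have t0 := h1aB_relIndex_transport E j hj NU DU NA DA hjN hkD
  have t1 := h1aB_relIndex_transport E j hj DU NU DA NA hjD hkN
  rw [hjr] at t0 t1
  exact h1aB_abstract_mul NA DA NJ DJ dv hdN hdD hDNA hNDJ hH1 hfin (by rw [t0]; exact h0)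
    (by rw [t0, t1]; exact h1)

end Fermat.Agent.S14
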