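import Mathlib

/-!
# P18 (S14), block H1: shared definitions for `first_inequality` (S-unit route)

* `h1_ord K v x` : the order of `x : Kˣ` at the prime `v` (via `FractionalIdeal.count`).
* `h1_cnt K v I` : the order of the integral ideal `I` at `v`.
* `h1_sUnits K S` : the group of `S`-units of `K`, as a subgroup of `Kˣ`.
* `h1_under F w` : the prime of `F` below the prime `w` of `M`.
* `h1_above F M S` : the primes of `M` above the primes in `S`.
* `h1_gal σ`, `h1_nrm F M`, `h1_inc F M` : the action of `σ ∈ Gal(M/F)` on `Mˣ`, the norm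
  `Mˣ → Fˣ` and the inclusion `Fˣ → Mˣ`.
-/

set_option autoImplicit false

namespace Fermat.Agent.S14

open NumberField IsDedekindDomain nonZeroDivisors

/-- The order of `x : Kˣ` at the prime `v`. -/
noncomputable def h1_ord (K : Type*) [Field K] [NumberField K] (v : HeightOneSpectrum (𝓞 K))
    (x : Kˣ) : ℤ :=
  FractionalIdeal.count K v (FractionalIdeal.spanSingleton (𝓞 K)⁰ (x : K))

/-- The order of the integral ideal `I` at the prime `v` (`0` for `I = ⊥`). -/
noncomputable def h1_cnt (K : Type*) [Field K] [NumberField K] (v : HeightOneSpectrum (𝓞 K))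
    (I : Ideal (𝓞 K)) : ℤ :=
  FractionalIdeal.count K v (I : FractionalIdeal (𝓞 K)⁰ K)

section ord

variable (K : Type*) [Field K] [NumberField K] (v : HeightOneSpectrum (𝓞 K))

theorem h1_spanSingleton_ne_zero (x : Kˣ) :
    FractionalIdeal.spanSingleton (𝓞 K)⁰ (x : K) ≠ 0 :=
  FractionalIdeal.spanSingleton_ne_zero_iff.mpr x.ne_zero

@[simp] theorem h1_ord_one : h1_ord K v 1 = 0 := by
  simp [h1_ord, FractionalIdeal.count_one]

theorem h1_ord_mul (x y : Kˣ) : h1_ord K v (x * y) = h1_ord K v x + h1_ord K v y := by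
  unfold h1_ord
  rw [Units.val_mul, ← FractionalIdeal.spanSingleton_mul_spanSingleton,
    FractionalIdeal.count_mul K v (h1_spanSingleton_ne_zero K x) (h1_spanSingleton_ne_zero K y)]

theorem h1_ord_inv (x : Kˣ) : h1_ord K v x⁻¹ = - h1_ord K v x := by
  have h := h1_ord_mul K v x x⁻¹
  rw [mul_inv_cancel, h1_ord_one] at h
  linarith

theorem h1_ord_div (x y : Kˣ) : h1_ord K v (x / y) = h1_ord K v x - h1_ord K v y := by
  rw [div_eq_mul_inv, h1_ord_mul, h1_ord_inv, sub_eq_add_neg]

theorem h1_ord_pow (x : Kˣ) (n : ℕ) : h1_ord K v (x ^ n) = n * h1_ord K v x := by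
  induction n with
  | zero => simp
  | succ n ih => rw [pow_succ, h1_ord_mul, ih]; push_cast; ring

/-- `h1_ord` as a homomorphism to `Multiplicative ℤ`. -/
noncomputable def h1_ordHom : Kˣ →* Multiplicative ℤ where
  toFun x := Multiplicative.ofAdd (h1_ord K v x)
  map_one' := by simp
  map_mul' x y := by rw [h1_ord_mul]; rfl

theorem h1_ordHom_apply (x : Kˣ) : h1_ordHom K v x = Multiplicative.ofAdd (h1_ord K v x) := rfl

/-- For a nonzero integer `a` of `K`, the order of `a` is the order of the ideal `(a)`. -/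
theorem h1_ord_eq_cnt (x : Kˣ) (a : 𝓞 K) (h : (x : K) = a) :
    h1_ord K v x = h1_cnt K v (Ideal.span {a}) := by
  unfold h1_ord h1_cnt
  rw [h, FractionalIdeal.coeIdeal_span_singleton]

end ord

/-- The group of `S`-units of `K`: the elements of `Kˣ` of order `0` at all primes outside `S`. -/
def h1_sUnits (K : Type*) [Field K] [NumberField K] (S : Set (HeightOneSpectrum (𝓞 K))) :
    Subgroup Kˣ where
  carrier := {x | ∀ v, v ∉ S → h1_ord K v x = 0}
  mul_mem' {x y} hx hy v hv := by rw [h1_ord_mul, hx v hv, hy v hv, add_zero]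
  one_mem' v _ := h1_ord_one K v
  inv_mem' {x} hx v hv := by rw [h1_ord_inv, hx v hv, neg_zero]

theorem h1_mem_sUnits {K : Type*} [Field K] [NumberField K]
    {S : Set (HeightOneSpectrum (𝓞 K))} {x : Kˣ} :
    x ∈ h1_sUnits K S ↔ ∀ v, v ∉ S → h1_ord K v x = 0 := Iff.rfl

section ext

variable (F : Type*) {M : Type*} [Field F] [NumberField F] [Field M] [NumberField M] [Algebra F M]

/-- The prime of `F` below a prime of `M`. -/
noncomputable def h1_under (w : HeightOneSpectrum (𝓞 M)) : HeightOneSpectrum (𝓞 F) where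
  asIdeal := w.asIdeal.under (𝓞 F)
  isPrime := Ideal.IsPrime.under (𝓞 F) w.asIdeal
  ne_bot := Ideal.under_ne_bot (𝓞 F) w.ne_bot

theorem h1_under_asIdeal (w : HeightOneSpectrum (𝓞 M)) :
    (h1_under F w).asIdeal = w.asIdeal.under (𝓞 F) := rfl

variable (M) in
/-- The set of primes of `M` lying above the primes in `S`. -/
def h1_above (S : Set (HeightOneSpectrum (𝓞 F))) : Set (HeightOneSpectrum (𝓞 M)) :=
  {w | h1_under F w ∈ S}

theorem h1_mem_above {S : Set (HeightOneSpectrum (𝓞 F))} {w : HeightOneSpectrum (𝓞 M)} :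
    w ∈ h1_above F M S ↔ h1_under F w ∈ S := Iff.rfl

variable {F} in
/-- The action of `σ ∈ Gal(M/F)` on `Mˣ`. -/
def h1_gal (σ : M ≃ₐ[F] M) : Mˣ →* Mˣ := Units.map (σ : M →* M)

variable {F} in
theorem h1_gal_coe (σ : M ≃ₐ[F] M) (y : Mˣ) : ((h1_gal σ y : Mˣ) : M) = σ (y : M) := rfl

variable (M) in
/-- The norm `Mˣ → Fˣ`. -/
noncomputable def h1_nrm : Mˣ →* Fˣ := Units.map (Algebra.norm F : M →* F)

variable (M) in
theorem h1_nrm_coe (y : Mˣ) : ((h1_nrm F M y : Fˣ) : F) = Algebra.norm F (y : M) := rfl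

variable (M) in
/-- The inclusion `Fˣ → Mˣ`. -/
def h1_inc : Fˣ →* Mˣ := Units.map (algebraMap F M : F →* M)

variable (M) in
theorem h1_inc_coe (x : Fˣ) : ((h1_inc F M x : Mˣ) : M) = algebraMap F M (x : F) := rfl

end ext

end Fermat.Agent.S14
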