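import Mathlib
import Fermat.Agent.S14.Defs
import Fermat.Agent.S14.H1Defs

/-!
# P18 (S14), block H1, route B: shared definitions

* `h1b_RayElt 𝔐 x` : `x = a / b` with `a, b ∈ 𝓞 M`, `b` prime to `𝔐`, `a ≡ b mod 𝔐`.
* `h1b_ray 𝔐` : the subgroup of `Mˣ` of such elements (the ray modulo `𝔐`).
* `h1b_W F M 𝔪` : the primes of `M` not above `𝔪`.
* `h1b_smulPrime σ w` : the prime `σ(w)`; `h1b_perm σ 𝔪` : the permutation of `h1b_W` induced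
  by `σ`.
* `h1b_dv F M 𝔪` : the divisor map `Mˣ → (h1b_W F M 𝔪 →₀ ℤ)` (written multiplicatively).
* `h1b_sJ σ 𝔪` : the action of `σ` on divisors; `h1b_nJ p σ 𝔪` the norm on divisors.
* `h1b_nrmHom p σ`, `h1b_difHom σ` : the operators `x ↦ ∏_{i<p} σ^i x`, `x ↦ σ x / x` on `Mˣ`.
-/

set_option autoImplicit false

namespace Fermat.Agent.S14

open NumberField IsDedekindDomain
open scoped Pointwise

section ray

variable {M : Type*} [Field M] [NumberField M]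

/-- `x = a / b` with `a, b` integers, `b` prime to `𝔐` and `a ≡ b mod 𝔐`. -/
def h1b_RayElt (𝔐 : Ideal (𝓞 M)) (x : M) : Prop :=
  ∃ a b : 𝓞 M, b ≠ 0 ∧ IsCoprime (Ideal.span {b}) 𝔐 ∧ a - b ∈ 𝔐 ∧ x * (b : M) = (a : M)

theorem h1b_isCoprime_of_sub_mem {𝔐 : Ideal (𝓞 M)} {a b : 𝓞 M}
    (hb : IsCoprime (Ideal.span {b}) 𝔐) (hab : a - b ∈ 𝔐) : IsCoprime (Ideal.span {a}) 𝔐 := by
  rw [Ideal.isCoprime_iff_sup_eq, Ideal.eq_top_iff_one] at hb ⊢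
  obtain ⟨y, hy, z, hz, hyz⟩ := Submodule.mem_sup.mp hb
  obtain ⟨c, rfl⟩ := Ideal.mem_span_singleton'.mp hy
  refine Submodule.mem_sup.mpr ⟨c * a, Ideal.mem_span_singleton'.mpr ⟨c, rfl⟩,
    z - c * (a - b), 𝔐.sub_mem hz (𝔐.mul_mem_left c hab), ?_⟩
  rw [← hyz]; ring

theorem h1b_isCoprime_mul {𝔐 : Ideal (𝓞 M)} {a b : 𝓞 M}
    (ha : IsCoprime (Ideal.span {a}) 𝔐) (hb : IsCoprime (Ideal.span {b}) 𝔐) :
    IsCoprime (Ideal.span {a * b}) 𝔐 := by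
  rw [← Ideal.span_singleton_mul_span_singleton]
  exact IsCoprime.mul_left ha hb

theorem h1b_RayElt_one (𝔐 : Ideal (𝓞 M)) : h1b_RayElt 𝔐 (1 : M) :=
  ⟨1, 1, one_ne_zero, by rw [Ideal.span_singleton_one, ← Ideal.one_eq_top]; exact isCoprime_one_left,
    by simp, by simp⟩

theorem h1b_RayElt_mul {𝔐 : Ideal (𝓞 M)} {x y : M} (hx : h1b_RayElt 𝔐 x)
    (hy : h1b_RayElt 𝔐 y) : h1b_RayElt 𝔐 (x * y) := by
  obtain ⟨a, b, hb0, hb, hab, hxb⟩ := hx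
  obtain ⟨c, d, hd0, hd, hcd, hyd⟩ := hy
  refine ⟨a * c, b * d, mul_ne_zero hb0 hd0, h1b_isCoprime_mul hb hd, ?_, ?_⟩
  · have : a * c - b * d = (a - b) * c + b * (c - d) := by ring
    rw [this]
    exact 𝔐.add_mem (𝔐.mul_mem_right c hab) (𝔐.mul_mem_left b hcd)
  · have e1 : (((a * c : 𝓞 M)) : M) = (a : M) * (c : M) := rfl
    have e2 : (((b * d : 𝓞 M)) : M) = (b : M) * (d : M) := rfl
    rw [e1, e2, ← hxb, ← hyd]; ring

theorem h1b_RayElt_inv {𝔐 : Ideal (𝓞 M)} {x : M} (hx0 : x ≠ 0) (hx : h1b_RayElt 𝔐 x) :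
    h1b_RayElt 𝔐 x⁻¹ := by
  obtain ⟨a, b, hb0, hb, hab, hxb⟩ := hx
  have ha0 : a ≠ 0 := by
    rintro rfl
    have hb0' : (b : M) ≠ 0 := by exact_mod_cast hb0
    simp [hx0, hb0'] at hxb
  refine ⟨b, a, ha0, h1b_isCoprime_of_sub_mem hb hab, ?_, ?_⟩
  · have : b - a = -(a - b) := by ring
    rw [this]; exact 𝔐.neg_mem hab
  · rw [← hxb]; field_simp

/-- The ray modulo `𝔐`: the subgroup of `Mˣ` of the `x = a / b` with `b` prime to `𝔐` and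
`a ≡ b mod 𝔐`. -/
def h1b_ray (𝔐 : Ideal (𝓞 M)) : Subgroup Mˣ where
  carrier := {x | h1b_RayElt 𝔐 (x : M)}
  mul_mem' {x y} hx hy := by
    show h1b_RayElt 𝔐 ((x * y : Mˣ) : M)
    rw [Units.val_mul]; exact h1b_RayElt_mul hx hy
  one_mem' := by
    show h1b_RayElt 𝔐 ((1 : Mˣ) : M)
    rw [Units.val_one]; exact h1b_RayElt_one 𝔐
  inv_mem' {x} hx := by
    show h1b_RayElt 𝔐 ((x⁻¹ : Mˣ) : M)
    rw [Units.val_inv_eq_inv_val]; exact h1b_RayElt_inv x.ne_zero hx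

theorem h1b_mem_ray {𝔐 : Ideal (𝓞 M)} {x : Mˣ} : x ∈ h1b_ray 𝔐 ↔ h1b_RayElt 𝔐 (x : M) := Iff.rfl

end ray

section div

variable (F : Type*) (M : Type*) [Field F] [NumberField F] [Field M] [NumberField M] [Algebra F M]

/-- The extension of the modulus `𝔪` of `F` to `M`. -/
abbrev h1b_mod (𝔪 : Ideal (𝓞 F)) : Ideal (𝓞 M) := Ideal.map (algebraMap (𝓞 F) (𝓞 M)) 𝔪

/-- The primes of `M` not above `𝔪`. -/
abbrev h1b_W (𝔪 : Ideal (𝓞 F)) : Type _ :=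
  {w : HeightOneSpectrum (𝓞 M) // ¬ 𝔪 ≤ (h1_under F w).asIdeal}

variable {F M}

/-- The prime `σ(w)`. -/
noncomputable def h1b_smulPrime (σ : M ≃ₐ[F] M) (w : HeightOneSpectrum (𝓞 M)) :
    HeightOneSpectrum (𝓞 M) where
  asIdeal := σ • w.asIdeal
  isPrime := w.isPrime.smul σ
  ne_bot := by
    intro h
    apply w.ne_bot
    have h2 : σ⁻¹ • (σ • w.asIdeal) = σ⁻¹ • (⊥ : Ideal (𝓞 M)) := by rw [h]
    rwa [inv_smul_smul, Ideal.smul_bot] at h2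

theorem h1b_smulPrime_asIdeal (σ : M ≃ₐ[F] M) (w : HeightOneSpectrum (𝓞 M)) :
    (h1b_smulPrime σ w).asIdeal = σ • w.asIdeal := rfl

theorem h1b_smulPrime_one (w : HeightOneSpectrum (𝓞 M)) :
    h1b_smulPrime (1 : M ≃ₐ[F] M) w = w :=
  HeightOneSpectrum.ext (one_smul _ _)

theorem h1b_smulPrime_mul (σ τ : M ≃ₐ[F] M) (w : HeightOneSpectrum (𝓞 M)) :
    h1b_smulPrime (σ * τ) w = h1b_smulPrime σ (h1b_smulPrime τ w) :=
  HeightOneSpectrum.ext (mul_smul _ _ _)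

theorem h1b_under_smulPrime (σ : M ≃ₐ[F] M) (w : HeightOneSpectrum (𝓞 M)) :
    h1_under F (h1b_smulPrime σ w) = h1_under F w := by
  apply HeightOneSpectrum.ext
  rw [h1_under_asIdeal, h1_under_asIdeal, h1b_smulPrime_asIdeal]
  ext x
  rw [Ideal.mem_comap, Ideal.mem_comap, Ideal.mem_pointwise_smul_iff_inv_smul_mem]
  have : σ⁻¹ • algebraMap (𝓞 F) (𝓞 M) x = algebraMap (𝓞 F) (𝓞 M) x := by
    apply RingOfIntegers.ext
    show σ⁻¹ (algebraMap F M (x : F)) = algebraMap F M (x : F)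
    exact (σ⁻¹).commutes _
  rw [this]

/-- The permutation of the primes not above `𝔪` induced by `σ`. -/
noncomputable def h1b_perm (σ : M ≃ₐ[F] M) (𝔪 : Ideal (𝓞 F)) : Equiv.Perm (h1b_W F M 𝔪) where
  toFun w := ⟨h1b_smulPrime σ w.1, by rw [h1b_under_smulPrime]; exact w.2⟩
  invFun w := ⟨h1b_smulPrime σ⁻¹ w.1, by rw [h1b_under_smulPrime]; exact w.2⟩
  left_inv w := by
    apply Subtype.ext
    show h1b_smulPrime σ⁻¹ (h1b_smulPrime σ w.1) = w.1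
    rw [← h1b_smulPrime_mul, inv_mul_cancel, h1b_smulPrime_one]
  right_inv w := by
    apply Subtype.ext
    show h1b_smulPrime σ (h1b_smulPrime σ⁻¹ w.1) = w.1
    rw [← h1b_smulPrime_mul, mul_inv_cancel, h1b_smulPrime_one]

theorem h1b_perm_apply (σ : M ≃ₐ[F] M) (𝔪 : Ideal (𝓞 F)) (w : h1b_W F M 𝔪) :
    ((h1b_perm σ 𝔪 w : h1b_W F M 𝔪) : HeightOneSpectrum (𝓞 M)) = h1b_smulPrime σ w.1 := rfl

variable (F M)

theorem h1b_finite_ord_support (x : Mˣ) :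
    {w : HeightOneSpectrum (𝓞 M) | h1_ord M w x ≠ 0}.Finite := by
  have h := FractionalIdeal.finite_factors (K := M)
    (FractionalIdeal.spanSingleton (nonZeroDivisors (𝓞 M)) (x : M))
  exact h

/-- The divisor (prime to `𝔪`) of `x : Mˣ`, as a finitely supported function. -/
noncomputable def h1b_dvFun (𝔪 : Ideal (𝓞 F)) (x : Mˣ) : h1b_W F M 𝔪 →₀ ℤ :=
  Finsupp.ofSupportFinite (fun w => h1_ord M w.1 x)
    ((h1b_finite_ord_support M x).preimage (Subtype.val_injective.injOn))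

theorem h1b_dvFun_apply (𝔪 : Ideal (𝓞 F)) (x : Mˣ) (w : h1b_W F M 𝔪) :
    h1b_dvFun F M 𝔪 x w = h1_ord M w.1 x := rfl

/-- The divisor map `Mˣ → Div(M, prime to 𝔪)`, written multiplicatively. -/
noncomputable def h1b_dv (𝔪 : Ideal (𝓞 F)) : Mˣ →* Multiplicative (h1b_W F M 𝔪 →₀ ℤ) where
  toFun x := Multiplicative.ofAdd (h1b_dvFun F M 𝔪 x)
  map_one' := by
    rw [← ofAdd_zero]
    congr 1
    ext w
    rw [h1b_dvFun_apply, h1_ord_one]; rfl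
  map_mul' x y := by
    rw [← ofAdd_add]
    congr 1
    ext w
    rw [Finsupp.add_apply, h1b_dvFun_apply, h1b_dvFun_apply, h1b_dvFun_apply, h1_ord_mul]

theorem h1b_dv_apply (𝔪 : Ideal (𝓞 F)) (x : Mˣ) (w : h1b_W F M 𝔪) :
    Multiplicative.toAdd (h1b_dv F M 𝔪 x) w = h1_ord M w.1 x := rfl

variable {F M}

/-- The action of `σ` on divisors prime to `𝔪`: `(σ d)(σ w) = d(w)`. -/
noncomputable def h1b_sJ (σ : M ≃ₐ[F] M) (𝔪 : Ideal (𝓞 F)) :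
    Multiplicative (h1b_W F M 𝔪 →₀ ℤ) →* Multiplicative (h1b_W F M 𝔪 →₀ ℤ) :=
  AddMonoidHom.toMultiplicative (Finsupp.mapDomain.addMonoidHom (h1b_perm σ 𝔪))

theorem h1b_sJ_apply (σ : M ≃ₐ[F] M) (𝔪 : Ideal (𝓞 F))
    (d : Multiplicative (h1b_W F M 𝔪 →₀ ℤ)) (w : h1b_W F M 𝔪) :
    Multiplicative.toAdd (h1b_sJ σ 𝔪 d) (h1b_perm σ 𝔪 w) = Multiplicative.toAdd d w := by
  show Finsupp.mapDomain (h1b_perm σ 𝔪) (Multiplicative.toAdd d) (h1b_perm σ 𝔪 w) = _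
  exact Finsupp.mapDomain_apply (h1b_perm σ 𝔪).injective _ _

/-- The norm `∏_{i<p} σ^i` on divisors prime to `𝔪`. -/
noncomputable def h1b_nJ (p : ℕ) (σ : M ≃ₐ[F] M) (𝔪 : Ideal (𝓞 F)) :
    Multiplicative (h1b_W F M 𝔪 →₀ ℤ) →* Multiplicative (h1b_W F M 𝔪 →₀ ℤ) :=
  ∏ i ∈ Finset.range p, h1b_sJ (σ ^ i) 𝔪

/-- The norm operator `x ↦ ∏_{i<p} σ^i x` on `Mˣ`. -/
noncomputable def h1b_nrmHom (p : ℕ) (σ : M ≃ₐ[F] M) : Mˣ →* Mˣ :=
  ∏ i ∈ Finset.range p, h1_gal (σ ^ i)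

theorem h1b_nrmHom_apply (p : ℕ) (σ : M ≃ₐ[F] M) (x : Mˣ) :
    h1b_nrmHom p σ x = ∏ i ∈ Finset.range p, h1_gal (σ ^ i) x := by
  simp [h1b_nrmHom]

/-- The operator `x ↦ σ x / x` on `Mˣ`. -/
noncomputable def h1b_difHom (σ : M ≃ₐ[F] M) : Mˣ →* Mˣ :=
  h1_gal σ / MonoidHom.id _

theorem h1b_difHom_apply (σ : M ≃ₐ[F] M) (x : Mˣ) : h1b_difHom σ x = h1_gal σ x / x := rfl

end div

end Fermat.Agent.S14
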