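import Mathlib
import Fermat.Agent.S14.Defs
import Fermat.Agent.S14.H1Defs
import Fermat.Agent.S14.H1BDefs

/-!
# P18 (S14), block H1, route B, slice (e1): invariant divisors come from `F`

A divisor on the primes of `M` not above `𝔪` which is invariant under a generator `σ` of the
Galois group of `M/F` (cyclic of prime order) is constant on the fibres of `w ↦ w ∩ F`, hence is
the difference of the divisors of two integral ideals of `F` prime to `𝔪`.
-/

set_option autoImplicit false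

namespace Fermat.Agent.S14

open NumberField IsDedekindDomain
open scoped Pointwise

variable (F M : Type*) [Field F] [NumberField F] [Field M] [NumberField M] [Algebra F M]

open Classical in
/-- The order at `v₀` of a finite product of prime powers. -/
theorem h1be1_cnt_prod (T : Finset (HeightOneSpectrum (𝓞 F)))
    (k : HeightOneSpectrum (𝓞 F) → ℕ) (v₀ : HeightOneSpectrum (𝓞 F)) :
    h1_cnt F v₀ (∏ v ∈ T, v.asIdeal ^ k v) = if v₀ ∈ T then (k v₀ : ℤ) else 0 := by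
  have hcoe : ((∏ v ∈ T, v.asIdeal ^ k v : Ideal (𝓞 F)) : FractionalIdeal (nonZeroDivisors (𝓞 F)) F)
      = ∏ v ∈ T, (v.asIdeal : FractionalIdeal (nonZeroDivisors (𝓞 F)) F) ^ k v := by
    have h := map_prod (FractionalIdeal.coeIdealHom (nonZeroDivisors (𝓞 F)) F)
      (fun v : HeightOneSpectrum (𝓞 F) => v.asIdeal ^ k v) T
    simp only [FractionalIdeal.coeIdealHom, RingHom.coe_mk, MonoidHom.coe_mk, OneHom.coe_mk,
      FractionalIdeal.coeIdeal_pow] at h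
    exact h
  unfold h1_cnt
  rw [hcoe, FractionalIdeal.count_prod]
  · simp only [FractionalIdeal.count_pow, FractionalIdeal.count_maximal, mul_ite, mul_one, mul_zero]
    rw [Finset.sum_ite_eq' T v₀ (fun v => (k v : ℤ))]
  · intro v _
    exact pow_ne_zero _ (FractionalIdeal.coeIdeal_ne_zero.mpr v.ne_bot)

variable {F M} in
theorem h1be1_perm_mul (σ τ : M ≃ₐ[F] M) (𝔪 : Ideal (𝓞 F)) (w : h1b_W F M 𝔪) :
    h1b_perm (σ * τ) 𝔪 w = h1b_perm σ 𝔪 (h1b_perm τ 𝔪 w) :=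
  Subtype.ext (h1b_smulPrime_mul σ τ w.1)

variable {F M} in
theorem h1be1_perm_one (𝔪 : Ideal (𝓞 F)) (w : h1b_W F M 𝔪) :
    h1b_perm (1 : M ≃ₐ[F] M) 𝔪 w = w :=
  Subtype.ext (h1b_smulPrime_one w.1)

/-- A `σ`-invariant divisor is constant on the primes above a given prime of `F`. -/
theorem h1be1_const (p : ℕ) [Fact p.Prime] [IsGalois F M] (hdeg : Module.finrank F M = p)
    (σ : M ≃ₐ[F] M) (hσ : σ ≠ 1) (𝔪 : Ideal (𝓞 F))
    (d : h1b_W F M 𝔪 →₀ ℤ) (hd : ∀ w, d (h1b_perm σ 𝔪 w) = d w)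
    (w w' : h1b_W F M 𝔪) (h : h1_under F w.1 = h1_under F w'.1) : d w = d w' := by
  have hpow : ∀ (k : ℕ) (w : h1b_W F M 𝔪), d (h1b_perm (σ ^ k) 𝔪 w) = d w := by
    intro k
    induction k with
    | zero => intro w; rw [pow_zero, h1be1_perm_one]
    | succ k ih => intro w; rw [pow_succ, h1be1_perm_mul, ih, hd]
  have hcard : Nat.card (M ≃ₐ[F] M) = p := by rw [IsGalois.card_aut_eq_finrank, hdeg]
  have h1 : w.1.asIdeal.LiesOver (h1_under F w.1).asIdeal := ⟨rfl⟩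
  have h2 : w'.1.asIdeal.LiesOver (h1_under F w.1).asIdeal := ⟨by rw [h]; rfl⟩
  obtain ⟨τ, hτ⟩ := Ideal.exists_smul_eq_of_isGaloisGroup (h1_under F w.1).asIdeal w.1.asIdeal
    w'.1.asIdeal (M ≃ₐ[F] M)
  obtain ⟨k, hk⟩ := (Submonoid.mem_powers_iff _ _).mp (mem_powers_of_prime_card hcard hσ (g' := τ))
  have hw' : h1b_perm (σ ^ k) 𝔪 w = w' := by
    apply Subtype.ext
    apply HeightOneSpectrum.ext
    rw [h1b_perm_apply, h1b_smulPrime_asIdeal, hk, hτ]
  rw [← hw', hpow]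

/-- **(e1)** A `σ`-invariant divisor prime to `𝔪` is the difference of the divisors of two
integral ideals of `F` prime to `𝔪`. -/
theorem h1b_exists_ideals (p : ℕ) [Fact p.Prime] [IsGalois F M] (hdeg : Module.finrank F M = p)
    (σ : M ≃ₐ[F] M) (hσ : σ ≠ 1) (𝔪 : Ideal (𝓞 F)) (h𝔪 : 𝔪 ≠ ⊥)
    (d : h1b_W F M 𝔪 →₀ ℤ) (hd : ∀ w, d (h1b_perm σ 𝔪 w) = d w) :
    ∃ 𝔞 𝔟 : Ideal (𝓞 F), 𝔞 ≠ ⊥ ∧ 𝔟 ≠ ⊥ ∧ IsCoprime 𝔞 𝔪 ∧ IsCoprime 𝔟 𝔪 ∧
      ∀ w : h1b_W F M 𝔪,
        d w = h1_cnt F (h1_under F w.1) 𝔞 - h1_cnt F (h1_under F w.1) 𝔟 := by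
  classical
  have hconst := h1be1_const F M p hdeg σ hσ 𝔪 d hd
  let T : Finset (HeightOneSpectrum (𝓞 F)) := d.support.image (fun w => h1_under F w.1)
  let n : HeightOneSpectrum (𝓞 F) → ℤ := fun v =>
    if h : ∃ w : h1b_W F M 𝔪, h1_under F w.1 = v then d h.choose else 0
  have hn : ∀ w : h1b_W F M 𝔪, n (h1_under F w.1) = d w := by
    intro w
    have hex : ∃ w' : h1b_W F M 𝔪, h1_under F w'.1 = h1_under F w.1 := ⟨w, rfl⟩
    simp only [n, dif_pos hex]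
    exact hconst _ _ hex.choose_spec
  have hT : ∀ v ∈ T, ¬ 𝔪 ≤ v.asIdeal := by
    intro v hv
    obtain ⟨w, -, rfl⟩ := Finset.mem_image.mp hv
    exact w.2
  have hcop : ∀ (k : HeightOneSpectrum (𝓞 F) → ℕ),
      IsCoprime (∏ v ∈ T, v.asIdeal ^ k v) 𝔪 := by
    intro k
    apply IsCoprime.prod_left
    intro v hv
    apply IsCoprime.pow_left
    rw [Ideal.isCoprime_iff_sup_eq]
    by_contra hne
    have := v.isMaximal.eq_of_le hne le_sup_left
    exact hT v hv (by rw [this]; exact le_sup_right)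
  have hne : ∀ (k : HeightOneSpectrum (𝓞 F) → ℕ), (∏ v ∈ T, v.asIdeal ^ k v) ≠ ⊥ := by
    intro k
    rw [← Ideal.zero_eq_bot, Finset.prod_ne_zero_iff]
    intro v _
    exact pow_ne_zero _ v.ne_bot
  refine ⟨∏ v ∈ T, v.asIdeal ^ (n v).toNat, ∏ v ∈ T, v.asIdeal ^ (- n v).toNat,
    hne _, hne _, hcop _, hcop _, ?_⟩
  intro w
  rw [h1be1_cnt_prod, h1be1_cnt_prod]
  by_cases hw : h1_under F w.1 ∈ T
  · rw [if_pos hw, if_pos hw, hn]
    omega
  · rw [if_neg hw, if_neg hw, sub_zero]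
    by_contra h0
    exact hw (Finset.mem_image.mpr ⟨w, Finsupp.mem_support_iff.mpr h0, rfl⟩)

end Fermat.Agent.S14
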