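import Mathlib
import Fermat.Agent.S14.Defs
import Fermat.Agent.S14.H1Defs

/-!
# P18 (S14), block H1 (route A), second team for `H1OrdExt`

Orders of elements under the Galois action and under the inclusion `F ⊂ M`:

* `h1_ord_gal_B` : `ord_{σ w}(σ y) = ord_w(y)`;
* `h1_ord_inc_B` : `ord_w(x) = e · ord_v(x)` for `x ∈ Fˣ`, with `e ≥ 1`;
* `h1_ord_inc_of_unram_B` : `e = 1` at a prime with trivial inertia.

Auxiliary declarations carry the prefix `h1_ordextb_`.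
-/

set_option autoImplicit false

namespace Fermat.Agent.S14

open NumberField IsDedekindDomain nonZeroDivisors

/-! ### Orders of integral ideals as multiplicities -/

section cnt

variable (K : Type*) [Field K] [NumberField K] (v : HeightOneSpectrum (𝓞 K))

/-- The order of a nonzero integral ideal at `v` is the multiplicity of `v` in it. -/
theorem h1_ordextb_cnt_eq_multiplicity {J : Ideal (𝓞 K)} (hJ : J ≠ ⊥) :
    h1_cnt K v J = (multiplicity v.asIdeal J : ℤ) := by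
  classical
  unfold h1_cnt
  rw [FractionalIdeal.count_coe K v hJ, Ideal.count_associates_factors_eq hJ v.isPrime v.ne_bot,
    HeightOneSpectrum.count_normalizedFactors_eq_multiplicity hJ v]

theorem h1_ordextb_cnt_nonneg (J : Ideal (𝓞 K)) : 0 ≤ h1_cnt K v J :=
  FractionalIdeal.count_coe_nonneg K v J

/-- `n ≤ ord_v(J)` iff `J ⊆ v ^ n`. -/
theorem h1_ordextb_le_cnt_iff {J : Ideal (𝓞 K)} (hJ : J ≠ ⊥) (n : ℕ) :
    (n : ℤ) ≤ h1_cnt K v J ↔ J ≤ v.asIdeal ^ n := by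
  rw [h1_ordextb_cnt_eq_multiplicity K v hJ, Nat.cast_le,
    ← (FiniteMultiplicity.of_prime_left v.prime hJ).pow_dvd_iff_le_multiplicity, Ideal.dvd_iff_le]

/-- Two nonnegative integers with the same natural lower bounds are equal. -/
theorem h1_ordextb_eq_of_forall_le {c c' : ℤ} (hc : 0 ≤ c) (hc' : 0 ≤ c')
    (h : ∀ n : ℕ, (n : ℤ) ≤ c ↔ (n : ℤ) ≤ c') : c = c' := by
  apply le_antisymm
  · have h1 := (h c.toNat).1 (by rw [Int.toNat_of_nonneg hc])
    rwa [Int.toNat_of_nonneg hc] at h1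
  · have h1 := (h c'.toNat).2 (by rw [Int.toNat_of_nonneg hc'])
    rwa [Int.toNat_of_nonneg hc'] at h1

/-- Every unit of `K` is a quotient of two nonzero integers. -/
theorem h1_ordextb_exists_div (y : Kˣ) :
    ∃ (a b : 𝓞 K) (ua ub : Kˣ), a ≠ 0 ∧ b ≠ 0 ∧ (ua : K) = a ∧ (ub : K) = b ∧ y = ua / ub := by
  obtain ⟨a, b, hb, hab⟩ := IsFractionRing.div_surjective (A := 𝓞 K) (y : K)
  have hb0 : b ≠ 0 := nonZeroDivisors.ne_zero hb
  have hb' : algebraMap (𝓞 K) K b ≠ 0 := by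
    rwa [Ne, FaithfulSMul.algebraMap_eq_zero_iff]
  have ha' : algebraMap (𝓞 K) K a ≠ 0 := by
    intro h
    rw [h, zero_div] at hab
    exact y.ne_zero hab.symm
  have ha0 : a ≠ 0 := by
    rintro rfl
    exact ha' (map_zero _)
  refine ⟨a, b, Units.mk0 _ ha', Units.mk0 _ hb', ha0, hb0, rfl, rfl, ?_⟩
  ext
  rw [Units.val_div_eq_div_val, Units.val_mk0, Units.val_mk0, hab]

end cnt

variable (F M : Type*) [Field F] [NumberField F] [Field M] [NumberField M] [Algebra F M]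

/-! ### Galois action -/

/-- If `σ` maps `P` into `P'`, it maps `P ^ n` into `P' ^ n`. -/
theorem h1_ordextb_smul_mem_pow {F M : Type*} [Field F] [Field M] [Algebra F M]
    (σ : M ≃ₐ[F] M) {P P' : Ideal (𝓞 M)} (h : ∀ x ∈ P, σ • x ∈ P') (n : ℕ) :
    ∀ a ∈ P ^ n, σ • a ∈ P' ^ n := by
  induction n with
  | zero =>
    intro a _
    rw [pow_zero, Ideal.one_eq_top]
    exact Submodule.mem_top
  | succ n ih =>
    intro a ha
    rw [pow_succ] at ha ⊢
    refine Submodule.mul_induction_on ha ?_ ?_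
    · intro x hx y hy
      rw [smul_mul']
      exact Ideal.mul_mem_mul (ih x hx) (h y hy)
    · intro x y hx hy
      rw [smul_add]
      exact Ideal.add_mem _ hx hy

omit [NumberField F] in
/-- `ord_{σ w}((σ a)) = ord_w((a))` for a nonzero integer `a`. -/
theorem h1_ordextb_cnt_gal (σ : M ≃ₐ[F] M) (w w' : HeightOneSpectrum (𝓞 M))
    (h : ∀ x : 𝓞 M, x ∈ w.asIdeal ↔ σ • x ∈ w'.asIdeal) (a : 𝓞 M) (ha : a ≠ 0) :
    h1_cnt M w' (Ideal.span {σ • a}) = h1_cnt M w (Ideal.span {a}) := by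
  have hσa : σ • a ≠ 0 := by
    intro h0
    apply ha
    have h1 : σ⁻¹ • (σ • a) = σ⁻¹ • (0 : 𝓞 M) := by rw [h0]
    rwa [inv_smul_smul, smul_zero] at h1
  have hJ : Ideal.span {a} ≠ ⊥ := by
    rwa [Ne, Ideal.span_singleton_eq_bot]
  have hJ' : Ideal.span {σ • a} ≠ ⊥ := by
    rwa [Ne, Ideal.span_singleton_eq_bot]
  refine h1_ordextb_eq_of_forall_le (h1_ordextb_cnt_nonneg M w' _) (h1_ordextb_cnt_nonneg M w _)
    fun n => ?_
  rw [h1_ordextb_le_cnt_iff M w' hJ' n, h1_ordextb_le_cnt_iff M w hJ n,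
    Ideal.span_singleton_le_iff_mem, Ideal.span_singleton_le_iff_mem]
  constructor
  · intro hmem
    have h1 := h1_ordextb_smul_mem_pow σ⁻¹ (P := w'.asIdeal) (P' := w.asIdeal)
      (fun x hx => (h _).2 (by rwa [smul_inv_smul])) n _ hmem
    rwa [inv_smul_smul] at h1
  · intro hmem
    exact h1_ordextb_smul_mem_pow σ (fun x hx => (h x).1 hx) n a hmem

/-- `ord_{σ w}(σ y) = ord_w(y)`. -/
theorem h1_ord_gal_B (σ : M ≃ₐ[F] M) (w w' : HeightOneSpectrum (𝓞 M))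
    (h : ∀ x : 𝓞 M, x ∈ w.asIdeal ↔ σ • x ∈ w'.asIdeal) (y : Mˣ) :
    h1_ord M w' (h1_gal σ y) = h1_ord M w y := by
  obtain ⟨a, b, ua, ub, ha0, hb0, hua, hub, rfl⟩ := h1_ordextb_exists_div M y
  have e1 : ((h1_gal σ ua : Mˣ) : M) = ((σ • a : 𝓞 M) : M) := by
    rw [h1_gal_coe, hua]
    rfl
  have e2 : ((h1_gal σ ub : Mˣ) : M) = ((σ • b : 𝓞 M) : M) := by
    rw [h1_gal_coe, hub]
    rfl
  rw [map_div, h1_ord_div, h1_ord_div, h1_ord_eq_cnt M w' _ _ e1, h1_ord_eq_cnt M w' _ _ e2,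
    h1_ord_eq_cnt M w ua a hua, h1_ord_eq_cnt M w ub b hub,
    h1_ordextb_cnt_gal F M σ w w' h a ha0, h1_ordextb_cnt_gal F M σ w w' h b hb0]

/-! ### Inclusion `F ⊂ M` -/

/-- `ord_w((a) 𝓞_M) = e(w | v) · ord_v((a))` for a nonzero integer `a` of `F`. -/
theorem h1_ordextb_cnt_inc (w : HeightOneSpectrum (𝓞 M)) (a : 𝓞 F) (ha : a ≠ 0) :
    h1_cnt M w (Ideal.span {algebraMap (𝓞 F) (𝓞 M) a}) =
      ((h1_under F w).asIdeal.ramificationIdx' w.asIdeal : ℤ) *
        h1_cnt F (h1_under F w) (Ideal.span {a}) := by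
  have hlies : w.asIdeal.LiesOver (h1_under F w).asIdeal := ⟨rfl⟩
  have ha' : algebraMap (𝓞 F) (𝓞 M) a ≠ 0 := by
    rwa [Ne, FaithfulSMul.algebraMap_eq_zero_iff]
  have hJ : Ideal.span {a} ≠ ⊥ := by
    rwa [Ne, Ideal.span_singleton_eq_bot]
  have hJ' : Ideal.span {algebraMap (𝓞 F) (𝓞 M) a} ≠ ⊥ := by
    rwa [Ne, Ideal.span_singleton_eq_bot]
  rw [h1_ordextb_cnt_eq_multiplicity M w hJ', h1_ordextb_cnt_eq_multiplicity F (h1_under F w) hJ,
    ← Nat.cast_mul, Nat.cast_inj]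
  refine multiplicity_eq_of_emultiplicity_eq_some ?_
  rw [← Set.image_singleton, ← Ideal.map_span,
    Ideal.IsDedekindDomain.emultiplicity_map_eq_ramificationIdx'_mul hJ
      (h1_under F w).irreducible w.irreducible w.ne_bot,
    Nat.cast_mul,
    (FiniteMultiplicity.of_prime_left (h1_under F w).prime hJ).emultiplicity_eq_multiplicity]

/-- `ord_w(x) = e(w | v) · ord_v(x)` for `x ∈ Fˣ`. -/
theorem h1_ordextb_ord_inc (w : HeightOneSpectrum (𝓞 M)) (x : Fˣ) :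
    h1_ord M w (h1_inc F M x) =
      ((h1_under F w).asIdeal.ramificationIdx' w.asIdeal : ℤ) * h1_ord F (h1_under F w) x := by
  obtain ⟨a, b, ua, ub, ha0, hb0, hua, hub, rfl⟩ := h1_ordextb_exists_div F x
  have e1 : ((h1_inc F M ua : Mˣ) : M) = ((algebraMap (𝓞 F) (𝓞 M) a : 𝓞 M) : M) := by
    rw [h1_inc_coe, hua]
    rfl
  have e2 : ((h1_inc F M ub : Mˣ) : M) = ((algebraMap (𝓞 F) (𝓞 M) b : 𝓞 M) : M) := by
    rw [h1_inc_coe, hub]
    rfl
  rw [map_div, h1_ord_div, h1_ord_div, h1_ord_eq_cnt M w _ _ e1, h1_ord_eq_cnt M w _ _ e2,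
    h1_ord_eq_cnt F (h1_under F w) ua a hua, h1_ord_eq_cnt F (h1_under F w) ub b hub,
    h1_ordextb_cnt_inc F M w a ha0, h1_ordextb_cnt_inc F M w b hb0, mul_sub]

/-- `ord_w(x) = e · ord_v(x)` for `x ∈ Fˣ`, with `e ≥ 1`. -/
theorem h1_ord_inc_B (w : HeightOneSpectrum (𝓞 M)) :
    ∃ e : ℕ, 0 < e ∧ ∀ x : Fˣ, h1_ord M w (h1_inc F M x) = e * h1_ord F (h1_under F w) x := by
  have hlies : w.asIdeal.LiesOver (h1_under F w).asIdeal := ⟨rfl⟩
  exact ⟨(h1_under F w).asIdeal.ramificationIdx' w.asIdeal,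
    Nat.pos_of_ne_zero
      (Ideal.IsDedekindDomain.ramificationIdx'_ne_zero_of_liesOver w.asIdeal (h1_under F w).ne_bot),
    fun x => h1_ordextb_ord_inc F M w x⟩

/-- Trivial inertia at `w` gives ramification index one. -/
theorem h1_ordextb_ramificationIdx_eq_one [IsGalois F M] (w : HeightOneSpectrum (𝓞 M))
    (hw : InertiaTrivialAt F M w.asIdeal) :
    (h1_under F w).asIdeal.ramificationIdx' w.asIdeal = 1 := by
  have hlies : w.asIdeal.LiesOver (h1_under F w).asIdeal := ⟨rfl⟩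
  have htriv : w.asIdeal.inertia (M ≃ₐ[F] M) = ⊥ := by
    rw [eq_bot_iff]
    intro σ hσ
    rw [Subgroup.mem_bot]
    exact hw σ hσ
  have hcard : Nat.card (w.asIdeal.inertia (M ≃ₐ[F] M)) =
      (h1_under F w).asIdeal.ramificationIdxIn (𝓞 M) :=
    Ideal.card_inertia_eq_ramificationIdxIn (h1_under F w).asIdeal w.asIdeal
  rw [Ideal.ramificationIdxIn_eq_ramificationIdx (h1_under F w).asIdeal w.asIdeal (M ≃ₐ[F] M),
    htriv] at hcard
  rw [Ideal.ramificationIdx'_eq_ramificationIdx (h1_under F w).asIdeal w.asIdeal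
    (h1_under F w).ne_bot, ← hcard]
  simp

/-- `e = 1` at a prime with trivial inertia. -/
theorem h1_ord_inc_of_unram_B [IsGalois F M] (w : HeightOneSpectrum (𝓞 M))
    (hw : InertiaTrivialAt F M w.asIdeal) (x : Fˣ) :
    h1_ord M w (h1_inc F M x) = h1_ord F (h1_under F w) x := by
  rw [h1_ordextb_ord_inc F M w x, h1_ordextb_ramificationIdx_eq_one F M w hw, Nat.cast_one,
    one_mul]

end Fermat.Agent.S14
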