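import Mathlib
import Fermat.Agent.S14.Defs
import Fermat.Agent.S14.H1Defs
import Fermat.Agent.S14.H1BDefs
import Fermat.Agent.S14.H1OrdExtB

/-!
# P18 (S14), block H1, route B, slice (e2a)

At a prime `w` of `M` not above the modulus `𝔪` (where `M/F` has trivial inertia) the order of
an element of `Fˣ` at `w` equals its order at the prime of `F` below `w`.
-/

set_option autoImplicit false

namespace Fermat.Agent.S14

open NumberField IsDedekindDomain
open scoped Pointwise

variable (F M : Type*) [Field F] [NumberField F] [Field M] [NumberField M] [Algebra F M]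

/-- (e2a) unramified primes: the order of an element of `F` does not change. -/
theorem h1b_ord_inc [IsGalois F M] (𝔪 : Ideal (𝓞 F)) (hunr : UnramifiedOutside F M 𝔪)
    (w : h1b_W F M 𝔪) (c : Fˣ) :
    h1_ord M w.1 (h1_inc F M c) = h1_ord F (h1_under F w.1) c :=
  h1_ord_inc_of_unram_B F M w.1 (hunr w.1.asIdeal w.1.isPrime w.1.ne_bot w.2) c

end Fermat.Agent.S14
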