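import Mathlib
import Fermat.Agent.S14.Defs
import Fermat.Agent.S14.H1Defs
import Fermat.Agent.S14.H1BDefs
import Fermat.Agent.S14.H1DictB2a

/-!
# P18 (S14), block H1, route B, slice (e2), second team: core

An ideal `𝔞` of `F` related to `⊤` (`RayNormRel F M 𝔪 𝔞 ⊤`) has a divisor (on the primes of `M`
not above `𝔪`) of the form `div(x) + N(y)` with `x` a Galois-fixed element of the ray.  The
formula for the order of a relative norm (slice (e2b)) is taken as a hypothesis `hcnt`.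
-/

set_option autoImplicit false

namespace Fermat.Agent.S14

open NumberField IsDedekindDomain
open scoped Pointwise

theorem h1be22_cnt_mul (K : Type*) [Field K] [NumberField K] (v : HeightOneSpectrum (𝓞 K))
    (I J : Ideal (𝓞 K)) (hI : I ≠ ⊥) (hJ : J ≠ ⊥) :
    h1_cnt K v (I * J) = h1_cnt K v I + h1_cnt K v J := by
  unfold h1_cnt
  rw [FractionalIdeal.coeIdeal_mul, FractionalIdeal.count_mul K v
    (FractionalIdeal.coeIdeal_ne_zero.mpr hI) (FractionalIdeal.coeIdeal_ne_zero.mpr hJ)]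

theorem h1be22_cnt_top (K : Type*) [Field K] [NumberField K] (v : HeightOneSpectrum (𝓞 K)) :
    h1_cnt K v ⊤ = 0 := by
  unfold h1_cnt
  rw [FractionalIdeal.coeIdeal_top, FractionalIdeal.count_one]

section

variable (F M : Type*) [Field F] [NumberField F] [Field M] [NumberField M] [Algebra F M]

theorem h1be22_finite_cnt_support (𝔄 : Ideal (𝓞 M)) :
    {w : HeightOneSpectrum (𝓞 M) | h1_cnt M w 𝔄 ≠ 0}.Finite := by
  have h := FractionalIdeal.finite_factors (K := M)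
    (𝔄 : FractionalIdeal (nonZeroDivisors (𝓞 M)) M)
  exact h

/-- The divisor (prime to `𝔪`) of an ideal of `M`, as a finitely supported function. -/
noncomputable def h1be22_cntFun (𝔪 : Ideal (𝓞 F)) (𝔄 : Ideal (𝓞 M)) : h1b_W F M 𝔪 →₀ ℤ :=
  Finsupp.ofSupportFinite (fun w => h1_cnt M w.1 𝔄)
    ((h1be22_finite_cnt_support M 𝔄).preimage (Subtype.val_injective.injOn))

theorem h1be22_cntFun_apply (𝔪 : Ideal (𝓞 F)) (𝔄 : Ideal (𝓞 M)) (w : h1b_W F M 𝔪) :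
    h1be22_cntFun F M 𝔪 𝔄 w = h1_cnt M w.1 𝔄 := rfl

/-- (e2), with the relative norm formula (e2b) as a hypothesis. -/
theorem h1be22_rel_mem_core (p : ℕ) [IsGalois F M]
    (σ : M ≃ₐ[F] M) (𝔪 : Ideal (𝓞 F))
    (hunr : UnramifiedOutside F M 𝔪) (𝔞 : Ideal (𝓞 F)) (h𝔞 : 𝔞 ≠ ⊥)
    (hcnt : ∀ (w : h1b_W F M 𝔪) (𝔄 : Ideal (𝓞 M)), 𝔄 ≠ ⊥ →
      h1_cnt F (h1_under F w.1) (Ideal.relNorm (𝓞 F) 𝔄)
        = ∑ i ∈ Finset.range p, h1_cnt M (h1b_smulPrime (σ ^ i) w.1) 𝔄)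
    (hrel : RayNormRel F M 𝔪 𝔞 ⊤) :
    ∃ (x : Mˣ) (y : h1b_W F M 𝔪 →₀ ℤ), x ∈ h1b_ray (h1b_mod F M 𝔪) ∧ h1_gal σ x = x ∧
      ∀ w : h1b_W F M 𝔪, h1_cnt F (h1_under F w.1) 𝔞
        = h1_ord M w.1 x + ∑ i ∈ Finset.range p, y (h1b_perm (σ ^ i) 𝔪 w) := by
  obtain ⟨a, b, 𝔄, 𝔅, ha, hb, hab, hca, hcb, h𝔄, h𝔅, -, -, heq⟩ := hrel
  have ha' : (a : F) ≠ 0 := by exact_mod_cast ha
  have hb' : (b : F) ≠ 0 := by exact_mod_cast hb
  have hinj : Function.Injective (algebraMap (𝓞 F) (𝓞 M)) :=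
    FaithfulSMul.algebraMap_injective (𝓞 F) (𝓞 M)
  refine ⟨h1_inc F M (Units.mk0 (b : F) hb' / Units.mk0 (a : F) ha'),
    h1be22_cntFun F M 𝔪 𝔅 - h1be22_cntFun F M 𝔪 𝔄, ?_, ?_, ?_⟩
  · rw [h1b_mem_ray]
    refine ⟨algebraMap (𝓞 F) (𝓞 M) b, algebraMap (𝓞 F) (𝓞 M) a, ?_, ?_, ?_, ?_⟩
    · exact (map_ne_zero_iff _ hinj).mpr ha
    · rw [Ideal.isCoprime_iff_sup_eq] at hca ⊢
      have h1 : Ideal.map (algebraMap (𝓞 F) (𝓞 M)) (Ideal.span {a} ⊔ 𝔪) = ⊤ := by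
        rw [hca, Ideal.map_top]
      rwa [Ideal.map_sup, Ideal.map_span, Set.image_singleton] at h1
    · rw [← map_sub]
      refine Ideal.mem_map_of_mem _ ?_
      have : b - a = -(a - b) := by ring
      rw [this]; exact 𝔪.neg_mem hab
    · have e1 : ((algebraMap (𝓞 F) (𝓞 M) a : 𝓞 M) : M) = algebraMap F M (a : F) := rfl
      have e2 : ((algebraMap (𝓞 F) (𝓞 M) b : 𝓞 M) : M) = algebraMap F M (b : F) := rfl
      rw [h1_inc_coe, e1, e2, ← map_mul]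
      congr 1
      rw [Units.val_div_eq_div_val, Units.val_mk0, Units.val_mk0]
      field_simp
  · ext
    rw [h1_gal_coe, h1_inc_coe, AlgEquiv.commutes]
  · intro w
    have hN𝔄 : Ideal.relNorm (𝓞 F) 𝔄 ≠ ⊥ := by
      rwa [Ne, Ideal.relNorm_eq_bot_iff]
    have hN𝔅 : Ideal.relNorm (𝓞 F) 𝔅 ≠ ⊥ := by
      rwa [Ne, Ideal.relNorm_eq_bot_iff]
    have hsa : Ideal.span {a} ≠ ⊥ := by
      rwa [Ne, Ideal.span_singleton_eq_bot]
    have hsb : Ideal.span {b} ≠ ⊥ := by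
      rwa [Ne, Ideal.span_singleton_eq_bot]
    have htop : (⊤ : Ideal (𝓞 F)) ≠ ⊥ := top_ne_bot
    have h1 := congrArg (h1_cnt F (h1_under F w.1)) heq
    rw [h1be22_cnt_mul F _ _ _ (mul_ne_zero hsa h𝔞) hN𝔄, h1be22_cnt_mul F _ _ _ hsa h𝔞,
      h1be22_cnt_mul F _ _ _ (mul_ne_zero hsb htop) hN𝔅, h1be22_cnt_mul F _ _ _ hsb htop,
      h1be22_cnt_top] at h1
    have h2 : h1_ord M w.1 (h1_inc F M (Units.mk0 (b : F) hb' / Units.mk0 (a : F) ha'))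
        = h1_cnt F (h1_under F w.1) (Ideal.span {b})
          - h1_cnt F (h1_under F w.1) (Ideal.span {a}) := by
      rw [h1b_ord_inc F M 𝔪 hunr w, h1_ord_div,
        h1_ord_eq_cnt F _ (Units.mk0 (b : F) hb') b rfl,
        h1_ord_eq_cnt F _ (Units.mk0 (a : F) ha') a rfl]
    have h3 : ∑ i ∈ Finset.range p,
        (h1be22_cntFun F M 𝔪 𝔅 - h1be22_cntFun F M 𝔪 𝔄) (h1b_perm (σ ^ i) 𝔪 w)
        = h1_cnt F (h1_under F w.1) (Ideal.relNorm (𝓞 F) 𝔅)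
          - h1_cnt F (h1_under F w.1) (Ideal.relNorm (𝓞 F) 𝔄) := by
      rw [hcnt w 𝔅 h𝔅, hcnt w 𝔄 h𝔄, ← Finset.sum_sub_distrib]
      refine Finset.sum_congr rfl (fun i _ => ?_)
      rw [Finsupp.sub_apply, h1be22_cntFun_apply, h1be22_cntFun_apply, h1b_perm_apply]
    rw [h2, h3]
    linarith

end

end Fermat.Agent.S14
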