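import Mathlib
import Fermat.Agent.S14.Defs
import Fermat.Agent.S14.H1Defs
import Fermat.Agent.S14.H1BDefs
import Fermat.Agent.S14.H1OrdExtB

/-!
# P18 (S14), block H1, route B, slice (g): Galois equivariance of orders and divisors

* `h1b_ord_smulPrime` : `ord_{σ w}(σ x) = ord_w(x)`;
* `h1b_cnt_smulPrime` : `ord_{σ w}(σ I) = ord_w(I)` for ideals;
* `h1b_dv_gal` : the divisor map is Galois equivariant;
* `h1b_sJ_one`, `h1b_sJ_mul` : the action on divisors is an action;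
* `h1b_nJ_apply` : the norm on divisors, pointwise.

Auxiliary declarations carry the prefix `h1bg_`.
-/

set_option autoImplicit false

namespace Fermat.Agent.S14

open NumberField IsDedekindDomain
open scoped Pointwise

section NF

variable (F M : Type*) [Field F] [NumberField F] [Field M] [NumberField M] [Algebra F M]

/-! ### Orders -/

variable {F M} in
theorem h1b_ord_smulPrime (σ : M ≃ₐ[F] M) (w : HeightOneSpectrum (𝓞 M)) (x : Mˣ) :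
    h1_ord M (h1b_smulPrime σ w) (h1_gal σ x) = h1_ord M w x :=
  h1_ord_gal_B F M σ w (h1b_smulPrime σ w)
    (fun _ => Ideal.smul_mem_pointwise_smul_iff.symm) x

omit [NumberField F] [NumberField M] in
variable {F M} in
/-- `σ I ⊆ (σ w) ^ n` iff `I ⊆ w ^ n`. -/
theorem h1bg_smul_le_pow_iff (σ : M ≃ₐ[F] M) (w I : Ideal (𝓞 M)) (n : ℕ) :
    σ • I ≤ (σ • w) ^ n ↔ I ≤ w ^ n := by
  rw [← smul_pow', Ideal.pointwise_smul_le_pointwise_smul_iff]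

variable {F M} in
theorem h1b_cnt_smulPrime (σ : M ≃ₐ[F] M) (w : HeightOneSpectrum (𝓞 M)) (I : Ideal (𝓞 M)) :
    h1_cnt M (h1b_smulPrime σ w) (σ • I) = h1_cnt M w I := by
  by_cases hI : I = ⊥
  · subst hI
    rw [Ideal.smul_bot]
    unfold h1_cnt
    rw [FractionalIdeal.coeIdeal_bot, FractionalIdeal.count_zero, FractionalIdeal.count_zero]
  · have hI' : σ • I ≠ ⊥ := by
      intro h
      apply hI
      have h2 : σ⁻¹ • (σ • I) = σ⁻¹ • (⊥ : Ideal (𝓞 M)) := by rw [h]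
      rwa [inv_smul_smul, Ideal.smul_bot] at h2
    refine h1_ordextb_eq_of_forall_le (h1_ordextb_cnt_nonneg M _ _) (h1_ordextb_cnt_nonneg M _ _)
      fun n => ?_
    rw [h1_ordextb_le_cnt_iff M _ hI' n, h1_ordextb_le_cnt_iff M w hI n, h1b_smulPrime_asIdeal,
      h1bg_smul_le_pow_iff]

/-! ### The permutation of the primes -/

variable {F M} in
theorem h1bg_perm_one (𝔪 : Ideal (𝓞 F)) (w : h1b_W F M 𝔪) :
    h1b_perm (1 : M ≃ₐ[F] M) 𝔪 w = w :=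
  Subtype.ext (h1b_smulPrime_one w.1)

variable {F M} in
theorem h1bg_perm_mul (σ τ : M ≃ₐ[F] M) (𝔪 : Ideal (𝓞 F)) (w : h1b_W F M 𝔪) :
    h1b_perm (σ * τ) 𝔪 w = h1b_perm σ 𝔪 (h1b_perm τ 𝔪 w) :=
  Subtype.ext (h1b_smulPrime_mul σ τ w.1)

variable {F M} in
/-- Two divisors agreeing at all `σ w` are equal. -/
theorem h1bg_ext (σ : M ≃ₐ[F] M) (𝔪 : Ideal (𝓞 F))
    (d d' : Multiplicative (h1b_W F M 𝔪 →₀ ℤ))
    (h : ∀ w : h1b_W F M 𝔪, Multiplicative.toAdd d (h1b_perm σ 𝔪 w) =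
      Multiplicative.toAdd d' (h1b_perm σ 𝔪 w)) : d = d' := by
  apply Multiplicative.toAdd.injective
  ext w'
  obtain ⟨w, rfl⟩ := (h1b_perm σ 𝔪).surjective w'
  exact h w

/-! ### Divisors -/

variable {F M} in
theorem h1b_dv_gal (σ : M ≃ₐ[F] M) (𝔪 : Ideal (𝓞 F)) (x : Mˣ) :
    h1b_dv F M 𝔪 (h1_gal σ x) = h1b_sJ σ 𝔪 (h1b_dv F M 𝔪 x) := by
  refine h1bg_ext σ 𝔪 _ _ fun w => ?_
  rw [h1b_sJ_apply, h1b_dv_apply, h1b_dv_apply, h1b_perm_apply, h1b_ord_smulPrime]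

variable {F M} in
theorem h1b_sJ_one (𝔪 : Ideal (𝓞 F)) (d : Multiplicative (h1b_W F M 𝔪 →₀ ℤ)) :
    h1b_sJ (1 : M ≃ₐ[F] M) 𝔪 d = d := by
  refine h1bg_ext (1 : M ≃ₐ[F] M) 𝔪 _ _ fun w => ?_
  rw [h1b_sJ_apply, h1bg_perm_one]

variable {F M} in
theorem h1b_sJ_mul (σ τ : M ≃ₐ[F] M) (𝔪 : Ideal (𝓞 F))
    (d : Multiplicative (h1b_W F M 𝔪 →₀ ℤ)) :
    h1b_sJ (σ * τ) 𝔪 d = h1b_sJ σ 𝔪 (h1b_sJ τ 𝔪 d) := by
  refine h1bg_ext (σ * τ) 𝔪 _ _ fun w => ?_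
  rw [h1b_sJ_apply, h1bg_perm_mul, h1b_sJ_apply, h1b_sJ_apply]

variable {F M} in
/-- `(σ d)(w) = d(τ w)` when `σ τ = 1`. -/
theorem h1bg_sJ_apply_of_mul_eq_one (σ τ : M ≃ₐ[F] M) (hστ : σ * τ = 1) (𝔪 : Ideal (𝓞 F))
    (d : Multiplicative (h1b_W F M 𝔪 →₀ ℤ)) (w : h1b_W F M 𝔪) :
    Multiplicative.toAdd (h1b_sJ σ 𝔪 d) w = Multiplicative.toAdd d (h1b_perm τ 𝔪 w) := by
  have h := h1b_sJ_apply σ 𝔪 d (h1b_perm τ 𝔪 w)
  rwa [← h1bg_perm_mul, hστ, h1bg_perm_one] at h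

/-- Reindexing `i ↦ p - i` of a sum of a function with `g p = g 0`. -/
theorem h1bg_sum_range_sub (g : ℕ → ℤ) (p : ℕ) (hg : g p = g 0) :
    ∑ i ∈ Finset.range p, g (p - i) = ∑ i ∈ Finset.range p, g i := by
  cases p with
  | zero => simp
  | succ n =>
    rw [Finset.sum_range_succ', Finset.sum_range_succ' (fun i => g i), Nat.sub_zero, hg]
    congr 1
    rw [← Finset.sum_range_reflect (fun j => g (j + 1)) n]
    refine Finset.sum_congr rfl fun j hj => ?_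
    have hj' : j < n := Finset.mem_range.1 hj
    congr 1
    omega

variable {F M} in
/-- the norm on divisors, pointwise (uses `σ ^ p = 1` to reindex `i ↦ -i`). -/
theorem h1b_nJ_apply (p : ℕ) (σ : M ≃ₐ[F] M) (hσp : σ ^ p = 1) (𝔪 : Ideal (𝓞 F))
    (d : Multiplicative (h1b_W F M 𝔪 →₀ ℤ)) (w : h1b_W F M 𝔪) :
    Multiplicative.toAdd (h1b_nJ p σ 𝔪 d) w
      = ∑ i ∈ Finset.range p, Multiplicative.toAdd d (h1b_perm (σ ^ i) 𝔪 w) := by
  have h1 : Multiplicative.toAdd (h1b_nJ p σ 𝔪 d) w =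
      ∑ i ∈ Finset.range p, Multiplicative.toAdd (h1b_sJ (σ ^ i) 𝔪 d) w := by
    unfold h1b_nJ
    rw [MonoidHom.finsetProd_apply, toAdd_prod, Finsupp.finsetSum_apply]
  have h2 : ∀ i ∈ Finset.range p, Multiplicative.toAdd (h1b_sJ (σ ^ i) 𝔪 d) w =
      Multiplicative.toAdd d (h1b_perm (σ ^ (p - i)) 𝔪 w) := by
    intro i hi
    have hi' : i < p := Finset.mem_range.1 hi
    apply h1bg_sJ_apply_of_mul_eq_one
    rw [← pow_add, ← hσp]
    congr 1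
    omega
  rw [h1, Finset.sum_congr rfl h2]
  refine h1bg_sum_range_sub (fun k => Multiplicative.toAdd d (h1b_perm (σ ^ k) 𝔪 w)) p ?_
  show Multiplicative.toAdd d (h1b_perm (σ ^ p) 𝔪 w) = Multiplicative.toAdd d (h1b_perm (σ ^ 0) 𝔪 w)
  rw [hσp, pow_zero]

end NF

end Fermat.Agent.S14
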