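import Mathlib
import Fermat.Agent.S14.Defs

/-!
# P18 (S14), block H1 (route B), step (c): Hilbert 90 for ray elements

For an ideal `𝔐` of `𝓞 M`, an element `x ∈ M` is a *ray element* modulo `𝔐` (`RayElt M 𝔐 x`) if
`x = a / b` with `a, b ∈ 𝓞 M`, `b` prime to `𝔐` and `a ≡ b` modulo `𝔐`.

`h1b_hilbert90_ray`: let `M/F` be Galois of prime degree `p`, `σ ≠ 1` in `Gal(M/F)`, and `𝔐` a
`σ`-stable ideal prime to `p`.  If `x` is a ray element modulo `𝔐` with
`x · σ x ⋯ σ^{p-1} x = 1`, then `x = σ y / y` for a nonzero ray element `y` modulo `𝔐`.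

Proof: the resolvent `y = Σ_{k < p} x · σ x ⋯ σ^{k-1} x` satisfies `x · σ y = y`, and `y / p`
is a ray element because `p` is invertible modulo `𝔐` (for `𝔐 = ⊤` the statement is Hilbert's
theorem 90).  No ramification theory is needed.
-/

set_option autoImplicit false

namespace Fermat.Agent.S14

open NumberField

/-- `x ∈ M` is a ray element modulo `𝔐`: `x = a / b` with `a, b ∈ 𝓞 M`, `b ≠ 0` prime to `𝔐`
and `a ≡ b` modulo `𝔐`. -/
def RayElt (M : Type*) [Field M] [NumberField M] (𝔐 : Ideal (𝓞 M)) (x : M) : Prop :=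
  ∃ a b : 𝓞 M, b ≠ 0 ∧ IsCoprime (Ideal.span {b}) 𝔐 ∧ a - b ∈ 𝔐 ∧ x * (b : M) = (a : M)

section

variable {M : Type*} [Field M] [NumberField M] {𝔐 : Ideal (𝓞 M)}

theorem h1b_ray_one : RayElt M 𝔐 1 :=
  ⟨1, 1, one_ne_zero, by
    rw [Ideal.span_singleton_one]
    exact Ideal.isCoprime_iff_sup_eq.mpr (top_sup_eq _), by rw [sub_self]; exact zero_mem _,
    by rw [one_mul]⟩

omit [NumberField M] in
/-- If `b` is prime to `𝔐` and `a ≡ b` modulo `𝔐`, then `a` is prime to `𝔐`. -/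
theorem h1b_coprime_of_sub_mem {a b : 𝓞 M} (hb : IsCoprime (Ideal.span {b}) 𝔐)
    (hab : a - b ∈ 𝔐) : IsCoprime (Ideal.span {a}) 𝔐 := by
  rw [Ideal.isCoprime_iff_exists] at hb ⊢
  obtain ⟨i, hi, j, hj, hij⟩ := hb
  obtain ⟨c, rfl⟩ := Ideal.mem_span_singleton'.mp hi
  refine ⟨c * a, Ideal.mem_span_singleton'.mpr ⟨c, rfl⟩, j - c * (a - b),
    sub_mem hj (Ideal.mul_mem_left _ _ hab), ?_⟩
  rw [← hij]
  ring

theorem h1b_ray_mul {x x' : M} (hx : RayElt M 𝔐 x) (hx' : RayElt M 𝔐 x') :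
    RayElt M 𝔐 (x * x') := by
  obtain ⟨a, b, hb0, hb, hab, h⟩ := hx
  obtain ⟨a', b', hb0', hb', hab', h'⟩ := hx'
  refine ⟨a * a', b * b', mul_ne_zero hb0 hb0', ?_, ?_, ?_⟩
  · rw [← Ideal.span_singleton_mul_span_singleton]
    exact IsCoprime.mul_left hb hb'
  · have e : a * a' - b * b' = a * (a' - b') + (a - b) * b' := by ring
    rw [e]
    exact add_mem (Ideal.mul_mem_left _ _ hab') (Ideal.mul_mem_right _ _ hab)
  · push_cast
    linear_combination (x' * (b' : M)) * h + (a : M) * h'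

theorem h1b_ray_inv {x : M} (hx0 : x ≠ 0) (hx : RayElt M 𝔐 x) : RayElt M 𝔐 x⁻¹ := by
  obtain ⟨a, b, hb0, hb, hab, h⟩ := hx
  have hbM : (b : M) ≠ 0 := fun h0 => hb0 (RingOfIntegers.coe_eq_zero_iff.mp h0)
  have ha0 : a ≠ 0 := by
    intro h0
    have h2 : x * (b : M) = 0 := h.trans (RingOfIntegers.coe_eq_zero_iff.mpr h0)
    rcases mul_eq_zero.mp h2 with h1 | h1
    · exact hx0 h1
    · exact hbM h1
  refine ⟨b, a, ha0, h1b_coprime_of_sub_mem hb hab, ?_, ?_⟩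
  · have e : b - a = -(a - b) := by ring
    rw [e]
    exact neg_mem hab
  · rw [← h]
    field_simp

end

section Galois

variable {F M : Type*} [Field F] [Field M] [NumberField M] [Algebra F M] {𝔐 : Ideal (𝓞 M)}

omit [NumberField M] in
theorem h1b_coe_smul (σ : M ≃ₐ[F] M) (a : 𝓞 M) : ((σ • a : 𝓞 M) : M) = σ (a : M) := rfl

theorem h1b_ray_map (σ : M ≃ₐ[F] M) (hσ𝔐 : ∀ a ∈ 𝔐, σ • a ∈ 𝔐) {x : M}
    (hx : RayElt M 𝔐 x) : RayElt M 𝔐 (σ x) := by
  obtain ⟨a, b, hb0, hb, hab, h⟩ := hx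
  refine ⟨σ • a, σ • b, ?_, ?_, ?_, ?_⟩
  · intro h0
    apply hb0
    have h1 : σ⁻¹ • (σ • b) = σ⁻¹ • (0 : 𝓞 M) := by rw [h0]
    rwa [inv_smul_smul, smul_zero] at h1
  · rw [Ideal.isCoprime_iff_exists] at hb ⊢
    obtain ⟨i, hi, j, hj, hij⟩ := hb
    obtain ⟨c, rfl⟩ := Ideal.mem_span_singleton'.mp hi
    refine ⟨σ • c * σ • b, Ideal.mem_span_singleton'.mpr ⟨σ • c, rfl⟩, σ • j, hσ𝔐 j hj, ?_⟩
    rw [← smul_mul', ← smul_add, hij, smul_one]
  · rw [← smul_sub]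
    exact hσ𝔐 _ hab
  · rw [h1b_coe_smul, h1b_coe_smul, ← map_mul, h]

/-- A sum of `n` ray elements is `A / B` with `B` prime to `𝔐` and `A ≡ n B` modulo `𝔐`. -/
theorem h1b_ray_sum (xs : ℕ → M) (hxs : ∀ k, RayElt M 𝔐 (xs k)) (n : ℕ) :
    ∃ A B : 𝓞 M, B ≠ 0 ∧ IsCoprime (Ideal.span {B}) 𝔐 ∧ A - (n : 𝓞 M) * B ∈ 𝔐 ∧
      (∑ k ∈ Finset.range n, xs k) * (B : M) = (A : M) := by
  induction n with
  | zero =>
    refine ⟨0, 1, one_ne_zero, ?_, ?_, ?_⟩
    · rw [Ideal.span_singleton_one]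
      exact Ideal.isCoprime_iff_sup_eq.mpr (top_sup_eq _)
    · simp
    · simp
  | succ n ih =>
    obtain ⟨A, B, hB0, hB, hAB, h⟩ := ih
    obtain ⟨a, b, hb0, hb, hab, h'⟩ := hxs n
    refine ⟨A * b + a * B, B * b, mul_ne_zero hB0 hb0, ?_, ?_, ?_⟩
    · rw [← Ideal.span_singleton_mul_span_singleton]
      exact IsCoprime.mul_left hB hb
    · have e : A * b + a * B - ((n + 1 : ℕ) : 𝓞 M) * (B * b) =
          (A - (n : 𝓞 M) * B) * b + (a - b) * B := by
        push_cast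
        ring
      rw [e]
      exact add_mem (Ideal.mul_mem_right _ _ hAB) (Ideal.mul_mem_right _ _ hab)
    · rw [Finset.sum_range_succ]
      push_cast
      linear_combination (b : M) * h + (B : M) * h'

end Galois

/-- Every element of `M` is a ray element modulo the unit ideal. -/
theorem h1b_ray_top {M : Type*} [Field M] [NumberField M] (z : M) : RayElt M ⊤ z := by
  obtain ⟨a, b, hb, hab⟩ := IsFractionRing.div_surjective (A := 𝓞 M) z
  have hb0 : b ≠ 0 := nonZeroDivisors.ne_zero hb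
  have hbM : (b : M) ≠ 0 := fun h0 => hb0 (RingOfIntegers.coe_eq_zero_iff.mp h0)
  refine ⟨a, b, hb0, Ideal.isCoprime_iff_sup_eq.mpr (sup_top_eq _), Submodule.mem_top, ?_⟩
  rw [← hab]
  exact div_mul_cancel₀ _ hbM

/-- Dedekind independence for the powers of an automorphism: a combination of the
`σ ^ k`, `k < n`, with nonzero coefficient of `σ ^ 0` does not vanish identically. -/
theorem h1b_exists_resolvent_ne_zero {F M : Type*} [Field F] [Field M] [Algebra F M]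
    (σ : M ≃ₐ[F] M) (n : ℕ) (hn : 0 < n)
    (hinj : Set.InjOn (fun i : ℕ => σ ^ i) (Finset.range n : Finset ℕ)) (xs : ℕ → M)
    (h0 : xs 0 ≠ 0) : ∃ θ : M, ∑ k ∈ Finset.range n, xs k * (σ ^ k) θ ≠ 0 := by
  by_contra hcon
  have hall : ∀ θ : M, ∑ k ∈ Finset.range n, xs k * (σ ^ k) θ = 0 := by
    intro θ
    by_contra h
    exact hcon ⟨θ, h⟩
  let v : Fin n → (M →* M) := fun k => ((σ ^ (k : ℕ) : M ≃ₐ[F] M) : M →* M)
  have hv : Function.Injective v := by
    intro i j hij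
    apply Fin.ext
    apply hinj (Finset.mem_coe.mpr (Finset.mem_range.mpr i.2))
      (Finset.mem_coe.mpr (Finset.mem_range.mpr j.2))
    ext θ
    exact DFunLike.congr_fun hij θ
  have hli : LinearIndependent M (fun k : Fin n => (v k : M → M)) :=
    (linearIndependent_monoidHom M M).comp v hv
  have hzero : ∑ k : Fin n, xs (k : ℕ) • (v k : M → M) = 0 := by
    funext θ
    rw [Finset.sum_apply, Pi.zero_apply]
    have h1 := hall θ
    rw [← Fin.sum_univ_eq_sum_range (fun k => xs k * (σ ^ k) θ) n] at h1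
    exact h1
  exact h0 (Fintype.linearIndependent_iff.mp hli (fun k => xs (k : ℕ)) hzero ⟨0, hn⟩)

/-- **Hilbert 90 for ray elements.** Let `M/F` be Galois of prime degree `p`, `σ ≠ 1` in
`Gal(M/F)` and `𝔐` a `σ`-stable ideal of `𝓞 M` prime to `p`. A ray element `x` modulo
`𝔐` with `x · σ x ⋯ σ^{p-1} x = 1` is of the form `σ y / y` for a nonzero ray element `y`. -/
theorem h1b_hilbert90_ray (p : ℕ) [Fact p.Prime] (F M : Type*) [Field F] [NumberField F]
    [Field M] [NumberField M] [Algebra F M] [IsGalois F M] (hdeg : Module.finrank F M = p)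
    (σ : M ≃ₐ[F] M) (hσ : σ ≠ 1) (𝔐 : Ideal (𝓞 M)) (hσ𝔐 : ∀ a ∈ 𝔐, σ • a ∈ 𝔐)
    (hp𝔐 : IsCoprime (Ideal.span {((p : ℕ) : 𝓞 M)}) 𝔐)
    (x : M) (hx : RayElt M 𝔐 x)
    (hN : ∏ i ∈ Finset.range p, (σ ^ i) x = 1) :
    ∃ y : M, y ≠ 0 ∧ RayElt M 𝔐 y ∧ x = σ y / y := by
  have hpprime : p.Prime := Fact.out
  have hcard : Nat.card (M ≃ₐ[F] M) = p := by
    rw [IsGalois.card_aut_eq_finrank, hdeg]
  have horder : orderOf σ = p := by
    have h1 : orderOf σ ∣ p := hcard ▸ orderOf_dvd_natCard σ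
    rcases (Nat.dvd_prime hpprime).mp h1 with h | h
    · exact absurd (orderOf_eq_one_iff.mp h) hσ
    · exact h
  have hσp : σ ^ p = 1 := horder ▸ pow_orderOf_eq_one σ
  have hinj : Set.InjOn (fun i : ℕ => σ ^ i) (Finset.range p : Finset ℕ) := by
    intro i hi j hj hij
    rw [Finset.coe_range, ← horder] at hi hj
    exact pow_injOn_Iio_orderOf hi hj hij
  -- the partial norms
  let xs : ℕ → M := fun k => ∏ i ∈ Finset.range k, (σ ^ i) x
  have hxs0 : xs 0 = 1 := Finset.prod_range_zero _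
  have hxs_succ : ∀ k, xs (k + 1) = x * σ (xs k) := by
    intro k
    show ∏ i ∈ Finset.range (k + 1), (σ ^ i) x = x * σ (∏ i ∈ Finset.range k, (σ ^ i) x)
    rw [Finset.prod_range_succ', map_prod, pow_zero, AlgEquiv.one_apply, mul_comm]
    congr 1
    apply Finset.prod_congr rfl
    intro i _
    rw [pow_succ', AlgEquiv.mul_apply]
  have hxsp : xs p = 1 := hN
  -- the resolvents
  have hres : ∀ θ : M, x * σ (∑ k ∈ Finset.range p, xs k * (σ ^ k) θ) =
      ∑ k ∈ Finset.range p, xs k * (σ ^ k) θ := by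
    intro θ
    rw [map_sum, Finset.mul_sum]
    have h0 : ∑ k ∈ Finset.range p, x * σ (xs k * (σ ^ k) θ) =
        ∑ k ∈ Finset.range p, (fun k => xs k * (σ ^ k) θ) (k + 1) := by
      apply Finset.sum_congr rfl
      intro k _
      show x * σ (xs k * (σ ^ k) θ) = xs (k + 1) * (σ ^ (k + 1)) θ
      rw [map_mul, hxs_succ, pow_succ', AlgEquiv.mul_apply, mul_assoc]
    rw [h0]
    have h1 := Finset.sum_range_succ' (fun k => xs k * (σ ^ k) θ) p
    have h2 := Finset.sum_range_succ (fun k => xs k * (σ ^ k) θ) p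
    simp only [hxs0, hxsp, pow_zero, hσp, AlgEquiv.one_apply, one_mul] at h1 h2
    exact add_right_cancel (h1.symm.trans h2)
  have hσ0 : ∀ y : M, y ≠ 0 → σ y ≠ 0 := fun y hy0 h0 => hy0 (by
    have := congrArg σ.symm h0
    rwa [AlgEquiv.symm_apply_apply, map_zero] at this)
  by_cases h𝔐 : 𝔐 = ⊤
  · -- Hilbert's theorem 90
    obtain ⟨θ, hθ⟩ := h1b_exists_resolvent_ne_zero σ p hpprime.pos hinj xs
      (by rw [hxs0]; exact one_ne_zero)
    obtain ⟨y, hy⟩ : ∃ y : M, y = ∑ k ∈ Finset.range p, xs k * (σ ^ k) θ := ⟨_, rfl⟩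
    have hy0 : y ≠ 0 := hy ▸ hθ
    have hxy : x * σ y = y := by
      rw [hy]
      exact hres θ
    refine ⟨y⁻¹, inv_ne_zero hy0, h𝔐 ▸ h1b_ray_top _, ?_⟩
    rw [map_inv₀, inv_div_inv, eq_div_iff (hσ0 y hy0)]
    exact hxy
  · -- the resolvent of `1`
    have hxs_ray : ∀ k, RayElt M 𝔐 (xs k) := by
      intro k
      induction k with
      | zero =>
        rw [hxs0]
        exact h1b_ray_one
      | succ k ih =>
        rw [hxs_succ]
        exact h1b_ray_mul hx (h1b_ray_map σ hσ𝔐 ih)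
    obtain ⟨y, hy⟩ : ∃ y : M, y = ∑ k ∈ Finset.range p, xs k := ⟨_, rfl⟩
    have hxy : x * σ y = y := by
      have h1 := hres 1
      simp only [map_one, mul_one] at h1
      rw [hy]
      exact h1
    obtain ⟨A, B, hB0, hB, hAB, hyB⟩ := h1b_ray_sum xs hxs_ray p
    rw [← hy] at hyB
    have hpB : IsCoprime (Ideal.span {((p : ℕ) : 𝓞 M) * B}) 𝔐 := by
      rw [← Ideal.span_singleton_mul_span_singleton]
      exact IsCoprime.mul_left hp𝔐 hB
    have hA : IsCoprime (Ideal.span {A}) 𝔐 := h1b_coprime_of_sub_mem hpB hAB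
    have hA0 : A ≠ 0 := by
      intro h0
      rw [h0, Ideal.span_singleton_eq_bot.mpr rfl, Ideal.isCoprime_iff_sup_eq, bot_sup_eq] at hA
      exact h𝔐 hA
    have hBM : (B : M) ≠ 0 := fun h0 => hB0 (RingOfIntegers.coe_eq_zero_iff.mp h0)
    have hy0 : y ≠ 0 := by
      intro h0
      rw [h0, zero_mul] at hyB
      exact hA0 (RingOfIntegers.coe_eq_zero_iff.mp hyB.symm)
    have hpM : ((p : ℕ) : M) ≠ 0 := Nat.cast_ne_zero.mpr hpprime.ne_zero
    have hp0 : ((p : ℕ) : 𝓞 M) ≠ 0 := Nat.cast_ne_zero.mpr hpprime.ne_zero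
    have hy' : RayElt M 𝔐 (y / (p : M)) := by
      refine ⟨A, ((p : ℕ) : 𝓞 M) * B, mul_ne_zero hp0 hB0, hpB, hAB, ?_⟩
      rw [← hyB]
      push_cast
      field_simp
    have hy'0 : y / (p : M) ≠ 0 := div_ne_zero hy0 hpM
    refine ⟨(y / (p : M))⁻¹, inv_ne_zero hy'0, h1b_ray_inv hy'0 hy', ?_⟩
    rw [map_inv₀, map_div₀, map_natCast, inv_div_inv, div_div_div_cancel_right₀ hpM,
      eq_div_iff (hσ0 y hy0)]
    exact hxy

end Fermat.Agent.S14
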