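import Mathlib
import Fermat.Agent.S14.Defs
import Fermat.Agent.S14.H1Defs
import Fermat.Agent.S14.H1BDefs

/-!
# P18 (S14), block H1, route B, slice (f) (second team): finiteness of the ray class group

`h1b_index_ne_zero_2` : the divisors of the elements of the ray modulo `𝔪 𝓞_M` have finite index
in the group of divisors of `M` prime to `𝔪`.

Proof: a divisor `d` gives two integral ideals `P(d) = ∏ w^(d w)⁺`, `P(-d) = ∏ w^(d w)⁻`, prime
to `𝔐 = 𝔪 𝓞_M`.  For every ideal class `c` fix an ideal `T c` prime to `𝔐` in the class `c⁻¹`;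
then `P(d) · T [P(d)] = (α_d)`.  The classes of `P(d)`, `P(-d)` and the residues of `α_d`,
`α_{-d}` modulo `𝔐` (finitely many possibilities) determine `d` modulo divisors of the ray.
-/

set_option autoImplicit false
set_option linter.unusedSectionVars false

namespace Fermat.Agent.S14

open NumberField IsDedekindDomain
open scoped nonZeroDivisors

section general

variable {M : Type*} [Field M] [NumberField M]

theorem h1bf2_cnt_mul (w : HeightOneSpectrum (𝓞 M)) (I I' : Ideal (𝓞 M)) (hI : I ≠ ⊥)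
    (hI' : I' ≠ ⊥) : h1_cnt M w (I * I') = h1_cnt M w I + h1_cnt M w I' := by
  unfold h1_cnt
  rw [FractionalIdeal.coeIdeal_mul, FractionalIdeal.count_mul]
  · exact FractionalIdeal.coeIdeal_ne_zero.mpr hI
  · exact FractionalIdeal.coeIdeal_ne_zero.mpr hI'

/-- Every nonzero ideal `I` has a "complement" `T` prime to `𝔐` with `I * T` principal. -/
theorem h1bf2_exists_coprime_compl (𝔐 : Ideal (𝓞 M)) (h𝔐 : 𝔐 ≠ ⊥) (I : Ideal (𝓞 M))
    (hI : I ≠ ⊥) :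
    ∃ (T : Ideal (𝓞 M)) (a : 𝓞 M), a ≠ 0 ∧ IsCoprime T 𝔐 ∧ I * T = Ideal.span {a} := by
  have hI𝔐 : I * 𝔐 ≠ 0 := mul_ne_zero hI h𝔐
  have hle : I * 𝔐 ≤ I := Ideal.mul_le_left
  have hex : ∃ a : 𝓞 M, a ≠ 0 ∧ I * 𝔐 ⊔ Ideal.span {a} = I := by
    obtain ⟨a, ha⟩ := IsDedekindDomain.exists_sup_span_eq hle hI𝔐
    by_cases ha0 : a = 0
    · obtain ⟨a', ha'I, ha'0⟩ := Submodule.exists_mem_ne_zero_of_ne_bot hI
      refine ⟨a', ha'0, le_antisymm (sup_le hle ?_) ?_⟩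
      · rw [Ideal.span_le]
        exact Set.singleton_subset_iff.mpr ha'I
      · rw [ha0, Ideal.span_singleton_eq_bot.mpr rfl, sup_bot_eq] at ha
        rw [ha]
        exact le_sup_left
    · exact ⟨a, ha0, ha⟩
  obtain ⟨a, ha0, ha⟩ := hex
  have haI : Ideal.span {a} ≤ I := by
    rw [← ha]
    exact le_sup_right
  obtain ⟨T, hT⟩ := Ideal.dvd_iff_le.mpr haI
  refine ⟨T, a, ha0, ?_, hT.symm⟩
  rw [Ideal.isCoprime_iff_sup_eq]
  have h1 : I * (𝔐 ⊔ T) = I * ⊤ := by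
    rw [Ideal.mul_sup, ← hT, ha, Ideal.mul_top]
  have h2 := mul_left_cancel₀ hI h1
  rw [sup_comm]
  exact h2

/-- A choice of ideals `T c` prime to `𝔐`, one for each ideal class `c`, such that `P * T c` is
principal for every `P` of class `c`. -/
theorem h1bf2_exists_T (𝔐 : Ideal (𝓞 M)) (h𝔐 : 𝔐 ≠ ⊥) :
    ∃ T : ClassGroup (𝓞 M) → Ideal (𝓞 M), ∀ c, T c ≠ ⊥ ∧ IsCoprime (T c) 𝔐 ∧
      ∀ (P : Ideal (𝓞 M)) (hP : P ∈ (Ideal (𝓞 M))⁰), ClassGroup.mk0 ⟨P, hP⟩ = c →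
        ∃ α : 𝓞 M, P * T c = Ideal.span {α} := by
  have h : ∀ c : ClassGroup (𝓞 M), ∃ T : Ideal (𝓞 M), T ≠ ⊥ ∧ IsCoprime T 𝔐 ∧
      ∀ (P : Ideal (𝓞 M)) (hP : P ∈ (Ideal (𝓞 M))⁰), ClassGroup.mk0 ⟨P, hP⟩ = c →
        ∃ α : 𝓞 M, P * T = Ideal.span {α} := by
    intro c
    obtain ⟨⟨I, hI⟩, rfl⟩ := ClassGroup.mk0_surjective c
    have hI0 : I ≠ ⊥ := mem_nonZeroDivisors_iff_ne_zero.mp hI
    obtain ⟨T, a, ha0, hT𝔐, hIT⟩ := h1bf2_exists_coprime_compl 𝔐 h𝔐 I hI0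
    have hT0 : T ≠ ⊥ := by
      rintro rfl
      rw [Ideal.mul_bot] at hIT
      exact ha0 (Ideal.span_singleton_eq_bot.mp hIT.symm)
    have hTm : T ∈ (Ideal (𝓞 M))⁰ := mem_nonZeroDivisors_iff_ne_zero.mpr hT0
    refine ⟨T, hT0, hT𝔐, ?_⟩
    intro P hP hPc
    have h1 : ClassGroup.mk0 (⟨I, hI⟩ * ⟨T, hTm⟩ : (Ideal (𝓞 M))⁰) = 1 := by
      have h2 : (⟨I, hI⟩ * ⟨T, hTm⟩ : (Ideal (𝓞 M))⁰) = ⟨I * T, mul_mem hI hTm⟩ := rfl
      rw [h2, ClassGroup.mk0_eq_one_iff]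
      exact ⟨⟨a, hIT⟩⟩
    have h3 : ClassGroup.mk0 (⟨P, hP⟩ * ⟨T, hTm⟩ : (Ideal (𝓞 M))⁰) = 1 := by
      rw [map_mul, hPc, ← map_mul]
      exact h1
    have h4 : (⟨P, hP⟩ * ⟨T, hTm⟩ : (Ideal (𝓞 M))⁰) = ⟨P * T, mul_mem hP hTm⟩ := rfl
    rw [h4, ClassGroup.mk0_eq_one_iff] at h3
    obtain ⟨⟨α, hα⟩⟩ := h3
    exact ⟨α, hα⟩
  choose T hT using h
  exact ⟨T, hT⟩

end general

section main

variable (F M : Type*) [Field F] [NumberField F] [Field M] [NumberField M] [Algebra F M]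

/-- The integral ideal `∏ w ^ (d w)⁺` attached to a divisor `d` prime to `𝔪`. -/
noncomputable def h1bf2_idl (𝔪 : Ideal (𝓞 F)) (d : h1b_W F M 𝔪 →₀ ℤ) : Ideal (𝓞 M) :=
  ∏ w ∈ d.support, (w.1.asIdeal) ^ (d w).toNat

theorem h1bf2_idl_ne_bot (𝔪 : Ideal (𝓞 F)) (d : h1b_W F M 𝔪 →₀ ℤ) :
    h1bf2_idl F M 𝔪 d ≠ ⊥ := by
  unfold h1bf2_idl
  rw [← Ideal.zero_eq_bot, Finset.prod_ne_zero_iff]
  intro w _
  exact pow_ne_zero _ w.1.ne_bot

theorem h1bf2_idl_coprime (𝔪 : Ideal (𝓞 F)) (d : h1b_W F M 𝔪 →₀ ℤ) :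
    IsCoprime (h1bf2_idl F M 𝔪 d) (h1b_mod F M 𝔪) := by
  unfold h1bf2_idl
  apply IsCoprime.prod_left
  intro w _
  apply IsCoprime.pow_left
  rw [Ideal.isCoprime_iff_sup_eq]
  by_contra hne
  have hmax : w.1.asIdeal.IsMaximal := w.1.isMaximal
  have h1 := hmax.eq_of_le hne le_sup_left
  have h2 : h1b_mod F M 𝔪 ≤ w.1.asIdeal := by
    rw [h1]
    exact le_sup_right
  exact w.2 (Ideal.map_le_iff_le_comap.mp h2)

theorem h1bf2_cnt_idl (𝔪 : Ideal (𝓞 F)) (d : h1b_W F M 𝔪 →₀ ℤ) (w : h1b_W F M 𝔪) :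
    h1_cnt M w.1 (h1bf2_idl F M 𝔪 d) = ((d w).toNat : ℤ) := by
  classical
  unfold h1_cnt h1bf2_idl
  have h1 : (((∏ w' ∈ d.support, (w'.1.asIdeal) ^ (d w').toNat : Ideal (𝓞 M)) :
      FractionalIdeal (𝓞 M)⁰ M))
      = ∏ w' ∈ d.support, ((w'.1.asIdeal : FractionalIdeal (𝓞 M)⁰ M)) ^ (d w').toNat := by
    have h2 := map_prod (FractionalIdeal.coeIdealHom (𝓞 M)⁰ M)
      (fun w' : h1b_W F M 𝔪 => (w'.1.asIdeal) ^ (d w').toNat) d.support
    simp only [FractionalIdeal.coeIdealHom_apply, FractionalIdeal.coeIdeal_pow] at h2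
    exact h2
  rw [h1, FractionalIdeal.count_prod]
  · simp only [FractionalIdeal.count_pow, FractionalIdeal.count_maximal]
    by_cases hw : w ∈ d.support
    · rw [Finset.sum_eq_single w]
      · simp
      · intro w' _ hne
        have : ¬ (w'.1 = w.1) := fun h => hne (Subtype.ext h)
        simp [this]
      · intro h
        exact absurd hw h
    · have hdw : d w = 0 := Finsupp.notMem_support_iff.mp hw
      rw [hdw]
      apply Finset.sum_eq_zero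
      intro w' hw'
      have : ¬ (w'.1 = w.1) := by
        intro h
        have : w' = w := Subtype.ext h
        rw [this] at hw'
        exact hw hw'
      simp [this]
  · intro w' _
    exact pow_ne_zero _ (FractionalIdeal.coeIdeal_ne_zero.mpr w'.1.ne_bot)

/-- **Finiteness of the ray class group** (divisor form): the divisors of the elements of the ray
modulo `𝔪 𝓞_M` have finite index among the divisors of `M` prime to `𝔪`. -/
theorem h1b_index_ne_zero_2 (𝔪 : Ideal (𝓞 F)) (h𝔪 : 𝔪 ≠ ⊥) :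
    ((h1b_ray (h1b_mod F M 𝔪)).map (h1b_dv F M 𝔪)).index ≠ 0 := by
  classical
  have h𝔐 : h1b_mod F M 𝔪 ≠ ⊥ := by
    intro h
    exact h𝔪 ((Ideal.map_eq_bot_iff_of_injective (RingOfIntegers.algebraMap.injective F M)).mp h)
  obtain ⟨T, hT⟩ := h1bf2_exists_T (h1b_mod F M 𝔪) h𝔐
  have key : ∀ d : h1b_W F M 𝔪 →₀ ℤ, ∃ (c : ClassGroup (𝓞 M)) (α : 𝓞 M), α ≠ 0 ∧
      IsCoprime (Ideal.span {α}) (h1b_mod F M 𝔪) ∧
      h1bf2_idl F M 𝔪 d * T c = Ideal.span {α} := by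
    intro d
    have hP : h1bf2_idl F M 𝔪 d ∈ (Ideal (𝓞 M))⁰ :=
      mem_nonZeroDivisors_iff_ne_zero.mpr (h1bf2_idl_ne_bot F M 𝔪 d)
    obtain ⟨hT0, hTc, hTp⟩ := hT (ClassGroup.mk0 ⟨h1bf2_idl F M 𝔪 d, hP⟩)
    obtain ⟨α, hα⟩ := hTp _ hP rfl
    refine ⟨_, α, ?_, ?_, hα⟩
    · rintro rfl
      rw [Ideal.span_singleton_eq_bot.mpr rfl] at hα
      exact (mul_ne_zero (h1bf2_idl_ne_bot F M 𝔪 d) hT0) hα
    · rw [← hα]
      exact IsCoprime.mul_left (h1bf2_idl_coprime F M 𝔪 d) hTc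
  choose cl al hal0 halc hal using key
  have hfin : Finite (𝓞 M ⧸ h1b_mod F M 𝔪) := Ideal.finiteQuotientOfFreeOfNeBot _ h𝔐
  let g : Multiplicative (h1b_W F M 𝔪 →₀ ℤ) →
      ClassGroup (𝓞 M) × ClassGroup (𝓞 M) × (𝓞 M ⧸ h1b_mod F M 𝔪) × (𝓞 M ⧸ h1b_mod F M 𝔪) :=
    fun d => (cl (Multiplicative.toAdd d), cl (-(Multiplicative.toAdd d)),
      Ideal.Quotient.mk _ (al (Multiplicative.toAdd d)),
      Ideal.Quotient.mk _ (al (-(Multiplicative.toAdd d))))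
  have hg : ∀ d d' : Multiplicative (h1b_W F M 𝔪 →₀ ℤ), g d = g d' →
      d⁻¹ * d' ∈ (h1b_ray (h1b_mod F M 𝔪)).map (h1b_dv F M 𝔪) := by
    intro d d' hgd
    obtain ⟨hc1, hc2, hq1, hq2⟩ : cl (Multiplicative.toAdd d) = cl (Multiplicative.toAdd d') ∧
        cl (-(Multiplicative.toAdd d)) = cl (-(Multiplicative.toAdd d')) ∧
        al (Multiplicative.toAdd d) - al (Multiplicative.toAdd d') ∈ h1b_mod F M 𝔪 ∧
        al (-(Multiplicative.toAdd d)) - al (-(Multiplicative.toAdd d')) ∈ h1b_mod F M 𝔪 := by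
      have h1 := congrArg Prod.fst hgd
      have h2 := congrArg (fun t => t.2.1) hgd
      have h3 := congrArg (fun t => t.2.2.1) hgd
      have h4 := congrArg (fun t => t.2.2.2) hgd
      exact ⟨h1, h2, Ideal.Quotient.eq.mp h3, Ideal.Quotient.eq.mp h4⟩
    set e := Multiplicative.toAdd d with he
    set e' := Multiplicative.toAdd d' with he'
    -- the four generators
    have ha1 := hal e
    have ha1' := hal e'
    have hb1 := hal (-e)
    have hb1' := hal (-e')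
    rw [← hc1] at ha1'
    rw [← hc2] at hb1'
    have hM : ∀ a : 𝓞 M, a ≠ 0 → (a : M) ≠ 0 := fun a ha => by
      exact_mod_cast ha
    let ua : Mˣ := Units.mk0 (al e : M) (hM _ (hal0 e))
    let ua' : Mˣ := Units.mk0 (al e' : M) (hM _ (hal0 e'))
    let ub : Mˣ := Units.mk0 (al (-e) : M) (hM _ (hal0 (-e)))
    let ub' : Mˣ := Units.mk0 (al (-e') : M) (hM _ (hal0 (-e')))
    refine ⟨ua' * ub / (ua * ub'), ?_, ?_⟩
    · -- membership in the ray
      refine ⟨al e' * al (-e), al e * al (-e'), mul_ne_zero (hal0 e) (hal0 (-e')),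
        h1b_isCoprime_mul (halc e) (halc (-e')), ?_, ?_⟩
      · have h5 : al e' * al (-e) - al e * al (-e')
            = -((al e - al e') * al (-e)) + al e * (al (-e) - al (-e')) := by ring
        rw [h5]
        exact Ideal.add_mem _ (neg_mem (Ideal.mul_mem_right _ _ hq1))
          (Ideal.mul_mem_left _ _ hq2)
      · have h6 : (((ua' * ub / (ua * ub') : Mˣ)) : M)
            = (al e' : M) * (al (-e) : M) / ((al e : M) * (al (-e') : M)) := by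
          simp [ua, ua', ub, ub']
        have h7 : (((al e' * al (-e) : 𝓞 M)) : M) = (al e' : M) * (al (-e) : M) := rfl
        have h8 : (((al e * al (-e') : 𝓞 M)) : M) = (al e : M) * (al (-e') : M) := rfl
        rw [h6, h7, h8]
        have h9 : (al e : M) * (al (-e') : M) ≠ 0 :=
          mul_ne_zero (hM _ (hal0 e)) (hM _ (hal0 (-e')))
        exact div_mul_cancel₀ _ h9
    · -- its divisor
      apply Multiplicative.toAdd.injective
      apply Finsupp.ext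
      intro w
      rw [h1b_dv_apply, h1_ord_div, h1_ord_mul, h1_ord_mul,
        h1_ord_eq_cnt M w.1 ua (al e) rfl, h1_ord_eq_cnt M w.1 ua' (al e') rfl,
        h1_ord_eq_cnt M w.1 ub (al (-e)) rfl, h1_ord_eq_cnt M w.1 ub' (al (-e')) rfl,
        ← ha1, ← ha1', ← hb1, ← hb1',
        h1bf2_cnt_mul _ _ _ (h1bf2_idl_ne_bot F M 𝔪 e) (hT _).1,
        h1bf2_cnt_mul _ _ _ (h1bf2_idl_ne_bot F M 𝔪 e') (hT _).1,
        h1bf2_cnt_mul _ _ _ (h1bf2_idl_ne_bot F M 𝔪 (-e)) (hT _).1,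
        h1bf2_cnt_mul _ _ _ (h1bf2_idl_ne_bot F M 𝔪 (-e')) (hT _).1,
        h1bf2_cnt_idl, h1bf2_cnt_idl, h1bf2_cnt_idl, h1bf2_cnt_idl]
      have h10 : Multiplicative.toAdd (d⁻¹ * d') w = - e w + e' w := rfl
      rw [h10, Finsupp.neg_apply, Finsupp.neg_apply]
      have h11 := Int.toNat_sub_toNat_neg (e w)
      have h12 := Int.toNat_sub_toNat_neg (e' w)
      linarith
  rw [Subgroup.index_ne_zero_iff_finite]
  let φ : (Multiplicative (h1b_W F M 𝔪 →₀ ℤ) ⧸ (h1b_ray (h1b_mod F M 𝔪)).map (h1b_dv F M 𝔪)) →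
      ClassGroup (𝓞 M) × ClassGroup (𝓞 M) × (𝓞 M ⧸ h1b_mod F M 𝔪) × (𝓞 M ⧸ h1b_mod F M 𝔪) :=
    fun q => g (Quotient.out q)
  have hφ : Function.Injective φ := by
    intro q q' h
    rw [← Quotient.out_eq q, ← Quotient.out_eq q']
    exact QuotientGroup.eq.mpr (hg _ _ h)
  exact Finite.of_injective φ hφ

end main

end Fermat.Agent.S14
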