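import Mathlib
import Fermat.Agent.S14.H1Defs

/-!
# P18 (S14) block H1, slice (d2): the valuation vector of an `S`-unit

`h1_sunitOrd K S : Additive (h1_sUnits K S) →ₗ[ℤ] (S → ℤ)`, `x ↦ (ord_v x)_{v ∈ S}`, for a finite
set `S` of primes of a number field `K` (definitions `h1_sUnits`, `h1_ord` of `H1Defs.lean`).
The lemmas about its kernel and its range are in `H1SUnitOrdLemmas.lean` and `H1SUnit.lean`.
-/

set_option autoImplicit false

namespace Fermat.Agent.S14

open NumberField IsDedekindDomain

/-- The valuation vector `x ↦ (ord_v x)_{v ∈ S}` on the group of `S`-units, as a `ℤ`-linear map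
on `Additive`. -/
noncomputable def h1_sunitOrd (K : Type*) [Field K] [NumberField K]
    (S : Finset (HeightOneSpectrum (𝓞 K))) :
    Additive ↥(h1_sUnits K (S : Set (HeightOneSpectrum (𝓞 K)))) →ₗ[ℤ] (↥S → ℤ) :=
  AddMonoidHom.toIntLinearMap
    { toFun := fun x v => h1_ord K (v : HeightOneSpectrum (𝓞 K))
        ((Additive.toMul x : ↥(h1_sUnits K (S : Set (HeightOneSpectrum (𝓞 K))))) : Kˣ)
      map_zero' := by
        funext v
        simp
      map_add' := fun x y => by
        funext v
        simp [h1_ord_mul] }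

theorem h1_sunitOrd_apply (K : Type*) [Field K] [NumberField K]
    (S : Finset (HeightOneSpectrum (𝓞 K)))
    (x : Additive ↥(h1_sUnits K (S : Set (HeightOneSpectrum (𝓞 K))))) (v : ↥S) :
    h1_sunitOrd K S x v = h1_ord K (v : HeightOneSpectrum (𝓞 K))
      ((Additive.toMul x : ↥(h1_sUnits K (S : Set (HeightOneSpectrum (𝓞 K))))) : Kˣ) := rfl

end Fermat.Agent.S14
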