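import Mathlib
import Fermat.Agent.S14.H1Defs
import Fermat.Agent.S14.H1SUnitOrd

/-!
# P18 (S14) block H1, slice (d2): kernel and basis vectors of the valuation vector of `S`-units

For `h1_sunitOrd K S` (`H1SUnitOrd.lean`; `h1_sUnits`, `h1_ord` from `H1Defs.lean`):

* `h1_exists_unit_of_ord_eq_zero` : an element of `Kˣ` of order `0` at every prime is a unit of
  `𝓞 K`;
* `h1_ord_unit` : units of `𝓞 K` have order `0` everywhere;
* `h1_sunitOrd_ker` : the kernel of the valuation vector is the image of `(𝓞 K)ˣ`;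
* `h1_exists_ord_single`, `h1_sunitOrd_single` : `h • e_v` is a valuation vector (`h` the class
  number).
-/

set_option autoImplicit false

namespace Fermat.Agent.S14

open NumberField IsDedekindDomain

/-- An element of `Kˣ` of order `0` at every prime lies in `𝓞 K`. -/
theorem h1_suo_exists_int (K : Type*) [Field K] [NumberField K] (x : Kˣ)
    (h : ∀ v : HeightOneSpectrum (𝓞 K), h1_ord K v x = 0) :
    ∃ a : 𝓞 K, algebraMap (𝓞 K) K a = (x : K) := by
  have hne := h1_spanSingleton_ne_zero K x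
  have hfac := FractionalIdeal.finprod_heightOneSpectrum_factorization' (K := K) hne
  have h1 : FractionalIdeal.spanSingleton (nonZeroDivisors (𝓞 K)) (x : K) = 1 := by
    rw [← hfac]
    have : ∀ v : HeightOneSpectrum (𝓞 K),
        (v.asIdeal : FractionalIdeal (nonZeroDivisors (𝓞 K)) K) ^
          (FractionalIdeal.count K v
            (FractionalIdeal.spanSingleton (nonZeroDivisors (𝓞 K)) (x : K))) = 1 := by
      intro v
      have hv : FractionalIdeal.count K v
          (FractionalIdeal.spanSingleton (nonZeroDivisors (𝓞 K)) (x : K)) = 0 := h v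
      rw [hv, zpow_zero]
    simp only [this, finprod_one]
  have hmem : (x : K) ∈ FractionalIdeal.spanSingleton (nonZeroDivisors (𝓞 K)) (x : K) :=
    FractionalIdeal.mem_spanSingleton_self _ _
  rw [h1, FractionalIdeal.mem_one_iff] at hmem
  exact hmem

/-- An element of `Kˣ` of order `0` at every prime comes from a unit of `𝓞 K`. -/
theorem h1_exists_unit_of_ord_eq_zero (K : Type*) [Field K] [NumberField K] (x : Kˣ)
    (h : ∀ v : HeightOneSpectrum (𝓞 K), h1_ord K v x = 0) :
    ∃ u : (𝓞 K)ˣ, Units.map (algebraMap (𝓞 K) K : 𝓞 K →* K) u = x := by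
  obtain ⟨a, ha⟩ := h1_suo_exists_int K x h
  obtain ⟨b, hb⟩ := h1_suo_exists_int K x⁻¹ (fun v => by rw [h1_ord_inv, h v, neg_zero])
  have hab : a * b = 1 := by
    apply FaithfulSMul.algebraMap_injective (𝓞 K) K
    rw [map_mul, map_one, ha, hb, Units.mul_inv]
  refine ⟨⟨a, b, hab, by rw [mul_comm]; exact hab⟩, ?_⟩
  ext
  exact ha

/-- Units of `𝓞 K` have order `0` at every prime. -/
theorem h1_ord_unit (K : Type*) [Field K] [NumberField K] (v : HeightOneSpectrum (𝓞 K))
    (u : (𝓞 K)ˣ) : h1_ord K v (Units.map (algebraMap (𝓞 K) K : 𝓞 K →* K) u) = 0 := by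
  rw [h1_ord_eq_cnt K v _ (u : 𝓞 K) rfl, h1_cnt, Ideal.span_singleton_eq_top.mpr u.isUnit,
    FractionalIdeal.coeIdeal_top, FractionalIdeal.count_one]

/-- The kernel of the valuation vector consists of the units of `𝓞 K`. -/
theorem h1_sunitOrd_ker (K : Type*) [Field K] [NumberField K]
    (S : Finset (HeightOneSpectrum (𝓞 K)))
    (x : Additive ↥(h1_sUnits K (S : Set (HeightOneSpectrum (𝓞 K))))) :
    h1_sunitOrd K S x = 0 ↔
      ∃ u : (𝓞 K)ˣ, Units.map (algebraMap (𝓞 K) K : 𝓞 K →* K) u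
        = ((Additive.toMul x : ↥(h1_sUnits K (S : Set (HeightOneSpectrum (𝓞 K))))) : Kˣ) := by
  constructor
  · intro h
    apply h1_exists_unit_of_ord_eq_zero
    intro v
    by_cases hv : v ∈ S
    · have h1 := congrFun h ⟨v, hv⟩
      rw [h1_sunitOrd_apply] at h1
      exact h1
    · exact (Additive.toMul x).property v (by simpa using hv)
  · rintro ⟨u, hu⟩
    funext v
    rw [h1_sunitOrd_apply, ← hu, h1_ord_unit]
    rfl

open Classical in
/-- For every prime `v` some positive power `v ^ h` is principal: there is `x : Kˣ` with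
`ord_v x = h > 0` and `ord_w x = 0` for all `w ≠ v`. -/
theorem h1_exists_ord_single (K : Type*) [Field K] [NumberField K]
    (v : HeightOneSpectrum (𝓞 K)) :
    ∃ (h : ℕ) (x : Kˣ), 0 < h ∧ h1_ord K v x = h ∧
      ∀ w : HeightOneSpectrum (𝓞 K), w ≠ v → h1_ord K w x = 0 := by
  have hne : v.asIdeal ≠ ⊥ := v.ne_bot
  have hmem : v.asIdeal ∈ nonZeroDivisors (Ideal (𝓞 K)) := mem_nonZeroDivisors_of_ne_zero hne
  have hpow : (ClassGroup.mk0 ⟨v.asIdeal, hmem⟩) ^ Fintype.card (ClassGroup (𝓞 K)) = 1 :=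
    pow_card_eq_one
  rw [← map_pow] at hpow
  have hprin : (v.asIdeal ^ Fintype.card (ClassGroup (𝓞 K))).IsPrincipal := by
    have hmem' : v.asIdeal ^ Fintype.card (ClassGroup (𝓞 K)) ∈ nonZeroDivisors (Ideal (𝓞 K)) :=
      pow_mem hmem _
    have he : (⟨v.asIdeal, hmem⟩ : nonZeroDivisors (Ideal (𝓞 K))) ^
        Fintype.card (ClassGroup (𝓞 K)) = ⟨v.asIdeal ^ Fintype.card (ClassGroup (𝓞 K)), hmem'⟩ :=
      Subtype.ext (by simp)
    rw [he] at hpow
    exact (ClassGroup.mk0_eq_one_iff hmem').mp hpow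
  obtain ⟨a, ha⟩ := hprin
  have ha' : v.asIdeal ^ Fintype.card (ClassGroup (𝓞 K)) = Ideal.span {a} := ha
  have ha0 : a ≠ 0 := by
    rintro rfl
    have h0 : v.asIdeal ^ Fintype.card (ClassGroup (𝓞 K)) = ⊥ := by
      rw [ha']; simp
    exact (pow_ne_zero _ hne) h0
  have hx0 : algebraMap (𝓞 K) K a ≠ 0 := by
    rw [Ne, FaithfulSMul.algebraMap_eq_zero_iff]; exact ha0
  have key : ∀ w : HeightOneSpectrum (𝓞 K), h1_ord K w (Units.mk0 _ hx0) =
      Fintype.card (ClassGroup (𝓞 K)) *
        FractionalIdeal.count K w (v.asIdeal : FractionalIdeal (nonZeroDivisors (𝓞 K)) K) := by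
    intro w
    rw [h1_ord_eq_cnt K w _ a rfl, h1_cnt, ← ha', FractionalIdeal.coeIdeal_pow,
      FractionalIdeal.count_pow]
  refine ⟨Fintype.card (ClassGroup (𝓞 K)), Units.mk0 _ hx0, Fintype.card_pos, ?_, ?_⟩
  · rw [key, FractionalIdeal.count_self, mul_one]
  · intro w hw
    rw [key, FractionalIdeal.count_maximal_coprime K w (Ne.symm hw), mul_zero]

open Classical in
/-- For every `v ∈ S` some positive multiple of the basis vector `e_v` is a valuation vector. -/
theorem h1_sunitOrd_single (K : Type*) [Field K] [NumberField K]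
    (S : Finset (HeightOneSpectrum (𝓞 K))) (v : ↥S) :
    ∃ (h : ℕ) (x : Additive ↥(h1_sUnits K (S : Set (HeightOneSpectrum (𝓞 K))))), 0 < h ∧
      h1_sunitOrd K S x = (h : ℤ) • (Pi.single v 1 : ↥S → ℤ) := by
  obtain ⟨h, x, hh, hv, hw⟩ := h1_exists_ord_single K (v : HeightOneSpectrum (𝓞 K))
  have hx : x ∈ h1_sUnits K (S : Set (HeightOneSpectrum (𝓞 K))) := by
    intro w hwS
    apply hw
    rintro rfl
    exact hwS v.2
  refine ⟨h, Additive.ofMul ⟨x, hx⟩, hh, ?_⟩
  funext w
  rw [h1_sunitOrd_apply, Pi.smul_apply, smul_eq_mul]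
  by_cases hwv : w = v
  · subst hwv
    rw [Pi.single_eq_same, mul_one]
    exact hv
  · rw [Pi.single_eq_of_ne hwv, mul_zero]
    exact hw w (fun h => hwv (Subtype.ext h))

end Fermat.Agent.S14
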