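import Mathlib

/-!
# P18 (S14), block H1, slice (d): operators on the unit group of a Galois extension

Shared definitions for the Herbrand quotient of units: the automorphism `h1_unitAut σ` of the unit
group of `𝓞 M` induced by `σ ∈ Gal(M/F)`, the norm operator `h1_unitNorm p σ : ε ↦ ∏_{i<p} σ^i ε`
and the difference operator `h1_unitDiff σ : ε ↦ σ ε / ε`.
-/

set_option autoImplicit false

namespace Fermat.Agent.S14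

open NumberField

variable {F M : Type*} [Field F] [Field M] [Algebra F M]

/-- The automorphism of the unit group of `𝓞 M` induced by `σ ∈ Gal(M/F)`. -/
noncomputable def h1_unitAut (σ : M ≃ₐ[F] M) : (𝓞 M)ˣ ≃* (𝓞 M)ˣ :=
  Units.mapEquiv (MulSemiringAction.toRingEquiv (M ≃ₐ[F] M) (𝓞 M) σ).toMulEquiv

theorem h1_unitAut_coe (σ : M ≃ₐ[F] M) (ε : (𝓞 M)ˣ) :
    ((h1_unitAut σ ε : (𝓞 M)ˣ) : 𝓞 M) = σ • (ε : 𝓞 M) := rfl

theorem h1_unitAut_coe_coe (σ : M ≃ₐ[F] M) (ε : (𝓞 M)ˣ) :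
    (((h1_unitAut σ ε : (𝓞 M)ˣ) : 𝓞 M) : M) = σ ((ε : 𝓞 M) : M) := rfl

/-- The norm operator `ε ↦ ∏_{i<p} σ^i ε` on units. -/
noncomputable def h1_unitNorm (p : ℕ) (σ : M ≃ₐ[F] M) : (𝓞 M)ˣ →* (𝓞 M)ˣ :=
  ∏ i ∈ Finset.range p, ((h1_unitAut σ) ^ i : (𝓞 M)ˣ ≃* (𝓞 M)ˣ).toMonoidHom

/-- The operator `ε ↦ σ ε / ε` on units. -/
noncomputable def h1_unitDiff (σ : M ≃ₐ[F] M) : (𝓞 M)ˣ →* (𝓞 M)ˣ :=
  (h1_unitAut σ).toMonoidHom / MonoidHom.id _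

theorem h1_unitNorm_apply (p : ℕ) (σ : M ≃ₐ[F] M) (ε : (𝓞 M)ˣ) :
    h1_unitNorm p σ ε = ∏ i ∈ Finset.range p, ((h1_unitAut σ) ^ i) ε := by
  simp [h1_unitNorm]

theorem h1_unitDiff_apply (σ : M ≃ₐ[F] M) (ε : (𝓞 M)ˣ) :
    h1_unitDiff σ ε = h1_unitAut σ ε / ε := rfl

end Fermat.Agent.S14
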