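import Mathlib
import Fermat.Agent.S14.Defs
import Fermat.Agent.S14.H1Defs
import Fermat.Agent.S14.H1UnitsDefs
import Fermat.Agent.S14.H1BDefs
import Fermat.Agent.S14.H1SUnitOrdLemmas

/-!
# P18 (S14), block H1, route B, slice (u): the ray units

* `h1b_E 𝔐` : the units of `𝓞 M` congruent to `1` modulo `𝔐`; it has finite index in the unit
  group (`h1b_E_index_ne_zero`), is stable under automorphisms preserving `𝔐` (`h1b_E_stable`)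
  and maps into the ray modulo `𝔐` (`h1b_unit_mem_ray`).
* `h1b_dv_unit` : units have trivial divisor.
* `h1b_ray_ker_dv` : an element of the ray modulo `𝔪 𝓞_M` with trivial divisor (prime to `𝔪`)
  is a unit congruent to `1` modulo `𝔪 𝓞_M`.
-/

set_option autoImplicit false

namespace Fermat.Agent.S14

open NumberField IsDedekindDomain
open scoped Pointwise

section NF

variable (F M : Type*) [Field F] [NumberField F] [Field M] [NumberField M] [Algebra F M]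

variable {M} in
/-- The units congruent to `1` modulo `𝔐`. -/
def h1b_E (𝔐 : Ideal (𝓞 M)) : Subgroup (𝓞 M)ˣ where
  carrier := {u | (u : 𝓞 M) - 1 ∈ 𝔐}
  mul_mem' := by
    intro u v hu hv
    show ((u * v : (𝓞 M)ˣ) : 𝓞 M) - 1 ∈ 𝔐
    have e : ((u * v : (𝓞 M)ˣ) : 𝓞 M) - 1 = ((u : 𝓞 M) - 1) * (v : 𝓞 M) + ((v : 𝓞 M) - 1) := by
      rw [Units.val_mul]
      ring
    rw [e]
    exact add_mem (Ideal.mul_mem_right _ _ hu) hv
  one_mem' := by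
    show ((1 : (𝓞 M)ˣ) : 𝓞 M) - 1 ∈ 𝔐
    rw [Units.val_one, sub_self]
    exact zero_mem _
  inv_mem' := by
    intro u hu
    show ((u⁻¹ : (𝓞 M)ˣ) : 𝓞 M) - 1 ∈ 𝔐
    have e : ((u⁻¹ : (𝓞 M)ˣ) : 𝓞 M) - 1 = -(((u⁻¹ : (𝓞 M)ˣ) : 𝓞 M) * ((u : 𝓞 M) - 1)) := by
      rw [mul_sub, Units.inv_mul, mul_one]
      ring
    rw [e]
    exact neg_mem (Ideal.mul_mem_left _ _ hu)

variable {M} in
theorem h1b_mem_E {𝔐 : Ideal (𝓞 M)} {u : (𝓞 M)ˣ} : u ∈ h1b_E 𝔐 ↔ (u : 𝓞 M) - 1 ∈ 𝔐 := Iff.rfl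

variable {M} in
/-- `h1b_E 𝔐` is the kernel of the reduction of units modulo `𝔐`. -/
theorem h1bu_E_eq_ker (𝔐 : Ideal (𝓞 M)) :
    h1b_E 𝔐 = (Units.map (Ideal.Quotient.mk 𝔐 : 𝓞 M →* 𝓞 M ⧸ 𝔐)).ker := by
  ext u
  rw [h1b_mem_E, MonoidHom.mem_ker, Units.ext_iff, Units.coe_map, Units.val_one,
    ← Ideal.Quotient.eq_zero_iff_mem, map_sub, map_one, sub_eq_zero]
  rfl

variable {M} in
theorem h1b_E_index_ne_zero (𝔐 : Ideal (𝓞 M)) (h𝔐 : 𝔐 ≠ ⊥) : (h1b_E 𝔐).index ≠ 0 := by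
  have hfin : Finite (𝓞 M ⧸ 𝔐) := Ideal.finiteQuotientOfFreeOfNeBot 𝔐 h𝔐
  rw [h1bu_E_eq_ker, Subgroup.index_ker]
  exact Nat.card_pos.ne'

variable {F M} in
theorem h1b_E_stable (σ : M ≃ₐ[F] M) (𝔐 : Ideal (𝓞 M)) (hσ𝔐 : ∀ a ∈ 𝔐, σ • a ∈ 𝔐)
    (ε : (𝓞 M)ˣ) (hε : ε ∈ h1b_E 𝔐) : h1_unitAut σ ε ∈ h1b_E 𝔐 := by
  rw [h1b_mem_E] at hε ⊢
  have e : ((h1_unitAut σ ε : (𝓞 M)ˣ) : 𝓞 M) - 1 = σ • ((ε : 𝓞 M) - 1) := by
    rw [h1_unitAut_coe, smul_sub, smul_one]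
  rw [e]
  exact hσ𝔐 _ hε

variable {M} in
theorem h1b_unit_mem_ray (𝔐 : Ideal (𝓞 M)) (ε : (𝓞 M)ˣ) (hε : ε ∈ h1b_E 𝔐) :
    Units.map (algebraMap (𝓞 M) M : 𝓞 M →* M) ε ∈ h1b_ray 𝔐 := by
  rw [h1b_mem_ray]
  refine ⟨(ε : 𝓞 M), 1, one_ne_zero, ?_, hε, ?_⟩
  · rw [Ideal.span_singleton_one]
    exact Ideal.isCoprime_iff_sup_eq.mpr (top_sup_eq _)
  · show algebraMap (𝓞 M) M (ε : 𝓞 M) * algebraMap (𝓞 M) M 1 = algebraMap (𝓞 M) M (ε : 𝓞 M)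
    rw [map_one, mul_one]

theorem h1b_dv_unit (𝔪 : Ideal (𝓞 F)) (ε : (𝓞 M)ˣ) :
    h1b_dv F M 𝔪 (Units.map (algebraMap (𝓞 M) M : 𝓞 M →* M) ε) = 1 := by
  have h : h1b_dvFun F M 𝔪 (Units.map (algebraMap (𝓞 M) M : 𝓞 M →* M) ε) = 0 := by
    ext w
    rw [h1b_dvFun_apply, h1_ord_unit]
    rfl
  show Multiplicative.ofAdd (h1b_dvFun F M 𝔪 (Units.map (algebraMap (𝓞 M) M : 𝓞 M →* M) ε)) = 1
  rw [h]
  rfl

variable {M} in
/-- The order at `w` of a nonzero integer outside `w` vanishes. -/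
theorem h1bu_cnt_span_eq_zero (w : HeightOneSpectrum (𝓞 M)) (a : 𝓞 M) (ha0 : a ≠ 0)
    (ha : a ∉ w.asIdeal) : h1_cnt M w (Ideal.span {a}) = 0 := by
  classical
  have hs : Ideal.span {a} ≠ (0 : Ideal (𝓞 M)) := by
    rw [Ideal.zero_eq_bot, Ne, Ideal.span_singleton_eq_bot]
    exact ha0
  unfold h1_cnt
  rw [FractionalIdeal.count_coe M w hs, Nat.cast_eq_zero]
  by_contra hne
  have h1 := Ideal.le_of_dvd ((Associates.count_ne_zero_iff_dvd hs w.irreducible).mp hne)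
  exact ha (h1 (Ideal.mem_span_singleton_self a))

variable {M} in
/-- A ray element modulo `𝔐` has order `0` at every prime containing `𝔐`. -/
theorem h1bu_ord_eq_zero_of_le (𝔐 : Ideal (𝓞 M)) (w : HeightOneSpectrum (𝓞 M))
    (hw : 𝔐 ≤ w.asIdeal) (x : Mˣ) (hx : x ∈ h1b_ray 𝔐) : h1_ord M w x = 0 := by
  obtain ⟨a, b, hb0, hb, hab, hxb⟩ := h1b_mem_ray.mp hx
  have ha : IsCoprime (Ideal.span {a}) 𝔐 := h1b_isCoprime_of_sub_mem hb hab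
  have hnot : ∀ c : 𝓞 M, IsCoprime (Ideal.span {c}) 𝔐 → c ∉ w.asIdeal := by
    intro c hc hcw
    rw [Ideal.isCoprime_iff_sup_eq] at hc
    have h1 : Ideal.span {c} ⊔ 𝔐 ≤ w.asIdeal :=
      sup_le ((Ideal.span_singleton_le_iff_mem _).mpr hcw) hw
    rw [hc] at h1
    exact w.isPrime.ne_top (top_le_iff.mp h1)
  have hbM : (b : M) ≠ 0 := fun h0 => hb0 (RingOfIntegers.coe_eq_zero_iff.mp h0)
  have haM : (a : M) ≠ 0 := by
    rw [← hxb]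
    exact mul_ne_zero x.ne_zero hbM
  have ha0 : a ≠ 0 := fun h0 => haM (RingOfIntegers.coe_eq_zero_iff.mpr h0)
  have hxab : x = Units.mk0 (a : M) haM / Units.mk0 (b : M) hbM := by
    apply Units.ext
    rw [Units.val_div_eq_div_val, Units.val_mk0, Units.val_mk0, eq_div_iff hbM]
    exact hxb
  rw [hxab, h1_ord_div, h1_ord_eq_cnt M w _ a rfl, h1_ord_eq_cnt M w _ b rfl,
    h1bu_cnt_span_eq_zero w a ha0 (hnot a ha), h1bu_cnt_span_eq_zero w b hb0 (hnot b hb),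
    sub_zero]

theorem h1b_ray_ker_dv (𝔪 : Ideal (𝓞 F)) (x : Mˣ) (hx : x ∈ h1b_ray (h1b_mod F M 𝔪))
    (hd : h1b_dv F M 𝔪 x = 1) :
    ∃ ε ∈ h1b_E (h1b_mod F M 𝔪), Units.map (algebraMap (𝓞 M) M : 𝓞 M →* M) ε = x := by
  have hall : ∀ w : HeightOneSpectrum (𝓞 M), h1_ord M w x = 0 := by
    intro w
    by_cases hw : 𝔪 ≤ (h1_under F w).asIdeal
    · apply h1bu_ord_eq_zero_of_le (h1b_mod F M 𝔪) w _ x hx
      rw [h1b_mod, Ideal.map_le_iff_le_comap]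
      exact hw
    · have h1 := h1b_dv_apply F M 𝔪 x ⟨w, hw⟩
      rw [hd] at h1
      exact h1.symm
  obtain ⟨ε, hε⟩ := h1_exists_unit_of_ord_eq_zero M x hall
  refine ⟨ε, ?_, hε⟩
  rw [h1b_mem_E]
  obtain ⟨a, b, hb0, hb, hab, hxb⟩ := h1b_mem_ray.mp hx
  have hεx : ((ε : 𝓞 M) : M) = (x : M) := by
    rw [← hε]
    rfl
  have hab' : (ε : 𝓞 M) * b = a := by
    apply RingOfIntegers.coe_injective
    show ((ε : 𝓞 M) : M) * (b : M) = (a : M)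
    rw [hεx]
    exact hxb
  -- `(ε - 1) * b ∈ 𝔐` and `b` is prime to `𝔐`
  have h1 : ((ε : 𝓞 M) - 1) * b ∈ h1b_mod F M 𝔪 := by
    have e : ((ε : 𝓞 M) - 1) * b = a - b := by
      rw [sub_mul, one_mul, hab']
    rw [e]
    exact hab
  rw [Ideal.isCoprime_iff_exists] at hb
  obtain ⟨i, hi, j, hj, hij⟩ := hb
  obtain ⟨c, rfl⟩ := Ideal.mem_span_singleton'.mp hi
  have e : (ε : 𝓞 M) - 1 = c * (((ε : 𝓞 M) - 1) * b) + ((ε : 𝓞 M) - 1) * j := by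
    linear_combination (-((ε : 𝓞 M) - 1)) * hij
  rw [e]
  exact add_mem (Ideal.mul_mem_left _ _ h1) (Ideal.mul_mem_left _ _ hj)

end NF

end Fermat.Agent.S14
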