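import Mathlib

/-! P18 (S14) block H1, slice (d): polynomial identities for the cyclotomic situation. -/

set_option autoImplicit false

namespace Fermat.Agent.S14

/-- In characteristic `p`: `(X - 1)^(p-1) = 1 + X + ... + X^(p-1)`. -/
theorem h1_cyp_zmod (p : ℕ) [Fact p.Prime] :
    (Polynomial.X - 1 : Polynomial (ZMod p)) ^ (p - 1)
      = ∑ i ∈ Finset.range p, Polynomial.X ^ i := by
  have hp : p.Prime := Fact.out
  have h1 : (Polynomial.X - 1 : Polynomial (ZMod p)) ≠ 0 := by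
    simpa using Polynomial.X_sub_C_ne_zero (1 : ZMod p)
  apply mul_left_cancel₀ h1
  rw [← pow_succ', Nat.sub_add_cancel hp.one_le, sub_pow_char, one_pow, mul_geom_sum]

/-- `(X - 1)^(p-1) ≡ 1 + X + ... + X^(p-1)` modulo `p`. -/
theorem h1_cyclo_id1 (p : ℕ) [Fact p.Prime] :
    ∃ V : Polynomial ℤ, (Polynomial.X - 1 : Polynomial ℤ) ^ (p - 1)
      = ∑ i ∈ Finset.range p, Polynomial.X ^ i + Polynomial.C (p : ℤ) * V := by
  have hmap : Polynomial.map (Int.castRingHom (ZMod p))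
      ((Polynomial.X - 1 : Polynomial ℤ) ^ (p - 1) - ∑ i ∈ Finset.range p, Polynomial.X ^ i)
        = 0 := by
    simp [Polynomial.map_sum, h1_cyp_zmod p]
  have hdvd : Polynomial.C (p : ℤ) ∣
      ((Polynomial.X - 1 : Polynomial ℤ) ^ (p - 1) - ∑ i ∈ Finset.range p, Polynomial.X ^ i) := by
    rw [Polynomial.C_dvd_iff_dvd_coeff]
    intro i
    have h := congrArg (fun q => Polynomial.coeff q i) hmap
    simp only [Polynomial.coeff_map, Polynomial.coeff_zero] at h
    exact (ZMod.intCast_zmod_eq_zero_iff_dvd _ p).1 h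
  obtain ⟨V, hV⟩ := hdvd
  exact ⟨V, by rw [← hV]; ring⟩

/-- `p ∈ ((X - 1)^(p-1), 1 + X + ... + X^(p-1))`. -/
theorem h1_cyclo_id2 (p : ℕ) [Fact p.Prime] :
    ∃ U W : Polynomial ℤ, (Polynomial.C (p : ℤ) : Polynomial ℤ)
      = (Polynomial.X - 1) ^ (p - 1) * U + (∑ i ∈ Finset.range p, Polynomial.X ^ i) * W := by
  have hp : p.Prime := Fact.out
  have hζ : IsPrimitiveRoot (Complex.exp (2 * Real.pi * Complex.I / p)) p :=
    Complex.isPrimitiveRoot_exp p hp.ne_zero
  set ζ : ℂ := Complex.exp (2 * Real.pi * Complex.I / p) with hζdef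
  have hζ' : IsPrimitiveRoot ζ ((p - 1) + 1) := by
    rwa [Nat.sub_add_cancel hp.one_le]
  have hprod := hζ'.prod_one_sub_pow_eq_order
  -- the polynomial
  have haeval : Polynomial.aeval ζ
      (∏ j ∈ Finset.range (p - 1), (1 - Polynomial.X ^ (j + 1) : Polynomial ℤ)
        - Polynomial.C (p : ℤ)) = 0 := by
    rw [map_sub, map_prod]
    simp only [map_sub, map_one, map_pow, Polynomial.aeval_X, Polynomial.aeval_C]
    rw [hprod]
    have : ((p - 1 : ℕ) : ℂ) + 1 = (p : ℂ) := by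
      rw [← Nat.cast_add_one, Nat.sub_add_cancel hp.one_le]
    rw [this]
    simp
  have hdvd : (∑ i ∈ Finset.range p, Polynomial.X ^ i : Polynomial ℤ) ∣
      (∏ j ∈ Finset.range (p - 1), (1 - Polynomial.X ^ (j + 1) : Polynomial ℤ)
        - Polynomial.C (p : ℤ)) := by
    rw [← Polynomial.cyclotomic_prime ℤ p, Polynomial.cyclotomic_eq_minpoly hζ hp.pos]
    exact minpoly.isIntegrallyClosed_dvd (hζ.isIntegral hp.pos) haeval
  obtain ⟨W, hW⟩ := hdvd
  have hfac : (∏ j ∈ Finset.range (p - 1), (1 - Polynomial.X ^ (j + 1) : Polynomial ℤ))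
      = (Polynomial.X - 1) ^ (p - 1) * ((-1) ^ (p - 1) *
          ∏ j ∈ Finset.range (p - 1), ∑ i ∈ Finset.range (j + 1), Polynomial.X ^ i) := by
    have h1 : ∀ j ∈ Finset.range (p - 1), (1 - Polynomial.X ^ (j + 1) : Polynomial ℤ)
        = (1 - Polynomial.X) * ∑ i ∈ Finset.range (j + 1), Polynomial.X ^ i := by
      intro j _
      rw [mul_neg_geom_sum]
    rw [Finset.prod_congr rfl h1, Finset.prod_mul_distrib, Finset.prod_const, Finset.card_range,
      ← mul_assoc, ← mul_pow]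
    congr 2
    ring
  refine ⟨(-1) ^ (p - 1) *
          ∏ j ∈ Finset.range (p - 1), ∑ i ∈ Finset.range (j + 1), Polynomial.X ^ i, -W, ?_⟩
  rw [← hfac, mul_neg, ← hW]
  ring

/-- If `1 + s + ... + s^(p-1) = 0` on `X` then `(s - 1)^(p-1) X = p X`. -/
theorem h1_range_pow_eq {X : Type*} [AddCommGroup X] (p : ℕ) [Fact p.Prime]
    (s : Module.End ℤ X) (hN : ∑ i ∈ Finset.range p, s ^ i = 0) :
    LinearMap.range ((s - 1) ^ (p - 1)) = LinearMap.range ((p : ℤ) • (1 : Module.End ℤ X)) := by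
  obtain ⟨V, hV⟩ := h1_cyclo_id1 p
  obtain ⟨U, W, hU⟩ := h1_cyclo_id2 p
  have e1 : (s - 1) ^ (p - 1) = (p : ℤ) • Polynomial.aeval s V := by
    have h := congrArg (Polynomial.aeval s) hV
    simp only [map_sub, map_pow, map_one, Polynomial.aeval_X, map_add, map_sum, map_mul,
      Polynomial.aeval_C, hN, zero_add] at h
    rw [h, Algebra.algebraMap_eq_smul_one, smul_mul_assoc, one_mul]
  have e2 : (p : ℤ) • (1 : Module.End ℤ X) = (s - 1) ^ (p - 1) * Polynomial.aeval s U := by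
    have h := congrArg (Polynomial.aeval s) hU
    simp only [map_sub, map_pow, map_one, Polynomial.aeval_X, map_add, map_sum, map_mul,
      Polynomial.aeval_C, hN, zero_mul, add_zero] at h
    rw [← h, Algebra.algebraMap_eq_smul_one]
  apply le_antisymm
  · rintro _ ⟨x, rfl⟩
    refine ⟨Polynomial.aeval s V x, ?_⟩
    rw [e1]
    simp
  · rintro _ ⟨x, rfl⟩
    refine ⟨Polynomial.aeval s U x, ?_⟩
    rw [e2]
    simp

end Fermat.Agent.S14
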