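import Mathlib.GroupTheory.Index
import Mathlib.Tactic.Ring

/-! P18 (S14) block H1, slice (d): index bookkeeping. -/

set_option autoImplicit false

namespace Fermat.Agent.S14

/-- Index formula for a homomorphism: `[A : B] = [f A : f B] · [ker f : ker f ∩ B]`. -/
theorem h1_index_eq_mul {A A' : Type*} [AddCommGroup A] [AddCommGroup A'] (f : A →+ A')
    (B : AddSubgroup A) :
    B.index = (B.map f).relIndex f.range * (B.addSubgroupOf f.ker).index := by
  have h1 : (B.map f).relIndex f.range = (B ⊔ f.ker).index := by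
    rw [AddMonoidHom.range_eq_map, AddSubgroup.relIndex_map_map, top_sup_eq,
      AddSubgroup.relIndex_top_right]
  have h2 : (B.addSubgroupOf f.ker).index = B.relIndex (B ⊔ f.ker) := by
    rw [sup_comm, AddSubgroup.relIndex_sup_right]; rfl
  rw [h1, h2, mul_comm]
  exact (AddSubgroup.relIndex_mul_index le_sup_left).symm

/-- The cardinality of `ker f ∩ B` as a subgroup of `ker f`. -/
theorem h1_idx_card_addSubgroupOf {A : Type*} [AddCommGroup A] (K B : AddSubgroup A) :
    Nat.card ↥(B.addSubgroupOf K) = Nat.card ↥(K ⊓ B) := by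
  rw [← AddSubgroup.inf_addSubgroupOf_left]
  exact Nat.card_congr (AddSubgroup.addSubgroupOfEquivOfLe inf_le_left).toEquiv

/-- Invariance of the "Euler characteristic" `[A : f A] / |ker f|` of an endomorphism under
passage to a stable subgroup of finite index. -/
theorem h1_eulerChar_of_finiteIndex {A : Type*} [AddCommGroup A] (f : A →+ A)
    (B : AddSubgroup A) (hB : B.index ≠ 0) (hfB : ∀ x ∈ B, f x ∈ B)
    (hker : Nat.card ↥(f.ker ⊓ B) ≠ 0) (hcok : (B.map f).relIndex B ≠ 0) :
    Nat.card ↥f.ker ≠ 0 ∧ f.range.index ≠ 0 ∧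
      Nat.card ↥f.ker * (B.map f).relIndex B = Nat.card ↥(f.ker ⊓ B) * f.range.index := by
  have hmain := h1_index_eq_mul f B
  have hle : B.map f ≤ B := by
    rintro _ ⟨x, hx, rfl⟩
    exact hfB x hx
  have hle' : B.map f ≤ f.range := AddSubgroup.map_le_range f B
  have hk : Nat.card ↥(f.ker ⊓ B) * (B.addSubgroupOf f.ker).index = Nat.card ↥f.ker := by
    rw [← h1_idx_card_addSubgroupOf]
    exact AddSubgroup.card_mul_index _
  have e1 := AddSubgroup.relIndex_mul_index hle
  have e2 := AddSubgroup.relIndex_mul_index hle'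
  set r := (B.map f).relIndex f.range with hr
  set i := (B.addSubgroupOf f.ker).index with hi
  set c := (B.map f).relIndex B with hc
  have hr0 : r ≠ 0 := by
    rintro h
    rw [h, zero_mul] at hmain
    exact hB hmain
  have hi0 : i ≠ 0 := by
    rintro h
    rw [h, mul_zero] at hmain
    exact hB hmain
  have hci : c * i = f.range.index := by
    have : r * (c * i) = r * f.range.index := by
      rw [e2, ← e1, hmain]; ring
    exact Nat.eq_of_mul_eq_mul_left (Nat.pos_of_ne_zero hr0) this
  refine ⟨?_, ?_, ?_⟩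
  · rw [← hk]
    exact mul_ne_zero hker hi0
  · rw [← hci]
    exact mul_ne_zero hcok hi0
  · rw [← hk, ← hci]; ring

end Fermat.Agent.S14
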