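import Mathlib
import Fermat.Agent.S14.H1Index

/-! P18 (S14) block H1, slice (d): finitely generated abelian groups. -/

set_option autoImplicit false

namespace Fermat.Agent.S14

/-- The range of `n • 1` as an additive subgroup is the range of `nsmulAddMonoidHom n`. -/
theorem h1_free_range_eq (X : Type*) [AddCommGroup X] (n : ℕ) :
    (LinearMap.range ((n : ℤ) • (1 : Module.End ℤ X))).toAddSubgroup
      = (nsmulAddMonoidHom (α := X) n).range := by
  ext x
  simp [LinearMap.mem_range, AddMonoidHom.mem_range]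

/-- A module killed by a nonzero integer is torsion. -/
theorem h1_free_isTorsion_of_smul {Q : Type*} [AddCommGroup Q] (n : ℕ) (hn : 0 < n)
    (h : ∀ q : Q, (n : ℤ) • q = 0) : Module.IsTorsion ℤ Q := by
  intro q
  refine ⟨⟨(n : ℤ), ?_⟩, h q⟩
  exact mem_nonZeroDivisors_of_ne_zero (by exact_mod_cast hn.ne')

/-- `X / n X` is finite for a finitely generated abelian group. -/
theorem h1_free_index_smul_ne_zero (X : Type*) [AddCommGroup X] [Module.Finite ℤ X] (n : ℕ)
    (hn : 0 < n) :
    (LinearMap.range ((n : ℤ) • (1 : Module.End ℤ X))).toAddSubgroup.index ≠ 0 := by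
  set R : Submodule ℤ X := LinearMap.range ((n : ℤ) • (1 : Module.End ℤ X)) with hR
  have htor : Module.IsTorsion ℤ (X ⧸ R) := by
    apply h1_free_isTorsion_of_smul n hn
    intro q
    obtain ⟨x, rfl⟩ := Submodule.Quotient.mk_surjective R q
    rw [← Submodule.Quotient.mk_smul, Submodule.Quotient.mk_eq_zero]
    exact ⟨x, by simp⟩
  have hfin : Finite (X ⧸ R) := Module.finite_of_fg_torsion _ htor
  have hfin' : Finite (X ⧸ R.toAddSubgroup) := hfin
  exact AddSubgroup.index_ne_zero_of_finite

/-- A finitely generated abelian group has a torsion-free subgroup `n X` of finite index. -/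
theorem h1_exists_torsionFree_smul (X : Type*) [AddCommGroup X] [Module.Finite ℤ X] :
    ∃ n : ℕ, 0 < n ∧ (∀ (x : X) (k : ℤ), k ≠ 0 → k • ((n : ℤ) • x) = 0 → (n : ℤ) • x = 0) ∧
      (LinearMap.range ((n : ℤ) • (1 : Module.End ℤ X))).toAddSubgroup.index ≠ 0 := by
  have hT : Finite (Submodule.torsion ℤ X) :=
    Module.finite_of_fg_torsion _ (Submodule.torsion_isTorsion (R := ℤ) (M := X))
  refine ⟨Nat.card (Submodule.torsion ℤ X), Nat.card_pos, ?_, ?_⟩
  · intro x k hk hx
    have hpos : 0 < Nat.card (Submodule.torsion ℤ X) := Nat.card_pos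
    have hmem : x ∈ Submodule.torsion ℤ X := by
      rw [Submodule.mem_torsion_iff]
      refine ⟨⟨k * (Nat.card (Submodule.torsion ℤ X) : ℤ), ?_⟩, ?_⟩
      · exact mem_nonZeroDivisors_of_ne_zero
          (mul_ne_zero hk (by exact_mod_cast hpos.ne'))
      · change (k * (Nat.card (Submodule.torsion ℤ X) : ℤ)) • x = 0
        rw [mul_smul]; exact hx
    have h0 : Nat.card (Submodule.torsion ℤ X) • (⟨x, hmem⟩ : Submodule.torsion ℤ X) = 0 :=
      card_nsmul_eq_zero'
    have h1 := congrArg Subtype.val h0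
    simpa using h1
  · exact h1_free_index_smul_ne_zero X _ Nat.card_pos

/-- A submodule of finite index of a finitely generated abelian group has the same rank. -/
theorem h1_finrank_of_index_ne_zero {X : Type*} [AddCommGroup X] [Module.Finite ℤ X]
    (Y : Submodule ℤ X) (hY : Y.toAddSubgroup.index ≠ 0) :
    Module.finrank ℤ Y = Module.finrank ℤ X := by
  have hFI : Y.toAddSubgroup.FiniteIndex := ⟨hY⟩
  have hfin' : Finite (X ⧸ Y.toAddSubgroup) := AddSubgroup.finite_quotient_of_finiteIndex
  have hfin : Finite (X ⧸ Y) := hfin'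
  have htor : Module.IsTorsion ℤ (X ⧸ Y) := by
    apply h1_free_isTorsion_of_smul (Nat.card (X ⧸ Y)) Nat.card_pos
    intro q
    have : Nat.card (X ⧸ Y) • q = 0 := card_nsmul_eq_zero'
    rw [natCast_zsmul]; exact this
  have h0 : Module.finrank ℤ (X ⧸ Y) = 0 := Module.finrank_eq_zero_iff_isTorsion.mpr htor
  have := Y.finrank_quotient_add_finrank
  omega

/-- `[X : n X] = n ^ rank X` for a finitely generated torsion-free abelian group. -/
theorem h1_index_smul_of_torsionFree {X : Type*} [AddCommGroup X] [Module.Finite ℤ X]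
    (htf : ∀ (x : X) (k : ℤ), k ≠ 0 → k • x = 0 → x = 0) (n : ℕ) (hn : 0 < n) :
    (LinearMap.range ((n : ℤ) • (1 : Module.End ℤ X))).toAddSubgroup.index
      = n ^ Module.finrank ℤ X := by
  have _hn := hn
  have : Module.IsTorsionFree ℤ X := by
    apply Module.IsTorsionFree.of_smul_eq_zero
    intro r m hrm
    by_cases hr : r = 0
    · exact Or.inl hr
    · exact Or.inr (htf m r hr hrm)
  have : Module.Free ℤ X := Module.free_of_finite_type_torsion_free'
  rw [h1_free_range_eq]
  exact AddSubgroup.index_range_nsmul X n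

/-- `[X : n X] = n ^ rank X · |X[n]|` for a finitely generated abelian group. -/
theorem h1_index_smul {X : Type*} [AddCommGroup X] [Module.Finite ℤ X] (n : ℕ) (hn : 0 < n) :
    Nat.card (LinearMap.ker ((n : ℤ) • (1 : Module.End ℤ X))) ≠ 0 ∧
    (LinearMap.range ((n : ℤ) • (1 : Module.End ℤ X))).toAddSubgroup.index
      = n ^ Module.finrank ℤ X * Nat.card (LinearMap.ker ((n : ℤ) • (1 : Module.End ℤ X))) := by
  obtain ⟨n₀, hn₀, htf, hidx⟩ := h1_exists_torsionFree_smul X
  set Y : Submodule ℤ X := LinearMap.range ((n₀ : ℤ) • (1 : Module.End ℤ X)) with hY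
  set B : AddSubgroup X := Y.toAddSubgroup with hB
  set f : X →+ X := nsmulAddMonoidHom (α := X) n with hf
  -- `Y` is torsion-free, finite and free
  have hYtf : Module.IsTorsionFree ℤ Y := by
    apply Module.IsTorsionFree.of_smul_eq_zero
    intro r m hrm
    by_cases hr : r = 0
    · exact Or.inl hr
    · refine Or.inr ?_
      obtain ⟨y, hy⟩ := m.2
      have hy' : (n₀ : ℤ) • y = (m : X) := by simpa using hy
      have h1 : r • ((n₀ : ℤ) • y) = 0 := by
        rw [hy']; exact_mod_cast congrArg Subtype.val hrm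
      have h2 := htf y r hr h1
      exact Subtype.ext (by rw [← hy', h2]; rfl)
  have hYfree : Module.Free ℤ Y := Module.free_of_finite_type_torsion_free'
  have hYfree' : Module.Free ℤ ↥B.toIntSubmodule := hYfree
  have hYfin' : Module.Finite ℤ ↥B.toIntSubmodule := (inferInstance : Module.Finite ℤ Y)
  have hrel : (B.map f).relIndex B = n ^ Module.finrank ℤ X := by
    have h1 := AddSubgroup.relIndex_map_nsmul n B
    rw [h1, ← h1_finrank_of_index_ne_zero Y hidx]
    rfl
  have hkerB : f.ker ⊓ B = ⊥ := by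
    rw [eq_bot_iff]
    rintro x ⟨hx1, hx2⟩
    obtain ⟨y, hy⟩ := hx2
    have hy' : (n₀ : ℤ) • y = x := by simpa using hy
    have hx1' : n • x = 0 := by simpa [hf] using hx1
    have h1 : (n : ℤ) • ((n₀ : ℤ) • y) = 0 := by
      rw [hy', natCast_zsmul]; exact hx1'
    have h2 := htf y n (by exact_mod_cast hn.ne') h1
    rw [AddSubgroup.mem_bot, ← hy', h2]
  have hker : Nat.card ↥(f.ker ⊓ B) ≠ 0 := by
    rw [hkerB]; simp
  have hfB : ∀ x ∈ B, f x ∈ B := fun x hx => B.nsmul_mem hx n
  have hcok : (B.map f).relIndex B ≠ 0 := by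
    rw [hrel]; exact pow_ne_zero _ hn.ne'
  obtain ⟨e1, e2, e3⟩ := h1_eulerChar_of_finiteIndex f B hidx hfB hker hcok
  have hkc : Nat.card (LinearMap.ker ((n : ℤ) • (1 : Module.End ℤ X))) = Nat.card ↥f.ker := by
    apply Nat.card_congr
    apply Equiv.setCongr
    ext x
    simp [hf]
  have hrc : (LinearMap.range ((n : ℤ) • (1 : Module.End ℤ X))).toAddSubgroup = f.range :=
    h1_free_range_eq X n
  rw [hkc, hrc]
  refine ⟨e1, ?_⟩
  rw [hrel, hkerB] at e3
  simp only [AddSubgroup.card_bot, one_mul] at e3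
  rw [← e3, mul_comm]

end Fermat.Agent.S14
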