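import Mathlib
import Fermat.Agent.S14.H1Index
import Fermat.Agent.S14.H1Free
import Fermat.Agent.S14.H1CycloPoly

/-! P18 (S14) block H1, slice (d): index of `(s - 1) X` for a module over `ℤ[ζ_p]`. -/

set_option autoImplicit false

namespace Fermat.Agent.S14

/-- If `s x = x` then `(∑ s^i) x = p • x`. -/
theorem h1_cyc_sum_apply_of_fixed {X : Type*} [AddCommGroup X] (p : ℕ)
    (s : Module.End ℤ X) (x : X) (hx : s x = x) :
    (∑ i ∈ Finset.range p, s ^ i) x = (p : ℤ) • x := by
  have h : ∀ i : ℕ, (s ^ i) x = x := by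
    intro i
    induction i with
    | zero => simp
    | succ i ih => rw [pow_succ, Module.End.mul_apply, hx, ih]
  rw [LinearMap.sum_apply]
  simp [h]

/-- If `∑ s^i = 0` and `(s - 1) x = 0` then `p • x = 0`. -/
theorem h1_cyc_smul_eq_zero {X : Type*} [AddCommGroup X] (p : ℕ)
    (s : Module.End ℤ X) (hN : ∑ i ∈ Finset.range p, s ^ i = 0) (x : X)
    (hx : (s - 1) x = 0) : (p : ℤ) • x = 0 := by
  have hx' : s x = x := by
    have := hx
    rw [LinearMap.sub_apply, Module.End.one_apply, sub_eq_zero] at this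
    exact this
  rw [← h1_cyc_sum_apply_of_fixed p s x hx', hN, LinearMap.zero_apply]

/-- Index of `D^k X` for an injective endomorphism `D`. -/
theorem h1_cyc_index_range_pow {X : Type*} [AddCommGroup X] (D : Module.End ℤ X)
    (hD : Function.Injective D) (k : ℕ) :
    (LinearMap.range (D ^ k)).toAddSubgroup.index
      = (LinearMap.range D).toAddSubgroup.index ^ k := by
  induction k with
  | zero =>
    rw [pow_zero, pow_zero, Module.End.one_eq_id, LinearMap.range_id]
    simp
  | succ k ih =>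
    have h1 : (LinearMap.range (D ^ (k + 1))).toAddSubgroup
        = (LinearMap.range (D ^ k)).toAddSubgroup.map D.toAddMonoidHom := by
      ext y
      simp only [Submodule.mem_toAddSubgroup, LinearMap.mem_range, AddSubgroup.mem_map,
        LinearMap.toAddMonoidHom_coe, pow_succ', Module.End.mul_apply]
      constructor
      · rintro ⟨x, rfl⟩
        exact ⟨(D ^ k) x, ⟨x, rfl⟩, rfl⟩
      · rintro ⟨_, ⟨x, rfl⟩, rfl⟩
        exact ⟨x, rfl⟩
    have h2 : (LinearMap.range D).toAddSubgroup
        = (⊤ : AddSubgroup X).map D.toAddMonoidHom := by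
      ext y
      simp
    have hle : (LinearMap.range (D ^ (k + 1))).toAddSubgroup
        ≤ (LinearMap.range D).toAddSubgroup := by
      rw [h1, h2]
      exact AddSubgroup.map_mono le_top
    have h3 : (LinearMap.range (D ^ (k + 1))).toAddSubgroup.relIndex
        (LinearMap.range D).toAddSubgroup = (LinearMap.range (D ^ k)).toAddSubgroup.index := by
      rw [h1, h2, AddSubgroup.relIndex_map_map_of_injective _ _ hD,
        AddSubgroup.relIndex_top_right]
    rw [← AddSubgroup.relIndex_mul_index hle, h3, ih, ← pow_succ]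

/-- Torsion-free case: `[X : (s - 1) X] = p ^ c` when `1 + s + ... + s^(p-1) = 0` and
`rank X = c (p - 1)`. -/
theorem h1_index_cyclo_of_torsionFree {X : Type*} [AddCommGroup X] [Module.Finite ℤ X]
    (htf : ∀ (x : X) (k : ℤ), k ≠ 0 → k • x = 0 → x = 0) (p : ℕ) [Fact p.Prime]
    (s : Module.End ℤ X) (hN : ∑ i ∈ Finset.range p, s ^ i = 0) (c : ℕ)
    (hc : Module.finrank ℤ X = c * (p - 1)) :
    (LinearMap.range (s - 1)).toAddSubgroup.index = p ^ c := by
  have hp2 : 2 ≤ p := (Fact.out : p.Prime).two_le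
  have hD : Function.Injective ⇑(s - 1) := by
    rw [← LinearMap.ker_eq_bot, LinearMap.ker_eq_bot']
    intro x hx
    refine htf x (p : ℤ) ?_ (h1_cyc_smul_eq_zero p s hN x hx)
    exact_mod_cast (Fact.out : p.Prime).ne_zero
  have h1 := h1_cyc_index_range_pow (s - 1) hD (p - 1)
  rw [h1_range_pow_eq p s hN, h1_index_smul_of_torsionFree htf p (by omega), hc, pow_mul] at h1
  exact (Nat.pow_left_injective (n := p - 1) (by omega) h1).symm

/-- Index of the range of an endomorphism of a submodule, as a relative index. -/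
theorem h1_cyc_index_restrict {X : Type*} [AddCommGroup X] (B : Submodule ℤ X)
    (D : Module.End ℤ X) (DB : Module.End ℤ B) (h : ∀ x : B, (DB x : X) = D x) :
    (LinearMap.range DB).toAddSubgroup.index
      = (B.toAddSubgroup.map D.toAddMonoidHom).relIndex B.toAddSubgroup := by
  have h1 : (LinearMap.range DB).toAddSubgroup
      = (B.toAddSubgroup.map D.toAddMonoidHom).comap B.subtype.toAddMonoidHom := by
    ext y
    simp only [Submodule.mem_toAddSubgroup, LinearMap.mem_range, AddSubgroup.mem_comap,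
      AddSubgroup.mem_map, LinearMap.toAddMonoidHom_coe, Submodule.subtype_apply]
    constructor
    · rintro ⟨x, rfl⟩
      exact ⟨x, x.2, (h x).symm⟩
    · rintro ⟨x, hx, hxy⟩
      exact ⟨⟨x, hx⟩, Subtype.ext ((h ⟨x, hx⟩).trans hxy)⟩
  have h2 : B.subtype.toAddMonoidHom.range = B.toAddSubgroup := by
    ext y
    simp
  rw [h1, AddSubgroup.index_comap, h2]

/-- Powers of a restricted endomorphism. -/
theorem h1_cyc_restrict_pow_apply {X : Type*} [AddCommGroup X] (B : Submodule ℤ X)
    (s : Module.End ℤ X) (hs : ∀ x ∈ B, s x ∈ B) (i : ℕ) (x : B) :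
    (((s.restrict hs) ^ i) x : X) = (s ^ i) x := by
  induction i generalizing x with
  | zero => simp
  | succ i ih =>
    rw [pow_succ, Module.End.mul_apply, ih, pow_succ, Module.End.mul_apply,
      LinearMap.coe_restrict_apply]

/-- General case: `[X : (s - 1) X] = p ^ c · |ker (s - 1)|`. -/
theorem h1_index_cyclo {X : Type*} [AddCommGroup X] [Module.Finite ℤ X] (p : ℕ) [Fact p.Prime]
    (s : Module.End ℤ X) (hN : ∑ i ∈ Finset.range p, s ^ i = 0) (c : ℕ)
    (hc : Module.finrank ℤ X = c * (p - 1)) :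
    Nat.card (LinearMap.ker (s - 1)) ≠ 0 ∧
    (LinearMap.range (s - 1)).toAddSubgroup.index = p ^ c * Nat.card (LinearMap.ker (s - 1)) := by
  have hp0 : ((p : ℤ)) ≠ 0 := by exact_mod_cast (Fact.out : p.Prime).ne_zero
  obtain ⟨n, hn, htfn, hidx⟩ := h1_exists_torsionFree_smul X
  set B : Submodule ℤ X := LinearMap.range ((n : ℤ) • (1 : Module.End ℤ X)) with hBdef
  have hsB : ∀ x ∈ B, s x ∈ B := by
    rintro _ ⟨y, rfl⟩
    exact ⟨s y, by simp⟩
  have htfB : ∀ (x : B) (k : ℤ), k ≠ 0 → k • x = 0 → x = 0 := by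
    rintro ⟨_, y, rfl⟩ k hk hkx
    apply Subtype.ext
    have h0 : k • ((n : ℤ) • y) = 0 := by
      have := congrArg (Subtype.val) hkx
      simpa using this
    simpa using htfn y k hk h0
  have hNB : ∑ i ∈ Finset.range p, (s.restrict hsB) ^ i = 0 := by
    apply LinearMap.ext
    intro x
    apply Subtype.ext
    rw [LinearMap.sum_apply, LinearMap.zero_apply, Submodule.coe_zero, Submodule.coe_sum]
    simp only [h1_cyc_restrict_pow_apply]
    rw [← LinearMap.sum_apply, hN, LinearMap.zero_apply]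
  have hcB : Module.finrank ℤ B = c * (p - 1) := by
    rw [h1_finrank_of_index_ne_zero B hidx, hc]
  have hmain := h1_index_cyclo_of_torsionFree htfB p (s.restrict hsB) hNB c hcB
  have hDB : ∀ x : B, (((s.restrict hsB - 1) x : B) : X) = (s - 1) x := by
    intro x
    simp
  rw [h1_cyc_index_restrict B (s - 1) (s.restrict hsB - 1) hDB] at hmain
  have hfB : ∀ x ∈ B.toAddSubgroup, (s - 1).toAddMonoidHom x ∈ B.toAddSubgroup := by
    intro x hx
    have hx' : x ∈ B := hx
    show (s - 1) x ∈ B
    rw [LinearMap.sub_apply]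
    exact B.sub_mem (hsB x hx') (by simpa using hx')
  have hbot : (s - 1).toAddMonoidHom.ker ⊓ B.toAddSubgroup = ⊥ := by
    rw [eq_bot_iff]
    intro x hx
    obtain ⟨hx1, hx2⟩ := hx
    have hx1' : (s - 1) x = 0 := hx1
    have hx2' : x ∈ B := hx2
    have h0 := h1_cyc_smul_eq_zero p s hN x hx1'
    obtain ⟨y, rfl⟩ := hx2'
    have := htfn y p hp0 (by simpa using h0)
    simpa using this
  have hcard : Nat.card ↥((s - 1).toAddMonoidHom.ker ⊓ B.toAddSubgroup) = 1 := by
    rw [hbot]
    simp
  obtain ⟨h1, -, h3⟩ := h1_eulerChar_of_finiteIndex (s - 1).toAddMonoidHom B.toAddSubgroup hidx hfB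
    (by rw [hcard]; exact one_ne_zero)
    (by rw [hmain]; exact pow_ne_zero _ (Fact.out : p.Prime).ne_zero)
  have hk : Nat.card (LinearMap.ker (s - 1)) = Nat.card ↥(s - 1).toAddMonoidHom.ker :=
    Nat.card_congr (Equiv.subtypeEquivRight (fun x => by simp))
  have hr : (LinearMap.range (s - 1)).toAddSubgroup = (s - 1).toAddMonoidHom.range :=
    LinearMap.range_toAddSubgroup _
  rw [hk, hr]
  refine ⟨h1, ?_⟩
  rw [hmain, hcard, one_mul] at h3
  rw [← h3, mul_comm]

end Fermat.Agent.S14
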