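import Mathlib
import Fermat.Agent.S14.H1Index
import Fermat.Agent.S14.H1Free
import Fermat.Agent.S14.H1Cyclo

/-! P18 (S14) block H1, slice (d): the lattice lemma. -/

set_option autoImplicit false

namespace Fermat.Agent.S14

section

variable {Λ : Type*} [AddCommGroup Λ]

/-- Index of the range of an endomorphism of a submodule, as a relative index. -/
theorem h1_lat_index_range_restrict (K : Submodule ℤ Λ) (g : Module.End ℤ Λ)
    (g' : Module.End ℤ ↥K) (hg : ∀ x : ↥K, ((g' x : ↥K) : Λ) = g (x : Λ)) :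
    (LinearMap.range g').toAddSubgroup.index
      = (K.map g).toAddSubgroup.relIndex K.toAddSubgroup := by
  unfold AddSubgroup.relIndex
  congr 1
  ext y
  simp only [Submodule.mem_toAddSubgroup, LinearMap.mem_range]
  constructor
  · rintro ⟨x, rfl⟩
    exact ⟨x, x.2, (hg x).symm⟩
  · rintro ⟨x, hx, hxy⟩
    exact ⟨⟨x, hx⟩, Subtype.ext (by rw [hg]; exact hxy)⟩

/-- Cardinality of the kernel of an endomorphism of a submodule. -/
theorem h1_lat_card_ker_restrict (K : Submodule ℤ Λ) (g : Module.End ℤ Λ)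
    (g' : Module.End ℤ ↥K) (hg : ∀ x : ↥K, ((g' x : ↥K) : Λ) = g (x : Λ)) :
    Nat.card (LinearMap.ker g') = Nat.card ↥(LinearMap.ker g ⊓ K) := by
  apply Nat.card_congr
  refine ⟨fun x => ⟨x.1.1, ?_, x.1.2⟩, fun y => ⟨⟨y.1, y.2.2⟩, ?_⟩, ?_, ?_⟩
  · have h : g' x.1 = 0 := x.2
    change g (x.1 : Λ) = 0
    rw [← hg, h]
    rfl
  · have h : g (y : Λ) = 0 := y.2.1
    change g' ⟨y.1, y.2.2⟩ = 0
    apply Subtype.ext
    rw [hg]
    exact h
  · intro x
    rfl
  · intro y
    rfl

theorem h1_lat_N_mul_D (p : ℕ) (s : Module.End ℤ Λ) (hs : s ^ p = 1) :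
    (∑ i ∈ Finset.range p, s ^ i) * (s - 1) = 0 := by
  rw [geom_sum_mul, hs, sub_self]

theorem h1_lat_D_mul_N (p : ℕ) (s : Module.End ℤ Λ) (hs : s ^ p = 1) :
    (s - 1) * (∑ i ∈ Finset.range p, s ^ i) = 0 := by
  rw [mul_geom_sum, hs, sub_self]

theorem h1_lat_pow_apply_of_mem_ker (s : Module.End ℤ Λ) (x : Λ)
    (hx : x ∈ LinearMap.ker (s - 1)) (i : ℕ) : (s ^ i) x = x := by
  have h1 : s x = x := by
    have h := LinearMap.mem_ker.mp hx
    rw [LinearMap.sub_apply, Module.End.one_apply, sub_eq_zero] at h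
    exact h
  induction i with
  | zero => simp
  | succ i ih => rw [pow_succ, Module.End.mul_apply, h1, ih]

theorem h1_lat_N_apply_of_mem_ker (p : ℕ) (s : Module.End ℤ Λ) (x : Λ)
    (hx : x ∈ LinearMap.ker (s - 1)) :
    (∑ i ∈ Finset.range p, s ^ i) x = (p : ℤ) • x := by
  simp [LinearMap.sum_apply, h1_lat_pow_apply_of_mem_ker s x hx]

theorem h1_lat_smul_le_sup (p : ℕ) (s : Module.End ℤ Λ) (hs : s ^ p = 1) :
    LinearMap.range ((p : ℤ) • (1 : Module.End ℤ Λ))
      ≤ LinearMap.ker (s - 1) ⊔ LinearMap.ker (∑ i ∈ Finset.range p, s ^ i) := by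
  rintro _ ⟨x, rfl⟩
  have hNx : (∑ i ∈ Finset.range p, s ^ i) x ∈ LinearMap.ker (s - 1) := by
    rw [LinearMap.mem_ker, ← Module.End.mul_apply, h1_lat_D_mul_N p s hs]
    rfl
  have h2 : (p : ℤ) • x - (∑ i ∈ Finset.range p, s ^ i) x
      ∈ LinearMap.ker (∑ i ∈ Finset.range p, s ^ i) := by
    rw [LinearMap.mem_ker, map_sub, map_zsmul, h1_lat_N_apply_of_mem_ker p s _ hNx, sub_self]
  have h3 : ((p : ℤ) • (1 : Module.End ℤ Λ)) x
      = (∑ i ∈ Finset.range p, s ^ i) x + ((p : ℤ) • x - (∑ i ∈ Finset.range p, s ^ i) x) := by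
    rw [LinearMap.smul_apply, Module.End.one_apply]
    abel
  rw [h3]
  exact Submodule.add_mem_sup hNx h2

/-- The image of `ker D ⊔ ker N` under `N` is `p • ker D`. -/
theorem h1_lat_map_N (p : ℕ) (s : Module.End ℤ Λ) :
    (LinearMap.ker (s - 1) ⊔ LinearMap.ker (∑ i ∈ Finset.range p, s ^ i)).map
        (∑ i ∈ Finset.range p, s ^ i)
      = (LinearMap.ker (s - 1)).map ((p : ℤ) • (1 : Module.End ℤ Λ)) := by
  rw [Submodule.map_sup, LinearMap.le_ker_iff_map.mp le_rfl, sup_bot_eq]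
  ext y
  simp only [Submodule.mem_map]
  constructor
  · rintro ⟨x, hx, rfl⟩
    exact ⟨x, hx, by rw [h1_lat_N_apply_of_mem_ker p s x hx]; rfl⟩
  · rintro ⟨x, hx, rfl⟩
    exact ⟨x, hx, by rw [h1_lat_N_apply_of_mem_ker p s x hx]; rfl⟩

/-- The image of `ker D ⊔ ker N` under `D` is `D (ker N)`. -/
theorem h1_lat_map_D (p : ℕ) (s : Module.End ℤ Λ) :
    (LinearMap.ker (s - 1) ⊔ LinearMap.ker (∑ i ∈ Finset.range p, s ^ i)).map (s - 1)
      = (LinearMap.ker (∑ i ∈ Finset.range p, s ^ i)).map (s - 1) := by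
  rw [Submodule.map_sup, LinearMap.le_ker_iff_map.mp le_rfl, bot_sup_eq]

/-- `ker D ∩ ker N` is the `p`-torsion of `ker D`. -/
theorem h1_lat_inf_eq (p : ℕ) (s : Module.End ℤ Λ) :
    LinearMap.ker (s - 1) ⊓ LinearMap.ker (∑ i ∈ Finset.range p, s ^ i)
      = LinearMap.ker ((p : ℤ) • (1 : Module.End ℤ Λ)) ⊓ LinearMap.ker (s - 1) := by
  ext x
  simp only [Submodule.mem_inf]
  constructor
  · rintro ⟨hx, hN⟩
    refine ⟨?_, hx⟩
    rw [LinearMap.mem_ker] at hN ⊢
    rw [h1_lat_N_apply_of_mem_ker p s x hx] at hN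
    exact hN
  · rintro ⟨hN, hx⟩
    refine ⟨hx, ?_⟩
    rw [LinearMap.mem_ker] at hN ⊢
    rw [h1_lat_N_apply_of_mem_ker p s x hx]
    exact hN

/-- Index formula when the kernel is contained in the subgroup. -/
theorem h1_lat_index_eq_relIndex_map {A : Type*} [AddCommGroup A] (f : A →+ A)
    (B : AddSubgroup A) (h : f.ker ≤ B) : B.index = (B.map f).relIndex f.range := by
  have h1 := h1_index_eq_mul f B
  have h2 : (B.addSubgroupOf f.ker).index = 1 := AddSubgroup.relIndex_eq_one.mpr h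
  rw [h2, mul_one] at h1
  exact h1

end

/-- **Lattice lemma** (Herbrand quotient of a finitely generated abelian group with an
automorphism of prime order, from ranks only). -/
theorem h1_lattice {Λ : Type*} [AddCommGroup Λ] [Module.Finite ℤ Λ] (p : ℕ) [Fact p.Prime]
    (s : Module.End ℤ Λ) (hs : s ^ p = 1) (a b : ℕ)
    (ha : Module.finrank ℤ (LinearMap.ker (s - 1)) = a)
    (hb : Module.finrank ℤ Λ = a + b * (p - 1)) :
    (LinearMap.range (s - 1)).toAddSubgroup.relIndex
        (LinearMap.ker (∑ i ∈ Finset.range p, s ^ i)).toAddSubgroup ≠ 0 ∧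
    (LinearMap.range (∑ i ∈ Finset.range p, s ^ i)).toAddSubgroup.relIndex
        (LinearMap.ker (s - 1)).toAddSubgroup ≠ 0 ∧
    (LinearMap.range (s - 1)).toAddSubgroup.relIndex
        (LinearMap.ker (∑ i ∈ Finset.range p, s ^ i)).toAddSubgroup * p ^ a
      = p ^ b * (LinearMap.range (∑ i ∈ Finset.range p, s ^ i)).toAddSubgroup.relIndex
        (LinearMap.ker (s - 1)).toAddSubgroup := by
  have hp : p.Prime := Fact.out
  have hND : (∑ i ∈ Finset.range p, s ^ i) * (s - 1) = 0 := h1_lat_N_mul_D p s hs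
  have hDN : (s - 1) * (∑ i ∈ Finset.range p, s ^ i) = 0 := h1_lat_D_mul_N p s hs
  have hcomm : (∑ i ∈ Finset.range p, s ^ i) * s = s * (∑ i ∈ Finset.range p, s ^ i) := by
    rw [Finset.sum_mul, Finset.mul_sum]
    refine Finset.sum_congr rfl fun i _ => ?_
    rw [← pow_succ, ← pow_succ']
  generalize hD : s - 1 = D at *
  generalize hN : ∑ i ∈ Finset.range p, s ^ i = N at *
  have hrN : LinearMap.range N ≤ LinearMap.ker D := by
    rintro _ ⟨x, rfl⟩
    rw [LinearMap.mem_ker, ← Module.End.mul_apply, hDN]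
    rfl
  have hrD : LinearMap.range D ≤ LinearMap.ker N := by
    rintro _ ⟨x, rfl⟩
    rw [LinearMap.mem_ker, ← Module.End.mul_apply, hND]
    rfl
  have hmapN : (LinearMap.ker D ⊔ LinearMap.ker N).map N
      = (LinearMap.ker D).map ((p : ℤ) • (1 : Module.End ℤ Λ)) := by
    rw [← hD, ← hN]
    exact h1_lat_map_N p s
  have hmapD : (LinearMap.ker D ⊔ LinearMap.ker N).map D = (LinearMap.ker N).map D := by
    rw [← hD, ← hN]
    exact h1_lat_map_D p s
  have hinf : LinearMap.ker D ⊓ LinearMap.ker N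
      = LinearMap.ker ((p : ℤ) • (1 : Module.End ℤ Λ)) ⊓ LinearMap.ker D := by
    rw [← hD, ← hN]
    exact h1_lat_inf_eq p s
  have hle : LinearMap.range ((p : ℤ) • (1 : Module.End ℤ Λ))
      ≤ LinearMap.ker D ⊔ LinearMap.ker N := by
    rw [← hD, ← hN]
    exact h1_lat_smul_le_sup p s hs
  generalize hB : (LinearMap.ker D ⊔ LinearMap.ker N).toAddSubgroup = B at *
  have hBm : B.index ≠ 0 := by
    have h1 := h1_index_smul (X := Λ) p hp.pos
    have h2 : (LinearMap.range ((p : ℤ) • (1 : Module.End ℤ Λ))).toAddSubgroup.index ≠ 0 := by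
      rw [h1.2]
      exact mul_ne_zero (pow_ne_zero _ hp.ne_zero) h1.1
    have h3 : (LinearMap.range ((p : ℤ) • (1 : Module.End ℤ Λ))).toAddSubgroup ≤ B := by
      rw [← hB]
      exact hle
    exact fun h0 => h2 (Nat.eq_zero_of_zero_dvd (h0 ▸ AddSubgroup.index_dvd_of_le h3))
  -- the `N` side
  have hN1 : B.index = (B.map N.toAddMonoidHom).relIndex (LinearMap.range N).toAddSubgroup := by
    rw [LinearMap.range_toAddSubgroup]
    apply h1_lat_index_eq_relIndex_map
    rw [← LinearMap.ker_toAddSubgroup, ← hB]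
    exact (le_sup_right : LinearMap.ker N ≤ LinearMap.ker D ⊔ LinearMap.ker N)
  have hN2 : B.map N.toAddMonoidHom
      = ((LinearMap.ker D).map ((p : ℤ) • (1 : Module.End ℤ Λ))).toAddSubgroup := by
    rw [← hB, ← hmapN]
    rfl
  obtain ⟨ht, hN3⟩ := h1_index_smul (X := ↥(LinearMap.ker D)) p hp.pos
  have hcard : Nat.card ↥(LinearMap.ker D ⊓ LinearMap.ker N)
      = Nat.card (LinearMap.ker ((p : ℤ) • (1 : Module.End ℤ ↥(LinearMap.ker D)))) := by
    rw [h1_lat_card_ker_restrict (LinearMap.ker D) ((p : ℤ) • (1 : Module.End ℤ Λ)) _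
      (fun x => rfl), hinf]
  rw [ha, h1_lat_index_range_restrict (LinearMap.ker D) ((p : ℤ) • (1 : Module.End ℤ Λ)) _
    (fun x => rfl)] at hN3
  generalize Nat.card (LinearMap.ker ((p : ℤ) • (1 : Module.End ℤ ↥(LinearMap.ker D)))) = t at *
  have hN4 : (LinearMap.range N).toAddSubgroup.relIndex (LinearMap.ker D).toAddSubgroup * B.index
      = p ^ a * t := by
    rw [← hN3, hN1, hN2, mul_comm]
    apply AddSubgroup.relIndex_mul_relIndex
    · rw [← hmapN]
      exact LinearMap.map_le_range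
    · exact hrN
  have hrN0 : (LinearMap.range N).toAddSubgroup.relIndex (LinearMap.ker D).toAddSubgroup ≠ 0 := by
    intro h0
    rw [h0, zero_mul] at hN4
    exact (mul_ne_zero (pow_ne_zero _ hp.ne_zero) ht) hN4.symm
  -- ranks
  have hrankN : Module.finrank ℤ (LinearMap.range N) = a := by
    have h1 := h1_finrank_of_index_ne_zero (X := ↥(LinearMap.ker D))
      ((LinearMap.range N).comap (LinearMap.ker D).subtype) hrN0
    rw [ha] at h1
    rw [← h1]
    exact (Submodule.comapSubtypeEquivOfLe hrN).finrank_eq.symm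
  have hrankK : Module.finrank ℤ (LinearMap.ker N) = b * (p - 1) := by
    have h1 := Submodule.finrank_quotient_add_finrank (LinearMap.ker N)
    have h2 := (N.quotKerEquivRange).finrank_eq
    omega
  -- the `D` side
  have hD1 : B.index = (B.map D.toAddMonoidHom).relIndex (LinearMap.range D).toAddSubgroup := by
    rw [LinearMap.range_toAddSubgroup]
    apply h1_lat_index_eq_relIndex_map
    rw [← LinearMap.ker_toAddSubgroup, ← hB]
    exact (le_sup_left : LinearMap.ker D ≤ LinearMap.ker D ⊔ LinearMap.ker N)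
  have hD2 : B.map D.toAddMonoidHom = ((LinearMap.ker N).map D).toAddSubgroup := by
    rw [← hB, ← hmapD]
    rfl
  have hsK : ∀ x ∈ LinearMap.ker N, s x ∈ LinearMap.ker N := by
    intro x hx
    rw [LinearMap.mem_ker] at hx ⊢
    rw [← Module.End.mul_apply, hcomm, Module.End.mul_apply, hx, map_zero]
  have hs'pow : ∀ (i : ℕ) (x : ↥(LinearMap.ker N)),
      ((((s.restrict hsK) ^ i) x : ↥(LinearMap.ker N)) : Λ) = (s ^ i) (x : Λ) := by
    intro i
    induction i with
    | zero => intro x; rfl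
    | succ i ih =>
      intro x
      rw [pow_succ, pow_succ, Module.End.mul_apply, Module.End.mul_apply, ih]
      rfl
  have hN' : ∑ i ∈ Finset.range p, (s.restrict hsK) ^ i = 0 := by
    ext x
    rw [LinearMap.sum_apply]
    simp only [Submodule.coe_sum, hs'pow, LinearMap.zero_apply, ZeroMemClass.coe_zero]
    rw [← LinearMap.sum_apply, hN]
    exact x.2
  obtain ⟨ht', hD3⟩ := h1_index_cyclo (X := ↥(LinearMap.ker N)) p (s.restrict hsK) hN' b hrankK
  have hs'D : ∀ x : ↥(LinearMap.ker N),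
      ((((s.restrict hsK) - 1) x : ↥(LinearMap.ker N)) : Λ) = D (x : Λ) := by
    intro x
    rw [← hD]
    rfl
  rw [h1_lat_index_range_restrict (LinearMap.ker N) D ((s.restrict hsK) - 1) hs'D,
    h1_lat_card_ker_restrict (LinearMap.ker N) D ((s.restrict hsK) - 1) hs'D, hcard] at hD3
  have hD4 : (LinearMap.range D).toAddSubgroup.relIndex (LinearMap.ker N).toAddSubgroup * B.index
      = p ^ b * t := by
    rw [← hD3, hD1, hD2, mul_comm]
    apply AddSubgroup.relIndex_mul_relIndex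
    · rw [← hmapD]
      exact LinearMap.map_le_range
    · exact hrD
  have hrD0 : (LinearMap.range D).toAddSubgroup.relIndex (LinearMap.ker N).toAddSubgroup ≠ 0 := by
    intro h0
    rw [h0, zero_mul] at hD4
    exact (mul_ne_zero (pow_ne_zero _ hp.ne_zero) ht) hD4.symm
  refine ⟨hrD0, hrN0, ?_⟩
  have hmt : 0 < B.index * t := Nat.pos_of_ne_zero (mul_ne_zero hBm ht)
  apply Nat.eq_of_mul_eq_mul_right hmt
  calc (LinearMap.range D).toAddSubgroup.relIndex (LinearMap.ker N).toAddSubgroup * p ^ a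
        * (B.index * t)
      = ((LinearMap.range D).toAddSubgroup.relIndex (LinearMap.ker N).toAddSubgroup * B.index)
        * (p ^ a * t) := by ring
    _ = (p ^ b * t) * ((LinearMap.range N).toAddSubgroup.relIndex
          (LinearMap.ker D).toAddSubgroup * B.index) := by rw [hD4, hN4]
    _ = p ^ b * (LinearMap.range N).toAddSubgroup.relIndex (LinearMap.ker D).toAddSubgroup
        * (B.index * t) := by ring

end Fermat.Agent.S14
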