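import Mathlib
import Fermat.Agent.S14.H1UnitsDefs
import Fermat.Agent.S14.H1Free

/-! P18 (S14) block H1, slice (d3): ranks of finite-index subgroups of units and of their
`σ`-fixed parts. -/

set_option autoImplicit false

namespace Fermat.Agent.S14

open NumberField

/-- A subgroup of finite index of a commutative group whose additive version is a finitely
generated `ℤ`-module has the same rank. -/
theorem h1_uf_finrank_additive_subgroup {G : Type*} [CommGroup G] [Module.Finite ℤ (Additive G)]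
    (E : Subgroup G) (hE : E.index ≠ 0) :
    Module.finrank ℤ (Additive ↥E) = Module.finrank ℤ (Additive G) := by
  set Y : Submodule ℤ (Additive G) := AddSubgroup.toIntSubmodule (Subgroup.toAddSubgroup E)
    with hY
  have hidx : Y.toAddSubgroup.index ≠ 0 := by
    have h : Y.toAddSubgroup = Subgroup.toAddSubgroup E := by
      ext x
      rfl
    rw [h, Subgroup.index_toAddSubgroup]
    exact hE
  have h1 := h1_finrank_of_index_ne_zero Y hidx
  rw [← h1]
  let e : Additive ↥E ≃+ ↥Y :=
    { toFun := fun x => ⟨Additive.ofMul ((Additive.toMul x : ↥E) : G), (Additive.toMul x).2⟩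
      invFun := fun y => Additive.ofMul ⟨Additive.toMul (y : Additive G), y.2⟩
      left_inv := fun _ => rfl
      right_inv := fun _ => rfl
      map_add' := fun _ _ => rfl }
  exact LinearEquiv.finrank_eq e.toIntLinearEquiv

/-- Isomorphic commutative groups have the same rank. -/
theorem h1_uf_finrank_congr {G H : Type*} [CommGroup G] [CommGroup H] (e : G ≃* H) :
    Module.finrank ℤ (Additive G) = Module.finrank ℤ (Additive H) :=
  LinearEquiv.finrank_eq (MulEquiv.toAdditive e).toIntLinearEquiv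

section Incl

variable {F M : Type*} [Field F] [Field M] [Algebra F M]

/-- The inclusion of the unit group of `𝓞 F` into the unit group of `𝓞 M`. -/
noncomputable def h1_uf_incl (F M : Type*) [Field F] [Field M] [Algebra F M] : (𝓞 F)ˣ →* (𝓞 M)ˣ :=
  Units.map (algebraMap (𝓞 F) (𝓞 M) : 𝓞 F →* 𝓞 M)

theorem h1_uf_incl_coe (u : (𝓞 F)ˣ) :
    (((h1_uf_incl F M u : (𝓞 M)ˣ) : 𝓞 M) : M) = algebraMap F M ((u : 𝓞 F) : F) := rfl

theorem h1_uf_incl_injective : Function.Injective (h1_uf_incl F M) :=
  Units.map_injective (RingOfIntegers.algebraMap.injective F M)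

/-- Units in the image of `h1_uf_incl` are fixed by `σ`. -/
theorem h1_uf_unitAut_incl (σ : M ≃ₐ[F] M) (u : (𝓞 F)ˣ) :
    h1_unitAut σ (h1_uf_incl F M u) = h1_uf_incl F M u := by
  apply Units.ext
  apply RingOfIntegers.ext
  rw [h1_unitAut_coe_coe, h1_uf_incl_coe, AlgEquiv.commutes]

end Incl

section Units

variable {F M : Type*} [Field F] [NumberField F] [Field M] [NumberField M] [Algebra F M]

/-- A subgroup of finite index of the unit group has rank `#(infinite places) - 1`. -/
theorem h1_finrank_units_sub (E : Subgroup (𝓞 M)ˣ) (hE : E.index ≠ 0) :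
    Module.finrank ℤ (Additive ↥E) = Fintype.card (InfinitePlace M) - 1 := by
  rw [h1_uf_finrank_additive_subgroup E hE, NumberField.Units.finrank_eq, NumberField.Units.rank]

/-- If `σ ≠ 1` in a Galois group of prime order, an element fixed by `σ` lies in the base. -/
theorem h1_uf_mem_range_of_fixed (p : ℕ) [Fact p.Prime] [IsGalois F M]
    (hdeg : Module.finrank F M = p) (σ : M ≃ₐ[F] M) (hσ : σ ≠ 1) (x : M) (hx : σ x = x) :
    ∃ y : F, algebraMap F M y = x := by
  have hcard : Nat.card (M ≃ₐ[F] M) = p := by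
    rw [IsGalois.card_aut_eq_finrank, hdeg]
  have hfix : ∀ τ : M ≃ₐ[F] M, τ x = x := by
    intro τ
    have hτ : τ ∈ Subgroup.zpowers σ := mem_zpowers_of_prime_card hcard hσ
    have hstab : Subgroup.zpowers σ ≤ MulAction.stabilizer (M ≃ₐ[F] M) x := by
      rw [Subgroup.zpowers_le]
      exact hx
    exact hstab hτ
  exact (IsGalois.mem_range_algebraMap_iff_fixed x).mpr hfix

/-- An integer of `M` fixed by `σ` comes from an integer of `F`. -/
theorem h1_uf_exists_int_of_fixed (p : ℕ) [Fact p.Prime] [IsGalois F M]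
    (hdeg : Module.finrank F M = p) (σ : M ≃ₐ[F] M) (hσ : σ ≠ 1) (x : 𝓞 M)
    (hx : σ (x : M) = (x : M)) :
    ∃ y : 𝓞 F, algebraMap (𝓞 F) (𝓞 M) y = x := by
  obtain ⟨y, hy⟩ := h1_uf_mem_range_of_fixed p hdeg σ hσ (x : M) hx
  have hint : IsIntegral ℤ y := by
    rw [← isIntegral_algebraMap_iff (algebraMap F M).injective, hy]
    exact x.isIntegral_coe
  refine ⟨⟨y, hint⟩, ?_⟩
  apply RingOfIntegers.ext
  exact hy

/-- The kernel of `h1_unitDiff σ` is the image of the units of `𝓞 F`. -/
theorem h1_uf_ker_unitDiff (p : ℕ) [Fact p.Prime] [IsGalois F M]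
    (hdeg : Module.finrank F M = p) (σ : M ≃ₐ[F] M) (hσ : σ ≠ 1) :
    (h1_unitDiff σ).ker = (h1_uf_incl F M).range := by
  ext ε
  rw [MonoidHom.mem_ker, h1_unitDiff_apply, div_eq_one, MonoidHom.mem_range]
  constructor
  · intro h
    have h1 : σ ((ε : 𝓞 M) : M) = ((ε : 𝓞 M) : M) := by
      rw [← h1_unitAut_coe_coe, h]
    have h2 : σ (((ε⁻¹ : (𝓞 M)ˣ) : 𝓞 M) : M) = (((ε⁻¹ : (𝓞 M)ˣ) : 𝓞 M) : M) := by
      rw [← h1_unitAut_coe_coe, map_inv, h]
    obtain ⟨y, hy⟩ := h1_uf_exists_int_of_fixed p hdeg σ hσ (ε : 𝓞 M) h1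
    obtain ⟨z, hz⟩ := h1_uf_exists_int_of_fixed p hdeg σ hσ ((ε⁻¹ : (𝓞 M)ˣ) : 𝓞 M) h2
    have hyz : y * z = 1 := by
      apply RingOfIntegers.algebraMap.injective F M
      rw [map_mul, hy, hz, map_one, Units.mul_inv]
    have hzy : z * y = 1 := by rw [mul_comm, hyz]
    refine ⟨⟨y, z, hyz, hzy⟩, ?_⟩
    apply Units.ext
    exact hy
  · rintro ⟨u, rfl⟩
    exact h1_uf_unitAut_incl σ u

/-- The `σ`-fixed units in a subgroup `E` of finite index have rank `#(infinite places of F) - 1`
(`σ` a generator of the Galois group of prime order). -/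
theorem h1_finrank_fixed_units (p : ℕ) [Fact p.Prime] [IsGalois F M]
    (hdeg : Module.finrank F M = p) (σ : M ≃ₐ[F] M) (hσ : σ ≠ 1) (E : Subgroup (𝓞 M)ˣ)
    (hE : E.index ≠ 0) :
    Module.finrank ℤ (Additive ↥((h1_unitDiff σ).ker ⊓ E)) = Fintype.card (InfinitePlace F) - 1 := by
  have hker := h1_uf_ker_unitDiff p hdeg σ hσ
  have hidx : (E.comap (h1_uf_incl F M)).index ≠ 0 := by
    rw [Subgroup.index_comap]
    intro h
    exact hE (Subgroup.index_eq_zero_of_relIndex_eq_zero h)
  rw [← h1_finrank_units_sub (E.comap (h1_uf_incl F M)) hidx]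
  symm
  let f : ↥(E.comap (h1_uf_incl F M)) →* ↥((h1_unitDiff σ).ker ⊓ E) :=
    { toFun := fun u => ⟨h1_uf_incl F M u, by
        rw [hker]
        exact ⟨⟨u, rfl⟩, u.2⟩⟩
      map_one' := by
        apply Subtype.ext
        exact map_one _
      map_mul' := fun u v => by
        apply Subtype.ext
        exact map_mul _ _ _ }
  have hf : Function.Bijective f := by
    constructor
    · intro u v huv
      apply Subtype.ext
      apply h1_uf_incl_injective (F := F) (M := M)
      exact congrArg Subtype.val huv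
    · rintro ⟨ε, hε⟩
      have hε' := hε
      rw [hker] at hε'
      obtain ⟨⟨u, rfl⟩, hE'⟩ := hε'
      exact ⟨⟨u, hE'⟩, rfl⟩
  exact h1_uf_finrank_congr (MulEquiv.ofBijective f hf)

end Units

end Fermat.Agent.S14
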