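import Mathlib

/-! P18 (S14) block H1, slice (d): unit ranks of a degree-`p` extension of number fields
containing a primitive `p`-th root of unity. -/

set_option autoImplicit false

namespace Fermat.Agent.S14

open NumberField

section Units

/-- In a number field containing a primitive `k`-th root of unity, `k ≥ 3`, twice the number of
infinite places is the degree over `ℚ`. -/
theorem h1_ur_two_mul_card (K : Type*) [Field K] [NumberField K] (k : ℕ) (hk : 3 ≤ k)
    (ζ : K) (hζ : IsPrimitiveRoot ζ k) :
    2 * Fintype.card (InfinitePlace K) = Module.finrank ℚ K := by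
  have h0 : InfinitePlace.nrRealPlaces K = 0 := NumberField.InfinitePlace.IsPrimitiveRoot.nrRealPlaces_eq_zero_of_two_lt (by omega) hζ
  have h1 := InfinitePlace.card_add_two_mul_card_eq_rank K
  have h2 := InfinitePlace.card_eq_nrRealPlaces_add_nrComplexPlaces (K := K)
  rw [h0, zero_add] at h1 h2
  rw [h2, h1]

/-- Unit rank plus one is the number of infinite places. -/
theorem h1_ur_finrank_add_one (K : Type*) [Field K] [NumberField K] :
    Module.finrank ℤ (Additive (𝓞 K)ˣ) + 1 = Fintype.card (InfinitePlace K) := by
  rw [NumberField.Units.finrank_eq, NumberField.Units.rank]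
  have h : 0 < Fintype.card (InfinitePlace K) := Fintype.card_pos
  omega

variable {F M : Type*} [Field F] [NumberField F] [Field M] [NumberField M] [Algebra F M]

/-- A number field containing a primitive `p`-th root of unity, `p ≥ 3`, has no real place, and
the number of infinite places of a degree-`p` extension is `p` times that of the base. -/
theorem h1_card_infinitePlace (p : ℕ) [Fact p.Prime] (hp : 3 ≤ p)
    (hdeg : Module.finrank F M = p) (ζ : F) (hζ : IsPrimitiveRoot ζ p) :
    Fintype.card (InfinitePlace M) = p * Fintype.card (InfinitePlace F) := by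
  have hF := h1_ur_two_mul_card F p hp ζ hζ
  have hM := h1_ur_two_mul_card M p hp (algebraMap F M ζ)
    (hζ.map_of_injective (algebraMap F M).injective)
  have hmul : Module.finrank ℚ F * Module.finrank F M = Module.finrank ℚ M :=
    Module.finrank_mul_finrank ℚ F M
  rw [hdeg, ← hF, ← hM] at hmul
  have : 2 * Fintype.card (InfinitePlace M) = 2 * (p * Fintype.card (InfinitePlace F)) := by
    rw [← hmul]; ring
  exact Nat.eq_of_mul_eq_mul_left (by norm_num) this

/-- (U1) rank relation for the unit groups. -/
theorem h1_units_rank_rel (p : ℕ) [Fact p.Prime] (hp : 3 ≤ p)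
    (hdeg : Module.finrank F M = p) (ζ : F) (hζ : IsPrimitiveRoot ζ p) :
    Module.finrank ℤ (Additive (𝓞 M)ˣ) + 1 = p * (Module.finrank ℤ (Additive (𝓞 F)ˣ) + 1) := by
  rw [h1_ur_finrank_add_one M, h1_ur_finrank_add_one F]
  exact h1_card_infinitePlace p hp hdeg ζ hζ

end Units

end Fermat.Agent.S14
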