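import Mathlib
import Fermat.Agent.S14.H1UnitsDefs
import Fermat.Agent.S14.H1UnitsRank
import Fermat.Agent.S14.H1UnitsFix
import Fermat.Agent.S14.H1Lattice

/-! P18 (S14) block H1, slice (d3): Herbrand quotient of a finite-index stable subgroup of
units. -/

set_option autoImplicit false

namespace Fermat.Agent.S14

open NumberField

section General

variable {G : Type*} [CommGroup G]

/-- The endomorphism of `Additive E` induced by an endomorphism of `G` stabilising `E`. -/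
noncomputable def h1_uh_end (E : Subgroup G) (u : G →* G) (hEu : ∀ ε ∈ E, u ε ∈ E) :
    Module.End ℤ (Additive ↥E) :=
  (MonoidHom.toAdditive ((u.comp E.subtype).codRestrict E (fun x => hEu x x.2))).toIntLinearMap

theorem h1_uh_end_val (E : Subgroup G) (u : G →* G) (hEu : ∀ ε ∈ E, u ε ∈ E)
    (y : Additive ↥E) :
    ((Additive.toMul (h1_uh_end E u hEu y) : ↥E) : G) = u ((Additive.toMul y : ↥E) : G) := rfl

theorem h1_uh_val_sum (E : Subgroup G) {ι : Type*} (S : Finset ι) (f : ι → Additive ↥E) :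
    ((Additive.toMul (∑ i ∈ S, f i) : ↥E) : G) = ∏ i ∈ S, ((Additive.toMul (f i) : ↥E) : G) := by
  rw [toMul_sum]
  simp

theorem h1_uh_val_sub (E : Subgroup G) (x y : Additive ↥E) :
    ((Additive.toMul (x - y) : ↥E) : G)
      = ((Additive.toMul x : ↥E) : G) / ((Additive.toMul y : ↥E) : G) := rfl

theorem h1_uh_range_eq (E : Subgroup G) (T : Module.End ℤ (Additive ↥E)) (t : G →* G)
    (hT : ∀ y : Additive ↥E,
      ((Additive.toMul (T y) : ↥E) : G) = t ((Additive.toMul y : ↥E) : G)) :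
    (LinearMap.range T).toAddSubgroup = Subgroup.toAddSubgroup ((E.map t).subgroupOf E) := by
  ext y
  simp only [Submodule.mem_toAddSubgroup, LinearMap.mem_range, Additive.mem_toAddSubgroup,
    Subgroup.mem_subgroupOf, Subgroup.mem_map]
  constructor
  · rintro ⟨x, rfl⟩
    exact ⟨_, (Additive.toMul x).2, (hT x).symm⟩
  · rintro ⟨e, he, hey⟩
    refine ⟨Additive.ofMul ⟨e, he⟩, ?_⟩
    apply Additive.toMul.injective
    apply Subtype.ext
    rw [hT]
    exact hey

theorem h1_uh_ker_eq (E : Subgroup G) (T : Module.End ℤ (Additive ↥E)) (t : G →* G)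
    (hT : ∀ y : Additive ↥E,
      ((Additive.toMul (T y) : ↥E) : G) = t ((Additive.toMul y : ↥E) : G)) :
    (LinearMap.ker T).toAddSubgroup = Subgroup.toAddSubgroup ((t.ker ⊓ E).subgroupOf E) := by
  ext y
  simp only [Submodule.mem_toAddSubgroup, LinearMap.mem_ker, Additive.mem_toAddSubgroup,
    Subgroup.mem_subgroupOf, Subgroup.mem_inf, MonoidHom.mem_ker]
  constructor
  · intro h
    refine ⟨?_, (Additive.toMul y).2⟩
    rw [← hT, h]
    rfl
  · rintro ⟨h, -⟩
    apply Additive.toMul.injective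
    apply Subtype.ext
    rw [hT, h]
    rfl

theorem h1_uh_relIndex (E H K : Subgroup G) (hK : K ≤ E) :
    (Subgroup.toAddSubgroup (H.subgroupOf E)).relIndex (Subgroup.toAddSubgroup (K.subgroupOf E))
      = H.relIndex K := by
  rw [Subgroup.relIndex_toAddSubgroup, Subgroup.relIndex_subgroupOf hK]

theorem h1_uh_finrank_ker (E : Subgroup G) (T : Module.End ℤ (Additive ↥E)) (t : G →* G)
    (hT : ∀ y : Additive ↥E,
      ((Additive.toMul (T y) : ↥E) : G) = t ((Additive.toMul y : ↥E) : G)) :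
    Module.finrank ℤ ↥(LinearMap.ker T) = Module.finrank ℤ (Additive ↥(t.ker ⊓ E)) := by
  have hmem : ∀ y : Additive ↥E, y ∈ LinearMap.ker T ↔
      ((Additive.toMul y : ↥E) : G) ∈ t.ker ⊓ E := by
    intro y
    rw [← Submodule.mem_toAddSubgroup, h1_uh_ker_eq E T t hT, Additive.mem_toAddSubgroup,
      Subgroup.mem_subgroupOf]
  let e : ↥(LinearMap.ker T) ≃+ Additive ↥(t.ker ⊓ E) :=
    { toFun := fun y => Additive.ofMul ⟨((Additive.toMul y.1 : ↥E) : G), (hmem y.1).1 y.2⟩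
      invFun := fun z => ⟨Additive.ofMul ⟨((Additive.toMul z : ↥(t.ker ⊓ E)) : G),
        (Additive.toMul z).2.2⟩, (hmem _).2 (Additive.toMul z).2⟩
      left_inv := fun y => rfl
      right_inv := fun z => rfl
      map_add' := fun x y => rfl }
  exact LinearEquiv.finrank_eq e.toIntLinearEquiv

theorem h1_uh_pow_val (E : Subgroup G) (u : G ≃* G) (hEu : ∀ ε ∈ E, u ε ∈ E) (i : ℕ)
    (y : Additive ↥E) :
    ((Additive.toMul ((h1_uh_end E u.toMonoidHom hEu ^ i) y) : ↥E) : G)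
      = (u ^ i) ((Additive.toMul y : ↥E) : G) := by
  induction i with
  | zero => simp
  | succ i ih =>
    rw [pow_succ', pow_succ', Module.End.mul_apply, h1_uh_end_val, ih]
    rfl

/-- General form of the Herbrand quotient statement for a stable subgroup. -/
theorem h1_uh_general [Module.Finite ℤ (Additive G)] (p : ℕ) [Fact p.Prime] (u : G ≃* G)
    (hu : ∀ ε : G, (u ^ p) ε = ε) (D Nm : G →* G) (hD : ∀ ε : G, D ε = u ε / ε)
    (hNm : ∀ ε : G, Nm ε = ∏ i ∈ Finset.range p, (u ^ i) ε)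
    (E : Subgroup G) (hEu : ∀ ε ∈ E, u ε ∈ E) (a b : ℕ)
    (ha : Module.finrank ℤ (Additive ↥(D.ker ⊓ E)) = a)
    (hb : Module.finrank ℤ (Additive ↥E) = a + b * (p - 1)) :
    (E.map D).relIndex (Nm.ker ⊓ E) ≠ 0 ∧ (E.map Nm).relIndex (D.ker ⊓ E) ≠ 0 ∧
      (E.map D).relIndex (Nm.ker ⊓ E) * p ^ a = p ^ b * (E.map Nm).relIndex (D.ker ⊓ E) := by
  have : Module.Finite ℤ (Additive ↥E) :=
    Module.Finite.of_injective (MonoidHom.toAdditive E.subtype).toIntLinearMap
      (fun x y h => Subtype.ext h)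
  set s : Module.End ℤ (Additive ↥E) := h1_uh_end E u.toMonoidHom hEu with hsdef
  have hs : s ^ p = 1 := by
    apply LinearMap.ext
    intro y
    apply Additive.toMul.injective
    apply Subtype.ext
    rw [h1_uh_pow_val, hu]
    rfl
  have hTD : ∀ y : Additive ↥E,
      ((Additive.toMul ((s - 1) y) : ↥E) : G) = D ((Additive.toMul y : ↥E) : G) := by
    intro y
    rw [LinearMap.sub_apply, h1_uh_val_sub, hD]
    rfl
  have hTN : ∀ y : Additive ↥E,
      ((Additive.toMul ((∑ i ∈ Finset.range p, s ^ i) y) : ↥E) : G)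
        = Nm ((Additive.toMul y : ↥E) : G) := by
    intro y
    rw [LinearMap.sum_apply, h1_uh_val_sum, hNm]
    exact Finset.prod_congr rfl (fun i _ => h1_uh_pow_val E u hEu i y)
  have ha' : Module.finrank ℤ ↥(LinearMap.ker (s - 1)) = a := by
    rw [h1_uh_finrank_ker E (s - 1) D hTD, ha]
  have key := h1_lattice p s hs a b ha' hb
  rw [h1_uh_range_eq E (s - 1) D hTD, h1_uh_range_eq E _ Nm hTN, h1_uh_ker_eq E (s - 1) D hTD,
    h1_uh_ker_eq E _ Nm hTN, h1_uh_relIndex E _ _ inf_le_right,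
    h1_uh_relIndex E _ _ inf_le_right] at key
  exact key

end General

section Units

variable {F M : Type*} [Field F] [NumberField F] [Field M] [NumberField M] [Algebra F M]

theorem h1_uh_arith (p r : ℕ) (hp : 1 ≤ p) (hr : 1 ≤ r) :
    p * r - 1 = (r - 1) + r * (p - 1) := by
  obtain ⟨r', rfl⟩ : ∃ r', r = r' + 1 := ⟨r - 1, by omega⟩
  obtain ⟨p', rfl⟩ : ∃ p', p = p' + 1 := ⟨p - 1, by omega⟩
  simp only [Nat.add_sub_cancel]
  ring_nf
  omega

omit [NumberField F] [NumberField M] in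
theorem h1_uh_unitAut_pow_coe (σ : M ≃ₐ[F] M) (i : ℕ) (ε : (𝓞 M)ˣ) :
    ((((h1_unitAut σ ^ i) ε : (𝓞 M)ˣ) : 𝓞 M) : M) = (σ ^ i) ((ε : 𝓞 M) : M) := by
  induction i with
  | zero => simp
  | succ i ih =>
    rw [pow_succ', pow_succ', MulAut.mul_apply, h1_unitAut_coe_coe, ih]
    rfl

/-- **Herbrand quotient of units**: for a `σ`-stable subgroup `E` of finite index of the units
of `M`, `|H¹(E)| = p · |Ĥ⁰(E)|`. -/
theorem h1_units_herbrand (p : ℕ) [Fact p.Prime] (hp : 3 ≤ p) [IsGalois F M]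
    (hdeg : Module.finrank F M = p) (ζ : F) (hζ : IsPrimitiveRoot ζ p)
    (σ : M ≃ₐ[F] M) (hσ : σ ≠ 1) (E : Subgroup (𝓞 M)ˣ) (hE : E.index ≠ 0)
    (hEσ : ∀ ε ∈ E, h1_unitAut σ ε ∈ E) :
    (E.map (h1_unitNorm p σ)).relIndex ((h1_unitDiff σ).ker ⊓ E) ≠ 0 ∧
    (E.map (h1_unitDiff σ)).relIndex ((h1_unitNorm p σ).ker ⊓ E)
      = p * (E.map (h1_unitNorm p σ)).relIndex ((h1_unitDiff σ).ker ⊓ E) := by
  have hσp : σ ^ p = 1 := by
    rw [← hdeg, ← IsGalois.card_aut_eq_finrank]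
    exact pow_card_eq_one'
  have hu : ∀ ε : (𝓞 M)ˣ, (h1_unitAut σ ^ p) ε = ε := by
    intro ε
    have h := h1_uh_unitAut_pow_coe σ p ε
    rw [hσp] at h
    exact Units.ext (RingOfIntegers.ext h)
  set r := Fintype.card (InfinitePlace F) with hr
  have hr1 : 1 ≤ r := Fintype.card_pos
  have hp1 : 1 ≤ p := by omega
  have hM : Fintype.card (InfinitePlace M) = p * r := h1_card_infinitePlace p hp hdeg ζ hζ
  have ha : Module.finrank ℤ (Additive ↥((h1_unitDiff σ).ker ⊓ E)) = r - 1 :=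
    h1_finrank_fixed_units p hdeg σ hσ E hE
  have hb : Module.finrank ℤ (Additive ↥E) = (r - 1) + r * (p - 1) := by
    rw [h1_finrank_units_sub E hE, hM]
    exact h1_uh_arith p r hp1 hr1
  obtain ⟨h1, h2, h3⟩ := h1_uh_general p (h1_unitAut σ) hu (h1_unitDiff σ) (h1_unitNorm p σ)
    (h1_unitDiff_apply σ) (h1_unitNorm_apply p σ) E hEσ (r - 1) r ha hb
  refine ⟨h2, ?_⟩
  have hpos : 0 < p ^ (r - 1) := pow_pos (by omega) _
  have hpr : p ^ r = p ^ (r - 1) * p := by
    rw [← pow_succ]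
    congr 1
    omega
  rw [hpr, mul_comm _ (p ^ (r - 1)), mul_assoc] at h3
  exact Nat.eq_of_mul_eq_mul_left hpos h3

end Units

end Fermat.Agent.S14
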