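import Mathlib
import Fermat.Agent.S14.Defs
import Fermat.Agent.S14.H1Defs
import Fermat.Agent.S14.H1UnitsDefs
import Fermat.Agent.S14.H1BDefs
import Fermat.Agent.S14.H1AbsB
import Fermat.Agent.S14.H1HilbB
import Fermat.Agent.S14.H1Units
import Fermat.Agent.S14.H1GalB
import Fermat.Agent.S14.H1RayUnitsB
import Fermat.Agent.S14.H1RayFinB2
import Fermat.Agent.S14.H1DictB1
import Fermat.Agent.S14.H1DictB2b3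
import Fermat.Agent.S14.H1DictB22Core

/-!
# P18 (S14), block H1, route B: the first inequality

For a Galois extension `M/F` of number fields of prime degree `p ≥ 3` with `ζ_p ∈ F` and a
nonzero modulus `𝔪` of `F` prime to `p` outside of which `M/F` is unramified, there is an
integral ideal of `F` prime to `𝔪` which is not in `P_{𝔪,1} · N(I_M(𝔪))`.

The proof applies the abstract lemma `h1aB_abstract_units` to the ray `A = M_{𝔪,1}`, the group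
`J` of divisors of `M` prime to `𝔪` and the divisor map; the inputs are Hilbert 90 on the ray,
the finiteness of the ray class group, the Herbrand quotient of the ray units and the
dictionary between invariant divisors and ideals of `F`.
-/

set_option autoImplicit false

namespace Fermat.Agent.S14

open NumberField IsDedekindDomain
open scoped Pointwise

section Assembly

variable {F M : Type*} [Field F] [NumberField F] [Field M] [NumberField M] [Algebra F M]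

/-- The extended modulus is stable under the Galois group. -/
theorem h1bm_mod_stable (σ : M ≃ₐ[F] M) (𝔪 : Ideal (𝓞 F)) :
    ∀ a ∈ h1b_mod F M 𝔪, σ • a ∈ h1b_mod F M 𝔪 := by
  intro a ha
  have hfix : ∀ x : 𝓞 F, σ • algebraMap (𝓞 F) (𝓞 M) x = algebraMap (𝓞 F) (𝓞 M) x := by
    intro x
    apply RingOfIntegers.ext
    show σ (algebraMap F M (x : F)) = algebraMap F M (x : F)
    exact σ.commutes _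
  refine Submodule.span_induction (p := fun a _ => σ • a ∈ h1b_mod F M 𝔪) ?_ ?_ ?_ ?_ ha
  · rintro _ ⟨x, hx, rfl⟩
    rw [hfix]
    exact Ideal.mem_map_of_mem _ hx
  · rw [smul_zero]; exact Ideal.zero_mem _
  · intro x y _ _ hx hy
    rw [smul_add]; exact Ideal.add_mem _ hx hy
  · intro c x _ hx
    rw [smul_eq_mul, smul_mul']
    exact Ideal.mul_mem_left _ _ hx

theorem h1bm_rayElt_iff (𝔐 : Ideal (𝓞 M)) (x : M) : RayElt M 𝔐 x ↔ h1b_RayElt 𝔐 x := Iff.rfl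

theorem h1bm_ray_gal (σ : M ≃ₐ[F] M) (𝔪 : Ideal (𝓞 F)) (x : Mˣ)
    (hx : x ∈ h1b_ray (h1b_mod F M 𝔪)) : h1_gal σ x ∈ h1b_ray (h1b_mod F M 𝔪) :=
  h1b_ray_map σ (h1bm_mod_stable σ 𝔪) hx

variable (F M) in
/-- The ray `M_{𝔪,1}` as a group. -/
abbrev h1bm_A (𝔪 : Ideal (𝓞 F)) : Type _ := ↥(h1b_ray (h1b_mod F M 𝔪))

/-- The action of `σ` on the ray. -/
noncomputable def h1bm_sA (σ : M ≃ₐ[F] M) (𝔪 : Ideal (𝓞 F)) : h1bm_A F M 𝔪 →* h1bm_A F M 𝔪 :=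
  ((h1_gal σ).comp (Subgroup.subtype _)).codRestrict _ (fun a => h1bm_ray_gal σ 𝔪 a.1 a.2)

theorem h1bm_sA_coe (σ : M ≃ₐ[F] M) (𝔪 : Ideal (𝓞 F)) (a : h1bm_A F M 𝔪) :
    ((h1bm_sA σ 𝔪 a : h1bm_A F M 𝔪) : Mˣ) = h1_gal σ (a : Mˣ) := rfl

/-- The norm operator on the ray. -/
noncomputable def h1bm_NA (p : ℕ) (σ : M ≃ₐ[F] M) (𝔪 : Ideal (𝓞 F)) :
    h1bm_A F M 𝔪 →* h1bm_A F M 𝔪 :=
  ∏ i ∈ Finset.range p, h1bm_sA (σ ^ i) 𝔪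

/-- The operator `σ - 1` on the ray. -/
noncomputable def h1bm_DA (σ : M ≃ₐ[F] M) (𝔪 : Ideal (𝓞 F)) : h1bm_A F M 𝔪 →* h1bm_A F M 𝔪 :=
  h1bm_sA σ 𝔪 / MonoidHom.id _

/-- The divisor map on the ray. -/
noncomputable def h1bm_dvA (𝔪 : Ideal (𝓞 F)) :
    h1bm_A F M 𝔪 →* Multiplicative (h1b_W F M 𝔪 →₀ ℤ) :=
  (h1b_dv F M 𝔪).comp (Subgroup.subtype _)

/-- The operator `σ - 1` on divisors. -/
noncomputable def h1bm_DJ (σ : M ≃ₐ[F] M) (𝔪 : Ideal (𝓞 F)) :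
    Multiplicative (h1b_W F M 𝔪 →₀ ℤ) →* Multiplicative (h1b_W F M 𝔪 →₀ ℤ) :=
  h1b_sJ σ 𝔪 / MonoidHom.id _

theorem h1bm_NA_apply (p : ℕ) (σ : M ≃ₐ[F] M) (𝔪 : Ideal (𝓞 F)) (a : h1bm_A F M 𝔪) :
    h1bm_NA p σ 𝔪 a = ∏ i ∈ Finset.range p, h1bm_sA (σ ^ i) 𝔪 a := by
  simp [h1bm_NA]

theorem h1bm_nJ_apply' (p : ℕ) (σ : M ≃ₐ[F] M) (𝔪 : Ideal (𝓞 F))
    (d : Multiplicative (h1b_W F M 𝔪 →₀ ℤ)) :
    h1b_nJ p σ 𝔪 d = ∏ i ∈ Finset.range p, h1b_sJ (σ ^ i) 𝔪 d := by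
  simp [h1b_nJ]

theorem h1bm_sA_mul (σ τ : M ≃ₐ[F] M) (𝔪 : Ideal (𝓞 F)) (a : h1bm_A F M 𝔪) :
    h1bm_sA (σ * τ) 𝔪 a = h1bm_sA σ 𝔪 (h1bm_sA τ 𝔪 a) := by
  apply Subtype.ext
  apply Units.ext
  rfl

theorem h1bm_sA_one (𝔪 : Ideal (𝓞 F)) (a : h1bm_A F M 𝔪) :
    h1bm_sA (1 : M ≃ₐ[F] M) 𝔪 a = a := by
  apply Subtype.ext
  apply Units.ext
  rfl

theorem h1bm_prod_shift {G : Type*} [CommGroup G] (f : ℕ → G) (p : ℕ) (h : f p = f 0) :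
    ∏ i ∈ Finset.range p, f (i + 1) = ∏ i ∈ Finset.range p, f i := by
  have h1 := Finset.prod_range_succ' f p
  have h2 := Finset.prod_range_succ f p
  rw [h1, h] at h2
  exact mul_right_cancel h2

/-- `σ` fixes norms (on the ray). -/
theorem h1bm_sA_NA (p : ℕ) (σ : M ≃ₐ[F] M) (hσp : σ ^ p = 1) (𝔪 : Ideal (𝓞 F))
    (a : h1bm_A F M 𝔪) : h1bm_sA σ 𝔪 (h1bm_NA p σ 𝔪 a) = h1bm_NA p σ 𝔪 a := by
  rw [h1bm_NA_apply, map_prod]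
  have h1 : ∀ i, h1bm_sA σ 𝔪 (h1bm_sA (σ ^ i) 𝔪 a) = h1bm_sA (σ ^ (i + 1)) 𝔪 a := by
    intro i
    rw [← h1bm_sA_mul, pow_succ']
  simp only [h1]
  exact h1bm_prod_shift (fun i => h1bm_sA (σ ^ i) 𝔪 a) p (by simp only [hσp, pow_zero])

theorem h1bm_DA_apply (σ : M ≃ₐ[F] M) (𝔪 : Ideal (𝓞 F)) (a : h1bm_A F M 𝔪) :
    h1bm_DA σ 𝔪 a = h1bm_sA σ 𝔪 a / a := rfl

theorem h1bm_DJ_apply (σ : M ≃ₐ[F] M) (𝔪 : Ideal (𝓞 F))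
    (d : Multiplicative (h1b_W F M 𝔪 →₀ ℤ)) : h1bm_DJ σ 𝔪 d = h1b_sJ σ 𝔪 d / d := rfl

theorem h1bm_DA_NA (p : ℕ) (σ : M ≃ₐ[F] M) (hσp : σ ^ p = 1) (𝔪 : Ideal (𝓞 F))
    (a : h1bm_A F M 𝔪) : h1bm_DA σ 𝔪 (h1bm_NA p σ 𝔪 a) = 1 := by
  rw [h1bm_DA_apply, h1bm_sA_NA p σ hσp, div_self']

theorem h1bm_NJ_DJ (p : ℕ) (σ : M ≃ₐ[F] M) (hσp : σ ^ p = 1) (𝔪 : Ideal (𝓞 F))
    (d : Multiplicative (h1b_W F M 𝔪 →₀ ℤ)) : h1b_nJ p σ 𝔪 (h1bm_DJ σ 𝔪 d) = 1 := by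
  rw [h1bm_DJ_apply, map_div, div_eq_one, h1bm_nJ_apply', h1bm_nJ_apply']
  have h1 : ∀ i, h1b_sJ (σ ^ i) 𝔪 (h1b_sJ σ 𝔪 d) = h1b_sJ (σ ^ (i + 1)) 𝔪 d := by
    intro i
    rw [← h1b_sJ_mul, pow_succ]
  simp only [h1]
  exact h1bm_prod_shift (fun i => h1b_sJ (σ ^ i) 𝔪 d) p (by simp only [hσp, pow_zero])

theorem h1bm_dvA_sA (σ : M ≃ₐ[F] M) (𝔪 : Ideal (𝓞 F)) (a : h1bm_A F M 𝔪) :
    h1bm_dvA 𝔪 (h1bm_sA σ 𝔪 a) = h1b_sJ σ 𝔪 (h1bm_dvA 𝔪 a) :=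
  h1b_dv_gal σ 𝔪 (a : Mˣ)

theorem h1bm_dvA_NA (p : ℕ) (σ : M ≃ₐ[F] M) (𝔪 : Ideal (𝓞 F)) (a : h1bm_A F M 𝔪) :
    h1bm_dvA 𝔪 (h1bm_NA p σ 𝔪 a) = h1b_nJ p σ 𝔪 (h1bm_dvA 𝔪 a) := by
  rw [h1bm_NA_apply, map_prod, h1bm_nJ_apply']
  exact Finset.prod_congr rfl (fun i _ => h1bm_dvA_sA (σ ^ i) 𝔪 a)

theorem h1bm_dvA_DA (σ : M ≃ₐ[F] M) (𝔪 : Ideal (𝓞 F)) (a : h1bm_A F M 𝔪) :
    h1bm_dvA 𝔪 (h1bm_DA σ 𝔪 a) = h1bm_DJ σ 𝔪 (h1bm_dvA 𝔪 a) := by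
  rw [h1bm_DA_apply, map_div, h1bm_dvA_sA, h1bm_DJ_apply]

/-- The coordinates of the norm on the ray. -/
theorem h1bm_NA_coe (p : ℕ) (σ : M ≃ₐ[F] M) (𝔪 : Ideal (𝓞 F)) (a : h1bm_A F M 𝔪) :
    (((h1bm_NA p σ 𝔪 a : h1bm_A F M 𝔪) : Mˣ) : M)
      = ∏ i ∈ Finset.range p, (σ ^ i) (((a : h1bm_A F M 𝔪) : Mˣ) : M) := by
  rw [h1bm_NA_apply, SubmonoidClass.coe_finsetProd, Units.coe_prod]
  rfl

theorem h1bm_isCoprime_mod (p : ℕ) (𝔪 : Ideal (𝓞 F))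
    (hp𝔪 : IsCoprime 𝔪 (Ideal.span {(p : 𝓞 F)})) :
    IsCoprime (Ideal.span {((p : ℕ) : 𝓞 M)}) (h1b_mod F M 𝔪) := by
  rw [Ideal.isCoprime_iff_sup_eq] at hp𝔪 ⊢
  have h := congrArg (Ideal.map (algebraMap (𝓞 F) (𝓞 M))) hp𝔪
  rw [Ideal.map_sup, Ideal.map_top, Ideal.map_span, Set.image_singleton, map_natCast] at h
  rw [sup_comm]
  exact h

/-- `H¹` of the ray vanishes. -/
theorem h1bm_H1 (p : ℕ) [Fact p.Prime] [IsGalois F M] (hdeg : Module.finrank F M = p)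
    (σ : M ≃ₐ[F] M) (hσ : σ ≠ 1) (𝔪 : Ideal (𝓞 F))
    (hp𝔪 : IsCoprime 𝔪 (Ideal.span {(p : 𝓞 F)})) (a : h1bm_A F M 𝔪)
    (ha : h1bm_NA p σ 𝔪 a = 1) : ∃ b, a = h1bm_DA σ 𝔪 b := by
  have hN : ∏ i ∈ Finset.range p, (σ ^ i) (((a : h1bm_A F M 𝔪) : Mˣ) : M) = 1 := by
    rw [← h1bm_NA_coe, ha]; rfl
  obtain ⟨y, hy0, hy, hxy⟩ := h1b_hilbert90_ray p F M hdeg σ hσ (h1b_mod F M 𝔪)
    (h1bm_mod_stable σ 𝔪) (h1bm_isCoprime_mod p 𝔪 hp𝔪) (((a : h1bm_A F M 𝔪) : Mˣ) : M) a.2 hN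
  refine ⟨⟨Units.mk0 y hy0, hy⟩, ?_⟩
  apply Subtype.ext
  apply Units.ext
  show (((a : h1bm_A F M 𝔪) : Mˣ) : M)
    = ((h1_gal σ (Units.mk0 y hy0) / Units.mk0 y hy0 : Mˣ) : M)
  rw [Units.val_div_eq_div_val]
  exact hxy

theorem h1bm_range_dvA (𝔪 : Ideal (𝓞 F)) :
    (h1bm_dvA (M := M) 𝔪).range = (h1b_ray (h1b_mod F M 𝔪)).map (h1b_dv F M 𝔪) := by
  rw [h1bm_dvA, MonoidHom.range_comp, Subgroup.range_subtype]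

/-- The inclusion of the units of `𝓞 M` into `Mˣ`. -/
noncomputable def h1bm_iota : (𝓞 M)ˣ →* Mˣ := Units.map (algebraMap (𝓞 M) M : 𝓞 M →* M)

theorem h1bm_iota_injective : Function.Injective (h1bm_iota (M := M)) :=
  Units.map_injective (FaithfulSMul.algebraMap_injective (𝓞 M) M)

theorem h1bm_iota_unitAut (σ : M ≃ₐ[F] M) (ε : (𝓞 M)ˣ) :
    h1bm_iota (h1_unitAut σ ε) = h1_gal σ (h1bm_iota ε) := by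
  apply Units.ext
  rfl

theorem h1bm_gal_mul (σ τ : M ≃ₐ[F] M) (x : Mˣ) :
    h1_gal (σ * τ) x = h1_gal σ (h1_gal τ x) := by
  apply Units.ext
  rfl

theorem h1bm_iota_unitAut_pow (σ : M ≃ₐ[F] M) (i : ℕ) (ε : (𝓞 M)ˣ) :
    h1bm_iota (((h1_unitAut σ) ^ i) ε) = h1_gal (σ ^ i) (h1bm_iota ε) := by
  induction i generalizing ε with
  | zero =>
    apply Units.ext
    rfl
  | succ i ih =>
    rw [pow_succ, pow_succ, h1bm_gal_mul, ← h1bm_iota_unitAut, ← ih]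
    rfl

/-- The inclusion of the ray units into the ray. -/
noncomputable def h1bm_j (𝔪 : Ideal (𝓞 F)) :
    ↥(h1b_E (h1b_mod F M 𝔪)) →* h1bm_A F M 𝔪 :=
  ((h1bm_iota (M := M)).comp (Subgroup.subtype _)).codRestrict _
    (fun ε => h1b_unit_mem_ray _ ε.1 ε.2)

theorem h1bm_j_coe (𝔪 : Ideal (𝓞 F)) (ε : ↥(h1b_E (h1b_mod F M 𝔪))) :
    ((h1bm_j 𝔪 ε : h1bm_A F M 𝔪) : Mˣ) = h1bm_iota (ε : (𝓞 M)ˣ) := rfl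

theorem h1bm_j_injective (𝔪 : Ideal (𝓞 F)) : Function.Injective (h1bm_j (F := F) (M := M) 𝔪) := by
  intro ε ε' h
  apply Subtype.ext
  apply h1bm_iota_injective
  rw [← h1bm_j_coe, ← h1bm_j_coe, h]

theorem h1bm_j_range (𝔪 : Ideal (𝓞 F)) :
    (h1bm_j (F := F) (M := M) 𝔪).range = (h1bm_dvA 𝔪).ker := by
  ext a
  rw [MonoidHom.mem_range, MonoidHom.mem_ker]
  constructor
  · rintro ⟨ε, rfl⟩
    exact h1b_dv_unit F M 𝔪 (ε : (𝓞 M)ˣ)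
  · intro ha
    obtain ⟨ε, hε, hεa⟩ := h1b_ray_ker_dv F M 𝔪 (a : Mˣ) a.2 ha
    exact ⟨⟨ε, hε⟩, Subtype.ext hεa⟩

theorem h1bm_E_pow_stable (σ : M ≃ₐ[F] M) (𝔪 : Ideal (𝓞 F)) (i : ℕ) (ε : (𝓞 M)ˣ)
    (hε : ε ∈ h1b_E (h1b_mod F M 𝔪)) : ((h1_unitAut σ) ^ i) ε ∈ h1b_E (h1b_mod F M 𝔪) := by
  induction i generalizing ε with
  | zero => exact hε
  | succ i ih =>
    rw [pow_succ]
    exact ih _ (h1b_E_stable σ _ (h1bm_mod_stable σ 𝔪) ε hε)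

theorem h1bm_jN (p : ℕ) (σ : M ≃ₐ[F] M) (𝔪 : Ideal (𝓞 F)) (ε : ↥(h1b_E (h1b_mod F M 𝔪))) :
    ∃ h : h1_unitNorm p σ (ε : (𝓞 M)ˣ) ∈ h1b_E (h1b_mod F M 𝔪),
      h1bm_j 𝔪 ⟨h1_unitNorm p σ (ε : (𝓞 M)ˣ), h⟩ = h1bm_NA p σ 𝔪 (h1bm_j 𝔪 ε) := by
  have hmem : h1_unitNorm p σ (ε : (𝓞 M)ˣ) ∈ h1b_E (h1b_mod F M 𝔪) := by
    rw [h1_unitNorm_apply]
    exact Subgroup.prod_mem _ (fun i _ => h1bm_E_pow_stable σ 𝔪 i _ ε.2)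
  refine ⟨hmem, ?_⟩
  apply Subtype.ext
  rw [h1bm_j_coe, h1bm_NA_apply, SubmonoidClass.coe_finsetProd]
  show h1bm_iota (h1_unitNorm p σ (ε : (𝓞 M)ˣ)) = _
  rw [h1_unitNorm_apply, map_prod]
  refine Finset.prod_congr rfl (fun i _ => ?_)
  rw [h1bm_iota_unitAut_pow]
  rfl

theorem h1bm_jD (σ : M ≃ₐ[F] M) (𝔪 : Ideal (𝓞 F)) (ε : ↥(h1b_E (h1b_mod F M 𝔪))) :
    ∃ h : h1_unitDiff σ (ε : (𝓞 M)ˣ) ∈ h1b_E (h1b_mod F M 𝔪),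
      h1bm_j 𝔪 ⟨h1_unitDiff σ (ε : (𝓞 M)ˣ), h⟩ = h1bm_DA σ 𝔪 (h1bm_j 𝔪 ε) := by
  have hmem : h1_unitDiff σ (ε : (𝓞 M)ˣ) ∈ h1b_E (h1b_mod F M 𝔪) := by
    rw [h1_unitDiff_apply]
    exact Subgroup.div_mem _ (h1b_E_stable σ _ (h1bm_mod_stable σ 𝔪) _ ε.2) ε.2
  refine ⟨hmem, ?_⟩
  apply Subtype.ext
  rw [h1bm_j_coe, h1bm_DA_apply]
  show h1bm_iota (h1_unitDiff σ (ε : (𝓞 M)ˣ)) = h1_gal σ (h1bm_iota (ε : (𝓞 M)ˣ)) / h1bm_iota (ε : (𝓞 M)ˣ)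
  rw [h1_unitDiff_apply, map_div, h1bm_iota_unitAut]

end Assembly

/-- **First inequality (route B).** -/
theorem first_inequality_B (p : ℕ) [Fact p.Prime] (hp : 3 ≤ p)
    (F M : Type*) [Field F] [NumberField F] [Field M] [NumberField M] [Algebra F M] [IsGalois F M]
    (hdeg : Module.finrank F M = p) (ζ : F) (hζ : IsPrimitiveRoot ζ p)
    (𝔪 : Ideal (𝓞 F)) (h𝔪0 : 𝔪 ≠ ⊥) (_h𝔪 : 𝔪.IsRadical)
    (hp𝔪 : IsCoprime 𝔪 (Ideal.span {(p : 𝓞 F)}))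
    (hunr : UnramifiedOutside F M 𝔪) :
    ∃ 𝔞 : Ideal (𝓞 F), 𝔞 ≠ ⊥ ∧ IsCoprime 𝔞 𝔪 ∧ ¬ RayNormRel F M 𝔪 𝔞 ⊤ := by
  have hcard : Nat.card (M ≃ₐ[F] M) = p := by rw [IsGalois.card_aut_eq_finrank, hdeg]
  have hnt : Nontrivial (M ≃ₐ[F] M) := by
    rw [← Finite.one_lt_card_iff_nontrivial, hcard]; omega
  obtain ⟨σ, hσ⟩ := exists_ne (1 : M ≃ₐ[F] M)
  have hσp : σ ^ p = 1 := by rw [← hcard]; exact pow_card_eq_one'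
  have h𝔐0 : h1b_mod F M 𝔪 ≠ ⊥ := by
    intro h
    apply h𝔪0
    rw [Ideal.map_eq_bot_iff_of_injective (FaithfulSMul.algebraMap_injective (𝓞 F) (𝓞 M))] at h
    exact h
  obtain ⟨hq0, hq⟩ := h1_units_herbrand p hp hdeg ζ hζ σ hσ (h1b_E (h1b_mod F M 𝔪))
    (h1b_E_index_ne_zero _ h𝔐0) (h1b_E_stable σ _ (h1bm_mod_stable σ 𝔪))
  have hq1 : ((h1b_E (h1b_mod F M 𝔪)).map (h1_unitNorm p σ)).relIndex
      ((h1_unitDiff σ).ker ⊓ h1b_E (h1b_mod F M 𝔪))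
      < ((h1b_E (h1b_mod F M 𝔪)).map (h1_unitDiff σ)).relIndex
        ((h1_unitNorm p σ).ker ⊓ h1b_E (h1b_mod F M 𝔪)) := by
    rw [hq]
    have h1 := Nat.pos_of_ne_zero hq0
    nlinarith
  obtain ⟨x, hx, hnot⟩ := h1aB_abstract_units (h1bm_NA p σ 𝔪) (h1bm_DA σ 𝔪) (h1b_nJ p σ 𝔪)
    (h1bm_DJ σ 𝔪) (h1bm_dvA 𝔪) (h1bm_dvA_NA p σ 𝔪) (h1bm_dvA_DA σ 𝔪) (h1bm_DA_NA p σ hσp 𝔪)
    (h1bm_NJ_DJ p σ hσp 𝔪) (h1bm_H1 p hdeg σ hσ 𝔪 hp𝔪)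
    (by rw [h1bm_range_dvA]; exact h1b_index_ne_zero_2 F M 𝔪 h𝔪0)
    (h1_unitNorm p σ) (h1_unitDiff σ) (h1b_E (h1b_mod F M 𝔪)) (h1bm_j 𝔪) (h1bm_j_injective 𝔪)
    (h1bm_j_range 𝔪) (h1bm_jN p σ 𝔪) (h1bm_jD σ 𝔪) hq0 hq1
  -- the invariant divisor
  have hxinv : ∀ w, Multiplicative.toAdd x (h1b_perm σ 𝔪 w) = Multiplicative.toAdd x w := by
    intro w
    have h1 := h1b_sJ_apply σ 𝔪 x w
    have h2 : h1b_sJ σ 𝔪 x = x := by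
      have := hx
      rw [h1bm_DJ_apply, div_eq_one] at this
      exact this
    rw [h2] at h1
    exact h1
  obtain ⟨𝔞, 𝔟, h𝔞0, h𝔟0, h𝔞c, h𝔟c, hd⟩ :=
    h1b_exists_ideals F M p hdeg σ hσ 𝔪 h𝔪0 (Multiplicative.toAdd x) hxinv
  by_cases h1 : RayNormRel F M 𝔪 𝔞 ⊤
  · refine ⟨𝔟, h𝔟0, h𝔟c, fun h2 => ?_⟩
    obtain ⟨x₁, y₁, hx₁, hx₁σ, he₁⟩ := h1be22_rel_mem_core F M p σ 𝔪 hunr 𝔞 h𝔞0
      (fun w 𝔄 h𝔄 => h1b_cnt_relNorm_3 F M p hdeg σ hσ 𝔪 hunr w 𝔄 h𝔄) h1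
    obtain ⟨x₂, y₂, hx₂, hx₂σ, he₂⟩ := h1be22_rel_mem_core F M p σ 𝔪 hunr 𝔟 h𝔟0
      (fun w 𝔄 h𝔄 => h1b_cnt_relNorm_3 F M p hdeg σ hσ 𝔪 hunr w 𝔄 h𝔄) h2
    refine hnot ⟨x₁ / x₂, Subgroup.div_mem _ hx₁ hx₂⟩ (Multiplicative.ofAdd (y₁ - y₂)) ?_ ?_
    · rw [h1bm_DA_apply, div_eq_one]
      apply Subtype.ext
      show h1_gal σ (x₁ / x₂) = x₁ / x₂
      rw [map_div, hx₁σ, hx₂σ]
    · apply Multiplicative.toAdd.injective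
      ext w
      rw [toAdd_mul, Finsupp.add_apply, h1b_nJ_apply p σ hσp, hd w, he₁ w, he₂ w]
      show _ = h1_ord M w.1 (x₁ / x₂) + _
      rw [h1_ord_div]
      simp only [toAdd_ofAdd, Finsupp.sub_apply, Finset.sum_sub_distrib]
      ring
  · exact ⟨𝔞, h𝔞0, h𝔞c, h1⟩

end Fermat.Agent.S14
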