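import Mathlib
import Fermat.Agent.S14.Defs
import Fermat.Agent.S14.FirstIneqB

/-!
# P18 (S14), block H1: the first inequality (tame modulus)

`first_inequality` is `first_inequality_B` (route B, file `FirstIneqB.lean`) under the name used
by the other blocks (`SecondIneq.lean`, `Endgame.lean`).
-/

set_option autoImplicit false

namespace Fermat.Agent.S14

open NumberField
open scoped Pointwise

/-- (H1') first inequality with tame modulus. -/
theorem first_inequality (p : ℕ) [Fact p.Prime] (hp : 3 ≤ p)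
    (F M : Type*) [Field F] [NumberField F] [Field M] [NumberField M] [Algebra F M] [IsGalois F M]
    (hdeg : Module.finrank F M = p) (ζ : F) (hζ : IsPrimitiveRoot ζ p)
    (𝔪 : Ideal (𝓞 F)) (h𝔪0 : 𝔪 ≠ ⊥) (h𝔪 : 𝔪.IsRadical)
    (hp𝔪 : IsCoprime 𝔪 (Ideal.span {(p : 𝓞 F)}))
    (hunr : UnramifiedOutside F M 𝔪) :
    ∃ 𝔞 : Ideal (𝓞 F), 𝔞 ≠ ⊥ ∧ IsCoprime 𝔞 𝔪 ∧ ¬ RayNormRel F M 𝔪 𝔞 ⊤ :=
  first_inequality_B p hp F M hdeg ζ hζ 𝔪 h𝔪0 h𝔪 hp𝔪 hunr

end Fermat.Agent.S14
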