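import Mathlib

/-!
# P18 (S14), block H2: shared definitions for the second inequality (Kummer counting)

For a number field `F`, a prime number `p`, primes `v : HeightOneSpectrum (𝓞 F)`:

* `h2U F S`      : the `S`-units of `F`, as a subgroup of `Fˣ`;
* `h2Dv F p v n` : the elements of `Fˣ` which are, at `v`, a `p`-th power times a `v`-unit
                   congruent to `1` modulo `v ^ n` ("local `p`-th powers at `v` to precision `n`");
* `h2D F p S n`  : the intersection of the `h2Dv F p v (n v)` for `v ∈ S`.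
-/

set_option autoImplicit false

namespace Fermat.Agent.S14

open NumberField IsDedekindDomain

variable (F : Type*) [Field F] [NumberField F]

/-- The `S`-units of `F`: elements of `Fˣ` with trivial valuation at every prime outside `S`. -/
def h2U (S : Set (HeightOneSpectrum (𝓞 F))) : Subgroup Fˣ where
  carrier := {x | ∀ v : HeightOneSpectrum (𝓞 F), v ∉ S → v.valuation F (x : F) = 1}
  one_mem' := fun v _ => by simp
  mul_mem' := fun {a b} ha hb v hv => by
    simp only [Units.val_mul, map_mul, ha v hv, hb v hv, mul_one]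
  inv_mem' := fun {a} ha v hv => by
    simp only [Units.val_inv_eq_inv_val, map_inv₀, ha v hv, inv_one]

theorem mem_h2U {S : Set (HeightOneSpectrum (𝓞 F))} {x : Fˣ} :
    x ∈ h2U F S ↔ ∀ v : HeightOneSpectrum (𝓞 F), v ∉ S → v.valuation F (x : F) = 1 :=
  Iff.rfl

theorem h2U_mono {S S' : Set (HeightOneSpectrum (𝓞 F))} (h : S ⊆ S') : h2U F S ≤ h2U F S' :=
  fun _ hx v hv => hx v (fun hvS => hv (h hvS))

/-- Local `p`-th powers at `v` to precision `n`: `y = z ^ p * w` with `w` a `v`-unit and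
`w ≡ 1 mod v ^ n`. -/
def h2Dv (p : ℕ) (v : HeightOneSpectrum (𝓞 F)) (n : ℕ) : Subgroup Fˣ where
  carrier := {y | ∃ z : Fˣ, v.valuation F ((y : F) / (z : F) ^ p) = 1 ∧
    v.valuation F ((y : F) / (z : F) ^ p - 1) ≤ WithZero.exp (-(n : ℤ))}
  one_mem' := ⟨1, by simp, by simp⟩
  mul_mem' := by
    rintro a b ⟨z, hz1, hz2⟩ ⟨w, hw1, hw2⟩
    refine ⟨z * w, ?_, ?_⟩
    · have : ((a * b : Fˣ) : F) / ((z * w : Fˣ) : F) ^ p
          = ((a : F) / (z : F) ^ p) * ((b : F) / (w : F) ^ p) := by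
        push_cast; rw [mul_pow, mul_div_mul_comm]
      rw [this, map_mul, hz1, hw1, mul_one]
    · have : ((a * b : Fˣ) : F) / ((z * w : Fˣ) : F) ^ p - 1
          = ((a : F) / (z : F) ^ p - 1) * ((b : F) / (w : F) ^ p) + ((b : F) / (w : F) ^ p - 1) := by
        push_cast; field_simp; ring
      rw [this]
      refine (Valuation.map_add _ _ _).trans (max_le ?_ hw2)
      rw [map_mul, hw1, mul_one]
      exact hz2
  inv_mem' := by
    rintro a ⟨z, hz1, hz2⟩
    refine ⟨z⁻¹, ?_, ?_⟩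
    · have : ((a⁻¹ : Fˣ) : F) / ((z⁻¹ : Fˣ) : F) ^ p = ((a : F) / (z : F) ^ p)⁻¹ := by
        push_cast; rw [inv_pow, inv_div_inv, inv_div]
      rw [this, map_inv₀, hz1, inv_one]
    · have hne : (a : F) / (z : F) ^ p ≠ 0 := by
        have : (z : F) ^ p ≠ 0 := pow_ne_zero _ z.ne_zero
        exact div_ne_zero a.ne_zero this
      have : ((a⁻¹ : Fˣ) : F) / ((z⁻¹ : Fˣ) : F) ^ p - 1
          = -(((a : F) / (z : F) ^ p - 1) * ((a : F) / (z : F) ^ p)⁻¹) := by
        have h2 : ((a⁻¹ : Fˣ) : F) / ((z⁻¹ : Fˣ) : F) ^ p = ((a : F) / (z : F) ^ p)⁻¹ := by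
          push_cast; rw [inv_pow, inv_div_inv, inv_div]
        rw [h2]
        field_simp
        ring
      rw [this, Valuation.map_neg, map_mul, map_inv₀, hz1, inv_one, mul_one]
      exact hz2

theorem mem_h2Dv {p : ℕ} {v : HeightOneSpectrum (𝓞 F)} {n : ℕ} {y : Fˣ} :
    y ∈ h2Dv F p v n ↔ ∃ z : Fˣ, v.valuation F ((y : F) / (z : F) ^ p) = 1 ∧
      v.valuation F ((y : F) / (z : F) ^ p - 1) ≤ WithZero.exp (-(n : ℤ)) :=
  Iff.rfl

/-- `p`-th powers are local `p`-th powers. -/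
theorem pow_mem_h2Dv (p : ℕ) (v : HeightOneSpectrum (𝓞 F)) (n : ℕ) (z : Fˣ) :
    z ^ p ∈ h2Dv F p v n := by
  refine ⟨z, ?_, ?_⟩
  · have : ((z ^ p : Fˣ) : F) / (z : F) ^ p = 1 := by
      push_cast; exact div_self (pow_ne_zero _ z.ne_zero)
    rw [this, map_one]
  · have : ((z ^ p : Fˣ) : F) / (z : F) ^ p - 1 = 0 := by
      push_cast; rw [div_self (pow_ne_zero _ z.ne_zero), sub_self]
    rw [this, map_zero]; exact zero_le

/-- Elements which are locally `p`-th powers (to precision `n v`) at every `v ∈ S`. -/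
def h2D (p : ℕ) (S : Finset (HeightOneSpectrum (𝓞 F))) (n : HeightOneSpectrum (𝓞 F) → ℕ) :
    Subgroup Fˣ :=
  ⨅ v ∈ S, h2Dv F p v (n v)

theorem mem_h2D {p : ℕ} {S : Finset (HeightOneSpectrum (𝓞 F))}
    {n : HeightOneSpectrum (𝓞 F) → ℕ} {y : Fˣ} :
    y ∈ h2D F p S n ↔ ∀ v ∈ S, y ∈ h2Dv F p v (n v) := by
  simp [h2D, Subgroup.mem_iInf]

theorem pow_mem_h2D (p : ℕ) (S : Finset (HeightOneSpectrum (𝓞 F)))
    (n : HeightOneSpectrum (𝓞 F) → ℕ) (z : Fˣ) : z ^ p ∈ h2D F p S n :=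
  (mem_h2D F).2 fun v _ => pow_mem_h2Dv F p v (n v) z

/-- "`S` generates the class group of `F`", integral form: every nonzero ideal times an
`S`-supported integral ideal is principal. -/
def h2CG (S : Finset (HeightOneSpectrum (𝓞 F))) : Prop :=
  ∀ 𝔞 : Ideal (𝓞 F), 𝔞 ≠ ⊥ → ∃ (x : 𝓞 F) (𝔰 : Ideal (𝓞 F)), x ≠ 0 ∧
    (∀ v : HeightOneSpectrum (𝓞 F), 𝔰 ≤ v.asIdeal → v ∈ S) ∧ Ideal.span {x} = 𝔞 * 𝔰

/-- (T2): the `S`-units surject onto `∏_{v ∈ T} k_vˣ / p`: every `T`-unit becomes, after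
multiplication by an `S`-unit, a `p`-th power residue at every `v ∈ T`. -/
def h2T2 (p : ℕ) (S T : Finset (HeightOneSpectrum (𝓞 F))) : Prop :=
  ∀ y : Fˣ, (∀ v ∈ T, v.valuation F (y : F) = 1) →
    ∃ ε : Fˣ, ε ∈ h2U F (S : Set (HeightOneSpectrum (𝓞 F))) ∧ y * ε ∈ h2D F p T (fun _ => 1)

end Fermat.Agent.S14
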