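import Mathlib
import Fermat.Agent.S14.Defs
import Fermat.Agent.S14.H2Defs

/-!
# P18 (S14), block H2, slice [A6] (core): the auxiliary set `T`

`h2x_exists_T_core` constructs the auxiliary set `T` of primes of Step 4 of the second inequality
from the two inputs

* `hA4` : the auxiliary prime (slice [A4], `h2_exists_aux_prime`),
* `hA5` : the tame index bound (slice [A5], `h2_relIndex_unitsAt_le`),

taken as hypotheses.  The small group-theoretic lemmas on relative indices used in the induction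
are proved here (`h2x_relIndex_zpowers_sup`, `h2x_mul_relIndex_le`, `h2x_le_sup_of_relIndex_le`).
-/

set_option autoImplicit false

namespace Fermat.Agent.S14

open NumberField IsDedekindDomain

/-! ### Group theory: relative indices in a commutative group -/

section Group

variable {G : Type*} [CommGroup G]

/-- If `u ^ p ∈ P` then `P` has index at most `p` in `⟨u⟩ P`, relatively to any `K`. -/
theorem h2x_relIndex_zpowers_sup (P K : Subgroup G) (u : G) (p : ℕ) (hp : 0 < p)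
    (hu : u ^ p ∈ P) :
    P.relIndex K ≤ p * (Subgroup.zpowers u ⊔ P).relIndex K := by
  have hPQ : P ≤ Subgroup.zpowers u ⊔ P := le_sup_right
  have h1 : P.relIndex ((Subgroup.zpowers u ⊔ P) ⊓ K) * (Subgroup.zpowers u ⊔ P).relIndex K
      = (P ⊓ (Subgroup.zpowers u ⊔ P)).relIndex K := Subgroup.relIndex_inf_mul_relIndex _ _ _
  rw [inf_eq_left.mpr hPQ] at h1
  have h2 : P.relIndex (Subgroup.zpowers u ⊔ P) ∣ p := by
    rw [Subgroup.relIndex_sup_right]
    have hker : (QuotientGroup.mk' P).ker = P := QuotientGroup.ker_mk' P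
    have h3 : P.relIndex (Subgroup.zpowers u)
        = Nat.card ((Subgroup.zpowers u).map (QuotientGroup.mk' P)) := by
      conv_lhs => rw [← hker]
      exact Subgroup.relIndex_ker _ (QuotientGroup.mk' P)
    rw [h3, MonoidHom.map_zpowers, Nat.card_zpowers]
    apply orderOf_dvd_of_pow_eq_one
    rw [← map_pow]
    exact (QuotientGroup.eq_one_iff _).mpr hu
  have h20 : P.relIndex (Subgroup.zpowers u ⊔ P) ≠ 0 := ne_zero_of_dvd_ne_zero hp.ne' h2
  have h3 : P.relIndex ((Subgroup.zpowers u ⊔ P) ⊓ K) ≤ P.relIndex (Subgroup.zpowers u ⊔ P) :=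
    Subgroup.relIndex_le_of_le_right inf_le_left h20
  calc P.relIndex K
      = P.relIndex ((Subgroup.zpowers u ⊔ P) ⊓ K) * (Subgroup.zpowers u ⊔ P).relIndex K := h1.symm
    _ ≤ p * (Subgroup.zpowers u ⊔ P).relIndex K :=
        Nat.mul_le_mul_right _ (h3.trans (Nat.le_of_dvd hp h2))

/-- Adding a condition `H'` which fails for some `x ∈ K ⊓ H`, and which contains all `p`-th powers
of `K`, multiplies the relative index by at least `p`. -/
theorem h2x_mul_relIndex_le (H H' K : Subgroup G) (p : ℕ) [Fact p.Prime]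
    (h0 : (H ⊓ H').relIndex K ≠ 0) (x : G) (hxK : x ∈ K) (hxH : x ∈ H) (hxH' : x ∉ H')
    (hp : ∀ y ∈ K, y ^ p ∈ H') : p * H.relIndex K ≤ (H ⊓ H').relIndex K := by
  have h1 : H'.relIndex (H ⊓ K) * H.relIndex K = (H ⊓ H').relIndex K := by
    rw [inf_comm H H']
    exact Subgroup.relIndex_inf_mul_relIndex _ _ _
  have hm0 : H'.relIndex (H ⊓ K) ≠ 0 := by
    intro h
    rw [h, zero_mul] at h1
    exact h0 h1.symm
  have hker : (QuotientGroup.mk' H').ker = H' := QuotientGroup.ker_mk' H'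
  have hm : H'.relIndex (H ⊓ K) = Nat.card ((H ⊓ K).map (QuotientGroup.mk' H')) := by
    conv_lhs => rw [← hker]
    exact Subgroup.relIndex_ker _ (QuotientGroup.mk' H')
  have hfin : Finite ((H ⊓ K).map (QuotientGroup.mk' H')) :=
    Nat.finite_of_card_ne_zero (hm ▸ hm0)
  let g : (H ⊓ K).map (QuotientGroup.mk' H') :=
    ⟨QuotientGroup.mk' H' x, Subgroup.mem_map_of_mem _ ⟨hxH, hxK⟩⟩
  have hg1 : g ≠ 1 := by
    intro h
    apply hxH'
    have h2 : QuotientGroup.mk' H' x = 1 := congrArg Subtype.val h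
    exact (QuotientGroup.eq_one_iff x).mp h2
  have hgp : g ^ p = 1 := by
    apply Subtype.ext
    show QuotientGroup.mk' H' x ^ p = 1
    rw [← map_pow]
    exact (QuotientGroup.eq_one_iff _).mpr (hp x hxK)
  have hord : orderOf g = p := orderOf_eq_prime hgp hg1
  have hdvd : p ∣ H'.relIndex (H ⊓ K) := by
    rw [hm, ← hord]
    exact orderOf_dvd_natCard g
  calc p * H.relIndex K ≤ H'.relIndex (H ⊓ K) * H.relIndex K :=
        Nat.mul_le_mul_right _ (Nat.le_of_dvd (Nat.pos_of_ne_zero hm0) hdvd)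
    _ = (H ⊓ H').relIndex K := h1

/-- If `K ≤ L` have the same (finite) index relative to `H`, then `L ≤ K H`. -/
theorem h2x_le_sup_of_relIndex_le (K L H : Subgroup G) (hKL : K ≤ L) (h0 : H.relIndex L ≠ 0)
    (h : H.relIndex L ≤ H.relIndex K) : L ≤ K ⊔ H := by
  have h1 : H.relIndex (K ⊔ H) * (K ⊔ H).relIndex (L ⊔ H) = H.relIndex (L ⊔ H) :=
    Subgroup.relIndex_mul_relIndex _ _ _ le_sup_right (sup_le_sup_right hKL H)
  rw [Subgroup.relIndex_sup_right, Subgroup.relIndex_sup_right] at h1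
  have h2 : (K ⊔ H).relIndex (L ⊔ H) = 1 := by
    have hK0 : 0 < H.relIndex K := Nat.pos_of_ne_zero (by
      intro hh
      rw [hh, zero_mul] at h1
      exact h0 h1.symm)
    have hr0 : 0 < (K ⊔ H).relIndex (L ⊔ H) := Nat.pos_of_ne_zero (by
      intro hh
      rw [hh, mul_zero] at h1
      exact h0 h1.symm)
    have hle : H.relIndex K * (K ⊔ H).relIndex (L ⊔ H) ≤ H.relIndex K * 1 := by
      rw [h1, mul_one]
      exact h
    have := Nat.le_of_mul_le_mul_left hle hK0
    omega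
  exact le_sup_left.trans (Subgroup.relIndex_eq_one.mp h2)

end Group

/-! ### The sets `D_T` and `V_T` -/

section Sets

variable (F : Type*) [Field F] [NumberField F]

theorem h2x_h2D_empty (p : ℕ) (n : HeightOneSpectrum (𝓞 F) → ℕ) : h2D F p ∅ n = ⊤ := by
  rw [eq_top_iff]
  intro y _
  rw [mem_h2D]
  intro v hv
  exact absurd hv (Finset.notMem_empty v)

theorem h2x_h2D_cons (p : ℕ) (n : HeightOneSpectrum (𝓞 F) → ℕ)
    (T : Finset (HeightOneSpectrum (𝓞 F))) (v : HeightOneSpectrum (𝓞 F)) (hv : v ∉ T) :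
    h2D F p (Finset.cons v T hv) n = h2D F p T n ⊓ h2Dv F p v (n v) := by
  ext y
  rw [mem_h2D, Subgroup.mem_inf, mem_h2D, Finset.forall_mem_cons]
  exact and_comm

/-- The `S`-units are units at `T` when `T` is disjoint from `S`. -/
theorem h2x_h2U_le (S T : Finset (HeightOneSpectrum (𝓞 F))) (hTS : ∀ v ∈ T, v ∉ S) :
    h2U F (S : Set (HeightOneSpectrum (𝓞 F))) ≤
      h2U F ((T : Set (HeightOneSpectrum (𝓞 F)))ᶜ) := by
  intro x hx v hv
  have hvT : v ∈ T := by
    by_contra h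
    exact hv (by simpa using h)
  exact hx v (by simpa using hTS v hvT)

end Sets

/-! ### The induction -/

/-- [A6], core: the auxiliary set `T`, from the auxiliary prime `hA4` and the tame index bound
`hA5`. -/
theorem h2x_exists_T_core (p : ℕ) [Fact p.Prime]
    (F M : Type*) [Field F] [NumberField F] [Field M] [NumberField M] [Algebra F M]
    (S₀ : Finset (HeightOneSpectrum (𝓞 F))) (u : Fˣ)
    (hA4 : ∀ x : Fˣ, x ∉ Subgroup.zpowers u ⊔ (powMonoidHom p : Fˣ →* Fˣ).range → ∀ B : ℕ,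
      ∃ (v : HeightOneSpectrum (𝓞 F)) (𝔔 : Ideal (𝓞 M)), B < Ideal.absNorm v.asIdeal ∧
        𝔔.IsPrime ∧ Ideal.relNorm (𝓞 F) 𝔔 = v.asIdeal ∧ x ∉ h2Dv F p v 1)
    (hA5 : ∀ T : Finset (HeightOneSpectrum (𝓞 F)),
      (h2D F p T (fun _ => 1)).relIndex (h2U F ((T : Set (HeightOneSpectrum (𝓞 F)))ᶜ)) ≠ 0 ∧
        (h2D F p T (fun _ => 1)).relIndex (h2U F ((T : Set (HeightOneSpectrum (𝓞 F)))ᶜ)) ≤
          p ^ T.card)
    (heven : 2 ∣ Module.finrank ℚ F)
    (hcount : p ^ (Module.finrank ℚ F / 2 + S₀.card) ≤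
      (powMonoidHom p : Fˣ →* Fˣ).range.relIndex (h2U F (S₀ : Set (HeightOneSpectrum (𝓞 F))))) :
    ∃ T : Finset (HeightOneSpectrum (𝓞 F)),
      (∀ v ∈ T, v ∉ S₀) ∧
      (∀ v ∈ T, ∃ 𝔔 : Ideal (𝓞 M), 𝔔.IsPrime ∧ Ideal.relNorm (𝓞 F) 𝔔 = v.asIdeal) ∧
      T.card + 1 = Module.finrank ℚ F / 2 + S₀.card ∧
      h2T2 F p S₀ T := by
  have hp : p.Prime := Fact.out
  have hp0 : 0 < p := hp.pos
  -- the induction: sets `T` of size `k` with `p ^ k ≤ [U : U ∩ D_T]`
  have key : ∀ k : ℕ, k + 1 ≤ Module.finrank ℚ F / 2 + S₀.card →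
      ∃ T : Finset (HeightOneSpectrum (𝓞 F)), T.card = k ∧ (∀ v ∈ T, v ∉ S₀) ∧
        (∀ v ∈ T, ∃ 𝔔 : Ideal (𝓞 M), 𝔔.IsPrime ∧ Ideal.relNorm (𝓞 F) 𝔔 = v.asIdeal) ∧
        p ^ k ≤ (h2D F p T (fun _ => 1)).relIndex
          (h2U F (S₀ : Set (HeightOneSpectrum (𝓞 F)))) := by
    intro k
    induction k with
    | zero =>
      intro _
      refine ⟨∅, rfl, fun v hv => absurd hv (Finset.notMem_empty v),
        fun v hv => absurd hv (Finset.notMem_empty v), ?_⟩
      rw [h2x_h2D_empty, Subgroup.relIndex_top_left, pow_zero]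
    | succ k ih =>
      intro hk
      obtain ⟨T, hTk, hTS, hTsplit, hTidx⟩ := ih (by omega)
      have hUV := h2x_h2U_le F S₀ T hTS
      obtain ⟨h50, h5le⟩ := hA5 T
      rw [hTk] at h5le
      have hDUle : (h2D F p T (fun _ => 1)).relIndex (h2U F (S₀ : Set (HeightOneSpectrum (𝓞 F))))
          ≤ p ^ k := (Subgroup.relIndex_le_of_le_right hUV h50).trans h5le
      have hDU0 : (h2D F p T (fun _ => 1)).relIndex (h2U F (S₀ : Set (HeightOneSpectrum (𝓞 F))))
          ≠ 0 := fun h0 => by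
        rw [h0] at hTidx
        exact absurd hTidx (not_le.mpr (pow_pos hp0 k))
      -- (b) an `S₀`-unit in `D_T` outside `⟨u⟩ P`
      have hex : ∃ x : Fˣ, x ∈ h2U F (S₀ : Set (HeightOneSpectrum (𝓞 F))) ∧
          x ∈ h2D F p T (fun _ => 1) ∧
          x ∉ Subgroup.zpowers u ⊔ (powMonoidHom p : Fˣ →* Fˣ).range := by
        by_contra hcon
        have hle : h2D F p T (fun _ => 1) ⊓ h2U F (S₀ : Set (HeightOneSpectrum (𝓞 F)))
            ≤ Subgroup.zpowers u ⊔ (powMonoidHom p : Fˣ →* Fˣ).range := by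
          intro x hx
          by_contra hxq
          exact hcon ⟨x, hx.2, hx.1, hxq⟩
        have h1 : (h2D F p T (fun _ => 1) ⊓ h2U F (S₀ : Set (HeightOneSpectrum (𝓞 F)))).relIndex
            (h2U F (S₀ : Set (HeightOneSpectrum (𝓞 F))))
            = (h2D F p T (fun _ => 1)).relIndex (h2U F (S₀ : Set (HeightOneSpectrum (𝓞 F)))) :=
          Subgroup.inf_relIndex_right _ _
        have h2 : (Subgroup.zpowers u ⊔ (powMonoidHom p : Fˣ →* Fˣ).range).relIndex
            (h2U F (S₀ : Set (HeightOneSpectrum (𝓞 F)))) ≤ p ^ k := by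
          refine (Subgroup.relIndex_le_of_le_left hle ?_).trans (h1.le.trans hDUle)
          rw [h1]
          exact hDU0
        have hup : u ^ p ∈ (powMonoidHom p : Fˣ →* Fˣ).range := ⟨u, rfl⟩
        have h3 := h2x_relIndex_zpowers_sup (powMonoidHom p : Fˣ →* Fˣ).range
          (h2U F (S₀ : Set (HeightOneSpectrum (𝓞 F)))) u p hp0 hup
        have h4 : p ^ (Module.finrank ℚ F / 2 + S₀.card) ≤ p ^ (k + 1) := by
          calc p ^ (Module.finrank ℚ F / 2 + S₀.card)
              ≤ (powMonoidHom p : Fˣ →* Fˣ).range.relIndex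
                  (h2U F (S₀ : Set (HeightOneSpectrum (𝓞 F)))) := hcount
            _ ≤ p * (Subgroup.zpowers u ⊔ (powMonoidHom p : Fˣ →* Fˣ).range).relIndex
                  (h2U F (S₀ : Set (HeightOneSpectrum (𝓞 F)))) := h3
            _ ≤ p * p ^ k := Nat.mul_le_mul_left _ h2
            _ = p ^ (k + 1) := by rw [pow_succ, mul_comm]
        have h5 := (Nat.pow_le_pow_iff_right hp.one_lt).mp h4
        omega
      obtain ⟨x, hxU, hxD, hxQ⟩ := hex
      -- (c) the auxiliary prime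
      obtain ⟨v, 𝔔, hB, h𝔔, hrel, hxv⟩ := hA4 x hxQ
        (∑ w ∈ S₀, Ideal.absNorm w.asIdeal + ∑ w ∈ T, Ideal.absNorm w.asIdeal)
      have hvS : v ∉ S₀ := by
        intro hv
        have h1 : Ideal.absNorm v.asIdeal ≤ ∑ w ∈ S₀, Ideal.absNorm w.asIdeal :=
          Finset.single_le_sum (f := fun w : HeightOneSpectrum (𝓞 F) => Ideal.absNorm w.asIdeal)
            (fun _ _ => Nat.zero_le _) hv
        omega
      have hvT : v ∉ T := by
        intro hv
        have h1 : Ideal.absNorm v.asIdeal ≤ ∑ w ∈ T, Ideal.absNorm w.asIdeal :=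
          Finset.single_le_sum (f := fun w : HeightOneSpectrum (𝓞 F) => Ideal.absNorm w.asIdeal)
            (fun _ _ => Nat.zero_le _) hv
        omega
      have hT'S : ∀ w ∈ Finset.cons v T hvT, w ∉ S₀ := by
        intro w hw
        rcases Finset.mem_cons.mp hw with rfl | hw
        · exact hvS
        · exact hTS w hw
      refine ⟨Finset.cons v T hvT, by rw [Finset.card_cons, hTk], hT'S, ?_, ?_⟩
      · intro w hw
        rcases Finset.mem_cons.mp hw with rfl | hw
        · exact ⟨𝔔, h𝔔, hrel⟩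
        · exact hTsplit w hw
      · -- (d) the index grows by a factor `p`
        have h0 : (h2D F p (Finset.cons v T hvT) (fun _ => 1)).relIndex
            (h2U F (S₀ : Set (HeightOneSpectrum (𝓞 F)))) ≠ 0 := fun h0 =>
          (hA5 (Finset.cons v T hvT)).1
            (Subgroup.relIndex_eq_zero_of_le_right (h2x_h2U_le F S₀ _ hT'S) h0)
        rw [h2x_h2D_cons] at h0 ⊢
        have h1 := h2x_mul_relIndex_le (h2D F p T (fun _ => 1)) (h2Dv F p v 1)
          (h2U F (S₀ : Set (HeightOneSpectrum (𝓞 F)))) p h0 x hxU hxD hxv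
          (fun y _ => pow_mem_h2Dv F p v 1 y)
        calc p ^ (k + 1) = p * p ^ k := by rw [pow_succ, mul_comm]
          _ ≤ p * (h2D F p T (fun _ => 1)).relIndex
                (h2U F (S₀ : Set (HeightOneSpectrum (𝓞 F)))) := Nat.mul_le_mul_left _ hTidx
          _ ≤ _ := h1
  -- the final set
  have hfr : 0 < Module.finrank ℚ F := Module.finrank_pos
  have hn0 : 1 ≤ Module.finrank ℚ F / 2 + S₀.card := by
    obtain ⟨m, hm⟩ := heven
    omega
  obtain ⟨T, hTk, hTS, hTsplit, hTidx⟩ :=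
    key (Module.finrank ℚ F / 2 + S₀.card - 1) (by omega)
  refine ⟨T, hTS, hTsplit, by omega, ?_⟩
  have hUV := h2x_h2U_le F S₀ T hTS
  obtain ⟨h50, h5le⟩ := hA5 T
  rw [hTk] at h5le
  have hsup := h2x_le_sup_of_relIndex_le _ _ _ hUV h50 (h5le.trans hTidx)
  intro y hy
  have hyV : y ∈ h2U F ((T : Set (HeightOneSpectrum (𝓞 F)))ᶜ) := by
    intro v hv
    have hvT : v ∈ T := by
      by_contra h
      exact hv (by simpa using h)
    exact hy v hvT
  obtain ⟨ε, hε, d, hd, hεd⟩ := Subgroup.mem_sup.mp (hsup hyV)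
  refine ⟨ε⁻¹, inv_mem hε, ?_⟩
  have : y * ε⁻¹ = d := by
    rw [← hεd, mul_comm ε d, mul_inv_cancel_right]
  rw [this]
  exact hd

end Fermat.Agent.S14
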