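import Mathlib
import Fermat.Agent.S14.Defs
import Fermat.Agent.S14.H2Defs

/-!
# P18 (S14), block H2: Kummer extensions of degree `p`

For a number field `F` containing a primitive `p`-th root of unity `ζ` and `y : Fˣ` which is
not a `p`-th power:

* `h2_exists_kummerField` : there is a number field `F'`, Galois of degree `p` over `F`,
  containing a `p`-th root `β` of `y`;
* `h2_kummer_smul` : every `F`-automorphism `σ` of such an `F'` sends `β` to `ζ ^ k * β`;
* `h2_kummer_eq_one` : an `F`-automorphism fixing `β` is the identity.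
-/

set_option autoImplicit false

namespace Fermat.Agent.S14

open NumberField IsDedekindDomain

universe u

/-- If `y : Fˣ` is not a `p`-th power of a unit then no element of `F` has `p`-th power `y`. -/
theorem h2kf_pow_ne {p : ℕ} (hp : p ≠ 0) {F : Type*} [Field F] (y : Fˣ)
    (hy : ∀ z : Fˣ, y ≠ z ^ p) (b : F) : b ^ p ≠ (y : F) := by
  intro hb
  have hb0 : b ≠ 0 := by
    rintro rfl
    rw [zero_pow hp] at hb
    exact y.ne_zero hb.symm
  exact hy (Units.mk0 b hb0) (Units.ext (by simp [hb]))

/-- The polynomial `X ^ p - y` is irreducible when `y` is not a `p`-th power. -/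
theorem h2kf_irreducible (p : ℕ) [Fact p.Prime] (F : Type*) [Field F] (y : Fˣ)
    (hy : ∀ z : Fˣ, y ≠ z ^ p) :
    Irreducible (Polynomial.X ^ p - Polynomial.C (y : F)) :=
  X_pow_sub_C_irreducible_of_prime (Fact.out : p.Prime)
    (h2kf_pow_ne (Fact.out : p.Prime).ne_zero y hy)

theorem h2_exists_kummerField (p : ℕ) [Fact p.Prime] (F : Type u) [Field F] [NumberField F]
    (ζ : F) (hζ : IsPrimitiveRoot ζ p) (y : Fˣ) (hy : ∀ z : Fˣ, y ≠ z ^ p) :
    ∃ (F' : Type u) (_ : Field F') (_ : NumberField F') (_ : Algebra F F') (_ : IsGalois F F')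
      (β : F'), Module.finrank F F' = p ∧ β ^ p = algebraMap F F' (y : F) := by
  have hp : p.Prime := Fact.out
  have hirr : Irreducible (Polynomial.X ^ p - Polynomial.C (y : F)) := h2kf_irreducible p F y hy
  have := Fact.mk hirr
  have hprim : (primitiveRoots p F).Nonempty := ⟨ζ, (mem_primitiveRoots hp.pos).2 hζ⟩
  have hsplit : Polynomial.IsSplittingField F
      (AdjoinRoot (Polynomial.X ^ p - Polynomial.C (y : F)))
      (Polynomial.X ^ p - Polynomial.C (y : F)) :=
    isSplittingField_AdjoinRoot_X_pow_sub_C hprim hirr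
  have hfin : Module.finrank F (AdjoinRoot (Polynomial.X ^ p - Polynomial.C (y : F))) = p :=
    finrank_of_isSplittingField_X_pow_sub_C hprim hirr _
  have hgal : IsGalois F (AdjoinRoot (Polynomial.X ^ p - Polynomial.C (y : F))) :=
    isGalois_of_isSplittingField_X_pow_sub_C hprim hirr _
  refine ⟨AdjoinRoot (Polynomial.X ^ p - Polynomial.C (y : F)), inferInstance, ?_, inferInstance,
    hgal, AdjoinRoot.root _, hfin, ?_⟩
  · have : CharZero (AdjoinRoot (Polynomial.X ^ p - Polynomial.C (y : F))) :=
      charZero_of_injective_algebraMap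
        (algebraMap F (AdjoinRoot (Polynomial.X ^ p - Polynomial.C (y : F)))).injective
    have : FiniteDimensional F (AdjoinRoot (Polynomial.X ^ p - Polynomial.C (y : F))) :=
      Polynomial.IsSplittingField.finiteDimensional _ (Polynomial.X ^ p - Polynomial.C (y : F))
    have : FiniteDimensional ℚ (AdjoinRoot (Polynomial.X ^ p - Polynomial.C (y : F))) :=
      Module.Finite.trans F _
    exact {}
  · rw [root_X_pow_sub_C_pow, AdjoinRoot.algebraMap_eq]

theorem h2_kummer_smul (p : ℕ) [Fact p.Prime] (F F' : Type*) [Field F] [Field F'] [Algebra F F']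
    (ζ : F) (hζ : IsPrimitiveRoot ζ p) (y : Fˣ) (β : F') (hβ : β ^ p = algebraMap F F' (y : F))
    (σ : F' ≃ₐ[F] F') : ∃ k : ℕ, k < p ∧ σ β = algebraMap F F' ζ ^ k * β := by
  have hp : p.Prime := Fact.out
  have : NeZero p := ⟨hp.ne_zero⟩
  have hy0 : algebraMap F F' (y : F) ≠ 0 := by
    rw [Ne, map_eq_zero]
    exact y.ne_zero
  have hβ0 : β ≠ 0 := by
    rintro rfl
    rw [zero_pow hp.ne_zero] at hβ
    exact hy0 hβ.symm
  have h1 : (σ β / β) ^ p = 1 := by
    rw [div_pow, ← map_pow, hβ, AlgEquiv.commutes, div_self hy0]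
  have hζ' : IsPrimitiveRoot (algebraMap F F' ζ) p :=
    hζ.map_of_injective (algebraMap F F').injective
  obtain ⟨k, hk, hk'⟩ := hζ'.eq_pow_of_pow_eq_one h1
  refine ⟨k, hk, ?_⟩
  rw [hk', div_mul_cancel₀ _ hβ0]

theorem h2_kummer_eq_one (p : ℕ) [Fact p.Prime] (F F' : Type*) [Field F] [Field F'] [Algebra F F']
    [FiniteDimensional F F'] (hdeg : Module.finrank F F' = p) (y : Fˣ) (hy : ∀ z : Fˣ, y ≠ z ^ p)
    (β : F') (hβ : β ^ p = algebraMap F F' (y : F)) (σ : F' ≃ₐ[F] F') (hσ : σ β = β) : σ = 1 := by
  have hp : p.Prime := Fact.out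
  -- `β` is not in the base field
  have hβ' : β ∉ (⊥ : IntermediateField F F') := by
    intro h
    rw [IntermediateField.mem_bot] at h
    obtain ⟨b, rfl⟩ := h
    rw [← map_pow] at hβ
    exact h2kf_pow_ne hp.ne_zero y hy b ((algebraMap F F').injective hβ)
  -- hence `F(β) = F'` since the degree is prime
  have htop : IntermediateField.adjoin F {β} = ⊤ := by
    have hdvd : Module.finrank F (IntermediateField.adjoin F {β}) ∣ p := by
      rw [← hdeg]
      exact ⟨_, (Module.finrank_mul_finrank F (IntermediateField.adjoin F {β}) F').symm⟩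
    rcases (Nat.dvd_prime hp).1 hdvd with h | h
    · exact absurd (IntermediateField.finrank_adjoin_simple_eq_one_iff.1 h) hβ'
    · apply IntermediateField.eq_of_le_of_finrank_eq le_top
      rw [h, IntermediateField.finrank_top', hdeg]
  -- an automorphism fixing `β` fixes `F(β)` pointwise
  ext x
  have hx : x ∈ IntermediateField.adjoin F {β} := by rw [htop]; exact IntermediateField.mem_top
  rw [AlgEquiv.one_apply]
  induction hx using IntermediateField.adjoin_induction with
  | mem z hz =>
    rw [Set.mem_singleton_iff] at hz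
    rw [hz, hσ]
  | algebraMap z => exact σ.commutes z
  | add a b _ _ ha hb => rw [map_add, ha, hb]
  | inv a _ ha => rw [map_inv₀, ha]
  | mul a b _ _ ha hb => rw [map_mul, ha, hb]

end Fermat.Agent.S14
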