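import Mathlib
import Fermat.Agent.S14.Defs
import Fermat.Agent.S14.H2Defs

/-!
# P18 (S14), block H2, slice [A4a]: Kummer theory for a cyclic extension of prime degree

Let `M / F` be a Galois extension of degree `p` (a prime), `F` containing a primitive `p`-th root
of unity, and `M = F(α)` with `α ^ p = u ∈ Fˣ`, `α ∉ F`.  If `x ∈ Fˣ` is a `p`-th power in `M`
then `x ∈ u ^ ℤ · (Fˣ) ^ p`.

Proof: the Galois group is cyclic of order `p`, generated by any `σ` with `σ α ≠ α`; then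
`σ α = ζ ^ i α` with `p ∤ i`, and if `γ ^ p = x` then `σ γ = ζ ^ j γ`; choosing `k` with
`i k ≡ j mod p`, the element `γ / α ^ k` is fixed by `σ`, hence lies in `F`.
-/

set_option autoImplicit false

namespace Fermat.Agent.S14

open NumberField IsDedekindDomain

/-- Kummer theory, field-theoretic core: if `M / F` is Galois of prime degree `p`, `F` contains a
primitive `p`-th root of unity, `α ∈ M \ F` with `α ^ p = u ∈ Fˣ`, then every `x ∈ Fˣ` which is a
`p`-th power in `M` lies in `u ^ ℤ · (Fˣ) ^ p`. -/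
theorem h2kr_mem_of_pow_eq (p : ℕ) [Fact p.Prime] (F M : Type*) [Field F] [Field M]
    [Algebra F M] [FiniteDimensional F M] [IsGalois F M]
    (hdeg : Module.finrank F M = p) (ζ : F) (hζ : IsPrimitiveRoot ζ p)
    (u : Fˣ) (α : M) (hα : α ^ p = algebraMap F M (u : F))
    (hαF : ∀ y : F, algebraMap F M y ≠ α)
    (x : Fˣ) (γ : M) (hγ : γ ^ p = algebraMap F M (x : F)) :
    x ∈ Subgroup.zpowers u ⊔ (powMonoidHom p : Fˣ →* Fˣ).range := by
  classical
  have hp : p.Prime := Fact.out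
  have : NeZero p := ⟨hp.ne_zero⟩
  have hcard : Nat.card (M ≃ₐ[F] M) = p := by rw [IsGalois.card_aut_eq_finrank, hdeg]
  -- the primitive root of unity in `M`
  have hζM : IsPrimitiveRoot (algebraMap F M ζ) p :=
    hζ.map_of_injective (algebraMap F M).injective
  have hζM0 : algebraMap F M ζ ≠ 0 := hζM.ne_zero hp.ne_zero
  have hα0 : α ≠ 0 := fun h => hαF 0 (by rw [map_zero, h])
  have hγ0 : γ ≠ 0 := by
    intro h
    rw [h, zero_pow hp.ne_zero] at hγ
    exact x.ne_zero ((map_eq_zero (algebraMap F M)).mp hγ.symm)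
  -- an automorphism moving `α`; it generates the Galois group
  obtain ⟨σ, hσ⟩ : ∃ σ : M ≃ₐ[F] M, σ α ≠ α := by
    by_contra hcon
    have hall : ∀ f : M ≃ₐ[F] M, f α = α := fun f => by
      by_contra hf
      exact hcon ⟨f, hf⟩
    obtain ⟨y, hy⟩ := (IsGalois.mem_range_algebraMap_iff_fixed α).mpr hall
    exact hαF y hy
  have hσ1 : σ ≠ 1 := by
    rintro rfl
    exact hσ rfl
  have hgen : Subgroup.zpowers σ = ⊤ := zpowers_eq_top_of_prime_card hcard hσ1
  -- `σ` multiplies every `p`-th root of an element of `F` by a power of `ζ`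
  have key : ∀ β : M, β ≠ 0 → (∃ c : F, β ^ p = algebraMap F M c) →
      ∃ i : ℕ, σ β = (algebraMap F M ζ) ^ i * β := by
    rintro β hβ0 ⟨c, hc⟩
    have h1 : (σ β / β) ^ p = 1 := by
      rw [div_pow, ← map_pow, hc, AlgEquiv.commutes, ← hc, div_self (pow_ne_zero p hβ0)]
    obtain ⟨i, -, hi⟩ := hζM.eq_pow_of_pow_eq_one h1
    exact ⟨i, by rw [hi, div_mul_cancel₀ _ hβ0]⟩
  obtain ⟨i, hi⟩ := key α hα0 ⟨u, hα⟩
  obtain ⟨j, hj⟩ := key γ hγ0 ⟨x, hγ⟩
  have hi0 : ¬ p ∣ i := by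
    intro hdvd
    apply hσ
    rw [hi, (hζM.pow_eq_one_iff_dvd i).mpr hdvd, one_mul]
  -- solve `i k ≡ j mod p`
  obtain ⟨k, hk⟩ : ∃ k : ℕ, (algebraMap F M ζ) ^ (i * k) = (algebraMap F M ζ) ^ j := by
    have hcop : Nat.Coprime i p := ((Nat.Prime.coprime_iff_not_dvd hp).mpr hi0).symm
    obtain ⟨m, -, hm⟩ := Nat.exists_mul_mod_eq_one_of_coprime hcop hp.one_lt
    refine ⟨m * j, ?_⟩
    rw [← mul_assoc, pow_mul, pow_eq_pow_mod (i * m) hζM.pow_eq_one, hm, pow_one]
  -- `γ / α ^ k` is fixed by `σ`, hence by the whole Galois group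
  have hδ : σ (γ / α ^ k) = γ / α ^ k := by
    rw [map_div₀, map_pow, hi, hj, mul_pow, ← pow_mul, hk,
      mul_div_mul_left _ _ (pow_ne_zero j hζM0)]
  have hfix : ∀ τ : M ≃ₐ[F] M, τ (γ / α ^ k) = γ / α ^ k := by
    intro τ
    have hτ : τ ∈ Subgroup.zpowers σ := by
      rw [hgen]
      exact Subgroup.mem_top τ
    have hle : Subgroup.zpowers σ ≤ MulAction.stabilizer (M ≃ₐ[F] M) (γ / α ^ k) := by
      rw [Subgroup.zpowers_le]
      exact hδ
    exact hle hτ
  obtain ⟨c, hc⟩ := (IsGalois.mem_range_algebraMap_iff_fixed (γ / α ^ k)).mpr hfix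
  have hc0 : c ≠ 0 := by
    rintro rfl
    rw [map_zero] at hc
    exact div_ne_zero hγ0 (pow_ne_zero k hα0) hc.symm
  have hγeq : γ = algebraMap F M c * α ^ k := by
    rw [hc, div_mul_cancel₀ _ (pow_ne_zero k hα0)]
  have hxF : (x : F) = (u : F) ^ k * c ^ p := by
    apply (algebraMap F M).injective
    rw [← hγ, hγeq, mul_pow, ← pow_mul, mul_comm k p, pow_mul, hα, map_mul, map_pow, map_pow,
      mul_comm]
  have hxu : x = u ^ k * (Units.mk0 c hc0) ^ p := by
    apply Units.ext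
    rw [hxF, Units.val_mul, Units.val_pow_eq_pow_val, Units.val_pow_eq_pow_val, Units.val_mk0]
  rw [hxu]
  exact Subgroup.mul_mem_sup (Subgroup.pow_mem _ (Subgroup.mem_zpowers u) k)
    ⟨Units.mk0 c hc0, rfl⟩

/-- [A4a] Kummer: an element of `Fˣ` outside `u^ℤ · (Fˣ)^p` is not a `p`-th power in `M = F(α)`,
`α ^ p = a = u`. -/
theorem h2_not_pow_of_not_mem (p : ℕ) [Fact p.Prime]
    (F M : Type*) [Field F] [NumberField F] [Field M] [NumberField M] [Algebra F M] [IsGalois F M]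
    (hdeg : Module.finrank F M = p) (ζ : F) (hζ : IsPrimitiveRoot ζ p)
    (a : 𝓞 F) (α : 𝓞 M) (hα : α ^ p = algebraMap (𝓞 F) (𝓞 M) a)
    (hαF : ∀ y : F, algebraMap F M y ≠ (α : M))
    (u : Fˣ) (hu : (u : F) = algebraMap (𝓞 F) F a)
    (x : Fˣ) (hx : x ∉ Subgroup.zpowers u ⊔ (powMonoidHom p : Fˣ →* Fˣ).range) :
    ∀ γ : M, γ ^ p ≠ algebraMap F M (x : F) := by
  intro γ hγ
  apply hx
  have hα' : (α : M) ^ p = algebraMap F M (u : F) := by
    have h1 := congrArg (algebraMap (𝓞 M) M) hα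
    rw [map_pow, ← IsScalarTower.algebraMap_apply (𝓞 F) (𝓞 M) M,
      IsScalarTower.algebraMap_apply (𝓞 F) F M, ← hu] at h1
    exact h1
  exact h2kr_mem_of_pow_eq p F M hdeg ζ hζ u (α : M) hα' hαF x γ hγ

end Fermat.Agent.S14
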