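import Mathlib
import Fermat.Agent.S14.Defs
import Fermat.Agent.S14.H2Defs
import Fermat.Agent.S14.H2KummerRoot
import Fermat.Agent.S14.H2KummerField
import Fermat.Agent.S42.CyclicInert
import Fermat.Agent.S42.FrobQbarCore

/-!
# P18 (S14), block H2, slice [A4]: the auxiliary prime

Let `M / F` be a cyclic Kummer extension of degree `p`, `M = F(α)`, `α ^ p = u`, and let
`x ∈ Fˣ` be outside `u ^ ℤ · (Fˣ) ^ p`.  Then there are primes `v` of `F` of arbitrarily large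
norm which are the relative norm of a prime of `M` and at which `x` is not a local `p`-th power
(`h2_exists_aux_prime`).

Proof: `x` is not a `p`-th power in `M` (slice [A4a]); let `M₂ = M(x ^ (1/p))`, cyclic of degree
`p` over `M`.  There are infinitely many degree-one primes `𝔚` of `M` which are inert in `M₂`;
for such a prime of large norm `ℓ`, with Frobenius `φ` (a generator of `Gal(M₂/M)`), put
`v = 𝔚 ∩ 𝓞 F`.  Then `v = N(𝔚)` has norm `ℓ`; if `x` were a `p`-th power residue at `v`, then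
`β ^ ℓ ≡ β` modulo `𝔚 𝓞 M₂` for `β = x ^ (1/p)`, so `φ β ≡ β`, which forces `φ β = β` (as `p` and
`β` are prime to `𝔚`), i.e. `β ∈ M`: a contradiction.
-/

set_option autoImplicit false

namespace Fermat.Agent.S14

open NumberField IsDedekindDomain

universe u

/-- A prime of `M` of prime absolute norm has relative norm its contraction to `F`, which has
the same absolute norm. -/
theorem h2ap_relNorm_eq_under (F M : Type*) [Field F] [NumberField F] [Field M] [NumberField M]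
    [Algebra F M] (𝔚 : Ideal (𝓞 M)) (hℓ : (Ideal.absNorm 𝔚).Prime) :
    Ideal.relNorm (𝓞 F) 𝔚 = Ideal.under (𝓞 F) 𝔚 ∧
      Ideal.absNorm (Ideal.under (𝓞 F) 𝔚) = Ideal.absNorm 𝔚 := by
  have h𝔚 : 𝔚.IsPrime := Ideal.isPrime_of_irreducible_absNorm hℓ
  have : 𝔚.LiesOver (Ideal.under (𝓞 F) 𝔚) := ⟨rfl⟩
  have hv : (Ideal.under (𝓞 F) 𝔚).IsPrime := Ideal.IsPrime.under (𝓞 F) 𝔚
  obtain ⟨s, hs⟩ := Ideal.exists_relNorm_eq_pow_of_isPrime 𝔚 (Ideal.under (𝓞 F) 𝔚)
  have habs : Ideal.absNorm 𝔚 = Ideal.absNorm (Ideal.under (𝓞 F) 𝔚) ^ s := by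
    rw [← Ideal.absNorm_relNorm (R := 𝓞 F), hs, map_pow]
  obtain ⟨h1, h2⟩ := (Nat.Prime.pow_eq_iff hℓ).mp habs.symm
  exact ⟨by rw [hs, h2, pow_one], h1⟩

/-- The heart of the slice: given the Kummer extension `M₂ = M(β)`, `β ^ p = x₀ ∈ 𝓞 F`,
`β ∉ M`, there is a prime `v` of `F` of large norm, the relative norm of a prime of `M`, at which
`x₀` is not a local `p`-th power. -/
theorem h2ap_aux (p : ℕ) [Fact p.Prime] (F M M₂ : Type*) [Field F] [NumberField F]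
    [Field M] [NumberField M] [Algebra F M] [Field M₂] [NumberField M₂] [Algebra M M₂]
    [IsGalois M M₂] (ζ : F) (hζ : IsPrimitiveRoot ζ p)
    (hdeg₂ : Module.finrank M M₂ = p)
    (x₀ : 𝓞 F) (hx₀0 : x₀ ≠ 0) (β : M₂)
    (hβ : β ^ p = algebraMap M M₂ (algebraMap F M (algebraMap (𝓞 F) F x₀)))
    (hβM : ∀ γ : M, algebraMap M M₂ γ ≠ β) (B : ℕ) :
    ∃ (v : HeightOneSpectrum (𝓞 F)) (𝔔 : Ideal (𝓞 M)), B < Ideal.absNorm v.asIdeal ∧
      𝔔.IsPrime ∧ Ideal.relNorm (𝓞 F) 𝔔 = v.asIdeal ∧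
      ∀ x : Fˣ, (x : F) = algebraMap (𝓞 F) F x₀ → x ∉ h2Dv F p v 1 := by
  classical
  have hp : p.Prime := Fact.out
  -- the Galois group of `M₂ / M` is cyclic
  have hcard : Nat.card (M₂ ≃ₐ[M] M₂) = p := by rw [IsGalois.card_aut_eq_finrank, hdeg₂]
  have : IsCyclic (M₂ ≃ₐ[M] M₂) := isCyclic_of_prime_card hcard
  -- `x₀` as an element of `𝓞 M`
  set xM : 𝓞 M := algebraMap (𝓞 F) (𝓞 M) x₀ with hxM
  have hxM0 : xM ≠ 0 := by
    rw [hxM, Ne, map_eq_zero_iff _ (FaithfulSMul.algebraMap_injective (𝓞 F) (𝓞 M))]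
    exact hx₀0
  have hN0 : Ideal.absNorm (Ideal.span {xM}) ≠ 0 := by
    rw [Ne, Ideal.absNorm_eq_zero_iff, Ideal.span_singleton_eq_bot]
    exact hxM0
  -- an inert degree-one prime of large norm and its Frobenius
  obtain ⟨𝔚, ⟨hℓ, hQ⟩, hgt⟩ := Fermat.Agent.S42.fq_exists_inert_gt M M₂
    (Fermat.Agent.S42.infinite_inertSet M M₂) (B + p + Ideal.absNorm (Ideal.span {xM}))
  obtain ⟨φ, hφ, hgen⟩ := Fermat.Agent.S42.fq_exists_frob_generator M M₂ 𝔚.asIdeal hℓ hQ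
  set ℓ := Ideal.absNorm 𝔚.asIdeal with hℓdef
  set Q : Ideal (𝓞 M₂) := 𝔚.asIdeal.map (algebraMap (𝓞 M) (𝓞 M₂)) with hQdef
  -- the prime `v` of `F` below `𝔚`
  obtain ⟨hrel, habs⟩ := h2ap_relNorm_eq_under F M 𝔚.asIdeal hℓ
  rw [← hℓdef] at habs
  have hvprime : (Ideal.under (𝓞 F) 𝔚.asIdeal).IsPrime := Ideal.IsPrime.under (𝓞 F) 𝔚.asIdeal
  have hvbot : Ideal.under (𝓞 F) 𝔚.asIdeal ≠ ⊥ := by
    intro h
    rw [h, Ideal.absNorm_bot] at habs
    exact hℓ.ne_zero habs.symm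
  refine ⟨⟨Ideal.under (𝓞 F) 𝔚.asIdeal, hvprime, hvbot⟩, 𝔚.asIdeal, ?_, 𝔚.isPrime, hrel, ?_⟩
  · show B < Ideal.absNorm (Ideal.under (𝓞 F) 𝔚.asIdeal)
    rw [habs]
    omega
  set v : HeightOneSpectrum (𝓞 F) := ⟨Ideal.under (𝓞 F) 𝔚.asIdeal, hvprime, hvbot⟩ with hv
  intro x hx hxD
  -- membership in `v` is membership of the image in `𝔚`
  have hmem_v : ∀ c : 𝓞 F, c ∈ v.asIdeal ↔ algebraMap (𝓞 F) (𝓞 M) c ∈ 𝔚.asIdeal :=
    fun c => Iff.rfl
  -- `Q ∩ 𝓞 M = 𝔚`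
  have hcomapQ : ∀ c : 𝓞 M, algebraMap (𝓞 M) (𝓞 M₂) c ∈ Q → c ∈ 𝔚.asIdeal := by
    have hmax : 𝔚.asIdeal.IsMaximal := 𝔚.isMaximal
    have h1 : Q.comap (algebraMap (𝓞 M) (𝓞 M₂)) = 𝔚.asIdeal :=
      (hmax.eq_of_le (Ideal.comap_ne_top _ hQ.ne_top) Ideal.le_comap_map).symm
    intro c hc
    rw [← h1]
    exact hc
  -- `ℓ ∈ v`, `p ∉ v`
  have hℓv : (ℓ : 𝓞 F) ∈ v.asIdeal := by
    rw [hmem_v, map_natCast]
    exact Ideal.absNorm_mem _
  have hpℓ : p < ℓ := by omega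
  have hpv : (p : 𝓞 F) ∉ v.asIdeal := by
    intro hpv
    have hcop : Nat.Coprime p ℓ := (Nat.coprime_primes hp hℓ).mpr (by omega)
    obtain ⟨a, b, hab⟩ := Nat.isCoprime_iff_coprime.mpr hcop
    apply hvprime.ne_top
    rw [Ideal.eq_top_iff_one]
    have h1 : ((a : 𝓞 F) * (p : 𝓞 F) + (b : 𝓞 F) * (ℓ : 𝓞 F)) = 1 := by
      have := congrArg (Int.cast : ℤ → 𝓞 F) hab
      push_cast at this
      exact this
    rw [← h1]
    exact Ideal.add_mem _ (Ideal.mul_mem_left _ _ hpv) (Ideal.mul_mem_left _ _ hℓv)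
  -- `x₀ ∉ v`
  have hx₀v : x₀ ∉ v.asIdeal := by
    intro h
    have h1 : xM ∈ 𝔚.asIdeal := h
    have h2 : Ideal.span {xM} ≤ 𝔚.asIdeal := (Ideal.span_singleton_le_iff_mem _).mpr h1
    have h3 := Ideal.absNorm_dvd_absNorm_of_le h2
    have h4 := Nat.le_of_dvd (Nat.pos_of_ne_zero hN0) h3
    omega
  -- the residue field of `v` has `ℓ` elements
  have hcardk : Nat.card (𝓞 F ⧸ v.asIdeal) = ℓ := by
    rw [← habs, Ideal.absNorm_apply, Submodule.cardQuot_apply]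
  have : Finite (𝓞 F ⧸ v.asIdeal) :=
    Nat.finite_of_card_ne_zero (by rw [hcardk]; exact hℓ.ne_zero)
  let _ := Fintype.ofFinite (𝓞 F ⧸ v.asIdeal)
  have : v.asIdeal.IsMaximal := v.isMaximal
  let _ : Field (𝓞 F ⧸ v.asIdeal) := Ideal.Quotient.field v.asIdeal
  have hfermat : ∀ c : 𝓞 F, c ∉ v.asIdeal →
      (Ideal.Quotient.mk v.asIdeal c) ^ (ℓ - 1) = 1 := by
    intro c hc
    have hc' : Ideal.Quotient.mk v.asIdeal c ≠ 0 := by
      rwa [Ne, Ideal.Quotient.eq_zero_iff_mem]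
    have h := FiniteField.pow_card_sub_one_eq_one (Ideal.Quotient.mk v.asIdeal c) hc'
    rwa [← Nat.card_eq_fintype_card, hcardk] at h
  -- `p ∣ ℓ - 1`, because `ζ` has order `p` in the residue field
  have hζint : IsIntegral ℤ ζ := hζ.isIntegral hp.pos
  set ζi : 𝓞 F := ⟨ζ, hζint⟩ with hζi
  have hζi_pow : ζi ^ p = 1 := by
    apply RingOfIntegers.ext
    show ζ ^ p = 1
    exact hζ.pow_eq_one
  have hζk1 : Ideal.Quotient.mk v.asIdeal ζi ≠ 1 := by
    intro h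
    apply hpv
    have hgs : ∑ i ∈ Finset.range p, ζi ^ i = 0 := by
      have h3 := geom_sum_mul ζi p
      rw [hζi_pow, sub_self] at h3
      refine (mul_eq_zero.mp h3).resolve_right (sub_ne_zero.mpr ?_)
      intro h4
      apply hζ.ne_one hp.one_lt
      have h5 := congrArg (algebraMap (𝓞 F) F) h4
      rw [map_one] at h5
      exact h5
    have h2 := congrArg (Ideal.Quotient.mk v.asIdeal) hgs
    rw [map_sum, map_zero] at h2
    simp only [map_pow, h, one_pow, Finset.sum_const, Finset.card_range, nsmul_eq_mul,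
      mul_one] at h2
    rw [← Ideal.Quotient.eq_zero_iff_mem, map_natCast]
    exact h2
  have hpdvd : p ∣ ℓ - 1 := by
    have hζk : (Ideal.Quotient.mk v.asIdeal ζi) ^ p = 1 := by
      rw [← map_pow, hζi_pow, map_one]
    have hord : orderOf (Ideal.Quotient.mk v.asIdeal ζi) = p := orderOf_eq_prime hζk hζk1
    have hζnv : ζi ∉ v.asIdeal := by
      intro h
      have h3 : ζi ^ p ∈ v.asIdeal := Ideal.pow_mem_of_mem _ h p hp.pos
      rw [hζi_pow] at h3
      exact hvprime.ne_top ((Ideal.eq_top_iff_one _).mpr h3)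
    rw [← hord]
    exact orderOf_dvd_of_pow_eq_one (hfermat ζi hζnv)
  -- unpack the local `p`-th power condition
  obtain ⟨z, hz1, hz2⟩ := hxD
  have hvx : v.valuation F (x : F) = 1 := by
    rw [hx, HeightOneSpectrum.valuation_of_algebraMap]
    exact HeightOneSpectrum.intValuation_eq_one_iff.mpr hx₀v
  have hvz : v.valuation F (z : F) = 1 := by
    rw [map_div₀, map_pow, hvx, one_div, inv_eq_one] at hz1
    exact (pow_eq_one_iff.mp hz1).resolve_right hp.ne_zero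
  obtain ⟨c₁, ⟨c₂, hc₂⟩, hc⟩ := v.exists_primeCompl_mul_eq_of_integer (z : F) hvz.le
  have hc₂v : c₂ ∉ v.asIdeal := hc₂
  have hc₂val : v.valuation F (algebraMap (𝓞 F) F c₂) = 1 := by
    rw [HeightOneSpectrum.valuation_of_algebraMap]
    exact HeightOneSpectrum.intValuation_eq_one_iff.mpr hc₂v
  have hc₁val : v.valuation F (algebraMap (𝓞 F) F c₁) = 1 := by
    rw [← hc, map_mul, hvz, hc₂val, mul_one]
  have hc₁v : c₁ ∉ v.asIdeal := by
    rw [HeightOneSpectrum.valuation_of_algebraMap] at hc₁val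
    exact HeightOneSpectrum.intValuation_eq_one_iff.mp hc₁val
  -- `x₀ c₂ ^ p ≡ c₁ ^ p` modulo `v`
  have hcong : x₀ * c₂ ^ p - c₁ ^ p ∈ v.asIdeal := by
    have e : algebraMap (𝓞 F) F (x₀ * c₂ ^ p - c₁ ^ p)
        = ((x : F) / (z : F) ^ p - 1) * (algebraMap (𝓞 F) F c₁) ^ p := by
      have hz0 : (z : F) ≠ 0 := z.ne_zero
      rw [map_sub, map_mul, map_pow, map_pow, ← hx, ← hc]
      field_simp
      ring
    have hval : v.valuation F (algebraMap (𝓞 F) F (x₀ * c₂ ^ p - c₁ ^ p)) < 1 := by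
      rw [e, map_mul, map_pow, hc₁val, one_pow, mul_one]
      refine lt_of_le_of_lt hz2 ?_
      rw [← WithZero.exp_zero, WithZero.exp_lt_exp]
      norm_num
    exact (v.valuation_lt_one_iff_mem (K := F) _).mp hval
  obtain ⟨n, hn⟩ := hpdvd
  have hx₀n : x₀ ^ n - 1 ∈ v.asIdeal := by
    rw [← Ideal.Quotient.eq_zero_iff_mem]
    have h1 : Ideal.Quotient.mk v.asIdeal x₀ * (Ideal.Quotient.mk v.asIdeal c₂) ^ p
        = (Ideal.Quotient.mk v.asIdeal c₁) ^ p := by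
      rw [← map_pow, ← map_pow, ← map_mul, ← sub_eq_zero, ← map_sub,
        Ideal.Quotient.eq_zero_iff_mem]
      exact hcong
    have h2 := congrArg (fun t => t ^ n) h1
    simp only [mul_pow, ← pow_mul, ← hn] at h2
    rw [hfermat c₁ hc₁v, hfermat c₂ hc₂v, mul_one] at h2
    rw [map_sub, map_pow, map_one, h2, sub_self]
  -- `β` is integral
  have hβint : IsIntegral ℤ β := by
    have h1 : IsIntegral ℤ (β ^ p) := by
      rw [hβ]
      exact ((RingOfIntegers.isIntegral_coe x₀).map (IsScalarTower.toAlgHom ℤ F M)).map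
        (IsScalarTower.toAlgHom ℤ M M₂)
    exact IsIntegral.of_pow hp.pos h1
  set βi : 𝓞 M₂ := ⟨β, hβint⟩ with hβi_def
  have hβi : βi ^ p = algebraMap (𝓞 M) (𝓞 M₂) xM := by
    apply RingOfIntegers.ext
    show β ^ p = _
    rw [hβ]
    rfl
  -- `β ^ ℓ ≡ β`
  have h1 : βi ^ ℓ - βi ∈ Q := by
    have e : βi ^ ℓ - βi
        = βi * algebraMap (𝓞 M) (𝓞 M₂) (algebraMap (𝓞 F) (𝓞 M) (x₀ ^ n - 1)) := by
      have hℓ1 : ℓ = p * n + 1 := by
        have := hℓ.pos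
        omega
      rw [hℓ1, pow_succ, pow_mul, hβi, hxM, map_sub, map_sub, map_pow, map_pow, map_one,
        map_one]
      ring
    rw [e]
    exact Ideal.mul_mem_left _ _ (Ideal.mem_map_of_mem _ ((hmem_v _).mp hx₀n))
  have h2 : φ • βi - βi ∈ Q := by
    have := Ideal.add_mem _ (hφ βi) h1
    rwa [sub_add_sub_cancel] at this
  -- `φ β ≠ β`
  have hφβne : φ β ≠ β := by
    intro h
    have hφmem : φ ∈ MulAction.stabilizer (M₂ ≃ₐ[M] M₂) β := h
    have hle : Subgroup.zpowers φ ≤ MulAction.stabilizer (M₂ ≃ₐ[M] M₂) β :=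
      (Subgroup.zpowers_le).mpr hφmem
    have hall : ∀ f : M₂ ≃ₐ[M] M₂, f β = β := by
      intro f
      have hf : f ∈ MulAction.stabilizer (M₂ ≃ₐ[M] M₂) β := hle (by rw [hgen]; trivial)
      exact hf
    obtain ⟨γ, hγ⟩ := (IsGalois.mem_range_algebraMap_iff_fixed β).mpr hall
    exact hβM γ hγ
  set δ : 𝓞 M₂ := φ • βi with hδ
  have hδcoe : (δ : M₂) = φ β := rfl
  have hδp : δ ^ p = βi ^ p := by
    apply RingOfIntegers.ext
    show (δ : M₂) ^ p = β ^ p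
    rw [hδcoe, ← map_pow, hβ, AlgEquiv.commutes]
  have hδne : δ ≠ βi := by
    intro h
    apply hφβne
    rw [← hδcoe, h]
    rfl
  have hsum : ∑ i ∈ Finset.range p, δ ^ i * βi ^ (p - 1 - i) = 0 := by
    have h := Commute.geom_sum₂_mul (Commute.all δ βi) p
    rw [hδp, sub_self] at h
    exact (mul_eq_zero.mp h).resolve_right (sub_ne_zero.mpr hδne)
  have hmk : Ideal.Quotient.mk Q δ = Ideal.Quotient.mk Q βi := by
    rw [Ideal.Quotient.eq]
    exact h2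
  have hpβ : (p : 𝓞 M₂) * βi ^ (p - 1) ∈ Q := by
    rw [← Ideal.Quotient.eq_zero_iff_mem]
    have h3 := congrArg (Ideal.Quotient.mk Q) hsum
    rw [map_sum, map_zero] at h3
    rw [map_mul, map_natCast, map_pow, ← h3]
    rw [Finset.sum_congr rfl (g := fun _ => (Ideal.Quotient.mk Q βi) ^ (p - 1))]
    · simp
    · intro i hi
      have hi' := Finset.mem_range.mp hi
      rw [map_mul, map_pow, map_pow, hmk, ← pow_add]
      congr 1
      omega
  rcases hQ.mem_or_mem hpβ with h | h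
  · apply hpv
    rw [hmem_v, map_natCast]
    apply hcomapQ
    rw [map_natCast]
    exact h
  · have h3 : βi ∈ Q := hQ.mem_of_pow_mem _ h
    have h4 : βi ^ p ∈ Q := Ideal.pow_mem_of_mem _ h3 p hp.pos
    rw [hβi] at h4
    exact hx₀v (hcomapQ _ h4)

/-- [A4] auxiliary prime: a prime `v` of `F` of large norm which is the relative norm of a prime
of `M` and at which `x` is not a local `p`-th power. -/
theorem h2_exists_aux_prime (p : ℕ) [Fact p.Prime] (hp : 3 ≤ p)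
    (F M : Type*) [Field F] [NumberField F] [Field M] [NumberField M] [Algebra F M] [IsGalois F M]
    (hdeg : Module.finrank F M = p) (ζ : F) (hζ : IsPrimitiveRoot ζ p)
    (a : 𝓞 F) (α : 𝓞 M) (hα : α ^ p = algebraMap (𝓞 F) (𝓞 M) a)
    (hαF : ∀ y : F, algebraMap F M y ≠ (α : M))
    (u : Fˣ) (hu : (u : F) = algebraMap (𝓞 F) F a)
    (x : Fˣ) (hx : x ∉ Subgroup.zpowers u ⊔ (powMonoidHom p : Fˣ →* Fˣ).range) (B : ℕ) :
    ∃ (v : HeightOneSpectrum (𝓞 F)) (𝔔 : Ideal (𝓞 M)), B < Ideal.absNorm v.asIdeal ∧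
      𝔔.IsPrime ∧ Ideal.relNorm (𝓞 F) 𝔔 = v.asIdeal ∧ x ∉ h2Dv F p v 1 := by
  classical
  have hpp : p.Prime := Fact.out
  -- `x` is not a `p`-th power in `M`
  have hxM : ∀ γ : M, γ ^ p ≠ algebraMap F M (x : F) :=
    h2_not_pow_of_not_mem p F M hdeg ζ hζ a α hα hαF u hu x hx
  -- clear the denominator of `x`
  obtain ⟨n, d, hd, hnd⟩ := IsFractionRing.div_surjective (A := 𝓞 F) (x : F)
  have hd0 : d ≠ 0 := nonZeroDivisors.ne_zero hd
  have hdF : algebraMap (𝓞 F) F d ≠ 0 := by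
    rwa [Ne, map_eq_zero_iff _ (FaithfulSMul.algebraMap_injective (𝓞 F) F)]
  set du : Fˣ := Units.mk0 (algebraMap (𝓞 F) F d) hdF with hdu
  set x₀ : 𝓞 F := n * d ^ (p - 1) with hx₀
  have hx' : ((x * du ^ p : Fˣ) : F) = algebraMap (𝓞 F) F x₀ := by
    have hp1 : p = (p - 1) + 1 := by
      have := hpp.pos
      omega
    rw [Units.val_mul, Units.val_pow_eq_pow_val, hdu, Units.val_mk0, hx₀, map_mul, map_pow,
      ← hnd]
    conv_lhs => rw [hp1, pow_succ]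
    field_simp
  have hx₀0 : x₀ ≠ 0 := by
    intro h
    rw [h, map_zero] at hx'
    exact (x * du ^ p).ne_zero hx'
  -- `x d ^ p` is not a `p`-th power in `M` either
  have hx'M : ∀ γ : M, γ ^ p ≠ algebraMap F M (algebraMap (𝓞 F) F x₀) := by
    intro γ hγ
    apply hxM (γ / algebraMap F M (algebraMap (𝓞 F) F d))
    have hdM : algebraMap F M (algebraMap (𝓞 F) F d) ≠ 0 := by
      rwa [Ne, map_eq_zero]
    rw [div_pow, hγ, ← hx', Units.val_mul, Units.val_pow_eq_pow_val, hdu, Units.val_mk0,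
      map_mul, map_pow]
    field_simp
  -- the Kummer extension `M₂ = M(β)`, `β ^ p = x d ^ p`
  have hyM0 : algebraMap F M (algebraMap (𝓞 F) F x₀) ≠ 0 := by
    rw [Ne, map_eq_zero, map_eq_zero_iff _ (FaithfulSMul.algebraMap_injective (𝓞 F) F)]
    exact hx₀0
  obtain ⟨M₂, _, _, _, _, β, hdeg₂, hβ⟩ := h2_exists_kummerField p M (algebraMap F M ζ)
    (hζ.map_of_injective (algebraMap F M).injective) (Units.mk0 _ hyM0) (by
      intro z hz
      apply hx'M (z : M)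
      have h := congrArg (fun w : Mˣ => (w : M)) hz
      simpa using h.symm)
  rw [Units.val_mk0] at hβ
  have hβM : ∀ γ : M, algebraMap M M₂ γ ≠ β := by
    intro γ hγ
    apply hx'M γ
    apply (algebraMap M M₂).injective
    rw [map_pow, hγ, hβ]
  obtain ⟨v, 𝔔, hB, h𝔔, hrel, hnot⟩ := h2ap_aux p F M M₂ ζ hζ hdeg₂ x₀ hx₀0 β hβ hβM B
  refine ⟨v, 𝔔, hB, h𝔔, hrel, fun hxD => ?_⟩
  exact hnot (x * du ^ p) hx' (Subgroup.mul_mem _ hxD (pow_mem_h2Dv F p v 1 du))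

end Fermat.Agent.S14
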