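import Mathlib
import Fermat.Agent.S14.Defs
import Fermat.Agent.S14.H2Defs

/-!
# P18 (S14), block H2, slice [A9]: abstract group counting

Pure group theory for commutative groups (written multiplicatively), used in the Kummer counting
of the second inequality:

* `h2g_prime_dvd_index`          : an element outside a subgroup `N` whose `p`-th power lies in
                                   `N` forces `p ∣ N.index`;
* `h2g_relIndex_le_of_le`        : monotonicity of `H.relIndex ·` (finite case);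
* `h2g_le_sup_of_relIndex_le`    : `K ≤ L`, `[L : L ∩ H] ≤ [K : K ∩ H]` finite `⟹ L ≤ K ⊔ H`;
* `h2g_mul_relIndex_le`          : cutting by a subgroup `H'` containing the `p`-th powers and
                                   missing an element multiplies the relative index by `≥ p`;
* `h2g_relIndex_zpowers_sup`     : adjoining an element `u` with `u ^ p ∈ P` to `P` divides the
                                   relative index by at most `p`;
* `h2_exists_pow_mul_mem`        : the interface theorem (the quotient by `A ⊔ D` has order `≤ p`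
                                   and is generated by any non-trivial element).
-/

set_option autoImplicit false

namespace Fermat.Agent.S14

section H2Group

variable {G : Type*} [CommGroup G]

/-- An element outside a subgroup `N` whose `p`-th power lies in `N` (`p` prime) has order `p` in
the quotient, so `p` divides the index of `N` (which may be `0`). -/
theorem h2g_prime_dvd_index (p : ℕ) [Fact p.Prime] (N : Subgroup G) (x : G) (hx : x ∉ N)
    (hxp : x ^ p ∈ N) : p ∣ N.index := by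
  have h1 : ((x : G) : G ⧸ N) ≠ 1 := fun h => hx ((QuotientGroup.eq_one_iff x).mp h)
  have h2 : ((x : G) : G ⧸ N) ^ p = 1 := by
    rw [← QuotientGroup.mk_pow]
    exact (QuotientGroup.eq_one_iff _).mpr hxp
  have h3 : orderOf ((x : G) : G ⧸ N) = p := orderOf_eq_prime h2 h1
  rw [Subgroup.index_eq_card, ← h3]
  exact orderOf_dvd_natCard _

/-- Monotonicity of the relative index in the ambient subgroup (finite case). -/
theorem h2g_relIndex_le_of_le (K L H : Subgroup G) (hKL : K ≤ L) (h0 : H.relIndex L ≠ 0) :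
    H.relIndex K ≤ H.relIndex L ∧ H.relIndex K ≠ 0 :=
  ⟨Subgroup.relIndex_le_of_le_right hKL h0,
    fun h => h0 (Subgroup.relIndex_eq_zero_of_le_right hKL h)⟩

/-- If `K ≤ L` and `[L : L ∩ H]` is finite and at most `[K : K ∩ H]`, then `L ≤ K ⊔ H`. -/
theorem h2g_le_sup_of_relIndex_le (K L H : Subgroup G) (hKL : K ≤ L) (h0 : H.relIndex L ≠ 0)
    (h : H.relIndex L ≤ H.relIndex K) : L ≤ K ⊔ H := by
  have hJL : K ⊔ (H ⊓ L) ≤ L := sup_le hKL inf_le_right
  have h1 : (H ⊓ L).relIndex (K ⊔ (H ⊓ L)) = H.relIndex K := by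
    rw [Subgroup.relIndex_sup_right, ← Subgroup.inf_relIndex_right (H ⊓ L) K, inf_assoc,
      inf_eq_right.mpr hKL, Subgroup.inf_relIndex_right]
  have h2 : (H ⊓ L).relIndex (K ⊔ (H ⊓ L)) * (K ⊔ (H ⊓ L)).relIndex L = (H ⊓ L).relIndex L :=
    Subgroup.relIndex_mul_relIndex _ _ _ le_sup_right hJL
  rw [h1, Subgroup.inf_relIndex_right] at h2
  have hK0 : H.relIndex K ≠ 0 := fun hz => h0 (by rw [← h2, hz, zero_mul])
  have hJ0 : (K ⊔ (H ⊓ L)).relIndex L ≠ 0 := fun hz => h0 (by rw [← h2, hz, mul_zero])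
  have h3 : (K ⊔ (H ⊓ L)).relIndex L = 1 := by
    have h4 : H.relIndex K * (K ⊔ (H ⊓ L)).relIndex L ≤ H.relIndex K * 1 := by
      rw [h2, mul_one]
      exact h
    have h5 := Nat.le_of_mul_le_mul_left h4 (Nat.pos_of_ne_zero hK0)
    omega
  have h6 : L ≤ K ⊔ (H ⊓ L) := Subgroup.relIndex_eq_one.mp h3
  exact h6.trans (sup_le_sup_left inf_le_left K)

/-- If `x ∈ K ⊓ H`, `x ∉ H'` and `H'` contains the `p`-th powers of the elements of `K`, then
`[K : K ∩ H ∩ H'] ≥ p · [K : K ∩ H]` (when the left-hand side is finite). -/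
theorem h2g_mul_relIndex_le (H H' K : Subgroup G) (p : ℕ) [Fact p.Prime]
    (h0 : (H ⊓ H').relIndex K ≠ 0) (x : G) (hxK : x ∈ K) (hxH : x ∈ H) (hxH' : x ∉ H')
    (hp : ∀ y ∈ K, y ^ p ∈ H') : p * H.relIndex K ≤ (H ⊓ H').relIndex K := by
  have h1 : H'.relIndex (H ⊓ K) * H.relIndex K = (H ⊓ H').relIndex K := by
    rw [Subgroup.relIndex_inf_mul_relIndex, inf_comm]
  have h2 : H'.relIndex (H ⊓ K) ≠ 0 := fun hz => h0 (by rw [← h1, hz, zero_mul])
  have h3 : p ∣ H'.relIndex (H ⊓ K) :=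
    h2g_prime_dvd_index p (H'.subgroupOf (H ⊓ K)) ⟨x, hxH, hxK⟩
      (fun hmem => hxH' (Subgroup.mem_subgroupOf.mp hmem))
      (Subgroup.mem_subgroupOf.mpr (hp x hxK))
  have h4 : p ≤ H'.relIndex (H ⊓ K) := Nat.le_of_dvd (Nat.pos_of_ne_zero h2) h3
  rw [← h1]
  exact Nat.mul_le_mul_right _ h4

/-- If `u ^ p ∈ P` then `[⟨u⟩ P : P]` divides `p`. -/
theorem h2g_relIndex_zpowers_dvd (P : Subgroup G) (u : G) (p : ℕ) (hu : u ^ p ∈ P) :
    P.relIndex (Subgroup.zpowers u ⊔ P) ∣ p := by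
  rw [Subgroup.relIndex_sup_right]
  have h1 : P.relIndex (Subgroup.zpowers u) = orderOf (QuotientGroup.mk' P u) := by
    have h2 := Subgroup.relIndex_ker (QuotientGroup.mk' P) (K := Subgroup.zpowers u)
    rw [QuotientGroup.ker_mk', MonoidHom.map_zpowers, Nat.card_zpowers] at h2
    exact h2
  rw [h1]
  apply orderOf_dvd_of_pow_eq_one
  rw [← map_pow]
  exact (QuotientGroup.eq_one_iff _).mpr hu

/-- If `u ^ p ∈ P` (`p > 0`) then `[⟨u⟩ P : P]` is finite. -/
theorem h2g_relIndex_zpowers_ne_zero (P : Subgroup G) (u : G) (p : ℕ) (hp : 0 < p)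
    (hu : u ^ p ∈ P) : P.relIndex (Subgroup.zpowers u ⊔ P) ≠ 0 := by
  intro hz
  have hd := h2g_relIndex_zpowers_dvd P u p hu
  rw [hz, zero_dvd_iff] at hd
  omega

set_option linter.unusedVariables false in
/-- Adjoining to `P` an element `u` with `u ^ p ∈ P` divides the relative index by at most `p`. -/
theorem h2g_relIndex_zpowers_sup (P K : Subgroup G) (u : G) (p : ℕ) (hp : 0 < p) (hu : u ^ p ∈ P)
    (h0 : (Subgroup.zpowers u ⊔ P).relIndex K ≠ 0) :
    P.relIndex K ≤ p * (Subgroup.zpowers u ⊔ P).relIndex K := by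
  have hPZ : P ≤ Subgroup.zpowers u ⊔ P := le_sup_right
  have h1 : P.relIndex ((Subgroup.zpowers u ⊔ P) ⊓ K) * (Subgroup.zpowers u ⊔ P).relIndex K =
      P.relIndex K := by
    rw [Subgroup.relIndex_inf_mul_relIndex, inf_eq_left.mpr hPZ]
  have hd := h2g_relIndex_zpowers_dvd P u p hu
  have hZ0 := h2g_relIndex_zpowers_ne_zero P u p hp hu
  have h2 : P.relIndex ((Subgroup.zpowers u ⊔ P) ⊓ K) ≤ P.relIndex (Subgroup.zpowers u ⊔ P) :=
    Subgroup.relIndex_le_of_le_right inf_le_left hZ0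
  have h3 : P.relIndex (Subgroup.zpowers u ⊔ P) ≤ p := Nat.le_of_dvd hp hd
  rw [← h1]
  exact Nat.mul_le_mul_right _ (h2.trans h3)

/-- Companion of `h2g_relIndex_zpowers_sup`: the relative index of `P` in `K` is finite. -/
theorem h2g_relIndex_zpowers_sup_ne_zero (P K : Subgroup G) (u : G) (p : ℕ) (hp : 0 < p)
    (hu : u ^ p ∈ P) (h0 : (Subgroup.zpowers u ⊔ P).relIndex K ≠ 0) : P.relIndex K ≠ 0 := by
  have hPZ : P ≤ Subgroup.zpowers u ⊔ P := le_sup_right
  have h1 : P.relIndex ((Subgroup.zpowers u ⊔ P) ⊓ K) * (Subgroup.zpowers u ⊔ P).relIndex K =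
      P.relIndex K := by
    rw [Subgroup.relIndex_inf_mul_relIndex, inf_eq_left.mpr hPZ]
  have hZ0 := h2g_relIndex_zpowers_ne_zero P u p hp hu
  have h2 : P.relIndex ((Subgroup.zpowers u ⊔ P) ⊓ K) ≠ 0 :=
    fun hz => hZ0 (Subgroup.relIndex_eq_zero_of_le_right inf_le_left hz)
  rw [← h1]
  exact mul_ne_zero h2 h0

end H2Group

/-- [A9] abstract counting. -/
theorem h2_exists_pow_mul_mem {G : Type*} [CommGroup G] (p : ℕ) [Fact p.Prime] (A D : Subgroup G)
    (n : ℕ) (hD0 : D.index ≠ 0) (hD : D.index ≤ p ^ (n + 1)) (hA : p ^ n ≤ D.relIndex A)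
    (hpow : (powMonoidHom p : G →* G).range ≤ D)
    (x y : G) (hy : y ∉ A ⊔ D) : ∃ j : ℕ, x * y ^ j ∈ A ⊔ D := by
  have hp : p.Prime := Fact.out
  have h1 : D.relIndex (A ⊔ D) * (A ⊔ D).index = D.index :=
    Subgroup.relIndex_mul_index le_sup_right
  rw [Subgroup.relIndex_sup_right] at h1
  have hE0 : (A ⊔ D).index ≠ 0 := fun hz => hD0 (by rw [← h1, hz, mul_zero])
  have hEle : (A ⊔ D).index ≤ p := by
    have h2 : p ^ n * (A ⊔ D).index ≤ p ^ n * p :=
      calc p ^ n * (A ⊔ D).index ≤ D.relIndex A * (A ⊔ D).index := Nat.mul_le_mul_right _ hA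
        _ = D.index := h1
        _ ≤ p ^ (n + 1) := hD
        _ = p ^ n * p := pow_succ p n
    exact Nat.le_of_mul_le_mul_left h2 (pow_pos hp.pos n)
  have hyp : y ^ p ∈ A ⊔ D := (le_sup_right : D ≤ A ⊔ D) (hpow ⟨y, rfl⟩)
  have hdvd : p ∣ (A ⊔ D).index := h2g_prime_dvd_index p (A ⊔ D) y hy hyp
  have hcard : Nat.card (G ⧸ (A ⊔ D)) = p := by
    rw [← Subgroup.index_eq_card]
    exact le_antisymm hEle (Nat.le_of_dvd (Nat.pos_of_ne_zero hE0) hdvd)
  have hy1 : ((y : G) : G ⧸ (A ⊔ D)) ≠ 1 := fun h => hy ((QuotientGroup.eq_one_iff y).mp h)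
  obtain ⟨j, hj⟩ := mem_powers_of_prime_card hcard (g' := ((x : G) : G ⧸ (A ⊔ D))⁻¹) hy1
  have hj' : ((y : G) : G ⧸ (A ⊔ D)) ^ j = ((x : G) : G ⧸ (A ⊔ D))⁻¹ := hj
  refine ⟨j, ?_⟩
  rw [← QuotientGroup.eq_one_iff, QuotientGroup.mk_mul, QuotientGroup.mk_pow, hj',
    mul_inv_cancel]

end Fermat.Agent.S14
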