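import Mathlib
import Fermat.Agent.S14.Defs
import Fermat.Agent.S14.H2Defs

/-!
# P18 (S14), block H2: weak approximation at finitely many primes of a number field

* `h2_approx`          : simultaneous multiplicative approximation of elements of `Fˣ` at
                         finitely many primes;
* `h2D_exists_global`  : an element of `h2D F p T n` has a single global witness `z` working
                         at every prime of `T`;
* `h2_exists_num_den`  : an element of `F` integral at every prime of `T` is a quotient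
                         `a / b` of integers with `b` prime to every prime of `T`.
-/

set_option autoImplicit false

namespace Fermat.Agent.S14

open NumberField IsDedekindDomain

/-- Chinese remainder theorem at finitely many primes of a Dedekind domain. -/
theorem h2ap_crt {R : Type*} [CommRing R] [IsDedekindDomain R]
    (T : Finset (HeightOneSpectrum R)) (c : HeightOneSpectrum R → R)
    (e : HeightOneSpectrum R → ℕ) :
    ∃ y : R, ∀ v ∈ T, y - c v ∈ v.asIdeal ^ e v := by
  obtain ⟨y, hy⟩ := IsDedekindDomain.exists_forall_sub_mem_ideal (s := T)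
    (fun v => v.asIdeal) e (fun v _ => v.prime)
    (fun v _ w _ hvw h => hvw (HeightOneSpectrum.ext h)) (fun i => c i.1)
  exact ⟨y, fun v hv => hy v hv⟩

/-- If `x - y` is small relative to `y`, then `x / y` is a unit close to `1`. -/
theorem h2ap_val_close {K : Type*} [Field K] (v : Valuation K (WithZero (Multiplicative ℤ)))
    (x y : K) (n : ℕ) (hy : y ≠ 0) (h : v (x - y) ≤ WithZero.exp (-((n : ℤ) + 1)) * v y) :
    v (x / y) = 1 ∧ v (x / y - 1) ≤ WithZero.exp (-(n : ℤ)) := by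
  have hvy : v y ≠ 0 := (Valuation.ne_zero_iff v).2 hy
  have h1 : x / y - 1 = (x - y) / y := by field_simp
  have h2 : v (x / y - 1) ≤ WithZero.exp (-((n : ℤ) + 1)) := by
    rw [h1, map_div₀]
    exact (div_le_iff₀ (zero_lt_iff.2 hvy)).2 h
  have h3 : WithZero.exp (-((n : ℤ) + 1)) < (1 : WithZero (Multiplicative ℤ)) := by
    rw [← WithZero.exp_zero, WithZero.exp_lt_exp]; omega
  refine ⟨?_, h2.trans ?_⟩
  · have h4 : x / y = 1 + (x / y - 1) := by ring
    rw [h4]
    exact Valuation.map_one_add_of_lt v (lt_of_le_of_lt h2 h3)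
  · rw [WithZero.exp_le_exp]; omega

/-- Powers of a unit close to `1` are close to `1`. -/
theorem h2ap_pow_close {K : Type*} [Field K] (v : Valuation K (WithZero (Multiplicative ℤ)))
    (s : K) (γ : WithZero (Multiplicative ℤ)) (hs1 : v s = 1) (hs2 : v (s - 1) ≤ γ) (p : ℕ) :
    v (s ^ p - 1) ≤ γ := by
  induction p with
  | zero => simp
  | succ k ih =>
    have h1 : s ^ (k + 1) - 1 = s ^ k * (s - 1) + (s ^ k - 1) := by ring
    rw [h1]
    refine (Valuation.map_add _ _ _).trans (max_le ?_ ih)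
    rw [map_mul, map_pow, hs1, one_pow, one_mul]
    exact hs2

/-- Prime avoidance for finitely many height one primes of a Dedekind domain. -/
theorem h2ap_avoid {R : Type*} [CommRing R] [IsDedekindDomain R]
    (T : Finset (HeightOneSpectrum R)) (v₀ : HeightOneSpectrum R) (I : Ideal R)
    (h : ∀ v ∈ T, ∃ b ∈ I, b ∉ v.asIdeal) :
    ∃ b ∈ I, ∀ v ∈ T, b ∉ v.asIdeal := by
  by_contra hcon
  have hsub : (I : Set R) ⊆ ⋃ v ∈ (T : Set (HeightOneSpectrum R)), (v.asIdeal : Set R) := by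
    intro b hb
    by_contra hb'
    exact hcon ⟨b, hb, fun v hv hbv => hb' (Set.mem_biUnion hv hbv)⟩
  obtain ⟨v, hv, hIv⟩ := (Ideal.subset_union_prime (s := T) (f := fun v => v.asIdeal) v₀ v₀
    (fun v _ _ _ => v.isPrime)).1 hsub
  obtain ⟨b, hb, hbv⟩ := h v hv
  exact hbv (hIv hb)

/-- Weak approximation in `Fˣ` at finitely many primes. -/
theorem h2_approx (F : Type*) [Field F] [NumberField F] (T : Finset (HeightOneSpectrum (𝓞 F)))
    (z : HeightOneSpectrum (𝓞 F) → Fˣ) (n : HeightOneSpectrum (𝓞 F) → ℕ) :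
    ∃ w : Fˣ, ∀ v ∈ T, v.valuation F ((w : F) / (z v : F)) = 1 ∧
      v.valuation F ((w : F) / (z v : F) - 1) ≤ WithZero.exp (-(n v : ℤ)) := by
  classical
  rcases T.eq_empty_or_nonempty with rfl | ⟨v₀, hv₀⟩
  · exact ⟨1, by simp⟩
  -- a common denominator `b` for the `z v`, `v ∈ T`
  obtain ⟨b, hb⟩ := IsLocalization.exist_integer_multiples_of_finset (nonZeroDivisors (𝓞 F))
    (T.image (fun v => (z v : F)))
  have hb0 : algebraMap (𝓞 F) F (b : 𝓞 F) ≠ 0 :=
    IsFractionRing.to_map_ne_zero_of_mem_nonZeroDivisors b.2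
  have key : ∀ v : HeightOneSpectrum (𝓞 F), ∃ a : 𝓞 F, v ∈ T →
      algebraMap (𝓞 F) F a = algebraMap (𝓞 F) F (b : 𝓞 F) * (z v : F) := by
    intro v
    by_cases hv : v ∈ T
    · obtain ⟨a, ha⟩ := hb (z v : F) (Finset.mem_image_of_mem _ hv)
      exact ⟨a, fun _ => by rw [ha, Algebra.smul_def]⟩
    · exact ⟨0, fun h => absurd h hv⟩
  choose a ha using key
  have ha0' : ∀ v ∈ T, algebraMap (𝓞 F) F (a v) ≠ 0 := by
    intro v hv
    rw [ha v hv]
    exact mul_ne_zero hb0 (z v).ne_zero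
  have ha0 : ∀ v ∈ T, a v ≠ 0 := by
    intro v hv h0
    exact ha0' v hv (by rw [h0, map_zero])
  have hm : ∀ v : HeightOneSpectrum (𝓞 F), ∃ m : ℕ, v ∈ T →
      v.intValuation (a v) = WithZero.exp (-(m : ℤ)) := by
    intro v
    by_cases hv : v ∈ T
    · exact ⟨_, fun _ => v.intValuation_if_neg (ha0 v hv)⟩
    · exact ⟨0, fun h => absurd h hv⟩
  choose m hm using hm
  -- Chinese remainders: `c` close to `a v` at every `v ∈ T`
  obtain ⟨c, hc⟩ := h2ap_crt T a (fun v => n v + 1 + m v)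
  have hclose : ∀ v ∈ T,
      v.valuation F (algebraMap (𝓞 F) F c - algebraMap (𝓞 F) F (a v)) ≤
        WithZero.exp (-((n v : ℤ) + 1)) * v.valuation F (algebraMap (𝓞 F) F (a v)) := by
    intro v hv
    rw [← map_sub, HeightOneSpectrum.valuation_of_algebraMap,
      HeightOneSpectrum.valuation_of_algebraMap, hm v hv, ← WithZero.exp_add]
    have h1 := (v.intValuation_le_pow_iff_mem _ _).2 (hc v hv)
    refine h1.trans (le_of_eq ?_)
    congr 1
    push_cast
    ring
  have hc0 : algebraMap (𝓞 F) F c ≠ 0 := by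
    intro h0
    have h1 := (h2ap_val_close (v₀.valuation F) _ _ (n v₀) (ha0' v₀ hv₀) (hclose v₀ hv₀)).1
    rw [h0, zero_div, map_zero] at h1
    exact zero_ne_one h1
  refine ⟨Units.mk0 (algebraMap (𝓞 F) F c / algebraMap (𝓞 F) F (b : 𝓞 F))
    (div_ne_zero hc0 hb0), fun v hv => ?_⟩
  have hq : ((Units.mk0 (algebraMap (𝓞 F) F c / algebraMap (𝓞 F) F (b : 𝓞 F))
      (div_ne_zero hc0 hb0) : Fˣ) : F) / (z v : F) =
      algebraMap (𝓞 F) F c / algebraMap (𝓞 F) F (a v) := by
    have hz0 : (z v : F) ≠ 0 := (z v).ne_zero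
    rw [Units.val_mk0, ha v hv]
    field_simp
  rw [hq]
  exact h2ap_val_close (v.valuation F) _ _ (n v) (ha0' v hv) (hclose v hv)

/-- A global `p`-th root witness for an element of `h2D`. -/
theorem h2D_exists_global (F : Type*) [Field F] [NumberField F] (p : ℕ)
    (T : Finset (HeightOneSpectrum (𝓞 F))) (n : HeightOneSpectrum (𝓞 F) → ℕ) (y : Fˣ)
    (hy : y ∈ h2D F p T n) :
    ∃ z : Fˣ, ∀ v ∈ T, v.valuation F ((y : F) / (z : F) ^ p) = 1 ∧
      v.valuation F ((y : F) / (z : F) ^ p - 1) ≤ WithZero.exp (-(n v : ℤ)) := by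
  classical
  have key : ∀ v : HeightOneSpectrum (𝓞 F), ∃ z : Fˣ, v ∈ T →
      (v.valuation F ((y : F) / (z : F) ^ p) = 1 ∧
        v.valuation F ((y : F) / (z : F) ^ p - 1) ≤ WithZero.exp (-(n v : ℤ))) := by
    intro v
    by_cases hv : v ∈ T
    · obtain ⟨z, hz⟩ := (mem_h2Dv F).1 ((mem_h2D F).1 hy v hv)
      exact ⟨z, fun _ => hz⟩
    · exact ⟨1, fun h => absurd h hv⟩
  choose z hz using key
  obtain ⟨w, hw⟩ := h2_approx F T z n
  refine ⟨w, fun v hv => ?_⟩
  obtain ⟨hu1, hu2⟩ := hz v hv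
  obtain ⟨hs1, hs2⟩ := hw v hv
  have hz0 : (z v : F) ≠ 0 := (z v).ne_zero
  have hw0 : (w : F) ≠ 0 := w.ne_zero
  have hsp := h2ap_pow_close (v.valuation F) ((w : F) / (z v : F)) _ hs1 hs2 p
  have e1 : (y : F) / (w : F) ^ p = ((y : F) / (z v : F) ^ p) / ((w : F) / (z v : F)) ^ p := by
    rw [div_pow]
    field_simp
  have e2 : ((y : F) / (z v : F) ^ p) / ((w : F) / (z v : F)) ^ p - 1 =
      (((y : F) / (z v : F) ^ p - 1) - (((w : F) / (z v : F)) ^ p - 1)) /
        ((w : F) / (z v : F)) ^ p := by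
    field_simp
    ring
  constructor
  · rw [e1, map_div₀, hu1, map_pow, hs1, one_pow, div_one]
  · rw [e1, e2, map_div₀, map_pow, hs1, one_pow, div_one]
    exact (Valuation.map_sub _ _ _).trans (max_le hu2 hsp)

/-- Numerator and denominator with denominator prime to `T`. -/
theorem h2_exists_num_den (F : Type*) [Field F] [NumberField F]
    (T : Finset (HeightOneSpectrum (𝓞 F))) (x : F) (hx : ∀ v ∈ T, v.valuation F x ≤ 1) :
    ∃ a b : 𝓞 F, b ≠ 0 ∧ (∀ v ∈ T, b ∉ v.asIdeal) ∧ x = (a : F) / (b : F) := by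
  rcases T.eq_empty_or_nonempty with rfl | ⟨v₀, hv₀⟩
  · obtain ⟨a, b, hb, hab⟩ := IsFractionRing.div_surjective (𝓞 F) x
    exact ⟨a, b, nonZeroDivisors.ne_zero hb, by simp, hab.symm⟩
  -- the ideal of denominators of `x`
  let I : Ideal (𝓞 F) :=
    { carrier := {b | ∃ a : 𝓞 F, algebraMap (𝓞 F) F b * x = algebraMap (𝓞 F) F a}
      add_mem' := by
        rintro b c ⟨a, ha⟩ ⟨a', ha'⟩
        exact ⟨a + a', by rw [map_add, add_mul, ha, ha', map_add]⟩
      zero_mem' := ⟨0, by simp⟩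
      smul_mem' := by
        rintro c b ⟨a, ha⟩
        exact ⟨c * a, by rw [smul_eq_mul, map_mul, mul_assoc, ha, map_mul]⟩ }
  have hI : ∀ v ∈ T, ∃ b ∈ I, b ∉ v.asIdeal := by
    intro v hv
    obtain ⟨a, d, had⟩ := v.exists_primeCompl_mul_eq_of_integer x (hx v hv)
    exact ⟨d, ⟨a, by rw [mul_comm]; exact had⟩, d.2⟩
  obtain ⟨b, ⟨a, hab⟩, hb⟩ := h2ap_avoid T v₀ I hI
  have hb0 : b ≠ 0 := fun h0 => hb v₀ hv₀ (h0 ▸ zero_mem _)
  have hb0' : algebraMap (𝓞 F) F b ≠ 0 := by
    intro h0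
    exact hb0 ((map_eq_zero_iff _ (IsFractionRing.injective (𝓞 F) F)).1 h0)
  refine ⟨a, b, hb0, hb, ?_⟩
  rw [eq_div_iff hb0', mul_comm]
  exact hab

end Fermat.Agent.S14
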