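import Mathlib
import Fermat.Agent.S14.Defs
import Fermat.Agent.S14.H2Defs
import Fermat.Agent.S14.H2Approx

/-!
# P18 (S14), block H2, slice [A7]: from local to global

An element `y` of `h2D F p S₀ (fun _ => N)` (a local `p`-th power to precision `N` at every prime
of `S₀`) can be written `y = z ^ p * (b / a)` with `a, b ∈ 𝓞 F` prime to `S₀` and
`a ≡ b` modulo `(∏ v ∈ S₀, v) ^ N`.

* `h2r_mem_prod_pow`              : membership in `(∏ v ∈ S, v) ^ N` is tested prime by prime;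
* `h2r_exists_ray_of_mem_D_core`  : the statement with the two approximation lemmas for `F`
                                    (`h2D_exists_global`, `h2_exists_num_den`) as hypotheses;
* `h2_exists_ray_of_mem_D`        : the interface theorem.
-/

set_option autoImplicit false

namespace Fermat.Agent.S14

open NumberField IsDedekindDomain

/-- Membership in `(∏ v ∈ S, v) ^ N` can be tested prime by prime. -/
theorem h2r_mem_prod_pow (F : Type*) [Field F] [NumberField F]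
    (S : Finset (HeightOneSpectrum (𝓞 F))) (N : ℕ) (c : 𝓞 F)
    (h : ∀ v ∈ S, c ∈ v.asIdeal ^ N) : c ∈ (∏ v ∈ S, v.asIdeal) ^ N := by
  rw [← Finset.prod_pow, ← HeightOneSpectrum.inf_pow_eq_prod S (fun _ => N) (fun v => v)
    (fun i _ j _ hij => hij), Submodule.mem_finsetInf]
  exact h

/-- [A7], core: the statement with the two approximation lemmas for `F` as hypotheses. -/
theorem h2r_exists_ray_of_mem_D_core (p : ℕ) (F : Type*) [Field F] [NumberField F]
    (hG : ∀ (T : Finset (HeightOneSpectrum (𝓞 F))) (n : HeightOneSpectrum (𝓞 F) → ℕ) (y : Fˣ),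
      y ∈ h2D F p T n → ∃ z : Fˣ, ∀ v ∈ T, v.valuation F ((y : F) / (z : F) ^ p) = 1 ∧
        v.valuation F ((y : F) / (z : F) ^ p - 1) ≤ WithZero.exp (-(n v : ℤ)))
    (hND : ∀ (T : Finset (HeightOneSpectrum (𝓞 F))) (x : F), (∀ v ∈ T, v.valuation F x ≤ 1) →
      ∃ a b : 𝓞 F, b ≠ 0 ∧ (∀ v ∈ T, b ∉ v.asIdeal) ∧ x = (a : F) / (b : F))
    (S₀ : Finset (HeightOneSpectrum (𝓞 F))) (N : ℕ) (y : Fˣ)
    (hy : y ∈ h2D F p S₀ (fun _ => N)) :
    ∃ (z : Fˣ) (a b : 𝓞 F), (∀ v ∈ S₀, a ∉ v.asIdeal) ∧ (∀ v ∈ S₀, b ∉ v.asIdeal) ∧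
      a - b ∈ (∏ v ∈ S₀, v.asIdeal) ^ N ∧
      (y : F) * algebraMap (𝓞 F) F a = (z : F) ^ p * algebraMap (𝓞 F) F b := by
  obtain ⟨z, hz⟩ := hG S₀ (fun _ => N) y hy
  obtain ⟨b, a, ha0, haS, hba⟩ := hND S₀ ((y : F) / (z : F) ^ p) (fun v hv => (hz v hv).1.le)
  have haF : algebraMap (𝓞 F) F a ≠ 0 := RingOfIntegers.coe_ne_zero_iff.mpr ha0
  have hzp : (z : F) ^ p ≠ 0 := pow_ne_zero _ z.ne_zero
  have hba' : (y : F) / (z : F) ^ p = algebraMap (𝓞 F) F b / algebraMap (𝓞 F) F a := hba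
  have hbt : algebraMap (𝓞 F) F b = (y : F) / (z : F) ^ p * algebraMap (𝓞 F) F a := by
    rw [hba', div_mul_cancel₀ _ haF]
  have hva : ∀ v ∈ S₀, v.valuation F (algebraMap (𝓞 F) F a) = 1 := fun v hv =>
    (HeightOneSpectrum.valuation_eq_one_iff_notMem v).mpr (haS v hv)
  refine ⟨z, a, b, haS, ?_, ?_, ?_⟩
  · intro v hv
    apply (HeightOneSpectrum.valuation_eq_one_iff_notMem (K := F) v).mp
    rw [hbt, map_mul, (hz v hv).1, one_mul]
    exact hva v hv
  · apply h2r_mem_prod_pow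
    intro v hv
    rw [← v.intValuation_le_pow_iff_mem, ← v.valuation_of_algebraMap (K := F)]
    show v.valuation F (algebraMap (𝓞 F) F (a - b)) ≤ WithZero.exp (-(N : ℤ))
    have h4 : algebraMap (𝓞 F) F (a - b) =
        -(((y : F) / (z : F) ^ p - 1) * algebraMap (𝓞 F) F a) := by
      rw [map_sub, hbt]
      ring
    rw [h4, Valuation.map_neg, map_mul, hva v hv, mul_one]
    exact (hz v hv).2
  · rw [hbt]
    field_simp

/-- [A7] from local to global: an element of `D` is `z ^ p * (b / a)` with `a ≡ b` modulo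
`(∏ S₀) ^ N`, both prime to `S₀`. -/
theorem h2_exists_ray_of_mem_D (p : ℕ) [Fact p.Prime] (F : Type*) [Field F] [NumberField F]
    (S₀ : Finset (HeightOneSpectrum (𝓞 F))) (N : ℕ) (y : Fˣ)
    (hy : y ∈ h2D F p S₀ (fun _ => N)) :
    ∃ (z : Fˣ) (a b : 𝓞 F), (∀ v ∈ S₀, a ∉ v.asIdeal) ∧ (∀ v ∈ S₀, b ∉ v.asIdeal) ∧
      a - b ∈ (∏ v ∈ S₀, v.asIdeal) ^ N ∧
      (y : F) * algebraMap (𝓞 F) F a = (z : F) ^ p * algebraMap (𝓞 F) F b :=
  h2r_exists_ray_of_mem_D_core p F (h2D_exists_global F p) (h2_exists_num_den F) S₀ N y hy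

end Fermat.Agent.S14
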