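import Mathlib
import Fermat.Agent.S14.Defs
import Fermat.Agent.S14.H2Defs
import Fermat.Agent.S14.H2Ray

/-!
# P18 (S14), block H2, slice [A8]: ideal bookkeeping

If `(x) = 𝔞 𝔰` with `𝔰` supported on `S₀` and `x ∈ A · D` then `𝔞 ~ ⊤` in the sense of
`RayNormRel`.  The proof compares the exponents of every prime in two integral ideals; the
exponents are measured by `FractionalIdeal.count`.
-/

set_option autoImplicit false

namespace Fermat.Agent.S14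

open NumberField IsDedekindDomain

section generic

variable {R : Type*} [CommRing R] [IsDedekindDomain R]

/-- The exponent of the prime `v` in the integral ideal `I`, as an integer. -/
noncomputable def h2i_cnt (v : HeightOneSpectrum R) (I : Ideal R) : ℤ :=
  FractionalIdeal.count (FractionRing R) v (I : FractionalIdeal (nonZeroDivisors R) (FractionRing R))

theorem h2i_cnt_nonneg (v : HeightOneSpectrum R) (I : Ideal R) : 0 ≤ h2i_cnt v I :=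
  FractionalIdeal.count_coe_nonneg _ v I

theorem h2i_cnt_mul (v : HeightOneSpectrum R) {I J : Ideal R} (hI : I ≠ ⊥) (hJ : J ≠ ⊥) :
    h2i_cnt v (I * J) = h2i_cnt v I + h2i_cnt v J := by
  unfold h2i_cnt
  rw [FractionalIdeal.coeIdeal_mul, FractionalIdeal.count_mul _ v
    (FractionalIdeal.coeIdeal_ne_zero.mpr hI) (FractionalIdeal.coeIdeal_ne_zero.mpr hJ)]

theorem h2i_cnt_pow (v : HeightOneSpectrum R) (I : Ideal R) (n : ℕ) :
    h2i_cnt v (I ^ n) = n * h2i_cnt v I := by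
  unfold h2i_cnt
  rw [FractionalIdeal.coeIdeal_pow, FractionalIdeal.count_pow]

theorem h2i_cnt_top (v : HeightOneSpectrum R) : h2i_cnt v (⊤ : Ideal R) = 0 := by
  unfold h2i_cnt
  rw [FractionalIdeal.coeIdeal_top, FractionalIdeal.count_one]

/-- The exponent of `v` in `I` is positive when `I ≤ v`. -/
theorem h2i_cnt_pos (v : HeightOneSpectrum R) {I : Ideal R} (hI : I ≠ ⊥) (h : I ≤ v.asIdeal) :
    1 ≤ h2i_cnt v I := by
  unfold h2i_cnt
  have h1 := FractionalIdeal.count_mono (K := FractionRing R) v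
    (FractionalIdeal.coeIdeal_ne_zero.mpr hI) (FractionalIdeal.coeIdeal_le_coeIdeal _ |>.mpr h)
  rwa [FractionalIdeal.count_self] at h1

/-- The exponent of `v` in `I` vanishes when `I` is not contained in `v`. -/
theorem h2i_cnt_eq_zero (v : HeightOneSpectrum R) {I : Ideal R} (hI : I ≠ ⊥)
    (h : ¬ I ≤ v.asIdeal) : h2i_cnt v I = 0 := by
  unfold h2i_cnt
  rw [FractionalIdeal.count_coe _ v hI, Nat.cast_eq_zero]
  by_contra hne
  exact h (Ideal.le_of_dvd ((Associates.count_ne_zero_iff_dvd hI v.irreducible).mp hne))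

theorem h2i_not_le_of_cnt (v : HeightOneSpectrum R) {I : Ideal R} (hI : I ≠ ⊥)
    (h : h2i_cnt v I = 0) : ¬ I ≤ v.asIdeal := by
  intro hle
  have := h2i_cnt_pos v hI hle
  omega

/-- The valuation of an element in terms of the exponent of its principal ideal. -/
theorem h2i_intValuation (v : HeightOneSpectrum R) {r : R} (hr : r ≠ 0) :
    v.intValuation r = WithZero.exp (-(h2i_cnt v (Ideal.span {r}))) := by
  have hs : Ideal.span {r} ≠ (0 : Ideal R) := by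
    rw [Ideal.zero_eq_bot, Ne, Ideal.span_singleton_eq_bot]
    exact hr
  unfold h2i_cnt
  rw [v.intValuation_if_neg hr, FractionalIdeal.count_coe _ v hs]

/-- Two nonzero ideals with the same exponents at all primes are equal. -/
theorem h2i_ext {I J : Ideal R} (hI : I ≠ ⊥) (hJ : J ≠ ⊥)
    (h : ∀ v : HeightOneSpectrum R, h2i_cnt v I = h2i_cnt v J) : I = J := by
  have key : (I : FractionalIdeal (nonZeroDivisors R) (FractionRing R)) =
      (J : FractionalIdeal (nonZeroDivisors R) (FractionRing R)) := by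
    rw [← FractionalIdeal.finprod_heightOneSpectrum_factorization' (FractionRing R)
        (FractionalIdeal.coeIdeal_ne_zero.mpr hI),
      ← FractionalIdeal.finprod_heightOneSpectrum_factorization' (FractionRing R)
        (FractionalIdeal.coeIdeal_ne_zero.mpr hJ)]
    refine finprod_congr fun v => ?_
    have := h v
    unfold h2i_cnt at this
    rw [this]
  exact FractionalIdeal.coeIdeal_injective key

theorem h2i_prod_ne_bot (P : Finset (HeightOneSpectrum R)) (n : HeightOneSpectrum R → ℕ) :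
    (∏ v ∈ P, v.asIdeal ^ n v) ≠ ⊥ := by
  rw [← Ideal.zero_eq_bot, Finset.prod_ne_zero_iff]
  intro v _
  exact pow_ne_zero _ v.ne_bot

open Classical in
/-- The exponents of a finite product of prime powers. -/
theorem h2i_cnt_prod (v₀ : HeightOneSpectrum R) (P : Finset (HeightOneSpectrum R))
    (n : HeightOneSpectrum R → ℕ) :
    h2i_cnt v₀ (∏ v ∈ P, v.asIdeal ^ n v) = if v₀ ∈ P then (n v₀ : ℤ) else 0 := by
  unfold h2i_cnt
  have h1 : ((∏ v ∈ P, v.asIdeal ^ n v : Ideal R) :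
      FractionalIdeal (nonZeroDivisors R) (FractionRing R)) =
      ∏ v ∈ P, ((v.asIdeal : FractionalIdeal (nonZeroDivisors R) (FractionRing R)) ^ n v) := by
    have h2 := map_prod (FractionalIdeal.coeIdealHom (nonZeroDivisors R) (FractionRing R))
      (fun v : HeightOneSpectrum R => v.asIdeal ^ n v) P
    simp only [map_pow] at h2
    exact h2
  rw [h1, FractionalIdeal.count_prod]
  · simp only [FractionalIdeal.count_pow, FractionalIdeal.count_maximal, mul_ite, mul_one,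
      mul_zero, Finset.sum_ite_eq']
  · intro v _
    exact pow_ne_zero _ (FractionalIdeal.coeIdeal_ne_zero.mpr v.ne_bot)

/-- An ideal contained in no prime of `S₀` is coprime to every power of `∏ S₀`. -/
theorem h2i_isCoprime {I : Ideal R} (S₀ : Finset (HeightOneSpectrum R)) (N : ℕ)
    (h : ∀ v ∈ S₀, ¬ I ≤ v.asIdeal) : IsCoprime I ((∏ v ∈ S₀, v.asIdeal) ^ N) := by
  rw [Ideal.isCoprime_iff_sup_eq]
  by_contra hne
  obtain ⟨𝔪, h𝔪, hle⟩ := Ideal.exists_le_maximal _ hne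
  have h1 : I ≤ 𝔪 := le_sup_left.trans hle
  have h2 : (∏ v ∈ S₀, v.asIdeal) ^ N ≤ 𝔪 := le_sup_right.trans hle
  have hp : 𝔪.IsPrime := h𝔪.isPrime
  have h3 : (∏ v ∈ S₀, v.asIdeal) ≤ 𝔪 := Ideal.IsPrime.le_of_pow_le h2
  obtain ⟨v, hv, hv2⟩ := (Ideal.IsPrime.prod_le hp).mp h3
  have h4 : v.asIdeal = 𝔪 := v.isMaximal.eq_of_le h𝔪.ne_top hv2
  exact h v hv (h4 ▸ h1)

omit [IsDedekindDomain R] in
/-- An ideal coprime to a positive power of `∏ S₀` is contained in no prime of `S₀`. -/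
theorem h2i_not_le_of_isCoprime {I : Ideal R} (S₀ : Finset (HeightOneSpectrum R)) (N : ℕ)
    (hN : 1 ≤ N) (h : IsCoprime I ((∏ v ∈ S₀, v.asIdeal) ^ N)) (v : HeightOneSpectrum R)
    (hv : v ∈ S₀) : ¬ I ≤ v.asIdeal := by
  intro hle
  rw [Ideal.isCoprime_iff_sup_eq] at h
  have h1 : (∏ v ∈ S₀, v.asIdeal) ^ N ≤ v.asIdeal :=
    (Ideal.pow_le_self (by omega)).trans (Ideal.le_of_dvd (Finset.dvd_prod_of_mem _ hv))
  have h2 := sup_le hle h1
  rw [h] at h2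
  exact v.isPrime.ne_top (top_le_iff.mp h2)

/-- The part of the ideal `I` supported on the finite set of primes `P`. -/
noncomputable def h2i_part (P : Finset (HeightOneSpectrum R)) (I : Ideal R) : Ideal R :=
  ∏ v ∈ P, v.asIdeal ^ (h2i_cnt v I).toNat

theorem h2i_part_ne_bot (P : Finset (HeightOneSpectrum R)) (I : Ideal R) : h2i_part P I ≠ ⊥ :=
  h2i_prod_ne_bot P _

open Classical in
theorem h2i_cnt_part (v₀ : HeightOneSpectrum R) (P : Finset (HeightOneSpectrum R))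
    (I : Ideal R) : h2i_cnt v₀ (h2i_part P I) = if v₀ ∈ P then h2i_cnt v₀ I else 0 := by
  unfold h2i_part
  rw [h2i_cnt_prod, Int.toNat_of_nonneg (h2i_cnt_nonneg v₀ I)]

theorem h2i_cnt_part_of_mem {v₀ : HeightOneSpectrum R} {P : Finset (HeightOneSpectrum R)}
    (h : v₀ ∈ P) (I : Ideal R) : h2i_cnt v₀ (h2i_part P I) = h2i_cnt v₀ I := by
  classical
  rw [h2i_cnt_part, if_pos h]

theorem h2i_cnt_part_of_notMem {v₀ : HeightOneSpectrum R} {P : Finset (HeightOneSpectrum R)}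
    (h : v₀ ∉ P) (I : Ideal R) : h2i_cnt v₀ (h2i_part P I) = 0 := by
  classical
  rw [h2i_cnt_part, if_neg h]

omit [IsDedekindDomain R] in
theorem h2i_span_ne_bot {r : R} (hr : r ≠ 0) : Ideal.span {r} ≠ (⊥ : Ideal R) := by
  rw [Ne, Ideal.span_singleton_eq_bot]
  exact hr

end generic

/-- The case `S₀ = ∅`: then `𝔰 = ⊤` and `𝔞 = (x)` is principal. -/
theorem h2i_empty (F M : Type*) [Field F] [NumberField F] [Field M] [NumberField M]
    [Algebra F M] (N : ℕ) (𝔞 : Ideal (𝓞 F)) (x : 𝓞 F) (hx : x ≠ 0) (𝔰 : Ideal (𝓞 F))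
    (h𝔰 : ∀ v : HeightOneSpectrum (𝓞 F), 𝔰 ≤ v.asIdeal →
      v ∈ (∅ : Finset (HeightOneSpectrum (𝓞 F))))
    (hx𝔞 : Ideal.span {x} = 𝔞 * 𝔰) :
    RayNormRel F M ((∏ v ∈ (∅ : Finset (HeightOneSpectrum (𝓞 F))), v.asIdeal) ^ N) 𝔞 ⊤ := by
  have h𝔰top : 𝔰 = ⊤ := by
    by_contra hne
    obtain ⟨𝔪, h𝔪, hle⟩ := Ideal.exists_le_maximal 𝔰 hne
    have h𝔪0 : 𝔪 ≠ ⊥ := by
      intro h0
      rw [h0, le_bot_iff] at hle
      rw [hle, Ideal.mul_bot, Ideal.span_singleton_eq_bot] at hx𝔞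
      exact hx hx𝔞
    have := h𝔰 ⟨𝔪, h𝔪.isPrime, h𝔪0⟩ hle
    simp at this
  have h𝔣 : (∏ v ∈ (∅ : Finset (HeightOneSpectrum (𝓞 F))), v.asIdeal) ^ N = ⊤ := by
    rw [Finset.prod_empty, one_pow, Ideal.one_eq_top]
  have hcop : ∀ I : Ideal (𝓞 F), IsCoprime I ⊤ := by
    intro I
    rw [← Ideal.one_eq_top]
    exact isCoprime_one_right
  rw [h𝔣]
  refine ⟨1, x, ⊤, ⊤, one_ne_zero, hx, Submodule.mem_top, hcop _, hcop _, top_ne_bot, top_ne_bot,
    hcop _, hcop _, ?_⟩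
  rw [Ideal.relNorm_top, Ideal.span_singleton_one, hx𝔞, h𝔰top]
  simp only [Ideal.mul_top, Ideal.top_mul]

/-- [A8] Step 7, ideal bookkeeping: if `(x) = 𝔞 𝔰` with `𝔰` supported on `S₀` and `x ∈ A · D`,
then `𝔞 ~ ⊤`. -/
theorem h2_rayNormRel_of_mem (p : ℕ) [Fact p.Prime]
    (F M : Type*) [Field F] [NumberField F] [Field M] [NumberField M] [Algebra F M] [IsGalois F M]
    (hdeg : Module.finrank F M = p)
    (S₀ T : Finset (HeightOneSpectrum (𝓞 F))) (N : ℕ) (hN : 1 ≤ N)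
    (hTS : ∀ v ∈ T, v ∉ S₀)
    (hsplit : ∀ v ∈ T, ∃ 𝔔 : Ideal (𝓞 M), 𝔔.IsPrime ∧ Ideal.relNorm (𝓞 F) 𝔔 = v.asIdeal)
    (𝔞 : Ideal (𝓞 F)) (h𝔞 : 𝔞 ≠ ⊥) (hcop : IsCoprime 𝔞 ((∏ v ∈ S₀, v.asIdeal) ^ N))
    (x : 𝓞 F) (hx : x ≠ 0) (𝔰 : Ideal (𝓞 F))
    (h𝔰 : ∀ v : HeightOneSpectrum (𝓞 F), 𝔰 ≤ v.asIdeal → v ∈ S₀)
    (hx𝔞 : Ideal.span {x} = 𝔞 * 𝔰)
    (xu : Fˣ) (hxu : (xu : F) = algebraMap (𝓞 F) F x)
    (hmem : xu ∈ h2U F ((S₀ : Set (HeightOneSpectrum (𝓞 F))) ∪ (T : Set (HeightOneSpectrum (𝓞 F))))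
      ⊔ h2D F p S₀ (fun _ => N)) :
    RayNormRel F M ((∏ v ∈ S₀, v.asIdeal) ^ N) 𝔞 ⊤ := by
  classical
  rcases S₀.eq_empty_or_nonempty with hS | ⟨v₁, hv₁⟩
  · subst hS
    exact h2i_empty F M N 𝔞 x hx 𝔰 h𝔰 hx𝔞
  -- decompose `xu = w * d` and apply [A7] to `d`
  obtain ⟨w, hw, d, hd, hwd⟩ := Subgroup.mem_sup.mp hmem
  obtain ⟨z, a, b, haS, hbS, hab, hrel⟩ := h2_exists_ray_of_mem_D p F S₀ N d hd
  have ha0 : a ≠ 0 := fun h => haS v₁ hv₁ (h ▸ zero_mem _)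
  have hb0 : b ≠ 0 := fun h => hbS v₁ hv₁ (h ▸ zero_mem _)
  have hinj : Function.Injective (algebraMap (𝓞 F) F) := IsFractionRing.injective (𝓞 F) F
  -- write `z` and `w` as fractions
  obtain ⟨c₁, c₂, hc₂, hz⟩ := IsFractionRing.div_surjective (A := 𝓞 F) (z : F)
  obtain ⟨w₁, w₂, hw₂, hwf⟩ := IsFractionRing.div_surjective (A := 𝓞 F) (w : F)
  have hc₂0 : c₂ ≠ 0 := nonZeroDivisors.ne_zero hc₂
  have hw₂0 : w₂ ≠ 0 := nonZeroDivisors.ne_zero hw₂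
  have hc₂' : algebraMap (𝓞 F) F c₂ ≠ 0 := fun h => hc₂0 (hinj (h.trans (map_zero _).symm))
  have hw₂' : algebraMap (𝓞 F) F w₂ ≠ 0 := fun h => hw₂0 (hinj (h.trans (map_zero _).symm))
  have hc₁0 : c₁ ≠ 0 := by
    rintro rfl
    rw [map_zero, zero_div] at hz
    exact z.ne_zero hz.symm
  have hw₁0 : w₁ ≠ 0 := by
    rintro rfl
    rw [map_zero, zero_div] at hwf
    exact w.ne_zero hwf.symm
  -- the identity `x a c₂^p w₂ = w₁ c₁^p b` in `𝓞 F`
  have hid : x * a * c₂ ^ p * w₂ = w₁ * c₁ ^ p * b := by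
    apply hinj
    simp only [map_mul, map_pow]
    have e1 : algebraMap (𝓞 F) F x = (w : F) * (d : F) := by
      rw [← hxu, ← hwd, Units.val_mul]
    have e2 : (w : F) * algebraMap (𝓞 F) F w₂ = algebraMap (𝓞 F) F w₁ := by
      rw [← hwf, div_mul_cancel₀ _ hw₂']
    have e3 : (z : F) * algebraMap (𝓞 F) F c₂ = algebraMap (𝓞 F) F c₁ := by
      rw [← hz, div_mul_cancel₀ _ hc₂']
    calc algebraMap (𝓞 F) F x * algebraMap (𝓞 F) F a * algebraMap (𝓞 F) F c₂ ^ p *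
          algebraMap (𝓞 F) F w₂
        = ((w : F) * algebraMap (𝓞 F) F w₂) * ((d : F) * algebraMap (𝓞 F) F a) *
          algebraMap (𝓞 F) F c₂ ^ p := by rw [e1]; ring
      _ = algebraMap (𝓞 F) F w₁ * ((z : F) * algebraMap (𝓞 F) F c₂) ^ p *
          algebraMap (𝓞 F) F b := by rw [e2, hrel]; ring
      _ = algebraMap (𝓞 F) F w₁ * algebraMap (𝓞 F) F c₁ ^ p * algebraMap (𝓞 F) F b := by rw [e3]
  have hsx : Ideal.span {x} ≠ (⊥ : Ideal (𝓞 F)) := h2i_span_ne_bot hx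
  have hsa : Ideal.span {a} ≠ (⊥ : Ideal (𝓞 F)) := h2i_span_ne_bot ha0
  have hsb : Ideal.span {b} ≠ (⊥ : Ideal (𝓞 F)) := h2i_span_ne_bot hb0
  have hsc₁ : Ideal.span {c₁} ≠ (⊥ : Ideal (𝓞 F)) := h2i_span_ne_bot hc₁0
  have hsc₂ : Ideal.span {c₂} ≠ (⊥ : Ideal (𝓞 F)) := h2i_span_ne_bot hc₂0
  have hsw₁ : Ideal.span {w₁} ≠ (⊥ : Ideal (𝓞 F)) := h2i_span_ne_bot hw₁0
  have hsw₂ : Ideal.span {w₂} ≠ (⊥ : Ideal (𝓞 F)) := h2i_span_ne_bot hw₂0
  have h𝔰0 : 𝔰 ≠ ⊥ := by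
    rintro rfl
    rw [Ideal.mul_bot] at hx𝔞
    exact hsx hx𝔞
  -- the exponents of the identity at every prime
  have hcnt : ∀ v : HeightOneSpectrum (𝓞 F),
      h2i_cnt v (Ideal.span {x}) + h2i_cnt v (Ideal.span {a}) +
        (p : ℤ) * h2i_cnt v (Ideal.span {c₂}) + h2i_cnt v (Ideal.span {w₂}) =
      h2i_cnt v (Ideal.span {w₁}) + (p : ℤ) * h2i_cnt v (Ideal.span {c₁}) +
        h2i_cnt v (Ideal.span {b}) := by
    intro v
    have h1 : Ideal.span {x} * Ideal.span {a} * Ideal.span {c₂} ^ p * Ideal.span {w₂} =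
        Ideal.span {w₁} * Ideal.span {c₁} ^ p * Ideal.span {b} := by
      simp only [Ideal.span_singleton_mul_span_singleton, Ideal.span_singleton_pow, hid]
    have h3 := congrArg (h2i_cnt v) h1
    rw [h2i_cnt_mul v (mul_ne_zero (mul_ne_zero hsx hsa) (pow_ne_zero _ hsc₂)) hsw₂,
      h2i_cnt_mul v (mul_ne_zero hsx hsa) (pow_ne_zero _ hsc₂),
      h2i_cnt_mul v hsx hsa, h2i_cnt_pow,
      h2i_cnt_mul v (mul_ne_zero hsw₁ (pow_ne_zero _ hsc₁)) hsb,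
      h2i_cnt_mul v hsw₁ (pow_ne_zero _ hsc₁), h2i_cnt_pow] at h3
    exact h3
  -- the primes dividing `c₁ c₂` outside `S₀`
  have hfin : {v : HeightOneSpectrum (𝓞 F) | v.asIdeal ∣ Ideal.span {c₁ * c₂}}.Finite :=
    Ideal.finite_factors (h2i_span_ne_bot (mul_ne_zero hc₁0 hc₂0))
  set Q : Finset (HeightOneSpectrum (𝓞 F)) := hfin.toFinset.filter (fun v => v ∉ S₀) with hQ
  have hQmem : ∀ v : HeightOneSpectrum (𝓞 F), v ∉ S₀ → c₁ * c₂ ∈ v.asIdeal → v ∈ Q := by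
    intro v hvS hmem
    rw [hQ, Finset.mem_filter, Set.Finite.mem_toFinset]
    exact ⟨Ideal.dvd_iff_le.mpr ((Ideal.span_singleton_le_iff_mem _).mpr hmem), hvS⟩
  have hQS : ∀ v : HeightOneSpectrum (𝓞 F), v ∈ S₀ → v ∉ Q := by
    intro v hvS hvQ
    rw [hQ, Finset.mem_filter] at hvQ
    exact hvQ.2 hvS
  -- exponents of the `Q`-parts of `c₁`, `c₂`
  have hZ1 : ∀ v : HeightOneSpectrum (𝓞 F), v ∉ S₀ →
      h2i_cnt v (h2i_part Q (Ideal.span {c₁})) = h2i_cnt v (Ideal.span {c₁}) := by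
    intro v hvS
    by_cases hvQ : v ∈ Q
    · exact h2i_cnt_part_of_mem hvQ _
    · rw [h2i_cnt_part_of_notMem hvQ]
      refine (h2i_cnt_eq_zero v hsc₁ fun hle => hvQ (hQmem v hvS ?_)).symm
      exact Ideal.mul_mem_right _ _ ((Ideal.span_singleton_le_iff_mem _).mp hle)
  have hZ2 : ∀ v : HeightOneSpectrum (𝓞 F), v ∉ S₀ →
      h2i_cnt v (h2i_part Q (Ideal.span {c₂})) = h2i_cnt v (Ideal.span {c₂}) := by
    intro v hvS
    by_cases hvQ : v ∈ Q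
    · exact h2i_cnt_part_of_mem hvQ _
    · rw [h2i_cnt_part_of_notMem hvQ]
      refine (h2i_cnt_eq_zero v hsc₂ fun hle => hvQ (hQmem v hvS ?_)).symm
      exact Ideal.mul_mem_left _ _ ((Ideal.span_singleton_le_iff_mem _).mp hle)
  -- `w` is a unit outside `S₀ ∪ T`
  have hW : ∀ v : HeightOneSpectrum (𝓞 F), v ∉ S₀ → v ∉ T →
      h2i_cnt v (Ideal.span {w₁}) = h2i_cnt v (Ideal.span {w₂}) := by
    intro v hvS hvT
    have h1 : v.valuation F (w : F) = 1 := by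
      apply hw v
      simp only [Set.mem_union, Finset.mem_coe, not_or]
      exact ⟨hvS, hvT⟩
    rw [← hwf, map_div₀, v.valuation_of_algebraMap, v.valuation_of_algebraMap,
      h2i_intValuation v hw₁0, h2i_intValuation v hw₂0,
      div_eq_one_iff_eq WithZero.exp_ne_zero, WithZero.exp_inj] at h1
    linarith
  -- exponents at the primes of `S₀`
  have hAS : ∀ v ∈ S₀, h2i_cnt v (Ideal.span {a}) = 0 := fun v hv =>
    h2i_cnt_eq_zero v hsa fun hle => haS v hv ((Ideal.span_singleton_le_iff_mem _).mp hle)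
  have hBS : ∀ v ∈ S₀, h2i_cnt v (Ideal.span {b}) = 0 := fun v hv =>
    h2i_cnt_eq_zero v hsb fun hle => hbS v hv ((Ideal.span_singleton_le_iff_mem _).mp hle)
  have h𝔞S : ∀ v ∈ S₀, h2i_cnt v 𝔞 = 0 := fun v hv =>
    h2i_cnt_eq_zero v h𝔞 (h2i_not_le_of_isCoprime S₀ N hN hcop v hv)
  have hX : ∀ v : HeightOneSpectrum (𝓞 F), v ∉ S₀ →
      h2i_cnt v (Ideal.span {x}) = h2i_cnt v 𝔞 := by
    intro v hvS
    rw [hx𝔞, h2i_cnt_mul v h𝔞 h𝔰0, h2i_cnt_eq_zero v h𝔰0 (fun hle => hvS (h𝔰 v hle)), add_zero]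
  -- the ideals of `𝓞 M`
  choose! 𝔔 h𝔔 using hsplit
  have h𝔗 : ∀ I : Ideal (𝓞 F),
      Ideal.relNorm (𝓞 F) (∏ v ∈ T, 𝔔 v ^ (h2i_cnt v I).toNat) = h2i_part T I := by
    intro I
    rw [map_prod]
    unfold h2i_part
    refine Finset.prod_congr rfl fun v hv => ?_
    rw [map_pow, (h𝔔 v hv).2]
  have hmapN : ∀ I : Ideal (𝓞 F),
      Ideal.relNorm (𝓞 F) (I.map (algebraMap (𝓞 F) (𝓞 M))) = I ^ p := by
    intro I
    rw [Ideal.relNorm_algebraMap, ← IsFractionRing.finrank_eq (𝓞 F) F (𝓞 M) M, hdeg]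
  set 𝔄 : Ideal (𝓞 M) := (∏ v ∈ T, 𝔔 v ^ (h2i_cnt v (Ideal.span {w₂})).toNat) *
    (h2i_part Q (Ideal.span {c₂})).map (algebraMap (𝓞 F) (𝓞 M)) with h𝔄def
  set 𝔅 : Ideal (𝓞 M) := (∏ v ∈ T, 𝔔 v ^ (h2i_cnt v (Ideal.span {w₁})).toNat) *
    (h2i_part Q (Ideal.span {c₁})).map (algebraMap (𝓞 F) (𝓞 M)) with h𝔅def
  have hN𝔄 : Ideal.relNorm (𝓞 F) 𝔄 =
      h2i_part T (Ideal.span {w₂}) * h2i_part Q (Ideal.span {c₂}) ^ p := by
    rw [h𝔄def, map_mul, h𝔗, hmapN]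
  have hN𝔅 : Ideal.relNorm (𝓞 F) 𝔅 =
      h2i_part T (Ideal.span {w₁}) * h2i_part Q (Ideal.span {c₁}) ^ p := by
    rw [h𝔅def, map_mul, h𝔗, hmapN]
  have hne𝔄 : h2i_part T (Ideal.span {w₂}) * h2i_part Q (Ideal.span {c₂}) ^ p ≠ ⊥ :=
    mul_ne_zero (h2i_part_ne_bot _ _) (pow_ne_zero _ (h2i_part_ne_bot _ _))
  have hne𝔅 : h2i_part T (Ideal.span {w₁}) * h2i_part Q (Ideal.span {c₁}) ^ p ≠ ⊥ :=
    mul_ne_zero (h2i_part_ne_bot _ _) (pow_ne_zero _ (h2i_part_ne_bot _ _))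
  -- exponents of the norms at the primes of `S₀`
  have hcopN : ∀ (I J : Ideal (𝓞 F)), IsCoprime (h2i_part T I * h2i_part Q J ^ p)
      ((∏ v ∈ S₀, v.asIdeal) ^ N) := by
    intro I J
    apply h2i_isCoprime
    intro v hv
    apply h2i_not_le_of_cnt v (mul_ne_zero (h2i_part_ne_bot _ _) (pow_ne_zero _ (h2i_part_ne_bot _ _)))
    rw [h2i_cnt_mul v (h2i_part_ne_bot _ _) (pow_ne_zero _ (h2i_part_ne_bot _ _)), h2i_cnt_pow,
      h2i_cnt_part_of_notMem (fun hvT => hTS v hvT hv), h2i_cnt_part_of_notMem (hQS v hv)]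
    simp
  refine ⟨a, b, 𝔄, 𝔅, ha0, hb0, hab, ?_, ?_, ?_, ?_, ?_, ?_, ?_⟩
  · exact h2i_isCoprime S₀ N fun v hv hle => haS v hv ((Ideal.span_singleton_le_iff_mem _).mp hle)
  · exact h2i_isCoprime S₀ N fun v hv hle => hbS v hv ((Ideal.span_singleton_le_iff_mem _).mp hle)
  · intro h
    rw [h, Ideal.relNorm_bot] at hN𝔄
    exact hne𝔄 hN𝔄.symm
  · intro h
    rw [h, Ideal.relNorm_bot] at hN𝔅
    exact hne𝔅 hN𝔅.symm
  · rw [hN𝔄]
    exact hcopN _ _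
  · rw [hN𝔅]
    exact hcopN _ _
  · rw [hN𝔄, hN𝔅, Ideal.mul_top]
    apply h2i_ext (mul_ne_zero (mul_ne_zero hsa h𝔞) hne𝔄) (mul_ne_zero hsb hne𝔅)
    intro v
    rw [h2i_cnt_mul v (mul_ne_zero hsa h𝔞) hne𝔄, h2i_cnt_mul v hsa h𝔞,
      h2i_cnt_mul v (h2i_part_ne_bot _ _) (pow_ne_zero _ (h2i_part_ne_bot _ _)), h2i_cnt_pow,
      h2i_cnt_mul v hsb hne𝔅,
      h2i_cnt_mul v (h2i_part_ne_bot _ _) (pow_ne_zero _ (h2i_part_ne_bot _ _)), h2i_cnt_pow]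
    by_cases hvS : v ∈ S₀
    · have hvT : v ∉ T := fun hvT => hTS v hvT hvS
      rw [hAS v hvS, hBS v hvS, h𝔞S v hvS, h2i_cnt_part_of_notMem hvT,
        h2i_cnt_part_of_notMem hvT, h2i_cnt_part_of_notMem (hQS v hvS),
        h2i_cnt_part_of_notMem (hQS v hvS)]
      simp
    · have h1 := hcnt v
      rw [hX v hvS] at h1
      rw [hZ1 v hvS, hZ2 v hvS]
      by_cases hvT : v ∈ T
      · rw [h2i_cnt_part_of_mem hvT, h2i_cnt_part_of_mem hvT]
        linarith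
      · rw [h2i_cnt_part_of_notMem hvT, h2i_cnt_part_of_notMem hvT]
        have h2 := hW v hvS hvT
        linarith

end Fermat.Agent.S14
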