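import Mathlib
import Fermat.Agent.S14.Defs
import Fermat.Agent.S14.H2Defs

/-!
# P18 (S14), block H2a, slice [A3u]

In an everywhere unramified Galois extension `M/F` of number fields, an element `a` of `𝓞 F`
which is a `p`-th power in `𝓞 M` generates a `p`-th power ideal of `𝓞 F`.
-/

set_option autoImplicit false

namespace Fermat.Agent.S14

open NumberField IsDedekindDomain

universe u

/-- Trivial inertia at `w` gives ramification index one for `w` over `v`. -/
theorem h2up_ramificationIdx_eq_one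
    (F M : Type*) [Field F] [NumberField F] [Field M] [NumberField M] [Algebra F M] [IsGalois F M]
    (hunr : UnramifiedEverywhere F M)
    (v : HeightOneSpectrum (𝓞 F)) (w : HeightOneSpectrum (𝓞 M))
    [w.asIdeal.LiesOver v.asIdeal] :
    v.asIdeal.ramificationIdx' w.asIdeal = 1 := by
  have htriv : w.asIdeal.inertia (M ≃ₐ[F] M) = ⊥ := by
    rw [eq_bot_iff]
    intro σ hσ
    rw [Subgroup.mem_bot]
    exact hunr w.asIdeal w.isPrime w.ne_bot σ hσ
  have hcard : Nat.card (w.asIdeal.inertia (M ≃ₐ[F] M)) = v.asIdeal.ramificationIdxIn (𝓞 M) :=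
    Ideal.card_inertia_eq_ramificationIdxIn v.asIdeal w.asIdeal
  rw [Ideal.ramificationIdxIn_eq_ramificationIdx v.asIdeal w.asIdeal (M ≃ₐ[F] M), htriv] at hcard
  rw [Ideal.ramificationIdx'_eq_ramificationIdx v.asIdeal w.asIdeal v.ne_bot, ← hcard]
  simp

/-- The exponent of every prime `v` in `span {a}` is divisible by `p`. -/
theorem h2up_dvd_count (p : ℕ) [Fact p.Prime]
    (F M : Type*) [Field F] [NumberField F] [Field M] [NumberField M] [Algebra F M] [IsGalois F M]
    (hunr : UnramifiedEverywhere F M)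
    (a : 𝓞 F) (α : 𝓞 M) (ha : a ≠ 0) (hα : α ^ p = algebraMap (𝓞 F) (𝓞 M) a)
    (v : HeightOneSpectrum (𝓞 F)) :
    p ∣ (Associates.mk v.asIdeal).count (Associates.mk (Ideal.span {a})).factors := by
  obtain ⟨⟨P, hP, hPv⟩⟩ := (inferInstance : Nonempty (Ideal.primesOver v.asIdeal (𝓞 M)))
  have hP0 : P ≠ ⊥ := Ideal.ne_bot_of_mem_primesOver v.ne_bot ⟨hP, hPv⟩
  let w : HeightOneSpectrum (𝓞 M) := ⟨P, hP, hP0⟩
  have : w.asIdeal.LiesOver v.asIdeal := hPv
  have he := h2up_ramificationIdx_eq_one F M hunr v w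
  have h1 := HeightOneSpectrum.intValuation_liesOver v w a
  rw [he, pow_one, ← hα, map_pow] at h1
  have hα0 : α ≠ 0 := by
    rintro rfl
    rw [zero_pow (Fact.out : p.Prime).ne_zero] at hα
    apply ha
    apply FaithfulSMul.algebraMap_injective (𝓞 F) (𝓞 M)
    rw [← hα, map_zero]
  rw [v.intValuation_if_neg ha, w.intValuation_if_neg hα0, ← WithZero.exp_nsmul,
    WithZero.exp_inj] at h1
  refine ⟨(Associates.mk w.asIdeal).count (Associates.mk (Ideal.span {α})).factors, ?_⟩
  have h2 : ((Associates.mk v.asIdeal).count (Associates.mk (Ideal.span {a})).factors : ℤ) =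
      (p : ℤ) * ((Associates.mk w.asIdeal).count (Associates.mk (Ideal.span {α})).factors : ℤ) := by
    rw [nsmul_eq_mul] at h1
    linarith
  exact_mod_cast h2

/-- [A3u] unramified ⇒ the Kummer radicand generates a `p`-th power ideal. -/
theorem h2_exists_ideal_pow_eq (p : ℕ) [Fact p.Prime]
    (F M : Type*) [Field F] [NumberField F] [Field M] [NumberField M] [Algebra F M] [IsGalois F M]
    (hunr : UnramifiedEverywhere F M)
    (a : 𝓞 F) (α : 𝓞 M) (ha : a ≠ 0) (hα : α ^ p = algebraMap (𝓞 F) (𝓞 M) a) :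
    ∃ 𝔟 : Ideal (𝓞 F), 𝔟 ≠ ⊥ ∧ 𝔟 ^ p = Ideal.span {a} := by
  have hp : p ≠ 0 := (Fact.out : p.Prime).ne_zero
  have hI : Ideal.span {a} ≠ (0 : Ideal (𝓞 F)) := by
    rw [Ideal.zero_eq_bot, Ne, Ideal.span_singleton_eq_bot]
    exact ha
  have hdvd : ∀ v : HeightOneSpectrum (𝓞 F),
      p ∣ (Associates.mk v.asIdeal).count (Associates.mk (Ideal.span {a})).factors :=
    fun v => h2up_dvd_count p F M hunr a α ha hα v
  have hfin : Function.HasFiniteMulSupport (fun v : HeightOneSpectrum (𝓞 F) =>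
      v.asIdeal ^ ((Associates.mk v.asIdeal).count (Associates.mk (Ideal.span {a})).factors / p)) := by
    refine Set.Finite.subset (Ideal.hasFiniteMulSupport hI) ?_
    intro v hv
    rw [Function.mem_mulSupport] at hv ⊢
    intro h
    apply hv
    have h' : v.asIdeal ^ (Associates.mk v.asIdeal).count (Associates.mk (Ideal.span {a})).factors
        = ⊤ := by
      rw [← Ideal.one_eq_top]
      exact h
    rcases Ideal.pow_eq_top_iff.mp h' with h0 | h0
    · exact absurd h0 v.isPrime.ne_top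
    · rw [h0, Nat.zero_div, pow_zero]
  have hpow : (∏ᶠ v : HeightOneSpectrum (𝓞 F),
      v.asIdeal ^ ((Associates.mk v.asIdeal).count (Associates.mk (Ideal.span {a})).factors / p)) ^ p
      = Ideal.span {a} := by
    rw [finprod_pow hfin]
    conv_rhs => rw [← Ideal.finprod_heightOneSpectrum_factorization hI]
    refine finprod_congr fun v => ?_
    rw [← pow_mul, Nat.div_mul_cancel (hdvd v)]
    rfl
  refine ⟨_, ?_, hpow⟩
  intro hbot
  rw [hbot, ← Ideal.zero_eq_bot, zero_pow hp] at hpow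
  exact hI hpow.symm

end Fermat.Agent.S14
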