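import Mathlib
import Fermat.Agent.S14.Defs
import Fermat.Agent.S14.H2Defs
import Fermat.Agent.S14.H2UnramPow

/-!
# P18 (S14), block H2, slice [A3] (third team): an integral Kummer generator which is an
`S₀`-unit

`M / F` cyclic of prime degree `p`, unramified everywhere, `ζ_p ∈ F`, and `S₀` generates the class
group of `F`.  Then `M = F(α)` with `α ∈ 𝓞 M`, `α ^ p = a ∈ 𝓞 F` and `a` a unit outside `S₀`.

The core `h2kC_core` takes the statement [A3u] (the radicand of an integral Kummer generator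
generates a `p`-th power ideal) as a hypothesis; the interface theorem `h2_exists_kummer_gen_C`
discharges it with `h2_exists_ideal_pow_eq` (file `H2UnramPow.lean`).
-/

set_option autoImplicit false

namespace Fermat.Agent.S14

open NumberField IsDedekindDomain

/-- Step (1): a Kummer generator at the level of fields. -/
theorem h2kC_exists_root (p : ℕ) [Fact p.Prime]
    (F M : Type*) [Field F] [Field M] [Algebra F M] [FiniteDimensional F M] [IsGalois F M]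
    (hdeg : Module.finrank F M = p) (ζ : F) (hζ : IsPrimitiveRoot ζ p) :
    ∃ (α : M) (a : F), α ^ p = algebraMap F M a ∧ ∀ y : F, algebraMap F M y ≠ α := by
  have hp : p.Prime := Fact.out
  have hcard : Nat.card (M ≃ₐ[F] M) = p := by
    rw [IsGalois.card_aut_eq_finrank, hdeg]
  have hcyc : IsCyclic (M ≃ₐ[F] M) := isCyclic_of_prime_card hcard
  have hK : (primitiveRoots (Module.finrank F M) F).Nonempty :=
    ⟨ζ, by rw [hdeg, mem_primitiveRoots hp.pos]; exact hζ⟩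
  obtain ⟨α, ⟨a, ha⟩, htop⟩ := exists_root_adjoin_eq_top_of_isCyclic F M hK
  refine ⟨α, a, by rw [ha, hdeg], ?_⟩
  intro y hy
  have h1 : IntermediateField.adjoin F {α} = ⊥ :=
    IntermediateField.adjoin_simple_eq_bot_iff.mpr
      (by rw [← hy]; exact IntermediateField.algebraMap_mem _ y)
  rw [htop] at h1
  have h2 := IntermediateField.bot_eq_top_iff_finrank_eq_one.mp h1.symm
  rw [hdeg] at h2
  exact hp.ne_one h2

/-- Step (2): an integral Kummer generator. -/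
theorem h2kC_exists_integral_root (p : ℕ) [Fact p.Prime]
    (F M : Type*) [Field F] [NumberField F] [Field M] [NumberField M] [Algebra F M] [IsGalois F M]
    (hdeg : Module.finrank F M = p) (ζ : F) (hζ : IsPrimitiveRoot ζ p) :
    ∃ (a : 𝓞 F) (α : 𝓞 M), a ≠ 0 ∧ α ^ p = algebraMap (𝓞 F) (𝓞 M) a ∧
      ∀ y : F, algebraMap F M y ≠ (α : M) := by
  have hp : p.Prime := Fact.out
  obtain ⟨α₁, a₁, hα₁, hα₁F⟩ := h2kC_exists_root p F M hdeg ζ hζ
  have halg : IsAlgebraic ℤ α₁ :=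
    (IsFractionRing.isAlgebraic_iff ℤ ℚ M).mpr (Algebra.IsAlgebraic.isAlgebraic α₁)
  obtain ⟨d, hd0, hd⟩ := halg.exists_integral_multiple
  have hdM : (d : M) ≠ 0 := Int.cast_ne_zero.mpr hd0
  have hdF : (d : F) ≠ 0 := Int.cast_ne_zero.mpr hd0
  have hα₁0 : α₁ ≠ 0 := by
    intro h
    exact hα₁F 0 (by rw [map_zero, h])
  -- the integral generator `α₂ = d α₁`
  have hα₂pow : (d • α₁) ^ p = algebraMap F M ((d : F) ^ p * a₁) := by
    rw [zsmul_eq_mul, mul_pow, hα₁, map_mul, map_pow, map_intCast]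
  have ha₂int : IsIntegral ℤ ((d : F) ^ p * a₁) := by
    rw [← isIntegral_algebraMap_iff (algebraMap F M).injective (R := ℤ), ← hα₂pow]
    exact hd.pow p
  obtain ⟨α₂, hα₂⟩ : ∃ α₂ : 𝓞 M, algebraMap (𝓞 M) M α₂ = d • α₁ :=
    (IsIntegralClosure.isIntegral_iff (A := 𝓞 M)).mp hd
  obtain ⟨a₂, ha₂⟩ : ∃ a₂ : 𝓞 F, algebraMap (𝓞 F) F a₂ = (d : F) ^ p * a₁ :=
    (IsIntegralClosure.isIntegral_iff (A := 𝓞 F)).mp ha₂int
  refine ⟨a₂, α₂, ?_, ?_, ?_⟩
  · rintro rfl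
    rw [map_zero] at ha₂
    have ha₁ : a₁ = 0 := by
      rcases mul_eq_zero.mp ha₂.symm with h'' | h''
      · exact absurd (pow_eq_zero_iff hp.ne_zero |>.mp h'') hdF
      · exact h''
    rw [ha₁, map_zero] at hα₁
    exact hα₁0 (pow_eq_zero_iff hp.ne_zero |>.mp hα₁)
  · apply RingOfIntegers.ext
    have h3 : ((α₂ ^ p : 𝓞 M) : M) = (algebraMap (𝓞 M) M α₂) ^ p :=
      map_pow (algebraMap (𝓞 M) M) α₂ p
    have h4 : ((algebraMap (𝓞 F) (𝓞 M) a₂ : 𝓞 M) : M) = algebraMap F M (algebraMap (𝓞 F) F a₂) :=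
      rfl
    rw [h3, h4, hα₂, ha₂, hα₂pow]
  · intro y hy
    have hy' : algebraMap F M y = d • α₁ := hy.trans hα₂
    apply hα₁F (y / (d : F))
    rw [map_div₀, hy', map_intCast, zsmul_eq_mul, mul_div_cancel_left₀ _ hdM]

/-- The core of [A3]: the statement [A3u] is a hypothesis. -/
theorem h2kC_core (p : ℕ) [Fact p.Prime]
    (F M : Type*) [Field F] [NumberField F] [Field M] [NumberField M] [Algebra F M] [IsGalois F M]
    (hdeg : Module.finrank F M = p) (ζ : F) (hζ : IsPrimitiveRoot ζ p)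
    (hpow : ∀ (a : 𝓞 F) (α : 𝓞 M), a ≠ 0 → α ^ p = algebraMap (𝓞 F) (𝓞 M) a →
      ∃ 𝔟 : Ideal (𝓞 F), 𝔟 ≠ ⊥ ∧ 𝔟 ^ p = Ideal.span {a})
    (S₀ : Finset (HeightOneSpectrum (𝓞 F))) (hCG : h2CG F S₀) :
    ∃ (a : 𝓞 F) (α : 𝓞 M), a ≠ 0 ∧
      (∀ v : HeightOneSpectrum (𝓞 F), a ∈ v.asIdeal → v ∈ S₀) ∧
      α ^ p = algebraMap (𝓞 F) (𝓞 M) a ∧ ∀ y : F, algebraMap F M y ≠ (α : M) := by
  have hp : p.Prime := Fact.out
  obtain ⟨a₂, α₂, ha₂, hα₂, hα₂F⟩ := h2kC_exists_integral_root p F M hdeg ζ hζ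
  obtain ⟨𝔟, h𝔟, h𝔟p⟩ := hpow a₂ α₂ ha₂ hα₂
  obtain ⟨β, 𝔰, hβ, h𝔰, hβ𝔰⟩ := hCG 𝔟 h𝔟
  -- `β ^ p = a₂ * a`
  have hspan : Ideal.span {β ^ p} = Ideal.span {a₂} * 𝔰 ^ p := by
    rw [← Ideal.span_singleton_pow, hβ𝔰, mul_pow, h𝔟p]
  have hmem : β ^ p ∈ Ideal.span {a₂} := by
    have h1 : β ^ p ∈ Ideal.span {β ^ p} := Ideal.mem_span_singleton_self _
    rw [hspan] at h1
    exact (Ideal.mul_le_left (I := Ideal.span {a₂}) (J := 𝔰 ^ p)) h1
  obtain ⟨a, ha⟩ := Ideal.mem_span_singleton'.mp hmem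
  -- `ha : a * a₂ = β ^ p`
  have ha0 : a ≠ 0 := by
    rintro rfl
    rw [zero_mul] at ha
    exact hβ (pow_eq_zero_iff hp.ne_zero |>.mp ha.symm)
  have hspan_a : Ideal.span {a} = 𝔰 ^ p := by
    have h1 : Ideal.span {a₂} * Ideal.span {a} = Ideal.span {a₂} * 𝔰 ^ p := by
      rw [Ideal.span_singleton_mul_span_singleton, mul_comm a₂ a, ha, hspan]
    have h2 : Ideal.span {a₂} ≠ 0 := by
      rw [Ideal.zero_eq_bot, Ne, Ideal.span_singleton_eq_bot]
      exact ha₂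
    exact mul_left_cancel₀ h2 h1
  -- the new generator `α = β / α₂`
  have hα₂0 : (α₂ : M) ≠ 0 := by
    intro h
    exact hα₂F 0 (by rw [map_zero, h])
  have hα₂M : (α₂ : M) ^ p = algebraMap F M (a₂ : F) := by
    have h1 : ((α₂ ^ p : 𝓞 M) : M) = ((algebraMap (𝓞 F) (𝓞 M) a₂ : 𝓞 M) : M) := by rw [hα₂]
    have h2 : ((algebraMap (𝓞 F) (𝓞 M) a₂ : 𝓞 M) : M) = algebraMap F M (a₂ : F) := rfl
    have h3 : ((α₂ ^ p : 𝓞 M) : M) = (α₂ : M) ^ p := map_pow (algebraMap (𝓞 M) M) α₂ p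
    rw [← h3, h1, h2]
  have ha₂F : (a₂ : F) ≠ 0 := RingOfIntegers.coe_ne_zero_iff.mpr ha₂
  have hβF : (β : F) ≠ 0 := RingOfIntegers.coe_ne_zero_iff.mpr hβ
  have haF : (a : F) * (a₂ : F) = (β : F) ^ p := by
    have h1 : ((a * a₂ : 𝓞 F) : F) = ((β ^ p : 𝓞 F) : F) := by rw [ha]
    have h2 : ((a * a₂ : 𝓞 F) : F) = (a : F) * (a₂ : F) := map_mul (algebraMap (𝓞 F) F) a a₂
    have h3 : ((β ^ p : 𝓞 F) : F) = (β : F) ^ p := map_pow (algebraMap (𝓞 F) F) β p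
    rw [← h2, h1, h3]
  have hαpow : (algebraMap F M (β : F) / (α₂ : M)) ^ p = algebraMap F M (a : F) := by
    rw [div_pow, hα₂M, ← map_pow, ← haF, map_mul,
      mul_div_assoc, div_self ((map_ne_zero (algebraMap F M)).mpr ha₂F), mul_one]
  have hαint : IsIntegral ℤ (algebraMap F M (β : F) / (α₂ : M)) := by
    apply IsIntegral.of_pow hp.pos
    rw [hαpow]
    exact (RingOfIntegers.isIntegral_coe a).map (IsScalarTower.toAlgHom ℤ F M)
  obtain ⟨α, hα⟩ : ∃ α : 𝓞 M, algebraMap (𝓞 M) M α = algebraMap F M (β : F) / (α₂ : M) :=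
    (IsIntegralClosure.isIntegral_iff (A := 𝓞 M)).mp hαint
  refine ⟨a, α, ha0, ?_, ?_, ?_⟩
  · intro v hv
    apply h𝔰 v
    have h1 : 𝔰 ^ p ≤ v.asIdeal := by
      rw [← hspan_a, Ideal.span_singleton_le_iff_mem]
      exact hv
    exact Ideal.IsPrime.le_of_pow_le h1
  · apply RingOfIntegers.ext
    have h3 : ((α ^ p : 𝓞 M) : M) = (algebraMap (𝓞 M) M α) ^ p :=
      map_pow (algebraMap (𝓞 M) M) α p
    have h4 : ((algebraMap (𝓞 F) (𝓞 M) a : 𝓞 M) : M) = algebraMap F M (a : F) := rfl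
    rw [h3, h4, hα, hαpow]
  · intro y hy
    have hy' : algebraMap F M y = algebraMap F M (β : F) / (α₂ : M) := hy.trans hα
    have hβM : algebraMap F M (β : F) ≠ 0 := (map_ne_zero (algebraMap F M)).mpr hβF
    have hy0 : y ≠ 0 := by
      rintro rfl
      rw [map_zero] at hy'
      exact div_ne_zero hβM hα₂0 hy'.symm
    apply hα₂F ((β : F) / y)
    rw [map_div₀, hy', div_div_eq_mul_div, mul_comm, mul_div_assoc, div_self hβM, mul_one]

/-- [A3] (third team) Steps 0/2: an integral Kummer generator which is an `S₀`-unit. -/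
theorem h2_exists_kummer_gen_C (p : ℕ) [Fact p.Prime] (hp : 3 ≤ p)
    (F M : Type*) [Field F] [NumberField F] [Field M] [NumberField M] [Algebra F M] [IsGalois F M]
    (hdeg : Module.finrank F M = p) (ζ : F) (hζ : IsPrimitiveRoot ζ p)
    (hunr : UnramifiedEverywhere F M)
    (S₀ : Finset (HeightOneSpectrum (𝓞 F))) (hCG : h2CG F S₀) :
    ∃ (a : 𝓞 F) (α : 𝓞 M), a ≠ 0 ∧
      (∀ v : HeightOneSpectrum (𝓞 F), a ∈ v.asIdeal → v ∈ S₀) ∧
      α ^ p = algebraMap (𝓞 F) (𝓞 M) a ∧ ∀ y : F, algebraMap F M y ≠ (α : M) := by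
  have _hp := hp
  exact h2kC_core p F M hdeg ζ hζ
    (fun a α ha hα => h2_exists_ideal_pow_eq p F M hunr a α ha hα) S₀ hCG

end Fermat.Agent.S14
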