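import Mathlib
import Fermat.Agent.S14.Defs
import Fermat.Agent.S14.H2Defs

/-!
# P18 (S14), block H2: auxiliary lemmas for Lemma 2 (Step 6)

* products of distinct primes `∏ v ∈ T, v.asIdeal`: membership, radical, nonzero, containment in
  a prime, coprimality;
* an `S`-unit is a quotient of two integers generating `S`-supported ideals (when `S` generates
  the class group, `h2CG`);
* `exp (-n) < v(p) ^ 2` from the precision hypothesis; `h2Dv` is antitone in the precision.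
-/

set_option autoImplicit false

namespace Fermat.Agent.S14

open NumberField IsDedekindDomain

theorem h2la_prod_eq_iInf (F : Type*) [Field F] [NumberField F]
    (T : Finset (HeightOneSpectrum (𝓞 F))) :
    ∏ v ∈ T, v.asIdeal = ⨅ v ∈ T, v.asIdeal := by
  apply Ideal.prod_eq_iInf_of_pairwise_isCoprime
  intro v _ w _ hvw
  exact Ideal.isCoprime_of_isMaximal (fun h => hvw (HeightOneSpectrum.ext h))

/-- membership in a product of distinct primes -/
theorem h2_mem_prod_iff (F : Type*) [Field F] [NumberField F]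
    (T : Finset (HeightOneSpectrum (𝓞 F))) (a : 𝓞 F) :
    a ∈ ∏ v ∈ T, v.asIdeal ↔ ∀ v ∈ T, a ∈ v.asIdeal := by
  rw [h2la_prod_eq_iInf]
  simp only [Ideal.mem_iInf]

theorem h2_prod_isRadical (F : Type*) [Field F] [NumberField F]
    (T : Finset (HeightOneSpectrum (𝓞 F))) : (∏ v ∈ T, v.asIdeal).IsRadical := by
  rw [h2la_prod_eq_iInf]
  exact Ideal.isRadical_iInf _ (fun v => Ideal.isRadical_iInf _ (fun _ => v.isPrime.isRadical))

theorem h2_prod_ne_bot (F : Type*) [Field F] [NumberField F]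
    (T : Finset (HeightOneSpectrum (𝓞 F))) : (∏ v ∈ T, v.asIdeal) ≠ ⊥ := by
  rw [← Ideal.zero_eq_bot, Finset.prod_ne_zero_iff]
  intro v _
  exact v.ne_bot

theorem h2_prod_le_prime_iff (F : Type*) [Field F] [NumberField F]
    (T : Finset (HeightOneSpectrum (𝓞 F))) (𝔮 : Ideal (𝓞 F)) (h𝔮 : 𝔮.IsPrime) :
    (∏ v ∈ T, v.asIdeal) ≤ 𝔮 ↔ ∃ v ∈ T, v.asIdeal = 𝔮 := by
  rw [h𝔮.prod_le]
  constructor
  · rintro ⟨v, hv, hle⟩
    exact ⟨v, hv, v.isMaximal.eq_of_le h𝔮.ne_top hle⟩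
  · rintro ⟨v, hv, heq⟩
    exact ⟨v, hv, heq.le⟩

theorem h2la_isCoprime_iff (F : Type*) [Field F] [NumberField F]
    (v : HeightOneSpectrum (𝓞 F)) (I : Ideal (𝓞 F)) :
    IsCoprime I v.asIdeal ↔ ¬ I ≤ v.asIdeal := by
  rw [Ideal.isCoprime_iff_sup_eq]
  constructor
  · intro h hle
    rw [sup_eq_right.mpr hle] at h
    exact v.isPrime.ne_top h
  · intro h
    by_contra hne
    have h1 : v.asIdeal = I ⊔ v.asIdeal := v.isMaximal.eq_of_le hne le_sup_right
    apply h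
    rw [h1]
    exact le_sup_left

theorem h2_isCoprime_prod_iff (F : Type*) [Field F] [NumberField F]
    (T : Finset (HeightOneSpectrum (𝓞 F))) (I : Ideal (𝓞 F)) :
    IsCoprime I (∏ v ∈ T, v.asIdeal) ↔ ∀ v ∈ T, ¬ I ≤ v.asIdeal := by
  rw [IsCoprime.prod_right_iff]
  exact forall₂_congr (fun v _ => h2la_isCoprime_iff F v I)

/-- if `S` generates the class group, there is a nonzero integer lying in every prime of `S`
whose principal ideal is supported in `S` -/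
theorem h2la_exists_pi (F : Type*) [Field F] [NumberField F]
    (S : Finset (HeightOneSpectrum (𝓞 F))) (hCG : h2CG F S) :
    ∃ π : 𝓞 F, π ≠ 0 ∧ (∀ v ∈ S, π ∈ v.asIdeal) ∧
      ∀ w : HeightOneSpectrum (𝓞 F), π ∈ w.asIdeal → w ∈ S := by
  classical
  choose x 𝔰 hx0 hs hspan using fun v : HeightOneSpectrum (𝓞 F) => hCG v.asIdeal v.ne_bot
  have hxmem : ∀ v, x v ∈ v.asIdeal := fun v => by
    have h1 : x v ∈ Ideal.span {x v} := Ideal.mem_span_singleton_self _
    rw [hspan v] at h1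
    exact Ideal.mul_le_left h1
  refine ⟨∏ v ∈ S, x v, Finset.prod_ne_zero_iff.mpr (fun v _ => hx0 v), fun v hv => ?_, ?_⟩
  · exact Ideal.mem_of_dvd _ (Finset.dvd_prod_of_mem x hv) (hxmem v)
  · intro w hw
    rw [Ideal.IsPrime.prod_mem_iff] at hw
    obtain ⟨v, hv, hxv⟩ := hw
    have h1 : Ideal.span {x v} ≤ w.asIdeal := (Ideal.span_singleton_le_iff_mem _).mpr hxv
    rw [hspan v, w.isPrime.mul_le] at h1
    rcases h1 with h1 | h1
    · have h2 : v = w := HeightOneSpectrum.ext (v.isMaximal.eq_of_le w.isPrime.ne_top h1)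
      exact h2 ▸ hv
    · exact hs v w h1

theorem h2la_exists_bound {α : Type*} (S : Finset α) (k : α → ℕ) : ∃ m : ℕ, ∀ v ∈ S, k v ≤ m :=
  ⟨S.sup k, fun _ hv => Finset.le_sup hv⟩

theorem h2la_val_le_one (F : Type*) [Field F] [NumberField F]
    (S : Finset (HeightOneSpectrum (𝓞 F))) (ε : Fˣ)
    (hε : ε ∈ h2U F (S : Set (HeightOneSpectrum (𝓞 F)))) (π a b : 𝓞 F) (hb0 : b ≠ 0)
    (hab : algebraMap (𝓞 F) F a / algebraMap (𝓞 F) F b = (ε : F))
    (hπmem : ∀ v ∈ S, π ∈ v.asIdeal) (m : ℕ)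
    (hm : ∀ v ∈ S, multiplicity v.asIdeal (Ideal.span {b}) ≤ m)
    (w : HeightOneSpectrum (𝓞 F)) :
    w.valuation F (algebraMap (𝓞 F) F (π ^ m) * (ε : F)) ≤ 1 := by
  by_cases hw : w ∈ S
  · have hb' : 0 < w.intValuation b := zero_lt_iff.mpr (w.intValuation_ne_zero b hb0)
    rw [← hab, ← mul_div_assoc, ← map_mul, map_div₀, w.valuation_of_algebraMap,
      w.valuation_of_algebraMap, div_le_one₀ hb', map_mul]
    calc w.intValuation (π ^ m) * w.intValuation a
        ≤ w.intValuation (π ^ m) * 1 := mul_le_mul_right (w.intValuation_le_one a) _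
      _ = w.intValuation (π ^ m) := mul_one _
      _ ≤ WithZero.exp (-(m : ℤ)) :=
          (w.intValuation_le_pow_iff_mem _ _).mpr (Ideal.pow_mem_pow (hπmem w hw) m)
      _ ≤ WithZero.exp (-((multiplicity w.asIdeal (Ideal.span {b}) : ℕ) : ℤ)) := by
          rw [WithZero.exp_le_exp]
          have := hm w hw
          omega
      _ = w.intValuation b := (w.intValuation_eq_exp_neg_multiplicity hb0).symm
  · have hw' : w ∉ (S : Set (HeightOneSpectrum (𝓞 F))) := fun h => hw (Finset.mem_coe.mp h)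
    rw [map_mul, hε w hw', mul_one]
    exact w.valuation_le_one _

/-- an `S`-unit is a quotient of two integers generating `S`-supported ideals -/
theorem h2_sunit_num_den (F : Type*) [Field F] [NumberField F]
    (S : Finset (HeightOneSpectrum (𝓞 F))) (hCG : h2CG F S) (ε : Fˣ)
    (hε : ε ∈ h2U F (S : Set (HeightOneSpectrum (𝓞 F)))) :
    ∃ e₁ e₂ : 𝓞 F, e₁ ≠ 0 ∧ e₂ ≠ 0 ∧ (ε : F) = (e₁ : F) / (e₂ : F) ∧
      (∀ v : HeightOneSpectrum (𝓞 F), Ideal.span {e₁} ≤ v.asIdeal → v ∈ S) ∧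
      (∀ v : HeightOneSpectrum (𝓞 F), Ideal.span {e₂} ≤ v.asIdeal → v ∈ S) := by
  obtain ⟨π, hπ0, hπmem, hπsupp⟩ := h2la_exists_pi F S hCG
  -- write `ε = a / b`
  obtain ⟨a, b, hb, hab⟩ := IsFractionRing.div_surjective (A := 𝓞 F) (ε : F)
  have hb0 : b ≠ 0 := nonZeroDivisors.ne_zero hb
  -- the exponent
  obtain ⟨m, hm⟩ := h2la_exists_bound S (fun v => multiplicity v.asIdeal (Ideal.span {b}))
  -- `π ^ m * ε` is integral
  obtain ⟨e₁, he₁⟩ := HeightOneSpectrum.mem_integers_of_valuation_le_one F _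
    (h2la_val_le_one F S ε hε π a b hb0 hab hπmem m hm)
  have hπm0 : π ^ m ≠ 0 := pow_ne_zero _ hπ0
  have hπmF : algebraMap (𝓞 F) F (π ^ m) ≠ 0 := RingOfIntegers.coe_ne_zero_iff.mpr hπm0
  refine ⟨e₁, π ^ m, ?_, hπm0, ?_, ?_, ?_⟩
  · rintro rfl
    rw [map_zero] at he₁
    exact mul_ne_zero hπmF ε.ne_zero he₁.symm
  · change (ε : F) = algebraMap (𝓞 F) F e₁ / algebraMap (𝓞 F) F (π ^ m)
    rw [eq_div_iff hπmF, mul_comm]
    exact he₁.symm
  · intro w hw
    by_contra hwS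
    have hwS' : w ∉ (S : Set (HeightOneSpectrum (𝓞 F))) := fun h => hwS (Finset.mem_coe.mp h)
    have h1 : e₁ ∈ w.asIdeal := (Ideal.span_singleton_le_iff_mem _).mp hw
    have h2 : w.valuation F (algebraMap (𝓞 F) F e₁) < 1 := (w.valuation_lt_one_iff_mem _).mpr h1
    rw [he₁, map_mul, hε w hwS', mul_one] at h2
    have h3 : π ^ m ∈ w.asIdeal := (w.valuation_lt_one_iff_mem _).mp h2
    exact hwS (hπsupp w (w.isPrime.mem_of_pow_mem m h3))
  · intro w hw
    have h1 : π ^ m ∈ w.asIdeal := (Ideal.span_singleton_le_iff_mem _).mp hw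
    exact hπsupp w (w.isPrime.mem_of_pow_mem m h1)

theorem h2_exp_lt_of_hnp (F : Type*) [Field F] [NumberField F] (p : ℕ) [Fact p.Prime]
    (v : HeightOneSpectrum (𝓞 F)) (n : ℕ)
    (hnp : ∀ e : ℕ, (p : 𝓞 F) ∈ v.asIdeal ^ e → 3 * e + 1 ≤ n) :
    WithZero.exp (-(n : ℤ)) < v.valuation F (p : F) ^ 2 := by
  have hp0 : (p : 𝓞 F) ≠ 0 := Nat.cast_ne_zero.mpr (Fact.out : p.Prime).ne_zero
  have h1 : v.valuation F (p : F) = v.intValuation (p : 𝓞 F) := by
    have h0 : (p : F) = algebraMap (𝓞 F) F (p : 𝓞 F) := (map_natCast (algebraMap (𝓞 F) F) p).symm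
    rw [h0, v.valuation_of_algebraMap]
  have h2 := v.intValuation_eq_exp_neg_multiplicity hp0
  have h3 : (p : 𝓞 F) ∈ v.asIdeal ^ (multiplicity v.asIdeal (Ideal.span {(p : 𝓞 F)})) := by
    rw [← v.intValuation_le_pow_iff_mem, h2]
  have h4 := hnp _ h3
  rw [h1, h2, ← WithZero.exp_nsmul, WithZero.exp_lt_exp]
  simp only [nsmul_eq_mul, Nat.cast_ofNat]
  omega

theorem h2Dv_anti (F : Type*) [Field F] [NumberField F] (p : ℕ)
    (v : HeightOneSpectrum (𝓞 F)) {m n : ℕ} (h : m ≤ n) : h2Dv F p v n ≤ h2Dv F p v m := by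
  rintro y ⟨z, h1, h2⟩
  refine ⟨z, h1, h2.trans ?_⟩
  rw [WithZero.exp_le_exp]
  omega

end Fermat.Agent.S14
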