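import Mathlib
import Fermat.Agent.S14.Defs
import Fermat.Agent.S14.H2Defs

/-!
# P18 (S14), block H2: primes with trivial decomposition group are norms

For a Galois extension `F'/F` of number fields:

* `h2_relNorm_of_decomp_trivial` : a nonzero prime `P` of `𝓞 F'` whose decomposition group in
  `Gal(F'/F)` is trivial has relative norm equal to the prime of `𝓞 F` below it;
* `h2_supported_is_norm` : a nonzero ideal of `𝓞 F` all of whose prime divisors lie in a set `S`
  of primes above which all decomposition groups are trivial is the relative norm of a nonzero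
  ideal of `𝓞 F'`.
-/

set_option autoImplicit false

namespace Fermat.Agent.S14

open NumberField IsDedekindDomain
open scoped Pointwise

/-- A nonzero prime of `𝓞 F'` with trivial decomposition group in `Gal(F'/F)` has relative
norm the prime below it (its residue degree is `1`). -/
theorem h2_relNorm_of_decomp_trivial
    (F F' : Type*) [Field F] [NumberField F] [Field F'] [NumberField F'] [Algebra F F']
    [IsGalois F F'] (P : Ideal (𝓞 F')) (hP : P.IsPrime) (hP0 : P ≠ ⊥)
    (hdec : ∀ σ : F' ≃ₐ[F] F', σ • P = P → σ = 1) :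
    Ideal.relNorm (𝓞 F) P = Ideal.under (𝓞 F) P := by
  have hPmax : P.IsMaximal := hP.isMaximal hP0
  set p := Ideal.under (𝓞 F) P with hp
  have hlo : P.LiesOver p := ⟨rfl⟩
  have hpprime : p.IsPrime := inferInstance
  have hpmax : p.IsMaximal := inferInstance
  have hperf : PerfectField p.ResidueField := inferInstance
  have h := Ideal.relNorm_eq_pow_of_isMaximal P p
  have hcard := Ideal.card_stabilizer_eq_card_inertia_mul_finrank (G := F' ≃ₐ[F] F') p P
  have hstab : MulAction.stabilizer (F' ≃ₐ[F] F') P = ⊥ := by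
    rw [eq_bot_iff]
    intro σ hσ
    rw [MulAction.mem_stabilizer_iff] at hσ
    exact Subgroup.mem_bot.2 (hdec σ hσ)
  rw [hstab, Subgroup.card_bot] at hcard
  have hf : P.inertiaDeg (𝓞 F) = 1 := Nat.eq_one_of_mul_eq_one_left hcard.symm
  rw [h, hf, pow_one]

/-- A nonzero ideal of `𝓞 F` supported on primes above which all decomposition groups are
trivial is a relative norm of a nonzero ideal of `𝓞 F'`. -/
theorem h2_supported_is_norm
    (F F' : Type*) [Field F] [NumberField F] [Field F'] [NumberField F'] [Algebra F F']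
    [IsGalois F F'] (S : Finset (HeightOneSpectrum (𝓞 F)))
    (hS : ∀ v ∈ S, ∀ P : Ideal (𝓞 F'), P.IsPrime → Ideal.under (𝓞 F) P = v.asIdeal →
      ∀ σ : F' ≃ₐ[F] F', σ • P = P → σ = 1)
    (J : Ideal (𝓞 F)) (hJ0 : J ≠ ⊥)
    (hJ : ∀ v : HeightOneSpectrum (𝓞 F), J ≤ v.asIdeal → v ∈ S) :
    ∃ 𝔖 : Ideal (𝓞 F'), 𝔖 ≠ ⊥ ∧ Ideal.relNorm (𝓞 F) 𝔖 = J := by
  revert hJ0 hJ
  refine UniqueFactorizationMonoid.induction_on_prime
    (P := fun J : Ideal (𝓞 F) => J ≠ ⊥ →
      (∀ v : HeightOneSpectrum (𝓞 F), J ≤ v.asIdeal → v ∈ S) →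
      ∃ 𝔖 : Ideal (𝓞 F'), 𝔖 ≠ ⊥ ∧ Ideal.relNorm (𝓞 F) 𝔖 = J) J ?_ ?_ ?_
  · intro h0 _
    exact absurd Ideal.zero_eq_bot h0
  · intro x hx _ _
    rw [Ideal.isUnit_iff] at hx
    exact ⟨⊤, top_ne_bot, by rw [hx, Ideal.relNorm_top]⟩
  · intro a p ha hp ih hpa hsupp
    have hpprime : p.IsPrime := Ideal.isPrime_of_prime hp
    have hp0 : p ≠ ⊥ := hp.ne_zero
    have ha0 : a ≠ ⊥ := ha
    obtain ⟨𝔖', h𝔖'0, h𝔖'⟩ := ih ha0
      (fun w hw => hsupp w (le_trans Ideal.mul_le_right hw))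
    let v : HeightOneSpectrum (𝓞 F) := ⟨p, hpprime, hp0⟩
    have hv : v ∈ S := hsupp v Ideal.mul_le_left
    obtain ⟨⟨P, hPprime, hPlo⟩⟩ := (inferInstance : Nonempty (Ideal.primesOver p (𝓞 F')))
    have hunder : Ideal.under (𝓞 F) P = p := (hPlo.over).symm
    have hP0 : P ≠ ⊥ := Ideal.ne_bot_of_liesOver_of_ne_bot hp0 P
    have hnorm : Ideal.relNorm (𝓞 F) P = p := by
      rw [h2_relNorm_of_decomp_trivial F F' P hPprime hP0 (hS v hv P hPprime hunder), hunder]
    refine ⟨P * 𝔖', mul_ne_zero hP0 h𝔖'0, ?_⟩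
    rw [map_mul, hnorm, h𝔖']

end Fermat.Agent.S14
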