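import Mathlib
import Fermat.Agent.S14.Defs
import Fermat.Agent.S14.H2Defs

/-!
# P18 (S14), block H2: a Kummer extension is unramified outside `p` and the radicand

`F' = F(β)`, `β ^ p = y`: if `P` is a prime of `F'` over a prime `v` of `F` with `v(y) = 1` and
`v(p) = 1`, then the inertia group of `P` is trivial (`h2_inertia_trivial_of_unit`).
-/

set_option autoImplicit false

namespace Fermat.Agent.S14

open NumberField IsDedekindDomain
open scoped Pointwise

/-- Valuation at `w` of an element of `F`, in terms of the valuation at the prime `v` below. -/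
theorem h2so_val_ext (F F' : Type*) [Field F] [NumberField F] [Field F'] [NumberField F']
    [Algebra F F'] (w : HeightOneSpectrum (𝓞 F')) (v : HeightOneSpectrum (𝓞 F))
    (hv : v.asIdeal = Ideal.under (𝓞 F) w.asIdeal) (x : F) :
    v.valuation F x ^ v.asIdeal.ramificationIdx' w.asIdeal
      = w.valuation F' (algebraMap F F' x) := by
  have : w.asIdeal.LiesOver v.asIdeal := ⟨hv⟩
  exact HeightOneSpectrum.valuation_liesOver F' v w x

/-- A `v`-unit of `F` is a `w`-unit of `F'`. -/
theorem h2so_val_ext_eq_one (F F' : Type*) [Field F] [NumberField F] [Field F'] [NumberField F']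
    [Algebra F F'] (w : HeightOneSpectrum (𝓞 F')) (v : HeightOneSpectrum (𝓞 F))
    (hv : v.asIdeal = Ideal.under (𝓞 F) w.asIdeal) (x : F) (hx : v.valuation F x = 1) :
    w.valuation F' (algebraMap F F' x) = 1 := by
  rw [← h2so_val_ext F F' w v hv x, hx, one_pow]

/-- In the value group with zero, a nontrivial power equal to `1` forces the base to be `1`. -/
theorem h2so_eq_one_of_pow_eq_one (x : WithZero (Multiplicative ℤ)) (n : ℕ) (hn : n ≠ 0)
    (h : x ^ n = 1) : x = 1 := by
  rcases lt_trichotomy x 1 with h1 | h1 | h1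
  · exact absurd h (pow_lt_one₀ zero_le h1 hn).ne
  · exact h1
  · exact absurd h (one_lt_pow₀ h1 hn).ne'

/-- Elements of the inertia group move elements of the valuation ring at `w` by elements of
valuation `< 1`. -/
theorem h2so_val_inertia (F F' : Type*) [Field F] [NumberField F] [Field F'] [NumberField F']
    [Algebra F F'] (w : HeightOneSpectrum (𝓞 F')) (σ : F' ≃ₐ[F] F')
    (hσ : ∀ x : 𝓞 F', σ • x - x ∈ w.asIdeal) (x : F') (hx : w.valuation F' x ≤ 1) :
    w.valuation F' (σ x - x) < 1 := by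
  obtain ⟨n, ⟨d, hd⟩, hnd⟩ := w.exists_primeCompl_mul_eq_of_integer x hx
  have hd' : d ∉ w.asIdeal := hd
  have hsd : σ • d ∉ w.asIdeal := by
    intro h
    apply hd'
    have := sub_mem h (hσ d)
    simpa using this
  have hcoe : ∀ z : 𝓞 F', algebraMap (𝓞 F') F' (σ • z) = σ (algebraMap (𝓞 F') F' z) := by
    intro z
    rfl
  have hvd : w.valuation F' (algebraMap (𝓞 F') F' d) = 1 :=
    (w.valuation_eq_one_iff_notMem (K := F')).2 hd'
  have hvsd : w.valuation F' (algebraMap (𝓞 F') F' (σ • d)) = 1 :=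
    (w.valuation_eq_one_iff_notMem (K := F')).2 hsd
  have hmem : (σ • n - n) * d - n * (σ • d - d) ∈ w.asIdeal :=
    sub_mem (Ideal.mul_mem_right _ _ (hσ n)) (Ideal.mul_mem_left _ _ (hσ d))
  have hlt := (w.valuation_lt_one_iff_mem (K := F') _).2 hmem
  have key : (σ x - x) * (algebraMap (𝓞 F') F' d * algebraMap (𝓞 F') F' (σ • d))
      = algebraMap (𝓞 F') F' ((σ • n - n) * d - n * (σ • d - d)) := by
    have h1 : algebraMap (𝓞 F') F' n = x * algebraMap (𝓞 F') F' d := hnd.symm
    simp only [map_sub, map_mul, hcoe]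
    rw [h1, map_mul]
    ring
  have : w.valuation F' (σ x - x) = w.valuation F'
      (algebraMap (𝓞 F') F' ((σ • n - n) * d - n * (σ • d - d))) := by
    rw [← key, map_mul, map_mul, hvd, hvsd, mul_one, mul_one]
  rw [this]
  exact hlt

/-- An automorphism of a Kummer extension multiplies the radical by a root of unity. -/
theorem h2so_kummer_smul (p : ℕ) [Fact p.Prime] (F F' : Type*) [Field F] [Field F']
    [Algebra F F'] (ζ : F) (hζ : IsPrimitiveRoot ζ p) (y : Fˣ) (β : F')
    (hβ : β ^ p = algebraMap F F' (y : F)) (σ : F' ≃ₐ[F] F') :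
    ∃ k : ℕ, k < p ∧ σ β = algebraMap F F' ζ ^ k * β := by
  have hp0 : p ≠ 0 := (Fact.out : p.Prime).ne_zero
  have : NeZero p := ⟨hp0⟩
  have hy0 : algebraMap F F' (y : F) ≠ 0 := by
    simp
  have hβ0 : β ≠ 0 := by
    rintro rfl
    rw [zero_pow hp0] at hβ
    exact hy0 hβ.symm
  have hζ' : IsPrimitiveRoot (algebraMap F F' ζ) p :=
    hζ.map_of_injective (algebraMap F F').injective
  have hpow : (σ β / β) ^ p = 1 := by
    rw [div_pow, ← map_pow, hβ, AlgEquiv.commutes, div_self hy0]
  obtain ⟨k, hk, hkeq⟩ := hζ'.eq_pow_of_pow_eq_one hpow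
  refine ⟨k, hk, ?_⟩
  rw [hkeq, div_mul_cancel₀ _ hβ0]

/-- An automorphism of a Kummer extension of prime degree fixing the radical is trivial. -/
theorem h2so_kummer_eq_one (p : ℕ) [Fact p.Prime] (F F' : Type*) [Field F] [Field F']
    [Algebra F F'] (hdeg : Module.finrank F F' = p) (y : Fˣ)
    (hy : ∀ z : Fˣ, y ≠ z ^ p) (β : F') (hβ : β ^ p = algebraMap F F' (y : F))
    (σ : F' ≃ₐ[F] F') (hσ : σ β = β) : σ = 1 := by
  have hp0 : p ≠ 0 := (Fact.out : p.Prime).ne_zero
  have hprime : (Module.finrank F F').Prime := hdeg ▸ (Fact.out : p.Prime)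
  have := IntermediateField.isSimpleOrder_of_finrank_prime F F' hprime
  have hnotbot : β ∉ (⊥ : IntermediateField F F') := by
    intro hmem
    obtain ⟨z, hz⟩ := IntermediateField.mem_bot.1 hmem
    have hzy : z ^ p = (y : F) := by
      apply (algebraMap F F').injective
      rw [map_pow, hz, hβ]
    have hz0 : z ≠ 0 := by
      rintro rfl
      rw [zero_pow hp0] at hzy
      exact y.ne_zero hzy.symm
    exact hy (Units.mk0 z hz0) (Units.ext (by simpa using hzy.symm))
  have htop : IntermediateField.adjoin F {β} = ⊤ := by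
    rcases eq_bot_or_eq_top (IntermediateField.adjoin F {β}) with h | h
    · exfalso
      apply hnotbot
      rw [← h]
      exact IntermediateField.mem_adjoin_simple_self F β
    · exact h
  have hall : ∀ x ∈ IntermediateField.adjoin F {β}, σ x = x := by
    intro x hx
    induction hx using IntermediateField.adjoin_induction with
    | mem x hx => rw [Set.mem_singleton_iff.1 hx]; exact hσ
    | algebraMap x => exact σ.commutes x
    | add x y _ _ hx hy => rw [map_add, hx, hy]
    | inv x _ hx => rw [map_inv₀, hx]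
    | mul x y _ _ hx hy => rw [map_mul, hx, hy]
  ext x
  exact hall x (htop ▸ IntermediateField.mem_top)

/-- If `η` is a primitive `p`-th root of unity of valuation at most `1`, then the valuation of
`p` is at most the valuation of `η - 1`. -/
theorem h2so_val_prime_le (p : ℕ) [Fact p.Prime] (K : Type*) [Field K]
    (val : Valuation K (WithZero (Multiplicative ℤ))) (η : K) (hη : IsPrimitiveRoot η p)
    (hη1 : val η ≤ 1) : val (p : K) ≤ val (η - 1) := by
  have hp1 : 1 < p := (Fact.out : p.Prime).one_lt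
  have hsum : ∑ i ∈ Finset.range p, η ^ i = 0 := hη.geom_sum_eq_zero hp1
  have hpow : ∀ i : ℕ, val (η ^ i) ≤ 1 := fun i => by
    rw [map_pow]; exact pow_le_one₀ zero_le hη1
  have hgeom : ∀ j : ℕ, val (∑ i ∈ Finset.range j, η ^ i) ≤ 1 := fun j =>
    Valuation.map_sum_le val (fun i _ => hpow i)
  have hid : (p : K) = (η - 1) * (- ∑ j ∈ Finset.range p, ∑ i ∈ Finset.range j, η ^ i) := by
    have h1 : ∀ j : ℕ, (η - 1) * ∑ i ∈ Finset.range j, η ^ i = η ^ j - 1 := fun j =>
      mul_geom_sum η j
    rw [mul_neg, Finset.mul_sum]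
    simp_rw [h1]
    rw [Finset.sum_sub_distrib, hsum]
    simp
  rw [hid, map_mul, Valuation.map_neg]
  calc val (η - 1) * val (∑ j ∈ Finset.range p, ∑ i ∈ Finset.range j, η ^ i)
      ≤ val (η - 1) * 1 := by
        gcongr
        exact Valuation.map_sum_le val (fun j _ => hgeom j)
    _ = val (η - 1) := mul_one _

/-- A Kummer extension `F' = F(β)`, `β ^ p = y`, is unramified at the primes `P` of `F'` lying
over a prime `v` of `F` at which both `y` and `p` are units. -/
theorem h2_inertia_trivial_of_unit (p : ℕ) [Fact p.Prime] (hp : 3 ≤ p)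
    (F F' : Type*) [Field F] [NumberField F] [Field F'] [NumberField F'] [Algebra F F']
    [IsGalois F F'] (hdeg : Module.finrank F F' = p) (ζ : F) (hζ : IsPrimitiveRoot ζ p)
    (y : Fˣ) (hy : ∀ z : Fˣ, y ≠ z ^ p) (β : F') (hβ : β ^ p = algebraMap F F' (y : F))
    (P : Ideal (𝓞 F')) (hP : P.IsPrime) (hP0 : P ≠ ⊥)
    (v : HeightOneSpectrum (𝓞 F)) (hv : v.asIdeal = Ideal.under (𝓞 F) P)
    (hvy : v.valuation F (y : F) = 1) (hvp : v.valuation F (p : F) = 1) :
    InertiaTrivialAt F F' P := by
  intro σ hσ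
  have _hp3 : 3 ≤ p := hp
  have hp0 : p ≠ 0 := (Fact.out : p.Prime).ne_zero
  let w : HeightOneSpectrum (𝓞 F') := ⟨P, hP, hP0⟩
  have hvw : v.asIdeal = Ideal.under (𝓞 F) w.asIdeal := hv
  have hσw : ∀ x : 𝓞 F', σ • x - x ∈ w.asIdeal := hσ
  obtain ⟨k, hk, hkβ⟩ := h2so_kummer_smul p F F' ζ hζ y β hβ σ
  -- the radical is a unit at `w`
  have hwβ : w.valuation F' β = 1 := by
    apply h2so_eq_one_of_pow_eq_one _ p hp0
    rw [← map_pow, hβ]
    exact h2so_val_ext_eq_one F F' w v hvw _ hvy
  -- `p` is a unit at `w`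
  have hwp : w.valuation F' (p : F') = 1 := by
    have h := h2so_val_ext_eq_one F F' w v hvw _ hvp
    rwa [map_natCast] at h
  have hζ' : IsPrimitiveRoot (algebraMap F F' ζ) p :=
    hζ.map_of_injective (algebraMap F F').injective
  have hwζ : w.valuation F' (algebraMap F F' ζ) = 1 := by
    apply h2so_eq_one_of_pow_eq_one _ p hp0
    rw [← map_pow, hζ'.pow_eq_one, map_one]
  have hlt : w.valuation F' (σ β - β) < 1 := h2so_val_inertia F F' w σ hσw β hwβ.le
  have hk0 : k = 0 := by
    by_contra hk0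
    have hcop : k.Coprime p :=
      Nat.coprime_comm.1 ((Nat.Prime.coprime_iff_not_dvd Fact.out).2
        (Nat.not_dvd_of_pos_of_lt (Nat.pos_of_ne_zero hk0) hk))
    have hη : IsPrimitiveRoot (algebraMap F F' ζ ^ k) p := hζ'.pow_of_coprime k hcop
    have hη1 : w.valuation F' (algebraMap F F' ζ ^ k) ≤ 1 := by
      rw [map_pow, hwζ, one_pow]
    have h1 := h2so_val_prime_le p F' (w.valuation F') _ hη hη1
    have h2 : σ β - β = (algebraMap F F' ζ ^ k - 1) * β := by rw [hkβ]; ring
    rw [h2, map_mul, hwβ, mul_one] at hlt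
    rw [hwp] at h1
    exact absurd hlt (not_lt.2 h1)
  apply h2so_kummer_eq_one p F F' hdeg y hy β hβ σ
  rw [hkβ, hk0, pow_zero, one_mul]

end Fermat.Agent.S14
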