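import Mathlib
import Fermat.Agent.S14.Defs
import Fermat.Agent.S14.H2Defs

/-!
# P18 (S14), block H2: complete splitting at tame primes of a Kummer extension

In a Kummer extension `F' = F(β)`, `β ^ p = y`, a prime `v` of `F` not dividing `p` at which
`y` is a `p`-th power times a unit congruent to `1` modulo `v` splits completely: every prime
of `F'` above `v` has trivial decomposition group (`h2_decomp_trivial_tame`).

Proof, in valuation language.  Let `w` be the valuation of `F'` attached to the prime `P`.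
Write `y = z ^ p * y₁` with `v (y₁ - 1) < 1` and put `β₁ = β / z`, so that
`w (β₁ ^ p - 1) < 1`.  As `β₁ ^ p - 1` is the product of the `β₁ - ζ ^ j`, some factor has
`w (β₁ - ζ ^ j) < 1`.  If `σ P = P` and `σ β = ζ ^ k β`, then `w (ζ ^ k β₁ - ζ ^ j) < 1`
as well, hence `w (ζ ^ k - 1) < 1`.  If `k ≠ 0` then `ζ ^ k` is a primitive `p`-th root of
unity and `p = (1 - ζ ^ k) + ... + (1 - ζ ^ (k (p - 1)))` gives `w p < 1`, contradicting
`v p = 1`.  So `k = 0`, `σ β = β` and `σ = 1`.
-/

set_option autoImplicit false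

namespace Fermat.Agent.S14

open NumberField IsDedekindDomain
open scoped Pointwise

/-- The integral valuation at a prime `w` of `F'` is invariant under the decomposition
group of `w`. -/
theorem h2st_intVal_smul_eq (F F' : Type*) [Field F] [NumberField F] [Field F'] [NumberField F']
    [Algebra F F'] (w : HeightOneSpectrum (𝓞 F')) (σ : F' ≃ₐ[F] F')
    (hσ : σ • w.asIdeal = w.asIdeal) (r : 𝓞 F') :
    w.intValuation (σ • r) = w.intValuation r := by
  have key : ∀ n : ℕ, w.intValuation (σ • r) ≤ WithZero.exp (-(n : ℤ)) ↔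
      w.intValuation r ≤ WithZero.exp (-(n : ℤ)) := by
    intro n
    rw [HeightOneSpectrum.intValuation_le_pow_iff_mem,
      HeightOneSpectrum.intValuation_le_pow_iff_mem]
    have h : σ • (w.asIdeal ^ n) = w.asIdeal ^ n := by rw [smul_pow', hσ]
    conv_lhs => rw [← h]
    exact Ideal.smul_mem_pointwise_smul_iff
  by_cases hr : r = 0
  · subst hr
    rw [smul_zero]
  · have hr' : σ • r ≠ 0 := fun h => hr ((smul_eq_zero_iff_eq σ).1 h)
    have h1 := w.intValuation_eq_exp_neg_multiplicity hr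
    have h2 := w.intValuation_eq_exp_neg_multiplicity hr'
    apply le_antisymm
    · rw [h1]
      exact (key _).2 (le_of_eq h1)
    · rw [h2]
      exact (key _).1 (le_of_eq h2)

/-- The valuation at a prime `w` of `F'` is invariant under the decomposition group of `w`. -/
theorem h2st_val_smul_eq (F F' : Type*) [Field F] [NumberField F] [Field F'] [NumberField F']
    [Algebra F F'] (w : HeightOneSpectrum (𝓞 F')) (σ : F' ≃ₐ[F] F')
    (hσ : σ • w.asIdeal = w.asIdeal) (x : F') :
    w.valuation F' (σ x) = w.valuation F' x := by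
  obtain ⟨a, b, -, rfl⟩ := IsFractionRing.div_surjective (A := 𝓞 F') x
  have h : ∀ r : 𝓞 F', σ (algebraMap (𝓞 F') F' r) = algebraMap (𝓞 F') F' (σ • r) := by
    intro r
    rw [algebraMap.smul']
    rfl
  rw [map_div₀, h a, h b, map_div₀, map_div₀, HeightOneSpectrum.valuation_of_algebraMap,
    HeightOneSpectrum.valuation_of_algebraMap, HeightOneSpectrum.valuation_of_algebraMap,
    HeightOneSpectrum.valuation_of_algebraMap, h2st_intVal_smul_eq F F' w σ hσ a,
    h2st_intVal_smul_eq F F' w σ hσ b]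

/-- Galois conjugates of a Kummer generator: `σ β = ζ ^ k * β`. -/
theorem h2st_kummer_smul (p : ℕ) [Fact p.Prime] (F F' : Type*) [Field F] [Field F']
    [Algebra F F'] (ζ : F) (hζ : IsPrimitiveRoot ζ p) (y : Fˣ) (β : F')
    (hβ : β ^ p = algebraMap F F' (y : F)) (σ : F' ≃ₐ[F] F') :
    ∃ k : ℕ, k < p ∧ σ β = algebraMap F F' ζ ^ k * β := by
  have hp0 : p ≠ 0 := (Fact.out : p.Prime).ne_zero
  have : NeZero p := ⟨hp0⟩
  have hζ' : IsPrimitiveRoot (algebraMap F F' ζ) p :=
    hζ.map_of_injective (algebraMap F F').injective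
  have hβ0 : β ≠ 0 := by
    intro h
    rw [h, zero_pow hp0] at hβ
    exact y.ne_zero ((map_eq_zero (algebraMap F F')).1 hβ.symm)
  have h1 : (σ β / β) ^ p = 1 := by
    rw [div_pow, ← map_pow, hβ, AlgEquiv.commutes, ← hβ, div_self (pow_ne_zero _ hβ0)]
  obtain ⟨k, hk, hk2⟩ := hζ'.eq_pow_of_pow_eq_one h1
  exact ⟨k, hk, by rw [hk2, div_mul_cancel₀ _ hβ0]⟩

/-- An automorphism fixing the Kummer generator is trivial. -/
theorem h2st_kummer_eq_one (p : ℕ) [Fact p.Prime] (F F' : Type*) [Field F] [Field F']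
    [Algebra F F'] [FiniteDimensional F F'] (hdeg : Module.finrank F F' = p) (y : Fˣ)
    (hy : ∀ z : Fˣ, y ≠ z ^ p) (β : F') (hβ : β ^ p = algebraMap F F' (y : F))
    (σ : F' ≃ₐ[F] F') (hσ : σ β = β) : σ = 1 := by
  have hp0 : p ≠ 0 := (Fact.out : p.Prime).ne_zero
  have hsimple : IsSimpleOrder (IntermediateField F F') :=
    IntermediateField.isSimpleOrder_of_finrank_prime F F' (hdeg ▸ (Fact.out : p.Prime))
  rcases eq_bot_or_eq_top (IntermediateField.adjoin F {β}) with h | h
  · exfalso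
    have hmem : β ∈ (⊥ : IntermediateField F F') :=
      h ▸ IntermediateField.mem_adjoin_simple_self F β
    obtain ⟨b, rfl⟩ := IntermediateField.mem_bot.1 hmem
    have hb : b ^ p = (y : F) := (algebraMap F F').injective (by rw [map_pow, hβ])
    have hb0 : b ≠ 0 := by
      rintro rfl
      rw [zero_pow hp0] at hb
      exact y.ne_zero hb.symm
    exact hy (Units.mk0 b hb0) (Units.ext (by simpa using hb.symm))
  · have halg : Algebra.adjoin F {β} = ⊤ :=
      (IntermediateField.adjoin_eq_top_iff_of_isAlgebraic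
        (fun x _ => Algebra.IsAlgebraic.isAlgebraic x)).1 h
    have h2 : (σ : F' →ₐ[F] F') = AlgHom.id F F' := AlgHom.ext_of_adjoin_eq_top halg (by
      intro x hx
      rw [Set.mem_singleton_iff] at hx
      subst hx
      exact hσ)
    ext x
    exact DFunLike.congr_fun h2 x

/-- Comparison of the valuation at `w` with the valuation at the prime `v` below it. -/
theorem h2st_val_ext (F F' : Type*) [Field F] [NumberField F] [Field F'] [NumberField F']
    [Algebra F F'] (w : HeightOneSpectrum (𝓞 F')) (v : HeightOneSpectrum (𝓞 F))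
    (hv : v.asIdeal = Ideal.under (𝓞 F) w.asIdeal) :
    ∃ e : ℕ, e ≠ 0 ∧ ∀ x : F, w.valuation F' (algebraMap F F' x) = v.valuation F x ^ e := by
  have hlo : w.asIdeal.LiesOver v.asIdeal := ⟨hv⟩
  exact ⟨v.asIdeal.ramificationIdx' w.asIdeal,
    Ideal.IsDedekindDomain.ramificationIdx'_ne_zero_of_liesOver w.asIdeal v.ne_bot,
    fun x => (HeightOneSpectrum.valuation_liesOver F' v w x).symm⟩

/-- Roots of unity have valuation one. -/
theorem h2st_val_eq_one_of_pow {K : Type*} [Field K]
    (w : Valuation K (WithZero (Multiplicative ℤ)))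
    (n : ℕ) (hn : n ≠ 0) (x : K) (hx : x ^ n = 1) : w x = 1 := by
  have h : w x ^ n = 1 := by rw [← map_pow, hx, map_one]
  exact (pow_eq_one_iff_of_nonneg zero_le hn).1 h

/-- If a primitive `p`-th root of unity is congruent to `1`, then `p` has valuation `< 1`. -/
theorem h2st_val_p_lt_one {K : Type*} [Field K] (w : Valuation K (WithZero (Multiplicative ℤ)))
    (p : ℕ) (hp : 1 < p) (μ : K) (hμ : IsPrimitiveRoot μ p) (h : w (μ - 1) < 1) :
    w (p : K) < 1 := by
  have hμ1 : w μ = 1 := h2st_val_eq_one_of_pow w p (by omega) μ hμ.pow_eq_one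
  have hpow : ∀ i : ℕ, w (μ ^ i - 1) < 1 := by
    intro i
    induction i with
    | zero => simp
    | succ i ih =>
      have e1 : μ ^ (i + 1) - 1 = μ ^ i * (μ - 1) + (μ ^ i - 1) := by ring
      rw [e1]
      refine lt_of_le_of_lt (Valuation.map_add _ _ _) (max_lt ?_ ih)
      rw [map_mul, map_pow, hμ1, one_pow, one_mul]
      exact h
  have hsum : (p : K) = ∑ i ∈ Finset.range p, (1 - μ ^ i) := by
    rw [Finset.sum_sub_distrib, hμ.geom_sum_eq_zero hp, sub_zero, Finset.sum_const,
      Finset.card_range, nsmul_eq_mul, mul_one]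
  rw [hsum]
  refine Valuation.map_sum_lt w one_ne_zero (fun i _ => ?_)
  rw [Valuation.map_sub_swap]
  exact hpow i

/-- In a Kummer extension `F' = F(β)`, `β ^ p = y`, of degree `p`, every prime `P` of `F'`
above a prime `v` of `F` with `v ∤ p` at which `y` is a `p`-th power times a unit congruent
to `1` modulo `v` has trivial decomposition group. -/
theorem h2_decomp_trivial_tame (p : ℕ) [Fact p.Prime] (hp : 3 ≤ p)
    (F F' : Type*) [Field F] [NumberField F] [Field F'] [NumberField F'] [Algebra F F']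
    [IsGalois F F'] (hdeg : Module.finrank F F' = p) (ζ : F) (hζ : IsPrimitiveRoot ζ p)
    (y : Fˣ) (hy : ∀ z : Fˣ, y ≠ z ^ p) (β : F') (hβ : β ^ p = algebraMap F F' (y : F))
    (P : Ideal (𝓞 F')) (hP : P.IsPrime) (hP0 : P ≠ ⊥)
    (v : HeightOneSpectrum (𝓞 F)) (hv : v.asIdeal = Ideal.under (𝓞 F) P)
    (hvy : y ∈ h2Dv F p v 1) (hvp : v.valuation F (p : F) = 1) :
    ∀ σ : F' ≃ₐ[F] F', σ • P = P → σ = 1 := by
  intro σ hσP
  have hp0 : p ≠ 0 := (Fact.out : p.Prime).ne_zero
  have hp1 : 1 < p := lt_of_lt_of_le (by norm_num) hp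
  have : NeZero p := ⟨hp0⟩
  -- the prime `w` of `F'` and the comparison with `v`
  let w : HeightOneSpectrum (𝓞 F') := ⟨P, hP, hP0⟩
  obtain ⟨e, he0, hval⟩ := h2st_val_ext F F' w v hv
  obtain ⟨z, -, hz2⟩ := (mem_h2Dv F).1 hvy
  have hζ' : IsPrimitiveRoot (algebraMap F F' ζ) p :=
    hζ.map_of_injective (algebraMap F F').injective
  have hwζ : ∀ i : ℕ, w.valuation F' (algebraMap F F' ζ ^ i) = 1 := by
    intro i
    refine h2st_val_eq_one_of_pow _ p hp0 _ ?_
    rw [← pow_mul, mul_comm, pow_mul, hζ'.pow_eq_one, one_pow]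
  -- `β₁ = β / z` is a `p`-th root of `y₁ = y / z ^ p`
  have hβ₁p : (β / algebraMap F F' (z : F)) ^ p = algebraMap F F' ((y : F) / (z : F) ^ p) := by
    rw [div_pow, hβ, map_div₀, map_pow]
  have hw1 : w.valuation F' ((β / algebraMap F F' (z : F)) ^ p - 1) < 1 := by
    rw [hβ₁p, ← map_one (algebraMap F F'), ← map_sub, hval]
    refine pow_lt_one₀ zero_le (lt_of_le_of_lt hz2 ?_) he0
    rw [← WithZero.exp_zero, WithZero.exp_lt_exp]
    norm_num
  -- factorisation of `β₁ ^ p - 1`
  have hfac : (β / algebraMap F F' (z : F)) ^ p - 1 =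
      ∏ μ ∈ Polynomial.nthRootsFinset p (1 : F'), (β / algebraMap F F' (z : F) - μ) := by
    have h := hζ'.pow_sub_pow_eq_prod_sub_mul (β / algebraMap F F' (z : F)) 1
      (Nat.pos_of_ne_zero hp0)
    simpa using h
  -- some factor has valuation `< 1`
  obtain ⟨μ, hμmem, hμ⟩ : ∃ μ ∈ Polynomial.nthRootsFinset p (1 : F'),
      w.valuation F' (β / algebraMap F F' (z : F) - μ) < 1 := by
    by_contra hcon
    have hcon' : ∀ μ ∈ Polynomial.nthRootsFinset p (1 : F'),
        1 ≤ w.valuation F' (β / algebraMap F F' (z : F) - μ) :=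
      fun μ hμ => not_lt.1 (fun hlt => hcon ⟨μ, hμ, hlt⟩)
    have h1 : 1 ≤ w.valuation F' ((β / algebraMap F F' (z : F)) ^ p - 1) := by
      rw [hfac, map_prod]
      exact Finset.one_le_prod' hcon'
    exact absurd hw1 (not_lt.2 h1)
  have hμp : μ ^ p = 1 := (Polynomial.mem_nthRootsFinset (Nat.pos_of_ne_zero hp0) 1).1 hμmem
  obtain ⟨j, -, rfl⟩ := hζ'.eq_pow_of_pow_eq_one hμp
  -- the action of `σ`
  obtain ⟨k, hk, hσβ⟩ := h2st_kummer_smul p F F' ζ hζ y β hβ σ
  have hσ1 : σ (β / algebraMap F F' (z : F) - algebraMap F F' ζ ^ j) =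
      algebraMap F F' ζ ^ k * (β / algebraMap F F' (z : F)) - algebraMap F F' ζ ^ j := by
    rw [map_sub, map_div₀, map_pow, AlgEquiv.commutes, AlgEquiv.commutes, hσβ, mul_div_assoc]
  have h1 : w.valuation F' (algebraMap F F' ζ ^ k * (β / algebraMap F F' (z : F)) -
      algebraMap F F' ζ ^ j) < 1 := by
    rw [← hσ1, h2st_val_smul_eq F F' w σ hσP]
    exact hμ
  have h2 : w.valuation F' (algebraMap F F' ζ ^ k *
      (β / algebraMap F F' (z : F) - algebraMap F F' ζ ^ j)) < 1 := by
    rw [map_mul, hwζ k, one_mul]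
    exact hμ
  have h3 : w.valuation F' (algebraMap F F' ζ ^ k - 1) < 1 := by
    have e1 : algebraMap F F' ζ ^ j * (algebraMap F F' ζ ^ k - 1) =
        (algebraMap F F' ζ ^ k * (β / algebraMap F F' (z : F)) - algebraMap F F' ζ ^ j) -
        algebraMap F F' ζ ^ k * (β / algebraMap F F' (z : F) - algebraMap F F' ζ ^ j) := by
      ring
    have h4 : w.valuation F' (algebraMap F F' ζ ^ j * (algebraMap F F' ζ ^ k - 1)) < 1 := by
      rw [e1]
      exact lt_of_le_of_lt (Valuation.map_sub _ _ _) (max_lt h1 h2)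
    rwa [map_mul, hwζ j, one_mul] at h4
  by_cases hk0 : k = 0
  · -- `k = 0`: `σ` fixes `β`
    subst hk0
    rw [pow_zero, one_mul] at hσβ
    exact h2st_kummer_eq_one p F F' hdeg y hy β hβ σ hσβ
  · -- `k ≠ 0`: `ζ ^ k` is primitive and congruent to `1`, so `w p < 1`
    exfalso
    have hcop : Nat.Coprime k p :=
      (Nat.coprime_comm.1 ((Nat.Prime.coprime_iff_not_dvd (Fact.out : p.Prime)).2
        (Nat.not_dvd_of_pos_of_lt (Nat.pos_of_ne_zero hk0) hk)))
    have hprim : IsPrimitiveRoot (algebraMap F F' ζ ^ k) p := hζ'.pow_of_coprime k hcop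
    have h5 : w.valuation F' ((p : F')) < 1 := h2st_val_p_lt_one _ p hp1 _ hprim h3
    have h6 : w.valuation F' ((p : F')) = 1 := by
      rw [← map_natCast (algebraMap F F') p, hval, hvp, one_pow]
    exact absurd h5 (by rw [h6]; exact lt_irrefl _)

end Fermat.Agent.S14
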