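import Mathlib
import Fermat.Agent.S14.Defs
import Fermat.Agent.S14.H2Defs

/-!
# P18 (S14), block H2: valuations of a prime `w` of `𝓞 F'` versus the prime `v` below

For number fields `F ⊆ F'`, a prime `w` of `𝓞 F'` and `v = w ∩ 𝓞 F`:

* `h2_val_ext_lt_one_iff`, `h2_val_ext_le_one_iff`, `h2_val_ext_eq_one_iff` :
  `w (x) < 1`, `≤ 1`, `= 1` iff `v (x) < 1`, `≤ 1`, `= 1`, for `x : F`;
* `h2_val_smul_eq` : if `σ P = P` then `w (σ x) = w (x)`;
* `h2_val_inertia` : if `σ` lies in the inertia group of `P` and `w (x) ≤ 1`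
  then `w (σ x - x) < 1`.
-/

set_option autoImplicit false

namespace Fermat.Agent.S14

open NumberField IsDedekindDomain
open scoped Pointwise

/-- The valuation at `w` restricted to `F` is a nonzero power of the valuation at `v`. -/
theorem h2ve_val_ext (F F' : Type*) [Field F] [NumberField F] [Field F'] [NumberField F']
    [Algebra F F'] (w : HeightOneSpectrum (𝓞 F')) (v : HeightOneSpectrum (𝓞 F))
    (hv : v.asIdeal = Ideal.under (𝓞 F) w.asIdeal) (x : F) :
    ∃ e : ℕ, e ≠ 0 ∧ w.valuation F' (algebraMap F F' x) = v.valuation F x ^ e := by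
  have : w.asIdeal.LiesOver v.asIdeal := ⟨hv⟩
  exact ⟨v.asIdeal.ramificationIdx' w.asIdeal,
    Ideal.IsDedekindDomain.ramificationIdx'_ne_zero_of_liesOver w.asIdeal v.ne_bot,
    (HeightOneSpectrum.valuation_liesOver F' v w x).symm⟩

theorem h2_val_ext_lt_one_iff (F F' : Type*) [Field F] [NumberField F] [Field F'] [NumberField F']
    [Algebra F F'] (w : HeightOneSpectrum (𝓞 F')) (v : HeightOneSpectrum (𝓞 F))
    (hv : v.asIdeal = Ideal.under (𝓞 F) w.asIdeal) (x : F) :
    w.valuation F' (algebraMap F F' x) < 1 ↔ v.valuation F x < 1 := by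
  obtain ⟨e, he, h⟩ := h2ve_val_ext F F' w v hv x
  rw [h]
  exact pow_lt_one_iff he

theorem h2_val_ext_le_one_iff (F F' : Type*) [Field F] [NumberField F] [Field F'] [NumberField F']
    [Algebra F F'] (w : HeightOneSpectrum (𝓞 F')) (v : HeightOneSpectrum (𝓞 F))
    (hv : v.asIdeal = Ideal.under (𝓞 F) w.asIdeal) (x : F) :
    w.valuation F' (algebraMap F F' x) ≤ 1 ↔ v.valuation F x ≤ 1 := by
  obtain ⟨e, he, h⟩ := h2ve_val_ext F F' w v hv x
  rw [h]
  exact pow_le_one_iff he

theorem h2_val_ext_eq_one_iff (F F' : Type*) [Field F] [NumberField F] [Field F'] [NumberField F']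
    [Algebra F F'] (w : HeightOneSpectrum (𝓞 F')) (v : HeightOneSpectrum (𝓞 F))
    (hv : v.asIdeal = Ideal.under (𝓞 F) w.asIdeal) (x : F) :
    w.valuation F' (algebraMap F F' x) = 1 ↔ v.valuation F x = 1 := by
  constructor
  · intro h1
    exact le_antisymm ((h2_val_ext_le_one_iff F F' w v hv x).1 h1.le)
      (not_lt.1 fun hlt => (ne_of_lt ((h2_val_ext_lt_one_iff F F' w v hv x).2 hlt)) h1)
  · intro h1
    exact le_antisymm ((h2_val_ext_le_one_iff F F' w v hv x).2 h1.le)
      (not_lt.1 fun hlt => (ne_of_lt ((h2_val_ext_lt_one_iff F F' w v hv x).1 hlt)) h1)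

/-- Coercion of the Galois action on the ring of integers. -/
theorem h2ve_coe_smul (F F' : Type*) [Field F] [NumberField F] [Field F'] [NumberField F']
    [Algebra F F'] (σ : F' ≃ₐ[F] F') (a : 𝓞 F') :
    algebraMap (𝓞 F') F' (σ • a) = σ (algebraMap (𝓞 F') F' a) := by
  rw [algebraMap.smul' σ a F']
  rfl

/-- If `σ` fixes `P` then `σ` does not increase the `P`-adic valuation of integers. -/
theorem h2ve_intVal_smul_le (F F' : Type*) [Field F] [NumberField F] [Field F'] [NumberField F']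
    [Algebra F F'] (w : HeightOneSpectrum (𝓞 F')) (σ : F' ≃ₐ[F] F')
    (hσ : σ • w.asIdeal = w.asIdeal) (a : 𝓞 F') :
    w.intValuation (σ • a) ≤ w.intValuation a := by
  rcases eq_or_ne a 0 with rfl | ha
  · simp
  rw [w.intValuation_eq_exp_neg_multiplicity ha]
  rw [HeightOneSpectrum.intValuation_le_pow_iff_mem]
  have h1 : a ∈ w.asIdeal ^ (multiplicity w.asIdeal (Ideal.span {a})) := by
    rw [← HeightOneSpectrum.intValuation_le_pow_iff_mem, w.intValuation_eq_exp_neg_multiplicity ha]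
  have h2 : σ • a ∈ σ • (w.asIdeal ^ (multiplicity w.asIdeal (Ideal.span {a}))) :=
    Ideal.smul_mem_pointwise_smul σ a _ h1
  rwa [smul_pow', hσ] at h2

/-- If `σ` fixes `P` then `σ` preserves the `P`-adic valuation of integers. -/
theorem h2ve_intVal_smul_eq (F F' : Type*) [Field F] [NumberField F] [Field F'] [NumberField F']
    [Algebra F F'] (w : HeightOneSpectrum (𝓞 F')) (σ : F' ≃ₐ[F] F')
    (hσ : σ • w.asIdeal = w.asIdeal) (a : 𝓞 F') :
    w.intValuation (σ • a) = w.intValuation a := by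
  refine le_antisymm (h2ve_intVal_smul_le F F' w σ hσ a) ?_
  have hσ' : σ⁻¹ • w.asIdeal = w.asIdeal := by
    conv_lhs => rw [← hσ]
    rw [inv_smul_smul]
  have := h2ve_intVal_smul_le F F' w σ⁻¹ hσ' (σ • a)
  rwa [inv_smul_smul] at this

theorem h2_val_smul_eq (F F' : Type*) [Field F] [NumberField F] [Field F'] [NumberField F']
    [Algebra F F'] (w : HeightOneSpectrum (𝓞 F')) (σ : F' ≃ₐ[F] F')
    (hσ : σ • w.asIdeal = w.asIdeal) (x : F') :
    w.valuation F' (σ x) = w.valuation F' x := by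
  obtain ⟨a, b, hb, rfl⟩ := IsFractionRing.div_surjective (A := 𝓞 F') x
  rw [map_div₀, ← h2ve_coe_smul, ← h2ve_coe_smul, map_div₀, map_div₀,
    HeightOneSpectrum.valuation_of_algebraMap, HeightOneSpectrum.valuation_of_algebraMap,
    HeightOneSpectrum.valuation_of_algebraMap, HeightOneSpectrum.valuation_of_algebraMap,
    h2ve_intVal_smul_eq F F' w σ hσ, h2ve_intVal_smul_eq F F' w σ hσ]

/-- The inertia condition implies that `σ` fixes `P`. -/
theorem h2ve_smul_eq_of_inertia (F F' : Type*) [Field F] [NumberField F] [Field F']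
    [NumberField F'] [Algebra F F'] (P : Ideal (𝓞 F')) (σ : F' ≃ₐ[F] F')
    (hσ : ∀ x : 𝓞 F', σ • x - x ∈ P) : σ • P = P := by
  have h : σ ∈ Ideal.inertia (F' ≃ₐ[F] F') P := hσ
  exact Ideal.inertia_le_stabilizer P h

theorem h2_val_inertia (F F' : Type*) [Field F] [NumberField F] [Field F'] [NumberField F']
    [Algebra F F'] (w : HeightOneSpectrum (𝓞 F')) (σ : F' ≃ₐ[F] F')
    (hσ : ∀ x : 𝓞 F', σ • x - x ∈ w.asIdeal) (x : F') (hx : w.valuation F' x ≤ 1) :
    w.valuation F' (σ x - x) < 1 := by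
  have hP : σ • w.asIdeal = w.asIdeal := h2ve_smul_eq_of_inertia F F' w.asIdeal σ hσ
  -- write `x = n / d` with `d` outside `P`
  obtain ⟨n, ⟨d, hd⟩, hnd⟩ := w.exists_primeCompl_mul_eq_of_integer x hx
  have hd' : d ∉ w.asIdeal := hd
  have hd1 : w.valuation F' (algebraMap (𝓞 F') F' d) = 1 :=
    (HeightOneSpectrum.valuation_eq_one_iff_notMem w).2 hd'
  have hd0 : algebraMap (𝓞 F') F' d ≠ 0 := by
    intro h
    rw [h, map_zero] at hd1
    exact zero_ne_one hd1
  have hσd1 : w.valuation F' (σ (algebraMap (𝓞 F') F' d)) = 1 := by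
    rw [h2_val_smul_eq F F' w σ hP, hd1]
  have hσd0 : σ (algebraMap (𝓞 F') F' d) ≠ 0 := by
    intro h
    rw [h, map_zero] at hσd1
    exact zero_ne_one hσd1
  simp only at hnd
  have hx' : x = algebraMap (𝓞 F') F' n / algebraMap (𝓞 F') F' d := by
    rw [eq_div_iff hd0, hnd]
  -- sigma x - x = ((sigma n - n) * d - n * (sigma d - d)) / (d * sigma d)
  have key : σ x - x = (algebraMap (𝓞 F') F' (σ • n - n) * algebraMap (𝓞 F') F' d
      - algebraMap (𝓞 F') F' n * algebraMap (𝓞 F') F' (σ • d - d))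
      / (algebraMap (𝓞 F') F' d * σ (algebraMap (𝓞 F') F' d)) := by
    rw [hx', map_div₀, map_sub, map_sub, h2ve_coe_smul, h2ve_coe_smul]
    field_simp
    ring
  rw [key, map_div₀, map_mul, hd1, hσd1, mul_one, div_one]
  refine lt_of_le_of_lt (Valuation.map_sub _ _ _) (max_lt ?_ ?_)
  · rw [map_mul, hd1, mul_one]
    exact (HeightOneSpectrum.valuation_lt_one_iff_mem w _).2 (hσ n)
  · rw [map_mul]
    have h1 : w.valuation F' (algebraMap (𝓞 F') F' n) ≤ 1 := w.valuation_le_one n
    have h2 : w.valuation F' (algebraMap (𝓞 F') F' (σ • d - d)) < 1 :=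
      (HeightOneSpectrum.valuation_lt_one_iff_mem w _).2 (hσ d)
    calc w.valuation F' (algebraMap (𝓞 F') F' n)
          * w.valuation F' (algebraMap (𝓞 F') F' (σ • d - d))
        ≤ 1 * w.valuation F' (algebraMap (𝓞 F') F' (σ • d - d)) := by
          gcongr
      _ < 1 := by rw [one_mul]; exact h2

end Fermat.Agent.S14
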