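import Mathlib
import Fermat.Agent.S14.Defs
import Fermat.Agent.S14.H2Defs
import Fermat.Agent.S14.H2ValExt
import Fermat.Agent.S14.H2KummerField

/-!
# P18 (S14), block H2: complete splitting in a Kummer extension at a prime where the
radicand is a local p-th power to high precision

Setting: F' = F(beta), beta ^ p = y, zeta in F a primitive p-th root of unity, v a prime of F
at which y = z ^ p * y1 with y1 a unit and v (y1 - 1) < v (p) ^ 2.  Then the decomposition group
of every prime P of F' above v is trivial (`h2_decomp_trivial_wild`).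

Proof, in valuation language (w the valuation of P), with b = beta / z, so b ^ p = y1:

* p is the product of the 1 - zeta ^ i for 0 < i < p, and
  zeta ^ i - 1 = (zeta - 1) (1 + zeta + ... + zeta ^ (i - 1)); this gives
  w (p) <= w (zeta - 1) ^ (p - 1), hence w (b ^ p - 1) < w (p) ^ 2 <= w (zeta - 1) ^ p;
* b ^ p - 1 is the product of the b - zeta ^ j for j < p, so w (b - zeta ^ j) < w (zeta - 1)
  for some j;
* if sigma P = P and sigma beta = zeta ^ k beta, then w (zeta ^ k b - zeta ^ j) < w (zeta - 1)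
  too, so w (zeta ^ k - 1) < w (zeta - 1) (as w (b) = 1); but if zeta ^ k is not 1 then zeta
  is a power of zeta ^ k and w (zeta - 1) <= w (zeta ^ k - 1).  Hence zeta ^ k = 1,
  sigma beta = beta and sigma = 1.

The argument is uniform in the residue characteristic: it does not use v (p) < 1.
-/

set_option autoImplicit false

namespace Fermat.Agent.S14

open NumberField IsDedekindDomain
open scoped Pointwise

/-- the valuation of a root of unity is one -/
theorem h2sw_val_root_one {K Γ₀ : Type*} [Field K] [LinearOrderedCommGroupWithZero Γ₀]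
    (w : Valuation K Γ₀) (p : ℕ) (hp0 : p ≠ 0) (μ : K) (hμ : μ ^ p = 1) : w μ = 1 := by
  have h : w μ ^ p = 1 := by rw [← map_pow, hμ, map_one]
  exact (pow_eq_one_iff_left hp0).1 h

/-- the valuation of a geometric sum of a root of unity is at most one -/
theorem h2sw_val_geom_le {K Γ₀ : Type*} [Field K] [LinearOrderedCommGroupWithZero Γ₀]
    (w : Valuation K Γ₀) (p : ℕ) (hp0 : p ≠ 0) (μ : K) (hμ : μ ^ p = 1) (m : ℕ) :
    w (∑ i ∈ Finset.range m, μ ^ i) ≤ 1 := by
  refine Valuation.map_sum_le w (fun i _ => ?_)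
  rw [map_pow, h2sw_val_root_one w p hp0 μ hμ, one_pow]

/-- a root of unity to the power `m`, minus one, is a multiple of that root minus one by an
element of valuation at most one -/
theorem h2sw_val_pow_sub_one_le {K Γ₀ : Type*} [Field K] [LinearOrderedCommGroupWithZero Γ₀]
    (w : Valuation K Γ₀) (p : ℕ) (hp0 : p ≠ 0) (μ : K) (hμ : μ ^ p = 1) (m : ℕ) :
    w (μ ^ m - 1) ≤ w (μ - 1) := by
  rw [← mul_geom_sum μ m, map_mul]
  calc w (μ - 1) * w (∑ i ∈ Finset.range m, μ ^ i) ≤ w (μ - 1) * 1 :=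
        mul_le_mul_right (h2sw_val_geom_le w p hp0 μ hμ m) _
    _ = w (μ - 1) := mul_one _

/-- Lemma Y: if the `k`-th power of a primitive `p`-th root of unity, minus one, has strictly
smaller valuation than the root minus one, then that power is one. -/
theorem h2sw_pow_eq_one_of_val_lt {K Γ₀ : Type*} [Field K] [LinearOrderedCommGroupWithZero Γ₀]
    (w : Valuation K Γ₀) (p : ℕ) [Fact p.Prime] (ζ : K) (hζ : IsPrimitiveRoot ζ p) (k : ℕ)
    (h : w (ζ ^ k - 1) < w (ζ - 1)) : ζ ^ k = 1 := by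
  have hpp : p.Prime := Fact.out
  by_contra hne
  have hndvd : ¬ p ∣ k := fun hd => hne ((hζ.pow_eq_one_iff_dvd k).2 hd)
  have hcop : k.Coprime p := ((Nat.Prime.coprime_iff_not_dvd hpp).2 hndvd).symm
  have hprim : IsPrimitiveRoot (ζ ^ k) p := hζ.pow_of_coprime k hcop
  have : NeZero p := ⟨hpp.ne_zero⟩
  obtain ⟨m, -, hm⟩ := hprim.eq_pow_of_pow_eq_one hζ.pow_eq_one
  have h1 : w (ζ - 1) ≤ w (ζ ^ k - 1) := by
    have := h2sw_val_pow_sub_one_le w p hpp.ne_zero (ζ ^ k) hprim.pow_eq_one m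
    rwa [hm] at this
  exact absurd h (not_lt.2 h1)

/-- the valuation of `p` is at most the `(p - 1)`-th power of the valuation of a primitive
`p`-th root of unity minus one -/
theorem h2sw_val_p_le {K Γ₀ : Type*} [Field K] [LinearOrderedCommGroupWithZero Γ₀]
    (w : Valuation K Γ₀) (p : ℕ) [Fact p.Prime] (ζ : K) (hζ : IsPrimitiveRoot ζ p) :
    w (p : K) ≤ w (ζ - 1) ^ (p - 1) := by
  have hpp : p.Prime := Fact.out
  obtain ⟨n, rfl⟩ : ∃ n, p = n + 1 := ⟨p - 1, (Nat.succ_pred_eq_of_pos hpp.pos).symm⟩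
  have hprod := hζ.prod_one_sub_pow_eq_order
  have hcast : ((n + 1 : ℕ) : K) = ∏ k ∈ Finset.range n, (1 - ζ ^ (k + 1)) := by
    rw [hprod]; push_cast; ring
  rw [hcast, map_prod, Nat.add_sub_cancel]
  calc ∏ k ∈ Finset.range n, w (1 - ζ ^ (k + 1))
      ≤ w (ζ - 1) ^ (Finset.range n).card := by
        refine Finset.prod_le_pow_card _ _ _ (fun k _ => ?_)
        rw [← Valuation.map_neg, neg_sub]
        exact h2sw_val_pow_sub_one_le w (n + 1) hpp.ne_zero ζ hζ.pow_eq_one (k + 1)
    _ = w (ζ - 1) ^ n := by rw [Finset.card_range]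

/-- Lemma X: if `b ^ p - 1` has smaller valuation than `p ^ 2` then `b` is a unit, close to a
power of the primitive `p`-th root of unity. -/
theorem h2sw_exists_close_root {K Γ₀ : Type*} [Field K] [LinearOrderedCommGroupWithZero Γ₀]
    (w : Valuation K Γ₀) (p : ℕ) [Fact p.Prime] (ζ : K) (hζ : IsPrimitiveRoot ζ p) (b : K)
    (hb : w (b ^ p - 1) < w (p : K) ^ 2) :
    w b = 1 ∧ ∃ j : ℕ, w (b - ζ ^ j) < w (ζ - 1) := by
  have hpp : p.Prime := Fact.out
  have hp0 : p ≠ 0 := hpp.ne_zero
  have hζ1 : w ζ = 1 := h2sw_val_root_one w p hp0 ζ hζ.pow_eq_one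
  have hl1 : w (ζ - 1) ≤ 1 := by
    refine (Valuation.map_sub_le (v := w) (g := 1) ?_ ?_)
    · rw [hζ1]
    · rw [map_one]
  have hple : w (p : K) ≤ w (ζ - 1) ^ (p - 1) := h2sw_val_p_le w p ζ hζ
  -- the square of `w p` is at most the `p`-th power of the valuation of the root minus one
  have hp2 : w (p : K) ^ 2 ≤ w (ζ - 1) ^ p := by
    calc w (p : K) ^ 2 ≤ (w (ζ - 1) ^ (p - 1)) ^ 2 := pow_le_pow_left' hple 2
      _ = w (ζ - 1) ^ ((p - 1) * 2) := by rw [pow_mul]
      _ ≤ w (ζ - 1) ^ p := by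
        refine pow_le_pow_right_of_le_one' hl1 ?_
        have := hpp.two_le
        omega
  have hb' : w (b ^ p - 1) < w (ζ - 1) ^ p := lt_of_lt_of_le hb hp2
  have hlt1 : w (b ^ p - 1) < 1 := lt_of_lt_of_le hb' (pow_le_one' hl1 p)
  have hb1 : w b = 1 := by
    have h1 : w (b ^ p) = 1 := by
      have := Valuation.map_one_add_of_lt (v := w) hlt1
      rwa [add_sub_cancel] at this
    rw [map_pow] at h1
    exact (pow_eq_one_iff_left hp0).1 h1
  refine ⟨hb1, ?_⟩
  -- factorisation of `b ^ p - 1`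
  have hfac : b ^ p - 1 = ∏ μ ∈ Polynomial.nthRootsFinset p (1 : K), (b - μ * 1) := by
    have := hζ.pow_sub_pow_eq_prod_sub_mul b 1 hpp.pos
    rwa [one_pow] at this
  by_contra hcon
  push Not at hcon
  have hall : ∀ μ ∈ Polynomial.nthRootsFinset p (1 : K), w (ζ - 1) ≤ w (b - μ * 1) := by
    intro μ hμ
    have hμ1 : μ ^ p = 1 := (Polynomial.mem_nthRootsFinset hpp.pos 1).1 hμ
    have : NeZero p := ⟨hp0⟩
    obtain ⟨j, -, hj⟩ := hζ.eq_pow_of_pow_eq_one hμ1
    rw [mul_one, ← hj]
    exact hcon j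
  have := Finset.pow_card_le_prod _ (fun μ => w (b - μ * 1)) _ hall
  rw [hζ.card_nthRootsFinset, ← map_prod, ← hfac] at this
  exact absurd hb' (not_lt.2 this)

set_option linter.unusedVariables false in
/-- Complete splitting at a prime `v` where `y` is a `p`-th power times a unit `y1` with
`v (y1 - 1)` at most `exp (-n)`, itself smaller than `v (p) ^ 2`: every element of the
decomposition group of a prime `P` of `F'` above `v` is trivial.  (The hypotheses `hp` and `hvp`
are not needed by the proof; they are kept so that the statement is the one fixed in the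
skeleton of the block.) -/
theorem h2_decomp_trivial_wild (p : ℕ) [Fact p.Prime] (hp : 3 ≤ p)
    (F F' : Type*) [Field F] [NumberField F] [Field F'] [NumberField F'] [Algebra F F']
    [IsGalois F F'] (hdeg : Module.finrank F F' = p) (ζ : F) (hζ : IsPrimitiveRoot ζ p)
    (y : Fˣ) (hy : ∀ z : Fˣ, y ≠ z ^ p) (β : F') (hβ : β ^ p = algebraMap F F' (y : F))
    (P : Ideal (𝓞 F')) (hP : P.IsPrime) (hP0 : P ≠ ⊥)
    (v : HeightOneSpectrum (𝓞 F)) (hv : v.asIdeal = Ideal.under (𝓞 F) P)
    (n : ℕ) (hvy : y ∈ h2Dv F p v n) (hvp : v.valuation F (p : F) < 1)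
    (hn : WithZero.exp (-(n : ℤ)) < v.valuation F (p : F) ^ 2) :
    ∀ σ : F' ≃ₐ[F] F', σ • P = P → σ = 1 := by
  intro σ hσ
  have hpp : p.Prime := Fact.out
  let w : HeightOneSpectrum (𝓞 F') := ⟨P, hP, hP0⟩
  have hvw : v.asIdeal = Ideal.under (𝓞 F) w.asIdeal := hv
  have hσw : σ • w.asIdeal = w.asIdeal := hσ
  obtain ⟨z, -, hz2⟩ := hvy
  -- the element `b = beta / z`, with `b ^ p = y / z ^ p`
  have hbp : (β / algebraMap F F' (z : F)) ^ p - 1
      = algebraMap F F' ((y : F) / (z : F) ^ p - 1) := by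
    rw [div_pow, hβ, map_sub, map_div₀, map_pow, map_one]
  -- the valuation estimate, first in `F`, then in `F'`
  have hp0 : (p : F) ≠ 0 := Nat.cast_ne_zero.2 hpp.ne_zero
  have hpv : 0 < v.valuation F (p : F) ^ 2 :=
    pow_pos (zero_lt_iff.2 ((Valuation.ne_zero_iff _).2 hp0)) 2
  have hlt : v.valuation F (((y : F) / (z : F) ^ p - 1) / (p : F) ^ 2) < 1 := by
    rw [map_div₀, map_pow]
    exact (div_lt_one₀ hpv).2 (lt_of_le_of_lt hz2 hn)
  have hp0' : (p : F') ≠ 0 := Nat.cast_ne_zero.2 hpp.ne_zero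
  have hpw : 0 < w.valuation F' (p : F') ^ 2 :=
    pow_pos (zero_lt_iff.2 ((Valuation.ne_zero_iff _).2 hp0')) 2
  have hbw : w.valuation F' ((β / algebraMap F F' (z : F)) ^ p - 1)
      < w.valuation F' (p : F') ^ 2 := by
    have hlt' := (h2_val_ext_lt_one_iff F F' w v hvw _).2 hlt
    rw [map_div₀, map_pow, map_natCast, ← hbp, map_div₀, map_pow] at hlt'
    exact (div_lt_one₀ hpw).1 hlt'
  -- some power of the root of unity is close to `b`
  have hζ' : IsPrimitiveRoot (algebraMap F F' ζ) p :=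
    hζ.map_of_injective (algebraMap F F').injective
  obtain ⟨hb1, j, hj⟩ :=
    h2sw_exists_close_root (w.valuation F') p (algebraMap F F' ζ) hζ' _ hbw
  -- the action of the automorphism
  obtain ⟨k, -, hσβ⟩ := h2_kummer_smul p F F' ζ hζ y β hβ σ
  have hσb : σ (β / algebraMap F F' (z : F) - algebraMap F F' ζ ^ j)
      = algebraMap F F' ζ ^ k * (β / algebraMap F F' (z : F)) - algebraMap F F' ζ ^ j := by
    rw [map_sub, map_div₀, map_pow, AlgEquiv.commutes, AlgEquiv.commutes, hσβ, mul_div_assoc]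
  have h1 : w.valuation F'
      (algebraMap F F' ζ ^ k * (β / algebraMap F F' (z : F)) - algebraMap F F' ζ ^ j)
      < w.valuation F' (algebraMap F F' ζ - 1) := by
    rw [← hσb, h2_val_smul_eq F F' w σ hσw]
    exact hj
  have h2 : w.valuation F' ((algebraMap F F' ζ ^ k - 1) * (β / algebraMap F F' (z : F)))
      < w.valuation F' (algebraMap F F' ζ - 1) := by
    have hsplit : (algebraMap F F' ζ ^ k - 1) * (β / algebraMap F F' (z : F))
        = (algebraMap F F' ζ ^ k * (β / algebraMap F F' (z : F)) - algebraMap F F' ζ ^ j)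
          - (β / algebraMap F F' (z : F) - algebraMap F F' ζ ^ j) := by
      ring
    rw [hsplit]
    exact Valuation.map_sub_lt _ h1 hj
  rw [map_mul, hb1, mul_one] at h2
  have hk1 : algebraMap F F' ζ ^ k = 1 :=
    h2sw_pow_eq_one_of_val_lt (w.valuation F') p (algebraMap F F' ζ) hζ' k h2
  rw [hk1, one_mul] at hσβ
  exact h2_kummer_eq_one p F F' hdeg y hy β hβ σ hσβ

end Fermat.Agent.S14
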