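import Mathlib
import Fermat.Agent.S14.Defs
import Fermat.Agent.S14.H2Defs
import Fermat.Agent.S14.H2Approx
import Fermat.Agent.S14.H2KummerField
import Fermat.Agent.S14.H2SplitOut
import Fermat.Agent.S14.H2NormS
import Fermat.Agent.S14.H2L2Aux
import Fermat.Agent.S14.H2SplitTame
import Fermat.Agent.S14.H2SplitWild

set_option autoImplicit false

namespace Fermat.Agent.S14

open NumberField IsDedekindDomain
open scoped Pointwise

universe u

/-- An element of the inertia group of `P` stabilises `P`. -/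
theorem h2l_smul_eq_of_inertia (F F' : Type*) [Field F] [NumberField F] [Field F']
    [NumberField F'] [Algebra F F'] (P : Ideal (𝓞 F')) (σ : F' ≃ₐ[F] F')
    (hσ : ∀ x : 𝓞 F', σ • x - x ∈ P) : σ • P = P := by
  have hinv : ∀ x : 𝓞 F', σ⁻¹ • x - x ∈ P := by
    intro x
    have h := hσ (σ⁻¹ • x)
    rw [smul_inv_smul] at h
    have : σ⁻¹ • x - x = -(x - σ⁻¹ • x) := by ring
    rw [this]
    exact P.neg_mem h
  apply le_antisymm
  · intro y hy
    rw [Ideal.mem_pointwise_smul_iff_inv_smul_mem] at hy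
    have h := hσ (σ⁻¹ • y)
    rw [smul_inv_smul] at h
    have : y = (y - σ⁻¹ • y) + σ⁻¹ • y := by ring
    rw [this]
    exact P.add_mem h hy
  · intro y hy
    rw [Ideal.mem_pointwise_smul_iff_inv_smul_mem]
    have h := hinv y
    have : σ⁻¹ • y = (σ⁻¹ • y - y) + y := by ring
    rw [this]
    exact P.add_mem h hy

/-- valuation of an integer outside `v` is `1` -/
theorem h2l_val_eq_one_of_not_mem (F : Type*) [Field F] [NumberField F]
    (v : HeightOneSpectrum (𝓞 F)) (a : 𝓞 F) (ha : a ∉ v.asIdeal) :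
    v.valuation F (a : F) = 1 := by
  have h1 : v.valuation F (a : F) ≤ 1 := v.valuation_le_one a
  rcases h1.lt_or_eq with h | h
  · exact absurd ((v.valuation_lt_one_iff_mem a).1 h) ha
  · exact h

/-- coprimality of a principal ideal with the product of the primes of `T` -/
theorem h2l_isCoprime_span (F : Type*) [Field F] [NumberField F]
    (T : Finset (HeightOneSpectrum (𝓞 F))) (a : 𝓞 F) (ha : ∀ v ∈ T, a ∉ v.asIdeal) :
    IsCoprime (Ideal.span {a}) (∏ v ∈ T, v.asIdeal) := by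
  rw [h2_isCoprime_prod_iff]
  intro v hv hle
  exact ha v hv (hle (Ideal.mem_span_singleton_self a))

/-- Every ideal prime to `T` is `~ ⊤` modulo `∏ T`, for the Kummer field `F'`. -/
theorem h2l_rayNormRel (p : ℕ) [Fact p.Prime] (F F' : Type*) [Field F] [NumberField F]
    [Field F'] [NumberField F'] [Algebra F F'] [IsGalois F F'] (hdeg : Module.finrank F F' = p)
    (S T : Finset (HeightOneSpectrum (𝓞 F))) (hST : ∀ v ∈ T, v ∉ S)
    (hCG : h2CG F S) (hT2 : h2T2 F p S T)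
    (hSdec : ∀ v ∈ S, ∀ P : Ideal (𝓞 F'), P.IsPrime → Ideal.under (𝓞 F) P = v.asIdeal →
      ∀ σ : F' ≃ₐ[F] F', σ • P = P → σ = 1)
    (𝔞 : Ideal (𝓞 F)) (h𝔞0 : 𝔞 ≠ ⊥) (h𝔞cop : IsCoprime 𝔞 (∏ v ∈ T, v.asIdeal)) :
    RayNormRel F F' (∏ v ∈ T, v.asIdeal) 𝔞 ⊤ := by
  classical
  obtain ⟨x, 𝔰, hx0, h𝔰S, hx𝔞⟩ := hCG 𝔞 h𝔞0
  have h𝔰0 : 𝔰 ≠ ⊥ := by
    rintro rfl
    rw [Ideal.mul_bot, Ideal.span_singleton_eq_bot] at hx𝔞
    exact hx0 hx𝔞
  have hxT : ∀ v ∈ T, x ∉ v.asIdeal := by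
    intro v hvT hxv
    have hle : 𝔞 * 𝔰 ≤ v.asIdeal := by
      rw [← hx𝔞]; exact (Ideal.span_singleton_le_iff_mem _).2 hxv
    rcases (v.isPrime.mul_le).1 hle with h | h
    · exact (h2_isCoprime_prod_iff F T 𝔞).1 h𝔞cop v hvT h
    · exact hST v hvT (h𝔰S v h)
  have hxF : (x : F) ≠ 0 := by
    simpa using hx0
  let xu : Fˣ := Units.mk0 (x : F) hxF
  have hxuT : ∀ v ∈ T, v.valuation F (xu : F) = 1 := fun v hvT =>
    h2l_val_eq_one_of_not_mem F v x (hxT v hvT)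
  obtain ⟨ε, hεS, hεD⟩ := hT2 xu hxuT
  obtain ⟨z, hz⟩ := h2D_exists_global F p T (fun _ => 1) (xu * ε) hεD
  set γ : F := ((xu * ε : Fˣ) : F) / (z : F) ^ p with hγdef
  have hγ1 : ∀ v ∈ T, v.valuation F γ = 1 := fun v hv => (hz v hv).1
  have hexp : (WithZero.exp (-((1 : ℕ) : ℤ)) : WithZero (Multiplicative ℤ)) < 1 := by
    rw [← WithZero.exp_zero, WithZero.exp_lt_exp]; norm_num
  have hγ2 : ∀ v ∈ T, v.valuation F (γ - 1) < 1 := fun v hv =>
    lt_of_le_of_lt (hz v hv).2 hexp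
  obtain ⟨g₁, g₂, hg₂0, hg₂T, hγeq⟩ := h2_exists_num_den F T γ (fun v hv => (hγ1 v hv).le)
  have hεT : ∀ v ∈ T, v.valuation F (ε : F) = 1 := fun v hvT =>
    hεS v (by simpa using hST v hvT)
  have hzT : ∀ v ∈ T, v.valuation F (z : F) = 1 := by
    intro v hvT
    have h1 := hγ1 v hvT
    rw [hγdef, map_div₀, Units.val_mul, map_mul, hxuT v hvT, hεT v hvT, one_mul, map_pow] at h1
    have h2 : v.valuation F (z : F) ^ p = 1 := by
      rw [one_div, inv_eq_one] at h1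
      exact h1
    exact (pow_eq_one_iff_of_nonneg zero_le (Fact.out : p.Prime).ne_zero).1 h2
  obtain ⟨z₁, z₂, hz₂0, hz₂T, hzeq⟩ := h2_exists_num_den F T (z : F) (fun v hv => (hzT v hv).le)
  obtain ⟨e₁, e₂, he₁0, he₂0, hεeq, he₁S, he₂S⟩ := h2_sunit_num_den F S hCG ε hεS
  have hg₂F : (g₂ : F) ≠ 0 := by simpa using hg₂0
  have hz₂F : (z₂ : F) ≠ 0 := by simpa using hz₂0
  have he₂F : (e₂ : F) ≠ 0 := by simpa using he₂0
  have he₁F : (e₁ : F) ≠ 0 := by simpa using he₁0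
  have hγ0 : γ ≠ 0 := by
    rw [hγdef]
    exact div_ne_zero (Units.ne_zero _) (pow_ne_zero _ (Units.ne_zero _))
  have hg₁F : (g₁ : F) ≠ 0 := by
    intro h
    rw [hγeq, h, zero_div] at hγ0
    exact hγ0 rfl
  have hg₁0 : g₁ ≠ 0 := by
    rintro rfl
    exact hg₁F (by simp)
  have hz₁F : (z₁ : F) ≠ 0 := by
    intro h
    have := Units.ne_zero z
    rw [hzeq, h, zero_div] at this
    exact this rfl
  have hz₁0 : z₁ ≠ 0 := by
    rintro rfl
    exact hz₁F (by simp)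
  -- units at `T`
  have hval_g₂ : ∀ v ∈ T, v.valuation F (g₂ : F) = 1 := fun v hv =>
    h2l_val_eq_one_of_not_mem F v g₂ (hg₂T v hv)
  have hval_z₂ : ∀ v ∈ T, v.valuation F (z₂ : F) = 1 := fun v hv =>
    h2l_val_eq_one_of_not_mem F v z₂ (hz₂T v hv)
  have hg₁T : ∀ v ∈ T, g₁ ∉ v.asIdeal := by
    intro v hv hmem
    have h1 := hγ1 v hv
    rw [hγeq, map_div₀, hval_g₂ v hv, div_one] at h1
    have h2 := (HeightOneSpectrum.valuation_lt_one_iff_mem (K := F) v g₁).2 hmem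
    rw [h1] at h2
    exact lt_irrefl _ h2
  have hz₁T : ∀ v ∈ T, z₁ ∉ v.asIdeal := by
    intro v hv hmem
    have h1 := hzT v hv
    rw [hzeq, map_div₀, hval_z₂ v hv, div_one] at h1
    have h2 := (HeightOneSpectrum.valuation_lt_one_iff_mem (K := F) v z₁).2 hmem
    rw [h1] at h2
    exact lt_irrefl _ h2
  have hgsub : ∀ v ∈ T, g₁ - g₂ ∈ v.asIdeal := by
    intro v hv
    have h1 := hγ2 v hv
    have h2 : γ - 1 = ((g₁ - g₂ : 𝓞 F) : F) / (g₂ : F) := by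
      rw [hγeq]; push_cast; field_simp
    rw [h2, map_div₀, hval_g₂ v hv, div_one] at h1
    exact (HeightOneSpectrum.valuation_lt_one_iff_mem (K := F) v _).1 h1
  -- the identity
  have hid : x * e₁ * g₂ * z₂ ^ p = g₁ * z₁ ^ p * e₂ := by
    apply RingOfIntegers.coe_injective
    push_cast
    have h1 : γ * (z : F) ^ p = (x : F) * (ε : F) := by
      rw [hγdef, div_mul_cancel₀ _ (pow_ne_zero _ (Units.ne_zero _))]
      simp [xu]
    rw [hγeq, hzeq, hεeq] at h1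
    rw [div_pow] at h1
    field_simp at h1
    linear_combination -h1
  -- ideals of `F'`
  have hJ₁S : ∀ v : HeightOneSpectrum (𝓞 F), 𝔰 * Ideal.span {e₁} ≤ v.asIdeal → v ∈ S := by
    intro v hle
    rcases (v.isPrime.mul_le).1 hle with h | h
    · exact h𝔰S v h
    · exact he₁S v h
  have hspan : ∀ c : 𝓞 F, c ≠ 0 → Ideal.span {c} ≠ (⊥ : Ideal (𝓞 F)) := fun c hc h =>
    hc (Ideal.span_singleton_eq_bot.1 h)
  obtain ⟨𝔖₁, h𝔖₁0, h𝔖₁⟩ := h2_supported_is_norm F F' S hSdec (𝔰 * Ideal.span {e₁})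
    (mul_ne_zero h𝔰0 (hspan e₁ he₁0)) hJ₁S
  obtain ⟨𝔖₂, h𝔖₂0, h𝔖₂⟩ := h2_supported_is_norm F F' S hSdec (Ideal.span {e₂})
    (hspan e₂ he₂0) he₂S
  have hrn : ∀ c : 𝓞 F, Ideal.relNorm (𝓞 F) ((Ideal.span {c}).map (algebraMap (𝓞 F) (𝓞 F')))
      = Ideal.span {c} ^ p := by
    intro c
    rw [Ideal.relNorm_algebraMap, ← IsFractionRing.finrank_eq (𝓞 F) F (𝓞 F') F', hdeg]
  have hmap0 : ∀ c : 𝓞 F, c ≠ 0 →
      (Ideal.span {c}).map (algebraMap (𝓞 F) (𝓞 F')) ≠ (⊥ : Ideal (𝓞 F')) := by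
    intro c hc h
    have h2 := hrn c
    rw [h, Ideal.relNorm_bot] at h2
    exact pow_ne_zero p (hspan c hc) h2.symm
  refine ⟨g₂, g₁, 𝔖₁ * (Ideal.span {z₂}).map (algebraMap (𝓞 F) (𝓞 F')),
    (Ideal.span {z₁}).map (algebraMap (𝓞 F) (𝓞 F')) * 𝔖₂, hg₂0, hg₁0, ?_, ?_, ?_, ?_, ?_, ?_, ?_, ?_⟩
  · rw [h2_mem_prod_iff]
    intro v hv
    have := hgsub v hv
    have h3 : g₂ - g₁ = -(g₁ - g₂) := by ring
    rw [h3]
    exact v.asIdeal.neg_mem this
  · exact h2l_isCoprime_span F T g₂ hg₂T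
  · exact h2l_isCoprime_span F T g₁ hg₁T
  · exact mul_ne_zero h𝔖₁0 (hmap0 z₂ hz₂0)
  · exact mul_ne_zero (hmap0 z₁ hz₁0) h𝔖₂0
  · rw [map_mul, h𝔖₁, hrn, h2_isCoprime_prod_iff]
    intro v hvT hle
    rcases (v.isPrime.mul_le).1 hle with h | h
    · exact hST v hvT (hJ₁S v h)
    · have := v.isPrime.le_of_pow_le h
      exact hz₂T v hvT (this (Ideal.mem_span_singleton_self z₂))
  · rw [map_mul, h𝔖₂, hrn, h2_isCoprime_prod_iff]
    intro v hvT hle
    rcases (v.isPrime.mul_le).1 hle with h | h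
    · have := v.isPrime.le_of_pow_le h
      exact hz₁T v hvT (this (Ideal.mem_span_singleton_self z₁))
    · exact hST v hvT (he₂S v h)
  · rw [map_mul, map_mul, h𝔖₁, h𝔖₂, hrn, hrn]
    calc Ideal.span {g₂} * 𝔞 * (𝔰 * Ideal.span {e₁} * Ideal.span {z₂} ^ p)
        = Ideal.span {g₂} * (𝔞 * 𝔰) * Ideal.span {e₁} * Ideal.span {z₂} ^ p := by ring
      _ = Ideal.span {x * e₁ * g₂ * z₂ ^ p} := by
          rw [← hx𝔞, Ideal.span_singleton_pow, Ideal.span_singleton_mul_span_singleton,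
            Ideal.span_singleton_mul_span_singleton, Ideal.span_singleton_mul_span_singleton]
          congr 1
          rw [Set.singleton_eq_singleton_iff]
          ring
      _ = Ideal.span {g₁ * z₁ ^ p * e₂} := by rw [hid]
      _ = Ideal.span {g₁} * ⊤ * (Ideal.span {z₁} ^ p * Ideal.span {e₂}) := by
          rw [Ideal.mul_top, Ideal.span_singleton_pow, Ideal.span_singleton_mul_span_singleton,
            Ideal.span_singleton_mul_span_singleton]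
          congr 1
          rw [Set.singleton_eq_singleton_iff]
          ring

/-- Step 6: Lemma 2 (interface to helper11) -/
theorem h2_lemma2 (p : ℕ) [Fact p.Prime] (hp : 3 ≤ p) (F : Type u) [Field F] [NumberField F]
    (ζ : F) (hζ : IsPrimitiveRoot ζ p)
    (S T : Finset (HeightOneSpectrum (𝓞 F))) (n : HeightOneSpectrum (𝓞 F) → ℕ)
    (hSp : ∀ v : HeightOneSpectrum (𝓞 F), (p : 𝓞 F) ∈ v.asIdeal → v ∈ S)
    (hn1 : ∀ v ∈ S, 1 ≤ n v)
    (hnp : ∀ v ∈ S, ∀ e : ℕ, (p : 𝓞 F) ∈ v.asIdeal ^ e → 3 * e + 1 ≤ n v)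
    (hST : ∀ v ∈ T, v ∉ S)
    (hCG : h2CG F S) (hT2 : h2T2 F p S T)
    (hFI : ∀ (F' : Type u) [Field F'] [NumberField F'] [Algebra F F'] [IsGalois F F'],
      Module.finrank F F' = p → ∀ 𝔪 : Ideal (𝓞 F), 𝔪 ≠ ⊥ → 𝔪.IsRadical →
      IsCoprime 𝔪 (Ideal.span {(p : 𝓞 F)}) → UnramifiedOutside F F' 𝔪 →
      ∃ 𝔞 : Ideal (𝓞 F), 𝔞 ≠ ⊥ ∧ IsCoprime 𝔞 𝔪 ∧ ¬ RayNormRel F F' 𝔪 𝔞 ⊤) :
    h2U F ((S : Set (HeightOneSpectrum (𝓞 F))) ∪ (T : Set (HeightOneSpectrum (𝓞 F)))) ⊓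
      h2D F p S n ≤ (powMonoidHom p : Fˣ →* Fˣ).range := by
  classical
  intro y hy
  rw [Subgroup.mem_inf] at hy
  obtain ⟨hyU, hyD⟩ := hy
  by_contra hnot
  have hy' : ∀ z : Fˣ, y ≠ z ^ p := by
    intro z hz
    exact hnot ⟨z, by rw [hz]; rfl⟩
  obtain ⟨F', _, _, _, _, β, hdeg, hβ⟩ := h2_exists_kummerField p F ζ hζ y hy'
  have hpT : ∀ v ∈ T, (p : 𝓞 F) ∉ v.asIdeal := fun v hvT hpv => hST v hvT (hSp v hpv)
  have h𝔪p : IsCoprime (∏ v ∈ T, v.asIdeal) (Ideal.span {(p : 𝓞 F)}) :=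
    (h2l_isCoprime_span F T (p : 𝓞 F) hpT).symm
  have hpcast : ((p : 𝓞 F) : F) = (p : F) := by simp
  -- decomposition groups at the primes above `S`
  have hSdec : ∀ v ∈ S, ∀ P : Ideal (𝓞 F'), P.IsPrime → Ideal.under (𝓞 F) P = v.asIdeal →
      ∀ σ : F' ≃ₐ[F] F', σ • P = P → σ = 1 := by
    intro v hvS P hP hPv
    have hP0 : P ≠ ⊥ := by
      rintro rfl
      have : Ideal.under (𝓞 F) (⊥ : Ideal (𝓞 F')) = ⊥ := by
        rw [Ideal.under_def]
        exact Ideal.comap_bot_of_injective _ (FaithfulSMul.algebraMap_injective (𝓞 F) (𝓞 F'))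
      rw [this] at hPv
      exact v.ne_bot hPv.symm
    have hyv : y ∈ h2Dv F p v (n v) := (mem_h2D F).1 hyD v hvS
    by_cases hvp : v.valuation F (p : F) = 1
    · exact h2_decomp_trivial_tame p hp F F' hdeg ζ hζ y hy' β hβ P hP hP0 v hPv.symm
        (h2Dv_anti F p v (hn1 v hvS) hyv) hvp
    · have hle : v.valuation F (p : F) ≤ 1 := by
        rw [← hpcast]; exact v.valuation_le_one _
      exact h2_decomp_trivial_wild p hp F F' hdeg ζ hζ y hy' β hβ P hP hP0 v hPv.symm (n v) hyv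
        (lt_of_le_of_ne hle hvp) (h2_exp_lt_of_hnp F p v (n v) (hnp v hvS))
  have hunr : UnramifiedOutside F F' (∏ v ∈ T, v.asIdeal) := by
    intro P hP hP0 hnotle
    have hu0 : Ideal.under (𝓞 F) P ≠ ⊥ := Ideal.under_ne_bot (𝓞 F) hP0
    have huP : (Ideal.under (𝓞 F) P).IsPrime := inferInstance
    let v : HeightOneSpectrum (𝓞 F) := ⟨Ideal.under (𝓞 F) P, huP, hu0⟩
    have hvT : v ∉ T := by
      intro hvT
      exact hnotle ((h2_prod_le_prime_iff F T _ huP).2 ⟨v, hvT, rfl⟩)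
    by_cases hvS : v ∈ S
    · intro σ hσ
      exact hSdec v hvS P hP rfl σ (h2l_smul_eq_of_inertia F F' P σ hσ)
    · have hvy : v.valuation F (y : F) = 1 := hyU v (by simp [hvS, hvT])
      have hvp : v.valuation F (p : F) = 1 := by
        rw [← hpcast]
        exact h2l_val_eq_one_of_not_mem F v _ (fun hmem => hvS (hSp v hmem))
      exact h2_inertia_trivial_of_unit p hp F F' hdeg ζ hζ y hy' β hβ P hP hP0 v rfl hvy hvp
  obtain ⟨𝔞, h𝔞0, h𝔞cop, h𝔞not⟩ := hFI F' hdeg _ (h2_prod_ne_bot F T) (h2_prod_isRadical F T)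
    h𝔪p hunr
  exact h𝔞not (h2l_rayNormRel p F F' hdeg S T hST hCG hT2 hSdec 𝔞 h𝔞0 h𝔞cop)

end Fermat.Agent.S14
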