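import Mathlib
import Fermat.Agent.S14.Defs
import Fermat.Agent.S14.H2Defs

/-!
# P18 (S14), block H2a: the auxiliary modulus (second team, suffix `_B`)

`h2_exists_modulus_B`: given nonzero ideals `𝔣₀`, `𝔠` of `𝓞 F` with `𝔠` prime to `𝔣₀ p`, there is a
finite set `S₀` of primes, all prime to `𝔠`, containing the primes above `p`, generating the class
group, and an exponent `N` with `(∏ S₀) ^ N ≤ 𝔣₀` and `N` larger than `3 e + 1` for every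
ramification exponent `e` of `p`.
-/

set_option autoImplicit false

namespace Fermat.Agent.S14

open NumberField IsDedekindDomain

/-- Moving lemma: every nonzero ideal `𝔟` of a Dedekind domain has a principal multiple `𝔟 𝔯`
with `𝔯` prime to a given nonzero ideal `𝔠`. -/
theorem h2m_moving_B {R : Type*} [CommRing R] [IsDedekindDomain R] (𝔟 𝔠 : Ideal R)
    (h𝔟 : 𝔟 ≠ ⊥) (h𝔠 : 𝔠 ≠ ⊥) :
    ∃ (x : R) (𝔯 : Ideal R), x ≠ 0 ∧ Ideal.span {x} = 𝔟 * 𝔯 ∧ IsCoprime 𝔠 𝔯 := by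
  by_cases htop : 𝔠 = ⊤
  · obtain ⟨x, hx, hx0⟩ := Submodule.exists_mem_ne_zero_of_ne_bot h𝔟
    obtain ⟨𝔯, h𝔯⟩ := Ideal.dvd_iff_le.mpr ((Ideal.span_singleton_le_iff_mem 𝔟).mpr hx)
    refine ⟨x, 𝔯, hx0, h𝔯, ?_⟩
    rw [htop, Ideal.isCoprime_iff_sup_eq, top_sup_eq]
  · have hne : 𝔟 * 𝔠 ≠ 0 := mul_ne_zero h𝔟 h𝔠
    obtain ⟨x, hx⟩ := IsDedekindDomain.exists_sup_span_eq (I := 𝔟 * 𝔠) (J := 𝔟)
      Ideal.mul_le_left hne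
    have hxmem : x ∈ 𝔟 := by
      rw [← hx]
      exact Ideal.mem_sup_right (Ideal.subset_span rfl)
    obtain ⟨𝔯, h𝔯⟩ := Ideal.dvd_iff_le.mpr ((Ideal.span_singleton_le_iff_mem 𝔟).mpr hxmem)
    have h1 : 𝔟 * (𝔠 ⊔ 𝔯) = 𝔟 * ⊤ := by
      rw [Ideal.mul_sup, ← h𝔯, hx, Ideal.mul_top]
    have h2 : 𝔠 ⊔ 𝔯 = ⊤ := mul_left_cancel₀ h𝔟 h1
    refine ⟨x, 𝔯, ?_, h𝔯, Ideal.isCoprime_iff_sup_eq.mpr h2⟩
    rintro rfl
    have h3 : 𝔟 * 𝔯 = ⊥ := by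
      rw [← h𝔯]
      exact Ideal.span_singleton_eq_bot.mpr rfl
    have h4 : 𝔯 = ⊥ := by
      rcases mul_eq_zero.mp h3 with h | h
      · exact absurd h h𝔟
      · exact h
    rw [h4, sup_bot_eq] at h2
    exact htop h2

/-- Every ideal class of a Dedekind domain contains an integral ideal prime to a given nonzero
ideal `𝔠`. -/
theorem h2m_classRep_B {R : Type*} [CommRing R] [IsDedekindDomain R] (𝔠 : Ideal R)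
    (h𝔠 : 𝔠 ≠ ⊥) (c : ClassGroup R) :
    ∃ (𝔯 : Ideal R) (h : 𝔯 ∈ nonZeroDivisors (Ideal R)),
      IsCoprime 𝔠 𝔯 ∧ ClassGroup.mk0 ⟨𝔯, h⟩ = c := by
  obtain ⟨⟨𝔟, h𝔟⟩, hb⟩ := ClassGroup.mk0_surjective c⁻¹
  have h𝔟0 : 𝔟 ≠ ⊥ := mem_nonZeroDivisors_iff_ne_zero.mp h𝔟
  obtain ⟨x, 𝔯, hx0, hx, hcop⟩ := h2m_moving_B 𝔟 𝔠 h𝔟0 h𝔠
  have h𝔯0 : 𝔯 ≠ ⊥ := by
    rintro rfl
    rw [Ideal.mul_bot, Ideal.span_singleton_eq_bot] at hx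
    exact hx0 hx
  have h𝔯 : 𝔯 ∈ nonZeroDivisors (Ideal R) := mem_nonZeroDivisors_iff_ne_zero.mpr h𝔯0
  refine ⟨𝔯, h𝔯, hcop, ?_⟩
  have h1 : ClassGroup.mk0 ⟨𝔯, h𝔯⟩ = (ClassGroup.mk0 ⟨𝔟, h𝔟⟩)⁻¹ :=
    ClassGroup.mk0_eq_mk0_inv_iff.mpr ⟨x, hx0, by rw [mul_comm]; exact hx.symm⟩
  rw [h1, hb, inv_inv]

/-- A power of the product of the primes containing a nonzero ideal lies in that ideal. -/
theorem h2m_prod_pow_le_B {R : Type*} [CommRing R] [IsDedekindDomain R] (𝔣 : Ideal R)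
    (h𝔣 : 𝔣 ≠ ⊥) (S : Finset (HeightOneSpectrum R))
    (hS : ∀ v : HeightOneSpectrum R, 𝔣 ≤ v.asIdeal → v ∈ S) :
    ∃ k : ℕ, (∏ v ∈ S, v.asIdeal) ^ k ≤ 𝔣 := by
  have hrad : (∏ v ∈ S, v.asIdeal) ≤ 𝔣.radical := by
    rw [Ideal.radical_eq_sInf]
    refine le_sInf ?_
    rintro J ⟨hJ, hJp⟩
    have hJ0 : J ≠ ⊥ := by
      rintro rfl
      exact h𝔣 (le_bot_iff.mp hJ)
    have hv : (⟨J, hJp, hJ0⟩ : HeightOneSpectrum R) ∈ S := hS ⟨J, hJp, hJ0⟩ hJ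
    have h1 : S.inf (fun v : HeightOneSpectrum R => v.asIdeal) ≤ J := Finset.inf_le hv
    exact Ideal.prod_le_inf.trans h1
  obtain ⟨k, hk⟩ := Ideal.exists_radical_pow_le_of_fg 𝔣 (IsNoetherian.noetherian _)
  exact ⟨k, (Ideal.pow_right_mono hrad k).trans hk⟩

/-- The ramification exponents of a prime number are bounded by the degree. -/
theorem h2m_ram_le_B (p : ℕ) [Fact p.Prime] (F : Type*) [Field F] [NumberField F]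
    (v : HeightOneSpectrum (𝓞 F)) (e : ℕ) (he : (p : 𝓞 F) ∈ v.asIdeal ^ e) :
    e ≤ Module.finrank ℤ (𝓞 F) := by
  have hp : p.Prime := Fact.out
  rcases Nat.eq_zero_or_pos e with rfl | hepos
  · exact Nat.zero_le _
  have hle : Ideal.span {(p : 𝓞 F)} ≤ v.asIdeal ^ e :=
    (Ideal.span_singleton_le_iff_mem _).mpr he
  have hdvd : Ideal.absNorm (v.asIdeal ^ e) ∣ Ideal.absNorm (Ideal.span {(p : 𝓞 F)}) :=
    Ideal.absNorm_dvd_absNorm_of_le hle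
  rw [Ideal.absNorm_span_natCast, map_pow] at hdvd
  have hv1 : Ideal.absNorm v.asIdeal ∣ p ^ Module.finrank ℤ (𝓞 F) :=
    (dvd_pow_self _ hepos.ne').trans hdvd
  obtain ⟨f, -, hf⟩ := (Nat.dvd_prime_pow hp).mp hv1
  have hf0 : f ≠ 0 := by
    rintro rfl
    rw [pow_zero, Ideal.absNorm_eq_one_iff] at hf
    exact v.isPrime.ne_top hf
  rw [hf, ← pow_mul] at hdvd
  have h1 : f * e ≤ Module.finrank ℤ (𝓞 F) := (Nat.pow_dvd_pow_iff_le_right hp.one_lt).mp hdvd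
  calc e = 1 * e := (one_mul e).symm
    _ ≤ f * e := Nat.mul_le_mul_right e (Nat.one_le_iff_ne_zero.mpr hf0)
    _ ≤ _ := h1

theorem h2_exists_modulus_B (p : ℕ) [Fact p.Prime] (F : Type*) [Field F] [NumberField F]
    (𝔣₀ 𝔠 : Ideal (𝓞 F)) (h𝔣₀ : 𝔣₀ ≠ ⊥) (h𝔠 : 𝔠 ≠ ⊥)
    (hcop : IsCoprime 𝔠 (𝔣₀ * Ideal.span {(p : 𝓞 F)})) :
    ∃ (S₀ : Finset (HeightOneSpectrum (𝓞 F))) (N : ℕ),
      (∀ v : HeightOneSpectrum (𝓞 F), (p : 𝓞 F) ∈ v.asIdeal → v ∈ S₀) ∧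
      (∀ v ∈ S₀, ¬ 𝔠 ≤ v.asIdeal) ∧
      (∏ v ∈ S₀, v.asIdeal) ^ N ≤ 𝔣₀ ∧
      1 ≤ N ∧ (∀ v ∈ S₀, ∀ e : ℕ, (p : 𝓞 F) ∈ v.asIdeal ^ e → 3 * e + 1 ≤ N) ∧
      h2CG F S₀ := by
  classical
  have hp0 : (p : 𝓞 F) ≠ 0 := Nat.cast_ne_zero.mpr (Fact.out : p.Prime).ne_zero
  have hspan0 : Ideal.span {(p : 𝓞 F)} ≠ ⊥ := by
    rw [Ne, Ideal.span_singleton_eq_bot]
    exact hp0
  choose rep hrep hrepcop hrepcl using h2m_classRep_B 𝔠 h𝔠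
  have hrep0 : ∀ c : ClassGroup (𝓞 F), rep c ≠ ⊥ :=
    fun c => mem_nonZeroDivisors_iff_ne_zero.mp (hrep c)
  have hprod0 : (∏ c : ClassGroup (𝓞 F), rep c) ≠ ⊥ :=
    Finset.prod_ne_zero_iff.mpr fun c _ => hrep0 c
  have h𝔪0 : 𝔣₀ * Ideal.span {(p : 𝓞 F)} * ∏ c : ClassGroup (𝓞 F), rep c ≠ 0 :=
    mul_ne_zero (mul_ne_zero h𝔣₀ hspan0) hprod0
  have hmem : ∀ v : HeightOneSpectrum (𝓞 F), v ∈ (Ideal.finite_factors h𝔪0).toFinset ↔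
      𝔣₀ * Ideal.span {(p : 𝓞 F)} * ∏ c : ClassGroup (𝓞 F), rep c ≤ v.asIdeal := by
    intro v
    rw [Set.Finite.mem_toFinset, Set.mem_ofPred_eq, Ideal.dvd_iff_le]
  have hS𝔣 : ∀ v : HeightOneSpectrum (𝓞 F), 𝔣₀ ≤ v.asIdeal →
      v ∈ (Ideal.finite_factors h𝔪0).toFinset := by
    intro v hv
    rw [hmem]
    have h1 : 𝔣₀ * Ideal.span {(p : 𝓞 F)} * ∏ c : ClassGroup (𝓞 F), rep c
        ≤ 𝔣₀ * Ideal.span {(p : 𝓞 F)} := Ideal.mul_le_left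
    have h2 : 𝔣₀ * Ideal.span {(p : 𝓞 F)} ≤ 𝔣₀ := Ideal.mul_le_left
    exact (h1.trans h2).trans hv
  obtain ⟨k, hk⟩ := h2m_prod_pow_le_B 𝔣₀ h𝔣₀ (Ideal.finite_factors h𝔪0).toFinset hS𝔣
  refine ⟨(Ideal.finite_factors h𝔪0).toFinset, max k (3 * Module.finrank ℤ (𝓞 F) + 1),
    ?_, ?_, ?_, ?_, ?_, ?_⟩
  · intro v hv
    rw [hmem]
    have h1 : 𝔣₀ * Ideal.span {(p : 𝓞 F)} * ∏ c : ClassGroup (𝓞 F), rep c
        ≤ 𝔣₀ * Ideal.span {(p : 𝓞 F)} := Ideal.mul_le_left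
    have h2 : 𝔣₀ * Ideal.span {(p : 𝓞 F)} ≤ Ideal.span {(p : 𝓞 F)} := Ideal.mul_le_right
    exact (h1.trans h2).trans ((Ideal.span_singleton_le_iff_mem _).mpr hv)
  · intro v hv h𝔠v
    rw [hmem] at hv
    have htop : ∀ 𝔯 : Ideal (𝓞 F), IsCoprime 𝔠 𝔯 → ¬ 𝔯 ≤ v.asIdeal := by
      intro 𝔯 h𝔯 hle
      have h1 : 𝔠 ⊔ 𝔯 = ⊤ := Ideal.isCoprime_iff_sup_eq.mp h𝔯
      have h2 : (⊤ : Ideal (𝓞 F)) ≤ v.asIdeal := h1 ▸ sup_le h𝔠v hle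
      exact v.isPrime.ne_top (top_le_iff.mp h2)
    rcases (Ideal.IsPrime.mul_le v.isPrime).mp hv with h | h
    · exact htop _ hcop h
    · obtain ⟨c, -, hc⟩ := (Ideal.IsPrime.prod_le v.isPrime).mp h
      exact htop _ (hrepcop c) hc
  · exact (Ideal.pow_le_pow_right (le_max_left _ _)).trans hk
  · exact le_trans (Nat.le_add_left 1 _) (le_max_right _ _)
  · intro v _ e he
    have h1 : e ≤ Module.finrank ℤ (𝓞 F) := h2m_ram_le_B p F v e he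
    exact le_trans (by omega) (le_max_right _ _)
  · intro 𝔞 h𝔞
    have h𝔞' : 𝔞 ∈ nonZeroDivisors (Ideal (𝓞 F)) := mem_nonZeroDivisors_iff_ne_zero.mpr h𝔞
    obtain ⟨x, hx0, hx⟩ := ClassGroup.mk0_eq_mk0_inv_iff.mp
      (hrepcl (ClassGroup.mk0 ⟨𝔞, h𝔞'⟩)⁻¹)
    refine ⟨x, rep (ClassGroup.mk0 ⟨𝔞, h𝔞'⟩)⁻¹, hx0, ?_, ?_⟩
    · intro v hv
      rw [hmem]
      have h1 : 𝔣₀ * Ideal.span {(p : 𝓞 F)} * ∏ c : ClassGroup (𝓞 F), rep c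
          ≤ ∏ c : ClassGroup (𝓞 F), rep c := Ideal.mul_le_right
      have h2 : (Finset.univ : Finset (ClassGroup (𝓞 F))).inf rep
          ≤ rep (ClassGroup.mk0 ⟨𝔞, h𝔞'⟩)⁻¹ := Finset.inf_le (Finset.mem_univ _)
      exact ((h1.trans Ideal.prod_le_inf).trans h2).trans hv
    · rw [← hx, mul_comm]

end Fermat.Agent.S14
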