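import Mathlib
import Fermat.Agent.S14.Defs
import Fermat.Agent.S14.H2Defs

/-!
# P18 (S14), block H2, Step 3 (second team): the S-unit count

For a number field `F` containing a primitive `p`-th root of unity (`p ≥ 3`) and a finite set
`S` of primes, the index of the `p`-th powers in the `S`-units is finite and at least
`p ^ (finrank ℚ F / 2 + |S|)`.

Plan: with `U` the `S`-units, `P` the `p`-th powers of `Fˣ`, `E` the image of the units of
`𝓞 F`, `ord : Fˣ → ℤ ^ S` the order vector, `Λ = ord U`, `X = P ⊓ U`, `Y = U ⊓ ord⁻¹ (Λ ^ p)`: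
`[U : X] = [U : Y] [Y : X]`, `[U : Y] = [Λ : Λ ^ p] = p ^ |S|` (as `Λ` has finite index in
`ℤ ^ S`, by finiteness of the class group), `Y = E ⊔ X` and `[Y : X] = [E : E ⊓ P]` is the
index of the `p`-th powers in the units of `𝓞 F`, which is `≥ p ^ (rank + 1)` by the Dirichlet
unit theorem (`rank + 1 = finrank ℚ F / 2` since `F` is totally complex).
-/

set_option autoImplicit false

namespace Fermat.Agent.S14

open NumberField IsDedekindDomain

/-! ### Part A: the field is totally complex -/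

theorem h2_even_finrank_B (p : ℕ) [Fact p.Prime] (hp : 3 ≤ p) (F : Type*) [Field F] [NumberField F]
    (ζ : F) (hζ : IsPrimitiveRoot ζ p) : 2 ∣ Module.finrank ℚ F := by
  have h0 := NumberField.InfinitePlace.IsPrimitiveRoot.nrRealPlaces_eq_zero_of_two_lt
    (show 2 < p by omega) hζ
  have h1 := NumberField.InfinitePlace.card_add_two_mul_card_eq_rank F
  rw [h0, zero_add] at h1
  exact ⟨_, h1.symm⟩

theorem h2sb_rank_add_one (p : ℕ) (hp : 3 ≤ p) (F : Type*) [Field F] [NumberField F]
    (ζ : F) (hζ : IsPrimitiveRoot ζ p) :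
    NumberField.Units.rank F + 1 = Module.finrank ℚ F / 2 := by
  have h0 := NumberField.InfinitePlace.IsPrimitiveRoot.nrRealPlaces_eq_zero_of_two_lt
    (show 2 < p by omega) hζ
  have h1 := NumberField.InfinitePlace.card_add_two_mul_card_eq_rank F
  have h2 := NumberField.InfinitePlace.card_eq_nrRealPlaces_add_nrComplexPlaces F
  have h3 : 0 < Fintype.card (InfinitePlace F) := Fintype.card_pos
  rw [h0, zero_add] at h1 h2
  unfold NumberField.Units.rank
  omega

/-! ### Part B: two general index lemmas -/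

theorem h2sb_relIndex_map_pow {M : Type*} [CommGroup M] (p : ℕ)
    (hinj : Function.Injective (powMonoidHom p : M →* M)) (Λ : Subgroup M) (hΛ : Λ.index ≠ 0) :
    (Λ.map (powMonoidHom p : M →* M)).relIndex Λ = (powMonoidHom p : M →* M).range.index := by
  set f := (powMonoidHom p : M →* M) with hf
  have h1 : Λ.map f ≤ Λ := by
    rintro _ ⟨x, hx, rfl⟩
    exact Λ.pow_mem hx p
  have h2 : Λ.map f ≤ f.range := by
    rintro _ ⟨x, hx, rfl⟩
    exact ⟨x, rfl⟩
  have e1 := Subgroup.relIndex_mul_index h1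
  have e2 := Subgroup.relIndex_mul_index h2
  have e3 : (Λ.map f).relIndex f.range = Λ.index := by
    rw [MonoidHom.range_eq_map, Subgroup.relIndex_map_map_of_injective _ _ hinj,
      Subgroup.relIndex_top_right]
  rw [e3] at e2
  have e4 : (Λ.map f).relIndex Λ * Λ.index = f.range.index * Λ.index := by
    rw [e1, ← e2, mul_comm]
  exact Nat.eq_of_mul_eq_mul_right (Nat.pos_of_ne_zero hΛ) e4

theorem h2sb_index_pow_int (ι : Type*) [Fintype ι] (m : ℕ) [NeZero m] :
    (powMonoidHom m : (ι → Multiplicative ℤ) →* (ι → Multiplicative ℤ)).range.index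
      = m ^ Fintype.card ι := by
  classical
  let g : Multiplicative ℤ →* Multiplicative (ZMod m) :=
    AddMonoidHom.toMultiplicative (Int.castAddHom (ZMod m))
  let f : (ι → Multiplicative ℤ) →* (ι → Multiplicative (ZMod m)) :=
    MonoidHom.pi (fun i => g.comp (Pi.evalMonoidHom _ i))
  have hker : f.ker = (powMonoidHom m : (ι → Multiplicative ℤ) →* (ι → Multiplicative ℤ)).range := by
    ext x
    rw [MonoidHom.mem_ker]
    constructor
    · intro hx
      have hx' : ∀ i, ((Multiplicative.toAdd (x i) : ℤ) : ZMod m) = 0 := fun i => by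
        have := congrFun hx i
        exact this
      have hdvd : ∀ i, (m : ℤ) ∣ Multiplicative.toAdd (x i) := fun i =>
        (ZMod.intCast_zmod_eq_zero_iff_dvd _ _).1 (hx' i)
      choose c hc using hdvd
      refine ⟨fun i => Multiplicative.ofAdd (c i), ?_⟩
      funext i
      show (Multiplicative.ofAdd (c i)) ^ m = x i
      apply Multiplicative.toAdd.injective
      rw [toAdd_pow, toAdd_ofAdd, hc i]
      simp
    · rintro ⟨y, rfl⟩
      funext i
      show Multiplicative.ofAdd (((Multiplicative.toAdd ((y i) ^ m) : ℤ) : ZMod m)) = 1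
      rw [toAdd_pow]
      simp
  have hsurj : Function.Surjective f := by
    intro y
    choose c hc using fun i => ZMod.intCast_surjective (Multiplicative.toAdd (y i))
    refine ⟨fun i => Multiplicative.ofAdd (c i), ?_⟩
    funext i
    show Multiplicative.ofAdd (((c i : ℤ) : ZMod m)) = y i
    rw [hc i]
    rfl
  rw [← hker, Subgroup.index_ker, MonoidHom.range_eq_top.2 hsurj]
  rw [Nat.card_congr (Subgroup.topEquiv (G := ι → Multiplicative (ZMod m))).toEquiv]
  rw [Nat.card_eq_fintype_card, Fintype.card_pi]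
  simp [ZMod.card]

/-! ### Part C: the unit group modulo `p`-th powers -/

/-- The homomorphism from `torsion × ℤ ^ rank` to the units given by a fundamental system. -/
noncomputable def h2sb_unitsHom (F : Type*) [Field F] [NumberField F] :
    (NumberField.Units.torsion F) × (Fin (NumberField.Units.rank F) → Multiplicative ℤ) →*
      (𝓞 F)ˣ where
  toFun te := (te.1 : (𝓞 F)ˣ) *
    ∏ i, NumberField.Units.fundSystem F i ^ (Multiplicative.toAdd (te.2 i))
  map_one' := by simp
  map_mul' a b := by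
    simp only [Prod.fst_mul, Prod.snd_mul, Pi.mul_apply, toAdd_mul, zpow_add,
      Finset.prod_mul_distrib, Subgroup.coe_mul]
    exact mul_mul_mul_comm _ _ _ _

theorem h2sb_unitsHom_bijective (F : Type*) [Field F] [NumberField F] :
    Function.Bijective (h2sb_unitsHom F) := by
  constructor
  · intro a b hab
    obtain ⟨c, hc, huniq⟩ := NumberField.Units.exist_unique_eq_mul_prod F (h2sb_unitsHom F a)
    have ha := huniq (a.1, fun i => Multiplicative.toAdd (a.2 i)) rfl
    have hb := huniq (b.1, fun i => Multiplicative.toAdd (b.2 i)) hab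
    have hab' := ha.trans hb.symm
    rw [Prod.mk.injEq] at hab'
    refine Prod.ext hab'.1 ?_
    funext i
    exact Multiplicative.toAdd.injective (congrFun hab'.2 i)
  · intro x
    obtain ⟨c, hc, _⟩ := NumberField.Units.exist_unique_eq_mul_prod F x
    exact ⟨(c.1, fun i => Multiplicative.ofAdd (c.2 i)), hc.symm⟩

/-- Transport of the index of `p`-th powers along a bijective homomorphism. -/
theorem h2sb_index_pow_of_bijective {A B : Type*} [CommGroup A] [CommGroup B] (p : ℕ)
    (Φ : A →* B) (hΦ : Function.Bijective Φ) :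
    (powMonoidHom p : B →* B).range.index = (powMonoidHom p : A →* A).range.index := by
  rw [← Subgroup.index_comap_of_surjective (powMonoidHom p : B →* B).range hΦ.2]
  congr 1
  ext x
  constructor
  · rintro ⟨b, hb⟩
    obtain ⟨a, rfl⟩ := hΦ.2 b
    refine ⟨a, hΦ.1 ?_⟩
    show Φ (a ^ p) = Φ x
    rw [map_pow]
    exact hb
  · rintro ⟨a, rfl⟩
    exact ⟨Φ a, (map_pow Φ a p).symm⟩

/-- The `p`-th powers in a product. -/
theorem h2sb_range_pow_prod {A B : Type*} [CommGroup A] [CommGroup B] (p : ℕ) :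
    (powMonoidHom p : A × B →* A × B).range =
      (powMonoidHom p : A →* A).range.prod (powMonoidHom p : B →* B).range := by
  ext ⟨a, b⟩
  constructor
  · rintro ⟨⟨x, y⟩, hxy⟩
    have h1 : x ^ p = a := congrArg Prod.fst hxy
    have h2 : y ^ p = b := congrArg Prod.snd hxy
    exact ⟨⟨x, h1⟩, ⟨y, h2⟩⟩
  · rintro ⟨⟨x, hx⟩, ⟨y, hy⟩⟩
    have hx' : x ^ p = a := hx
    have hy' : y ^ p = b := hy
    exact ⟨(x, y), Prod.ext hx' hy'⟩

/-- In a finite commutative group with an element of order `p`, the index of the `p`-th powers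
is at least `p`. -/
theorem h2sb_index_pow_finite {T : Type*} [CommGroup T] [Finite T] (p : ℕ) (t : T)
    (ht : orderOf t = p) :
    (powMonoidHom p : T →* T).range.index ≠ 0 ∧ p ≤ (powMonoidHom p : T →* T).range.index := by
  refine ⟨Subgroup.index_ne_zero_of_finite, ?_⟩
  rw [Subgroup.index_range]
  have htk : t ∈ (powMonoidHom p : T →* T).ker := by
    rw [MonoidHom.mem_ker]
    show t ^ p = 1
    rw [← ht]
    exact pow_orderOf_eq_one t
  have h1 : orderOf (⟨t, htk⟩ : (powMonoidHom p : T →* T).ker) = p := by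
    rw [Subgroup.orderOf_mk, ht]
  have hdvd : orderOf (⟨t, htk⟩ : (powMonoidHom p : T →* T).ker) ∣
      Nat.card (powMonoidHom p : T →* T).ker := orderOf_dvd_natCard _
  rw [h1] at hdvd
  exact Nat.le_of_dvd Nat.card_pos hdvd

theorem h2sb_units_index (p : ℕ) [Fact p.Prime] (F : Type*) [Field F] [NumberField F]
    (ζ : F) (hζ : IsPrimitiveRoot ζ p) :
    (powMonoidHom p : (𝓞 F)ˣ →* (𝓞 F)ˣ).range.index ≠ 0 ∧
      p ^ (NumberField.Units.rank F + 1) ≤ (powMonoidHom p : (𝓞 F)ˣ →* (𝓞 F)ˣ).range.index := by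
  have hp0 : p ≠ 0 := (Fact.out : p.Prime).ne_zero
  have hpne : NeZero p := ⟨hp0⟩
  -- the torsion unit given by `ζ`
  have hu : IsUnit hζ.toInteger := hζ.toInteger_isPrimitiveRoot.isUnit hp0
  have hprim : IsPrimitiveRoot hu.unit p := by
    rw [← IsPrimitiveRoot.coe_units_iff]
    exact hζ.toInteger_isPrimitiveRoot
  have hord : orderOf hu.unit = p := hprim.eq_orderOf.symm
  have hmem : hu.unit ∈ NumberField.Units.torsion F := by
    rw [NumberField.Units.torsion, CommGroup.mem_torsion, isOfFinOrder_iff_pow_eq_one]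
    exact ⟨p, Nat.pos_of_ne_zero hp0, hprim.pow_eq_one⟩
  have hord' : orderOf (⟨hu.unit, hmem⟩ : NumberField.Units.torsion F) = p := by
    rw [Subgroup.orderOf_mk, hord]
  obtain ⟨hT0, hTp⟩ := h2sb_index_pow_finite p _ hord'
  rw [h2sb_index_pow_of_bijective p (h2sb_unitsHom F) (h2sb_unitsHom_bijective F),
    h2sb_range_pow_prod, Subgroup.index_prod, h2sb_index_pow_int, Fintype.card_fin]
  refine ⟨mul_ne_zero hT0 (pow_ne_zero _ hp0), ?_⟩
  rw [pow_succ, mul_comm]
  exact Nat.mul_le_mul_right _ hTp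

/-! ### Part D: the order maps on `Fˣ` -/

/-- The order at `v`, as a homomorphism `Fˣ →* Multiplicative ℤ`. -/
noncomputable def h2sb_ordv (F : Type*) [Field F] [NumberField F]
    (v : HeightOneSpectrum (𝓞 F)) : Fˣ →* Multiplicative ℤ :=
  (WithZero.unitsWithZeroEquiv (α := Multiplicative ℤ)).toMonoidHom.comp
    (Units.map ((v.valuation F : Valuation F (WithZero (Multiplicative ℤ))) : F →* WithZero (Multiplicative ℤ)))

theorem h2sb_coe_ordv (F : Type*) [Field F] [NumberField F]
    (v : HeightOneSpectrum (𝓞 F)) (x : Fˣ) :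
    ((h2sb_ordv F v x : Multiplicative ℤ) : WithZero (Multiplicative ℤ)) = v.valuation F (x : F) := by
  unfold h2sb_ordv
  simp

theorem h2sb_ordv_eq_one_iff (F : Type*) [Field F] [NumberField F]
    (v : HeightOneSpectrum (𝓞 F)) (x : Fˣ) :
    h2sb_ordv F v x = 1 ↔ v.valuation F (x : F) = 1 := by
  rw [← h2sb_coe_ordv, ← WithZero.coe_one, WithZero.coe_inj]

noncomputable def h2sb_ord (F : Type*) [Field F] [NumberField F]
    (S : Finset (HeightOneSpectrum (𝓞 F))) : Fˣ →* (S → Multiplicative ℤ) :=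
  MonoidHom.pi (fun v : S => h2sb_ordv F v.1)

theorem h2sb_ord_apply (F : Type*) [Field F] [NumberField F]
    (S : Finset (HeightOneSpectrum (𝓞 F))) (x : Fˣ) (v : S) :
    h2sb_ord F S x v = h2sb_ordv F v.1 x := rfl

/-- A generator of `v ^ h`, `h` the class number. -/
theorem h2sb_exists_gen (F : Type*) [Field F] [NumberField F] (v : HeightOneSpectrum (𝓞 F)) :
    ∃ x : Fˣ, v.valuation F (x : F) = WithZero.exp (-(NumberField.classNumber F : ℤ)) ∧
      ∀ w : HeightOneSpectrum (𝓞 F), w ≠ v → w.valuation F (x : F) = 1 := by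
  classical
  set h := NumberField.classNumber F with hh
  have hv0 : v.asIdeal ≠ ⊥ := v.ne_bot
  have hmem : v.asIdeal ∈ nonZeroDivisors (Ideal (𝓞 F)) := mem_nonZeroDivisors_of_ne_zero hv0
  have hpow_mem : v.asIdeal ^ h ∈ nonZeroDivisors (Ideal (𝓞 F)) :=
    mem_nonZeroDivisors_of_ne_zero (pow_ne_zero _ hv0)
  have h1 : ClassGroup.mk0 (⟨v.asIdeal, hmem⟩ : nonZeroDivisors (Ideal (𝓞 F))) ^ h = 1 := by
    rw [hh, NumberField.classNumber]
    exact pow_card_eq_one
  have h2 : ClassGroup.mk0 (⟨v.asIdeal ^ h, hpow_mem⟩ : nonZeroDivisors (Ideal (𝓞 F))) = 1 := by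
    rw [← h1, ← map_pow]
    rfl
  rw [ClassGroup.mk0_eq_one_iff] at h2
  obtain ⟨a, ha⟩ := h2.principal
  have ha' : v.asIdeal ^ h = Ideal.span {a} := ha
  have ha0 : a ≠ 0 := by
    rintro rfl
    rw [Ideal.span_singleton_eq_bot.2 rfl] at ha'
    exact pow_ne_zero _ hv0 ha'
  have haF : (a : F) ≠ 0 := by
    intro h0
    exact ha0 (FaithfulSMul.algebraMap_injective (𝓞 F) F (by rw [map_zero]; exact h0))
  have hamem : ∀ I : Ideal (𝓞 F), a ∈ I ↔ v.asIdeal ^ h ≤ I := by
    intro I
    rw [ha', Ideal.span_singleton_le_iff_mem]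
  refine ⟨Units.mk0 (a : F) haF, ?_, ?_⟩
  · rw [Units.val_mk0]
    have e1 : v.valuation F (algebraMap (𝓞 F) F a) = v.intValuation a :=
      HeightOneSpectrum.valuation_of_algebraMap v a
    rw [e1]
    have hne : v.intValuation a ≠ 0 := v.intValuation_ne_zero a ha0
    have hle : v.intValuation a ≤ WithZero.exp (-(h : ℤ)) := by
      rw [HeightOneSpectrum.intValuation_le_pow_iff_mem, hamem]
    have hnle : ¬ v.intValuation a ≤ WithZero.exp (-((h + 1 : ℕ) : ℤ)) := by
      rw [HeightOneSpectrum.intValuation_le_pow_iff_mem, hamem]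
      intro hcon
      exact absurd hcon (not_le_of_gt (Ideal.pow_succ_lt_pow hv0 h))
    rw [← WithZero.exp_log hne] at hle hnle ⊢
    rw [WithZero.exp_le_exp] at hle hnle
    rw [WithZero.exp_inj]
    push_cast at hnle
    omega
  · intro w hw
    rw [Units.val_mk0]
    have e1 : w.valuation F (algebraMap (𝓞 F) F a) = w.intValuation a :=
      HeightOneSpectrum.valuation_of_algebraMap w a
    rw [e1]
    refine le_antisymm (w.intValuation_le_one a) (not_lt.1 ?_)
    rw [HeightOneSpectrum.intValuation_lt_one_iff_mem, hamem]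
    intro hcon
    have hle : v.asIdeal ≤ w.asIdeal := Ideal.IsPrime.le_of_pow_le hcon
    have := v.isMaximal.eq_of_le w.isPrime.ne_top hle
    exact hw (HeightOneSpectrum.ext this.symm)

/-- Elements of `Fˣ` with trivial valuation at all primes are units of `𝓞 F`. -/
theorem h2sb_mem_range_iff (F : Type*) [Field F] [NumberField F] (x : Fˣ) :
    x ∈ (Units.map ((algebraMap (𝓞 F) F : 𝓞 F →+* F) : 𝓞 F →* F)).range ↔
      ∀ v : HeightOneSpectrum (𝓞 F), v.valuation F (x : F) = 1 := by
  constructor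
  · rintro ⟨u, rfl⟩ v
    have h1 : v.valuation F ((u : 𝓞 F) : F) ≤ 1 := v.valuation_le_one _
    have h2 : v.valuation F (((u⁻¹ : (𝓞 F)ˣ) : 𝓞 F) : F) ≤ 1 := v.valuation_le_one _
    have h3 : v.valuation F ((u : 𝓞 F) : F) * v.valuation F (((u⁻¹ : (𝓞 F)ˣ) : 𝓞 F) : F) = 1 := by
      rw [← map_mul, ← map_mul, ← Units.val_mul, mul_inv_cancel, Units.val_one, map_one, map_one]
    have h4 : ((Units.map ((algebraMap (𝓞 F) F : 𝓞 F →+* F) : 𝓞 F →* F) u : Fˣ) : F)
        = ((u : 𝓞 F) : F) := rfl
    rw [h4]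
    refine le_antisymm h1 ?_
    calc (1 : WithZero (Multiplicative ℤ)) = _ := h3.symm
      _ ≤ v.valuation F ((u : 𝓞 F) : F) * 1 := by gcongr
      _ = _ := mul_one _
  · intro h
    have h1 := HeightOneSpectrum.mem_integers_of_valuation_le_one F (x : F) (fun v => (h v).le)
    have h2 := HeightOneSpectrum.mem_integers_of_valuation_le_one F ((x⁻¹ : Fˣ) : F) (fun v => by
      rw [Units.val_inv_eq_inv_val, map_inv₀, h v, inv_one])
    obtain ⟨a, ha⟩ := h1
    obtain ⟨b, hb⟩ := h2
    have hab : a * b = 1 := by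
      apply FaithfulSMul.algebraMap_injective (𝓞 F) F
      rw [map_mul, ha, hb, map_one, ← Units.val_mul, mul_inv_cancel, Units.val_one]
    refine ⟨⟨a, b, hab, by rw [mul_comm]; exact hab⟩, ?_⟩
    ext
    simp [ha]

/-- The image of the `S`-units under the order map has finite index. -/
theorem h2sb_index_map_ord_ne_zero (F : Type*) [Field F] [NumberField F]
    (S : Finset (HeightOneSpectrum (𝓞 F))) :
    ((h2U F (S : Set (HeightOneSpectrum (𝓞 F)))).map (h2sb_ord F S)).index ≠ 0 := by
  classical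
  have hh : NeZero (NumberField.classNumber F) := ⟨NumberField.classNumber_ne_zero F⟩
  have hle : (powMonoidHom (NumberField.classNumber F) :
      (S → Multiplicative ℤ) →* (S → Multiplicative ℤ)).range ≤
      (h2U F (S : Set (HeightOneSpectrum (𝓞 F)))).map (h2sb_ord F S) := by
    rintro _ ⟨m, rfl⟩
    choose x hx1 hx2 using fun v : S => h2sb_exists_gen F v.1
    have hxU : ∀ v : S, x v ∈ h2U F (S : Set (HeightOneSpectrum (𝓞 F))) := by
      intro v w hw
      exact hx2 v w (fun h => hw (h ▸ v.2))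
    refine ⟨∏ v : S, x v ^ (-(Multiplicative.toAdd (m v))),
      Subgroup.prod_mem _ (fun v _ => Subgroup.zpow_mem _ (hxU v) _), ?_⟩
    funext w
    show h2sb_ordv F w.1 (∏ v : S, x v ^ (-(Multiplicative.toAdd (m v))))
      = (m w) ^ (NumberField.classNumber F)
    rw [map_prod, Finset.prod_eq_single w]
    · rw [map_zpow]
      have : h2sb_ordv F w.1 (x w) = Multiplicative.ofAdd (-(NumberField.classNumber F : ℤ)) := by
        apply WithZero.coe_injective
        rw [h2sb_coe_ordv, hx1 w]; rfl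
      rw [this]
      apply Multiplicative.toAdd.injective
      rw [toAdd_zpow, toAdd_pow, toAdd_ofAdd]
      simp only [smul_eq_mul, nsmul_eq_mul]
      ring
    · intro v _ hv
      rw [map_zpow, (h2sb_ordv_eq_one_iff F w.1 (x v)).2
        (hx2 v w.1 (fun h => hv (Subtype.ext h.symm))), one_zpow]
    · simp
  have := Subgroup.index_dvd_of_le hle
  rw [h2sb_index_pow_int] at this
  intro h0
  rw [h0] at this
  exact (pow_ne_zero _ (NeZero.ne _)) (Nat.eq_zero_of_zero_dvd this)

/-! ### Part E: assembly -/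

theorem h2sb_val_eq_one_of_pow (F : Type*) [Field F] [NumberField F]
    (v : HeightOneSpectrum (𝓞 F)) (p : ℕ) (hp : p ≠ 0) (z : Fˣ)
    (h : v.valuation F ((z ^ p : Fˣ) : F) = 1) : v.valuation F (z : F) = 1 := by
  rw [Units.val_pow_eq_pow_val, map_pow] at h
  exact (pow_eq_one_iff_of_nonneg zero_le hp).1 h

theorem h2sb_pow_injective (ι : Type*) (p : ℕ) (hp : p ≠ 0) :
    Function.Injective (powMonoidHom p : (ι → Multiplicative ℤ) →* (ι → Multiplicative ℤ)) := by
  intro a b hab
  funext i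
  have h1 : (a i) ^ p = (b i) ^ p := congrFun hab i
  have h2 := congrArg Multiplicative.toAdd h1
  rw [toAdd_pow, toAdd_pow] at h2
  apply Multiplicative.toAdd.injective
  simpa [hp] using h2

theorem h2_sunit_relIndex_B (p : ℕ) [Fact p.Prime] (hp : 3 ≤ p) (F : Type*) [Field F]
    [NumberField F] (ζ : F) (hζ : IsPrimitiveRoot ζ p) (S : Finset (HeightOneSpectrum (𝓞 F))) :
    p ^ (Module.finrank ℚ F / 2 + S.card) ≤
      (powMonoidHom p : Fˣ →* Fˣ).range.relIndex (h2U F (S : Set (HeightOneSpectrum (𝓞 F)))) := by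
  classical
  have hp0 : p ≠ 0 := by omega
  have hpne : NeZero p := ⟨hp0⟩
  set U := h2U F (S : Set (HeightOneSpectrum (𝓞 F))) with hU
  set P := (powMonoidHom p : Fˣ →* Fˣ).range with hP
  set Λ := U.map (h2sb_ord F S) with hΛ
  set pw := (powMonoidHom p : (S → Multiplicative ℤ) →* (S → Multiplicative ℤ)) with hpw
  set ι := (Units.map ((algebraMap (𝓞 F) F : 𝓞 F →+* F) : 𝓞 F →* F)) with hι
  set E := ι.range with hE
  set Y := U ⊓ (Λ.map pw).comap (h2sb_ord F S) with hY
  set X := P ⊓ U with hX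
  have hEU : E ≤ U := fun x hx v _ => (h2sb_mem_range_iff F x).1 hx v
  -- a `p`-th root of an `S`-unit is an `S`-unit
  have hroot : ∀ z : Fˣ, z ^ p ∈ U → z ∈ U := fun z hz v hv =>
    h2sb_val_eq_one_of_pow F v p hp0 z (hz v hv)
  have hXY : X ≤ Y := by
    rintro x ⟨⟨z, rfl⟩, hxU⟩
    refine ⟨hxU, ?_⟩
    show h2sb_ord F S (powMonoidHom p z) ∈ Λ.map pw
    refine ⟨h2sb_ord F S z, ⟨z, hroot z hxU, rfl⟩, ?_⟩
    show (h2sb_ord F S z) ^ p = h2sb_ord F S (z ^ p)
    rw [map_pow]
  have hYU : Y ≤ U := inf_le_left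
  have hEY : E ≤ Y := by
    intro e he
    refine ⟨hEU he, ?_⟩
    show h2sb_ord F S e ∈ Λ.map pw
    have h1 : h2sb_ord F S e = 1 := by
      funext v
      exact (h2sb_ordv_eq_one_iff F v.1 e).2 ((h2sb_mem_range_iff F e).1 he v.1)
    rw [h1]
    exact one_mem _
  have hY_eq : Y = E ⊔ X := by
    apply le_antisymm
    · rintro y ⟨hyU, hy⟩
      obtain ⟨l, ⟨u, huU, rfl⟩, hl⟩ := hy
      have hl' : (h2sb_ord F S u) ^ p = h2sb_ord F S y := hl
      have hmem : y * (u ^ p)⁻¹ ∈ E := by
        rw [hE, h2sb_mem_range_iff]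
        intro v
        by_cases hv : v ∈ S
        · rw [← h2sb_ordv_eq_one_iff]
          have h2 := congrFun hl' ⟨v, hv⟩
          rw [Pi.pow_apply, h2sb_ord_apply, h2sb_ord_apply] at h2
          rw [map_mul, map_inv, map_pow, h2, mul_inv_cancel]
        · exact (U.mul_mem hyU (U.inv_mem (U.pow_mem huU p))) v hv
      have hdecomp : y = (y * (u ^ p)⁻¹) * u ^ p := by group
      rw [hdecomp]
      exact Subgroup.mul_mem_sup hmem ⟨⟨u, rfl⟩, U.pow_mem huU p⟩
    · exact sup_le hEY hXY
  have h1 : P.relIndex U = X.relIndex U := (Subgroup.inf_relIndex_right P U).symm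
  have h2 : X.relIndex Y * Y.relIndex U = X.relIndex U :=
    Subgroup.relIndex_mul_relIndex X Y U hXY hYU
  have h3 : Y.relIndex U = p ^ S.card := by
    rw [hY, Subgroup.inf_relIndex_left, Subgroup.relIndex_comap,
      h2sb_relIndex_map_pow p (h2sb_pow_injective _ p hp0) Λ (h2sb_index_map_ord_ne_zero F S),
      h2sb_index_pow_int, Fintype.card_coe]
  have h4 : X.relIndex Y = (powMonoidHom p : (𝓞 F)ˣ →* (𝓞 F)ˣ).range.index := by
    have hXE : X ⊓ E = P ⊓ E := by
      rw [hX, inf_assoc, inf_eq_right.2 hEU]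
    rw [hY_eq, Subgroup.relIndex_sup_right, ← Subgroup.inf_relIndex_right, hXE,
      Subgroup.inf_relIndex_right, hE, ← Subgroup.index_comap]
    congr 1
    ext e
    constructor
    · rintro ⟨z, hz⟩
      have hz' : z ^ p = ι e := hz
      have hzE : z ∈ E := by
        rw [hE, h2sb_mem_range_iff]
        intro v
        apply h2sb_val_eq_one_of_pow F v p hp0 z
        rw [hz']
        exact (h2sb_mem_range_iff F (ι e)).1 ⟨e, rfl⟩ v
      obtain ⟨e', rfl⟩ := hzE
      refine ⟨e', ?_⟩
      apply Units.map_injective (f := ((algebraMap (𝓞 F) F : 𝓞 F →+* F) : 𝓞 F →* F))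
        (FaithfulSMul.algebraMap_injective (𝓞 F) F)
      show ι (e' ^ p) = ι e
      rw [map_pow, hz']
    · rintro ⟨e', rfl⟩
      exact ⟨ι e', by simp⟩
  obtain ⟨h5, h6⟩ := h2sb_units_index p F ζ hζ
  rw [h1, ← h2, h3, h4, ← h2sb_rank_add_one p hp F ζ hζ, pow_add]
  exact Nat.mul_le_mul_right _ h6

end Fermat.Agent.S14
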