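import Mathlib
import Fermat.Agent.S14.Defs
import Fermat.Agent.S14.H2Defs

/-!
# P18 (S14), block H2, slice [A5]: the tame index

For a finite set `T` of primes of a number field `F`, the group of elements of `Fˣ` which are
units at every prime of `T`, modulo those which are local `p`-th powers to precision `1` at every
prime of `T`, is finite of order at most `p ^ |T|` (`h2_relIndex_unitsAt_le`).

For one prime `v`: the units at `v` map onto the units of the residue field `κ` of the valuation
ring of `v` (a finite field, being a quotient of `𝓞 F / v`), with kernel the principal units; a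
unit whose residue class is a `p`-th power is a local `p`-th power to precision `1`, and the
`p`-th powers have index dividing `p` in the cyclic group `κˣ`.
-/

set_option autoImplicit false

namespace Fermat.Agent.S14

open NumberField IsDedekindDomain

/-- In `WithZero (Multiplicative ℤ)`, `x < 1` if and only if `x ≤ exp (-1)`. -/
theorem h2t_lt_one_iff (x : WithZero (Multiplicative ℤ)) :
    x < 1 ↔ x ≤ WithZero.exp (-((1 : ℕ) : ℤ)) := by
  rcases eq_or_ne x 0 with rfl | hx
  · simp
  · rw [← WithZero.exp_log hx, ← WithZero.exp_zero, WithZero.exp_lt_exp, WithZero.exp_le_exp]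
    omega

/-- Pure group theory: if the preimage of `Q` under a homomorphism `f` defined on `L` is contained
in `H`, then the relative index of `H` in `L` divides the index of `Q`. -/
theorem h2t_relIndex_dvd_of_comap_le {G G' : Type*} [Group G] [CommGroup G'] (L H : Subgroup G)
    (f : L →* G') (Q : Subgroup G') (hle : Q.comap f ≤ H.subgroupOf L) :
    H.relIndex L ∣ Q.index := by
  have h1 : (H.subgroupOf L).index ∣ (Q.comap f).index := Subgroup.index_dvd_of_le hle
  have h2 : (Q.comap f).index ∣ Q.index := by
    rw [Subgroup.index_comap]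
    exact Subgroup.relIndex_dvd_index_of_normal Q f.range
  exact h1.trans h2

section

variable (F : Type*) [Field F] [NumberField F]

/-- The canonical ring homomorphism from `𝓞 F` to the valuation ring of `v`. -/
noncomputable def h2t_toVal (v : HeightOneSpectrum (𝓞 F)) :
    𝓞 F →+* (v.valuation F).valuationSubring where
  toFun x := ⟨algebraMap (𝓞 F) F x,
    (Valuation.mem_valuationSubring_iff _ _).2 (v.valuation_le_one x)⟩
  map_one' := Subtype.ext (map_one _)
  map_mul' x y := Subtype.ext (map_mul _ x y)
  map_zero' := Subtype.ext (map_zero _)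
  map_add' x y := Subtype.ext (map_add _ x y)

theorem h2t_toVal_coe (v : HeightOneSpectrum (𝓞 F)) (x : 𝓞 F) :
    ((h2t_toVal F v x : (v.valuation F).valuationSubring) : F) = algebraMap (𝓞 F) F x := rfl

/-- The residue field of the valuation ring of `v` is finite. -/
theorem h2t_finite_residueField (v : HeightOneSpectrum (𝓞 F)) :
    Finite (IsLocalRing.ResidueField (v.valuation F).valuationSubring) := by
  have hsurj : Function.Surjective
      ((IsLocalRing.residue (v.valuation F).valuationSubring).comp (h2t_toVal F v)) := by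
    intro y
    obtain ⟨x, rfl⟩ := IsLocalRing.residue_surjective y
    obtain ⟨a, ha⟩ := v.exists_valuation_sub_lt_of_integer (K := F) (x := (x : F))
      ((Valuation.mem_valuationSubring_iff _ _).1 x.2) 1
    refine ⟨a, ?_⟩
    rw [RingHom.comp_apply, ← sub_eq_zero, ← map_sub, IsLocalRing.residue_eq_zero_iff,
      Valuation.mem_maximalIdeal_iff]
    exact ha
  have hker : ∀ a : 𝓞 F, a ∈ v.asIdeal →
      ((IsLocalRing.residue (v.valuation F).valuationSubring).comp (h2t_toVal F v)) a = 0 := by
    intro a ha
    rw [RingHom.comp_apply, IsLocalRing.residue_eq_zero_iff, Valuation.mem_maximalIdeal_iff]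
    exact (v.valuation_lt_one_iff_mem a).2 ha
  have : Finite (𝓞 F ⧸ v.asIdeal) := v.asIdeal.finiteQuotientOfFreeOfNeBot v.ne_bot
  exact Finite.of_surjective (Ideal.Quotient.lift v.asIdeal _ hker)
    (Ideal.Quotient.lift_surjective_of_surjective v.asIdeal hker hsurj)

/-- One prime: in a group `L` of units at `v`, the local `p`-th powers at `v` (to precision `1`)
have finite index at most `p`. -/
theorem h2t_relIndex_h2Dv (p : ℕ) [Fact p.Prime] (v : HeightOneSpectrum (𝓞 F)) (L : Subgroup Fˣ)
    (hL : ∀ x ∈ L, v.valuation F (x : F) = 1) :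
    (h2Dv F p v 1).relIndex L ≠ 0 ∧ (h2Dv F p v 1).relIndex L ≤ p := by
  have hfin : Finite (IsLocalRing.ResidueField (v.valuation F).valuationSubring) :=
    h2t_finite_residueField F v
  have hLA : L ≤ (v.valuation F).valuationSubring.unitGroup :=
    fun x hx => (Valuation.mem_unitGroup_iff F (v.valuation F) x).2 (hL x hx)
  have hQp : (powMonoidHom p : (IsLocalRing.ResidueField (v.valuation F).valuationSubring)ˣ →*
      (IsLocalRing.ResidueField (v.valuation F).valuationSubring)ˣ).range.index ∣ p := by
    rw [IsCyclic.index_powMonoidHom_range]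
    exact Nat.gcd_dvd_right _ _
  have hle : (powMonoidHom p : (IsLocalRing.ResidueField (v.valuation F).valuationSubring)ˣ →*
      (IsLocalRing.ResidueField (v.valuation F).valuationSubring)ˣ).range.comap
        ((v.valuation F).valuationSubring.unitGroupToResidueFieldUnits.comp
          (Subgroup.inclusion hLA)) ≤ (h2Dv F p v 1).subgroupOf L := by
    intro x hx
    obtain ⟨c, hc⟩ := hx
    obtain ⟨z, rfl⟩ := (v.valuation F).valuationSubring.surjective_unitGroupToResidueFieldUnits c
    have hker : Subgroup.inclusion hLA x * (z ^ p)⁻¹ ∈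
        (v.valuation F).valuationSubring.unitGroupToResidueFieldUnits.ker := by
      rw [MonoidHom.mem_ker, map_mul, map_inv, map_pow]
      have hc' : (v.valuation F).valuationSubring.unitGroupToResidueFieldUnits z ^ p =
          (v.valuation F).valuationSubring.unitGroupToResidueFieldUnits
            (Subgroup.inclusion hLA x) := hc
      rw [hc', mul_inv_cancel]
    rw [ValuationSubring.ker_unitGroupToResidueFieldUnits, Subgroup.mem_comap,
      ValuationSubring.mem_principalUnitGroup_iff] at hker
    have hlt : v.valuation F (((x : Fˣ) : F) / ((z : Fˣ) : F) ^ p - 1) < 1 := by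
      have h1 := ((Valuation.isEquiv_valuation_valuationSubring
        (v.valuation F)).lt_one_iff_lt_one).2 hker
      have h2 : (((v.valuation F).valuationSubring.unitGroup.subtype
          (Subgroup.inclusion hLA x * (z ^ p)⁻¹) : Fˣ) : F) =
            ((x : Fˣ) : F) / ((z : Fˣ) : F) ^ p := by
        simp [div_eq_mul_inv]
      rwa [h2] at h1
    rw [Subgroup.mem_subgroupOf]
    refine ⟨(z : Fˣ), ?_, (h2t_lt_one_iff _).1 hlt⟩
    have hz : v.valuation F ((z : Fˣ) : F) = 1 :=
      (Valuation.mem_unitGroup_iff F (v.valuation F) z).1 z.2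
    rw [map_div₀, map_pow, hz, one_pow, div_one]
    exact hL x x.2
  have hdvd : (h2Dv F p v 1).relIndex L ∣ p :=
    (h2t_relIndex_dvd_of_comap_le L (h2Dv F p v 1) _ _ hle).trans hQp
  refine ⟨fun h0 => ?_, Nat.le_of_dvd (Fact.out : p.Prime).pos hdvd⟩
  rw [h0] at hdvd
  exact (Fact.out : p.Prime).ne_zero (Nat.eq_zero_of_zero_dvd hdvd)

/-- Finitely many primes: in a group `L` of units at every prime of `T`, the elements which are
local `p`-th powers (to precision `1`) at every prime of `T` have finite index at most
`p ^ |T|`. -/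
theorem h2t_relIndex_h2D (p : ℕ) [Fact p.Prime] (T : Finset (HeightOneSpectrum (𝓞 F)))
    (L : Subgroup Fˣ) (hL : ∀ v ∈ T, ∀ x ∈ L, v.valuation F (x : F) = 1) :
    (h2D F p T (fun _ => 1)).relIndex L ≠ 0 ∧
      (h2D F p T (fun _ => 1)).relIndex L ≤ p ^ T.card := by
  classical
  induction T using Finset.induction_on with
  | empty =>
    have h : h2D F p ∅ (fun _ => 1) = ⊤ := by
      ext y
      simp [mem_h2D]
    rw [h, Subgroup.relIndex_top_left]
    simp
  | insert v T hv ih =>
    have hD : h2D F p (insert v T) (fun _ => 1) = h2Dv F p v 1 ⊓ h2D F p T (fun _ => 1) := by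
      ext y
      simp [mem_h2D, Subgroup.mem_inf]
    obtain ⟨h1, h2⟩ := h2t_relIndex_h2Dv F p v L (hL v (Finset.mem_insert_self v T))
    obtain ⟨h3, h4⟩ := ih (fun w hw => hL w (Finset.mem_insert_of_mem hw))
    rw [hD, Finset.card_insert_of_notMem hv, pow_succ]
    refine ⟨Subgroup.relIndex_inf_ne_zero h1 h3, Subgroup.relIndex_inf_le.trans ?_⟩
    calc (h2Dv F p v 1).relIndex L * (h2D F p T (fun _ => 1)).relIndex L
        ≤ p * p ^ T.card := Nat.mul_le_mul h2 h4
      _ = p ^ T.card * p := mul_comm _ _

end

/-- [A5] tame index: the units at `T` modulo local `p`-th powers on `T` (precision 1) have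
order at most `p ^ |T|`. -/
theorem h2_relIndex_unitsAt_le (p : ℕ) [Fact p.Prime] (F : Type*) [Field F] [NumberField F]
    (T : Finset (HeightOneSpectrum (𝓞 F))) :
    (h2D F p T (fun _ => 1)).relIndex (h2U F ((T : Set (HeightOneSpectrum (𝓞 F)))ᶜ)) ≠ 0 ∧
      (h2D F p T (fun _ => 1)).relIndex (h2U F ((T : Set (HeightOneSpectrum (𝓞 F)))ᶜ)) ≤
        p ^ T.card :=
  h2t_relIndex_h2D F p T _ fun v hv _ hx =>
    (mem_h2U F).1 hx v fun h => h (Finset.mem_coe.mpr hv)

end Fermat.Agent.S14
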