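import Mathlib
import Fermat.Agent.S14.Defs
import Fermat.Agent.S14.H2Defs
import Fermat.Agent.S14.H2ModulusB
import Fermat.Agent.S14.H2KummerC
import Fermat.Agent.S14.H2AuxCore
import Fermat.Agent.S14.H2AuxPrime
import Fermat.Agent.S14.H2Tame
import Fermat.Agent.S14.H2Group
import Fermat.Agent.S14.H2SUnitB
import Fermat.Agent.S14.H2Lemma2
import Fermat.Agent.S14.H2Ideal

/-!
# P18 (S14), block H2: the counting argument of the second inequality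

`h2_second_inequality_core` : the second inequality (ray class form) for an everywhere unramified
cyclic extension `M / F` of prime degree `p`, `ζ_p ∈ F`, with two inputs kept as hypotheses:

* `hFI` : the first inequality for all Galois extensions `F' / F` of degree `p` (block H1);
* `hID` : the local index bound `[Fˣ : D] ≤ p ^ (2 |S| + [F : ℚ])` (Step 5 of block H2).

Proof (Tate's Kummer counting): with the modulus `𝔣 = (∏ S₀) ^ N` (`h2_exists_modulus_B`), the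
Kummer generator (`h2_exists_kummer_gen_C`) and the auxiliary set `T` (`h2x_exists_T_core`), put
`A = h2U F (S₀ ∪ T)`, `D = h2D F p S₀ N`, `P = (Fˣ)^p`.  Then `A ⊓ D ≤ P ≤ D` (`h2_lemma2`),
`[A : P ⊓ A] ≥ p ^ n` (`h2_sunit_relIndex_B`) and `[Fˣ : D] ≤ p ^ (n + 1)`, so `[Fˣ : A D] ≤ p`
(`h2_exists_pow_mul_mem`); elements of `A D` give ray-norm relations (`h2_rayNormRel_of_mem`).
-/

set_option autoImplicit false

namespace Fermat.Agent.S14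

open NumberField IsDedekindDomain

universe u w

/-- the product of the primes of a finite set, to a power, is nonzero. -/
theorem h2c_prod_pow_ne_bot (F : Type*) [Field F] [NumberField F]
    (S : Finset (HeightOneSpectrum (𝓞 F))) (N : ℕ) : (∏ v ∈ S, v.asIdeal) ^ N ≠ ⊥ := by
  apply pow_ne_zero
  rw [Finset.prod_ne_zero_iff]
  intro v _
  exact v.ne_bot

/-- an ideal not contained in any prime of `S` is coprime to `(∏ S) ^ N`. -/
theorem h2c_isCoprime_prod_pow (F : Type*) [Field F] [NumberField F]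
    (S : Finset (HeightOneSpectrum (𝓞 F))) (N : ℕ) (I : Ideal (𝓞 F))
    (hI : ∀ v ∈ S, ¬ I ≤ v.asIdeal) : IsCoprime I ((∏ v ∈ S, v.asIdeal) ^ N) := by
  apply IsCoprime.pow_right
  apply IsCoprime.prod_right
  intro v hv
  rw [Ideal.isCoprime_iff_sup_eq]
  have hmax : v.asIdeal.IsMaximal := v.isMaximal
  by_contra hne
  have hle : v.asIdeal ≤ I ⊔ v.asIdeal := le_sup_right
  have := hmax.eq_of_le hne hle
  exact hI v hv (by rw [this]; exact le_sup_left)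

/-- an ideal coprime to `(∏ S) ^ N`, `N ≥ 1`, is not contained in any prime of `S`. -/
theorem h2c_not_le_of_isCoprime (F : Type*) [Field F] [NumberField F]
    (S : Finset (HeightOneSpectrum (𝓞 F))) (N : ℕ) (hN : 1 ≤ N) (I : Ideal (𝓞 F))
    (hI : IsCoprime I ((∏ v ∈ S, v.asIdeal) ^ N)) (v : HeightOneSpectrum (𝓞 F)) (hv : v ∈ S) :
    ¬ I ≤ v.asIdeal := by
  intro hle
  rw [Ideal.isCoprime_iff_sup_eq] at hI
  have h1 : (∏ v ∈ S, v.asIdeal) ^ N ≤ v.asIdeal := by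
    refine (Ideal.pow_le_self (by omega)).trans ?_
    exact Ideal.prod_le_inf.trans (Finset.inf_le hv)
  have : (⊤ : Ideal (𝓞 F)) ≤ v.asIdeal := hI ▸ sup_le hle h1
  exact v.isPrime.ne_top (top_le_iff.mp this)

/-- the second inequality (ray class form), given the first inequality `hFI` and the local index
bound `hID`. -/
theorem h2_second_inequality_core (p : ℕ) [Fact p.Prime] (hp : 3 ≤ p)
    (F : Type u) (M : Type w) [Field F] [NumberField F] [Field M] [NumberField M] [Algebra F M]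
    [IsGalois F M]
    (hdeg : Module.finrank F M = p) (ζ : F) (hζ : IsPrimitiveRoot ζ p)
    (hunr : UnramifiedEverywhere F M)
    (hFI : ∀ (F' : Type u) [Field F'] [NumberField F'] [Algebra F F'] [IsGalois F F'],
      Module.finrank F F' = p → ∀ 𝔪 : Ideal (𝓞 F), 𝔪 ≠ ⊥ → 𝔪.IsRadical →
      IsCoprime 𝔪 (Ideal.span {(p : 𝓞 F)}) → UnramifiedOutside F F' 𝔪 →
      ∃ 𝔞 : Ideal (𝓞 F), 𝔞 ≠ ⊥ ∧ IsCoprime 𝔞 𝔪 ∧ ¬ RayNormRel F F' 𝔪 𝔞 ⊤)
    (hID : ∀ (S : Finset (HeightOneSpectrum (𝓞 F))) (n : HeightOneSpectrum (𝓞 F) → ℕ),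
      (∀ v : HeightOneSpectrum (𝓞 F), (p : 𝓞 F) ∈ v.asIdeal → v ∈ S) →
      (∀ v ∈ S, 1 ≤ n v) →
      (∀ v ∈ S, ∀ e : ℕ, (p : 𝓞 F) ∈ v.asIdeal ^ e → 3 * e + 1 ≤ n v) →
      (h2D F p S n).index ≠ 0 ∧ (h2D F p S n).index ≤ p ^ (2 * S.card + Module.finrank ℚ F))
    (𝔣₀ 𝔠 : Ideal (𝓞 F)) (h𝔣₀ : 𝔣₀ ≠ ⊥) (h𝔠 : 𝔠 ≠ ⊥)
    (hcop : IsCoprime 𝔠 (𝔣₀ * Ideal.span {(p : 𝓞 F)})) :
    ∃ 𝔣 : Ideal (𝓞 F), 𝔣 ≠ ⊥ ∧ 𝔣 ≤ 𝔣₀ ∧ IsCoprime 𝔠 𝔣 ∧
      ∀ 𝔞 𝔟 : Ideal (𝓞 F), 𝔞 ≠ ⊥ → 𝔟 ≠ ⊥ → IsCoprime 𝔞 𝔣 → IsCoprime 𝔟 𝔣 →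
        ¬ RayNormRel F M 𝔣 𝔟 ⊤ → ∃ j : ℕ, RayNormRel F M 𝔣 (𝔞 * 𝔟 ^ j) ⊤ := by
  classical
  obtain ⟨S₀, N, hSp, hS𝔠, hN𝔣₀, hN1, hNp, hCG⟩ := h2_exists_modulus_B p F 𝔣₀ 𝔠 h𝔣₀ h𝔠 hcop
  obtain ⟨a, α, ha0, haS, hα, hαF⟩ := h2_exists_kummer_gen_C p hp F M hdeg ζ hζ hunr S₀ hCG
  have heven := h2_even_finrank_B p hp F ζ hζ
  have haF : algebraMap (𝓞 F) F a ≠ 0 := by
    simpa using ha0
  obtain ⟨T, hTS, hsplit, hTcard, hT2⟩ := h2x_exists_T_core p F M S₀ (Units.mk0 _ haF)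
    (fun x hx B => h2_exists_aux_prime p hp F M hdeg ζ hζ a α hα hαF (Units.mk0 _ haF) rfl x hx B)
    (fun T => h2_relIndex_unitsAt_le p F T)
    heven (h2_sunit_relIndex_B p hp F ζ hζ S₀)
  refine ⟨(∏ v ∈ S₀, v.asIdeal) ^ N, h2c_prod_pow_ne_bot F S₀ N, hN𝔣₀,
    h2c_isCoprime_prod_pow F S₀ N 𝔠 hS𝔠, ?_⟩
  intro 𝔞 𝔟 h𝔞 h𝔟 hc𝔞 hc𝔟 hnot
  set A : Subgroup Fˣ :=
    h2U F ((S₀ : Set (HeightOneSpectrum (𝓞 F))) ∪ (T : Set (HeightOneSpectrum (𝓞 F)))) with hA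
  set D : Subgroup Fˣ := h2D F p S₀ (fun _ => N) with hD
  set P : Subgroup Fˣ := (powMonoidHom p : Fˣ →* Fˣ).range with hP
  -- the three inputs of the count
  have hDidx := hID S₀ (fun _ => N) hSp (fun _ _ => hN1) (fun v hv e he => hNp v hv e he)
  have hL2 : A ⊓ D ≤ P := h2_lemma2 p hp F ζ hζ S₀ T (fun _ => N) hSp (fun _ _ => hN1)
    (fun v hv e he => hNp v hv e he) hTS hCG hT2 hFI
  have hPD : P ≤ D := by
    rintro _ ⟨z, rfl⟩
    exact pow_mem_h2D F p S₀ (fun _ => N) z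
  have hdisj : Disjoint S₀ T := by
    rw [Finset.disjoint_right]
    exact hTS
  have hcountA := h2_sunit_relIndex_B p hp F ζ hζ (S₀ ∪ T)
  rw [Finset.coe_union, Finset.card_union_of_disjoint hdisj] at hcountA
  have hrelEq : D.relIndex A = P.relIndex A := by
    rw [← Subgroup.inf_relIndex_right D A, ← Subgroup.inf_relIndex_right P A]
    congr 1
    apply le_antisymm
    · exact le_inf (by rw [inf_comm]; exact hL2) inf_le_right
    · exact le_inf (inf_le_left.trans hPD) inf_le_right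
  have hfr : 2 * (Module.finrank ℚ F / 2) = Module.finrank ℚ F := Nat.mul_div_cancel' heven
  have hfpos : 0 < Module.finrank ℚ F := Module.finrank_pos
  set n : ℕ := 2 * S₀.card + Module.finrank ℚ F - 1 with hn
  have hn1 : n + 1 = 2 * S₀.card + Module.finrank ℚ F := by omega
  have hexp : Module.finrank ℚ F / 2 + (S₀.card + T.card) = n := by omega
  have hrel : p ^ n ≤ D.relIndex A := by
    rw [hrelEq, ← hexp]
    exact hcountA
  have hDle : D.index ≤ p ^ (n + 1) := by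
    rw [hn1]
    exact hDidx.2
  -- elements representing `𝔞` and `𝔟`
  obtain ⟨x, 𝔰, hx0, h𝔰, hx𝔞⟩ := hCG 𝔞 h𝔞
  obtain ⟨y, 𝔱, hy0, h𝔱, hy𝔟⟩ := hCG 𝔟 h𝔟
  have hxF : algebraMap (𝓞 F) F x ≠ 0 := by
    simpa using hx0
  have hyF : algebraMap (𝓞 F) F y ≠ 0 := by
    simpa using hy0
  set xu : Fˣ := Units.mk0 _ hxF with hxu
  set yu : Fˣ := Units.mk0 _ hyF with hyu
  have hyn : yu ∉ A ⊔ D := by
    intro hmem
    exact hnot (h2_rayNormRel_of_mem p F M hdeg S₀ T N hN1 hTS hsplit 𝔟 h𝔟 hc𝔟 y hy0 𝔱 h𝔱 hy𝔟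
      yu rfl hmem)
  obtain ⟨j, hj⟩ := h2_exists_pow_mul_mem p A D n hDidx.1 hDle hrel hPD xu yu hyn
  refine ⟨j, ?_⟩
  have hxy0 : x * y ^ j ≠ 0 := mul_ne_zero hx0 (pow_ne_zero _ hy0)
  refine h2_rayNormRel_of_mem p F M hdeg S₀ T N hN1 hTS hsplit (𝔞 * 𝔟 ^ j)
    (mul_ne_zero h𝔞 (pow_ne_zero _ h𝔟)) (IsCoprime.mul_left hc𝔞 (IsCoprime.pow_left hc𝔟))
    (x * y ^ j) hxy0 (𝔰 * 𝔱 ^ j) ?_ ?_ (xu * yu ^ j) ?_ hj
  · intro v hv
    have hprime : v.asIdeal.IsPrime := v.isPrime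
    rcases hprime.mul_le.mp hv with h | h
    · exact h𝔰 v h
    · exact h𝔱 v (Ideal.IsPrime.le_of_pow_le h)
  · rw [← Ideal.span_singleton_mul_span_singleton, ← Ideal.span_singleton_pow, hx𝔞, hy𝔟]
    ring
  · simp [hxu, hyu]

end Fermat.Agent.S14
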