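import Mathlib
import Fermat.Agent.S14.H2Defs
set_option autoImplicit false
namespace Fermat.Agent.S14
open NumberField IsDedekindDomain

theorem h2lc_card_torsion (G : Type*) [CommGroup G] [Finite G] (p : ℕ) :
    (powMonoidHom p : G →* G).range.index = Nat.card {x : G // x ^ p = 1} := by
  have h1 := Subgroup.card_mul_index (powMonoidHom p : G →* G).ker
  have h2 := Subgroup.index_ker (powMonoidHom p : G →* G)
  have h3 := Subgroup.card_mul_index (powMonoidHom p : G →* G).range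
  have h4 : Nat.card {x : G // x ^ p = 1} = Nat.card (powMonoidHom p : G →* G).ker :=
    Nat.card_congr (Equiv.subtypeEquivRight (fun x => by simp [MonoidHom.mem_ker]))
  have h5 : 0 < Nat.card (powMonoidHom p : G →* G).range := Nat.card_pos
  rw [h4]
  rw [h2, ← h3, mul_comm] at h1
  exact (Nat.eq_of_mul_eq_mul_left h5 h1).symm

theorem h2lc_exists_lift (F : Type*) [Field F] [NumberField F]
    (v : HeightOneSpectrum (𝓞 F)) (n : ℕ) (hn : 1 ≤ n) (b : (𝓞 F ⧸ v.asIdeal ^ n)ˣ) :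
    ∃ w : Fˣ, v.valuation F (w : F) = 1 ∧ ∃ a : 𝓞 F, (w : F) = algebraMap (𝓞 F) F a ∧
      Ideal.Quotient.mk (v.asIdeal ^ n) a = (b : 𝓞 F ⧸ v.asIdeal ^ n) := by
  obtain ⟨a, ha⟩ := Ideal.Quotient.mk_surjective (b : 𝓞 F ⧸ v.asIdeal ^ n)
  have hv : a ∉ v.asIdeal := by
    have := v.isMaximal
    rw [← Ideal.Quotient.isUnit_mk_pow_iff_notMem v.asIdeal (n := n) (by omega), ha]
    exact b.isUnit
  have h1 : v.valuation F (algebraMap (𝓞 F) F a) = 1 := (v.valuation_eq_one_iff_notMem).2 hv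
  have h0 : algebraMap (𝓞 F) F a ≠ 0 := by
    intro h; rw [h, map_zero] at h1; exact zero_ne_one h1
  exact ⟨Units.mk0 _ h0, h1, a, rfl, ha⟩

theorem h2lc_mem_of_approx (p : ℕ) (F : Type*) [Field F] [NumberField F]
    (v : HeightOneSpectrum (𝓞 F)) (n : ℕ) (hn : 1 ≤ n) (y πu ar ad : Fˣ) (i : ℕ) (j : ℤ)
    (har : v.valuation F (ar : F) = 1) (had : v.valuation F (ad : F) = 1)
    (h : v.valuation F ((y : F) / (πu : F) ^ ((i : ℤ) + j * p) - (ar : F) * (ad : F) ^ p)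
      ≤ WithZero.exp (-(n : ℤ))) :
    (πu ^ i * ar)⁻¹ * y ∈ h2Dv F p v n := by
  rw [mem_h2Dv]
  refine ⟨πu ^ j * ad, ?_⟩
  have hπ : (πu : F) ≠ 0 := πu.ne_zero
  have har0 : (ar : F) ≠ 0 := ar.ne_zero
  have had0 : (ad : F) ≠ 0 := ad.ne_zero
  have key : (((πu ^ i * ar)⁻¹ * y : Fˣ) : F) / (((πu ^ j * ad : Fˣ)) : F) ^ p - 1
      = ((y : F) / (πu : F) ^ ((i : ℤ) + j * p) - (ar : F) * (ad : F) ^ p)
        / ((ar : F) * (ad : F) ^ p) := by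
    have e1 : (πu : F) ^ ((i : ℤ) + j * p) = (πu : F) ^ i * ((πu : F) ^ j) ^ p := by
      rw [zpow_add₀ hπ, zpow_mul, zpow_natCast, zpow_natCast]
    have e2 : ((πu : F) ^ j) ≠ 0 := zpow_ne_zero _ hπ
    rw [e1]
    push_cast
    field_simp
    ring
  have h2 : v.valuation F ((((πu ^ i * ar)⁻¹ * y : Fˣ) : F) / (((πu ^ j * ad : Fˣ)) : F) ^ p - 1)
      ≤ WithZero.exp (-(n : ℤ)) := by
    rw [key, map_div₀, map_mul, map_pow, har, had, one_pow, mul_one, div_one]; exact h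
  refine ⟨?_, h2⟩
  have hlt : v.valuation F ((((πu ^ i * ar)⁻¹ * y : Fˣ) : F) / (((πu ^ j * ad : Fˣ)) : F) ^ p - 1)
      < 1 := by
    refine lt_of_le_of_lt h2 ?_
    rw [← WithZero.exp_zero, WithZero.exp_lt_exp]
    omega
  have := Valuation.map_one_add_of_lt (v := v.valuation F) hlt
  rwa [add_sub_cancel] at this

theorem h2lc_surj (p : ℕ) [Fact p.Prime] (F : Type*) [Field F] [NumberField F]
    (v : HeightOneSpectrum (𝓞 F)) (n : ℕ) (hn : 1 ≤ n) (π : Fˣ)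
    (hπ : v.valuation F (π : F) = WithZero.exp (-1 : ℤ))
    (L : (𝓞 F ⧸ v.asIdeal ^ n)ˣ → Fˣ) (hL1 : ∀ b, v.valuation F (L b : F) = 1)
    (hL2 : ∀ b, ∃ a : 𝓞 F, (L b : F) = algebraMap (𝓞 F) F a ∧
      Ideal.Quotient.mk (v.asIdeal ^ n) a = (b : 𝓞 F ⧸ v.asIdeal ^ n))
    (y : Fˣ) : ∃ (i : Fin p) (c : (𝓞 F ⧸ v.asIdeal ^ n)ˣ ⧸
        (powMonoidHom p : (𝓞 F ⧸ v.asIdeal ^ n)ˣ →* (𝓞 F ⧸ v.asIdeal ^ n)ˣ).range),
      (π ^ (i : ℕ) * L (Quotient.out c))⁻¹ * y ∈ h2Dv F p v n := by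
  have hp : 0 < p := (Fact.out : p.Prime).pos
  have hpz : (0 : ℤ) < (p : ℤ) := by exact_mod_cast hp
  have hy0 : v.valuation F (y : F) ≠ 0 := (Valuation.ne_zero_iff _).2 y.ne_zero
  obtain ⟨m, hym⟩ : ∃ m : ℤ, v.valuation F (y : F) = WithZero.exp m :=
    ⟨_, (WithZero.exp_log hy0).symm⟩
  have hi0 : 0 ≤ (-m) % p := Int.emod_nonneg _ hpz.ne'
  have hi1 : (-m) % p < p := Int.emod_lt_of_pos _ hpz
  obtain ⟨i, hi⟩ : ∃ i : ℕ, (i : ℤ) = (-m) % p := ⟨((-m) % p).toNat, Int.toNat_of_nonneg hi0⟩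
  have hip : i < p := by omega
  obtain ⟨j, hj⟩ : ∃ j : ℤ, j = (-m) / p := ⟨_, rfl⟩
  have hk : (i : ℤ) + j * p = -m := by rw [hi, hj]; have := Int.emod_add_mul_ediv (-m) p; linarith
  obtain ⟨u, hu⟩ : ∃ u : F, u = (y : F) / (π : F) ^ ((i : ℤ) + j * p) := ⟨_, rfl⟩
  have hu1 : v.valuation F u = 1 := by
    rw [hu, hk, map_div₀, map_zpow₀, hπ, hym, ← WithZero.exp_zsmul]
    simp
  obtain ⟨a, ha⟩ := v.exists_valuation_sub_lt_of_integer (x := u) hu1.le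
    (Units.mk0 (WithZero.exp (-(n : ℤ))) WithZero.exp_ne_zero)
  rw [Units.val_mk0] at ha
  have hn1 : WithZero.exp (-(n : ℤ)) < (1 : WithZero (Multiplicative ℤ)) := by
    rw [← WithZero.exp_zero, WithZero.exp_lt_exp]; omega
  have ha1 : v.valuation F (algebraMap (𝓞 F) F a) = 1 := by
    have h := Valuation.map_add_eq_of_lt_left (v := v.valuation F) (x := u)
      (y := algebraMap (𝓞 F) F a - u) (by rw [hu1]; exact ha.trans hn1)
    rw [add_sub_cancel] at h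
    rw [h, hu1]
  have hav : a ∉ v.asIdeal := (v.valuation_eq_one_iff_notMem).1 ha1
  have hunit : IsUnit (Ideal.Quotient.mk (v.asIdeal ^ n) a) := by
    have := v.isMaximal
    exact (Ideal.Quotient.isUnit_mk_pow_iff_notMem v.asIdeal (by omega)).2 hav
  obtain ⟨b, hb⟩ := hunit
  obtain ⟨c, hc⟩ : ∃ c : (𝓞 F ⧸ v.asIdeal ^ n)ˣ ⧸
        (powMonoidHom p : (𝓞 F ⧸ v.asIdeal ^ n)ˣ →* (𝓞 F ⧸ v.asIdeal ^ n)ˣ).range,
      c = QuotientGroup.mk b := ⟨_, rfl⟩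
  have hmem : (Quotient.out c)⁻¹ * b ∈
      (powMonoidHom p : (𝓞 F ⧸ v.asIdeal ^ n)ˣ →* (𝓞 F ⧸ v.asIdeal ^ n)ˣ).range := by
    rw [← QuotientGroup.eq, ← hc]; exact Quotient.out_eq' c
  obtain ⟨d, hd⟩ := hmem
  obtain ⟨ar, har, har'⟩ := hL2 (Quotient.out c)
  obtain ⟨ad, had, had'⟩ := hL2 d
  refine ⟨⟨i, hip⟩, c, h2lc_mem_of_approx p F v n hn y π (L (Quotient.out c)) (L d) i j
    (hL1 _) (hL1 _) ?_⟩
  have hq : Ideal.Quotient.mk (v.asIdeal ^ n) (a - ar * ad ^ p) = 0 := by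
    rw [map_sub, map_mul, map_pow, har', had', ← hb]
    have hbb : b = Quotient.out c * d ^ p := by
      have hd' : d ^ p = (Quotient.out c)⁻¹ * b := hd
      rw [hd']; group
    have : (b : 𝓞 F ⧸ v.asIdeal ^ n) = (Quotient.out c : (𝓞 F ⧸ v.asIdeal ^ n)ˣ) * (d : _) ^ p := by
      rw [hbb]; push_cast; rfl
    rw [this, sub_self]
  have hmemI : a - ar * ad ^ p ∈ v.asIdeal ^ n := Ideal.Quotient.eq_zero_iff_mem.1 hq
  have hval : v.valuation F (algebraMap (𝓞 F) F (a - ar * ad ^ p)) ≤ WithZero.exp (-(n : ℤ)) := by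
    rw [v.valuation_of_algebraMap]; exact (v.intValuation_le_pow_iff_mem _ _).2 hmemI
  have hsplit : u - (L (Quotient.out c) : F) * (L d : F) ^ p
      = (algebraMap (𝓞 F) F (a - ar * ad ^ p)) - (algebraMap (𝓞 F) F a - u) := by
    rw [har, had]; simp only [map_sub, map_mul, map_pow]; ring
  rw [← hu, hsplit]
  exact (Valuation.map_sub _ _ _).trans (max_le hval ha.le)

theorem h2_index_Dv_le (p : ℕ) [Fact p.Prime] (F : Type*) [Field F] [NumberField F]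
    (v : HeightOneSpectrum (𝓞 F)) (n : ℕ) (hn : 1 ≤ n) :
    (h2Dv F p v n).index ≠ 0 ∧
      (h2Dv F p v n).index ≤ p * Nat.card {x : (𝓞 F ⧸ v.asIdeal ^ n)ˣ // x ^ p = 1} := by
  have hI : v.asIdeal ^ n ≠ ⊥ := pow_ne_zero n v.ne_bot
  have : Finite (𝓞 F ⧸ v.asIdeal ^ n) := Ideal.finiteQuotientOfFreeOfNeBot _ hI
  have : Finite (𝓞 F ⧸ v.asIdeal ^ n)ˣ := inferInstance
  obtain ⟨π, hπ⟩ := v.valuation_exists_uniformizer F
  have hπ0 : π ≠ 0 := by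
    intro h; rw [h, map_zero] at hπ; exact WithZero.exp_ne_zero hπ.symm
  choose L hL1 hL2 using h2lc_exists_lift F v n hn
  let g : Fin p × ((𝓞 F ⧸ v.asIdeal ^ n)ˣ ⧸
        (powMonoidHom p : (𝓞 F ⧸ v.asIdeal ^ n)ˣ →* (𝓞 F ⧸ v.asIdeal ^ n)ˣ).range) →
      Fˣ ⧸ h2Dv F p v n :=
    fun x => QuotientGroup.mk ((Units.mk0 π hπ0) ^ (x.1 : ℕ) * L (Quotient.out x.2))
  have hg : Function.Surjective g := by
    intro q
    obtain ⟨y, rfl⟩ := QuotientGroup.mk_surjective q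
    obtain ⟨i, c, h⟩ := h2lc_surj p F v n hn (Units.mk0 π hπ0) hπ L hL1 hL2 y
    exact ⟨(i, c), QuotientGroup.eq.2 h⟩
  have : Finite (Fˣ ⧸ h2Dv F p v n) := Finite.of_surjective g hg
  refine ⟨Subgroup.index_ne_zero_of_finite, ?_⟩
  rw [Subgroup.index_eq_card]
  calc Nat.card (Fˣ ⧸ h2Dv F p v n) ≤ Nat.card (Fin p × ((𝓞 F ⧸ v.asIdeal ^ n)ˣ ⧸
        (powMonoidHom p : (𝓞 F ⧸ v.asIdeal ^ n)ˣ →* (𝓞 F ⧸ v.asIdeal ^ n)ˣ).range)) :=
        Nat.card_le_card_of_surjective g hg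
    _ = p * (powMonoidHom p : (𝓞 F ⧸ v.asIdeal ^ n)ˣ →* (𝓞 F ⧸ v.asIdeal ^ n)ˣ).range.index := by
        rw [Nat.card_prod, Nat.card_fin, Subgroup.index_eq_card]
    _ = _ := by rw [h2lc_card_torsion]

end Fermat.Agent.S14
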