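import Mathlib
import Fermat.Agent.S14.H2Defs
set_option autoImplicit false
namespace Fermat.Agent.S14
open NumberField IsDedekindDomain

theorem h2lt_natCast_notMem (p : ℕ) (F : Type*) [Field F] [NumberField F]
    (v : HeightOneSpectrum (𝓞 F)) (hv : v.valuation F (p : F) = 1) :
    (p : 𝓞 F) ∉ v.asIdeal := by
  have h : v.valuation F (algebraMap (𝓞 F) F (p : 𝓞 F)) = 1 := by
    rw [map_natCast]; exact hv
  exact (HeightOneSpectrum.valuation_eq_one_iff_notMem v).1 h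

theorem h2lt_eq_one (p : ℕ) (F : Type*) [Field F] [NumberField F]
    (v : HeightOneSpectrum (𝓞 F)) (hp : (p : 𝓞 F) ∉ v.asIdeal) (n : ℕ) (hn : 1 ≤ n)
    (t : 𝓞 F ⧸ v.asIdeal ^ n) (ht : t ^ p = 1)
    (h1 : Ideal.Quotient.factor (Ideal.pow_le_self (by omega) : v.asIdeal ^ n ≤ v.asIdeal) t = 1) :
    t = 1 := by
  have hmax := v.isMaximal
  obtain ⟨a, rfl⟩ := Ideal.Quotient.mk_surjective t
  rw [Ideal.Quotient.factor_mk] at h1
  have ha : a - 1 ∈ v.asIdeal := by
    rw [← Ideal.Quotient.eq]; simpa using h1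
  have hs : (∑ i ∈ Finset.range p, a ^ i) ∉ v.asIdeal := by
    intro hmem
    apply hp
    rw [← Ideal.Quotient.eq_zero_iff_mem] at hmem ⊢
    rw [map_sum] at hmem
    have : ∀ i ∈ Finset.range p, Ideal.Quotient.mk v.asIdeal (a ^ i) = 1 := by
      intro i _
      rw [map_pow, h1, one_pow]
    rw [Finset.sum_congr rfl this] at hmem
    simpa using hmem
  have hu : IsUnit (Ideal.Quotient.mk (v.asIdeal ^ n) (∑ i ∈ Finset.range p, a ^ i)) :=
    (Ideal.Quotient.isUnit_mk_pow_iff_notMem v.asIdeal (by omega)).2 hs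
  have hmul : Ideal.Quotient.mk (v.asIdeal ^ n) (∑ i ∈ Finset.range p, a ^ i) *
      Ideal.Quotient.mk (v.asIdeal ^ n) (a - 1) = 0 := by
    rw [← map_mul, geom_sum_mul, map_sub, map_pow, ht, map_one, sub_self]
  have h0 : Ideal.Quotient.mk (v.asIdeal ^ n) (a - 1) = 0 := by
    exact (hu.mul_right_eq_zero).1 hmul
  rw [map_sub, map_one, sub_eq_zero] at h0
  exact h0

theorem h2lt_roots_inj (p : ℕ) (hp0 : 0 < p) (K : Type*) [CommRing K] [IsDomain K]
    [DecidableEq K] :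
    Function.Injective
      (fun z : {z : K // z ^ p = 1} =>
        (⟨z.1, (Polynomial.mem_nthRootsFinset hp0 1).2 z.2⟩ :
          (Polynomial.nthRootsFinset p (1 : K)))) := by
  intro a b h
  have h' : (a : K) = (b : K) := congrArg (fun w : (Polynomial.nthRootsFinset p (1 : K)) => (w : K)) h
  exact Subtype.ext h'

theorem h2lt_roots_finite (p : ℕ) (hp0 : 0 < p) (K : Type*) [CommRing K] [IsDomain K] :
    Finite {z : K // z ^ p = 1} := by
  classical
  exact Finite.of_injective _ (h2lt_roots_inj p hp0 K)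

theorem h2lt_card_roots_le (p : ℕ) (hp0 : 0 < p) (K : Type*) [CommRing K] [IsDomain K] :
    Nat.card {z : K // z ^ p = 1} ≤ p := by
  classical
  have := Nat.card_le_card_of_injective _ (h2lt_roots_inj p hp0 K)
  refine this.trans ?_
  rw [Nat.card_eq_fintype_card, Fintype.card_coe]
  unfold Polynomial.nthRootsFinset
  exact (Multiset.toFinset_card_le _).trans (Polynomial.card_nthRoots p (1 : K))

theorem h2_card_torsion_tame (p : ℕ) [Fact p.Prime] (F : Type*) [Field F] [NumberField F]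
    (v : HeightOneSpectrum (𝓞 F)) (hv : v.valuation F (p : F) = 1) (n : ℕ) (hn : 1 ≤ n) :
    Nat.card {x : (𝓞 F ⧸ v.asIdeal ^ n)ˣ // x ^ p = 1} ≤ p := by
  have hmax := v.isMaximal
  have hp := h2lt_natCast_notMem p F v hv
  let φ : (𝓞 F ⧸ v.asIdeal ^ n) →+* (𝓞 F ⧸ v.asIdeal) :=
    Ideal.Quotient.factor (Ideal.pow_le_self (by omega) : v.asIdeal ^ n ≤ v.asIdeal)
  let Ψ : {x : (𝓞 F ⧸ v.asIdeal ^ n)ˣ // x ^ p = 1} → {z : 𝓞 F ⧸ v.asIdeal // z ^ p = 1} :=
    fun x => ⟨φ (x.1 : 𝓞 F ⧸ v.asIdeal ^ n), by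
      rw [← map_pow, ← Units.val_pow_eq_pow_val, x.2, Units.val_one, map_one]⟩
  have hinj : Function.Injective Ψ := by
    intro x y hxy
    have hxy' : φ (x.1 : 𝓞 F ⧸ v.asIdeal ^ n) = φ (y.1 : 𝓞 F ⧸ v.asIdeal ^ n) :=
      congrArg Subtype.val hxy
    have ht : (((x.1 * y.1⁻¹ : (𝓞 F ⧸ v.asIdeal ^ n)ˣ)) : 𝓞 F ⧸ v.asIdeal ^ n) = 1 := by
      apply h2lt_eq_one p F v hp n hn
      · rw [← Units.val_pow_eq_pow_val, mul_pow, inv_pow, x.2, y.2]; simp
      · show φ _ = 1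
        rw [Units.val_mul, map_mul, hxy', ← map_mul, ← Units.val_mul, mul_inv_cancel,
          Units.val_one, map_one]
    apply Subtype.ext
    have : x.1 * y.1⁻¹ = 1 := Units.ext ht
    exact mul_inv_eq_one.1 this
  have hp0 : 0 < p := (Fact.out : p.Prime).pos
  have hfin : Finite {z : 𝓞 F ⧸ v.asIdeal // z ^ p = 1} := h2lt_roots_finite p hp0 _
  exact (Nat.card_le_card_of_injective Ψ hinj).trans (h2lt_card_roots_le p hp0 _)

end Fermat.Agent.S14
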