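import Mathlib
import Fermat.Agent.S14.H2Defs
set_option autoImplicit false
namespace Fermat.Agent.S14
open NumberField IsDedekindDomain

theorem h2lwc_card_quot_pow (F : Type*) [Field F] [NumberField F]
    (v : HeightOneSpectrum (𝓞 F)) (k : ℕ) :
    Nat.card (𝓞 F ⧸ v.asIdeal ^ k) = (Ideal.absNorm v.asIdeal) ^ k := by
  rw [← map_pow, Ideal.absNorm_apply, Submodule.cardQuot_apply]

theorem h2lwc_absNorm_pos (F : Type*) [Field F] [NumberField F]
    (v : HeightOneSpectrum (𝓞 F)) : 0 < Ideal.absNorm v.asIdeal := by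
  rcases Nat.eq_zero_or_pos (Ideal.absNorm v.asIdeal) with h | h
  · exact absurd (Ideal.absNorm_eq_zero_iff.mp h) v.ne_bot
  · exact h

theorem h2lwc_card_ker (F : Type*) [Field F] [NumberField F]
    (v : HeightOneSpectrum (𝓞 F)) (e n : ℕ) (hen : e ≤ n) :
    Nat.card ((Ideal.Quotient.factor
      (Ideal.pow_le_pow_right (I := v.asIdeal) (Nat.sub_le n e))).toAddMonoidHom.ker)
      = (Ideal.absNorm v.asIdeal) ^ e := by
  set f := (Ideal.Quotient.factor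
      (Ideal.pow_le_pow_right (I := v.asIdeal) (Nat.sub_le n e))).toAddMonoidHom with hf
  have hsurj : Function.Surjective f :=
    Ideal.Quotient.factor_surjective (Ideal.pow_le_pow_right (I := v.asIdeal) (Nat.sub_le n e))
  have h1 := AddSubgroup.card_mul_index f.ker
  rw [AddSubgroup.index_ker, AddMonoidHom.range_eq_top.mpr hsurj, AddSubgroup.card_top,
    h2lwc_card_quot_pow, h2lwc_card_quot_pow] at h1
  have h2 : (Ideal.absNorm v.asIdeal) ^ n
      = (Ideal.absNorm v.asIdeal) ^ e * (Ideal.absNorm v.asIdeal) ^ (n - e) := by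
    rw [← pow_add, Nat.add_sub_cancel' hen]
  rw [h2] at h1
  exact Nat.eq_of_mul_eq_mul_right (pow_pos (h2lwc_absNorm_pos F v) _) h1

theorem h2lw_card_le_of_approx (p : ℕ) [Fact p.Prime] (F : Type*) [Field F] [NumberField F]
    (v : HeightOneSpectrum (𝓞 F)) (ζ₀ : 𝓞 F) (e n : ℕ) (hen : e ≤ n)
    (hW : ∀ y : 𝓞 F, y ^ p - 1 ∈ v.asIdeal ^ n → ∃ i < p, y - ζ₀ ^ i ∈ v.asIdeal ^ (n - e)) :
    Nat.card {x : (𝓞 F ⧸ v.asIdeal ^ n)ˣ // x ^ p = 1} ≤ p * (Ideal.absNorm v.asIdeal) ^ e := by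
  have hIJ : v.asIdeal ^ n ≤ v.asIdeal ^ (n - e) := Ideal.pow_le_pow_right (Nat.sub_le n e)
  set f := (Ideal.Quotient.factor hIJ).toAddMonoidHom with hf
  have hK : Nat.card f.ker = (Ideal.absNorm v.asIdeal) ^ e := h2lwc_card_ker F v e n hen
  have hfin : Finite f.ker := Nat.finite_of_card_ne_zero
    (by rw [hK]; exact (pow_pos (h2lwc_absNorm_pos F v) _).ne')
  have key : ∀ x : {x : (𝓞 F ⧸ v.asIdeal ^ n)ˣ // x ^ p = 1}, ∃ i : Fin p,
      ((x.1 : (𝓞 F ⧸ v.asIdeal ^ n)ˣ) : 𝓞 F ⧸ v.asIdeal ^ n)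
        - (Ideal.Quotient.mk (v.asIdeal ^ n) ζ₀) ^ (i : ℕ) ∈ f.ker := by
    rintro ⟨x, hx⟩
    obtain ⟨y, hy⟩ := Ideal.Quotient.mk_surjective (x : 𝓞 F ⧸ v.asIdeal ^ n)
    have hy1 : y ^ p - 1 ∈ v.asIdeal ^ n := by
      rw [← Ideal.Quotient.eq_zero_iff_mem, map_sub, map_pow, map_one, hy, ← Units.val_pow_eq_pow_val,
        hx, Units.val_one, sub_self]
    obtain ⟨i, hi, hyi⟩ := hW y hy1
    refine ⟨⟨i, hi⟩, ?_⟩
    rw [AddMonoidHom.mem_ker]
    show Ideal.Quotient.factor hIJ _ = 0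
    rw [← hy, ← map_pow, ← map_sub, Ideal.Quotient.factor_mk, Ideal.Quotient.eq_zero_iff_mem]
    exact hyi
  choose ι hι using key
  have hinj : Function.Injective
      (fun x : {x : (𝓞 F ⧸ v.asIdeal ^ n)ˣ // x ^ p = 1} =>
        ((ι x, ⟨_, hι x⟩) : Fin p × f.ker)) := by
    intro x x' h
    simp only [Prod.mk.injEq, Subtype.mk.injEq] at h
    obtain ⟨h1, h2⟩ := h
    rw [h1] at h2
    exact Subtype.ext (Units.ext (sub_left_injective h2))
  have := Nat.card_le_card_of_injective _ hinj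
  rwa [Nat.card_prod, Nat.card_fin, hK] at this

end Fermat.Agent.S14
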