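import Mathlib
import Fermat.Agent.S14.H2Defs
set_option autoImplicit false
namespace Fermat.Agent.S14
open NumberField IsDedekindDomain

theorem h2lwv_unit {F : Type*} [Field F] [NumberField F] (v : HeightOneSpectrum (𝓞 F))
    (u : 𝓞 F) (hu : IsUnit u) : v.intValuation u = 1 := by
  rw [HeightOneSpectrum.intValuation_eq_one_iff]
  intro hmem
  exact v.isPrime.ne_top (Ideal.eq_top_of_isUnit_mem _ hmem hu)

theorem h2lwv_assoc {F : Type*} [Field F] [NumberField F] (v : HeightOneSpectrum (𝓞 F))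
    (a b : 𝓞 F) (h : Associated a b) : v.intValuation a = v.intValuation b := by
  obtain ⟨u, rfl⟩ := h
  rw [map_mul, h2lwv_unit v u u.isUnit, mul_one]

theorem h2lwv_pow_sub_one {F : Type*} [Field F] [NumberField F] (v : HeightOneSpectrum (𝓞 F))
    (p : ℕ) [Fact p.Prime] (z : 𝓞 F) (hz : IsPrimitiveRoot z p) (k : ℕ) (hk0 : 0 < k)
    (hk : k < p) : v.intValuation (z ^ k - 1) = v.intValuation (z - 1) := by
  have hp : p.Prime := Fact.out
  have hcop : k.Coprime p := by
    rw [Nat.coprime_comm, Nat.Prime.coprime_iff_not_dvd hp]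
    exact Nat.not_dvd_of_pos_of_lt hk0 hk
  exact (h2lwv_assoc v _ _ (hz.associated_sub_one_pow_sub_one_of_coprime hcop)).symm

theorem h2lwv_diff_lt {F : Type*} [Field F] [NumberField F] (v : HeightOneSpectrum (𝓞 F))
    (p : ℕ) [Fact p.Prime] (z : 𝓞 F) (hz : IsPrimitiveRoot z p) (i j : ℕ) (hij : i < j)
    (hj : j < p) : v.intValuation (z ^ i - z ^ j) = v.intValuation (z - 1) := by
  have hzu : IsUnit z := hz.isUnit (Fact.out : p.Prime).ne_zero
  have h1 : z ^ i - z ^ j = -(z ^ i * (z ^ (j - i) - 1)) := by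
    have : z ^ j = z ^ i * z ^ (j - i) := by rw [← pow_add]; congr 1; omega
    rw [this]; ring
  rw [h1, Valuation.map_neg, map_mul, h2lwv_unit v _ (hzu.pow i), one_mul]
  exact h2lwv_pow_sub_one v p z hz (j - i) (by omega) (by omega)

theorem h2lwv_diff {F : Type*} [Field F] [NumberField F] (v : HeightOneSpectrum (𝓞 F))
    (p : ℕ) [Fact p.Prime] (z : 𝓞 F) (hz : IsPrimitiveRoot z p) (i j : ℕ) (hij : i ≠ j)
    (hi : i < p) (hj : j < p) : v.intValuation (z ^ i - z ^ j) = v.intValuation (z - 1) := by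
  rcases lt_or_gt_of_ne hij with h | h
  · exact h2lwv_diff_lt v p z hz i j h hj
  · rw [Valuation.map_sub_swap]
    exact h2lwv_diff_lt v p z hz j i h hi

theorem h2lwv_c_pow {F : Type*} [Field F] [NumberField F] (v : HeightOneSpectrum (𝓞 F))
    (p : ℕ) [Fact p.Prime] (z : 𝓞 F) (hz : IsPrimitiveRoot z p) :
    v.intValuation (z - 1) ^ (p - 1) = v.intValuation (p : 𝓞 F) := by
  have hp : p.Prime := Fact.out
  have hp1 : p - 1 + 1 = p := Nat.sub_add_cancel hp.one_le
  have hz' : IsPrimitiveRoot z (p - 1 + 1) := by rw [hp1]; exact hz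
  have h := hz'.prod_one_sub_pow_eq_order
  have h2 : v.intValuation (∏ k ∈ Finset.range (p - 1), (1 - z ^ (k + 1))) =
      v.intValuation (p : 𝓞 F) := by
    rw [h]; congr 1; exact_mod_cast congrArg (Nat.cast : ℕ → 𝓞 F) hp1
  rw [← h2, map_prod]
  rw [Finset.prod_congr rfl (g := fun _ => v.intValuation (z - 1))]
  · simp
  · intro k hk
    rw [Finset.mem_range] at hk
    rw [Valuation.map_sub_swap]
    exact h2lwv_pow_sub_one v p z hz (k + 1) (by omega) (by omega)

theorem h2lwv_factor {F : Type*} [Field F] [NumberField F]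
    (p : ℕ) [Fact p.Prime] (z : 𝓞 F) (hz : IsPrimitiveRoot z p) (y : 𝓞 F) :
    y ^ p - 1 = ∏ i ∈ Finset.range p, (y - z ^ i) := by
  have hp : p.Prime := Fact.out
  have h := X_pow_sub_C_eq_prod hz hp.pos (one_pow p)
  have h2 := congrArg (Polynomial.eval y) h
  simpa [Polynomial.eval_prod] using h2

theorem h2lw_key (p : ℕ) [Fact p.Prime] (F : Type*) [Field F] [NumberField F]
    (ζ : F) (hζ : IsPrimitiveRoot ζ p)
    (v : HeightOneSpectrum (𝓞 F)) (e : ℕ) (he : v.valuation F (p : F) = WithZero.exp (-(e : ℤ)))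
    (n : ℕ) (hn : 2 * e + 1 ≤ n) (y : 𝓞 F) (hy : y ^ p - 1 ∈ v.asIdeal ^ n) :
    ∃ i < p, y - hζ.toInteger ^ i ∈ v.asIdeal ^ (n - e) := by
  have hp : p.Prime := Fact.out
  have hp1 : p - 1 + 1 = p := Nat.sub_add_cancel hp.one_le
  set z : 𝓞 F := hζ.toInteger with hzdef
  have hz : IsPrimitiveRoot z p := hζ.toInteger_isPrimitiveRoot
  set c := v.intValuation (z - 1) with hc
  have hwp : v.intValuation (p : 𝓞 F) = WithZero.exp (-(e : ℤ)) := by
    have h := v.valuation_of_algebraMap (K := F) (p : 𝓞 F)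
    have h' : algebraMap (𝓞 F) F (p : 𝓞 F) = (p : F) := map_natCast _ _
    rw [← h, ← he]
    exact congrArg _ h'
  have hcpow : c ^ (p - 1) = WithZero.exp (-(e : ℤ)) := by
    rw [← hwp]; exact h2lwv_c_pow v p z hz
  have hc1 : c ≤ 1 := v.intValuation_le_one _
  have hce : WithZero.exp (-(e : ℤ)) ≤ c := by
    rw [← hcpow]
    exact pow_le_of_le_one zero_le hc1 (by have := hp.two_le; omega)
  have hcp : WithZero.exp (-((2 * e : ℕ) : ℤ)) ≤ c ^ p := by
    have h1 : c ^ p = WithZero.exp (-(e : ℤ)) * c := by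
      rw [← hcpow, ← pow_succ, hp1]
    have h2 : WithZero.exp (-((2 * e : ℕ) : ℤ)) = WithZero.exp (-(e : ℤ)) * WithZero.exp (-(e : ℤ)) := by
      rw [← WithZero.exp_add]; congr 1; push_cast; ring
    rw [h1, h2]
    exact mul_le_mul' le_rfl hce
  have hprod : ∏ i ∈ Finset.range p, v.intValuation (y - z ^ i) ≤ WithZero.exp (-(n : ℤ)) := by
    rw [← map_prod, ← h2lwv_factor p z hz y]
    exact (v.intValuation_le_pow_iff_mem _ _).mpr hy
  obtain ⟨i₀, hi₀, hmin⟩ := Finset.exists_min_image (Finset.range p)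
    (fun i => v.intValuation (y - z ^ i)) ⟨0, Finset.mem_range.mpr hp.pos⟩
  refine ⟨i₀, Finset.mem_range.mp hi₀, ?_⟩
  rw [← v.intValuation_le_pow_iff_mem]
  by_cases hcase : c ≤ v.intValuation (y - z ^ i₀)
  · exfalso
    have h1 : c ^ p ≤ ∏ i ∈ Finset.range p, v.intValuation (y - z ^ i) := by
      have := Finset.pow_card_le_prod (Finset.range p) (fun i => v.intValuation (y - z ^ i)) c
        (fun i hi => hcase.trans (hmin i hi))
      simpa using this
    have h2 := (hcp.trans h1).trans hprod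
    rw [WithZero.exp_le_exp] at h2
    push_cast at h2
    omega
  · push Not at hcase
    have hj : ∀ j ∈ (Finset.range p).erase i₀, v.intValuation (y - z ^ j) = c := by
      intro j hj
      rw [Finset.mem_erase, Finset.mem_range] at hj
      have h1 : y - z ^ j = (y - z ^ i₀) + (z ^ i₀ - z ^ j) := by ring
      have h2 : v.intValuation (z ^ i₀ - z ^ j) = c :=
        h2lwv_diff v p z hz i₀ j (Ne.symm hj.1) (Finset.mem_range.mp hi₀) hj.2
      rw [h1, (v.intValuation).map_add_eq_of_lt_right (by rw [h2]; exact hcase), h2]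
    have h3 : v.intValuation (y - z ^ i₀) * WithZero.exp (-(e : ℤ)) ≤ WithZero.exp (-(n : ℤ)) := by
      rw [← Finset.mul_prod_erase _ _ hi₀, Finset.prod_congr rfl hj] at hprod
      rw [Finset.prod_const, Finset.card_erase_of_mem hi₀, Finset.card_range, hcpow] at hprod
      exact hprod
    have h4 : WithZero.exp (-(n : ℤ)) = WithZero.exp (-((n - e : ℕ) : ℤ)) * WithZero.exp (-(e : ℤ)) := by
      rw [← WithZero.exp_add]; congr 1; push_cast [Nat.cast_sub (show e ≤ n by omega)]; ring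
    rw [h4] at h3
    by_contra hcon
    push Not at hcon
    have h5 := mul_lt_mul_of_pos_right hcon (show (0 : WithZero (Multiplicative ℤ)) < WithZero.exp (-(e : ℤ)) from WithZero.exp_pos)
    exact absurd h3 (not_le.mpr h5)

end Fermat.Agent.S14
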