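import Mathlib
import Fermat.Agent.S14.H2Defs
import Fermat.Agent.S14.H2LocalWildVal
import Fermat.Agent.S14.H2LocalWildCount

set_option autoImplicit false

namespace Fermat.Agent.S14

open NumberField IsDedekindDomain

/-- Wild local count: the `p`-torsion of `(𝓞 F ⧸ v ^ n)ˣ` has at most `p * N(v) ^ e` elements,
where `e` is the ramification index of `v` over `p` and `n ≥ 2 e + 1`. -/
theorem h2_card_torsion_wild (p : ℕ) [Fact p.Prime] (hp : 3 ≤ p) (F : Type*) [Field F]
    [NumberField F] (ζ : F) (hζ : IsPrimitiveRoot ζ p)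
    (v : HeightOneSpectrum (𝓞 F)) (e : ℕ) (he : v.valuation F (p : F) = WithZero.exp (-(e : ℤ)))
    (he0 : 0 < e) (n : ℕ) (hn : 2 * e + 1 ≤ n) :
    Nat.card {x : (𝓞 F ⧸ v.asIdeal ^ n)ˣ // x ^ p = 1} ≤ p * (Ideal.absNorm v.asIdeal) ^ e :=
  h2lw_card_le_of_approx p F v hζ.toInteger e n (by omega)
    (fun y hy => h2lw_key p F ζ hζ v e he n hn y hy)

end Fermat.Agent.S14
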