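import Mathlib
import Fermat.Agent.S14.H2Defs
import Fermat.Agent.S14.H2LocalCore
import Fermat.Agent.S14.H2LocalTame
import Fermat.Agent.S14.H2LocalWild
set_option autoImplicit false
namespace Fermat.Agent.S14
open NumberField IsDedekindDomain

theorem h2la_idx_exists_e (p : ℕ) [Fact p.Prime] (F : Type*) [Field F] [NumberField F]
    (v : HeightOneSpectrum (𝓞 F)) :
    ∃ e : ℕ, v.valuation F (p : F) = WithZero.exp (-(e : ℤ)) := by
  have hp0 : (p : F) ≠ 0 := by
    exact_mod_cast (Fact.out : p.Prime).ne_zero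
  have hx0 : v.valuation F (p : F) ≠ 0 := (Valuation.ne_zero_iff _).2 hp0
  have hx1 : v.valuation F (p : F) ≤ 1 := by
    have h := v.valuation_le_one (K := F) (p : 𝓞 F)
    have hc : algebraMap (𝓞 F) F (p : 𝓞 F) = (p : F) := map_natCast _ _
    rw [← hc]
    exact h
  have hlog : WithZero.log (v.valuation F (p : F)) ≤ 0 := by
    rw [← WithZero.exp_log hx0, ← WithZero.exp_zero, WithZero.exp_le_exp] at hx1
    exact hx1
  refine ⟨(-(WithZero.log (v.valuation F (p : F)))).toNat, ?_⟩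
  rw [Int.toNat_of_nonneg (by omega), neg_neg, WithZero.exp_log hx0]

noncomputable def h2la_idx_e (p : ℕ) [Fact p.Prime] (F : Type*) [Field F] [NumberField F]
    (v : HeightOneSpectrum (𝓞 F)) : ℕ := (h2la_idx_exists_e p F v).choose

theorem h2la_idx_e_spec (p : ℕ) [Fact p.Prime] (F : Type*) [Field F] [NumberField F]
    (v : HeightOneSpectrum (𝓞 F)) :
    v.valuation F (p : F) = WithZero.exp (-(h2la_idx_e p F v : ℤ)) :=
  (h2la_idx_exists_e p F v).choose_spec

theorem h2la_idx_int_spec (p : ℕ) [Fact p.Prime] (F : Type*) [Field F] [NumberField F]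
    (v : HeightOneSpectrum (𝓞 F)) :
    v.intValuation (p : 𝓞 F) = WithZero.exp (-(h2la_idx_e p F v : ℤ)) := by
  have hc : algebraMap (𝓞 F) F (p : 𝓞 F) = (p : F) := map_natCast _ _
  have h : v.valuation F (algebraMap (𝓞 F) F (p : 𝓞 F)) = v.intValuation (p : 𝓞 F) :=
    v.valuation_of_algebraMap (K := F) (p : 𝓞 F)
  rw [hc, h2la_idx_e_spec] at h
  exact h.symm

theorem h2la_idx_mem_pow (p : ℕ) [Fact p.Prime] (F : Type*) [Field F] [NumberField F]
    (v : HeightOneSpectrum (𝓞 F)) : (p : 𝓞 F) ∈ v.asIdeal ^ (h2la_idx_e p F v) := by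
  rw [← v.intValuation_le_pow_iff_mem, h2la_idx_int_spec]

theorem h2la_idx_dvd (p : ℕ) [Fact p.Prime] (F : Type*) [Field F] [NumberField F]
    (v : HeightOneSpectrum (𝓞 F)) :
    v.asIdeal ^ (h2la_idx_e p F v) ∣ Ideal.span {(p : 𝓞 F)} := by
  rw [← v.intValuation_le_pow_iff_dvd, h2la_idx_int_spec]

open Classical in
noncomputable def h2la_idx_c (p : ℕ) [Fact p.Prime] (F : Type*) [Field F] [NumberField F]
    (v : HeightOneSpectrum (𝓞 F)) : ℕ :=
  if (p : 𝓞 F) ∈ v.asIdeal then (Ideal.absNorm v.asIdeal) ^ (h2la_idx_e p F v) else 1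

theorem h2la_idx_local (p : ℕ) [Fact p.Prime] (hp : 3 ≤ p) (F : Type*) [Field F] [NumberField F]
    (ζ : F) (hζ : IsPrimitiveRoot ζ p)
    (v : HeightOneSpectrum (𝓞 F)) (n : ℕ) (hn1 : 1 ≤ n)
    (hnp : ∀ e : ℕ, (p : 𝓞 F) ∈ v.asIdeal ^ e → 3 * e + 1 ≤ n) :
    (h2Dv F p v n).index ≠ 0 ∧ (h2Dv F p v n).index ≤ p * p * h2la_idx_c p F v := by
  obtain ⟨h0, hle⟩ := h2_index_Dv_le p F v n hn1
  refine ⟨h0, hle.trans ?_⟩
  rw [mul_assoc]
  refine Nat.mul_le_mul_left p ?_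
  by_cases hmem : (p : 𝓞 F) ∈ v.asIdeal
  · have hc : h2la_idx_c p F v = (Ideal.absNorm v.asIdeal) ^ (h2la_idx_e p F v) := by
      simp [h2la_idx_c, hmem]
    rw [hc]
    have he := h2la_idx_e_spec p F v
    have he0 : 0 < h2la_idx_e p F v := by
      by_contra h
      have h' : h2la_idx_e p F v = 0 := by omega
      rw [h'] at he
      have h1 : v.valuation F (algebraMap (𝓞 F) F (p : 𝓞 F)) = 1 := by
        rw [map_natCast, he]; simp
      exact (v.valuation_eq_one_iff_notMem.1 h1) hmem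
    have h3 := hnp _ (h2la_idx_mem_pow p F v)
    exact h2_card_torsion_wild p hp F ζ hζ v _ he he0 n (by omega)
  · have hc : h2la_idx_c p F v = 1 := by simp [h2la_idx_c, hmem]
    rw [hc, mul_one]
    have h1 : v.valuation F (p : F) = 1 := by
      have := (v.valuation_eq_one_iff_notMem (K := F)).2 hmem
      rwa [map_natCast] at this
    exact h2_card_torsion_tame p F v h1 n hn1

theorem h2la_idx_prod (p : ℕ) [Fact p.Prime] (F : Type*) [Field F] [NumberField F]
    (n : HeightOneSpectrum (𝓞 F) → ℕ) (c : HeightOneSpectrum (𝓞 F) → ℕ)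
    (S : Finset (HeightOneSpectrum (𝓞 F)))
    (h : ∀ v ∈ S, (h2Dv F p v (n v)).index ≠ 0 ∧ (h2Dv F p v (n v)).index ≤ c v) :
    (h2D F p S n).index ≠ 0 ∧ (h2D F p S n).index ≤ ∏ v ∈ S, c v := by
  classical
  induction S using Finset.induction_on with
  | empty => simp [h2D]
  | insert a s ha ih =>
    have ih' := ih (fun v hv => h v (Finset.mem_insert_of_mem hv))
    have ha' := h a (Finset.mem_insert_self a s)
    have hD : h2D F p (insert a s) n = h2Dv F p a (n a) ⊓ h2D F p s n := by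
      simp only [h2D, Finset.iInf_insert]
    rw [hD, Finset.prod_insert ha]
    refine ⟨Subgroup.index_inf_ne_zero ha'.1 ih'.1, ?_⟩
    exact Subgroup.index_inf_le.trans (Nat.mul_le_mul ha'.2 ih'.2)

theorem h2la_idx_prod_c (p : ℕ) [Fact p.Prime] (F : Type*) [Field F] [NumberField F]
    (S : Finset (HeightOneSpectrum (𝓞 F))) :
    ∏ v ∈ S, h2la_idx_c p F v ≤ p ^ Module.finrank ℚ F := by
  classical
  have h1 : ∏ v ∈ S, h2la_idx_c p F v =
      ∏ v ∈ S.filter (fun v => (p : 𝓞 F) ∈ v.asIdeal),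
        (Ideal.absNorm v.asIdeal) ^ (h2la_idx_e p F v) := by
    rw [Finset.prod_filter]
    refine Finset.prod_congr rfl (fun v _ => ?_)
    simp only [h2la_idx_c]
  rw [h1]
  have h2 : ∏ v ∈ S.filter (fun v => (p : 𝓞 F) ∈ v.asIdeal),
        (Ideal.absNorm v.asIdeal) ^ (h2la_idx_e p F v) =
      Ideal.absNorm (∏ v ∈ S.filter (fun v => (p : 𝓞 F) ∈ v.asIdeal),
        v.asIdeal ^ (h2la_idx_e p F v)) := by
    rw [map_prod]
    refine Finset.prod_congr rfl (fun v _ => ?_)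
    rw [map_pow]
  rw [h2]
  have hdvd : (∏ v ∈ S.filter (fun v => (p : 𝓞 F) ∈ v.asIdeal),
        v.asIdeal ^ (h2la_idx_e p F v)) ∣ Ideal.span {(p : 𝓞 F)} := by
    refine Finset.prod_dvd_of_coprime ?_ (fun v _ => h2la_idx_dvd p F v)
    intro v _ w _ hvw
    have hne : v.asIdeal ≠ w.asIdeal := fun h => hvw (HeightOneSpectrum.ext h)
    have : IsCoprime v.asIdeal w.asIdeal := by
      have := v.isMaximal
      have := w.isMaximal
      exact Ideal.isCoprime_of_isMaximal hne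
    exact this.pow
  have hle := Ideal.le_of_dvd hdvd
  have hd := Ideal.absNorm_dvd_absNorm_of_le hle
  rw [Ideal.absNorm_span_natCast, RingOfIntegers.rank] at hd
  exact Nat.le_of_dvd (pow_pos (Fact.out : p.Prime).pos _) hd

theorem h2_index_D (p : ℕ) [Fact p.Prime] (hp : 3 ≤ p) (F : Type*) [Field F] [NumberField F]
    (ζ : F) (hζ : IsPrimitiveRoot ζ p)
    (S : Finset (HeightOneSpectrum (𝓞 F))) (n : HeightOneSpectrum (𝓞 F) → ℕ)
    (hSp : ∀ v : HeightOneSpectrum (𝓞 F), (p : 𝓞 F) ∈ v.asIdeal → v ∈ S)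
    (hn1 : ∀ v ∈ S, 1 ≤ n v)
    (hnp : ∀ v ∈ S, ∀ e : ℕ, (p : 𝓞 F) ∈ v.asIdeal ^ e → 3 * e + 1 ≤ n v) :
    (h2D F p S n).index ≠ 0 ∧ (h2D F p S n).index ≤ p ^ (2 * S.card + Module.finrank ℚ F) := by
  have _ := hSp
  obtain ⟨h0, hle⟩ := h2la_idx_prod p F n (fun v => p * p * h2la_idx_c p F v) S
    (fun v hv => h2la_idx_local p hp F ζ hζ v (n v) (hn1 v hv) (hnp v hv))
  refine ⟨h0, hle.trans ?_⟩
  rw [Finset.prod_mul_distrib, Finset.prod_const, pow_add, pow_mul, pow_two]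
  exact Nat.mul_le_mul_left _ (h2la_idx_prod_c p F S)

end Fermat.Agent.S14
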