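import Mathlib
import Fermat.Agent.S14.Defs
import Fermat.Agent.S14.H2Count
import Fermat.Agent.S14.H2Local
import Fermat.Agent.S14.FirstIneq

/-!
# P18 (S14), block H2: the second inequality (ray class form)

`second_inequality` = `h2_second_inequality_core` (Tate's Kummer counting, `H2Count.lean`) applied
to the first inequality `first_inequality` (`FirstIneq.lean`) and to the local index bound
`h2_index_D` (`H2Local.lean`).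
-/

set_option autoImplicit false

namespace Fermat.Agent.S14

open NumberField
open scoped Pointwise

/-- (H2) second inequality (ray class form). -/
theorem second_inequality (p : ℕ) [Fact p.Prime] (hp : 3 ≤ p)
    (F M : Type*) [Field F] [NumberField F] [Field M] [NumberField M] [Algebra F M] [IsGalois F M]
    (hdeg : Module.finrank F M = p) (ζ : F) (hζ : IsPrimitiveRoot ζ p)
    (hunr : UnramifiedEverywhere F M)
    (𝔣₀ 𝔠 : Ideal (𝓞 F)) (h𝔣₀ : 𝔣₀ ≠ ⊥) (h𝔠 : 𝔠 ≠ ⊥)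
    (hcop : IsCoprime 𝔠 (𝔣₀ * Ideal.span {(p : 𝓞 F)})) :
    ∃ 𝔣 : Ideal (𝓞 F), 𝔣 ≠ ⊥ ∧ 𝔣 ≤ 𝔣₀ ∧ IsCoprime 𝔠 𝔣 ∧
      ∀ 𝔞 𝔟 : Ideal (𝓞 F), 𝔞 ≠ ⊥ → 𝔟 ≠ ⊥ → IsCoprime 𝔞 𝔣 → IsCoprime 𝔟 𝔣 →
        ¬ RayNormRel F M 𝔣 𝔟 ⊤ → ∃ j : ℕ, RayNormRel F M 𝔣 (𝔞 * 𝔟 ^ j) ⊤ :=
  h2_second_inequality_core p hp F M hdeg ζ hζ hunr
    (fun F' _ _ _ _ hdeg' 𝔪 h0 hrad hcop' hunr' =>
      first_inequality p hp F F' hdeg' ζ hζ 𝔪 h0 hrad hcop' hunr')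
    (fun S n hSp hn1 hnp => h2_index_D p hp F ζ hζ S n hSp hn1 hnp)
    𝔣₀ 𝔠 h𝔣₀ h𝔠 hcop

end Fermat.Agent.S14
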