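import Mathlib
import Fermat.Agent.S14.Defs
import Fermat.Agent.S14.SecondIneq
import Fermat.Agent.S14.KernelCore

/-!
# P18 (S14), block K: the kernel lemma

`kernel_lemma`: let `F ⊆ M ⊆ E = F(ξ)` be number fields, `ξ` a primitive `m`-th root of unity,
`M/F` Galois of prime degree `p ≥ 3`, unramified everywhere, `ζ_p ∈ F`.  If `𝔞`, `𝔟` are ideals
of `𝓞 F` prime to `m p` such that an element of `Gal(E/F)` acting on `ξ` by `ξ ↦ ξ ^ N𝔟` moves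
`M`, and an element acting by `ξ ↦ ξ ^ N𝔞` fixes `M`, then `𝔞` is a principal ideal times a norm
from `M`.

This is `kernel_lemma_of` (`KernelCore.lean`) applied to the second inequality
(`SecondIneq.lean`) for the modulus `(m)` and the ideal `𝔞 𝔟`.
-/

set_option autoImplicit false

namespace Fermat.Agent.S14

open NumberField

/-- (KL') kernel lemma. -/
theorem kernel_lemma (p : ℕ) [Fact p.Prime] (hp : 3 ≤ p)
    (F M E : Type*) [Field F] [NumberField F] [Field M] [NumberField M] [Field E] [NumberField E]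
    [Algebra F M] [Algebra M E] [Algebra F E] [IsScalarTower F M E] [IsGalois F M] [IsGalois F E]
    (hdeg : Module.finrank F M = p) (ζ : F) (hζ : IsPrimitiveRoot ζ p)
    (hunr : UnramifiedEverywhere F M)
    (m : ℕ) (hm : 0 < m) (ξ : E) (hξ : IsPrimitiveRoot ξ m)
    (hgen : IntermediateField.adjoin F {ξ} = ⊤)
    (𝔞 𝔟 : Ideal (𝓞 F)) (h𝔞 : 𝔞 ≠ ⊥) (h𝔟 : 𝔟 ≠ ⊥)
    (hcop𝔞 : IsCoprime 𝔞 (Ideal.span {((m * p : ℕ) : 𝓞 F)}))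
    (hcop𝔟 : IsCoprime 𝔟 (Ideal.span {((m * p : ℕ) : 𝓞 F)}))
    (h1 : ∃ h : E ≃ₐ[F] E, h ξ = ξ ^ Ideal.absNorm 𝔟 ∧
      ∃ x : M, h (algebraMap M E x) ≠ algebraMap M E x)
    (h2 : ∃ h : E ≃ₐ[F] E, h ξ = ξ ^ Ideal.absNorm 𝔞 ∧
      ∀ x : M, h (algebraMap M E x) = algebraMap M E x) :
    RayNormRel F M ⊤ 𝔞 ⊤ := by
  have hmp : Ideal.span {((m * p : ℕ) : 𝓞 F)} =
      Ideal.span {((m : ℕ) : 𝓞 F)} * Ideal.span {(p : 𝓞 F)} := by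
    rw [Ideal.span_singleton_mul_span_singleton, Nat.cast_mul]
  have h𝔣₀ : Ideal.span {((m : ℕ) : 𝓞 F)} ≠ ⊥ := by
    rw [Ne, Ideal.span_singleton_eq_bot]
    exact Nat.cast_ne_zero.mpr hm.ne'
  have hcop : IsCoprime (𝔞 * 𝔟) (Ideal.span {((m : ℕ) : 𝓞 F)} * Ideal.span {(p : 𝓞 F)}) := by
    rw [← hmp]
    exact IsCoprime.mul_left hcop𝔞 hcop𝔟
  obtain ⟨𝔣, h𝔣0, h𝔣le, h𝔣cop, hall⟩ := second_inequality p hp F M hdeg ζ hζ hunr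
    (Ideal.span {((m : ℕ) : 𝓞 F)}) (𝔞 * 𝔟) h𝔣₀ (mul_ne_zero h𝔞 h𝔟) hcop
  exact kernel_lemma_of p hp hdeg m hm ξ hξ hgen 𝔞 𝔟 h𝔞 h𝔟 h1 h2 ⟨𝔣, h𝔣0, h𝔣le, h𝔣cop, hall⟩

end Fermat.Agent.S14
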