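import Mathlib
import Fermat.Agent.S14.Defs
import Fermat.Agent.S14.CFixedDefs
import Fermat.Agent.S14.CKernelAt
import Fermat.Agent.S14.CCross
import Fermat.Agent.S14.Kernel

/-!
# P18 (S14), block C: the crossing theorem

`crossing`: for `K = ℚ(ζ_p)`, `L/K` Galois of degree `p`, unramified everywhere, with `L/ℚ` Galois
and non-abelian; if `𝔮`, `𝔮'` are degree one primes of `K` above the same prime `q ≠ p` whose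
Frobenius elements in `Gal(L/K)` are `g ≠ 1` and `g ^ t`, then `𝔮'` and `𝔮 ^ t` have the same class
modulo norms from `L` and principal ideals.

This is `ct_crossing_of_kernel` (file `CCross`) with its kernel-lemma hypothesis discharged by
`kernel_lemma` (file `Kernel`).
-/

set_option autoImplicit false

namespace Fermat.Agent.S14

open NumberField

/-- The kernel lemma, for the towers `F = Ω^H ⊆ M = L·F ⊆ Ω`. -/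
theorem ct_kernelAt (p : ℕ) [Fact p.Prime] (hp : 3 ≤ p) (K L Ω : Type*) [Field K] [NumberField K]
    [Field L] [NumberField L] [Field Ω] [NumberField Ω] [Algebra K L] [Algebra L Ω] [Algebra K Ω]
    [IsScalarTower K L Ω] [IsGalois K L] [IsGalois K Ω] : ct_KernelAt p K L Ω := by
  intro H hG hdeg ζ hζ hunr m hm ξ hξ hgen 𝔞 𝔟 h𝔞 h𝔟 hc𝔞 hc𝔟 h1 h2
  exact kernel_lemma p hp ↥(ctF K Ω H) ↥(ctM K L Ω H) Ω hdeg ζ hζ hunr m hm ξ hξ hgen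
    𝔞 𝔟 h𝔞 h𝔟 hc𝔞 hc𝔟 h1 h2

/-- (CT) crossing theorem. -/
theorem crossing (p : ℕ) [Fact p.Prime] (hp : 3 ≤ p)
    (K L : Type*) [Field K] [NumberField K] [Field L] [NumberField L] [Algebra K L]
    [IsGalois K L] [IsCyclotomicExtension {p} ℚ K] [IsGalois ℚ L]
    (hdeg : Module.finrank K L = p)
    (hunr : UnramifiedEverywhere K L)
    (hnab : ∃ σ τ : L ≃ₐ[ℚ] L, σ * τ ≠ τ * σ)
    (q : ℕ) (hq : q.Prime) (hqp : q ≠ p)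
    (𝔮 𝔮' : Ideal (𝓞 K)) (h𝔮 : Ideal.absNorm 𝔮 = q) (h𝔮' : Ideal.absNorm 𝔮' = q)
    (𝔔 𝔔' : Ideal (𝓞 L)) (h𝔔 : 𝔔.IsPrime) (h𝔔' : 𝔔'.IsPrime)
    (h𝔔𝔮 : Ideal.under (𝓞 K) 𝔔 = 𝔮) (h𝔔𝔮' : Ideal.under (𝓞 K) 𝔔' = 𝔮')
    (g : L ≃ₐ[K] L) (hg : g ≠ 1) (t : ℕ)
    (hF : ∀ x : 𝓞 L, g • x - x ^ q ∈ 𝔔)
    (hF' : ∀ x : 𝓞 L, (g ^ t) • x - x ^ q ∈ 𝔔') :
    RayNormRel K L ⊤ 𝔮' (𝔮 ^ t) :=
  ct_crossing_of_kernel p hp K L (fun Ω _ _ _ _ _ _ => ct_kernelAt p hp K L Ω) hdeg hunr hnab q hq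
    hqp 𝔮 𝔮' h𝔮 h𝔮' 𝔔 𝔔' h𝔔 h𝔔' h𝔔𝔮 h𝔔𝔮' g hg t hF hF'

end Fermat.Agent.S14
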