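import Mathlib
import Fermat.Agent.S14.Defs

/-!
# P18 (S14), block E: conjugate primes

Galois conjugates of ideals of rings of integers: restriction to a normal subfield,
invariance of the absolute norm, primality, and the restriction of automorphisms.
-/

set_option autoImplicit false

namespace Fermat.Agent.S14

open NumberField
open scoped Pointwise

/-- The Galois action on the ring of integers is the restriction of the action on the field. -/
private theorem eg_EndConj_coe_smul (L : Type*) [Field L] [NumberField L] (τ : L ≃ₐ[ℚ] L)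
    (x : 𝓞 L) : ((τ • x : 𝓞 L) : L) = τ (x : L) := rfl

/-- E-L9e: restriction to `K` and the action on `ζ`. -/
theorem eg_restrict_apply (K L : Type*) [Field K] [NumberField K] [Field L] [NumberField L]
    [Algebra K L] [IsGalois ℚ K] (τ : L ≃ₐ[ℚ] L) (x : K) :
    algebraMap K L (AlgEquiv.restrictNormalHom K τ x) = τ (algebraMap K L x) :=
  AlgEquiv.restrictNormal_commutes τ K x

/-- The restriction of the Galois action to the ring of integers of a normal subfield. -/
private theorem eg_EndConj_algebraMap_smul (K L : Type*) [Field K] [NumberField K] [Field L]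
    [NumberField L] [Algebra K L] [IsGalois ℚ K] (τ : L ≃ₐ[ℚ] L) (x : 𝓞 K) :
    algebraMap (𝓞 K) (𝓞 L) (AlgEquiv.restrictNormalHom K τ • x)
      = τ • algebraMap (𝓞 K) (𝓞 L) x := by
  apply RingOfIntegers.ext
  rw [eg_EndConj_coe_smul]
  change algebraMap K L ((AlgEquiv.restrictNormalHom K τ • x : 𝓞 K) : K)
    = τ (algebraMap K L (x : K))
  rw [eg_EndConj_coe_smul, eg_restrict_apply]

/-- E-L9a: conjugate primes and restriction to `K`. -/
theorem eg_under_smul (K L : Type*) [Field K] [NumberField K] [Field L] [NumberField L]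
    [Algebra K L] [IsGalois ℚ K] (τ : L ≃ₐ[ℚ] L) (𝔔 : Ideal (𝓞 L)) :
    Ideal.under (𝓞 K) (τ • 𝔔) = (AlgEquiv.restrictNormalHom K τ) • Ideal.under (𝓞 K) 𝔔 := by
  ext x
  rw [Ideal.mem_comap, Ideal.mem_pointwise_smul_iff_inv_smul_mem,
    Ideal.mem_pointwise_smul_iff_inv_smul_mem, Ideal.mem_comap, ← map_inv,
    eg_EndConj_algebraMap_smul]

/-- E-L9b: the absolute norm is Galois invariant. -/
theorem eg_absNorm_smul (K : Type*) [Field K] [NumberField K] (σ : K ≃ₐ[ℚ] K)
    (𝔮 : Ideal (𝓞 K)) : Ideal.absNorm (σ • 𝔮) = Ideal.absNorm 𝔮 := by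
  rw [Ideal.absNorm_apply, Ideal.absNorm_apply, Submodule.cardQuot_apply,
    Submodule.cardQuot_apply]
  exact (Nat.card_congr (Ideal.quotientEquiv 𝔮 (σ • 𝔮)
    (MulSemiringAction.toRingAut (K ≃ₐ[ℚ] K) (𝓞 K) σ) rfl).toEquiv).symm

/-- E-L9d: conjugates of primes are prime. -/
theorem eg_isPrime_smul (L : Type*) [Field L] [NumberField L] (τ : L ≃ₐ[ℚ] L)
    (𝔔 : Ideal (𝓞 L)) (h𝔔 : 𝔔.IsPrime) : (τ • 𝔔).IsPrime :=
  h𝔔.smul τ

end Fermat.Agent.S14
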