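import Mathlib
import Fermat.Agent.S14.Defs

/-!
# P18 (S14), block E: cyclotomic lemmas

* `eg_rel_of_p_mem` : the prime above `p` of a `p`-th cyclotomic field is principal, hence
  trivial in every ray-norm class group.
* `eg_exists_aut_pow` : automorphisms of a Galois extension `L/ℚ` containing a primitive `p`-th
  root of unity `ζ` with prescribed action `ζ ↦ ζ ^ t` (`p ∤ t`).
* `eg_exists_algEquiv_of_fix` : an automorphism of `L/ℚ` fixing `ζ` is `ℚ(ζ)`-linear.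
-/

set_option autoImplicit false

namespace Fermat.Agent.S14

open NumberField
open scoped Pointwise

theorem eg_EndCyc_isCoprime_top {R : Type*} [CommRing R] (I : Ideal R) : IsCoprime I ⊤ := by
  rw [← Ideal.one_eq_top]; exact isCoprime_one_right

/-- A nonzero principal ideal is trivial in the ray-norm relation with trivial modulus. -/
theorem eg_EndCyc_rel_principal (F M : Type*) [Field F] [NumberField F] [Field M] [NumberField M]
    [Algebra F M] {x : 𝓞 F} (hx : x ≠ 0) : RayNormRel F M ⊤ (Ideal.span {x}) ⊤ := by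
  unfold RayNormRel
  have h1 : (⊤ : Ideal (𝓞 M)) ≠ ⊥ := top_ne_bot
  have h2 : IsCoprime (Ideal.relNorm (𝓞 F) (⊤ : Ideal (𝓞 M))) (⊤ : Ideal (𝓞 F)) :=
    eg_EndCyc_isCoprime_top _
  have h3 : Ideal.span {(1 : 𝓞 F)} * Ideal.span {x} * Ideal.relNorm (𝓞 F) (⊤ : Ideal (𝓞 M)) =
      Ideal.span {x} * ⊤ * Ideal.relNorm (𝓞 F) (⊤ : Ideal (𝓞 M)) := by
    rw [Ideal.span_singleton_one, Ideal.relNorm_top, Ideal.top_mul, Ideal.mul_top, Ideal.mul_top]
  exact ⟨1, x, ⊤, ⊤, one_ne_zero, hx, Submodule.mem_top, eg_EndCyc_isCoprime_top _,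
    eg_EndCyc_isCoprime_top _, h1, h1, h2, h2, h3⟩

/-- E-L1: the prime above `p` of a `p`-th cyclotomic field is principal. -/
theorem eg_rel_of_p_mem (p : ℕ) [Fact p.Prime] (K M : Type*) [Field K] [NumberField K] [Field M]
    [NumberField M] [Algebra K M] [IsCyclotomicExtension {p} ℚ K] (𝔮 : Ideal (𝓞 K))
    (h𝔮 : 𝔮.IsPrime) (hp : (p : 𝓞 K) ∈ 𝔮) : RayNormRel K M ⊤ 𝔮 ⊤ := by
  have hpp : p.Prime := Fact.out
  have hζ : IsPrimitiveRoot (IsCyclotomicExtension.zeta p ℚ K) p :=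
    IsCyclotomicExtension.zeta_spec p ℚ K
  have hmax : (Ideal.span {(p : ℤ)}).IsMaximal :=
    PrincipalIdealRing.isMaximal_of_irreducible (Nat.prime_iff_prime_int.1 hpp).irreducible
  have hle : Ideal.span {(p : ℤ)} ≤ Ideal.under ℤ 𝔮 := by
    rw [Ideal.span_singleton_le_iff_mem, Ideal.mem_comap]
    simpa using hp
  have hne : Ideal.under ℤ 𝔮 ≠ ⊤ := (Ideal.IsPrime.under ℤ 𝔮).ne_top
  have hover : 𝔮.LiesOver (Ideal.span {(p : ℤ)}) := ⟨hmax.eq_of_le hne hle⟩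
  have h1 := IsCyclotomicExtension.Rat.eq_span_zeta_sub_one_of_liesOver' p K hζ 𝔮
  rw [h1]
  exact eg_EndCyc_rel_principal K M hζ.zeta_sub_one_prime'.ne_zero

/-- E-L8: automorphisms of `L/ℚ` with prescribed action on `ζ`. -/
theorem eg_exists_aut_pow (p : ℕ) [Fact p.Prime] (L : Type*) [Field L] [NumberField L]
    [IsGalois ℚ L] (ζ : L) (hζ : IsPrimitiveRoot ζ p) (t : ℕ) (ht : ¬ p ∣ t) :
    ∃ τ : L ≃ₐ[ℚ] L, τ ζ = ζ ^ t := by
  have hpp : p.Prime := Fact.out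
  have hcop : Nat.Coprime t p := ((Nat.Prime.coprime_iff_not_dvd hpp).2 ht).symm
  have hζt : IsPrimitiveRoot (ζ ^ t) p := hζ.pow_of_coprime t hcop
  have h1 : minpoly ℚ ζ = Polynomial.cyclotomic p ℚ :=
    (Polynomial.cyclotomic_eq_minpoly_rat hζ hpp.pos).symm
  have halg : IsAlgebraic ℚ ζ := Algebra.IsAlgebraic.isAlgebraic ζ
  have hroot : Polynomial.aeval (ζ ^ t) (minpoly ℚ ζ) = 0 := by
    rw [h1, Polynomial.cyclotomic_eq_minpoly_rat hζt hpp.pos]
    exact minpoly.aeval ℚ (ζ ^ t)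
  exact minpoly.exists_algEquiv_of_root' halg hroot

/-- E-L11: an automorphism of `L/ℚ` fixing `ζ` is `K`-linear (`K = ℚ(ζ)`). -/
theorem eg_exists_algEquiv_of_fix (p : ℕ) [Fact p.Prime] (K L : Type*) [Field K] [NumberField K]
    [Field L] [NumberField L] [Algebra K L] [IsCyclotomicExtension {p} ℚ K]
    (ζ : K) (hζ : IsPrimitiveRoot ζ p) (φ : L ≃ₐ[ℚ] L)
    (hφ : φ (algebraMap K L ζ) = algebraMap K L ζ) :
    ∃ g : L ≃ₐ[K] L, ∀ x : L, g x = φ x := by
  have hpp : p.Prime := Fact.out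
  have : NeZero p := ⟨hpp.ne_zero⟩
  have htop : Algebra.adjoin ℚ ({ζ} : Set K) = ⊤ :=
    IsCyclotomicExtension.adjoin_primitive_root_eq_top hζ
  let f₁ : K →ₐ[ℚ] L := IsScalarTower.toAlgHom ℚ K L
  let f₂ : K →ₐ[ℚ] L := (φ : L →ₐ[ℚ] L).comp f₁
  have hf : f₂ = f₁ := by
    refine AlgHom.ext_of_adjoin_eq_top htop ?_
    intro x hx
    rw [Set.mem_singleton_iff] at hx
    subst hx
    exact hφ
  have hfix : ∀ x : K, φ (algebraMap K L x) = algebraMap K L x := fun x =>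
    DFunLike.congr_fun hf x
  exact ⟨AlgEquiv.ofRingEquiv (f := (φ : L ≃+* L)) hfix, fun x => rfl⟩

end Fermat.Agent.S14
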