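import Mathlib
import Fermat.Agent.S14.Defs

/-!
# P18 (S14), endgame lemmas: Frobenius elements over `ℚ`

* `eg_exists_frob` : existence of Frobenius elements at a nonzero prime of a Galois number field;
* `eg_frob_apply_root` : a Frobenius raises roots of unity of order prime to the residue
  characteristic to the power `q`;
* `eg_frob_pow` : iterating a Frobenius;
* `eg_frob_conj` : conjugating a Frobenius.
-/

set_option autoImplicit false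

namespace Fermat.Agent.S14

open NumberField
open scoped Pointwise

/-- E-L2: Frobenius elements over `ℚ`. -/
theorem eg_exists_frob (L : Type*) [Field L] [NumberField L] [IsGalois ℚ L] (𝔔 : Ideal (𝓞 L))
    (h𝔔 : 𝔔.IsPrime) (h0 : 𝔔 ≠ ⊥) :
    ∃ q : ℕ, q.Prime ∧ (q : 𝓞 L) ∈ 𝔔 ∧ ∃ φ : L ≃ₐ[ℚ] L, ∀ x : 𝓞 L, φ • x - x ^ q ∈ 𝔔 := by
  have : NeZero 𝔔 := ⟨h0⟩
  have : Finite (𝓞 L ⧸ 𝔔) := Ideal.finiteQuotientOfFreeOfNeBot 𝔔 h0
  obtain ⟨σ, hσ⟩ := IsArithFrobAt.exists_of_isInvariant ℤ (L ≃ₐ[ℚ] L) 𝔔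
  refine ⟨Ideal.absNorm (Ideal.under ℤ 𝔔), Nat.absNorm_under_prime 𝔔, Int.absNorm_under_mem 𝔔,
    σ, fun x => ?_⟩
  have h := hσ x
  rw [Ideal.absNorm_apply, Submodule.cardQuot_apply]
  exact h

/-- The residue characteristic is the cardinality of the residue field of `ℤ`. -/
private theorem eg_EndFrob_card (L : Type*) [Field L] [NumberField L] (𝔔 : Ideal (𝓞 L))
    (h𝔔 : 𝔔.IsPrime) (q : ℕ) (hq : q.Prime) (hq𝔔 : (q : 𝓞 L) ∈ 𝔔) :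
    Nat.card (ℤ ⧸ Ideal.under ℤ 𝔔) = q := by
  have h1 : (Ideal.absNorm (Ideal.under ℤ 𝔔) : ℤ) ∣ (q : ℤ) := by
    rw [← Int.cast_mem_ideal_iff (I := 𝔔)]
    simpa using hq𝔔
  have h2 : Ideal.absNorm (Ideal.under ℤ 𝔔) ∣ q := Int.natCast_dvd_natCast.mp h1
  have h3 : Ideal.absNorm (Ideal.under ℤ 𝔔) ≠ 1 := by
    intro h
    have h4 := Int.absNorm_under_mem 𝔔
    rw [h, Nat.cast_one] at h4
    exact h𝔔.ne_top ((Ideal.eq_top_iff_one _).mpr h4)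
  have h5 := (Nat.dvd_prime hq).mp h2
  rw [← Submodule.cardQuot_apply, ← Ideal.absNorm_apply]
  exact h5.resolve_left h3

/-- E-L3: a Frobenius acts on roots of unity of order prime to the residue characteristic by
the `q`-th power. -/
theorem eg_frob_apply_root (L : Type*) [Field L] [NumberField L] (𝔔 : Ideal (𝓞 L))
    (h𝔔 : 𝔔.IsPrime) (q : ℕ) (hq : q.Prime) (hq𝔔 : (q : 𝓞 L) ∈ 𝔔) (φ : L ≃ₐ[ℚ] L)
    (hφ : ∀ x : 𝓞 L, φ • x - x ^ q ∈ 𝔔) (n : ℕ) (hn : (n : 𝓞 L) ∉ 𝔔) (ζ : L) (hζ : ζ ^ n = 1) :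
    φ ζ = ζ ^ q := by
  have hn0 : n ≠ 0 := by
    rintro rfl
    exact hn (by simp)
  have hint : IsIntegral ℤ ζ :=
    IsIntegral.of_pow (Nat.pos_of_ne_zero hn0) (by rw [hζ]; exact isIntegral_one)
  obtain ⟨z, hz⟩ : ∃ z : 𝓞 L, algebraMap (𝓞 L) L z = ζ := ⟨⟨ζ, hint⟩, rfl⟩
  have hzn : z ^ n = 1 := by
    apply RingOfIntegers.ext
    show algebraMap (𝓞 L) L (z ^ n) = algebraMap (𝓞 L) L 1
    rw [map_pow, hz, hζ, map_one]
  have hcard := eg_EndFrob_card L 𝔔 h𝔔 q hq hq𝔔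
  have hfrob : (MulSemiringAction.toAlgHom ℤ (𝓞 L) φ).IsArithFrobAt 𝔔 := by
    intro x
    rw [hcard]
    exact hφ x
  have h := hfrob.apply_of_pow_eq_one hzn hn
  rw [hcard] at h
  have h' : algebraMap (𝓞 L) L (φ • z) = algebraMap (𝓞 L) L (z ^ q) :=
    congrArg (algebraMap (𝓞 L) L) h
  rw [algebraMap.smul', map_pow, hz] at h'
  exact h'

/-- E-L12: iterating a Frobenius. -/
theorem eg_frob_pow (L : Type*) [Field L] [NumberField L] (𝔔 : Ideal (𝓞 L))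
    (h𝔔 : 𝔔.IsPrime) (q : ℕ) (φ : L ≃ₐ[ℚ] L)
    (hφ : ∀ x : 𝓞 L, φ • x - x ^ q ∈ 𝔔) (i : ℕ) (x : 𝓞 L) : (φ ^ i) • x - x ^ (q ^ i) ∈ 𝔔 := by
  have _ := h𝔔
  induction i generalizing x with
  | zero => simp
  | succ i ih =>
    have h1 : (φ ^ (i + 1)) • x - x ^ (q ^ (i + 1)) =
        ((φ ^ i) • (φ • x) - (φ • x) ^ (q ^ i)) + ((φ • x) ^ (q ^ i) - (x ^ q) ^ (q ^ i)) := by
      rw [pow_succ, mul_smul, pow_succ', pow_mul]
      ring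
    rw [h1]
    refine 𝔔.add_mem (ih (φ • x)) ?_
    exact 𝔔.mem_of_dvd (sub_dvd_pow_sub_pow _ _ _) (hφ x)

/-- E-L9c: conjugating a Frobenius. -/
theorem eg_frob_conj (L : Type*) [Field L] [NumberField L] (𝔔 : Ideal (𝓞 L))
    (q : ℕ) (φ τ : L ≃ₐ[ℚ] L)
    (hφ : ∀ x : 𝓞 L, φ • x - x ^ q ∈ 𝔔) (x : 𝓞 L) :
    (τ * φ * τ⁻¹) • x - x ^ q ∈ τ • 𝔔 := by
  have h1 : (τ * φ * τ⁻¹) • x - x ^ q = τ • (φ • (τ⁻¹ • x) - (τ⁻¹ • x) ^ q) := by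
    rw [smul_sub, smul_pow', smul_inv_smul, mul_smul, mul_smul]
  rw [h1]
  exact Ideal.smul_mem_pointwise_smul τ _ 𝔔 (hφ (τ⁻¹ • x))

end Fermat.Agent.S14
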