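import Mathlib
import Fermat.Agent.S14.Defs

/-!
# P18 (S14), block E: group-theoretic endgame lemmas (file `S14/EndGroup.lean`)

`L/ℚ` is a Galois number field of degree `p (p - 1)` containing a primitive `p`-th root of unity
`ζ`.

* `eg_pow_eq_one_of_fix` : the automorphisms fixing `ζ` form a group of order `p`.
* `eg_pow_pred_eq_one` : Frobenius-group property (under the twist hypothesis).
* `eg_not_comm` : the Galois group is not abelian.
* `eg_sum_coprime` : `∑_{p/2 < t < p} t` is prime to `p`.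
-/

set_option autoImplicit false

namespace Fermat.Agent.S14

open NumberField
open scoped Pointwise

/-- The degree of `ℚ(ζ)` over `ℚ`. -/
theorem eg_EndGroup_finrank_adjoin (p : ℕ) [Fact p.Prime] (L : Type*) [Field L]
    [NumberField L] (ζ : L) (hζ : IsPrimitiveRoot ζ p) :
    Module.finrank ℚ (IntermediateField.adjoin ℚ {ζ}) = p - 1 := by
  have hp : p.Prime := Fact.out
  have hint : IsIntegral ℚ ζ := Algebra.IsIntegral.isIntegral ζ
  rw [IntermediateField.adjoin.finrank hint, ← Polynomial.cyclotomic_eq_minpoly_rat hζ hp.pos,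
    Polynomial.natDegree_cyclotomic, Nat.totient_prime hp]

/-- The group of automorphisms fixing `ℚ(ζ)` has order `p`. -/
theorem eg_EndGroup_card_fixing (p : ℕ) [Fact p.Prime] (L : Type*) [Field L]
    [NumberField L] [IsGalois ℚ L] (ζ : L) (hζ : IsPrimitiveRoot ζ p)
    (hdeg : Module.finrank ℚ L = p * (p - 1)) :
    Nat.card (IntermediateField.adjoin ℚ {ζ}).fixingSubgroup = p := by
  have hp : p.Prime := Fact.out
  rw [IsGalois.card_fixingSubgroup_eq_finrank]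
  have h1 := Module.finrank_mul_finrank ℚ (IntermediateField.adjoin ℚ {ζ}) L
  rw [eg_EndGroup_finrank_adjoin p L ζ hζ, hdeg, mul_comm p] at h1
  have hpos : 0 < p - 1 := Nat.sub_pos_of_lt hp.one_lt
  exact Nat.eq_of_mul_eq_mul_left hpos h1

/-- An automorphism fixing `ζ` fixes `ℚ(ζ)`. -/
theorem eg_EndGroup_mem_fixing (L : Type*) [Field L] [NumberField L] (ζ : L)
    (g : L ≃ₐ[ℚ] L) (hg : g ζ = ζ) : g ∈ (IntermediateField.adjoin ℚ {ζ}).fixingSubgroup := by
  have h1 : IntermediateField.adjoin ℚ {ζ} ≤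
      IntermediateField.fixedField (MulAction.stabilizer (L ≃ₐ[ℚ] L) ζ) := by
    rw [IntermediateField.adjoin_simple_le_iff, IntermediateField.mem_fixedField_iff]
    intro f hf
    exact MulAction.mem_stabilizer_iff.mp hf
  exact (IntermediateField.le_iff_le _ _).mp h1 (MulAction.mem_stabilizer_iff.mpr hg)

/-- An automorphism fixing `ℚ(ζ)` fixes `ζ`. -/
theorem eg_EndGroup_apply_of_mem_fixing (L : Type*) [Field L] [NumberField L] (ζ : L)
    (g : L ≃ₐ[ℚ] L) (hg : g ∈ (IntermediateField.adjoin ℚ {ζ}).fixingSubgroup) : g ζ = ζ :=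
  hg ⟨ζ, IntermediateField.mem_adjoin_simple_self ℚ ζ⟩

/-- E-L4b: the automorphisms of `L/ℚ` fixing `ζ` form a group of order `p`. -/
theorem eg_pow_eq_one_of_fix (p : ℕ) [Fact p.Prime] (L : Type*) [Field L] [NumberField L]
    [IsGalois ℚ L] (ζ : L) (hζ : IsPrimitiveRoot ζ p) (hdeg : Module.finrank ℚ L = p * (p - 1))
    (g : L ≃ₐ[ℚ] L) (hg : g ζ = ζ) : g ^ p = 1 := by
  have hmem := eg_EndGroup_mem_fixing L ζ g hg
  have h1 := pow_card_eq_one' (G := (IntermediateField.adjoin ℚ {ζ}).fixingSubgroup)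
    (x := ⟨g, hmem⟩)
  rw [eg_EndGroup_card_fixing p L ζ hζ hdeg] at h1
  exact congrArg Subtype.val h1

/-- E-L4: Frobenius-group property. -/
theorem eg_pow_pred_eq_one (p : ℕ) [Fact p.Prime] (L : Type*) [Field L] [NumberField L]
    [IsGalois ℚ L] (ζ : L) (hζ : IsPrimitiveRoot ζ p) (hdeg : Module.finrank ℚ L = p * (p - 1))
    (htw : ∀ (τ g : L ≃ₐ[ℚ] L) (n : ℕ), g ζ = ζ → τ ζ = ζ ^ n → τ * g ^ n = g * τ)
    (τ : L ≃ₐ[ℚ] L) (n : ℕ) (hτ : τ ζ = ζ ^ n) (hn : ¬ n ≡ 1 [MOD p]) : τ ^ (p - 1) = 1 := by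
  have hp : p.Prime := Fact.out
  have hτprim : IsPrimitiveRoot (τ ζ) p := hζ.map_of_injective τ.injective
  have hpn : ¬ p ∣ n := by
    rintro ⟨m, rfl⟩
    rw [hτ, pow_mul, hζ.pow_eq_one, one_pow, IsPrimitiveRoot.one_left_iff] at hτprim
    exact hp.one_lt.ne' hτprim
  have hpow : ∀ k : ℕ, (τ ^ k) ζ = ζ ^ (n ^ k) := by
    intro k
    induction k with
    | zero => simp
    | succ k ih => rw [pow_succ', AlgEquiv.mul_apply, ih, map_pow, hτ, ← pow_mul, pow_succ']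
  have hgζ : (τ ^ (p - 1)) ζ = ζ := by
    rw [hpow]
    have h1 : n ^ (p - 1) ≡ 1 [MOD p] := by
      have := Nat.ModEq.pow_totient ((Nat.Prime.coprime_iff_not_dvd hp).mpr hpn).symm
      rwa [Nat.totient_prime hp] at this
    have hpos : 1 ≤ n ^ (p - 1) :=
      Nat.one_le_pow _ _ (Nat.pos_of_ne_zero (fun h => hpn (h ▸ dvd_zero p)))
    obtain ⟨k, hk⟩ := (Nat.modEq_iff_dvd' hpos).mp h1.symm
    have h2 : n ^ (p - 1) = 1 + p * k := by omega
    rw [h2, pow_add, pow_one, pow_mul, hζ.pow_eq_one, one_pow, mul_one]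
  have hgp : (τ ^ (p - 1)) ^ p = 1 := eg_pow_eq_one_of_fix p L ζ hζ hdeg _ hgζ
  have hcomm : τ * (τ ^ (p - 1)) ^ n = (τ ^ (p - 1)) ^ n * τ := by
    rw [← pow_mul, ← pow_succ', ← pow_succ]
  have h3 : (τ ^ (p - 1)) ^ n * τ = τ ^ (p - 1) * τ := by
    rw [← hcomm]; exact htw τ _ n hgζ hτ
  have h4 : (τ ^ (p - 1)) ^ n = τ ^ (p - 1) := mul_right_cancel h3
  have hn1 : 1 ≤ n := Nat.pos_of_ne_zero (fun h => hpn (h ▸ dvd_zero p))
  have h5 : (τ ^ (p - 1)) ^ (n - 1) = 1 := by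
    have : (τ ^ (p - 1)) ^ (n - 1) * τ ^ (p - 1) = 1 * τ ^ (p - 1) := by
      rw [← pow_succ, Nat.sub_add_cancel hn1, h4, one_mul]
    exact mul_right_cancel this
  have h6 : ¬ p ∣ n - 1 := fun h => hn ((Nat.modEq_iff_dvd' hn1).mpr h).symm
  have h7 : Nat.Coprime (n - 1) p := ((Nat.Prime.coprime_iff_not_dvd hp).mpr h6).symm
  have h8 : orderOf (τ ^ (p - 1)) ∣ Nat.gcd (n - 1) p :=
    Nat.dvd_gcd (orderOf_dvd_of_pow_eq_one h5) (orderOf_dvd_of_pow_eq_one hgp)
  rw [h7, Nat.dvd_one, orderOf_eq_one_iff] at h8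
  exact h8

/-- E-L13: `L/ℚ` is not abelian. -/
theorem eg_not_comm (p : ℕ) [Fact p.Prime] (hp : 3 ≤ p) (L : Type*) [Field L] [NumberField L]
    [IsGalois ℚ L] (ζ : L) (hζ : IsPrimitiveRoot ζ p) (hdeg : Module.finrank ℚ L = p * (p - 1))
    (htw : ∀ (τ g : L ≃ₐ[ℚ] L) (n : ℕ), g ζ = ζ → τ ζ = ζ ^ n → τ * g ^ n = g * τ) :
    ∃ σ τ : L ≃ₐ[ℚ] L, σ * τ ≠ τ * σ := by
  have hp' : p.Prime := Fact.out
  have h2 : Nat.Coprime 2 p := (Nat.coprime_primes Nat.prime_two hp').mpr (by omega)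
  have hprim2 : IsPrimitiveRoot (ζ ^ 2) p := hζ.pow_of_coprime 2 h2
  have hconj : IsConjRoot ℚ (ζ ^ 2) ζ := by
    rw [IsConjRoot, ← Polynomial.cyclotomic_eq_minpoly_rat hζ hp'.pos,
      ← Polynomial.cyclotomic_eq_minpoly_rat hprim2 hp'.pos]
  obtain ⟨τ, hτ⟩ := isConjRoot_iff_exists_algEquiv.mp hconj
  have hcard := eg_EndGroup_card_fixing p L ζ hζ hdeg
  have hnt : Nontrivial (IntermediateField.adjoin ℚ {ζ}).fixingSubgroup :=
    Finite.one_lt_card_iff_nontrivial.mp (by rw [hcard]; omega)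
  obtain ⟨⟨g, hgmem⟩, hg1⟩ := exists_ne (1 : (IntermediateField.adjoin ℚ {ζ}).fixingSubgroup)
  have hgζ : g ζ = ζ := eg_EndGroup_apply_of_mem_fixing L ζ g hgmem
  refine ⟨τ, g, fun hcomm => ?_⟩
  have h3 := htw τ g 2 hgζ hτ
  have h4 : τ * g ^ 2 = g ^ 2 * τ := by
    rw [pow_two, ← mul_assoc, hcomm, mul_assoc, hcomm, ← mul_assoc]
  rw [h4] at h3
  have h5 : g ^ 2 = g := mul_right_cancel h3
  have h6 : g = 1 := by
    have : g * g = g * 1 := by rw [← pow_two, h5, mul_one]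
    exact mul_left_cancel this
  exact hg1 (Subtype.ext h6)

/-- E-L10. -/
theorem eg_sum_coprime (p : ℕ) [Fact p.Prime] (hp : 3 ≤ p) :
    Nat.Coprime (∑ t ∈ Finset.Ioo (p / 2) p, t) p := by
  have hp' : p.Prime := Fact.out
  have hodd : p % 2 = 1 := by
    rcases hp'.eq_two_or_odd with h | h
    · omega
    · exact h
  obtain ⟨m, hm⟩ : ∃ m, p = 2 * m + 1 := ⟨p / 2, by omega⟩
  have hm1 : 1 ≤ m := by omega
  have hdiv : p / 2 = m := by omega
  rw [hdiv]
  have hIoo : Finset.Ioo m p = Finset.Ico (m + 1) p := by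
    ext t
    simp only [Finset.mem_Ioo, Finset.mem_Ico]
    omega
  have hsum : ∑ t ∈ Finset.range (m + 1), t + ∑ t ∈ Finset.Ioo m p, t =
      ∑ t ∈ Finset.range p, t := by
    rw [hIoo]
    exact Finset.sum_range_add_sum_Ico (fun t => t) (by omega)
  have hg1 : (∑ t ∈ Finset.range p, t) * 2 = (2 * m + 1) * (2 * m) := by
    have := Finset.sum_range_id_mul_two p
    have e1 : p - 1 = 2 * m := by omega
    rw [e1] at this
    rw [this, hm]
  have hg2 : (∑ t ∈ Finset.range (m + 1), t) * 2 = (m + 1) * m := by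
    have := Finset.sum_range_id_mul_two (m + 1)
    rwa [Nat.add_sub_cancel] at this
  have h2S : 2 * ∑ t ∈ Finset.Ioo m p, t = m * (3 * m + 1) := by
    nlinarith
  refine (((Nat.Prime.coprime_iff_not_dvd hp').mpr ?_)).symm
  intro hdvd
  have hdvd2 : p ∣ m * (3 * m + 1) := by
    rw [← h2S]
    exact Dvd.dvd.mul_left hdvd 2
  rcases (Nat.Prime.dvd_mul hp').mp hdvd2 with h | h
  · have := Nat.le_of_dvd (by omega) h
    omega
  · obtain ⟨k, hk⟩ := h
    rcases k with _ | _ | k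
    · omega
    · omega
    · rw [hm] at hk
      nlinarith

end Fermat.Agent.S14
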