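import Mathlib
import Fermat.Agent.S14.Defs

/-!
# P18 (S14), block E: instantiating the abstract setting

`eg_instantiate` passes from a `CounterField p L ζ` to the abstract setting
`K = ℚ(ζ) ⊆ L` used by the endgame lemmas: `K` is the `p`-th cyclotomic field, `L/K` is Galois of
degree `p` and unramified everywhere.
-/

set_option autoImplicit false

namespace Fermat.Agent.S14

open NumberField
open scoped Pointwise

/-- E-L14: pass from `CounterField p L ζ` to the abstract setting `K = ℚ(ζ) ⊆ L`. -/
theorem eg_instantiate.{u} (p : ℕ) [Fact p.Prime] (L : Type u) [Field L] [NumberField L] (ζ : L)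
    (h : CounterField p L ζ) (P : Prop)
    (hcore : ∀ (K : Type u) [Field K] [NumberField K] [Algebra K L] [IsGalois K L]
      [IsCyclotomicExtension {p} ℚ K] [IsGalois ℚ L] (_ : Module.finrank K L = p)
      (_ : UnramifiedEverywhere K L) (ζ' : K) (_ : IsPrimitiveRoot ζ' p)
      (_ : algebraMap K L ζ' = ζ), P) : P := by
  have hp : p.Prime := Fact.out
  have : IsGalois ℚ L := h.galois
  have : NeZero p := ⟨hp.ne_zero⟩
  let K : IntermediateField ℚ L := IntermediateField.adjoin ℚ {ζ}
  have hcyc : IsCyclotomicExtension {p} ℚ K :=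
    h.prim.intermediateField_adjoin_isCyclotomicExtension ℚ
  have hζ' : IsPrimitiveRoot (IntermediateField.AdjoinSimple.gen ℚ ζ) p :=
    IsPrimitiveRoot.coe_submonoidClass_iff.mp h.prim
  have hfin : Module.finrank K L = p := by
    have h1 : Module.finrank ℚ K = p - 1 := by
      rw [IsCyclotomicExtension.finrank K (Polynomial.cyclotomic.irreducible_rat hp.pos),
        Nat.totient_prime hp]
    have h2 : Module.finrank ℚ K * Module.finrank K L = Module.finrank ℚ L :=
      Module.finrank_mul_finrank ℚ K L
    rw [h1, h.finrank_eq] at h2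
    have hp1 : 0 < p - 1 := Nat.sub_pos_of_lt hp.one_lt
    exact Nat.eq_of_mul_eq_mul_left hp1 (by rw [h2, mul_comm])
  have hunram : UnramifiedEverywhere K L := by
    intro Q hQ hQ0 σ hσ
    have hg : σ.restrictScalars ℚ = 1 := by
      refine h.unram Q hQ hQ0 (σ.restrictScalars ℚ) ?_ ?_
      · exact σ.commutes (IntermediateField.AdjoinSimple.gen ℚ ζ)
      · intro x
        exact hσ x
    ext x
    have := congrArg (fun g : L ≃ₐ[ℚ] L => g x) hg
    simpa using this
  exact hcore K hfin hunram (IntermediateField.AdjoinSimple.gen ℚ ζ) hζ' rfl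

end Fermat.Agent.S14
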