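import Mathlib
import Fermat.Agent.S14.Defs

/-!
# P18 (S14), endgame: norms of primes from Fermat congruences

* `eg_relNorm_eq_of_pow` : residue degree one from a Fermat congruence;
* `eg_absNorm_eq_of_pow` : absolute norm from a Fermat congruence;
* `eg_absNorm_eq_pow`    : the absolute norm of a prime is a power of the residue characteristic.
-/

set_option autoImplicit false

namespace Fermat.Agent.S14

open NumberField
open scoped Pointwise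

/-- A finite field all of whose elements satisfy `y ^ n = y` (`1 < n`) has at most `n`
elements. -/
theorem eg_EndNorm_card_le (k : Type*) [Field k] [Finite k] (n : ℕ) (hn : 1 < n)
    (h : ∀ y : k, y ^ n = y) : Nat.card k ≤ n := by
  classical
  have := Fintype.ofFinite k
  rw [Nat.card_eq_fintype_card]
  have hne : (Polynomial.X ^ n - Polynomial.X : Polynomial k) ≠ 0 :=
    FiniteField.X_pow_card_sub_X_ne_zero k hn
  have hsub : (Finset.univ : Finset k).val ⊆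
      (Polynomial.X ^ n - Polynomial.X : Polynomial k).roots := by
    intro y _
    rw [Polynomial.mem_roots hne, Polynomial.IsRoot.def]
    simp [h y]
  have := Polynomial.card_le_degree_of_subset_roots hsub
  rwa [Finset.card_univ, FiniteField.X_pow_card_sub_X_natDegree_eq k hn] at this

/-- A congruence `x ^ n ≡ x` modulo `𝔮` for all integers `x`, read in the residue ring. -/
theorem eg_EndNorm_quot_pow (K : Type*) [Field K] [NumberField K] (𝔮 : Ideal (𝓞 K)) (n : ℕ)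
    (h : ∀ x : 𝓞 K, x ^ n - x ∈ 𝔮) (y : 𝓞 K ⧸ 𝔮) : y ^ n = y := by
  obtain ⟨x, rfl⟩ := Ideal.Quotient.mk_surjective y
  rw [← map_pow, Ideal.Quotient.eq]
  exact h x

/-- If `x ^ n ≡ x` modulo the nonzero prime `𝔮` for all `x` (`1 < n`), then `N𝔮 ≤ n`. -/
theorem eg_EndNorm_absNorm_le (K : Type*) [Field K] [NumberField K] (𝔮 : Ideal (𝓞 K))
    (h𝔮 : 𝔮.IsPrime) (h0 : 𝔮 ≠ ⊥) (n : ℕ) (hn : 1 < n) (h : ∀ x : 𝓞 K, x ^ n - x ∈ 𝔮) :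
    Ideal.absNorm 𝔮 ≤ n := by
  have : 𝔮.IsMaximal := h𝔮.isMaximal h0
  let := Ideal.Quotient.field 𝔮
  have : Finite (𝓞 K ⧸ 𝔮) := 𝔮.finiteQuotientOfFreeOfNeBot h0
  rw [Ideal.absNorm_apply, Submodule.cardQuot_apply]
  exact eg_EndNorm_card_le (𝓞 K ⧸ 𝔮) n hn (eg_EndNorm_quot_pow K 𝔮 n h)

/-- E-L6b: the absolute norm of a prime is a power of the residue characteristic. -/
theorem eg_absNorm_eq_pow (K : Type*) [Field K] [NumberField K] (𝔮 : Ideal (𝓞 K))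
    (h𝔮 : 𝔮.IsPrime) (h0 : 𝔮 ≠ ⊥) (q : ℕ) (hq : q.Prime) (hq𝔮 : (q : 𝓞 K) ∈ 𝔮) :
    ∃ f : ℕ, 0 < f ∧ Ideal.absNorm 𝔮 = q ^ f ∧ ∀ x : 𝓞 K, x ^ (q ^ f) - x ∈ 𝔮 := by
  classical
  have : 𝔮.IsMaximal := h𝔮.isMaximal h0
  let := Ideal.Quotient.field 𝔮
  have : Finite (𝓞 K ⧸ 𝔮) := 𝔮.finiteQuotientOfFreeOfNeBot h0
  let := Fintype.ofFinite (𝓞 K ⧸ 𝔮)
  have hq0 : ((q : ℕ) : 𝓞 K ⧸ 𝔮) = 0 := by
    rw [← map_natCast (Ideal.Quotient.mk 𝔮)]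
    exact Ideal.Quotient.eq_zero_iff_mem.mpr hq𝔮
  have : CharP (𝓞 K ⧸ 𝔮) q := by
    have hdvd : ringChar (𝓞 K ⧸ 𝔮) ∣ q := ringChar.dvd hq0
    have hne : ringChar (𝓞 K ⧸ 𝔮) ≠ 1 := CharP.ringChar_ne_one
    have : ringChar (𝓞 K ⧸ 𝔮) = q := ((Nat.dvd_prime hq).mp hdvd).resolve_left hne
    exact ringChar.eq_iff.mp this
  obtain ⟨n, -, hn⟩ := FiniteField.card (𝓞 K ⧸ 𝔮) q
  refine ⟨n, n.pos, ?_, fun x => ?_⟩
  · rw [Ideal.absNorm_apply, Submodule.cardQuot_apply, Nat.card_eq_fintype_card, hn]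
  · rw [← Ideal.Quotient.eq, map_pow, ← hn]
    exact FiniteField.pow_card _

/-- E-L6: absolute norm from a Fermat congruence. -/
theorem eg_absNorm_eq_of_pow (K : Type*) [Field K] [NumberField K] (𝔮 : Ideal (𝓞 K))
    (h𝔮 : 𝔮.IsPrime) (q : ℕ) (hq : q.Prime) (hq𝔮 : (q : 𝓞 K) ∈ 𝔮)
    (h : ∀ x : 𝓞 K, x ^ q - x ∈ 𝔮) : Ideal.absNorm 𝔮 = q := by
  have h0 : 𝔮 ≠ ⊥ := by
    rintro rfl
    rw [Ideal.mem_bot] at hq𝔮
    exact hq.ne_zero (by exact_mod_cast hq𝔮)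
  obtain ⟨f, hf, hN, -⟩ := eg_absNorm_eq_pow K 𝔮 h𝔮 h0 q hq hq𝔮
  have hle := eg_EndNorm_absNorm_le K 𝔮 h𝔮 h0 q hq.one_lt h
  rw [hN] at hle ⊢
  have hf1 : f ≤ 1 := (Nat.pow_le_pow_iff_right hq.one_lt).mp (by simpa using hle)
  have : f = 1 := le_antisymm hf1 hf
  rw [this, pow_one]

/-- E-L5: residue degree one from a Fermat congruence. -/
theorem eg_relNorm_eq_of_pow (K L : Type*) [Field K] [NumberField K] [Field L] [NumberField L]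
    [Algebra K L] (𝔔 : Ideal (𝓞 L)) (h𝔔 : 𝔔.IsPrime) (h0 : 𝔔 ≠ ⊥)
    (h : ∀ x : 𝓞 L, x ^ Ideal.absNorm (Ideal.under (𝓞 K) 𝔔) - x ∈ 𝔔) :
    Ideal.relNorm (𝓞 K) 𝔔 = Ideal.under (𝓞 K) 𝔔 := by
  have : 𝔔.LiesOver (Ideal.under (𝓞 K) 𝔔) := ⟨rfl⟩
  have h𝔮 : (Ideal.under (𝓞 K) 𝔔).IsPrime := Ideal.IsPrime.under (𝓞 K) 𝔔
  -- the prime below is nonzero: otherwise the congruence at `x = 0` gives `1 ∈ 𝔔`
  have h𝔮0 : Ideal.under (𝓞 K) 𝔔 ≠ ⊥ := by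
    intro hbot
    have h1 := h 0
    rw [hbot, Ideal.absNorm_bot, pow_zero, sub_zero] at h1
    exact h𝔔.ne_top ((Ideal.eq_top_iff_one 𝔔).mpr h1)
  have hN1 : 1 < Ideal.absNorm (Ideal.under (𝓞 K) 𝔔) := by
    have h1 : Ideal.absNorm (Ideal.under (𝓞 K) 𝔔) ≠ 0 := Ideal.absNorm_eq_zero_iff.not.mpr h𝔮0
    have h2 : Ideal.absNorm (Ideal.under (𝓞 K) 𝔔) ≠ 1 :=
      Ideal.absNorm_eq_one_iff.not.mpr h𝔮.ne_top
    omega
  have hQ1 : Ideal.absNorm 𝔔 ≠ 1 := Ideal.absNorm_eq_one_iff.not.mpr h𝔔.ne_top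
  obtain ⟨s, hs⟩ := Ideal.exists_relNorm_eq_pow_of_isPrime 𝔔 (Ideal.under (𝓞 K) 𝔔)
  have habs : Ideal.absNorm 𝔔 = Ideal.absNorm (Ideal.under (𝓞 K) 𝔔) ^ s := by
    rw [← Ideal.absNorm_relNorm (R := 𝓞 K), hs, map_pow]
  have hle := eg_EndNorm_absNorm_le L 𝔔 h𝔔 h0 _ hN1 h
  rw [habs] at hle hQ1
  have hs1 : s ≤ 1 := (Nat.pow_le_pow_iff_right hN1).mp (by simpa using hle)
  have hs0 : s ≠ 0 := by
    rintro rfl
    exact hQ1 (pow_zero _)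
  have : s = 1 := by omega
  rw [hs, this, pow_one]

end Fermat.Agent.S14
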