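import Mathlib

set_option autoImplicit false

namespace Fermat.Agent.S14.JacSum

open Finset

variable {F : Type*} [Field F] [Fintype F]

/-- power sums over a finite field for positive exponents. -/
theorem sum_pow_pos (i : ℕ) (hi : 0 < i) :
    (∑ x : F, x ^ i) = if Fintype.card F - 1 ∣ i then -1 else 0 := by
  classical
  let φ : Fˣ ↪ F := ⟨fun x ↦ x, Units.val_injective⟩
  have h1 : univ.map φ = univ \ {(0 : F)} := by
    ext x
    simpa only [mem_map, mem_univ, Function.Embedding.coeFn_mk, true_and, mem_sdiff,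
      mem_singleton, φ] using! isUnit_iff_ne_zero
  calc ∑ x : F, x ^ i = ∑ x ∈ univ \ {(0 : F)}, x ^ i := by
        rw [← sum_sdiff ({0} : Finset F).subset_univ, sum_singleton, zero_pow hi.ne', add_zero]
    _ = ∑ x : Fˣ, (x ^ i : F) := by simp [φ, ← h1, univ.sum_map φ]
    _ = _ := FiniteField.sum_pow_units F i

/-- The key finite-field computation behind the factorisation of `J(χ, χ)`. -/
theorem sum_pow_mul_one_sub_pow (n : ℕ) (hn0 : 0 < n) (hn : n < Fintype.card F - 1) :
    (∑ t : F, t ^ n * (1 - t) ^ n) =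
      if Fintype.card F - 1 - n ≤ n then
        -((-1 : F) ^ (Fintype.card F - 1 - n) * (n.choose (Fintype.card F - 1 - n) : F))
      else 0 := by
  classical
  set q := Fintype.card F with hq
  have hexp : ∀ t : F, t ^ n * (1 - t) ^ n =
      ∑ k ∈ range (n + 1), ((-1 : F) ^ k * (n.choose k : F)) * t ^ (n + k) := by
    intro t
    have : (1 - t) ^ n = ∑ k ∈ range (n + 1), (-t) ^ k * 1 ^ (n - k) * (n.choose k : F) := by
      rw [sub_eq_add_neg, add_comm, add_pow]
    rw [this, mul_sum]
    refine sum_congr rfl fun k _ => ?_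
    rw [one_pow, mul_one, neg_pow, pow_add]
    ring
  simp_rw [hexp]
  rw [sum_comm]
  simp_rw [← mul_sum]
  have hsum : ∀ k ∈ range (n + 1), (∑ t : F, t ^ (n + k)) = if k = q - 1 - n then -1 else 0 := by
    intro k hk
    have hk' : k ≤ n := Nat.lt_succ_iff.mp (mem_range.mp hk)
    rw [sum_pow_pos (n + k) (by omega)]
    by_cases h : k = q - 1 - n
    · rw [if_pos h, if_pos]
      rw [h]
      have : n + (q - 1 - n) = q - 1 := by omega
      rw [this]
    · rw [if_neg h, if_neg]
      intro hdvd
      obtain ⟨c, hc⟩ := hdvd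
      rw [← hq] at hc
      rcases Nat.lt_or_ge c 1 with h0 | h1
      · have : c = 0 := by omega
        subst this
        omega
      · rcases Nat.lt_or_ge c 2 with h2 | h2
        · have hc1 : c = 1 := by omega
          subst hc1
          omega
        · have h3 : (q - 1) * 2 ≤ (q - 1) * c := Nat.mul_le_mul_left _ h2
          omega
  rw [sum_congr rfl fun k hk => by rw [hsum k hk]]
  simp_rw [mul_ite, mul_neg, mul_one, mul_zero]
  rw [sum_ite_eq']
  by_cases hle : q - 1 - n ≤ n
  · rw [if_pos hle, if_pos (mem_range.mpr (by omega))]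
  · rw [if_neg hle, if_neg (by rw [mem_range]; omega)]

end Fermat.Agent.S14.JacSum
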