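import Mathlib
import Fermat.Agent.S14.JacobiPowSum

set_option autoImplicit false

namespace Fermat.Agent.S14.JacSum

open Finset

variable {R : Type*} [CommRing R] [IsDomain R] (𝔮 : Ideal R) [𝔮.IsMaximal] [Fintype (R ⧸ 𝔮)]
  (p : ℕ) [hp : Fact p.Prime]

/-- reduction of `p`-th roots of unity modulo `𝔮` -/
noncomputable def redRoots : rootsOfUnity p R →* rootsOfUnity p (R ⧸ 𝔮) :=
  restrictRootsOfUnity (Ideal.Quotient.mk 𝔮) p

omit [Fintype (R ⧸ 𝔮)] in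
theorem natCast_p_ne_zero [Finite (R ⧸ 𝔮)] (hpq : p ∣ Nat.card (R ⧸ 𝔮) - 1) :
    ((p : ℕ) : R ⧸ 𝔮) ≠ 0 := by
  classical
  letI : Fintype (R ⧸ 𝔮) := Fintype.ofFinite _
  intro h0
  obtain ⟨k, hk⟩ := hpq
  have hq0 : ((Fintype.card (R ⧸ 𝔮) : ℕ) : R ⧸ 𝔮) = 0 := by
    letI := Ideal.Quotient.field 𝔮
    exact FiniteField.cast_card_eq_zero (R ⧸ 𝔮)
  have hq1 : 1 ≤ Fintype.card (R ⧸ 𝔮) := Fintype.card_pos
  rw [Nat.card_eq_fintype_card] at hk
  have h2 : ((Fintype.card (R ⧸ 𝔮) - 1 : ℕ) : R ⧸ 𝔮) = 0 := by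
    rw [hk, Nat.cast_mul, h0, zero_mul]
  rw [Nat.cast_sub hq1, hq0, Nat.cast_one, zero_sub, neg_eq_zero] at h2
  exact one_ne_zero h2

omit [Fintype (R ⧸ 𝔮)] in
theorem redRoots_injective_of_ne (hpF : ((p : ℕ) : R ⧸ 𝔮) ≠ 0) :
    Function.Injective (redRoots 𝔮 p) := by
  rw [injective_iff_map_eq_one]
  intro u hu
  by_contra hne
  have hu1 : ((u : Rˣ) : R) ≠ 1 := by
    intro h
    apply hne
    ext
    simpa using h
  have hup : ((u : Rˣ) : R) ^ p = 1 := by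
    have := u.2
    rw [mem_rootsOfUnity] at this
    have h2 := congrArg (fun x : Rˣ => (x : R)) this
    simpa using h2
  have hgeom : ∑ i ∈ range p, ((u : Rˣ) : R) ^ i = 0 := by
    have h := mul_geom_sum ((u : Rˣ) : R) p
    rw [hup, sub_self] at h
    rcases mul_eq_zero.mp h with h | h
    · exact absurd (sub_eq_zero.mp h) hu1
    · exact h
  have hred : Ideal.Quotient.mk 𝔮 ((u : Rˣ) : R) = 1 := by
    have := congrArg (fun x : rootsOfUnity p (R ⧸ 𝔮) => ((x : (R ⧸ 𝔮)ˣ) : R ⧸ 𝔮)) hu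
    simpa [redRoots] using this
  have := congrArg (Ideal.Quotient.mk 𝔮) hgeom
  rw [map_sum] at this
  simp only [map_pow, hred, one_pow, sum_const, card_range, nsmul_eq_mul, mul_one, map_zero] at this
  exact hpF this

omit [Fintype (R ⧸ 𝔮)] in
theorem redRoots_injective [Finite (R ⧸ 𝔮)] (hpq : p ∣ Nat.card (R ⧸ 𝔮) - 1) :
    Function.Injective (redRoots 𝔮 p) :=
  redRoots_injective_of_ne 𝔮 p (natCast_p_ne_zero 𝔮 p hpq)

theorem redRoots_bijective {ζ : R} (hζ : IsPrimitiveRoot ζ p)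
    (hpq : p ∣ Nat.card (R ⧸ 𝔮) - 1) :
    Function.Bijective (redRoots 𝔮 p) := by
  have : NeZero p := ⟨hp.out.ne_zero⟩
  have hinj := redRoots_injective 𝔮 p hpq
  have h1 : Nat.card (rootsOfUnity p R) = p := hζ.card_rootsOfUnity
  have h2 : Nat.card (rootsOfUnity p (R ⧸ 𝔮)) ≤ p := card_rootsOfUnity _ _
  have h3 : Nat.card (rootsOfUnity p R) ≤ Nat.card (rootsOfUnity p (R ⧸ 𝔮)) :=
    Nat.card_le_card_of_injective _ hinj
  exact (Nat.bijective_iff_injective_and_card _).mpr ⟨hinj, by omega⟩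

end Fermat.Agent.S14.JacSum

namespace Fermat.Agent.S14.JacSum

open Finset

variable {R : Type*} [CommRing R] [IsDomain R] (𝔮 : Ideal R) [𝔮.IsMaximal] [Fintype (R ⧸ 𝔮)]
  (p : ℕ) [hp : Fact p.Prime]

/-- `t ↦ t ^ (q - 1 - (q - 1) / p)` as a hom from the units of the residue field to its `p`-th
roots of unity. -/
noncomputable def powHom (hpq : p ∣ Fintype.card (R ⧸ 𝔮) - 1) :
    (R ⧸ 𝔮)ˣ →* rootsOfUnity p (R ⧸ 𝔮) where
  toFun t := ⟨t ^ (Fintype.card (R ⧸ 𝔮) - 1 - (Fintype.card (R ⧸ 𝔮) - 1) / p), by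
    letI := Ideal.Quotient.field 𝔮
    rw [mem_rootsOfUnity, ← pow_mul]
    obtain ⟨m, hm⟩ := hpq
    have hp0 : 0 < p := hp.out.pos
    have h1 : (Fintype.card (R ⧸ 𝔮) - 1) / p = m := by rw [hm, Nat.mul_div_cancel_left _ hp0]
    have h2 : (Fintype.card (R ⧸ 𝔮) - 1 - (Fintype.card (R ⧸ 𝔮) - 1) / p) * p =
        (Fintype.card (R ⧸ 𝔮) - 1) * (p - 1) := by
      rw [h1, hm]
      obtain ⟨p', rfl⟩ : ∃ p', p = p' + 1 := ⟨p - 1, by omega⟩
      have : (p' + 1) * m - m = p' * m := by rw [Nat.add_mul, one_mul, Nat.add_sub_cancel]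
      rw [this, Nat.add_sub_cancel]; ring
    rw [h2, pow_mul]
    have h3 : t ^ (Fintype.card (R ⧸ 𝔮) - 1) = 1 := by
      have h := pow_card_eq_one' (G := (R ⧸ 𝔮)ˣ) (x := t)
      rwa [Nat.card_units, Nat.card_eq_fintype_card] at h
    rw [h3, one_pow]⟩
  map_one' := by ext; simp
  map_mul' a b := by ext; simp [mul_pow]

/-- The `p`-th power residue character modulo `𝔮` with values in `R`. -/
noncomputable def resChar {ζ : R} (hζ : IsPrimitiveRoot ζ p)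
    (hpq : p ∣ Fintype.card (R ⧸ 𝔮) - 1) : MulChar (R ⧸ 𝔮) R :=
  MulChar.ofUnitHom ((rootsOfUnity p R).subtype.comp
    ((MulEquiv.ofBijective (redRoots 𝔮 p)
      (redRoots_bijective 𝔮 p hζ (by rwa [Nat.card_eq_fintype_card]))).symm.toMonoidHom.comp
        (powHom 𝔮 p hpq)))

theorem mk_resChar {ζ : R} (hζ : IsPrimitiveRoot ζ p)
    (hpq : p ∣ Fintype.card (R ⧸ 𝔮) - 1) (t : R ⧸ 𝔮) :
    Ideal.Quotient.mk 𝔮 (resChar 𝔮 p hζ hpq t) =
      t ^ (Fintype.card (R ⧸ 𝔮) - 1 - (Fintype.card (R ⧸ 𝔮) - 1) / p) := by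
  letI := Ideal.Quotient.field 𝔮
  by_cases ht : IsUnit t
  · obtain ⟨u, rfl⟩ := ht
    rw [resChar, MulChar.ofUnitHom_coe]
    set e := MulEquiv.ofBijective (redRoots 𝔮 p)
      (redRoots_bijective 𝔮 p hζ (by rwa [Nat.card_eq_fintype_card])) with he
    have h1 : redRoots 𝔮 p (e.symm (powHom 𝔮 p hpq u)) = powHom 𝔮 p hpq u :=
      e.apply_symm_apply _
    have h2 := congrArg (fun x : rootsOfUnity p (R ⧸ 𝔮) => ((x : (R ⧸ 𝔮)ˣ) : R ⧸ 𝔮)) h1
    simpa [redRoots, powHom] using h2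
  · have ht0 : t = 0 := by
      by_contra h
      exact ht (isUnit_iff_ne_zero.mpr h)
    subst ht0
    rw [MulChar.map_nonunit _ ht, map_zero, zero_pow]
    obtain ⟨m, hm⟩ := hpq
    have hp2 : 2 ≤ p := hp.out.two_le
    have hp0 : 0 < p := hp.out.pos
    have h1 : (Fintype.card (R ⧸ 𝔮) - 1) / p = m := by rw [hm, Nat.mul_div_cancel_left _ hp0]
    rw [h1, hm]
    have hcard : 1 < Fintype.card (R ⧸ 𝔮) := Fintype.one_lt_card
    have hm0 : 0 < m := by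
      rcases Nat.eq_zero_or_pos m with h | h
      · subst h; omega
      · exact h
    have : m * 2 ≤ p * m := by rw [mul_comm]; exact Nat.mul_le_mul_right _ hp2
    omega

theorem resChar_pow_eq_one {ζ : R} (hζ : IsPrimitiveRoot ζ p)
    (hpq : p ∣ Fintype.card (R ⧸ 𝔮) - 1) (t : (R ⧸ 𝔮)ˣ) :
    (resChar 𝔮 p hζ hpq t) ^ p = 1 := by
  rw [resChar, MulChar.ofUnitHom_coe]
  set e := MulEquiv.ofBijective (redRoots 𝔮 p)
    (redRoots_bijective 𝔮 p hζ (by rwa [Nat.card_eq_fintype_card])) with he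
  have := (e.symm (powHom 𝔮 p hpq t)).2
  rw [mem_rootsOfUnity] at this
  have h2 := congrArg (fun x : Rˣ => (x : R)) this
  simpa using h2

end Fermat.Agent.S14.JacSum

namespace Fermat.Agent.S14.JacSum

open Finset

variable {R : Type*} [CommRing R] [IsDomain R] (𝔮 : Ideal R) [𝔮.IsMaximal] [Fintype (R ⧸ 𝔮)]
  (p : ℕ) [hp : Fact p.Prime]

theorem mk_jacobiSum_resChar_pow {ζ : R} (hζ : IsPrimitiveRoot ζ p)
    (hpq : p ∣ Fintype.card (R ⧸ 𝔮) - 1) (a : ℕ) (ha0 : 0 < a) (hap : a < p) :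
    Ideal.Quotient.mk 𝔮 (jacobiSum ((resChar 𝔮 p hζ hpq) ^ a) ((resChar 𝔮 p hζ hpq) ^ a)) =
      ∑ t : R ⧸ 𝔮, t ^ (Fintype.card (R ⧸ 𝔮) - 1 - a * ((Fintype.card (R ⧸ 𝔮) - 1) / p)) *
        (1 - t) ^ (Fintype.card (R ⧸ 𝔮) - 1 - a * ((Fintype.card (R ⧸ 𝔮) - 1) / p)) := by
  letI := Ideal.Quotient.field 𝔮
  obtain ⟨m, hm⟩ := id hpq
  have hp0 : 0 < p := hp.out.pos
  have h1 : (Fintype.card (R ⧸ 𝔮) - 1) / p = m := by rw [hm, Nat.mul_div_cancel_left _ hp0]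
  have hcard : 1 < Fintype.card (R ⧸ 𝔮) := Fintype.one_lt_card
  have hm0 : 0 < m := by
    rcases Nat.eq_zero_or_pos m with h | h
    · subst h; omega
    · exact h
  have ham : a * m < p * m := Nat.mul_lt_mul_of_pos_right hap hm0
  have key : ∀ t : R ⧸ 𝔮, Ideal.Quotient.mk 𝔮 (((resChar 𝔮 p hζ hpq) ^ a) t) =
      t ^ (Fintype.card (R ⧸ 𝔮) - 1 - a * m) := by
    intro t
    rw [MulChar.pow_apply' _ ha0.ne', map_pow, mk_resChar, h1, ← pow_mul]
    by_cases ht : t = 0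
    · subst ht
      rw [zero_pow, zero_pow]
      · omega
      · have : 0 < (Fintype.card (R ⧸ 𝔮) - 1 - m) * a := by
          apply Nat.mul_pos _ ha0
          have : m * 2 ≤ p * m := by
            rw [mul_comm]; exact Nat.mul_le_mul_right _ hp.out.two_le
          omega
        omega
    · have ht1 : t ^ (Fintype.card (R ⧸ 𝔮) - 1) = 1 :=
        FiniteField.pow_card_sub_one_eq_one t ht
      have hexp : (Fintype.card (R ⧸ 𝔮) - 1 - m) * a =
          (Fintype.card (R ⧸ 𝔮) - 1) * (a - 1) + (Fintype.card (R ⧸ 𝔮) - 1 - a * m) := by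
        rw [hm]
        obtain ⟨a', rfl⟩ : ∃ a', a = a' + 1 := ⟨a - 1, by omega⟩
        rw [Nat.add_sub_cancel]
        have e1 : p * m - m + m = p * m := Nat.sub_add_cancel (by
          calc m = 1 * m := (one_mul m).symm
            _ ≤ p * m := Nat.mul_le_mul_right _ hp0)
        have e2 : p * m - (a' + 1) * m + (a' + 1) * m = p * m := Nat.sub_add_cancel ham.le
        zify at e1 e2 ⊢
        have e1' : ((p * m - m : ℕ) : ℤ) = p * m - m := by linarith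
        have e2' : ((p * m - (a' + 1) * m : ℕ) : ℤ) = p * m - (a' + 1) * m := by
          push_cast at e2 ⊢; linarith
        rw [e1', e2']
        ring
      rw [hexp, pow_add, pow_mul, ht1, one_pow, one_mul]
  rw [jacobiSum, map_sum]
  refine sum_congr rfl fun t _ => ?_
  rw [map_mul, key, key, h1]

theorem jacobiSum_resChar_pow_mem_iff {ζ : R} (hζ : IsPrimitiveRoot ζ p)
    (hpq : p ∣ Fintype.card (R ⧸ 𝔮) - 1) (hq : (Fintype.card (R ⧸ 𝔮)).Prime)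
    (a : ℕ) (ha0 : 0 < a) (hap : a < p) :
    jacobiSum ((resChar 𝔮 p hζ hpq) ^ a) ((resChar 𝔮 p hζ hpq) ^ a) ∈ 𝔮 ↔ p < 2 * a := by
  letI := Ideal.Quotient.field 𝔮
  rw [← Ideal.Quotient.eq_zero_iff_mem, mk_jacobiSum_resChar_pow 𝔮 p hζ hpq a ha0 hap]
  obtain ⟨m, hm⟩ := id hpq
  have hp0 : 0 < p := hp.out.pos
  have h1 : (Fintype.card (R ⧸ 𝔮) - 1) / p = m := by rw [hm, Nat.mul_div_cancel_left _ hp0]
  have hcard : 1 < Fintype.card (R ⧸ 𝔮) := Fintype.one_lt_card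
  have hm0 : 0 < m := by
    rcases Nat.eq_zero_or_pos m with h | h
    · subst h; omega
    · exact h
  have ham : a * m < p * m := Nat.mul_lt_mul_of_pos_right hap hm0
  have ham0 : 0 < a * m := Nat.mul_pos ha0 hm0
  rw [h1]
  set n := Fintype.card (R ⧸ 𝔮) - 1 - a * m with hn
  have hn0 : 0 < n := by omega
  have hn1 : n < Fintype.card (R ⧸ 𝔮) - 1 := by omega
  rw [sum_pow_mul_one_sub_pow n hn0 hn1]
  have hk : Fintype.card (R ⧸ 𝔮) - 1 - n = a * m := by omega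
  rw [hk]
  have hiff : a * m ≤ n ↔ 2 * a ≤ p := by
    constructor
    · intro h
      have h2 : 2 * a * m ≤ p * m := by
        have : 2 * a * m = a * m + a * m := by ring
        omega
      exact Nat.le_of_mul_le_mul_right h2 hm0
    · intro h
      have h2 : 2 * a * m ≤ p * m := Nat.mul_le_mul_right _ h
      have : 2 * a * m = a * m + a * m := by ring
      omega
  by_cases h2a : 2 * a ≤ p
  · rw [if_pos (hiff.mpr h2a)]
    constructor
    · intro h0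
      exfalso
      rw [neg_eq_zero] at h0
      rcases mul_eq_zero.mp h0 with h | h
      · exact absurd h (pow_ne_zero _ (neg_ne_zero.mpr one_ne_zero))
      · haveI : Fact (Fintype.card (R ⧸ 𝔮)).Prime := ⟨hq⟩
        haveI : CharP (R ⧸ 𝔮) (Fintype.card (R ⧸ 𝔮)) := charP_of_card_eq_prime rfl
        rw [CharP.cast_eq_zero_iff (R ⧸ 𝔮) (Fintype.card (R ⧸ 𝔮))] at h
        have hdvd : n.choose (a * m) ∣ n.factorial := by
          have := Nat.choose_mul_factorial_mul_factorial (hiff.mpr h2a)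
          exact ⟨(a * m).factorial * (n - a * m).factorial, by rw [← this]; ring⟩
        have := (hq.dvd_factorial).mp (h.trans hdvd)
        omega
    · intro h; omega
  · rw [if_neg (fun h => h2a (hiff.mp h))]
    simp only [true_iff]
    omega

end Fermat.Agent.S14.JacSum

namespace Fermat.Agent.S14.JacSum

open Finset

variable {R : Type*} [CommRing R] [IsDomain R] (𝔮 : Ideal R) [𝔮.IsMaximal] [Fintype (R ⧸ 𝔮)]
  (p : ℕ) [hp : Fact p.Prime]

theorem resChar_ringHomComp {ζ : R} (hζ : IsPrimitiveRoot ζ p)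
    (hpq : p ∣ Fintype.card (R ⧸ 𝔮) - 1) (σ : R →+* R) (a : ℕ) (ha0 : 0 < a)
    (hσ : σ ζ = ζ ^ a) :
    (resChar 𝔮 p hζ hpq).ringHomComp σ = (resChar 𝔮 p hζ hpq) ^ a := by
  haveI : NeZero p := ⟨hp.out.ne_zero⟩
  ext t
  rw [MulChar.ringHomComp_apply, MulChar.pow_apply_coe]
  obtain ⟨i, -, hi⟩ := hζ.eq_pow_of_pow_eq_one (resChar_pow_eq_one 𝔮 p hζ hpq t)
  rw [← hi, map_pow, hσ, ← pow_mul, ← pow_mul, mul_comm]

theorem jacobiSum_resChar_pow_eq {ζ : R} (hζ : IsPrimitiveRoot ζ p)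
    (hpq : p ∣ Fintype.card (R ⧸ 𝔮) - 1) (σ : R →+* R) (a : ℕ) (ha0 : 0 < a)
    (hσ : σ ζ = ζ ^ a) :
    jacobiSum ((resChar 𝔮 p hζ hpq) ^ a) ((resChar 𝔮 p hζ hpq) ^ a) =
      σ (jacobiSum (resChar 𝔮 p hζ hpq) (resChar 𝔮 p hζ hpq)) := by
  rw [← jacobiSum_ringHomComp, resChar_ringHomComp 𝔮 p hζ hpq σ a ha0 hσ]

/-- The membership criterion: `σ_a (J(χ, χ)) ∈ 𝔮 ↔ p < 2 a`. -/
theorem map_jacobiSum_resChar_mem_iff {ζ : R} (hζ : IsPrimitiveRoot ζ p)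
    (hpq : p ∣ Fintype.card (R ⧸ 𝔮) - 1) (hq : (Fintype.card (R ⧸ 𝔮)).Prime)
    (σ : R →+* R) (a : ℕ) (ha0 : 0 < a) (hap : a < p) (hσ : σ ζ = ζ ^ a) :
    σ (jacobiSum (resChar 𝔮 p hζ hpq) (resChar 𝔮 p hζ hpq)) ∈ 𝔮 ↔ p < 2 * a := by
  rw [← jacobiSum_resChar_pow_eq 𝔮 p hζ hpq σ a ha0 hσ]
  exact jacobiSum_resChar_pow_mem_iff 𝔮 p hζ hpq hq a ha0 hap

end Fermat.Agent.S14.JacSum

namespace Fermat.Agent.S14.JacSum

open Finset

variable {R : Type*} [CommRing R] [IsDomain R] (𝔮 : Ideal R) [𝔮.IsMaximal] [Fintype (R ⧸ 𝔮)]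
  (p : ℕ) [hp : Fact p.Prime]

theorem resChar_pow_p {ζ : R} (hζ : IsPrimitiveRoot ζ p)
    (hpq : p ∣ Fintype.card (R ⧸ 𝔮) - 1) : (resChar 𝔮 p hζ hpq) ^ p = 1 := by
  ext t
  rw [MulChar.pow_apply_coe, resChar_pow_eq_one, MulChar.one_apply_coe]

theorem resChar_inv {ζ : R} (hζ : IsPrimitiveRoot ζ p)
    (hpq : p ∣ Fintype.card (R ⧸ 𝔮) - 1) :
    (resChar 𝔮 p hζ hpq)⁻¹ = (resChar 𝔮 p hζ hpq) ^ (p - 1) := by
  rw [inv_eq_iff_eq_inv, eq_inv_iff_mul_eq_one, ← pow_succ',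
    Nat.sub_add_cancel hp.out.one_le, resChar_pow_p]

/-- for `k` not divisible by `p`, `χ ^ k ≠ 1`. -/
theorem resChar_pow_ne_one {ζ : R} (hζ : IsPrimitiveRoot ζ p)
    (hpq : p ∣ Fintype.card (R ⧸ 𝔮) - 1) (k : ℕ) (hk : ¬ p ∣ k) :
    (resChar 𝔮 p hζ hpq) ^ k ≠ 1 := by
  letI := Ideal.Quotient.field 𝔮
  intro h1
  obtain ⟨m, hm⟩ := id hpq
  have hp0 : 0 < p := hp.out.pos
  have hm' : (Fintype.card (R ⧸ 𝔮) - 1) / p = m := by rw [hm, Nat.mul_div_cancel_left _ hp0]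
  have hcard : 1 < Fintype.card (R ⧸ 𝔮) := Fintype.one_lt_card
  have hm0 : 0 < m := by
    rcases Nat.eq_zero_or_pos m with h | h
    · subst h; omega
    · exact h
  have hk0 : k ≠ 0 := by
    rintro rfl
    exact hk (dvd_zero p)
  obtain ⟨g, hg⟩ := IsCyclic.exists_generator (α := (R ⧸ 𝔮)ˣ)
  have hord : orderOf g = Fintype.card (R ⧸ 𝔮) - 1 := by
    rw [orderOf_eq_card_of_forall_mem_zpowers hg, Nat.card_units, Nat.card_eq_fintype_card]
  have h2 : Ideal.Quotient.mk 𝔮 (((resChar 𝔮 p hζ hpq) ^ k) (g : R ⧸ 𝔮)) = 1 := by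
    rw [h1, MulChar.one_apply_coe, map_one]
  rw [MulChar.pow_apply_coe, map_pow, mk_resChar, hm', ← pow_mul, ← Units.val_pow_eq_pow_val,
    Units.val_eq_one, ← orderOf_dvd_iff_pow_eq_one, hord, hm] at h2
  -- p * m ∣ (p * m - m) * k
  have h3 : p * m ∣ m * k + (p * m - m) * k := by
    have : m * k + (p * m - m) * k = p * m * k := by
      rw [← Nat.add_mul, Nat.add_sub_cancel']
      calc m = 1 * m := (one_mul m).symm
        _ ≤ p * m := Nat.mul_le_mul_right _ hp0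
    rw [this]
    exact Dvd.intro _ rfl
  have h4 : p * m ∣ m * k := (Nat.dvd_add_left h2).mp h3
  rw [mul_comm p m] at h4
  exact hk ((Nat.mul_dvd_mul_iff_left hm0).mp h4)

theorem jacobiSum_resChar_mul_inv [CharZero R] (hp2 : p ≠ 2) {ζ : R} (hζ : IsPrimitiveRoot ζ p)
    (hpq : p ∣ Fintype.card (R ⧸ 𝔮) - 1) :
    jacobiSum (resChar 𝔮 p hζ hpq) (resChar 𝔮 p hζ hpq) *
      jacobiSum ((resChar 𝔮 p hζ hpq) ^ (p - 1)) ((resChar 𝔮 p hζ hpq) ^ (p - 1)) =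
        (Fintype.card (R ⧸ 𝔮) : R) := by
  letI := Ideal.Quotient.field 𝔮
  set χ := resChar 𝔮 p hζ hpq with hχ
  have hinj : Function.Injective (algebraMap R (FractionRing R)) := IsFractionRing.injective R _
  apply hinj
  rw [map_mul, ← jacobiSum_ringHomComp, ← jacobiSum_ringHomComp, map_natCast,
    ← resChar_inv 𝔮 p hζ hpq, ← MulChar.ringHomComp_inv]
  have hχ1 : χ ≠ 1 := by
    have := resChar_pow_ne_one 𝔮 p hζ hpq 1 (fun h => hp.out.one_lt.ne' (Nat.dvd_one.mp h))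
    rwa [pow_one] at this
  have hχ2 : χ * χ ≠ 1 := by
    have := resChar_pow_ne_one 𝔮 p hζ hpq 2 (fun h => hp2 ((Nat.prime_dvd_prime_iff_eq hp.out
      Nat.prime_two).mp h))
    rwa [pow_two] at this
  have hchar : ringChar (FractionRing R) ≠ ringChar (R ⧸ 𝔮) := by
    rw [ringChar.eq_zero]
    exact (CharP.ringChar_ne_zero_of_finite (R ⧸ 𝔮)).symm
  exact jacobiSum_mul_jacobiSum_inv hchar
    ((MulChar.ringHomComp_ne_one_iff hinj).mpr hχ1)
    ((MulChar.ringHomComp_ne_one_iff hinj).mpr hχ1)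
    (by rw [← MulChar.ringHomComp_mul]; exact (MulChar.ringHomComp_ne_one_iff hinj).mpr hχ2)

end Fermat.Agent.S14.JacSum

namespace Fermat.Agent.S14.JacSum

open Finset

variable {R : Type*} [CommRing R] [IsDomain R] (𝔮 : Ideal R) [𝔮.IsMaximal]
  (p : ℕ) [hp : Fact p.Prime]

/-- `p`-th roots of unity of `R` that are congruent modulo `𝔮` are equal. -/
theorem eq_of_mk_eq_of_pow_eq_one (hpF : ((p : ℕ) : R ⧸ 𝔮) ≠ 0) {x y : R} (hx : x ^ p = 1)
    (hy : y ^ p = 1) (h : Ideal.Quotient.mk 𝔮 x = Ideal.Quotient.mk 𝔮 y) : x = y := by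
  have : NeZero p := ⟨hp.out.ne_zero⟩
  have hinj := redRoots_injective_of_ne 𝔮 p hpF
  have h1 : redRoots 𝔮 p (rootsOfUnity.mkOfPowEq x hx) =
      redRoots 𝔮 p (rootsOfUnity.mkOfPowEq y hy) := by
    ext
    simpa [redRoots] using h
  have h2 := hinj h1
  have h3 := congrArg (fun u : rootsOfUnity p R => ((u : Rˣ) : R)) h2
  simpa using h3

/-- if the residue field has characteristic different from `p` and `R` contains a primitive
`p`-th root of unity, then `p` divides the order of the multiplicative group of the residue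
field. -/
theorem dvd_card_sub_one_of_ne [Fintype (R ⧸ 𝔮)] (hpF : ((p : ℕ) : R ⧸ 𝔮) ≠ 0) {ζ : R}
    (hζ : IsPrimitiveRoot ζ p) : p ∣ Fintype.card (R ⧸ 𝔮) - 1 := by
  letI := Ideal.Quotient.field 𝔮
  have hζ1 : ζ ≠ 1 := hζ.ne_one hp.out.one_lt
  have hne : Ideal.Quotient.mk 𝔮 ζ ≠ 1 := by
    intro h
    apply hζ1
    exact eq_of_mk_eq_of_pow_eq_one 𝔮 p hpF hζ.pow_eq_one (one_pow p) (by rw [h, map_one])
  have hpow : (Ideal.Quotient.mk 𝔮 ζ) ^ p = 1 := by rw [← map_pow, hζ.pow_eq_one, map_one]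
  have hu : IsUnit (Ideal.Quotient.mk 𝔮 ζ) := IsUnit.of_pow_eq_one hpow hp.out.ne_zero
  obtain ⟨u, hu⟩ := hu
  have hup : u ^ p = 1 := by
    ext
    rw [Units.val_pow_eq_pow_val, hu, hpow, Units.val_one]
  have hu1 : u ≠ 1 := by
    intro h
    apply hne
    rw [← hu, h, Units.val_one]
  have hord : orderOf u = p := orderOf_eq_prime hup hu1
  have := orderOf_dvd_natCard u
  rwa [hord, Nat.card_units, Nat.card_eq_fintype_card] at this

/-- a residue field of prime cardinality consists of natural numbers. -/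
theorem exists_natCast_eq [Fintype (R ⧸ 𝔮)] (hq : (Fintype.card (R ⧸ 𝔮)).Prime) (y : R ⧸ 𝔮) :
    ∃ n : ℕ, ((n : ℕ) : R ⧸ 𝔮) = y := by
  letI := Ideal.Quotient.field 𝔮
  haveI : Fact (Fintype.card (R ⧸ 𝔮)).Prime := ⟨hq⟩
  haveI : CharP (R ⧸ 𝔮) (Fintype.card (R ⧸ 𝔮)) := charP_of_card_eq_prime rfl
  have hinj : Function.Injective (ZMod.castHom (dvd_refl (Fintype.card (R ⧸ 𝔮))) (R ⧸ 𝔮)) :=
    RingHom.injective _
  have hbij : Function.Bijective (ZMod.castHom (dvd_refl (Fintype.card (R ⧸ 𝔮))) (R ⧸ 𝔮)) := by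
    rw [Fintype.bijective_iff_injective_and_card]
    exact ⟨hinj, ZMod.card _⟩
  obtain ⟨z, hz⟩ := hbij.2 y
  refine ⟨z.val, ?_⟩
  rw [← hz, ZMod.castHom_apply, ZMod.natCast_val]

end Fermat.Agent.S14.JacSum
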