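import Mathlib
import Fermat.Agent.S14.JacobiChar

/-!
# P18 (S14), block J: the Jacobi sum `J(χ, χ)` of the `p`-th power residue character at a
degree-one prime `𝔮` of `ℚ(ζ_p)` generates `∏_{p/2 < t < p} σ_t⁻¹ 𝔮`.
-/

set_option autoImplicit false

namespace Fermat.Agent.S14

open NumberField
open scoped Pointwise

/-- the absolute norm is invariant under ring automorphisms. -/
theorem jac_absNorm_map_equiv {S : Type*} [CommRing S] [IsDedekindDomain S] [Module.Free ℤ S]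
    (e : S ≃+* S) (I : Ideal S) : Ideal.absNorm (I.map (e : S →+* S)) = Ideal.absNorm I := by
  rw [Ideal.absNorm_apply, Ideal.absNorm_apply, Submodule.cardQuot_apply, Submodule.cardQuot_apply]
  exact (Nat.card_congr (Ideal.quotientEquiv I (I.map (e : S →+* S)) e rfl).toEquiv).symm

/-- the absolute norm is invariant under the pointwise action of a group of automorphisms. -/
theorem jac_absNorm_smul {S G : Type*} [CommRing S] [IsDedekindDomain S] [Module.Free ℤ S]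
    [Group G] [MulSemiringAction G S] (g : G) (I : Ideal S) :
    Ideal.absNorm (g • I) = Ideal.absNorm I := by
  rw [Ideal.pointwise_smul_def]
  exact jac_absNorm_map_equiv (MulSemiringAction.toRingEquiv G S g) I

/-- (J) Jacobi sums: for a degree-one prime `𝔮` of `ℚ(ζ_p)` above `q ≠ p`, the product of the
conjugates `σ_t⁻¹ 𝔮`, `p/2 < t < p`, is principal (generated by the Jacobi sum `J(χ, χ)` of the
`p`-th power residue character modulo `𝔮`). -/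
theorem jacobi_principal (p : ℕ) [Fact p.Prime] (hp : 3 ≤ p)
    (K : Type*) [Field K] [NumberField K] [IsCyclotomicExtension {p} ℚ K]
    (ζ : K) (hζ : IsPrimitiveRoot ζ p)
    (q : ℕ) (hq : q.Prime) (hqp : q ≠ p) (𝔮 : Ideal (𝓞 K)) (h𝔮 : Ideal.absNorm 𝔮 = q)
    (σ : ℕ → (K ≃ₐ[ℚ] K)) (hσ : ∀ t ∈ Finset.Ioo (p / 2) p, σ t ζ = ζ ^ t) :
    ∃ J : 𝓞 K, J ≠ 0 ∧ Ideal.span {J} = ∏ t ∈ Finset.Ioo (p / 2) p, (σ t)⁻¹ • 𝔮 := by
  classical
  have hpp : p.Prime := Fact.out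
  haveI : NeZero p := ⟨hpp.ne_zero⟩
  have hp2 : p ≠ 2 := by omega
  have hodd : p % 2 = 1 := by
    rcases hpp.eq_two_or_odd with h | h
    · omega
    · exact h
  -- the prime `𝔮`
  have h𝔮prime : 𝔮.IsPrime := Ideal.isPrime_of_irreducible_absNorm (by rw [h𝔮]; exact hq)
  have h𝔮bot : 𝔮 ≠ ⊥ := by
    rintro rfl
    rw [Ideal.absNorm_bot] at h𝔮
    exact hq.ne_zero h𝔮.symm
  haveI h𝔮max : 𝔮.IsMaximal := h𝔮prime.isMaximal h𝔮bot
  have hcardN : Nat.card (𝓞 K ⧸ 𝔮) = q := by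
    rw [← h𝔮, Ideal.absNorm_apply, Submodule.cardQuot_apply]
  haveI : Finite (𝓞 K ⧸ 𝔮) := Nat.finite_of_card_ne_zero (by rw [hcardN]; exact hq.ne_zero)
  letI : Fintype (𝓞 K ⧸ 𝔮) := Fintype.ofFinite _
  have hcard : Fintype.card (𝓞 K ⧸ 𝔮) = q := by rw [← Nat.card_eq_fintype_card, hcardN]
  have hqcard : (Fintype.card (𝓞 K ⧸ 𝔮)).Prime := by rw [hcard]; exact hq
  have hpF : ((p : ℕ) : 𝓞 K ⧸ 𝔮) ≠ 0 := by
    haveI : Fact (Fintype.card (𝓞 K ⧸ 𝔮)).Prime := ⟨hqcard⟩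
    haveI : CharP (𝓞 K ⧸ 𝔮) (Fintype.card (𝓞 K ⧸ 𝔮)) := charP_of_card_eq_prime rfl
    rw [Ne, CharP.cast_eq_zero_iff (𝓞 K ⧸ 𝔮) (Fintype.card (𝓞 K ⧸ 𝔮)), hcard]
    intro h
    exact hqp ((Nat.prime_dvd_prime_iff_eq hq hpp).mp h)
  -- the root of unity in `𝓞 K`
  set ζR : 𝓞 K := hζ.toInteger with hζR_def
  have hζR : IsPrimitiveRoot ζR p := hζ.toInteger_isPrimitiveRoot
  have hpq : p ∣ Fintype.card (𝓞 K ⧸ 𝔮) - 1 := JacSum.dvd_card_sub_one_of_ne 𝔮 p hpF hζR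
  -- the character and its Jacobi sums
  set χ := JacSum.resChar 𝔮 p hζR hpq with hχ
  set J : 𝓞 K := jacobiSum χ χ with hJ
  set J' : 𝓞 K := jacobiSum (χ ^ (p - 1)) (χ ^ (p - 1)) with hJ'
  have hJJ' : J * J' = (q : 𝓞 K) := by
    rw [hJ, hJ', hχ, JacSum.jacobiSum_resChar_mul_inv 𝔮 p hp2 hζR hpq, hcard]
  have hq0 : (q : 𝓞 K) ≠ 0 := Nat.cast_ne_zero.mpr hq.ne_zero
  have hJ0 : J ≠ 0 := by
    intro h
    rw [h, zero_mul] at hJJ'
    exact hq0 hJJ'.symm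
  -- the ring homomorphisms induced by the `σ t`
  set ρ : ℕ → (𝓞 K →+* 𝓞 K) := fun t => MulSemiringAction.toRingHom (K ≃ₐ[ℚ] K) (𝓞 K) (σ t)
    with hρdef
  have hρ : ∀ t ∈ Finset.Ioo (p / 2) p, ρ t ζR = ζR ^ t := by
    intro t ht
    apply RingOfIntegers.ext
    have h1 : ((ρ t ζR : 𝓞 K) : K) = σ t (ζR : K) := rfl
    have h2 : (ζR : K) = ζ := hζ.coe_toInteger
    have h3 : ((ζR ^ t : 𝓞 K) : K) = (ζR : K) ^ t := rfl
    rw [h1, h3, h2, hσ t ht]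
  have hρapp : ∀ (t : ℕ) (x : 𝓞 K), ρ t x = (σ t) • x := fun t x => rfl
  -- membership of `J` in the primes `σ_t⁻¹ 𝔮`
  have hmem : ∀ t ∈ Finset.Ioo (p / 2) p, J ∈ (σ t)⁻¹ • 𝔮 := by
    intro t ht
    have ht' := Finset.mem_Ioo.mp ht
    rw [Ideal.mem_inv_pointwise_smul_iff, ← hρapp]
    exact (JacSum.map_jacobiSum_resChar_mem_iff 𝔮 p hζR hpq hqcard (ρ t) t (by omega) ht'.2
      (hρ t ht)).mpr (by omega)
  -- the primes `σ_t⁻¹ 𝔮` are maximal and pairwise distinct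
  have hmax : ∀ t : ℕ, ((σ t)⁻¹ • 𝔮).IsMaximal := by
    intro t
    rw [Ideal.pointwise_smul_def]
    exact Ideal.map_isMaximal_of_equiv (MulSemiringAction.toRingEquiv (K ≃ₐ[ℚ] K) (𝓞 K) (σ t)⁻¹)
  have hinj : ∀ s ∈ Finset.Ioo (p / 2) p, ∀ t ∈ Finset.Ioo (p / 2) p,
      (σ s)⁻¹ • 𝔮 = (σ t)⁻¹ • 𝔮 → s = t := by
    intro s hs t ht hst
    have hs' := Finset.mem_Ioo.mp hs
    have ht' := Finset.mem_Ioo.mp ht
    obtain ⟨n, hn⟩ := JacSum.exists_natCast_eq 𝔮 hqcard (Ideal.Quotient.mk 𝔮 (ρ s ζR))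
    have h1 : ζR - (n : 𝓞 K) ∈ (σ s)⁻¹ • 𝔮 := by
      rw [Ideal.mem_inv_pointwise_smul_iff, ← hρapp, map_sub, map_natCast,
        ← Ideal.Quotient.eq_zero_iff_mem, map_sub, map_natCast, hn, sub_self]
    rw [hst, Ideal.mem_inv_pointwise_smul_iff, ← hρapp, map_sub, map_natCast,
      ← Ideal.Quotient.eq_zero_iff_mem, map_sub, map_natCast, hn, sub_eq_zero] at h1
    rw [hρ s hs, hρ t ht] at h1
    have h2 : ζR ^ t = ζR ^ s :=
      JacSum.eq_of_mk_eq_of_pow_eq_one 𝔮 p hpF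
        (by rw [← pow_mul, mul_comm, pow_mul, hζR.pow_eq_one, one_pow])
        (by rw [← pow_mul, mul_comm, pow_mul, hζR.pow_eq_one, one_pow]) h1
    exact (hζR.pow_inj ht'.2 hs'.2 h2).symm
  -- the product divides `(J)`
  have hdvd : (∏ t ∈ Finset.Ioo (p / 2) p, (σ t)⁻¹ • 𝔮) ∣ Ideal.span {J} := by
    apply Finset.prod_dvd_of_coprime
    · intro s hs t ht hne
      rw [Function.onFun, Ideal.isCoprime_iff_sup_eq]
      exact Ideal.IsMaximal.coprime_of_ne (hmax s) (hmax t) (fun h => hne (hinj s hs t ht h))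
    · intro t ht
      rw [Ideal.dvd_iff_le, Ideal.span_singleton_le_iff_mem]
      exact hmem t ht
  -- norms
  have hfin : Module.finrank ℤ (𝓞 K) = p - 1 := by
    rw [RingOfIntegers.rank, IsCyclotomicExtension.finrank (n := p) K
      (Polynomial.cyclotomic.irreducible_rat hpp.pos), Nat.totient_prime hpp]
  have hnormq : Ideal.absNorm (Ideal.span {(q : 𝓞 K)}) = q ^ (p - 1) := by
    rw [Ideal.absNorm_span_natCast, hfin]
  have hJ'eq : J' = ρ (p - 1) J := by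
    rw [hJ', hJ, hχ]
    exact JacSum.jacobiSum_resChar_pow_eq 𝔮 p hζR hpq (ρ (p - 1)) (p - 1) (by omega)
      (hρ (p - 1) (Finset.mem_Ioo.mpr ⟨by omega, by omega⟩))
  have hnormJ' : Ideal.absNorm (Ideal.span {J'}) = Ideal.absNorm (Ideal.span {J}) := by
    have : Ideal.span {J'} = (σ (p - 1)) • Ideal.span {J} := by
      rw [Ideal.pointwise_smul_def, Ideal.map_span, Set.image_singleton, hJ'eq]
    rw [this, jac_absNorm_smul]
  have hsq : Ideal.absNorm (Ideal.span {J}) ^ 2 = (q ^ ((p - 1) / 2)) ^ 2 := by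
    rw [sq, ← pow_mul]
    nth_rewrite 2 [← hnormJ']
    rw [← map_mul, Ideal.span_singleton_mul_span_singleton, hJJ', hnormq]
    congr 1
    omega
  have hnormJ : Ideal.absNorm (Ideal.span {J}) = q ^ ((p - 1) / 2) :=
    Nat.pow_left_injective (by norm_num : (2 : ℕ) ≠ 0) hsq
  have hnormprod : Ideal.absNorm (∏ t ∈ Finset.Ioo (p / 2) p, (σ t)⁻¹ • 𝔮) =
      q ^ ((p - 1) / 2) := by
    rw [map_prod]
    rw [Finset.prod_congr rfl (fun t _ => by rw [jac_absNorm_smul, h𝔮])]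
    rw [Finset.prod_const, Nat.card_Ioo]
    congr 1
    omega
  -- conclusion
  refine ⟨J, hJ0, ?_⟩
  obtain ⟨C, hC⟩ := hdvd
  have hCnorm : Ideal.absNorm C = 1 := by
    have h := congrArg Ideal.absNorm hC
    rw [map_mul, hnormJ, hnormprod] at h
    have hpos : 0 < q ^ ((p - 1) / 2) := pos_of_ne_zero (pow_ne_zero _ hq.ne_zero)
    exact (Nat.eq_of_mul_eq_mul_left hpos (by rw [mul_one]; exact h.symm))
  rw [Ideal.absNorm_eq_one_iff] at hCnorm
  rw [hC, hCnorm, Ideal.mul_top]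

end Fermat.Agent.S14
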