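import Mathlib
import Fermat.Agent.S14.Defs
import Fermat.Agent.S14.RelAlg
import Fermat.Agent.S14.RelAlg2
import Fermat.Agent.S14.EndCyc
import Fermat.Agent.S14.EndGroup
import Fermat.Agent.S14.EndFrob
import Fermat.Agent.S14.EndNorm
import Fermat.Agent.S14.EndConj
import Fermat.Agent.S14.EndInst
import Fermat.Agent.S14.FirstIneq
import Fermat.Agent.S14.Crossing
import Fermat.Agent.S14.Jacobi

/-!
# P18 (S14): the endgame — a `CounterField` cannot exist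
-/

set_option autoImplicit false

namespace Fermat.Agent.S14

open NumberField
open scoped Pointwise

/-- coercion of the Galois action on integers -/
theorem eg_coe_smul (L : Type*) [Field L] [NumberField L] (φ : L ≃ₐ[ℚ] L) (x : 𝓞 L) :
    ((φ • x : 𝓞 L) : L) = φ (x : L) := rfl

theorem eg_smul_algebraMap_of_fix (K L : Type*) [Field K] [NumberField K] [Field L] [NumberField L]
    [Algebra K L] (φ : L ≃ₐ[ℚ] L)
    (hφ : ∀ y : K, φ (algebraMap K L y) = algebraMap K L y) (x : 𝓞 K) :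
    φ • (algebraMap (𝓞 K) (𝓞 L) x) = algebraMap (𝓞 K) (𝓞 L) x := by
  apply RingOfIntegers.ext
  rw [eg_coe_smul]
  exact hφ x

/-- membership of natural numbers in a prime and in its restriction -/
theorem eg_natCast_mem_under (K L : Type*) [Field K] [NumberField K] [Field L] [NumberField L]
    [Algebra K L] (𝔔 : Ideal (𝓞 L)) (n : ℕ) :
    (n : 𝓞 K) ∈ Ideal.under (𝓞 K) 𝔔 ↔ (n : 𝓞 L) ∈ 𝔔 := by
  rw [Ideal.under, Ideal.mem_comap, map_natCast]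

/-- The split case: a Fermat congruence modulo `𝔔` makes `𝔮` a norm. -/
theorem eg_rel_of_pow (K L : Type*) [Field K] [NumberField K] [Field L] [NumberField L]
    [Algebra K L] (𝔔 : Ideal (𝓞 L)) (h𝔔 : 𝔔.IsPrime) (h0 : 𝔔 ≠ ⊥)
    (h : ∀ x : 𝓞 L, x ^ Ideal.absNorm (Ideal.under (𝓞 K) 𝔔) - x ∈ 𝔔) :
    RayNormRel K L ⊤ (Ideal.under (𝓞 K) 𝔔) ⊤ := by
  rw [← eg_relNorm_eq_of_pow K L 𝔔 h𝔔 h0 h]
  exact rel_relNorm K L h0

end Fermat.Agent.S14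

namespace Fermat.Agent.S14

open NumberField
open scoped Pointwise

/-- Roots of unity of order prime to `𝔮` are fixed by the `N𝔮`-th power map (they are distinct
modulo `𝔮`). -/
theorem eg_root_pow_absNorm (K : Type*) [Field K] [NumberField K] (𝔮 : Ideal (𝓞 K))
    (h𝔮 : 𝔮.IsPrime) (h0 : 𝔮 ≠ ⊥) (ζ : 𝓞 K) (m : ℕ) (hζ : ζ ^ m = 1) (hm : (m : 𝓞 K) ∉ 𝔮) :
    ζ ^ Ideal.absNorm 𝔮 = ζ := by
  have hmax : 𝔮.IsMaximal := h𝔮.isMaximal h0
  letI := Ideal.Quotient.field 𝔮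
  have hfin : Finite (𝓞 K ⧸ 𝔮) := Ideal.finiteQuotientOfFreeOfNeBot 𝔮 h0
  have hunder : 𝔮.under (𝓞 K) = 𝔮 := by
    ext x
    simp [Ideal.under]
  have hF : ∀ x : 𝓞 K, x ^ Nat.card (𝓞 K ⧸ 𝔮) - x ∈ 𝔮 := by
    intro x
    rw [← Ideal.Quotient.eq, map_pow]
    letI := Fintype.ofFinite (𝓞 K ⧸ 𝔮)
    rw [Nat.card_eq_fintype_card]
    exact FiniteField.pow_card _
  have H : (AlgHom.id (𝓞 K) (𝓞 K)).IsArithFrobAt 𝔮 := by
    intro x
    rw [hunder]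
    have := 𝔮.neg_mem (hF x)
    rwa [neg_sub] at this
  have h1 := H.apply_of_pow_eq_one hζ hm
  rw [hunder] at h1
  rw [Ideal.absNorm_apply, Submodule.cardQuot_apply]
  exact h1.symm

theorem eg_iter_root (L : Type*) [Field L] [NumberField L] (φ : L ≃ₐ[ℚ] L) (ζ : L) (q : ℕ) (h : φ ζ = ζ ^ q)
    (i : ℕ) : (φ ^ i) ζ = ζ ^ (q ^ i) := by
  induction i with
  | zero => simp
  | succ i ih =>
    rw [pow_succ, AlgEquiv.mul_apply, h, map_pow, ih, ← pow_mul, pow_succ]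

/-- Case `q ≢ 1 mod p`: the prime below `𝔔` is a norm. -/
theorem eg_case_ne_one (p : ℕ) [Fact p.Prime] (K L : Type*) [Field K] [NumberField K] [Field L]
    [NumberField L] [Algebra K L] [IsGalois ℚ L]
    (ζ : K) (hζ : IsPrimitiveRoot ζ p)
    (hdegQ : Module.finrank ℚ L = p * (p - 1))
    (htw : ∀ (τ g : L ≃ₐ[ℚ] L) (n : ℕ), g (algebraMap K L ζ) = algebraMap K L ζ →
      τ (algebraMap K L ζ) = algebraMap K L ζ ^ n → τ * g ^ n = g * τ)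
    (𝔔 : Ideal (𝓞 L)) (h𝔔 : 𝔔.IsPrime) (h0 : 𝔔 ≠ ⊥) (hp𝔔 : (p : 𝓞 L) ∉ 𝔔)
    (q : ℕ) (hq : q.Prime) (hq𝔔 : (q : 𝓞 L) ∈ 𝔔) (φ : L ≃ₐ[ℚ] L)
    (hφ : ∀ x : 𝓞 L, φ • x - x ^ q ∈ 𝔔) (hq1 : ¬ q ≡ 1 [MOD p]) :
    RayNormRel K L ⊤ (Ideal.under (𝓞 K) 𝔔) ⊤ := by
  have hpprime : p.Prime := Fact.out
  have hζL : IsPrimitiveRoot (algebraMap K L ζ) p :=
    hζ.map_of_injective (algebraMap K L).injective
  have hφζ : φ (algebraMap K L ζ) = algebraMap K L ζ ^ q :=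
    eg_frob_apply_root L 𝔔 h𝔔 q hq hq𝔔 φ hφ p hp𝔔 _ hζL.pow_eq_one
  have h1 : φ ^ (p - 1) = 1 := eg_pow_pred_eq_one p L _ hζL hdegQ htw φ q hφζ hq1
  have h𝔮prime : (Ideal.under (𝓞 K) 𝔔).IsPrime := Ideal.comap_isPrime _ _
  have hq𝔮 : (q : 𝓞 K) ∈ Ideal.under (𝓞 K) 𝔔 := (eg_natCast_mem_under K L 𝔔 q).mpr hq𝔔
  have h𝔮0 : Ideal.under (𝓞 K) 𝔔 ≠ ⊥ := by
    intro h
    rw [h, Ideal.mem_bot] at hq𝔮
    exact hq.ne_zero (by exact_mod_cast hq𝔮)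
  obtain ⟨f, hf0, hfN, hfpow⟩ := eg_absNorm_eq_pow K _ h𝔮prime h𝔮0 q hq hq𝔮
  -- `φ ^ f` fixes `ζ`
  have hp𝔮 : (p : 𝓞 K) ∉ Ideal.under (𝓞 K) 𝔔 := fun h => hp𝔔 ((eg_natCast_mem_under K L 𝔔 p).mp h)
  have hζint : (hζ.toInteger) ^ (q ^ f) = hζ.toInteger := by
    have := eg_root_pow_absNorm K _ h𝔮prime h𝔮0 hζ.toInteger p
      hζ.toInteger_isPrimitiveRoot.pow_eq_one hp𝔮
    rwa [hfN] at this
  have hζpow : ζ ^ (q ^ f) = ζ := by
    have := congrArg (fun x : 𝓞 K => (x : K)) hζint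
    simp only [map_pow] at this
    exact this
  have hφf : (φ ^ f) (algebraMap K L ζ) = algebraMap K L ζ := by
    rw [eg_iter_root L φ _ q hφζ f, ← map_pow, hζpow]
  have hgp : (φ ^ f) ^ p = 1 := eg_pow_eq_one_of_fix p L _ hζL hdegQ (φ ^ f) hφf
  have hg1 : (φ ^ f) ^ (p - 1) = 1 := by
    rw [← pow_mul, mul_comm, pow_mul, h1, one_pow]
  have hφf1 : φ ^ f = 1 := by
    have hcop : Nat.Coprime p (p - 1) := by
      have : p - 1 + 1 = p := Nat.sub_add_cancel hpprime.one_le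
      rw [Nat.coprime_comm]
      have h2 : Nat.Coprime (p - 1) (p - 1 + 1) := by simp
      rwa [this] at h2
    have hd := Nat.dvd_gcd (orderOf_dvd_of_pow_eq_one hgp) (orderOf_dvd_of_pow_eq_one hg1)
    rw [hcop.gcd_eq_one, Nat.dvd_one] at hd
    exact orderOf_eq_one_iff.mp hd
  apply eg_rel_of_pow K L 𝔔 h𝔔 h0
  intro x
  rw [hfN]
  have h2 := eg_frob_pow L 𝔔 h𝔔 q φ hφ f x
  rw [hφf1, one_smul] at h2
  have h3 := 𝔔.neg_mem h2
  rwa [neg_sub] at h3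

end Fermat.Agent.S14

namespace Fermat.Agent.S14

open NumberField
open scoped Pointwise

theorem eg_coe_smul' (K L : Type*) [Field K] [NumberField K] [Field L] [NumberField L]
    [Algebra K L] (g : L ≃ₐ[K] L) (x : 𝓞 L) : ((g • x : 𝓞 L) : L) = g (x : L) := rfl

theorem eg_pow_apply_eq (K L : Type*) [Field K] [NumberField K] [Field L] [NumberField L]
    [Algebra K L] (g : L ≃ₐ[K] L) (φ : L ≃ₐ[ℚ] L) (hg : ∀ x : L, g x = φ x) (t : ℕ) (x : L) :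
    (g ^ t) x = (φ ^ t) x := by
  induction t generalizing x with
  | zero => simp
  | succ t ih => rw [pow_succ, pow_succ, AlgEquiv.mul_apply, AlgEquiv.mul_apply, hg, ih]

/-- Case `q ≡ 1 mod p`. -/
theorem eg_case_one (p : ℕ) [Fact p.Prime] (hp : 3 ≤ p) (K L : Type*) [Field K] [NumberField K]
    [Field L] [NumberField L] [Algebra K L] [IsGalois K L] [IsCyclotomicExtension {p} ℚ K]
    [IsGalois ℚ L]
    (hdeg : Module.finrank K L = p) (hunr : UnramifiedEverywhere K L)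
    (ζ : K) (hζ : IsPrimitiveRoot ζ p)
    (hdegQ : Module.finrank ℚ L = p * (p - 1))
    (htw : ∀ (τ g : L ≃ₐ[ℚ] L) (n : ℕ), g (algebraMap K L ζ) = algebraMap K L ζ →
      τ (algebraMap K L ζ) = algebraMap K L ζ ^ n → τ * g ^ n = g * τ)
    (𝔔 : Ideal (𝓞 L)) (h𝔔 : 𝔔.IsPrime) (h0 : 𝔔 ≠ ⊥) (hp𝔔 : (p : 𝓞 L) ∉ 𝔔)
    (q : ℕ) (hq : q.Prime) (hq𝔔 : (q : 𝓞 L) ∈ 𝔔) (φ : L ≃ₐ[ℚ] L)
    (hφ : ∀ x : 𝓞 L, φ • x - x ^ q ∈ 𝔔) (hq1 : q ≡ 1 [MOD p]) :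
    RayNormRel K L ⊤ (Ideal.under (𝓞 K) 𝔔) ⊤ := by
  have hpprime : p.Prime := Fact.out
  have : IsGalois ℚ K := IsCyclotomicExtension.isGalois {p} ℚ K
  have hζL : IsPrimitiveRoot (algebraMap K L ζ) p :=
    hζ.map_of_injective (algebraMap K L).injective
  have hφζ : φ (algebraMap K L ζ) = algebraMap K L ζ ^ q :=
    eg_frob_apply_root L 𝔔 h𝔔 q hq hq𝔔 φ hφ p hp𝔔 _ hζL.pow_eq_one
  have hφfix : φ (algebraMap K L ζ) = algebraMap K L ζ := by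
    rw [hφζ]
    obtain ⟨k, hk⟩ : ∃ k, q = 1 + p * k := by
      have h1 : q % p = 1 := by
        have := hq1
        rw [Nat.ModEq, Nat.mod_eq_of_lt hpprime.one_lt] at this
        exact this
      exact ⟨q / p, by have := Nat.mod_add_div q p; omega⟩
    rw [hk, pow_add, pow_one, pow_mul, hζL.pow_eq_one, one_pow, mul_one]
  obtain ⟨g, hg⟩ := eg_exists_algEquiv_of_fix p K L ζ hζ φ hφfix
  have hφK : ∀ y : K, φ (algebraMap K L y) = algebraMap K L y := fun y => by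
    rw [← hg]
    exact g.commutes y
  have h𝔮prime : (Ideal.under (𝓞 K) 𝔔).IsPrime := Ideal.comap_isPrime _ _
  have hq𝔮 : (q : 𝓞 K) ∈ Ideal.under (𝓞 K) 𝔔 := (eg_natCast_mem_under K L 𝔔 q).mpr hq𝔔
  have h𝔮0 : Ideal.under (𝓞 K) 𝔔 ≠ ⊥ := by
    intro h
    rw [h, Ideal.mem_bot] at hq𝔮
    exact hq.ne_zero (by exact_mod_cast hq𝔮)
  have hqp : q ≠ p := by
    rintro rfl
    exact hp𝔔 hq𝔔
  have habs : Ideal.absNorm (Ideal.under (𝓞 K) 𝔔) = q := by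
    apply eg_absNorm_eq_of_pow K _ h𝔮prime q hq hq𝔮
    intro x
    have h1 := hφ (algebraMap (𝓞 K) (𝓞 L) x)
    rw [eg_smul_algebraMap_of_fix K L φ hφK x] at h1
    have h2 := 𝔔.neg_mem h1
    rw [neg_sub, ← map_pow, ← map_sub] at h2
    exact h2
  have hgφ : ∀ x : 𝓞 L, g • x = φ • x := fun x => by
    apply RingOfIntegers.ext
    rw [eg_coe_smul, eg_coe_smul', hg]
  by_cases hg1 : g = 1
  · apply eg_rel_of_pow K L 𝔔 h𝔔 h0
    intro x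
    rw [habs]
    have h1 := hφ x
    rw [← hgφ, hg1, one_smul] at h1
    have h2 := 𝔔.neg_mem h1
    rwa [neg_sub] at h2
  · -- the main case
    have hτex : ∀ t : ℕ, ∃ τ : L ≃ₐ[ℚ] L, t ∈ Finset.Ioo (p / 2) p →
        τ (algebraMap K L ζ) = algebraMap K L ζ ^ t := by
      intro t
      by_cases ht : t ∈ Finset.Ioo (p / 2) p
      · have hnd : ¬ p ∣ t := by
          rw [Finset.mem_Ioo] at ht
          intro hd
          have := Nat.le_of_dvd (by omega) hd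
          omega
        obtain ⟨τ, hτ⟩ := eg_exists_aut_pow p L _ hζL t hnd
        exact ⟨τ, fun _ => hτ⟩
      · exact ⟨1, fun h => absurd h ht⟩
    choose τ hτ using hτex
    let σ : ℕ → (K ≃ₐ[ℚ] K) := fun t => AlgEquiv.restrictNormalHom K (τ t)
    have hσ : ∀ t ∈ Finset.Ioo (p / 2) p, σ t ζ = ζ ^ t := by
      intro t ht
      apply (algebraMap K L).injective
      rw [eg_restrict_apply K L (τ t) ζ, hτ t ht, map_pow]
    obtain ⟨J, hJ0, hJ⟩ := jacobi_principal p hp K ζ hζ q hq hqp _ habs σ hσ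
    have hnab := eg_not_comm p hp L _ hζL hdegQ htw
    have hcross : ∀ t ∈ Finset.Ioo (p / 2) p,
        RayNormRel K L ⊤ ((σ t)⁻¹ • Ideal.under (𝓞 K) 𝔔) (Ideal.under (𝓞 K) 𝔔 ^ t) := by
      intro t ht
      have hFrob : ∀ x : 𝓞 L, (g ^ t) • x - x ^ q ∈ (τ t)⁻¹ • 𝔔 := by
        intro x
        have hconj := eg_frob_conj L 𝔔 q φ (τ t)⁻¹ hφ x
        have htwist := htw (τ t) φ t hφfix (hτ t ht)
        have h3 : (τ t)⁻¹ * φ * ((τ t)⁻¹)⁻¹ = φ ^ t := by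
          rw [inv_inv, mul_assoc, ← htwist, ← mul_assoc, inv_mul_cancel, one_mul]
        rw [h3] at hconj
        have h4 : (g ^ t) • x = (φ ^ t) • x := by
          apply RingOfIntegers.ext
          rw [eg_coe_smul, eg_coe_smul', eg_pow_apply_eq K L g φ hg]
        rw [h4]
        exact hconj
      have hunder : Ideal.under (𝓞 K) ((τ t)⁻¹ • 𝔔) = (σ t)⁻¹ • Ideal.under (𝓞 K) 𝔔 := by
        rw [eg_under_smul, map_inv]
      exact crossing p hp K L hdeg hunr hnab q hq hqp (Ideal.under (𝓞 K) 𝔔)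
        ((σ t)⁻¹ • Ideal.under (𝓞 K) 𝔔) habs (by rw [eg_absNorm_smul]; exact habs) 𝔔
        ((τ t)⁻¹ • 𝔔) h𝔔 (eg_isPrime_smul L _ 𝔔 h𝔔) rfl hunder g hg1 t
        (fun x => by rw [hgφ]; exact hφ x) hFrob
    have hprod := rel_prod K L (Finset.Ioo (p / 2) p)
      (fun t => (σ t)⁻¹ • Ideal.under (𝓞 K) 𝔔) (fun t => Ideal.under (𝓞 K) 𝔔 ^ t) hcross
    rw [← hJ, Finset.prod_pow_eq_pow_sum] at hprod
    have hs : RayNormRel K L ⊤ (Ideal.under (𝓞 K) 𝔔 ^ ∑ t ∈ Finset.Ioo (p / 2) p, t) ⊤ :=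
      rel_trans K L (rel_symm K L hprod) (rel_principal K L hJ0)
    have hpw : RayNormRel K L ⊤ (Ideal.under (𝓞 K) 𝔔 ^ p) ⊤ := by
      have := rel_pow_finrank K L (𝔞 := Ideal.under (𝓞 K) 𝔔) h𝔮0
      rwa [hdeg] at this
    exact rel_of_pow_coprime K L h𝔮0 hs hpw (eg_sum_coprime p hp)

end Fermat.Agent.S14

namespace Fermat.Agent.S14

open NumberField
open scoped Pointwise

/-- Every nonzero prime of `K` is trivial modulo norm classes. -/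
theorem eg_prime_rel (p : ℕ) [Fact p.Prime] (hp : 3 ≤ p) (K L : Type*) [Field K] [NumberField K]
    [Field L] [NumberField L] [Algebra K L] [IsGalois K L] [IsCyclotomicExtension {p} ℚ K]
    [IsGalois ℚ L]
    (hdeg : Module.finrank K L = p) (hunr : UnramifiedEverywhere K L)
    (ζ : K) (hζ : IsPrimitiveRoot ζ p)
    (htw : ∀ (τ g : L ≃ₐ[ℚ] L) (n : ℕ), g (algebraMap K L ζ) = algebraMap K L ζ →
      τ (algebraMap K L ζ) = algebraMap K L ζ ^ n → τ * g ^ n = g * τ)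
    (𝔮 : Ideal (𝓞 K)) (h𝔮 : 𝔮.IsPrime) (h0 : 𝔮 ≠ ⊥) : RayNormRel K L ⊤ 𝔮 ⊤ := by
  have hpprime : p.Prime := Fact.out
  by_cases hpq : (p : 𝓞 K) ∈ 𝔮
  · exact eg_rel_of_p_mem p K L 𝔮 h𝔮 hpq
  have hdegQ : Module.finrank ℚ L = p * (p - 1) := by
    have h1 : Module.finrank ℚ K = p - 1 := by
      rw [IsCyclotomicExtension.finrank (n := p) K
        (Polynomial.cyclotomic.irreducible_rat hpprime.pos), Nat.totient_prime hpprime]
    rw [← Module.finrank_mul_finrank ℚ K L, h1, hdeg, mul_comm]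
  obtain ⟨⟨𝔔, h𝔔prime, h𝔔over⟩⟩ := 𝔮.nonempty_primesOver (S := 𝓞 L)
  have hunder : Ideal.under (𝓞 K) 𝔔 = 𝔮 := h𝔔over.over.symm
  have h𝔔0 : 𝔔 ≠ ⊥ := by
    rintro rfl
    apply h0
    rw [← hunder]
    exact Ideal.under_bot (𝓞 K) (𝓞 L)
  have hp𝔔 : (p : 𝓞 L) ∉ 𝔔 := fun h => hpq (by
    rw [← hunder]
    exact (eg_natCast_mem_under K L 𝔔 p).mpr h)
  obtain ⟨q, hq, hq𝔔, φ, hφ⟩ := eg_exists_frob L 𝔔 h𝔔prime h𝔔0
  rw [← hunder]
  by_cases hq1 : q ≡ 1 [MOD p]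
  · exact eg_case_one p hp K L hdeg hunr ζ hζ hdegQ htw 𝔔 h𝔔prime h𝔔0 hp𝔔 q hq hq𝔔 φ hφ hq1
  · exact eg_case_ne_one p K L ζ hζ hdegQ htw 𝔔 h𝔔prime h𝔔0 hp𝔔 q hq hq𝔔 φ hφ hq1

/-- The abstract core: no such pair `K ⊆ L` exists. -/
theorem core_false (p : ℕ) [Fact p.Prime] (hp : 3 ≤ p) (K L : Type*) [Field K] [NumberField K]
    [Field L] [NumberField L] [Algebra K L] [IsGalois K L] [IsCyclotomicExtension {p} ℚ K]
    [IsGalois ℚ L]
    (hdeg : Module.finrank K L = p) (hunr : UnramifiedEverywhere K L)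
    (ζ : K) (hζ : IsPrimitiveRoot ζ p)
    (htw : ∀ (τ g : L ≃ₐ[ℚ] L) (n : ℕ), g (algebraMap K L ζ) = algebraMap K L ζ →
      τ (algebraMap K L ζ) = algebraMap K L ζ ^ n → τ * g ^ n = g * τ) : False := by
  have hunr' : UnramifiedOutside K L ⊤ := fun P hP hP0 _ => hunr P hP hP0
  obtain ⟨𝔞, h𝔞0, -, h𝔞⟩ := first_inequality p hp K L hdeg ζ hζ ⊤ (by simp)
    (show (⊤ : Ideal (𝓞 K)).radical ≤ ⊤ from le_top) (by rw [Ideal.isCoprime_iff_sup_eq]; simp) hunr'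
  exact h𝔞 (rel_top_of_primes K L
    (fun 𝔮 h𝔮 h0 => eg_prime_rel p hp K L hdeg hunr ζ hζ htw 𝔮 h𝔮 h0) 𝔞 h𝔞0)

/-- (E) endgame: a `CounterField` cannot exist. -/
theorem counterField_false (p : ℕ) [Fact p.Prime] (hp : 3 ≤ p)
    (L : Type*) [Field L] [NumberField L] (ζ : L) (h : CounterField p L ζ) : False := by
  refine eg_instantiate p L ζ h False ?_
  intro K _ _ _ _ _ _ hdeg hunr ζ' hζ' hmap
  exact core_false p hp K L hdeg hunr ζ' hζ' (fun τ g n hg hτ => by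
    rw [hmap] at hg hτ
    exact h.twist τ g n hg hτ)

end Fermat.Agent.S14
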