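import Mathlib
import Fermat.Prelude.Def_ExtCitation_AdmissibleExtension_v2
import Fermat.Agent.S42.Cyclo

/-!
P18 / S14, module [RED]: reduction of `ExtVanishingCts p` to the group-theoretic core statement
`CoreG p`: an open normal subgroup `H` of `ker (cycloChar p)` of the absolute Galois group of `ℚ`,
with quotient of exponent `p` generated by one element, on which `Gal(ℚ(ζ_p)/ℚ)` acts through
`ω⁻¹`, containing the inertia groups (inside `ker (cycloChar p)`) at all `ℓ ≠ p` and the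
decomposition groups (inside `ker (cycloChar p)`) at `p`, is all of `ker (cycloChar p)`.
-/

set_option autoImplicit false
set_option linter.unusedSectionVars false

namespace Fermat.Agent.S14

open ExtCitation Fermat.Agent.S42

/-- The group-theoretic core statement. -/
def CoreG (p : ℕ) [Fact p.Prime] : Prop :=
  ∀ H : Subgroup (AlgebraicClosure ℚ ≃ₐ[ℚ] AlgebraicClosure ℚ),
    IsOpen (H : Set (AlgebraicClosure ℚ ≃ₐ[ℚ] AlgebraicClosure ℚ)) →
    H ≤ (cycloChar p).ker →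
    (∀ τ σ : AlgebraicClosure ℚ ≃ₐ[ℚ] AlgebraicClosure ℚ, σ ∈ H → τ * σ * τ⁻¹ ∈ H) →
    (∀ σ ∈ (cycloChar p).ker, σ ^ p ∈ H) →
    (∀ σ ∈ (cycloChar p).ker, ∀ τ ∈ (cycloChar p).ker, σ ∉ H → ∃ i : ℕ, τ * (σ ^ i)⁻¹ ∈ H) →
    (∀ τ : AlgebraicClosure ℚ ≃ₐ[ℚ] AlgebraicClosure ℚ, ∀ σ ∈ (cycloChar p).ker,
      τ * σ ^ ((cycloChar p τ : (ZMod p)ˣ) : ZMod p).val * τ⁻¹ * σ⁻¹ ∈ H) →
    (∀ ℓ : ℕ, ℓ.Prime → ℓ ≠ p → ∀ A : ValuationSubring (AlgebraicClosure ℚ), A.LiesOverPrime ℓ →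
      ∀ σ ∈ A.inertiaSubgroupIn ℚ, σ ∈ (cycloChar p).ker → σ ∈ H) →
    (∀ A : ValuationSubring (AlgebraicClosure ℚ), A.LiesOverPrime p →
      ∀ σ ∈ A.decompositionSubgroup ℚ, σ ∈ (cycloChar p).ker → σ ∈ H) →
    (cycloChar p).ker ≤ H

section

variable {p : ℕ} [Fact p.Prime]

theorem cycloExp_cast (σ : AlgebraicClosure ℚ ≃ₐ[ℚ] AlgebraicClosure ℚ) :
    ((cycloExp p σ : ℕ) : ZMod p) = ((cycloChar p σ : (ZMod p)ˣ) : ZMod p) := by
  unfold cycloExp
  rw [ZMod.natCast_zmod_val]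
  rfl

end

end Fermat.Agent.S14

namespace Fermat.Agent.S14

open ExtCitation Fermat.Agent.S42

section Red

variable {p : ℕ} [Fact p.Prime]
variable {V : Type} [AddCommGroup V] [Module (ZMod p) V]
  [DistribMulAction (AlgebraicClosure ℚ ≃ₐ[ℚ] AlgebraicClosure ℚ) V]
  [SMulCommClass (AlgebraicClosure ℚ ≃ₐ[ℚ] AlgebraicClosure ℚ) (ZMod p) V]
  {C : Submodule (ZMod p) V}

/-- Elements of `ker (cycloChar p)` act trivially modulo `C`. -/
theorem red_smul_sub_mem (hadm : IsAdmissibleExtension p V C)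
    {σ : AlgebraicClosure ℚ ≃ₐ[ℚ] AlgebraicClosure ℚ} (hσ : cycloChar p σ = 1) (x : V) :
    σ • x - x ∈ C := by
  have h := hadm.cyclo_quot σ x
  rw [cycloExp_cast, hσ, Units.val_one, one_smul] at h
  exact h

/-- `σ ↦ σ • x - x` is additive on `ker (cycloChar p)`. -/
theorem red_mul_smul_sub (hadm : IsAdmissibleExtension p V C)
    (σ : AlgebraicClosure ℚ ≃ₐ[ℚ] AlgebraicClosure ℚ)
    {τ : AlgebraicClosure ℚ ≃ₐ[ℚ] AlgebraicClosure ℚ} (hτ : cycloChar p τ = 1) (x : V) :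
    (σ * τ) • x - x = (σ • x - x) + (τ • x - x) := by
  have h1 : σ • (τ • x - x) = τ • x - x := hadm.fixed_sub σ _ (red_smul_sub_mem hadm hτ x)
  rw [smul_sub] at h1
  rw [mul_smul]
  have h2 : σ • τ • x = τ • x - x + σ • x := by rw [← h1]; abel
  rw [h2]; abel

theorem red_pow_smul_sub (hadm : IsAdmissibleExtension p V C)
    {σ : AlgebraicClosure ℚ ≃ₐ[ℚ] AlgebraicClosure ℚ} (hσ : cycloChar p σ = 1) (x : V) (n : ℕ) :
    (σ ^ n) • x - x = n • (σ • x - x) := by
  induction n with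
  | zero => simp
  | succ n ih =>
    rw [pow_succ, red_mul_smul_sub hadm _ hσ, ih, succ_nsmul]

theorem red_inv_smul_sub (hadm : IsAdmissibleExtension p V C)
    {σ : AlgebraicClosure ℚ ≃ₐ[ℚ] AlgebraicClosure ℚ} (hσ : cycloChar p σ = 1) (x : V) :
    σ⁻¹ • x - x = -(σ • x - x) := by
  have hσ' : cycloChar p σ⁻¹ = 1 := by rw [map_inv, hσ, inv_one]
  have h := red_mul_smul_sub hadm σ hσ' x
  rw [mul_inv_cancel, one_smul, sub_self] at h
  rw [eq_neg_iff_add_eq_zero, add_comm]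
  exact h.symm

/-- The subgroup of `ker (cycloChar p)` acting trivially on `V`. -/
def redSubgroup (p : ℕ) [Fact p.Prime] (V : Type) [AddCommGroup V]
    [DistribMulAction (AlgebraicClosure ℚ ≃ₐ[ℚ] AlgebraicClosure ℚ) V] :
    Subgroup (AlgebraicClosure ℚ ≃ₐ[ℚ] AlgebraicClosure ℚ) where
  carrier := {σ | cycloChar p σ = 1 ∧ ∀ v : V, σ • v = v}
  mul_mem' := by
    rintro σ τ ⟨h1, h2⟩ ⟨h3, h4⟩
    refine ⟨by rw [map_mul, h1, h3, one_mul], fun v => ?_⟩
    rw [mul_smul, h4, h2]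
  one_mem' := ⟨map_one _, fun v => one_smul _ v⟩
  inv_mem' := by
    rintro σ ⟨h1, h2⟩
    refine ⟨by rw [map_inv, h1, inv_one], fun v => ?_⟩
    rw [inv_smul_eq_iff, h2]

theorem mem_redSubgroup {σ : AlgebraicClosure ℚ ≃ₐ[ℚ] AlgebraicClosure ℚ} :
    σ ∈ redSubgroup p V ↔ cycloChar p σ = 1 ∧ ∀ v : V, σ • v = v := Iff.rfl

theorem isOpen_ker_cycloChar (p : ℕ) [Fact p.Prime] :
    IsOpen ((cycloChar p).ker : Set (AlgebraicClosure ℚ ≃ₐ[ℚ] AlgebraicClosure ℚ)) := by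
  obtain ⟨L, hL, h⟩ := exists_finiteLevel_cycloChar p
  have := hL
  refine Subgroup.isOpen_mono (H₁ := L.fixingSubgroup) ?_ (IntermediateField.fixingSubgroup_isOpen L)
  intro σ hσ
  rw [MonoidHom.mem_ker]
  refine h σ fun x hx => ?_
  exact (IntermediateField.mem_fixingSubgroup_iff L σ).mp hσ x hx

theorem isOpen_redSubgroup (hopen : IsOpen {σ : AlgebraicClosure ℚ ≃ₐ[ℚ] AlgebraicClosure ℚ |
    ∀ v : V, σ • v = v}) :
    IsOpen (redSubgroup p V : Set (AlgebraicClosure ℚ ≃ₐ[ℚ] AlgebraicClosure ℚ)) := by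
  have h : (redSubgroup p V : Set (AlgebraicClosure ℚ ≃ₐ[ℚ] AlgebraicClosure ℚ)) =
      ((cycloChar p).ker : Set (AlgebraicClosure ℚ ≃ₐ[ℚ] AlgebraicClosure ℚ)) ∩
        {σ | ∀ v : V, σ • v = v} := by
    ext σ
    simp only [SetLike.mem_coe, mem_redSubgroup, Set.mem_inter_iff, MonoidHom.mem_ker,
      Set.mem_setOf_eq]
  rw [h]
  exact (isOpen_ker_cycloChar p).inter hopen

end Red

end Fermat.Agent.S14

namespace Fermat.Agent.S14

open ExtCitation Fermat.Agent.S42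

section Red2

variable {p : ℕ} [Fact p.Prime]
variable {V : Type} [AddCommGroup V] [Module (ZMod p) V]
  [DistribMulAction (AlgebraicClosure ℚ ≃ₐ[ℚ] AlgebraicClosure ℚ) V]
  [SMulCommClass (AlgebraicClosure ℚ ≃ₐ[ℚ] AlgebraicClosure ℚ) (ZMod p) V]
  {C : Submodule (ZMod p) V}

/-- The mod `p` cyclotomic character is non-trivial for `p ≥ 3`. -/
theorem exists_cycloChar_ne_one (p : ℕ) [Fact p.Prime] (h3 : 3 ≤ p) :
    ∃ σ : AlgebraicClosure ℚ ≃ₐ[ℚ] AlgebraicClosure ℚ, cycloChar p σ ≠ 1 := by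
  have hp : p.Prime := Fact.out
  by_contra hcon
  push Not at hcon
  obtain ⟨ζ, hζ⟩ := cy_exists_primitiveRoot p
  have hfix : ∀ σ : AlgebraicClosure ℚ ≃ₐ[ℚ] AlgebraicClosure ℚ, σ ζ = ζ := fun σ => by
    rw [cy_spec p σ hζ.pow_eq_one, hcon σ, Units.val_one, ZMod.val_one, pow_one]
  obtain ⟨q, rfl⟩ := (InfiniteGalois.mem_range_algebraMap_iff_fixed ζ).mpr hfix
  have hq : IsPrimitiveRoot q p :=
    hζ.of_map_of_injective (algebraMap ℚ (AlgebraicClosure ℚ)).injective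
  have hq1 : q ^ p = 1 := hq.pow_eq_one
  rcases pow_eq_one_iff_cases.mp hq1 with h | h | ⟨-, h⟩
  · exact hp.ne_zero h
  · rw [h, IsPrimitiveRoot.one_left_iff] at hq
    omega
  · rcases hp.eq_two_or_odd' with h2 | hodd
    · omega
    · exact (Nat.not_even_iff_odd.mpr hodd) h

/-- If `ker (cycloChar p)` acts trivially on `V`, the extension splits globally. -/
theorem splitsGlobally_of_trivial (h3 : 3 ≤ p) (hadm : IsAdmissibleExtension p V C)
    (htriv : ∀ σ : AlgebraicClosure ℚ ≃ₐ[ℚ] AlgebraicClosure ℚ, cycloChar p σ = 1 →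
      ∀ v : V, σ • v = v) : SplitsGlobally C := by
  obtain ⟨σ₀, hσ₀⟩ := exists_cycloChar_ne_one p h3
  set a : ZMod p := ((cycloChar p σ₀ : (ZMod p)ˣ) : ZMod p) with ha
  have ha1 : a ≠ 1 := fun h => hσ₀ (Units.ext h)
  have h1a : (1 - a) ≠ 0 := sub_ne_zero.mpr (Ne.symm ha1)
  let C' : Submodule (ZMod p) V :=
    { carrier := {x | σ₀ • x = a • x}
      add_mem' := by
        intro x y hx hy
        simp only [Set.mem_setOf_eq] at hx hy ⊢
        rw [smul_add, hx, hy, smul_add]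
      zero_mem' := by simp
      smul_mem' := by
        intro c x hx
        simp only [Set.mem_setOf_eq] at hx ⊢
        rw [smul_comm σ₀ c x, hx, smul_comm] }
  have hC' : ∀ x : V, x ∈ C' ↔ σ₀ • x = a • x := fun x => Iff.rfl
  refine ⟨C', ?_, ?_⟩
  · intro τ x hx
    rw [hC'] at hx ⊢
    have hcomm : cycloChar p (σ₀ * τ * σ₀⁻¹ * τ⁻¹) = 1 := by
      rw [map_mul, map_mul, map_mul, map_inv, map_inv]
      simp [mul_comm]
    have h2 := htriv _ hcomm (τ • σ₀ • x)
    rw [mul_smul, mul_smul, mul_smul, inv_smul_smul, inv_smul_smul] at h2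
    rw [h2, hx, smul_comm]
  · rw [isCompl_iff]
    constructor
    · rw [Submodule.disjoint_def]
      intro x hxC hxC'
      have e1 : σ₀ • x = x := hadm.fixed_sub σ₀ x hxC
      have e2 : σ₀ • x = a • x := (hC' x).mp hxC'
      have e3 : (1 - a) • x = 0 := by rw [sub_smul, one_smul, ← e2, e1, sub_self]
      exact (smul_eq_zero.mp e3).resolve_left h1a
    · rw [codisjoint_iff, eq_top_iff]
      intro x _
      have hy : σ₀ • x - a • x ∈ C := by
        have h := hadm.cyclo_quot σ₀ x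
        rwa [cycloExp_cast] at h
      have hc : (1 - a)⁻¹ • (σ₀ • x - a • x) ∈ C := C.smul_mem _ hy
      refine Submodule.mem_sup.mpr ⟨_, hc, x - (1 - a)⁻¹ • (σ₀ • x - a • x), ?_, by abel⟩
      rw [hC']
      have e1 := hadm.fixed_sub σ₀ _ hc
      have e2 : (1 - a) • (1 - a)⁻¹ • (σ₀ • x - a • x) = σ₀ • x - a • x := by
        rw [smul_smul, mul_inv_cancel₀ h1a, one_smul]
      rw [sub_smul, one_smul] at e2
      generalize (1 - a)⁻¹ • (σ₀ • x - a • x) = c at e1 e2 ⊢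
      rw [smul_sub σ₀, e1, smul_sub a, ← sub_eq_zero]
      have e3 : σ₀ • x - c - (a • x - a • c) = (σ₀ • x - a • x) - (c - a • c) := by abel
      rw [e3, e2, sub_self]

end Red2

end Fermat.Agent.S14

namespace Fermat.Agent.S14

open ExtCitation Fermat.Agent.S42

section Red3

variable {p : ℕ} [Fact p.Prime]
variable {V : Type} [AddCommGroup V] [Module (ZMod p) V]
  [DistribMulAction (AlgebraicClosure ℚ ≃ₐ[ℚ] AlgebraicClosure ℚ) V]
  [SMulCommClass (AlgebraicClosure ℚ ≃ₐ[ℚ] AlgebraicClosure ℚ) (ZMod p) V]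
  {C : Submodule (ZMod p) V}

/-- An element fixing `C` pointwise and one vector outside `C` acts trivially on `V`. -/
theorem red_trivial_of_fix (hadm : IsAdmissibleExtension p V C)
    {κ : AlgebraicClosure ℚ ≃ₐ[ℚ] AlgebraicClosure ℚ} {v₀ : V} (hv₀ : v₀ ∉ C)
    (hκ : κ • v₀ = v₀) (v : V) : κ • v = v := by
  have hp : p.Prime := Fact.out
  haveI : Finite V := Nat.finite_of_card_ne_zero (by
    rw [hadm.card_total]; exact pow_ne_zero 2 hp.ne_zero)
  let K : AddSubgroup V :=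
    { carrier := {x | κ • x = x}
      add_mem' := by
        intro x y hx hy
        change κ • (x + y) = x + y
        rw [smul_add, hx, hy]
      zero_mem' := smul_zero κ
      neg_mem' := by
        intro x hx
        change κ • (-x) = -x
        rw [smul_neg, hx] }
  have hK : ∀ x : V, x ∈ K ↔ κ • x = x := fun x => Iff.rfl
  have hCK : C.toAddSubgroup ≤ K := fun x hx => (hK x).mpr (hadm.fixed_sub κ x hx)
  have h1 : Nat.card C.toAddSubgroup ∣ Nat.card K := AddSubgroup.card_dvd_of_le hCK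
  have h2 : Nat.card K ∣ Nat.card V := AddSubgroup.card_addSubgroup_dvd_card K
  have hC : Nat.card C.toAddSubgroup = p := hadm.card_sub
  rw [hC] at h1
  rw [hadm.card_total] at h2
  obtain ⟨i, hi, hKi⟩ := (Nat.dvd_prime_pow hp).mp h2
  have htop : K = ⊤ := by
    interval_cases i
    · rw [hKi, pow_zero] at h1
      exact absurd (Nat.le_of_dvd one_pos h1) (by have := hp.two_le; omega)
    · exfalso
      have heq : C.toAddSubgroup = K :=
        AddSubgroup.eq_of_le_of_card_ge hCK (by rw [hC, hKi, pow_one])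
      exact hv₀ (heq ▸ (hK v₀).mpr hκ : v₀ ∈ C.toAddSubgroup)
    · exact AddSubgroup.eq_top_of_card_eq K (by rw [hKi, hadm.card_total])
  exact (hK v).mp (htop ▸ AddSubgroup.mem_top v)

/-- `C` is spanned by any of its non-zero elements. -/
theorem red_exists_smul_eq (hadm : IsAdmissibleExtension p V C) {c₀ : V} (hc₀ : c₀ ∈ C)
    (hne : c₀ ≠ 0) {d : V} (hd : d ∈ C) : ∃ a : ZMod p, a • c₀ = d := by
  have hp : p.Prime := Fact.out
  haveI : Finite C := Nat.finite_of_card_ne_zero (by rw [hadm.card_sub]; exact hp.ne_zero)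
  let f : ZMod p → C := fun a => ⟨a • c₀, C.smul_mem a hc₀⟩
  have hinj : Function.Injective f := by
    intro a b hab
    have h1 : a • c₀ = b • c₀ := congrArg Subtype.val hab
    have h2 : (a - b) • c₀ = 0 := by rw [sub_smul, h1, sub_self]
    exact sub_eq_zero.mp ((smul_eq_zero.mp h2).resolve_right hne)
  have hbij : Function.Bijective f :=
    hinj.bijective_of_nat_card_le (by rw [hadm.card_sub, Nat.card_zmod])
  obtain ⟨a, ha⟩ := hbij.2 ⟨d, hd⟩
  exact ⟨a, congrArg Subtype.val ha⟩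

/-- **Reduction of S14 to the group-theoretic core.** -/
theorem extVanishingCts_of_coreG (h3 : 3 ≤ p) (hcore : CoreG p) : ExtVanishingCts p := by
  intro V _ _ _ _ C hadmC
  have hp : p.Prime := Fact.out
  have hadm := hadmC.toIsAdmissibleExtension
  apply splitsGlobally_of_trivial h3 hadm
  -- `d σ x = σ • x - x`
  have hdC : ∀ {σ : AlgebraicClosure ℚ ≃ₐ[ℚ] AlgebraicClosure ℚ}, ∀ c ∈ C, σ • c - c = 0 :=
    fun {σ} c hc => by rw [hadm.fixed_sub σ c hc, sub_self]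
  have hle := hcore (redSubgroup p V) (isOpen_redSubgroup hadmC.open_kernel)
    (fun σ hσ => MonoidHom.mem_ker.mpr hσ.1) ?_ ?_ ?_ ?_ ?_ ?_
  · intro σ hσ v
    exact (hle (MonoidHom.mem_ker.mpr hσ)).2 v
  · -- normal
    intro τ σ hσ
    refine ⟨by rw [map_mul, map_mul, hσ.1, mul_one, map_inv, mul_inv_cancel], fun v => ?_⟩
    rw [mul_smul, mul_smul, hσ.2, smul_inv_smul]
  · -- exponent `p`
    intro σ hσ
    rw [MonoidHom.mem_ker] at hσ
    refine ⟨by rw [map_pow, hσ, one_pow], fun v => ?_⟩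
    have h := red_pow_smul_sub hadm hσ v p
    rw [← Nat.cast_smul_eq_nsmul (ZMod p), ZMod.natCast_self, zero_smul, sub_eq_zero] at h
    exact h
  · -- cyclic
    intro σ hσ τ hτ hσH
    rw [MonoidHom.mem_ker] at hσ hτ
    have hex : ∃ v₀ : V, σ • v₀ ≠ v₀ := by
      by_contra hcon
      push Not at hcon
      exact hσH ⟨hσ, hcon⟩
    obtain ⟨v₀, hv₀⟩ := hex
    have hv₀C : v₀ ∉ C := fun h => hv₀ (hadm.fixed_sub σ v₀ h)
    have hc₀ : σ • v₀ - v₀ ∈ C := red_smul_sub_mem hadm hσ v₀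
    have hc₀ne : σ • v₀ - v₀ ≠ 0 := sub_ne_zero.mpr hv₀
    obtain ⟨a, ha⟩ := red_exists_smul_eq hadm hc₀ hc₀ne (red_smul_sub_mem hadm hτ v₀)
    refine ⟨a.val, ?_⟩
    have hσi : cycloChar p (σ ^ a.val)⁻¹ = 1 := by rw [map_inv, map_pow, hσ, one_pow, inv_one]
    have hκ : cycloChar p (τ * (σ ^ a.val)⁻¹) = 1 := by rw [map_mul, hτ, hσi, one_mul]
    refine ⟨hκ, red_trivial_of_fix hadm hv₀C ?_⟩
    have h1 := red_mul_smul_sub hadm τ hσi v₀
    have hσi' : cycloChar p (σ ^ a.val) = 1 := by rw [map_pow, hσ, one_pow]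
    rw [red_inv_smul_sub hadm hσi', red_pow_smul_sub hadm hσ,
      ← Nat.cast_smul_eq_nsmul (ZMod p), ZMod.natCast_zmod_val, ha, add_neg_cancel,
      sub_eq_zero] at h1
    exact h1
  · -- `ω⁻¹`
    intro τ σ hσ
    rw [MonoidHom.mem_ker] at hσ
    set n : ℕ := ((cycloChar p τ : (ZMod p)ˣ) : ZMod p).val with hn
    have hσn : cycloChar p (σ ^ n) = 1 := by rw [map_pow, hσ, one_pow]
    refine ⟨by rw [map_mul, map_mul, map_mul, hσn, map_inv, map_inv, hσ, mul_one, inv_one,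
      mul_one, mul_inv_cancel], fun v => ?_⟩
    -- `(τ σ^n τ⁻¹) • w = σ • w`
    have key : ∀ w : V, τ • (σ ^ n) • τ⁻¹ • w = σ • w := by
      intro w
      set y := τ⁻¹ • w with hy
      have hw : w = τ • y := by rw [hy, smul_inv_smul]
      have h1 : (σ ^ n) • y = y + n • (σ • y - y) := by
        rw [← red_pow_smul_sub hadm hσ y n]; abel
      have h2 : n • (σ • y - y) ∈ C := C.nsmul_mem (red_smul_sub_mem hadm hσ y) n
      have h3 : τ • y - (n : ZMod p) • y ∈ C := by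
        have h := hadm.cyclo_quot τ y
        rwa [cycloExp_cast, ← ZMod.natCast_zmod_val ((cycloChar p τ : (ZMod p)ˣ) : ZMod p)] at h
      -- `σ • w - w = n • (σ • y - y)`
      have h4 : σ • w - w = n • (σ • y - y) := by
        have e1 : w = (τ • y - (n : ZMod p) • y) + (n : ZMod p) • y := by rw [hw]; abel
        have e2 : σ • (τ • y - (n : ZMod p) • y) = τ • y - (n : ZMod p) • y :=
          hadm.fixed_sub σ _ h3
        have e3 : σ • w = (τ • y - (n : ZMod p) • y) + (n : ZMod p) • σ • y := by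
          conv_lhs => rw [e1]
          rw [smul_add, e2, smul_comm σ (n : ZMod p) y]
        rw [e3]
        conv_lhs => rw [e1]
        rw [← Nat.cast_smul_eq_nsmul (ZMod p) n (σ • y - y), smul_sub]
        abel
      rw [h1, smul_add, hadm.fixed_sub τ _ h2, ← hw, ← h4]
      abel
    have h5 := key (σ⁻¹ • v)
    rw [smul_inv_smul] at h5
    rw [mul_smul, mul_smul, mul_smul]
    exact h5
  · -- unramified outside `p`
    intro ℓ hℓ hℓp A hA σ hσ hσker
    exact ⟨MonoidHom.mem_ker.mp hσker, hadm.unramified_outside ℓ hℓ hℓp A hA σ hσ⟩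
  · -- split at `p`
    intro A hA σ hσ hσker
    rw [MonoidHom.mem_ker] at hσker
    obtain ⟨C', hstab, hcompl⟩ := hadm.locally_split A hA
    refine ⟨hσker, fun v => ?_⟩
    have hv : v ∈ C ⊔ C' := by rw [hcompl.sup_eq_top]; exact Submodule.mem_top
    obtain ⟨c, hc, c', hc', rfl⟩ := Submodule.mem_sup.mp hv
    have h1 : σ • c' - c' ∈ C ⊓ C' :=
      ⟨red_smul_sub_mem hadm hσker c', C'.sub_mem (hstab σ hσ c' hc') hc'⟩
    rw [hcompl.inf_eq_bot, Submodule.mem_bot, sub_eq_zero] at h1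
    rw [smul_add, hadm.fixed_sub σ c hc, h1]

end Red3

end Fermat.Agent.S14
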