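import Mathlib
import Fermat.Agent.S14.Defs
import Fermat.Agent.S14.Reduce
import Fermat.Agent.S13.GlobLift
import Fermat.Agent.S37.FrobBasic
import Fermat.Agent.S42.FrobQbarCore

/-!
P18 / S14, block T (translation): from a subgroup `H` of the absolute Galois group of `ℚ`
satisfying the hypotheses of the group-theoretic core statement `CoreG p` but not containing
`ker (cycloChar p)`, the fixed field of `H` is a `CounterField p`.  Hence `CoreG p` (and so
`ExtVanishingCts p`) follows once no `CounterField p` exists.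

Main statements:
* `exists_counterField_of_subgroup` : the fixed field of `H` is a `CounterField`;
* `coreG_of_counterField_false` : `CoreG p` from the non-existence of `CounterField`s;
* `exists_counterField` : a non-split admissible extension produces a `CounterField`.
-/

set_option autoImplicit false

namespace Fermat.Agent.S14

open NumberField ExtCitation Fermat.Agent.S42

local notation "Ω" => AlgebraicClosure ℚ
local notation "Γ" => (AlgebraicClosure ℚ ≃ₐ[ℚ] AlgebraicClosure ℚ)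

/-! ### Generalities -/

/-- A normal subgroup whose quotient has exponent `p`, is nontrivial, and is generated by each
element outside the subgroup, has index `p`. -/
theorem tr_index_eq_prime {G : Type*} [Group G] (N : Subgroup G) [N.Normal] {p : ℕ}
    (hp : p.Prime) (hpow : ∀ g : G, g ^ p ∈ N)
    (hcyc : ∀ g h : G, g ∉ N → ∃ i : ℕ, h * (g ^ i)⁻¹ ∈ N)
    (hne : ∃ g : G, g ∉ N) : N.index = p := by
  obtain ⟨g, hg⟩ := hne
  rw [Subgroup.index_eq_card]
  have hall : ∀ x : G ⧸ N, x ∈ Subgroup.zpowers (g : G ⧸ N) := by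
    intro x
    induction x using QuotientGroup.induction_on with
    | H h =>
      obtain ⟨i, hi⟩ := hcyc g h hg
      have h1 : ((h * (g ^ i)⁻¹ : G) : G ⧸ N) = 1 := (QuotientGroup.eq_one_iff _).mpr hi
      rw [QuotientGroup.mk_mul, QuotientGroup.mk_inv, QuotientGroup.mk_pow, mul_inv_eq_one] at h1
      rw [h1]
      exact Subgroup.npow_mem_zpowers _ _
  rw [← orderOf_eq_card_of_forall_mem_zpowers hall]
  have hdvd : orderOf (g : G ⧸ N) ∣ p := by
    refine orderOf_dvd_of_pow_eq_one ?_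
    rw [← QuotientGroup.mk_pow]
    exact (QuotientGroup.eq_one_iff _).mpr (hpow g)
  rcases (Nat.dvd_prime hp).mp hdvd with h1 | h1
  · exfalso
    rw [orderOf_eq_one_iff] at h1
    exact hg ((QuotientGroup.eq_one_iff _).mp h1)
  · exact h1

/-- A nonzero prime ideal of the ring of integers of a number field contains a rational prime. -/
theorem tr_exists_prime_mem (L : Type*) [Field L] [NumberField L] (P : Ideal (𝓞 L))
    (hP : P.IsPrime) (hP0 : P ≠ ⊥) : ∃ ℓ : ℕ, ℓ.Prime ∧ (ℓ : 𝓞 L) ∈ P := by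
  have hn0 : Ideal.absNorm P ≠ 0 := fun h => hP0 (Ideal.absNorm_eq_zero_iff.mp h)
  have hmem : ((Ideal.absNorm P : ℕ) : 𝓞 L) ∈ P := Ideal.absNorm_mem P
  obtain ⟨ℓ, hℓ, hℓP⟩ : ∃ ℓ ∈ (Ideal.absNorm P).primeFactors,
      ((ℓ : ℕ) : 𝓞 L) ^ ((Ideal.absNorm P).factorization ℓ) ∈ P := by
    have h := hmem
    rw [← Nat.prod_factorization_pow_eq_self hn0] at h
    simp only [Finsupp.prod, Nat.support_factorization, Nat.cast_prod, Nat.cast_pow] at h
    exact (Ideal.IsPrime.prod_mem_iff).mp h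
  exact ⟨ℓ, Nat.prime_of_mem_primeFactors hℓ, hP.mem_of_pow_mem _ hℓP⟩

/-! ### Restriction to a Galois subextension of `ℚ̄` -/

/-- The restriction of `σ` to `L` is trivial iff `σ` fixes `L` pointwise. -/
theorem tr_restrict_eq_one_iff (L : IntermediateField ℚ Ω) [IsGalois ℚ L] (σ : Γ) :
    AlgEquiv.restrictNormalHom L σ = 1 ↔ ∀ x ∈ L, σ x = x := by
  constructor
  · intro h x hx
    have h1 := AlgEquiv.restrictNormal_commutes σ L ⟨x, hx⟩
    have h2 : σ.restrictNormal L = 1 := h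
    rw [h2] at h1
    exact h1.symm
  · intro h
    ext x
    have h1 := AlgEquiv.restrictNormal_commutes σ L x
    have h2 := h x.1 x.2
    exact h1.trans h2

/-- The kernel of the restriction to `L` is the fixing subgroup of `L`. -/
theorem tr_restrict_ker (L : IntermediateField ℚ Ω) [IsGalois ℚ L] :
    (AlgEquiv.restrictNormalHom L : Γ →* (L ≃ₐ[ℚ] L)).ker = L.fixingSubgroup := by
  ext σ
  rw [MonoidHom.mem_ker, tr_restrict_eq_one_iff, IntermediateField.mem_fixingSubgroup_iff]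

/-- Compatibility of the restriction with the inclusion of `L` in `ℚ̄`. -/
theorem tr_restrict_apply (L : IntermediateField ℚ Ω) [IsGalois ℚ L] (σ : Γ) (x : L) :
    ((AlgEquiv.restrictNormalHom L σ x : L) : Ω) = σ (x : Ω) :=
  AlgEquiv.restrictNormal_commutes σ L x

section Cyclo

variable {p : ℕ} [Fact p.Prime]

/-- Elements of the kernel of the cyclotomic character fix the `p`-th roots of unity. -/
theorem tr_apply_of_mem_ker {σ : Γ} (hσ : σ ∈ (cycloChar p).ker) {ζ₀ : Ω}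
    (hζ₀ : ζ₀ ^ p = 1) : σ ζ₀ = ζ₀ := by
  have hp : p.Prime := Fact.out
  haveI : Fact (1 < p) := ⟨hp.one_lt⟩
  have h := cy_spec p σ hζ₀
  rw [MonoidHom.mem_ker.mp hσ, Units.val_one, ZMod.val_one, pow_one] at h
  exact h

/-- The cyclotomic character is surjective. -/
theorem tr_cycloChar_surjective (p : ℕ) [Fact p.Prime] : Function.Surjective (cycloChar p) := by
  have hp : p.Prime := Fact.out
  obtain ⟨ζ₀, hζ₀⟩ := cy_exists_primitiveRoot p
  intro u
  have hprim : IsPrimitiveRoot (ζ₀ ^ (u : ZMod p).val) p :=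
    hζ₀.pow_of_coprime _ (ZMod.val_coe_unit_coprime u)
  have hroot : Polynomial.aeval (ζ₀ ^ (u : ZMod p).val) (minpoly ℚ ζ₀) = 0 := by
    rw [← Polynomial.cyclotomic_eq_minpoly_rat hζ₀ hp.pos, Polynomial.aeval_def,
      Polynomial.eval₂_eq_eval_map, Polynomial.map_cyclotomic]
    exact hprim.isRoot_cyclotomic hp.pos
  obtain ⟨σ, hσ⟩ := minpoly.exists_algEquiv_of_root'
    (hζ₀.isIntegral hp.pos).tower_top.isAlgebraic hroot
  refine ⟨σ, Units.ext ?_⟩
  rw [cy_eq_natCast_of_apply p σ hζ₀ hσ, ZMod.natCast_zmod_val]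

/-- The kernel of the cyclotomic character has index `p - 1`. -/
theorem tr_index_ker (p : ℕ) [Fact p.Prime] : (cycloChar p).ker.index = p - 1 := by
  rw [Subgroup.index_ker, MonoidHom.range_eq_top.mpr (tr_cycloChar_surjective p),
    Subgroup.card_top, Nat.card_eq_fintype_card, ZMod.card_units]

end Cyclo

/-! ### Inertia -/

section Main

variable {p : ℕ} [Fact p.Prime]

/-- An element of `ker (cycloChar p)` whose restriction to `L` (a finite Galois extension of `ℚ`
containing the fixed field of `H`) lies in the inertia group of a prime of `L` belongs to `H`,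
provided `H` contains the inertia groups (in the kernel) away from `p` and the decomposition groups
(in the kernel) at `p`. -/
theorem tr_mem_of_inertia (H : Subgroup Γ) [H.Normal] (hopen : IsOpen (H : Set Γ))
    (hle : H ≤ (cycloChar p).ker)
    (hin : ∀ ℓ : ℕ, ℓ.Prime → ℓ ≠ p → ∀ A : ValuationSubring Ω, A.LiesOverPrime ℓ →
      ∀ σ ∈ A.inertiaSubgroupIn ℚ, σ ∈ (cycloChar p).ker → σ ∈ H)
    (hdec : ∀ A : ValuationSubring Ω, A.LiesOverPrime p →
      ∀ σ ∈ A.decompositionSubgroup ℚ, σ ∈ (cycloChar p).ker → σ ∈ H)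
    (L : IntermediateField ℚ Ω) [NumberField L] [IsGalois ℚ L]
    (hL : ∀ b : Ω, (∀ h ∈ H, h b = b) → b ∈ L)
    (P : Ideal (𝓞 L)) (hP : P.IsPrime) (hP0 : P ≠ ⊥) (γ : Γ) (hγχ : γ ∈ (cycloChar p).ker)
    (hγ : ∀ x : 𝓞 L, (AlgEquiv.restrictNormalHom L γ) • x - x ∈ P) : γ ∈ H := by
  haveI : P.IsMaximal := hP.isMaximal hP0
  obtain ⟨A, -, hA⟩ := fq_exists_valuationSubring (fq_emb L) (fq_emb_injective L) P
  obtain ⟨ℓ, hℓ, hℓP⟩ := tr_exists_prime_mem L P hP hP0
  have hAℓ : A.LiesOverPrime ℓ := by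
    have h1 := (hA (ℓ : 𝓞 L)).mpr hℓP
    rw [map_natCast] at h1
    exact h1
  obtain ⟨σ, hσ, hσγ⟩ := Fermat.Agent.S13.exists_inertia_lift H hopen A hℓ hAℓ γ (by
    intro b hb hbH
    have hbL : b ∈ L := hL b hbH
    have hint : IsIntegral ℤ (⟨b, hbL⟩ : L) :=
      (isIntegral_algebraMap_iff (algebraMap L Ω).injective).mp hb
    have h1 := (hA _).mpr (hγ ⟨⟨b, hbL⟩, hint⟩)
    rw [map_sub, fq_emb_smul, A.mem_nonunits_iff] at h1
    exact h1)
  have hσχ : σ ∈ (cycloChar p).ker := by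
    have h1 : cycloChar p (σ⁻¹ * γ) = 1 := hle hσγ
    rw [map_mul, map_inv, MonoidHom.mem_ker.mp hγχ, mul_one, inv_eq_one] at h1
    exact h1
  have hσH : σ ∈ H := by
    by_cases hℓp : ℓ = p
    · subst hℓp
      exact hdec A hAℓ σ (Fermat.Agent.S37.inertiaSubgroupIn_le_decomposition hσ) hσχ
    · exact hin ℓ hℓ hℓp A hAℓ σ hσ hσχ
  have h2 : γ = σ * (σ⁻¹ * γ) := by group
  rw [h2]
  exact H.mul_mem hσH hσγ

/-- The index of `H` in `ker (cycloChar p)` is `p`. -/
theorem tr_relIndex (H : Subgroup Γ) [H.Normal]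
    (hpow : ∀ σ ∈ (cycloChar p).ker, σ ^ p ∈ H)
    (hcyc : ∀ σ ∈ (cycloChar p).ker, ∀ τ ∈ (cycloChar p).ker, σ ∉ H →
      ∃ i : ℕ, τ * (σ ^ i)⁻¹ ∈ H)
    (hne : ¬ (cycloChar p).ker ≤ H) : H.relIndex (cycloChar p).ker = p := by
  have hp : p.Prime := Fact.out
  obtain ⟨σ, hσ, hσH⟩ := SetLike.not_le_iff_exists.mp hne
  refine tr_index_eq_prime (H.subgroupOf (cycloChar p).ker) hp ?_ ?_ ⟨⟨σ, hσ⟩, ?_⟩
  · intro g
    rw [Subgroup.mem_subgroupOf, Subgroup.coe_pow]
    exact hpow g g.2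
  · intro g h hg
    obtain ⟨i, hi⟩ := hcyc g g.2 h h.2 (fun hgH => hg (Subgroup.mem_subgroupOf.mpr hgH))
    refine ⟨i, ?_⟩
    rw [Subgroup.mem_subgroupOf]
    exact hi
  · intro h
    exact hσH (Subgroup.mem_subgroupOf.mp h)

/-- **Translation, group-theoretic form.** If `H` satisfies the hypotheses of `CoreG p` but does
not contain `ker (cycloChar p)`, then the fixed field of `H` is a `CounterField`. -/
theorem exists_counterField_of_subgroup (H : Subgroup Γ) (hopen : IsOpen (H : Set Γ))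
    (hle : H ≤ (cycloChar p).ker)
    (hnorm : ∀ τ σ : Γ, σ ∈ H → τ * σ * τ⁻¹ ∈ H)
    (hpow : ∀ σ ∈ (cycloChar p).ker, σ ^ p ∈ H)
    (hcyc : ∀ σ ∈ (cycloChar p).ker, ∀ τ ∈ (cycloChar p).ker, σ ∉ H →
      ∃ i : ℕ, τ * (σ ^ i)⁻¹ ∈ H)
    (htw : ∀ τ : Γ, ∀ σ ∈ (cycloChar p).ker,
      τ * σ ^ ((cycloChar p τ : (ZMod p)ˣ) : ZMod p).val * τ⁻¹ * σ⁻¹ ∈ H)
    (hin : ∀ ℓ : ℕ, ℓ.Prime → ℓ ≠ p → ∀ A : ValuationSubring Ω, A.LiesOverPrime ℓ →
      ∀ σ ∈ A.inertiaSubgroupIn ℚ, σ ∈ (cycloChar p).ker → σ ∈ H)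
    (hdec : ∀ A : ValuationSubring Ω, A.LiesOverPrime p →
      ∀ σ ∈ A.decompositionSubgroup ℚ, σ ∈ (cycloChar p).ker → σ ∈ H)
    (hne : ¬ (cycloChar p).ker ≤ H) :
    ∃ (L : IntermediateField ℚ Ω) (_ : NumberField L) (ζ : L), CounterField p L ζ := by
  have hp : p.Prime := Fact.out
  haveI hN : H.Normal := ⟨fun n hn g => hnorm g n hn⟩
  have hfix : (IntermediateField.fixedField H).fixingSubgroup = H :=
    InfiniteGalois.fixingSubgroup_fixedField ⟨H, Subgroup.isClosed_of_isOpen H hopen⟩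
  have hLmem : ∀ b : Ω, (∀ h ∈ H, h b = b) → b ∈ IntermediateField.fixedField H := by
    intro b hb
    rw [IntermediateField.mem_fixedField_iff]
    exact hb
  generalize IntermediateField.fixedField H = L at hfix hLmem
  haveI hfd : FiniteDimensional ℚ L :=
    (InfiniteGalois.isOpen_iff_finite L).mp (by rw [hfix]; exact hopen)
  haveI hnf : NumberField L := fq_numberField L
  haveI hgal : IsGalois ℚ L :=
    (InfiniteGalois.normal_iff_isGalois L).mp (by rw [hfix]; exact hN)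
  obtain ⟨ζ₀, hζ₀⟩ := cy_exists_primitiveRoot p
  have hζL : ζ₀ ∈ L := hLmem ζ₀ fun σ hσ => tr_apply_of_mem_ker (hle hσ) hζ₀.pow_eq_one
  have hker : (AlgEquiv.restrictNormalHom L : Γ →* (L ≃ₐ[ℚ] L)).ker = H := by
    rw [tr_restrict_ker, hfix]
  have hsurj : Function.Surjective (AlgEquiv.restrictNormalHom L : Γ →* (L ≃ₐ[ℚ] L)) :=
    AlgEquiv.restrictNormalHom_surjective Ω
  have hζapp : ∀ σ : Γ,
      ((AlgEquiv.restrictNormalHom L σ (⟨ζ₀, hζL⟩ : L) : L) : Ω) = σ ζ₀ :=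
    fun σ => tr_restrict_apply L σ ⟨ζ₀, hζL⟩
  have hmemker : ∀ σ : Γ, AlgEquiv.restrictNormalHom L σ (⟨ζ₀, hζL⟩ : L) = ⟨ζ₀, hζL⟩ →
      σ ∈ (cycloChar p).ker := by
    intro σ h
    refine MonoidHom.mem_ker.mpr (cy_eq_one_of_apply p σ hζ₀ ?_)
    rw [← hζapp σ, h]
  refine ⟨L, hnf, ⟨ζ₀, hζL⟩, ⟨hgal, ?_, ?_, ?_, ?_⟩⟩
  · exact IsPrimitiveRoot.coe_submonoidClass_iff.mp hζ₀
  · have h1 : H.index = Nat.card (L ≃ₐ[ℚ] L) := by
      rw [← hker, Subgroup.index_ker, MonoidHom.range_eq_top.mpr hsurj, Subgroup.card_top]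
    have h3 := Subgroup.relIndex_mul_index hle
    rw [tr_relIndex H hpow hcyc hne, tr_index_ker, h1] at h3
    rw [h3]
    exact (IsGalois.card_aut_eq_finrank ℚ L).symm
  · intro P hP hP0 g hgζ hg
    obtain ⟨γ, rfl⟩ := hsurj g
    have hγH : γ ∈ H :=
      tr_mem_of_inertia H hopen hle hin hdec L hLmem P hP hP0 γ (hmemker γ hgζ) hg
    rw [← hker] at hγH
    exact MonoidHom.mem_ker.mp hγH
  · intro τ g n hgζ hτζ
    obtain ⟨τ', rfl⟩ := hsurj τ
    obtain ⟨g', rfl⟩ := hsurj g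
    have hg'ker := hmemker g' hgζ
    have hτ'ζ : τ' ζ₀ = ζ₀ ^ n := by
      rw [← hζapp τ', hτζ]
      rfl
    have hχ : ((cycloChar p τ' : (ZMod p)ˣ) : ZMod p) = (n : ZMod p) :=
      cy_eq_natCast_of_apply p τ' hζ₀ hτ'ζ
    have hmn : ((cycloChar p τ' : (ZMod p)ˣ) : ZMod p).val ≡ n [MOD p] := by
      rw [← ZMod.natCast_eq_natCast_iff, ZMod.natCast_zmod_val, hχ]
    have h6 := htw τ' g' hg'ker
    rw [← hker, MonoidHom.mem_ker] at h6
    simp only [map_mul, map_pow, map_inv] at h6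
    have hgp : (AlgEquiv.restrictNormalHom L g') ^ p = 1 := by
      have h4 := hpow g' hg'ker
      rw [← hker, MonoidHom.mem_ker, map_pow] at h4
      exact h4
    have hpow_eq : (AlgEquiv.restrictNormalHom L g') ^
        ((cycloChar p τ' : (ZMod p)ˣ) : ZMod p).val = (AlgEquiv.restrictNormalHom L g') ^ n := by
      rw [pow_eq_pow_iff_modEq]
      exact hmn.of_dvd (orderOf_dvd_of_pow_eq_one hgp)
    rw [hpow_eq] at h6
    have h7 := mul_inv_eq_one.mp h6
    rw [mul_inv_eq_iff_eq_mul] at h7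
    exact h7

end Main

/-- **Block T, core form.** `CoreG p` holds as soon as there is no `CounterField p`. -/
theorem coreG_of_counterField_false (p : ℕ) [Fact p.Prime]
    (hE : ∀ (L : IntermediateField ℚ Ω) [NumberField L] (ζ : L), ¬ CounterField p L ζ) :
    CoreG p := by
  intro H h1 h2 h3 h4 h5 h6 h7 h8
  by_contra hne
  obtain ⟨L, hnf, ζ, hL⟩ := exists_counterField_of_subgroup H h1 h2 h3 h4 h5 h6 h7 h8 hne
  exact hE L ζ hL

/-- **Block T, interface form (translation).** A non-split admissible extension produces a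
`CounterField`. -/
theorem exists_counterField {p : ℕ} [Fact p.Prime] (h3 : 3 ≤ p)
    (V : Type) [AddCommGroup V] [Module (ZMod p) V]
    [DistribMulAction (AlgebraicClosure ℚ ≃ₐ[ℚ] AlgebraicClosure ℚ) V]
    [SMulCommClass (AlgebraicClosure ℚ ≃ₐ[ℚ] AlgebraicClosure ℚ) (ZMod p) V]
    (C : Submodule (ZMod p) V) (hadm : ExtCitation.IsAdmissibleExtensionCts p V C)
    (hns : ¬ ExtCitation.SplitsGlobally C) :
    ∃ (L : IntermediateField ℚ (AlgebraicClosure ℚ)) (_ : NumberField L) (ζ : L),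
      CounterField p L ζ := by
  by_contra hno
  refine hns (extVanishingCts_of_coreG h3 (coreG_of_counterField_false p ?_) V C hadm)
  intro L _ ζ hL
  exact hno ⟨L, inferInstance, ζ, hL⟩

end Fermat.Agent.S14
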