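import Mathlib
import Fermat.Agent.S14.H1Defs

/-!
# P18 (S14), block H1: `h1_nonsplit`
-/

set_option autoImplicit false

namespace Fermat.Agent.S14

open NumberField IsDedekindDomain

/-- `v` has exactly one prime of `M` above it ("nonsplit": inert or totally ramified). -/
def h1_nonsplit (F M : Type*) [Field F] [NumberField F] [Field M] [NumberField M] [Algebra F M]
    (v : HeightOneSpectrum (𝓞 F)) : Prop :=
  ∀ w w' : HeightOneSpectrum (𝓞 M), h1_under F w = v → h1_under F w' = v → w = w'

end Fermat.Agent.S14
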