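import Mathlib
import Fermat.Agent.S14.H1Defs

/-!
# P18 (S14), block H1 (route A, S-units): fibres of `h1_under`, Galois action on primes

* `h1_fiber_finite`, `h1_fiber_nonempty` : the set of primes of `M` above a prime `v` of `F` is
  finite and nonempty;
* `h1_fiber_ncard` : it has `1` or `p` elements when `M / F` is Galois of prime degree `p`;
* `h1_fiber_transitive` : the Galois group permutes the primes above `v` transitively;
* `h1_exists_gal_image` : every `σ` maps a prime `w` to a prime above the same prime of `F`.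
-/

set_option autoImplicit false

namespace Fermat.Agent.S14

open NumberField IsDedekindDomain nonZeroDivisors

variable (F M : Type*) [Field F] [NumberField F] [Field M] [NumberField M] [Algebra F M]

/-! ### H1Fiber.lean (deps: H1Defs; fibres of `h1_under`, Galois action on primes) -/

omit [NumberField F] [NumberField M] in
/-- `w` lies above `v` iff its ideal is one of the primes over the ideal of `v`. -/
theorem h1_fiber_under_eq_iff (v : HeightOneSpectrum (𝓞 F)) (w : HeightOneSpectrum (𝓞 M)) :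
    h1_under F w = v ↔ w.asIdeal ∈ Ideal.primesOver v.asIdeal (𝓞 M) := by
  constructor
  · rintro rfl
    exact ⟨w.isPrime, ⟨rfl⟩⟩
  · rintro ⟨_, h⟩
    exact HeightOneSpectrum.ext h.over.symm

theorem h1_fiber_finite (v : HeightOneSpectrum (𝓞 F)) :
    {w : HeightOneSpectrum (𝓞 M) | h1_under F w = v}.Finite := by
  have h := IsDedekindDomain.primesOver_finite v.asIdeal (𝓞 M)
  refine (h.preimage (f := HeightOneSpectrum.asIdeal) ?_).subset ?_
  · intro w _ w' _ hww'
    exact HeightOneSpectrum.ext hww'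
  · intro w hw
    exact (h1_fiber_under_eq_iff F M v w).mp hw

set_option linter.unusedSectionVars false in
theorem h1_fiber_nonempty (v : HeightOneSpectrum (𝓞 F)) :
    ∃ w : HeightOneSpectrum (𝓞 M), h1_under F w = v := by
  obtain ⟨⟨P, hP, hPv⟩⟩ := (inferInstance : Nonempty (Ideal.primesOver v.asIdeal (𝓞 M)))
  have hP0 : P ≠ ⊥ := Ideal.ne_bot_of_mem_primesOver v.ne_bot ⟨hP, hPv⟩
  exact ⟨⟨P, hP, hP0⟩, (h1_fiber_under_eq_iff F M v _).mpr ⟨hP, hPv⟩⟩

omit [NumberField F] [NumberField M] in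
/-- The fibre of `h1_under` above `v` has as many elements as there are primes over `v`. -/
theorem h1_fiber_ncard_eq (v : HeightOneSpectrum (𝓞 F)) :
    {w : HeightOneSpectrum (𝓞 M) | h1_under F w = v}.ncard =
      (Ideal.primesOver v.asIdeal (𝓞 M)).ncard := by
  have himg : HeightOneSpectrum.asIdeal '' {w : HeightOneSpectrum (𝓞 M) | h1_under F w = v} =
      Ideal.primesOver v.asIdeal (𝓞 M) := by
    ext P
    constructor
    · rintro ⟨w, hw, rfl⟩
      exact (h1_fiber_under_eq_iff F M v w).mp hw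
    · intro hP
      have hP0 : P ≠ ⊥ := Ideal.ne_bot_of_mem_primesOver v.ne_bot hP
      exact ⟨⟨P, hP.1, hP0⟩, (h1_fiber_under_eq_iff F M v _).mpr hP, rfl⟩
  rw [← himg]
  exact (Set.ncard_image_of_injective _ (fun w w' hww' => HeightOneSpectrum.ext hww')).symm

/-- `#{w | v} ∈ {1, p}` for a Galois extension of prime degree. -/
theorem h1_fiber_ncard [IsGalois F M] (p : ℕ) [Fact p.Prime] (hdeg : Module.finrank F M = p)
    (v : HeightOneSpectrum (𝓞 F)) :
    {w : HeightOneSpectrum (𝓞 M) | h1_under F w = v}.ncard = 1 ∨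
      {w : HeightOneSpectrum (𝓞 M) | h1_under F w = v}.ncard = p := by
  rw [h1_fiber_ncard_eq]
  have h := Ideal.ncard_primesOver_mul_ramificationIdxIn_mul_inertiaDegIn v.asIdeal (𝓞 M)
    (M ≃ₐ[F] M)
  rw [IsGalois.card_aut_eq_finrank, hdeg] at h
  exact (Nat.dvd_prime Fact.out).mp ⟨_, h.symm⟩

/-- The Galois group acts transitively on the primes above `v`. -/
theorem h1_fiber_transitive [IsGalois F M] (w w' : HeightOneSpectrum (𝓞 M))
    (h : h1_under F w = h1_under F w') :
    ∃ σ : M ≃ₐ[F] M, ∀ x : 𝓞 M, x ∈ w.asIdeal ↔ σ • x ∈ w'.asIdeal := by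
  have h1 : w.asIdeal.LiesOver (h1_under F w).asIdeal := ⟨rfl⟩
  have h2 : w'.asIdeal.LiesOver (h1_under F w).asIdeal := ⟨by rw [h]; rfl⟩
  obtain ⟨σ, hσ⟩ := Ideal.exists_smul_eq_of_isGaloisGroup (h1_under F w).asIdeal w.asIdeal
    w'.asIdeal (M ≃ₐ[F] M)
  refine ⟨σ, fun x => ?_⟩
  rw [← hσ, Ideal.smul_mem_pointwise_smul_iff]

omit [NumberField F] [NumberField M] in
/-- The Galois group fixes the integers of the base field. -/
theorem h1_fiber_smul_algebraMap (σ : M ≃ₐ[F] M) (x : 𝓞 F) :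
    σ • algebraMap (𝓞 F) (𝓞 M) x = algebraMap (𝓞 F) (𝓞 M) x := by
  apply RingOfIntegers.ext
  exact σ.commutes x

open scoped Pointwise in
/-- Every `σ` maps each prime `w` to a prime `w'` above the same prime of `F`. -/
theorem h1_exists_gal_image (σ : M ≃ₐ[F] M) (w : HeightOneSpectrum (𝓞 M)) :
    ∃ w' : HeightOneSpectrum (𝓞 M), h1_under F w' = h1_under F w ∧
      ∀ x : 𝓞 M, x ∈ w.asIdeal ↔ σ • x ∈ w'.asIdeal := by
  have hprime : (σ • w.asIdeal).IsPrime := inferInstance
  have hne : σ • w.asIdeal ≠ ⊥ := by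
    intro h0
    apply w.ne_bot
    rw [eq_bot_iff] at h0 ⊢
    intro x hx
    have := h0 (Ideal.smul_mem_pointwise_smul σ x w.asIdeal hx)
    rw [Ideal.mem_bot] at this ⊢
    exact (smul_eq_zero_iff_eq σ).mp this
  refine ⟨⟨σ • w.asIdeal, hprime, hne⟩, ?_, fun x => ?_⟩
  · apply HeightOneSpectrum.ext
    ext x
    rw [h1_under_asIdeal, h1_under_asIdeal]
    show algebraMap (𝓞 F) (𝓞 M) x ∈ σ • w.asIdeal ↔ algebraMap (𝓞 F) (𝓞 M) x ∈ w.asIdeal
    rw [← h1_fiber_smul_algebraMap F M σ x, Ideal.smul_mem_pointwise_smul_iff,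
      h1_fiber_smul_algebraMap F M σ x]
  · exact Ideal.smul_mem_pointwise_smul_iff.symm

end Fermat.Agent.S14
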