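import Mathlib

/-! P18 (S14) block H1 (route A, S-units): independent elements modulo subgroups give a lower
bound for an index. -/

set_option autoImplicit false

namespace Fermat.Agent.S14

open NumberField IsDedekindDomain nonZeroDivisors

/-! ### H1Indep.lean (Mathlib only) -/

/-- Independent elements modulo subgroups `H i ⊇ K` give index `≥ p ^ #ι`. -/
theorem h1_indep {G : Type*} [CommGroup G] (p : ℕ) [Fact p.Prime] {ι : Type*} [Fintype ι]
    (K A : Subgroup G) (H : ι → Subgroup G) (e : ι → G)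
    (hKH : ∀ i, K ≤ H i) (heA : ∀ i, e i ∈ A) (he : ∀ i, e i ∉ H i) (hep : ∀ i, e i ^ p ∈ H i)
    (hne : ∀ i j, i ≠ j → e i ∈ H j) (hidx : K.relIndex A ≠ 0) :
    p ^ Fintype.card ι ≤ K.relIndex A := by
  classical
  have hp : p.Prime := Fact.out
  -- the products of powers of the `e i` with exponents `< p`
  have hPA : ∀ f : ι → Fin p, ∏ i, e i ^ (f i : ℕ) ∈ A := fun f =>
    Subgroup.prod_mem A (fun i _ => Subgroup.pow_mem A (heA i) _)
  -- they are pairwise distinct modulo `K`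
  have hΦ : Function.Injective (fun f : ι → Fin p =>
      (QuotientGroup.mk (⟨∏ i, e i ^ (f i : ℕ), hPA f⟩ : A) : A ⧸ K.subgroupOf A)) := by
    intro f g hfg
    have h1 : (⟨∏ i, e i ^ (f i : ℕ), hPA f⟩ : A)⁻¹ * ⟨∏ i, e i ^ (g i : ℕ), hPA g⟩ ∈
        K.subgroupOf A := QuotientGroup.eq.mp hfg
    have h2 : (∏ i, e i ^ (f i : ℕ))⁻¹ * ∏ i, e i ^ (g i : ℕ) ∈ K := by
      simpa [Subgroup.mem_subgroupOf] using h1
    have h3 : (∏ i, e i ^ (f i : ℕ))⁻¹ * ∏ i, e i ^ (g i : ℕ) =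
        ∏ i, e i ^ (((g i : ℕ) : ℤ) - ((f i : ℕ) : ℤ)) := by
      rw [← Finset.prod_inv_distrib, ← Finset.prod_mul_distrib]
      refine Finset.prod_congr rfl fun i _ => ?_
      rw [zpow_sub, zpow_natCast, zpow_natCast, mul_comm]
    funext j
    have h4 : e j ^ (((g j : ℕ) : ℤ) - ((f j : ℕ) : ℤ)) ∈ H j := by
      have h5 : ∏ i, e i ^ (((g i : ℕ) : ℤ) - ((f i : ℕ) : ℤ)) ∈ H j := h3 ▸ hKH j h2
      rw [← Finset.mul_prod_erase Finset.univ _ (Finset.mem_univ j)] at h5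
      have h6 : ∏ i ∈ Finset.univ.erase j, e i ^ (((g i : ℕ) : ℤ) - ((f i : ℕ) : ℤ)) ∈ H j :=
        Subgroup.prod_mem _ (fun i hi =>
          Subgroup.zpow_mem _ (hne i j (Finset.ne_of_mem_erase hi)) _)
      exact (Subgroup.mul_mem_cancel_right _ h6).mp h5
    by_contra hfg'
    have hd : ¬ (p : ℤ) ∣ ((g j : ℕ) : ℤ) - ((f j : ℕ) : ℤ) := by
      intro hdvd
      have hf := (f j).isLt
      have hg := (g j).isLt
      have h0 := Int.eq_zero_of_abs_lt_dvd hdvd (abs_lt.mpr ⟨by omega, by omega⟩)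
      apply hfg'
      apply Fin.ext
      omega
    obtain ⟨u, v, huv⟩ : IsCoprime (p : ℤ) (((g j : ℕ) : ℤ) - ((f j : ℕ) : ℤ)) :=
      (Nat.prime_iff_prime_int.mp hp).coprime_iff_not_dvd.mpr hd
    apply he j
    have h7 : e j = (e j ^ p) ^ u * (e j ^ (((g j : ℕ) : ℤ) - ((f j : ℕ) : ℤ))) ^ v := by
      rw [← zpow_natCast, ← zpow_mul, ← zpow_mul, ← zpow_add, mul_comm (p : ℤ) u,
        mul_comm _ v, huv, zpow_one]
    rw [h7]
    exact Subgroup.mul_mem _ (Subgroup.zpow_mem _ (hep j) _) (Subgroup.zpow_mem _ h4 _)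
  have hfin : Finite (A ⧸ K.subgroupOf A) := Nat.finite_of_card_ne_zero hidx
  have hcard := Nat.card_le_card_of_injective _ hΦ
  rw [Nat.card_eq_fintype_card, Fintype.card_fun, Fintype.card_fin] at hcard
  exact hcard

end Fermat.Agent.S14
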