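import Mathlib
import Fermat.Agent.S14.H1Defs

/-!
# P18 (S14) block H1 (route A, S-units): local norm group at a ramified prime, core

For a prime `w` of `M` over `v` at which the whole Galois group acts trivially on the residue
field and the residue degree is one (with `M/F` Galois of prime degree `p`, `ζ_p ∈ F`, `p ∉ v`)
we construct a subgroup `H` of `Fˣ` which contains all norms from `Mˣ`, all "units congruent to
one" at `v`, and misses a whole residue class of `v`-units (`h1_locram_core`).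

`H` is the group of all `u = ϖ ^ k * (a / b)` where `ϖ` is the norm of a uniformizer at `w` and
`a / b` is a `v`-unit whose residue class is a `p`-th power.
-/

set_option autoImplicit false

namespace Fermat.Agent.S14

open NumberField IsDedekindDomain nonZeroDivisors

variable (F M : Type*) [Field F] [NumberField F] [Field M] [NumberField M] [Algebra F M]

/-- If all `f i` are congruent to `b` modulo `I` then `∏ f i ≡ b ^ card` modulo `I`. -/
theorem h1_locram_prod_sub_pow_mem {R ι : Type*} [CommRing R] [Fintype ι] (I : Ideal R)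
    (f : ι → R) (b : R) (h : ∀ i, f i - b ∈ I) : ∏ i, f i - b ^ Fintype.card ι ∈ I := by
  rw [← Ideal.Quotient.eq, map_prod, map_pow,
    Finset.prod_congr rfl (fun i _ => Ideal.Quotient.eq.mpr (h i)), Finset.prod_const,
    Finset.card_univ]

/-- The integral norm is the product of the conjugates. -/
theorem h1_locram_algebraMap_intNorm [IsGalois F M] (s : 𝓞 M) :
    algebraMap (𝓞 F) (𝓞 M) (Algebra.intNorm (𝓞 F) (𝓞 M) s) = ∏ τ : M ≃ₐ[F] M, τ • s := by
  apply RingOfIntegers.ext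
  change algebraMap F M (algebraMap (𝓞 F) F (Algebra.intNorm (𝓞 F) (𝓞 M) s))
    = algebraMap (𝓞 M) M (∏ τ : M ≃ₐ[F] M, τ • s)
  rw [Algebra.algebraMap_intNorm (K := F) (L := M), Algebra.norm_eq_prod_automorphisms, map_prod]
  rfl

/-- At a prime all of whose Galois conjugates act trivially on the residue field: the norm of
`s` is congruent to `c ^ p` when `s` is congruent to `c`. -/
theorem h1_locram_intNorm_congr [IsGalois F M] (p : ℕ) (hdeg : Module.finrank F M = p)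
    (W : Ideal (𝓞 M)) (hin : ∀ (σ : M ≃ₐ[F] M) (x : 𝓞 M), σ • x - x ∈ W)
    (s : 𝓞 M) (c : 𝓞 F) (hc : s - algebraMap (𝓞 F) (𝓞 M) c ∈ W) :
    Algebra.intNorm (𝓞 F) (𝓞 M) s - c ^ p ∈ W.under (𝓞 F) := by
  rw [Ideal.mem_comap, map_sub, map_pow, h1_locram_algebraMap_intNorm]
  have h1 := h1_locram_prod_sub_pow_mem W (fun τ : M ≃ₐ[F] M => τ • s) s (fun τ => hin τ s)
  have hcard : Fintype.card (M ≃ₐ[F] M) = p := by
    rw [← hdeg, ← Nat.card_eq_fintype_card]
    exact IsGalois.card_aut_eq_finrank F M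
  rw [hcard] at h1
  have h2 : s ^ p - (algebraMap (𝓞 F) (𝓞 M) c) ^ p ∈ W := by
    rw [← Ideal.Quotient.eq, map_pow, map_pow, Ideal.Quotient.eq.mpr hc]
  have h3 := W.add_mem h1 h2
  rwa [sub_add_sub_cancel] at h3

/-- Division by a uniformizer `pw` away from `W`: every nonzero `y` satisfies `y * t = pw ^ k * s`
with `s, t ∉ W`. -/
theorem h1_locram_exists_unif_decomp (W : Ideal (𝓞 M)) (hW : W.IsPrime)
    (pw : 𝓞 M) (hpw1 : pw ∈ W) (hpw2 : pw ∉ W ^ 2) (y : 𝓞 M) (hy : y ≠ 0) :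
    ∃ (k : ℕ) (s t : 𝓞 M), s ∉ W ∧ t ∉ W ∧ y * t = pw ^ k * s := by
  -- `(pw) = W * 𝔅₀` with `𝔅₀ ⊄ W`
  obtain ⟨B₀, hB₀⟩ : W ∣ Ideal.span {pw} :=
    Ideal.dvd_iff_le.mpr ((Ideal.span_singleton_le_iff_mem W).mpr hpw1)
  have hB₀W : ¬ B₀ ≤ W := by
    intro hle
    apply hpw2
    have h1 : pw ∈ W * B₀ := hB₀ ▸ Ideal.mem_span_singleton_self pw
    rw [pow_two]
    exact Ideal.mul_mono_right hle h1
  obtain ⟨t₀, ht₀B, ht₀W⟩ := SetLike.not_le_iff_exists.mp hB₀W
  -- the induction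
  have key : ∀ n : ℕ, ∀ y : 𝓞 M, y ∉ W ^ n →
      ∃ (k : ℕ) (s t : 𝓞 M), s ∉ W ∧ t ∉ W ∧ y * t = pw ^ k * s := by
    intro n
    induction n with
    | zero =>
      intro y hy
      exact absurd (by simp) hy
    | succ n ih =>
      intro y hy
      by_cases hyW : y ∈ W
      · have h1 : y * t₀ ∈ Ideal.span {pw} := hB₀ ▸ Ideal.mul_mem_mul hyW ht₀B
        obtain ⟨y', hy'⟩ := Ideal.mem_span_singleton'.mp h1
        have hy'n : y' ∉ W ^ n := by
          intro hmem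
          apply hy
          have h2 : t₀ * y ∈ W ^ (n + 1) := by
            rw [mul_comm, ← hy', pow_succ]
            exact Ideal.mul_mem_mul hmem hpw1
          exact (Ideal.IsPrime.mul_mem_pow W h2).resolve_left ht₀W
        obtain ⟨k, s, t, hs, ht, hst⟩ := ih y' hy'n
        refine ⟨k + 1, s, t₀ * t, hs, fun h => (hW.mem_or_mem h).elim ht₀W ht, ?_⟩
        linear_combination (-t) * hy' + pw * hst
      · exact ⟨0, y, 1, hyW, fun h => hW.ne_top ((Ideal.eq_top_iff_one W).mpr h), by simp⟩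
  -- Krull: `y ∉ W ^ n` for some `n`
  have hex : ∃ n : ℕ, y ∉ W ^ n := by
    by_contra hall
    have hall' : ∀ n : ℕ, y ∈ W ^ n := fun n => by_contra fun h => hall ⟨n, h⟩
    have h1 : y ∈ ⨅ i : ℕ, W ^ i := (Ideal.mem_iInf).mpr hall'
    rw [Ideal.iInf_pow_eq_bot_of_isDomain W hW.ne_top] at h1
    exact hy ((Ideal.mem_bot).mp h1)
  obtain ⟨n, hn⟩ := hex
  exact key n y hn

/-- The candidate local norm group: `u = ϖ ^ k * (a / b)` with `a, b ∉ P` and `a / b` congruent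
to a `p`-th power `(c / d) ^ p` modulo `P`. -/
def h1_locram_group (P : Ideal (𝓞 F)) (hP : P.IsPrime) (ϖ : 𝓞 F) (hϖ : ϖ ≠ 0) (p : ℕ) :
    Subgroup Fˣ where
  carrier := {u | ∃ (k : ℤ) (a b c d : 𝓞 F), a ∉ P ∧ b ∉ P ∧ c ∉ P ∧ d ∉ P ∧
      a * d ^ p - b * c ^ p ∈ P ∧
      (u : F) * algebraMap (𝓞 F) F b = algebraMap (𝓞 F) F ϖ ^ k * algebraMap (𝓞 F) F a}
  mul_mem' := by
    rintro u₁ u₂ ⟨k₁, a₁, b₁, c₁, d₁, ha₁, hb₁, hc₁, hd₁, h₁, e₁⟩
      ⟨k₂, a₂, b₂, c₂, d₂, ha₂, hb₂, hc₂, hd₂, h₂, e₂⟩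
    refine ⟨k₁ + k₂, a₁ * a₂, b₁ * b₂, c₁ * c₂, d₁ * d₂, ?_, ?_, ?_, ?_, ?_, ?_⟩
    · exact fun h => (hP.mem_or_mem h).elim ha₁ ha₂
    · exact fun h => (hP.mem_or_mem h).elim hb₁ hb₂
    · exact fun h => (hP.mem_or_mem h).elim hc₁ hc₂
    · exact fun h => (hP.mem_or_mem h).elim hd₁ hd₂
    · have h3 : a₁ * a₂ * (d₁ * d₂) ^ p - b₁ * b₂ * (c₁ * c₂) ^ p
          = a₁ * d₁ ^ p * (a₂ * d₂ ^ p - b₂ * c₂ ^ p)
            + b₂ * c₂ ^ p * (a₁ * d₁ ^ p - b₁ * c₁ ^ p) := by ring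
      rw [h3]
      exact P.add_mem (P.mul_mem_left _ h₂) (P.mul_mem_left _ h₁)
    · have hϖF : algebraMap (𝓞 F) F ϖ ≠ 0 := RingOfIntegers.coe_ne_zero_iff.mpr hϖ
      rw [Units.val_mul, zpow_add₀ hϖF, map_mul, map_mul]
      linear_combination ((u₂ : F) * algebraMap (𝓞 F) F b₂) * e₁
        + (algebraMap (𝓞 F) F ϖ ^ k₁ * algebraMap (𝓞 F) F a₁) * e₂
  one_mem' := by
    have h1 : (1 : 𝓞 F) ∉ P := fun h => hP.ne_top ((Ideal.eq_top_iff_one P).mpr h)
    exact ⟨0, 1, 1, 1, 1, h1, h1, h1, h1, by simp, by simp⟩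
  inv_mem' := by
    rintro u ⟨k, a, b, c, d, ha, hb, hc, hd, h, e⟩
    refine ⟨-k, b, a, d, c, hb, ha, hd, hc, ?_, ?_⟩
    · have h3 : b * c ^ p - a * d ^ p = -(a * d ^ p - b * c ^ p) := by ring
      rw [h3]
      exact P.neg_mem h
    · have hϖF : algebraMap (𝓞 F) F ϖ ≠ 0 := RingOfIntegers.coe_ne_zero_iff.mpr hϖ
      have hu : (u : F) ≠ 0 := u.ne_zero
      have hk : algebraMap (𝓞 F) F ϖ ^ k ≠ 0 := zpow_ne_zero _ hϖF
      rw [Units.val_inv_eq_inv_val, zpow_neg]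
      field_simp
      linear_combination -e

omit [NumberField F] in
theorem h1_locram_mem_group (P : Ideal (𝓞 F)) (hP : P.IsPrime) (ϖ : 𝓞 F) (hϖ : ϖ ≠ 0) (p : ℕ)
    (u : Fˣ) : u ∈ h1_locram_group F P hP ϖ hϖ p ↔
      ∃ (k : ℤ) (a b c d : 𝓞 F), a ∉ P ∧ b ∉ P ∧ c ∉ P ∧ d ∉ P ∧
        a * d ^ p - b * c ^ p ∈ P ∧
        (u : F) * algebraMap (𝓞 F) F b = algebraMap (𝓞 F) F ϖ ^ k * algebraMap (𝓞 F) F a :=
  Iff.rfl

/-- Core of `h1_ramified_group`: the local norm group at a prime `w` with trivial Galois action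
on the residue field and residue degree one. -/
theorem h1_locram_core [IsGalois F M] (p : ℕ) [Fact p.Prime] (hdeg : Module.finrank F M = p)
    (ζ : F) (hζ : IsPrimitiveRoot ζ p) (w : HeightOneSpectrum (𝓞 M))
    (hin : ∀ (σ : M ≃ₐ[F] M) (x : 𝓞 M), σ • x - x ∈ w.asIdeal)
    (hres : ∀ x : 𝓞 M, ∃ c : 𝓞 F, x - algebraMap (𝓞 F) (𝓞 M) c ∈ w.asIdeal)
    (hpv : (p : 𝓞 F) ∉ (h1_under F w).asIdeal) :
    ∃ H : Subgroup Fˣ,
      (∀ y : Mˣ, h1_nrm F M y ∈ H) ∧
      (∀ (u : Fˣ) (a b : 𝓞 F), a ∉ (h1_under F w).asIdeal → b ∉ (h1_under F w).asIdeal →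
          a - b ∈ (h1_under F w).asIdeal → (u : F) * a = b → u ∈ H) ∧
      (∃ z₀ : 𝓞 F, z₀ ∉ (h1_under F w).asIdeal ∧ ∀ (u : Fˣ) (z : 𝓞 F),
          z - z₀ ∈ (h1_under F w).asIdeal → (u : F) = z → u ∉ H) := by
  have hp := (Fact.out : p.Prime)
  -- the prime below
  obtain ⟨P, hPdef⟩ : ∃ P : Ideal (𝓞 F), P = (h1_under F w).asIdeal := ⟨_, rfl⟩
  have hP : P.IsPrime := hPdef ▸ (h1_under F w).isPrime
  have hP0 : P ≠ ⊥ := hPdef ▸ (h1_under F w).ne_bot
  have hPmem : ∀ x : 𝓞 F, x ∈ P ↔ algebraMap (𝓞 F) (𝓞 M) x ∈ w.asIdeal := by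
    intro x
    rw [hPdef, h1_under_asIdeal, Ideal.mem_comap]
  rw [← hPdef] at hpv ⊢
  have h1P : (1 : 𝓞 F) ∉ P := fun h => hP.ne_top ((Ideal.eq_top_iff_one P).mpr h)
  -- a uniformizer and its norm
  obtain ⟨pw, hpw1, hpw2⟩ :=
    Ideal.exists_mem_pow_notMem_pow_succ w.asIdeal w.ne_bot w.isPrime.ne_top 1
  rw [pow_one] at hpw1
  have hpw0 : pw ≠ 0 := by
    rintro rfl
    exact hpw2 (Ideal.zero_mem _)
  obtain ⟨ϖ, hϖdef⟩ : ∃ ϖ : 𝓞 F, ϖ = Algebra.intNorm (𝓞 F) (𝓞 M) pw := ⟨_, rfl⟩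
  have hϖnorm : algebraMap (𝓞 F) F ϖ = Algebra.norm F (algebraMap (𝓞 M) M pw) := by
    rw [hϖdef]
    exact Algebra.algebraMap_intNorm (K := F) (L := M) pw
  have hcoe0 : ∀ x : 𝓞 M, x ≠ 0 → algebraMap (𝓞 M) M x ≠ 0 := fun x hx =>
    RingOfIntegers.coe_ne_zero_iff.mpr hx
  have hϖ0 : ϖ ≠ 0 := by
    intro h0
    rw [h0, map_zero] at hϖnorm
    exact hcoe0 pw hpw0 (Algebra.norm_eq_zero_iff.mp hϖnorm.symm)
  have hϖP : ϖ ∈ P := by
    rw [hPmem, hϖdef, h1_locram_algebraMap_intNorm]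
    refine Ideal.mem_of_dvd _
      (Finset.dvd_prod_of_mem (fun τ : M ≃ₐ[F] M => τ • pw) (Finset.mem_univ 1)) ?_
    simpa using hpw1
  refine ⟨h1_locram_group F P hP ϖ hϖ0 p, ?_, ?_, ?_⟩
  · -- norms
    obtain ⟨H, hH⟩ : ∃ H : Subgroup Fˣ, H = h1_locram_group F P hP ϖ hϖ0 p := ⟨_, rfl⟩
    rw [← hH]
    -- (i) integers outside `w`
    have hunit : ∀ s : 𝓞 M, s ∉ w.asIdeal → ∀ us : Mˣ, (us : M) = algebraMap (𝓞 M) M s →
        h1_nrm F M us ∈ H := by
      intro s hs us hus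
      obtain ⟨c, hc⟩ := hres s
      have hcP : c ∉ P := by
        intro hcP
        apply hs
        have h2 := w.asIdeal.add_mem hc ((hPmem c).mp hcP)
        rwa [sub_add_cancel] at h2
      have hn' : Algebra.intNorm (𝓞 F) (𝓞 M) s - c ^ p ∈ P := by
        rw [hPdef, h1_under_asIdeal]
        exact h1_locram_intNorm_congr F M p hdeg w.asIdeal hin s c hc
      have hnP : Algebra.intNorm (𝓞 F) (𝓞 M) s ∉ P := by
        intro h
        have h2 := P.sub_mem h hn'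
        rw [sub_sub_cancel] at h2
        exact hcP (hP.mem_of_pow_mem _ h2)
      rw [hH]
      refine (h1_locram_mem_group F P hP ϖ hϖ0 p _).mpr
        ⟨0, Algebra.intNorm (𝓞 F) (𝓞 M) s, 1, c, 1, hnP, h1P, hcP, h1P, ?_, ?_⟩
      · simpa using hn'
      · rw [h1_nrm_coe, hus, zpow_zero, one_mul, map_one, mul_one]
        exact (Algebra.algebraMap_intNorm (K := F) (L := M) s).symm
    -- (ii) the uniformizer
    have hunif : ∀ up : Mˣ, (up : M) = algebraMap (𝓞 M) M pw → h1_nrm F M up ∈ H := by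
      intro up hup
      rw [hH]
      refine (h1_locram_mem_group F P hP ϖ hϖ0 p _).mpr
        ⟨1, 1, 1, 1, 1, h1P, h1P, h1P, h1P, by simp, ?_⟩
      rw [h1_nrm_coe, hup, zpow_one, map_one, mul_one, mul_one, hϖnorm]
    -- (iii) nonzero integers
    have hint : ∀ y : 𝓞 M, y ≠ 0 → ∀ uy : Mˣ, (uy : M) = algebraMap (𝓞 M) M y →
        h1_nrm F M uy ∈ H := by
      intro y hy uy huy
      obtain ⟨k, s, t, hs, ht, hst⟩ :=
        h1_locram_exists_unif_decomp M w.asIdeal w.isPrime pw hpw1 hpw2 y hy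
      have hs0 : algebraMap (𝓞 M) M s ≠ 0 := hcoe0 s (by
        rintro rfl
        exact hs (Ideal.zero_mem _))
      have ht0 : algebraMap (𝓞 M) M t ≠ 0 := hcoe0 t (by
        rintro rfl
        exact ht (Ideal.zero_mem _))
      have hpw0' : algebraMap (𝓞 M) M pw ≠ 0 := hcoe0 pw hpw0
      have huy_eq : uy = Units.mk0 _ hpw0' ^ k * Units.mk0 _ hs0 * (Units.mk0 _ ht0)⁻¹ := by
        rw [eq_mul_inv_iff_mul_eq]
        apply Units.ext
        simp only [Units.val_mul, Units.val_pow_eq_pow_val, Units.val_mk0]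
        rw [huy, ← map_pow, ← map_mul, ← map_mul, hst]
      rw [huy_eq, map_mul, map_mul, map_pow, map_inv]
      exact H.mul_mem (H.mul_mem (H.pow_mem (hunif _ rfl) k) (hunit s hs _ rfl))
        (H.inv_mem (hunit t ht _ rfl))
    -- (iv) all units
    intro y
    obtain ⟨y₁, y₂, hy₂, hy⟩ := IsFractionRing.div_surjective (A := 𝓞 M) (y : M)
    have hy₂0 : y₂ ≠ 0 := nonZeroDivisors.ne_zero hy₂
    have hy₁0 : y₁ ≠ 0 := by
      rintro rfl
      rw [map_zero, zero_div] at hy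
      exact y.ne_zero hy.symm
    have e1 : algebraMap (𝓞 M) M y₁ ≠ 0 := hcoe0 y₁ hy₁0
    have e2 : algebraMap (𝓞 M) M y₂ ≠ 0 := hcoe0 y₂ hy₂0
    have hyeq : y = Units.mk0 _ e1 * (Units.mk0 _ e2)⁻¹ := by
      rw [eq_mul_inv_iff_mul_eq]
      apply Units.ext
      simp only [Units.val_mul, Units.val_mk0]
      rw [← hy]
      field_simp
    rw [hyeq, map_mul, map_inv]
    exact H.mul_mem (hint y₁ hy₁0 _ rfl) (H.inv_mem (hint y₂ hy₂0 _ rfl))
  · -- units congruent to one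
    intro u a b ha hb hab hu
    refine (h1_locram_mem_group F P hP ϖ hϖ0 p u).mpr ⟨0, b, a, 1, 1, hb, ha, h1P, h1P, ?_, ?_⟩
    · have h3 : b * 1 ^ p - a * 1 ^ p = -(a - b) := by ring
      rw [h3]
      exact P.neg_mem hab
    · rw [zpow_zero, one_mul]
      exact hu
  · -- a residue class which is not a `p`-th power
    have hPmax : P.IsMaximal := hPdef ▸ (h1_under F w).isMaximal
    let _ : Field (𝓞 F ⧸ P) := Ideal.Quotient.field P
    have : Finite (𝓞 F ⧸ P) := Ideal.finiteQuotientOfFreeOfNeBot P hP0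
    have hninj : ¬ Function.Injective (fun x : 𝓞 F ⧸ P => x ^ p) := by
      intro hinj
      have : NeZero p := ⟨hp.ne_zero⟩
      have hζ' : IsPrimitiveRoot hζ.toInteger p := hζ.toInteger_isPrimitiveRoot
      have h1 : (Ideal.Quotient.mk P hζ.toInteger) ^ p = (1 : 𝓞 F ⧸ P) ^ p := by
        rw [← map_pow, hζ'.pow_eq_one, map_one, one_pow]
      have h2 : Ideal.Quotient.mk P hζ.toInteger = 1 := hinj h1
      have h3 : ∑ i ∈ Finset.range p, hζ.toInteger ^ i = 0 := hζ'.geom_sum_eq_zero hp.one_lt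
      have h4 := congrArg (Ideal.Quotient.mk P) h3
      rw [map_sum, map_zero] at h4
      simp only [map_pow, h2, one_pow, Finset.sum_const, Finset.card_range, nsmul_eq_mul,
        mul_one] at h4
      apply hpv
      rw [← Ideal.Quotient.eq_zero_iff_mem, map_natCast]
      exact h4
    have hnsurj : ¬ Function.Surjective (fun x : 𝓞 F ⧸ P => x ^ p) := fun h =>
      hninj (Finite.injective_iff_surjective.mpr h)
    obtain ⟨t, ht⟩ : ∃ t : 𝓞 F ⧸ P, ∀ x, x ^ p ≠ t := by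
      by_contra hcon
      apply hnsurj
      intro t
      by_contra hx
      exact hcon ⟨t, fun x hxt => hx ⟨x, hxt⟩⟩
    obtain ⟨z₀, rfl⟩ := Ideal.Quotient.mk_surjective t
    have hz₀ : ∀ c d : 𝓞 F, d ∉ P → z₀ * d ^ p - c ^ p ∉ P := by
      intro c d hd hmem
      have hd' : Ideal.Quotient.mk P d ≠ 0 := fun h => hd (Ideal.Quotient.eq_zero_iff_mem.mp h)
      rw [← Ideal.Quotient.eq, map_mul, map_pow, map_pow] at hmem
      apply ht (Ideal.Quotient.mk P c * (Ideal.Quotient.mk P d)⁻¹)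
      rw [mul_pow, ← hmem, inv_pow, mul_assoc, mul_inv_cancel₀ (pow_ne_zero _ hd'), mul_one]
    have hz₀P : z₀ ∉ P := by
      intro h
      apply hz₀ 0 1 h1P
      rw [one_pow, mul_one, zero_pow hp.ne_zero, sub_zero]
      exact h
    refine ⟨z₀, hz₀P, ?_⟩
    intro u z hz hu hmem
    obtain ⟨k, a, b, c, d, ha, hb, hc, hd, h, e⟩ :=
      (h1_locram_mem_group F P hP ϖ hϖ0 p u).mp hmem
    have hzP : z ∉ P := by
      intro hzm
      apply hz₀P
      have h2 := P.sub_mem hzm hz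
      rwa [sub_sub_cancel] at h2
    have hu' : (u : F) = algebraMap (𝓞 F) F z := hu
    rw [hu'] at e
    have hinj : Function.Injective (algebraMap (𝓞 F) F) := RingOfIntegers.coe_injective
    have hzb : z * b = a := by
      obtain ⟨n, rfl | rfl⟩ := Int.eq_nat_or_neg k
      · rw [zpow_natCast, ← map_pow, ← map_mul, ← map_mul] at e
        have e' : z * b = ϖ ^ n * a := hinj e
        rcases Nat.eq_zero_or_pos n with rfl | hn
        · simpa using e'
        · exfalso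
          have h2 : z * b ∈ P := by
            rw [e']
            exact P.mul_mem_right _ (P.pow_mem_of_mem hϖP n hn)
          exact (hP.mem_or_mem h2).elim hzP hb
      · rw [zpow_neg, zpow_natCast] at e
        have hϖF : algebraMap (𝓞 F) F ϖ ^ n ≠ 0 :=
          pow_ne_zero _ (RingOfIntegers.coe_ne_zero_iff.mpr hϖ0)
        have e2 : algebraMap (𝓞 F) F (ϖ ^ n * (z * b)) = algebraMap (𝓞 F) F a := by
          rw [map_mul, map_pow, map_mul, e, mul_inv_cancel_left₀ hϖF]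
        have e' : ϖ ^ n * (z * b) = a := hinj e2
        rcases Nat.eq_zero_or_pos n with rfl | hn
        · simpa using e'
        · exfalso
          apply ha
          rw [← e']
          exact P.mul_mem_right _ (P.pow_mem_of_mem hϖP n hn)
    apply hz₀ c d hd
    have h5 : b * (z * d ^ p - c ^ p) ∈ P := by
      have h6 : b * (z * d ^ p - c ^ p) = a * d ^ p - b * c ^ p := by
        rw [← hzb]
        ring
      rw [h6]
      exact h
    have h6 : z * d ^ p - c ^ p ∈ P := (hP.mem_or_mem h5).resolve_left hb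
    have h7 : z₀ * d ^ p - c ^ p = (z * d ^ p - c ^ p) - (z - z₀) * d ^ p := by ring
    rw [h7]
    exact P.sub_mem h6 (P.mul_mem_right _ hz)

end Fermat.Agent.S14
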