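import Mathlib
import Fermat.Agent.S14.Defs
import Fermat.Agent.S14.H1Defs

/-!
# P18 (S14), block H1: inert and ramified primes in a Galois extension of prime degree

For a Galois extension `M/F` of number fields of prime degree `p` and a prime `w` of `M` above
`v`, the identity `g * e * f = p` (`g` the number of primes above `v`, `e` the order of the
inertia group of `w`, `f` the residue degree) gives:

* `h1_relNorm_inert` : `w` unique above `v` with trivial inertia, then `N w = v ^ p`;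
* `h1_ramified_unique`, `h1_ramified_inertia`, `h1_ramified_residue`, `h1_relNorm_ramified` :
  if the inertia group of `w` is not trivial, then `w` is the unique prime above `v`, the
  inertia group is the whole Galois group, the residue degree is one and `N w = v`.
-/

set_option autoImplicit false

namespace Fermat.Agent.S14

open NumberField IsDedekindDomain nonZeroDivisors

variable (F M : Type*) [Field F] [NumberField F] [Field M] [NumberField M] [Algebra F M]

omit [NumberField F] [NumberField M] in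
/-- `w` lies over `h1_under F w`. -/
theorem h1_splitb_liesOver (w : HeightOneSpectrum (𝓞 M)) :
    w.asIdeal.LiesOver (h1_under F w).asIdeal := ⟨rfl⟩

/-- The inertia group of `w` is trivial iff `InertiaTrivialAt` holds. -/
theorem h1_splitb_inertia_eq_bot_iff (w : HeightOneSpectrum (𝓞 M)) :
    w.asIdeal.inertia (M ≃ₐ[F] M) = ⊥ ↔ InertiaTrivialAt F M w.asIdeal := by
  rw [Subgroup.eq_bot_iff_forall]
  exact Iff.rfl

omit [NumberField F] [NumberField M] in
/-- Exactly one prime ideal above `h1_under F w` iff `w` is the unique prime above it. -/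
theorem h1_splitb_ncard_eq_one_iff (w : HeightOneSpectrum (𝓞 M)) :
    ((h1_under F w).asIdeal.primesOver (𝓞 M)).ncard = 1 ↔
      ∀ w' : HeightOneSpectrum (𝓞 M), h1_under F w' = h1_under F w → w' = w := by
  have hmem : w.asIdeal ∈ (h1_under F w).asIdeal.primesOver (𝓞 M) :=
    ⟨w.isPrime, h1_splitb_liesOver F M w⟩
  constructor
  · intro h w' hw'
    obtain ⟨Q, hQ⟩ := Set.ncard_eq_one.mp h
    have hmem' : w'.asIdeal ∈ (h1_under F w).asIdeal.primesOver (𝓞 M) := by
      rw [← hw']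
      exact ⟨w'.isPrime, h1_splitb_liesOver F M w'⟩
    rw [hQ, Set.mem_singleton_iff] at hmem hmem'
    exact HeightOneSpectrum.ext (hmem'.trans hmem.symm)
  · intro h
    refine Set.ncard_eq_one.mpr ⟨w.asIdeal, Set.eq_singleton_iff_unique_mem.mpr ⟨hmem, ?_⟩⟩
    intro Q hQ
    have hQp : Q.IsPrime := hQ.1
    have hQl : Q.LiesOver (h1_under F w).asIdeal := hQ.2
    have hQ0 : Q ≠ ⊥ := Ideal.ne_bot_of_liesOver_of_ne_bot (h1_under F w).ne_bot Q
    have h2 : h1_under F (⟨Q, hQp, hQ0⟩ : HeightOneSpectrum (𝓞 M)) = h1_under F w :=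
      HeightOneSpectrum.ext hQl.over.symm
    exact congrArg HeightOneSpectrum.asIdeal (h _ h2)

/-- The identity `g * e * f = p`. -/
theorem h1_splitb_count [IsGalois F M] (p : ℕ) (hdeg : Module.finrank F M = p)
    (w : HeightOneSpectrum (𝓞 M)) :
    ((h1_under F w).asIdeal.primesOver (𝓞 M)).ncard *
      Nat.card (w.asIdeal.inertia (M ≃ₐ[F] M)) * w.asIdeal.inertiaDeg (𝓞 F) = p := by
  have := h1_splitb_liesOver F M w
  rw [← hdeg, ← IsGalois.card_aut_eq_finrank F M]
  exact Ideal.ncard_primesOver_mul_card_inertia_mul_finrank (G := M ≃ₐ[F] M)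
    (h1_under F w).asIdeal w.asIdeal

/-- The norm of `w` is `v ^ f`. -/
theorem h1_splitb_relNorm (w : HeightOneSpectrum (𝓞 M)) :
    Ideal.relNorm (𝓞 F) w.asIdeal = (h1_under F w).asIdeal ^ w.asIdeal.inertiaDeg (𝓞 F) := by
  have := h1_splitb_liesOver F M w
  exact Ideal.relNorm_eq_pow_of_isMaximal w.asIdeal (h1_under F w).asIdeal

/-- Ramified prime: `g = 1`, `e = p`, `f = 1`. -/
theorem h1_splitb_ramified [IsGalois F M] (p : ℕ) [Fact p.Prime] (hdeg : Module.finrank F M = p)
    (w : HeightOneSpectrum (𝓞 M)) (hw : ¬ InertiaTrivialAt F M w.asIdeal) :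
    ((h1_under F w).asIdeal.primesOver (𝓞 M)).ncard = 1 ∧
      Nat.card (w.asIdeal.inertia (M ≃ₐ[F] M)) = p ∧ w.asIdeal.inertiaDeg (𝓞 F) = 1 := by
  have hp : p.Prime := Fact.out
  have hcount := h1_splitb_count F M p hdeg w
  have he1 : Nat.card (w.asIdeal.inertia (M ≃ₐ[F] M)) ≠ 1 := fun h =>
    hw ((h1_splitb_inertia_eq_bot_iff F M w).mp (Subgroup.card_eq_one.mp h))
  have hdvd : Nat.card (w.asIdeal.inertia (M ≃ₐ[F] M)) ∣ p :=
    ⟨((h1_under F w).asIdeal.primesOver (𝓞 M)).ncard * w.asIdeal.inertiaDeg (𝓞 F), by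
      rw [← hcount]; ring⟩
  have he : Nat.card (w.asIdeal.inertia (M ≃ₐ[F] M)) = p :=
    ((Nat.dvd_prime hp).mp hdvd).resolve_left he1
  rw [he] at hcount
  have hgf : ((h1_under F w).asIdeal.primesOver (𝓞 M)).ncard * w.asIdeal.inertiaDeg (𝓞 F) = 1 := by
    apply Nat.eq_of_mul_eq_mul_right hp.pos
    rw [one_mul]
    nth_rewrite 2 [← hcount]
    ring
  exact ⟨Nat.eq_one_of_mul_eq_one_right hgf, he, Nat.eq_one_of_mul_eq_one_left hgf⟩

/-- Inert prime: unique above `v`, trivial inertia ⇒ `N w = v ^ p`. -/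
theorem h1_relNorm_inert [IsGalois F M] (p : ℕ) [Fact p.Prime] (hdeg : Module.finrank F M = p)
    (w : HeightOneSpectrum (𝓞 M))
    (huniq : ∀ w' : HeightOneSpectrum (𝓞 M), h1_under F w' = h1_under F w → w' = w)
    (hw : InertiaTrivialAt F M w.asIdeal) :
    Ideal.relNorm (𝓞 F) w.asIdeal = (h1_under F w).asIdeal ^ p := by
  have hcount := h1_splitb_count F M p hdeg w
  rw [(h1_splitb_ncard_eq_one_iff F M w).mpr huniq,
    (h1_splitb_inertia_eq_bot_iff F M w).mpr hw, Subgroup.card_bot, one_mul, one_mul] at hcount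
  rw [h1_splitb_relNorm, hcount]

/-- Ramified prime ⇒ it is the unique prime above `v`. -/
theorem h1_ramified_unique [IsGalois F M] (p : ℕ) [Fact p.Prime] (hdeg : Module.finrank F M = p)
    (w : HeightOneSpectrum (𝓞 M)) (hw : ¬ InertiaTrivialAt F M w.asIdeal) :
    ∀ w' : HeightOneSpectrum (𝓞 M), h1_under F w' = h1_under F w → w' = w :=
  (h1_splitb_ncard_eq_one_iff F M w).mp (h1_splitb_ramified F M p hdeg w hw).1

/-- Ramified prime ⇒ the whole Galois group is the inertia group. -/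
theorem h1_ramified_inertia [IsGalois F M] (p : ℕ) [Fact p.Prime] (hdeg : Module.finrank F M = p)
    (w : HeightOneSpectrum (𝓞 M)) (hw : ¬ InertiaTrivialAt F M w.asIdeal) :
    ∀ (σ : M ≃ₐ[F] M) (x : 𝓞 M), σ • x - x ∈ w.asIdeal := by
  have he := (h1_splitb_ramified F M p hdeg w hw).2.1
  have htop : w.asIdeal.inertia (M ≃ₐ[F] M) = ⊤ := by
    rw [← Subgroup.card_eq_iff_eq_top, he, IsGalois.card_aut_eq_finrank F M, hdeg]
  intro σ
  have hσ : σ ∈ w.asIdeal.inertia (M ≃ₐ[F] M) := by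
    rw [htop]
    exact Subgroup.mem_top σ
  exact hσ

/-- Ramified prime ⇒ residue degree one. -/
theorem h1_ramified_residue [IsGalois F M] (p : ℕ) [Fact p.Prime] (hdeg : Module.finrank F M = p)
    (w : HeightOneSpectrum (𝓞 M)) (hw : ¬ InertiaTrivialAt F M w.asIdeal) :
    ∀ x : 𝓞 M, ∃ c : 𝓞 F, x - algebraMap (𝓞 F) (𝓞 M) c ∈ w.asIdeal := by
  have hf := (h1_splitb_ramified F M p hdeg w hw).2.2
  have := h1_splitb_liesOver F M w
  rw [Ideal.inertiaDeg_eq_of_isMaximal (h1_under F w).asIdeal w.asIdeal] at hf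
  let _ : Field (𝓞 F ⧸ (h1_under F w).asIdeal) := Ideal.Quotient.field _
  have hbot := Subalgebra.bot_eq_top_of_finrank_eq_one hf
  intro x
  have hx : Ideal.Quotient.mk w.asIdeal x ∈
      (⊥ : Subalgebra (𝓞 F ⧸ (h1_under F w).asIdeal) (𝓞 M ⧸ w.asIdeal)) := by
    rw [hbot]
    exact Algebra.mem_top
  obtain ⟨c', hc'⟩ := Algebra.mem_bot.mp hx
  obtain ⟨c, rfl⟩ := Ideal.Quotient.mk_surjective c'
  refine ⟨c, ?_⟩
  rw [← Ideal.Quotient.eq, ← hc', Ideal.Quotient.algebraMap_mk_of_liesOver]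

/-- Ramified prime ⇒ `N w = v`. -/
theorem h1_relNorm_ramified [IsGalois F M] (p : ℕ) [Fact p.Prime] (hdeg : Module.finrank F M = p)
    (w : HeightOneSpectrum (𝓞 M)) (hw : ¬ InertiaTrivialAt F M w.asIdeal) :
    Ideal.relNorm (𝓞 F) w.asIdeal = (h1_under F w).asIdeal := by
  rw [h1_splitb_relNorm, (h1_splitb_ramified F M p hdeg w hw).2.2, pow_one]

end Fermat.Agent.S14
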