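import Mathlib
import Fermat.Agent.S14.Defs
import Fermat.Agent.S14.H1Defs
import Fermat.Agent.S14.H1SplitB
import Fermat.Agent.S14.H1LocRamCore

/-!
# P18 (S14) block H1 (route A, S-units): local norm group at a ramified prime

For a ramified prime `w` of `M` over `v` (with `M/F` Galois of prime degree `p`, `ζ_p ∈ F`,
`p ∉ v`) there is a subgroup `H` of `Fˣ` which contains all norms from `Mˣ`, all
"units congruent to one" at `v`, and misses a whole residue class of `v`-units.
The construction is in `H1LocRamCore.lean` (`h1_locram_core`).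
-/

set_option autoImplicit false

namespace Fermat.Agent.S14

open NumberField IsDedekindDomain nonZeroDivisors

variable (F M : Type*) [Field F] [NumberField F] [Field M] [NumberField M] [Algebra F M]

/-! ### H1LocRam.lean (deps: H1SplitB, H1LocRamCore) — local norm group at a ramified prime -/

theorem h1_ramified_group [IsGalois F M] (p : ℕ) [Fact p.Prime] (hdeg : Module.finrank F M = p)
    (ζ : F) (hζ : IsPrimitiveRoot ζ p) (w : HeightOneSpectrum (𝓞 M))
    (hw : ¬ InertiaTrivialAt F M w.asIdeal) (hpv : (p : 𝓞 F) ∉ (h1_under F w).asIdeal) :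
    ∃ H : Subgroup Fˣ,
      (∀ y : Mˣ, h1_nrm F M y ∈ H) ∧
      (∀ (u : Fˣ) (a b : 𝓞 F), a ∉ (h1_under F w).asIdeal → b ∉ (h1_under F w).asIdeal →
          a - b ∈ (h1_under F w).asIdeal → (u : F) * a = b → u ∈ H) ∧
      (∃ z₀ : 𝓞 F, z₀ ∉ (h1_under F w).asIdeal ∧ ∀ (u : Fˣ) (z : 𝓞 F),
          z - z₀ ∈ (h1_under F w).asIdeal → (u : F) = z → u ∉ H) :=
  h1_locram_core F M p hdeg ζ hζ w (h1_ramified_inertia F M p hdeg w hw)
    (h1_ramified_residue F M p hdeg w hw) hpv

end Fermat.Agent.S14
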