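import Mathlib
import Fermat.Agent.S14.H1Defs

/-!
# P18 (S14), block H1: orders of relative norms

* `h1_relNorm_span` : the relative norm of a principal ideal is generated by the norm;
* `h1_cnt_relNorm_of_unique` : at a prime `v` with a unique prime `w` above it and
  `N w = v ^ f`, the order of `N ℜ` at `v` is `f` times the order of `ℜ` at `w`;
* `h1_cnt_relNorm_eq_zero` : `N ℜ` has order `0` at `v` if `ℜ` has order `0` at all primes
  above `v`;
* `h1_ord_nrm_of_unique` : the version of the second statement for elements.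
-/

set_option autoImplicit false

namespace Fermat.Agent.S14

open NumberField IsDedekindDomain nonZeroDivisors

section cnt

variable (K : Type*) [Field K] [NumberField K] (v : HeightOneSpectrum (𝓞 K))

private theorem h1_norm_cnt_mul {I J : Ideal (𝓞 K)} (hI : I ≠ ⊥) (hJ : J ≠ ⊥) :
    h1_cnt K v (I * J) = h1_cnt K v I + h1_cnt K v J := by
  unfold h1_cnt
  rw [FractionalIdeal.coeIdeal_mul,
    FractionalIdeal.count_mul K v (FractionalIdeal.coeIdeal_ne_zero.mpr hI)
      (FractionalIdeal.coeIdeal_ne_zero.mpr hJ)]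

private theorem h1_norm_cnt_top : h1_cnt K v ⊤ = 0 := by
  unfold h1_cnt
  rw [FractionalIdeal.coeIdeal_top, FractionalIdeal.count_one]

private theorem h1_norm_cnt_pow (I : Ideal (𝓞 K)) (n : ℕ) :
    h1_cnt K v (I ^ n) = n * h1_cnt K v I := by
  unfold h1_cnt
  rw [FractionalIdeal.coeIdeal_pow, FractionalIdeal.count_pow]

private theorem h1_norm_cnt_self : h1_cnt K v v.asIdeal = 1 := by
  unfold h1_cnt
  exact FractionalIdeal.count_self K v

private theorem h1_norm_cnt_ne {w : HeightOneSpectrum (𝓞 K)} (hw : w ≠ v) :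
    h1_cnt K v w.asIdeal = 0 := by
  unfold h1_cnt
  exact FractionalIdeal.count_maximal_coprime K v hw

private theorem h1_norm_cnt_nonneg (I : Ideal (𝓞 K)) : 0 ≤ h1_cnt K v I := by
  unfold h1_cnt
  exact FractionalIdeal.count_coe_nonneg K v I

end cnt

variable (F M : Type*) [Field F] [NumberField F] [Field M] [NumberField M] [Algebra F M]

/-! ### H1Norm.lean (deps: H1Defs; orders of relative norms) -/

/-- `relNorm (y) = (N y)`. -/
theorem h1_relNorm_span (y : 𝓞 M) :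
    ∃ n : 𝓞 F, (n : F) = Algebra.norm F (y : M) ∧
      Ideal.relNorm (𝓞 F) (Ideal.span {y}) = Ideal.span {n} := by
  refine ⟨Algebra.intNorm (𝓞 F) (𝓞 M) y, ?_, Ideal.relNorm_singleton _ y⟩
  exact Algebra.algebraMap_intNorm (A := 𝓞 F) (K := F) (L := M) (B := 𝓞 M) y

/-- The relative norm of a prime is a power of the prime below it. -/
private theorem h1_norm_relNorm_prime (w : HeightOneSpectrum (𝓞 M)) :
    ∃ s : ℕ, Ideal.relNorm (𝓞 F) w.asIdeal = (h1_under F w).asIdeal ^ s := by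
  rw [h1_under_asIdeal]
  exact Ideal.exists_relNorm_eq_pow_of_isPrime w.asIdeal (w.asIdeal.under (𝓞 F))

/-- The relative norm of a prime not above `v` has order `0` at `v`. -/
private theorem h1_norm_cnt_relNorm_prime_ne (v : HeightOneSpectrum (𝓞 F))
    (w : HeightOneSpectrum (𝓞 M)) (h : h1_under F w ≠ v) :
    h1_cnt F v (Ideal.relNorm (𝓞 F) w.asIdeal) = 0 := by
  obtain ⟨s, hs⟩ := h1_norm_relNorm_prime F M w
  rw [hs, h1_norm_cnt_pow, h1_norm_cnt_ne F v h, mul_zero]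

private theorem h1_norm_relNorm_ne_bot {ℜ : Ideal (𝓞 M)} (hℜ : ℜ ≠ ⊥) :
    Ideal.relNorm (𝓞 F) ℜ ≠ ⊥ := fun h => hℜ (Ideal.relNorm_eq_bot_iff.mp h)

theorem h1_cnt_relNorm_of_unique (w : HeightOneSpectrum (𝓞 M))
    (huniq : ∀ w' : HeightOneSpectrum (𝓞 M), h1_under F w' = h1_under F w → w' = w) (f : ℕ)
    (hf : Ideal.relNorm (𝓞 F) w.asIdeal = (h1_under F w).asIdeal ^ f)
    (ℜ : Ideal (𝓞 M)) (hℜ : ℜ ≠ ⊥) :
    h1_cnt F (h1_under F w) (Ideal.relNorm (𝓞 F) ℜ) = f * h1_cnt M w ℜ := by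
  revert hℜ
  refine UniqueFactorizationMonoid.induction_on_prime
    (P := fun ℜ : Ideal (𝓞 M) => ℜ ≠ ⊥ →
      h1_cnt F (h1_under F w) (Ideal.relNorm (𝓞 F) ℜ) = f * h1_cnt M w ℜ) ℜ ?_ ?_ ?_
  · intro h0
    exact absurd Ideal.zero_eq_bot h0
  · intro x hx _
    rw [Ideal.isUnit_iff] at hx
    rw [hx, Ideal.relNorm_top, h1_norm_cnt_top, h1_norm_cnt_top, mul_zero]
  · intro a P ha hP ih _
    have hPprime : P.IsPrime := Ideal.isPrime_of_prime hP
    have hP0 : P ≠ ⊥ := hP.ne_zero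
    have ha0 : a ≠ ⊥ := ha
    let w' : HeightOneSpectrum (𝓞 M) := ⟨P, hPprime, hP0⟩
    have hw'P : w'.asIdeal = P := rfl
    rw [map_mul, h1_norm_cnt_mul F _ (h1_norm_relNorm_ne_bot F M hP0)
      (h1_norm_relNorm_ne_bot F M ha0), h1_norm_cnt_mul M w hP0 ha0, ih ha0, mul_add]
    congr 1
    by_cases hw : w' = w
    · have hPw : P = w.asIdeal := by rw [← hw]
      rw [hPw, hf, h1_norm_cnt_pow, h1_norm_cnt_self, h1_norm_cnt_self]
    · have hne : h1_under F w' ≠ h1_under F w := fun h => hw (huniq w' h)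
      rw [← hw'P, h1_norm_cnt_relNorm_prime_ne F M _ w' hne, h1_norm_cnt_ne M w hw, mul_zero]

theorem h1_cnt_relNorm_eq_zero (v : HeightOneSpectrum (𝓞 F)) (ℜ : Ideal (𝓞 M)) (hℜ : ℜ ≠ ⊥)
    (h : ∀ w : HeightOneSpectrum (𝓞 M), h1_under F w = v → h1_cnt M w ℜ = 0) :
    h1_cnt F v (Ideal.relNorm (𝓞 F) ℜ) = 0 := by
  revert hℜ h
  refine UniqueFactorizationMonoid.induction_on_prime
    (P := fun ℜ : Ideal (𝓞 M) => ℜ ≠ ⊥ →
      (∀ w : HeightOneSpectrum (𝓞 M), h1_under F w = v → h1_cnt M w ℜ = 0) →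
      h1_cnt F v (Ideal.relNorm (𝓞 F) ℜ) = 0) ℜ ?_ ?_ ?_
  · intro h0 _
    exact absurd Ideal.zero_eq_bot h0
  · intro x hx _ _
    rw [Ideal.isUnit_iff] at hx
    rw [hx, Ideal.relNorm_top, h1_norm_cnt_top]
  · intro a P ha hP ih _ hsupp
    have hPprime : P.IsPrime := Ideal.isPrime_of_prime hP
    have hP0 : P ≠ ⊥ := hP.ne_zero
    have ha0 : a ≠ ⊥ := ha
    let w' : HeightOneSpectrum (𝓞 M) := ⟨P, hPprime, hP0⟩
    have hw'P : w'.asIdeal = P := rfl
    have hsplit : ∀ w : HeightOneSpectrum (𝓞 M), h1_under F w = v →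
        h1_cnt M w P = 0 ∧ h1_cnt M w a = 0 := by
      intro w hw
      have h1 := hsupp w hw
      rw [h1_norm_cnt_mul M w hP0 ha0] at h1
      have h2 := h1_norm_cnt_nonneg M w P
      have h3 := h1_norm_cnt_nonneg M w a
      constructor <;> linarith
    have hne : h1_under F w' ≠ v := by
      intro heq
      have h1 := (hsplit w' heq).1
      rw [← hw'P, h1_norm_cnt_self] at h1
      exact one_ne_zero h1
    rw [map_mul, h1_norm_cnt_mul F v (h1_norm_relNorm_ne_bot F M hP0)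
      (h1_norm_relNorm_ne_bot F M ha0), ih ha0 (fun w hw => (hsplit w hw).2), add_zero, ← hw'P]
    exact h1_norm_cnt_relNorm_prime_ne F M v w' hne

theorem h1_ord_nrm_of_unique (w : HeightOneSpectrum (𝓞 M))
    (huniq : ∀ w' : HeightOneSpectrum (𝓞 M), h1_under F w' = h1_under F w → w' = w) (f : ℕ)
    (hf : Ideal.relNorm (𝓞 F) w.asIdeal = (h1_under F w).asIdeal ^ f) (y : Mˣ) :
    h1_ord F (h1_under F w) (h1_nrm F M y) = f * h1_ord M w y := by
  -- the integral case
  have hint : ∀ (a : 𝓞 M) (u : Mˣ), (u : M) = a →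
      h1_ord F (h1_under F w) (h1_nrm F M u) = f * h1_ord M w u := by
    intro a u hu
    have ha : a ≠ 0 := by
      rintro rfl
      exact u.ne_zero (by rw [hu]; rfl)
    have hspan0 : Ideal.span {a} ≠ ⊥ := by
      rw [Ne, Ideal.span_singleton_eq_bot]
      exact ha
    obtain ⟨n, hn, hspan⟩ := h1_relNorm_span F M a
    rw [h1_ord_eq_cnt F _ (h1_nrm F M u) n (by rw [h1_nrm_coe, hu, hn]), ← hspan,
      h1_cnt_relNorm_of_unique F M w huniq f hf _ hspan0, h1_ord_eq_cnt M w u a hu]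
  -- the general case: `y = a / b`
  obtain ⟨a, b, hb, hab⟩ := IsFractionRing.div_surjective (A := 𝓞 M) (y : M)
  have hb0 : (algebraMap (𝓞 M) M b) ≠ 0 := by
    intro h0
    rw [h0, div_zero] at hab
    exact y.ne_zero hab.symm
  have ha0 : (algebraMap (𝓞 M) M a) ≠ 0 := by
    intro h0
    rw [h0, zero_div] at hab
    exact y.ne_zero hab.symm
  have hy : y = Units.mk0 _ ha0 / Units.mk0 _ hb0 := by
    apply Units.ext
    rw [Units.val_div_eq_div_val, Units.val_mk0, Units.val_mk0, hab]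
  rw [hy, map_div, h1_ord_div, h1_ord_div, hint a (Units.mk0 _ ha0) rfl,
    hint b (Units.mk0 _ hb0) rfl]
  ring

end Fermat.Agent.S14
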