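import Mathlib
import Fermat.Agent.S14.Defs
import Fermat.Agent.S14.H1Defs
import Fermat.Agent.S14.H1Defs2
import Fermat.Agent.S14.H1Fiber
import Fermat.Agent.S14.H1Norm
import Fermat.Agent.S14.H1SplitB
import Fermat.Agent.S14.H1LocRam

/-!
# P18 (S14) block H1 (route A, S-units): the uniform local norm group `h1_loc_group`

For a nonsplit prime `v` of `F` (exactly one prime `w` of `M` above it) we produce a subgroup
`H ≤ Fˣ` containing all norms from `Mˣ`:

* if `w` has trivial inertia (inert prime), `H = {u | p ∣ ord_v u}`;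
* otherwise (ramified prime, then `𝔪 ≤ v` and `p ∉ v`), `H` is the group of `h1_ramified_group`.
-/

set_option autoImplicit false

namespace Fermat.Agent.S14

open NumberField IsDedekindDomain nonZeroDivisors

section aux

variable (K : Type*) [Field K] [NumberField K] (v : HeightOneSpectrum (𝓞 K))

/-- The order at `v` of an integral ideal lying in `v ^ n` but not in `v ^ (n + 1)` is `n`. -/
theorem h1_loc_cnt_eq (I : Ideal (𝓞 K)) (hI : I ≠ ⊥) (n : ℕ) (hle : I ≤ v.asIdeal ^ n)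
    (hlt : ¬ I ≤ v.asIdeal ^ (n + 1)) : h1_cnt K v I = n := by
  classical
  have := v.isPrime
  unfold h1_cnt
  rw [FractionalIdeal.count_coe K v hI, Ideal.count_associates_factors_eq hI v.isPrime v.ne_bot,
    Ideal.count_normalizedFactors_eq hle hlt]

/-- The order at `v` of an integer lying in `v ^ n` but not in `v ^ (n + 1)` is `n`. -/
theorem h1_loc_ord_eq (x : Kˣ) (a : 𝓞 K) (h : (x : K) = a) (n : ℕ) (hle : a ∈ v.asIdeal ^ n)
    (hlt : a ∉ v.asIdeal ^ (n + 1)) : h1_ord K v x = n := by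
  rw [h1_ord_eq_cnt K v x a h]
  apply h1_loc_cnt_eq
  · rw [Ne, Ideal.span_singleton_eq_bot]
    rintro rfl
    exact hlt (zero_mem _)
  · rwa [Ideal.span_singleton_le_iff_mem]
  · rwa [Ideal.span_singleton_le_iff_mem]

/-- An integer outside `v` has order `0` at `v`. -/
theorem h1_loc_ord_zero (x : Kˣ) (a : 𝓞 K) (h : (x : K) = a) (ha : a ∉ v.asIdeal) :
    h1_ord K v x = 0 := by
  have := h1_loc_ord_eq K v x a h 0 (by simp) (by simpa using ha)
  simpa using this

/-- An integer in `v` but not in `v ^ 2` has order `1` at `v`. -/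
theorem h1_loc_ord_one (x : Kˣ) (a : 𝓞 K) (h : (x : K) = a) (ha : a ∈ v.asIdeal)
    (ha2 : a ∉ v.asIdeal ^ 2) : h1_ord K v x = 1 := by
  have := h1_loc_ord_eq K v x a h 1 (by simpa using ha) (by simpa using ha2)
  simpa using this

/-- If `u * a = b` with integers `a, b` outside `v`, then `ord_v u = 0`. -/
theorem h1_loc_ord_quot (u : Kˣ) (a b : 𝓞 K) (ha : a ∉ v.asIdeal) (hb : b ∉ v.asIdeal)
    (h : (u : K) * a = b) : h1_ord K v u = 0 := by
  have ha0 : (a : K) ≠ 0 := by
    intro h0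
    have : a = 0 := by exact_mod_cast h0
    exact ha (this ▸ zero_mem _)
  have hb0 : (b : K) ≠ 0 := by
    intro h0
    have : b = 0 := by exact_mod_cast h0
    exact hb (this ▸ zero_mem _)
  have hab : u * Units.mk0 (a : K) ha0 = Units.mk0 (b : K) hb0 := by
    apply Units.ext
    simpa using h
  have h1 := h1_ord_mul K v u (Units.mk0 (a : K) ha0)
  rw [hab, h1_loc_ord_zero K v (Units.mk0 (a : K) ha0) a rfl ha,
    h1_loc_ord_zero K v (Units.mk0 (b : K) hb0) b rfl hb] at h1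
  linarith

/-- The subgroup of `Kˣ` of the elements whose order at `v` is divisible by `p`. -/
def h1_loc_sub (p : ℕ) : Subgroup Kˣ where
  carrier := {u | (p : ℤ) ∣ h1_ord K v u}
  mul_mem' {x y} hx hy := by
    change (p : ℤ) ∣ h1_ord K v (x * y)
    rw [h1_ord_mul]
    exact dvd_add hx hy
  one_mem' := by
    change (p : ℤ) ∣ h1_ord K v 1
    rw [h1_ord_one]
    exact dvd_zero _
  inv_mem' {x} hx := by
    change (p : ℤ) ∣ h1_ord K v x⁻¹
    rw [h1_ord_inv]
    exact (dvd_neg).mpr hx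

theorem h1_loc_mem_sub (p : ℕ) (u : Kˣ) : u ∈ h1_loc_sub K v p ↔ (p : ℤ) ∣ h1_ord K v u :=
  Iff.rfl

end aux

variable (F M : Type*) [Field F] [NumberField F] [Field M] [NumberField M] [Algebra F M]

/-! ### H1Loc.lean (deps: H1LocRam, H1Norm, H1Fiber, H1OrdExt, H1SplitB) — uniform local norm group -/

theorem h1_loc_group [IsGalois F M] (p : ℕ) [Fact p.Prime] (hdeg : Module.finrank F M = p)
    (ζ : F) (hζ : IsPrimitiveRoot ζ p) (𝔪 : Ideal (𝓞 F))
    (hp𝔪 : IsCoprime 𝔪 (Ideal.span {(p : 𝓞 F)})) (hunr : UnramifiedOutside F M 𝔪)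
    (v : HeightOneSpectrum (𝓞 F)) (hv : h1_nonsplit F M v) :
    ∃ H : Subgroup Fˣ,
      (∀ y : Mˣ, h1_nrm F M y ∈ H) ∧
      (¬ 𝔪 ≤ v.asIdeal → ∀ u : Fˣ, u ∈ H ↔ (p : ℤ) ∣ h1_ord F v u) ∧
      (𝔪 ≤ v.asIdeal →
        (∀ (u : Fˣ) (a b : 𝓞 F), a ∉ v.asIdeal → b ∉ v.asIdeal → a - b ∈ v.asIdeal →
            (u : F) * a = b → u ∈ H) ∧
        ∃ z₀ : 𝓞 F, z₀ ∉ v.asIdeal ^ 2 ∧ ∀ (u : Fˣ) (z : 𝓞 F),
            z - z₀ ∈ v.asIdeal ^ 2 → (u : F) = z → u ∉ H) := by
  obtain ⟨w, hw⟩ := h1_fiber_nonempty F M v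
  have huniq : ∀ w' : HeightOneSpectrum (𝓞 M), h1_under F w' = h1_under F w → w' = w :=
    fun w' h => hv w' w (h.trans hw) hw
  subst hw
  have hp1 : ¬ (p : ℤ) ∣ 1 := by
    intro h
    have h' : p ∣ 1 := by exact_mod_cast h
    exact (Fact.out : p.Prime).one_lt.ne' (Nat.dvd_one.mp h')
  by_cases hin : InertiaTrivialAt F M w.asIdeal
  · -- inert prime
    refine ⟨h1_loc_sub F (h1_under F w) p, ?_, ?_, ?_⟩
    · intro y
      rw [h1_loc_mem_sub,
        h1_ord_nrm_of_unique F M w huniq p (h1_relNorm_inert F M p hdeg w huniq hin) y]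
      exact dvd_mul_right _ _
    · intro _ u
      exact Iff.rfl
    · intro _
      refine ⟨?_, ?_⟩
      · intro u a b ha hb _ hab
        rw [h1_loc_mem_sub, h1_loc_ord_quot F (h1_under F w) u a b ha hb hab]
        exact dvd_zero _
      · obtain ⟨z₀, hz₀, hz₀2⟩ := Ideal.exists_mem_pow_notMem_pow_succ (h1_under F w).asIdeal
          (h1_under F w).ne_bot (h1_under F w).isPrime.ne_top 1
        rw [pow_one] at hz₀
        have hz₀2' : z₀ ∉ (h1_under F w).asIdeal ^ 2 := hz₀2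
        refine ⟨z₀, hz₀2', ?_⟩
        intro u z hz hu hmem
        have hzv : z ∈ (h1_under F w).asIdeal := by
          have h1 : z - z₀ ∈ (h1_under F w).asIdeal := Ideal.pow_le_self two_ne_zero hz
          have := add_mem h1 hz₀
          simpa using this
        have hzv2 : z ∉ (h1_under F w).asIdeal ^ 2 := by
          intro h2
          apply hz₀2'
          have := sub_mem h2 hz
          simpa using this
        rw [h1_loc_mem_sub, h1_loc_ord_one F (h1_under F w) u z hu hzv hzv2] at hmem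
        exact hp1 hmem
  · -- ramified prime
    have hm : 𝔪 ≤ (h1_under F w).asIdeal := by
      by_contra h
      exact hin (hunr w.asIdeal w.isPrime w.ne_bot h)
    have hpv : (p : 𝓞 F) ∉ (h1_under F w).asIdeal := by
      intro hp
      obtain ⟨x, hx, y, hy, hxy⟩ := Ideal.isCoprime_iff_exists.mp hp𝔪
      have hy' : y ∈ (h1_under F w).asIdeal :=
        ((Ideal.span_singleton_le_iff_mem _).mpr hp) hy
      have h1 : (1 : 𝓞 F) ∈ (h1_under F w).asIdeal := hxy ▸ add_mem (hm hx) hy'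
      exact (h1_under F w).isPrime.ne_top ((Ideal.eq_top_iff_one _).mpr h1)
    obtain ⟨H, hH1, hH2, z₀, hz₀, hH3⟩ := h1_ramified_group F M p hdeg ζ hζ w hin hpv
    refine ⟨H, hH1, fun h => absurd hm h, fun _ => ⟨hH2, z₀, ?_, ?_⟩⟩
    · intro h
      exact hz₀ (Ideal.pow_le_self two_ne_zero h)
    · intro u z hz hu
      exact hH3 u z (Ideal.pow_le_self two_ne_zero hz) hu

end Fermat.Agent.S14
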