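import Mathlib
import Fermat.Agent.S14.Defs
import Fermat.Agent.S14.H1Defs
import Fermat.Agent.S14.H1Norm
import Fermat.Agent.S14.H1SplitB

/-! P18 (S14) block H1 (route A, S-units), step (B): from a ray-norm relation and a class-killing
set of primes, an element of `Fˣ` with prescribed divisor away from that set. -/

set_option autoImplicit false

namespace Fermat.Agent.S14

open NumberField IsDedekindDomain nonZeroDivisors

/-- `h1_cnt` is additive on products of nonzero ideals. -/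
theorem h1_rayelt_cnt_mul (K : Type*) [Field K] [NumberField K] (v : HeightOneSpectrum (𝓞 K))
    (I J : Ideal (𝓞 K)) (hI : I ≠ ⊥) (hJ : J ≠ ⊥) :
    h1_cnt K v (I * J) = h1_cnt K v I + h1_cnt K v J := by
  unfold h1_cnt
  rw [FractionalIdeal.coeIdeal_mul, FractionalIdeal.count_mul K v
    (FractionalIdeal.coeIdeal_ne_zero.mpr hI) (FractionalIdeal.coeIdeal_ne_zero.mpr hJ)]

/-- The order of the unit attached to a nonzero integer is the order of its ideal. -/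
theorem h1_rayelt_ord_mk0 (K : Type*) [Field K] [NumberField K] (v : HeightOneSpectrum (𝓞 K))
    (a : 𝓞 K) (ha : (a : K) ≠ 0) :
    h1_ord K v (Units.mk0 (a : K) ha) = h1_cnt K v (Ideal.span {a}) :=
  h1_ord_eq_cnt K v _ a rfl

/-- An element generating an ideal coprime to `𝔪` lies in no prime containing `𝔪`. -/
theorem h1_rayelt_not_mem (K : Type*) [Field K] [NumberField K] (v : HeightOneSpectrum (𝓞 K))
    (𝔪 : Ideal (𝓞 K)) (h𝔪 : 𝔪 ≤ v.asIdeal) (a : 𝓞 K) (ha : IsCoprime (Ideal.span {a}) 𝔪) :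
    a ∉ v.asIdeal := by
  intro hav
  have h1 : Ideal.span {a} ⊔ 𝔪 = ⊤ := Ideal.isCoprime_iff_sup_eq.mp ha
  have h2 : Ideal.span {a} ⊔ 𝔪 ≤ v.asIdeal :=
    sup_le ((Ideal.span_singleton_le_iff_mem _).mpr hav) h𝔪
  rw [h1] at h2
  exact v.isPrime.ne_top (top_le_iff.mp h2)

variable (F M : Type*) [Field F] [NumberField F] [Field M] [NumberField M] [Algebra F M]

/-- The order of the norm of a nonzero integer `y` with `𝔄 * ℜ = (y)`. -/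
theorem h1_rayelt_ord_nrm (v : HeightOneSpectrum (𝓞 F)) (𝔄 ℜ : Ideal (𝓞 M)) (y : 𝓞 M)
    (h𝔄 : 𝔄 ≠ ⊥) (hℜ : ℜ ≠ ⊥) (hy : (y : M) ≠ 0) (h : 𝔄 * ℜ = Ideal.span {y}) :
    h1_ord F v (h1_nrm F M (Units.mk0 (y : M) hy)) =
      h1_cnt F v (Ideal.relNorm (𝓞 F) 𝔄) + h1_cnt F v (Ideal.relNorm (𝓞 F) ℜ) := by
  obtain ⟨n, hn, hspan⟩ := h1_relNorm_span F M y
  have h1 : h1_ord F v (h1_nrm F M (Units.mk0 (y : M) hy)) = h1_cnt F v (Ideal.span {n}) :=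
    h1_ord_eq_cnt F v _ n hn.symm
  rw [h1, ← hspan, ← h, map_mul]
  exact h1_rayelt_cnt_mul F v _ _ (fun h0 => h𝔄 (Ideal.relNorm_eq_bot_iff.mp h0))
    (fun h0 => hℜ (Ideal.relNorm_eq_bot_iff.mp h0))

/-- From `RayNormRel F M 𝔪 𝔞 ⊤` and a class-killing set `T`: an element `x ∈ Fˣ` whose divisor is
`𝔞` away from the primes under `T`, congruent to it mod `p` at inert primes, and lying in every
subgroup containing the norms and the "units ≡ 1" at a prime `v ∣ 𝔪`. -/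
theorem h1_ray_elt [IsGalois F M] (p : ℕ) [Fact p.Prime] (hdeg : Module.finrank F M = p)
    (𝔪 : Ideal (𝓞 F)) (T : Finset (HeightOneSpectrum (𝓞 M)))
    (hT : ∀ 𝔄 : Ideal (𝓞 M), 𝔄 ≠ ⊥ →
      ∃ (ℜ : Ideal (𝓞 M)) (y : 𝓞 M), ℜ ≠ ⊥ ∧ y ≠ 0 ∧ 𝔄 * ℜ = Ideal.span {y} ∧
        ∀ w, w ∉ T → h1_cnt M w ℜ = 0)
    (𝔞 : Ideal (𝓞 F)) (h𝔞 : 𝔞 ≠ ⊥) (hrel : RayNormRel F M 𝔪 𝔞 ⊤) :
    ∃ x : Fˣ,
      (∀ v : HeightOneSpectrum (𝓞 F), (∀ w ∈ T, h1_under F w ≠ v) →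
          h1_ord F v x = h1_cnt F v 𝔞) ∧
      (∀ w : HeightOneSpectrum (𝓞 M),
          (∀ w' : HeightOneSpectrum (𝓞 M), h1_under F w' = h1_under F w → w' = w) →
          InertiaTrivialAt F M w.asIdeal →
          (p : ℤ) ∣ h1_ord F (h1_under F w) x - h1_cnt F (h1_under F w) 𝔞) ∧
      (∀ (v : HeightOneSpectrum (𝓞 F)) (H : Subgroup Fˣ), 𝔪 ≤ v.asIdeal →
          (∀ y : Mˣ, h1_nrm F M y ∈ H) →
          (∀ (u : Fˣ) (a b : 𝓞 F), a ∉ v.asIdeal → b ∉ v.asIdeal → a - b ∈ v.asIdeal →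
              (u : F) * a = b → u ∈ H) →
          x ∈ H) := by
  obtain ⟨a, b, 𝔄, 𝔅, ha, hb, hab, hca, hcb, h𝔄, h𝔅, -, -, heq⟩ := hrel
  obtain ⟨ℜA, yA, hℜA, hyA, hAy, hTA⟩ := hT 𝔄 h𝔄
  obtain ⟨ℜB, yB, hℜB, hyB, hBy, hTB⟩ := hT 𝔅 h𝔅
  have ha' : (a : F) ≠ 0 := RingOfIntegers.coe_ne_zero_iff.mpr ha
  have hb' : (b : F) ≠ 0 := RingOfIntegers.coe_ne_zero_iff.mpr hb
  have hyA' : (yA : M) ≠ 0 := RingOfIntegers.coe_ne_zero_iff.mpr hyA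
  have hyB' : (yB : M) ≠ 0 := RingOfIntegers.coe_ne_zero_iff.mpr hyB
  -- the order of `x` at every prime
  have key : ∀ v : HeightOneSpectrum (𝓞 F),
      h1_ord F v (Units.mk0 (b : F) hb' / Units.mk0 (a : F) ha' *
        h1_nrm F M (Units.mk0 (yB : M) hyB') / h1_nrm F M (Units.mk0 (yA : M) hyA')) =
      h1_cnt F v 𝔞 + h1_cnt F v (Ideal.relNorm (𝓞 F) ℜB) -
        h1_cnt F v (Ideal.relNorm (𝓞 F) ℜA) := by
    intro v
    have hNA : Ideal.relNorm (𝓞 F) 𝔄 ≠ ⊥ := fun h0 => h𝔄 (Ideal.relNorm_eq_bot_iff.mp h0)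
    have hNB : Ideal.relNorm (𝓞 F) 𝔅 ≠ ⊥ := fun h0 => h𝔅 (Ideal.relNorm_eq_bot_iff.mp h0)
    have hsa : Ideal.span {a} ≠ ⊥ := fun h0 => ha (Ideal.span_singleton_eq_bot.mp h0)
    have hsb : Ideal.span {b} ≠ ⊥ := fun h0 => hb (Ideal.span_singleton_eq_bot.mp h0)
    have h1 := congrArg (h1_cnt F v) heq
    rw [Ideal.mul_top, h1_rayelt_cnt_mul F v _ _ (mul_ne_zero hsa h𝔞) hNA,
      h1_rayelt_cnt_mul F v _ _ hsa h𝔞, h1_rayelt_cnt_mul F v _ _ hsb hNB] at h1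
    rw [h1_ord_div, h1_ord_mul, h1_ord_div, h1_rayelt_ord_mk0, h1_rayelt_ord_mk0,
      h1_rayelt_ord_nrm F M v 𝔅 ℜB yB h𝔅 hℜB hyB' hBy,
      h1_rayelt_ord_nrm F M v 𝔄 ℜA yA h𝔄 hℜA hyA' hAy]
    linarith
  refine ⟨Units.mk0 (b : F) hb' / Units.mk0 (a : F) ha' *
    h1_nrm F M (Units.mk0 (yB : M) hyB') / h1_nrm F M (Units.mk0 (yA : M) hyA'), ?_, ?_, ?_⟩
  · intro v hv
    rw [key v, h1_cnt_relNorm_eq_zero F M v ℜB hℜB (fun w hw => hTB w (fun hwT => hv w hwT hw)),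
      h1_cnt_relNorm_eq_zero F M v ℜA hℜA (fun w hw => hTA w (fun hwT => hv w hwT hw))]
    ring
  · intro w huniq hw
    have hN := h1_relNorm_inert F M p hdeg w huniq hw
    rw [key (h1_under F w), h1_cnt_relNorm_of_unique F M w huniq p hN ℜB hℜB,
      h1_cnt_relNorm_of_unique F M w huniq p hN ℜA hℜA]
    exact ⟨h1_cnt M w ℜB - h1_cnt M w ℜA, by ring⟩
  · intro v H h𝔪v hnrm hunit
    refine H.div_mem (H.mul_mem ?_ (hnrm _)) (hnrm _)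
    refine hunit _ a b (h1_rayelt_not_mem F v 𝔪 h𝔪v a hca) (h1_rayelt_not_mem F v 𝔪 h𝔪v b hcb)
      (h𝔪v hab) ?_
    rw [Units.val_div_eq_div_val, Units.val_mk0, Units.val_mk0, div_mul_cancel₀ _ ha']

end Fermat.Agent.S14
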