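import Mathlib
import Fermat.Agent.S14.Defs
import Fermat.Agent.S14.H1Defs
import Fermat.Agent.S14.H1Defs2
import Fermat.Agent.S14.H1Loc
import Fermat.Agent.S14.H1RayElt
import Fermat.Agent.S14.H1Indep
import Fermat.Agent.S14.H1Fiber

/-!
# P18 (S14), block H1 (route A, S-units), module H1Chars — step (C2)

If every ideal of `F` prime to `𝔪` is a ray-norm class, then the index of the norms of the
`S`-units of `M` in the `S`-units of `F` is at least `p ^ ns`, where `ns` is the number of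
nonsplit primes in `S`: for each nonsplit `v ∈ S` we construct an `S`-unit which is not in the
local norm group at `v` but is in the local norm groups at the other nonsplit primes of `S`.
-/

set_option autoImplicit false

namespace Fermat.Agent.S14

open NumberField IsDedekindDomain nonZeroDivisors

section prelim

variable (K : Type*) [Field K] [NumberField K]

/-- The order of the prime `v` at a different prime `v'` is zero. -/
private theorem h1_chars_cnt_prime_ne {v v' : HeightOneSpectrum (𝓞 K)} (h : v ≠ v') :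
    h1_cnt K v' v.asIdeal = 0 :=
  FractionalIdeal.count_maximal_coprime K v' h

/-- The order of the prime `v` at `v` is one. -/
private theorem h1_chars_cnt_prime_self (v : HeightOneSpectrum (𝓞 K)) :
    h1_cnt K v v.asIdeal = 1 :=
  FractionalIdeal.count_self K v

/-- Removing a power of `v` does not change the order at `v' ≠ v`. -/
private theorem h1_chars_cnt_pow_mul {v v' : HeightOneSpectrum (𝓞 K)} (h : v ≠ v') (n : ℕ)
    (𝔷 : Ideal (𝓞 K)) (h𝔷 : 𝔷 ≠ ⊥) :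
    h1_cnt K v' (v.asIdeal ^ n * 𝔷) = h1_cnt K v' 𝔷 := by
  unfold h1_cnt
  rw [FractionalIdeal.coeIdeal_mul, FractionalIdeal.coeIdeal_pow,
    FractionalIdeal.count_mul K v'
      (pow_ne_zero n (FractionalIdeal.coeIdeal_ne_zero.mpr v.ne_bot))
      (FractionalIdeal.coeIdeal_ne_zero.mpr h𝔷),
    FractionalIdeal.count_pow, FractionalIdeal.count_maximal_coprime K v' h, mul_zero, zero_add]

end prelim

section main

variable (F M : Type*) [Field F] [NumberField F] [Field M] [NumberField M] [Algebra F M]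

/-- The ray element of an ideal prime to `𝔪`, with its three properties phrased for the set `S`. -/
private theorem h1_chars_ray [IsGalois F M] (p : ℕ) [Fact p.Prime]
    (hdeg : Module.finrank F M = p) (𝔪 : Ideal (𝓞 F)) (hunr : UnramifiedOutside F M 𝔪)
    (T : Finset (HeightOneSpectrum (𝓞 M)))
    (hT : ∀ 𝔄 : Ideal (𝓞 M), 𝔄 ≠ ⊥ →
      ∃ (ℜ : Ideal (𝓞 M)) (y : 𝓞 M), ℜ ≠ ⊥ ∧ y ≠ 0 ∧ 𝔄 * ℜ = Ideal.span {y} ∧
        ∀ w, w ∉ T → h1_cnt M w ℜ = 0)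
    (S : Finset (HeightOneSpectrum (𝓞 F))) (hST : ∀ w ∈ T, h1_under F w ∈ S)
    (hall : ∀ 𝔞 : Ideal (𝓞 F), 𝔞 ≠ ⊥ → IsCoprime 𝔞 𝔪 → RayNormRel F M 𝔪 𝔞 ⊤)
    (𝔞 : Ideal (𝓞 F)) (h𝔞 : 𝔞 ≠ ⊥) (hcop : IsCoprime 𝔞 𝔪) :
    ∃ x : Fˣ,
      (∀ v' : HeightOneSpectrum (𝓞 F), v' ∉ S → h1_ord F v' x = h1_cnt F v' 𝔞) ∧
      (∀ v' : HeightOneSpectrum (𝓞 F), h1_nonsplit F M v' → ¬ 𝔪 ≤ v'.asIdeal →
        (p : ℤ) ∣ h1_ord F v' x - h1_cnt F v' 𝔞) ∧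
      (∀ (v' : HeightOneSpectrum (𝓞 F)) (H : Subgroup Fˣ), 𝔪 ≤ v'.asIdeal →
          (∀ y : Mˣ, h1_nrm F M y ∈ H) →
          (∀ (u : Fˣ) (a b : 𝓞 F), a ∉ v'.asIdeal → b ∉ v'.asIdeal → a - b ∈ v'.asIdeal →
              (u : F) * a = b → u ∈ H) →
          x ∈ H) := by
  obtain ⟨x, hx1, hx2, hx3⟩ := h1_ray_elt F M p hdeg 𝔪 T hT 𝔞 h𝔞 (hall 𝔞 h𝔞 hcop)
  refine ⟨x, ?_, ?_, hx3⟩
  · intro v' hv'
    exact hx1 v' fun w hw hwv => hv' (hwv ▸ hST w hw)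
  · intro v' hns hm
    obtain ⟨w, hw⟩ := h1_fiber_nonempty F M v'
    have huniq : ∀ w' : HeightOneSpectrum (𝓞 M), h1_under F w' = h1_under F w → w' = w :=
      fun w' hw' => hns w' w (hw'.trans hw) hw
    have hin : InertiaTrivialAt F M w.asIdeal := by
      refine hunr w.asIdeal w.isPrime w.ne_bot ?_
      rw [← h1_under_asIdeal, hw]
      exact hm
    have h2 := hx2 w huniq hin
    rw [hw] at h2
    exact h2

/-- For each nonsplit `v ∈ S`: an `S`-unit outside the local group at `v` and inside the local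
groups at the other nonsplit primes of `S`. -/
private theorem h1_chars_exists_elt [IsGalois F M] (p : ℕ) [Fact p.Prime]
    (hdeg : Module.finrank F M = p) (𝔪 : Ideal (𝓞 F)) (hunr : UnramifiedOutside F M 𝔪)
    (T : Finset (HeightOneSpectrum (𝓞 M)))
    (hT : ∀ 𝔄 : Ideal (𝓞 M), 𝔄 ≠ ⊥ →
      ∃ (ℜ : Ideal (𝓞 M)) (y : 𝓞 M), ℜ ≠ ⊥ ∧ y ≠ 0 ∧ 𝔄 * ℜ = Ideal.span {y} ∧
        ∀ w, w ∉ T → h1_cnt M w ℜ = 0)
    (S : Finset (HeightOneSpectrum (𝓞 F)))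
    (hS𝔪 : ∀ v : HeightOneSpectrum (𝓞 F), 𝔪 ≤ v.asIdeal → v ∈ S)
    (hST : ∀ w ∈ T, h1_under F w ∈ S)
    (hall : ∀ 𝔞 : Ideal (𝓞 F), 𝔞 ≠ ⊥ → IsCoprime 𝔞 𝔪 → RayNormRel F M 𝔪 𝔞 ⊤)
    (H : {v : HeightOneSpectrum (𝓞 F) // v ∈ S ∧ h1_nonsplit F M v} → Subgroup Fˣ)
    (hL1 : ∀ i, ∀ y : Mˣ, h1_nrm F M y ∈ H i)
    (hL2 : ∀ i, ¬ 𝔪 ≤ i.1.asIdeal → ∀ u : Fˣ, u ∈ H i ↔ (p : ℤ) ∣ h1_ord F i.1 u)
    (hL3 : ∀ i, 𝔪 ≤ i.1.asIdeal →
        (∀ (u : Fˣ) (a b : 𝓞 F), a ∉ i.1.asIdeal → b ∉ i.1.asIdeal → a - b ∈ i.1.asIdeal →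
            (u : F) * a = b → u ∈ H i) ∧
        ∃ z₀ : 𝓞 F, z₀ ∉ i.1.asIdeal ^ 2 ∧ ∀ (u : Fˣ) (z : 𝓞 F),
            z - z₀ ∈ i.1.asIdeal ^ 2 → (u : F) = z → u ∉ H i)
    (v : HeightOneSpectrum (𝓞 F)) (hvS : v ∈ S) (hvns : h1_nonsplit F M v) :
    ∃ e : Fˣ, e ∈ h1_sUnits F (S : Set (HeightOneSpectrum (𝓞 F))) ∧ e ∉ H ⟨v, hvS, hvns⟩ ∧
      ∀ (v' : HeightOneSpectrum (𝓞 F)) (hv'S : v' ∈ S) (hv'ns : h1_nonsplit F M v'), v' ≠ v →
        e ∈ H ⟨v', hv'S, hv'ns⟩ := by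
  classical
  have hp : p.Prime := Fact.out
  have hone : ∀ v' : HeightOneSpectrum (𝓞 F), (1 : 𝓞 F) ∉ v'.asIdeal := fun v' h =>
    v'.isPrime.ne_top ((Ideal.eq_top_iff_one _).mpr h)
  by_cases hm : 𝔪 ≤ v.asIdeal
  · -- `v ∣ 𝔪`
    obtain ⟨h3a, z₀, hz₀, hz₀H⟩ := hL3 ⟨v, hvS, hvns⟩ hm
    obtain ⟨z, hz⟩ := IsDedekindDomain.exists_forall_sub_mem_ideal (s := S)
      (fun v' : HeightOneSpectrum (𝓞 F) => v'.asIdeal) (fun v' => if v' = v then 2 else 1)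
      (fun v' _ => v'.prime) (fun v₁ _ v₂ _ h12 h => h12 (HeightOneSpectrum.ext h))
      (fun v' : S => if (v' : HeightOneSpectrum (𝓞 F)) = v then z₀ else 1)
    have hzv : z - z₀ ∈ v.asIdeal ^ 2 := by
      have h := hz v hvS
      simpa using h
    have hzv' : ∀ v' ∈ S, v' ≠ v → z - 1 ∈ v'.asIdeal := by
      intro v' hv' hne
      have h := hz v' hv'
      simpa [hne] using h
    have hzn2 : z ∉ v.asIdeal ^ 2 := fun h => hz₀ (by
      have h1 := Ideal.sub_mem _ h hzv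
      simpa using h1)
    have hz0 : z ≠ 0 := fun h => hzn2 (h ▸ Ideal.zero_mem _)
    have hzF : (z : F) ≠ 0 := RingOfIntegers.coe_ne_zero_iff.mpr hz0
    obtain ⟨n, 𝔷, hfac, h𝔷v⟩ : ∃ (n : ℕ) (𝔷 : Ideal (𝓞 F)),
        Ideal.span {z} = v.asIdeal ^ n * 𝔷 ∧ ¬ 𝔷 ≤ v.asIdeal := by
      by_cases hzmem : z ∈ v.asIdeal
      · obtain ⟨𝔷, h𝔷⟩ := Ideal.dvd_iff_le.mpr ((Ideal.span_singleton_le_iff_mem _).mpr hzmem)
        refine ⟨1, 𝔷, by rw [pow_one]; exact h𝔷, fun hle => hzn2 ?_⟩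
        have h1 : Ideal.span {z} ≤ v.asIdeal ^ 2 := by
          rw [h𝔷, pow_two]
          exact Ideal.mul_mono_right hle
        exact h1 (Ideal.mem_span_singleton_self z)
      · exact ⟨0, Ideal.span {z}, by rw [pow_zero, one_mul],
          fun hle => hzmem (hle (Ideal.mem_span_singleton_self z))⟩
    have h𝔷0 : 𝔷 ≠ ⊥ := by
      rintro rfl
      rw [Ideal.mul_bot (v.asIdeal ^ n), Ideal.span_singleton_eq_bot] at hfac
      exact hz0 hfac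
    have hspan_le : Ideal.span {z} ≤ 𝔷 := by
      rw [hfac]
      exact Ideal.mul_le_right
    have hcop : IsCoprime 𝔷 𝔪 := by
      rw [Ideal.isCoprime_iff_sup_eq]
      by_contra hne
      obtain ⟨P, hPmax, hPle⟩ := Ideal.exists_le_maximal _ hne
      have hP0 : P ≠ ⊥ :=
        Ring.ne_bot_of_isMaximal_of_not_isField hPmax (RingOfIntegers.not_isField F)
      have hmv' : 𝔪 ≤ P := le_trans le_sup_right hPle
      have h𝔷v' : 𝔷 ≤ P := le_trans le_sup_left hPle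
      have hv'S : (⟨P, hPmax.isPrime, hP0⟩ : HeightOneSpectrum (𝓞 F)) ∈ S := hS𝔪 _ hmv'
      by_cases hvv : (⟨P, hPmax.isPrime, hP0⟩ : HeightOneSpectrum (𝓞 F)) = v
      · apply h𝔷v
        rw [← hvv]
        exact h𝔷v'
      · have h1 : z ∈ P := h𝔷v' (hspan_le (Ideal.mem_span_singleton_self z))
        have h2 : z - 1 ∈ P := hzv' _ hv'S hvv
        have h3 : (1 : 𝓞 F) ∈ P := by
          have h4 := Ideal.sub_mem _ h1 h2
          simpa using h4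
        exact hPmax.ne_top ((Ideal.eq_top_iff_one _).mpr h3)
    obtain ⟨x, hx1, hx2, hx3⟩ := h1_chars_ray F M p hdeg 𝔪 hunr T hT S hST hall 𝔷 h𝔷0 hcop
    have hord : ∀ v' : HeightOneSpectrum (𝓞 F), v' ≠ v →
        h1_ord F v' (Units.mk0 (z : F) hzF) = h1_cnt F v' 𝔷 := by
      intro v' hne
      rw [h1_ord_eq_cnt F v' (Units.mk0 (z : F) hzF) z rfl, hfac,
        h1_chars_cnt_pow_mul F (Ne.symm hne) n 𝔷 h𝔷0]
    refine ⟨Units.mk0 (z : F) hzF / x, ?_, ?_, ?_⟩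
    · rw [h1_mem_sUnits]
      intro v' hv'
      have hv'S : v' ∉ S := fun h => hv' (Finset.mem_coe.mpr h)
      have hne : v' ≠ v := fun h => hv'S (h ▸ hvS)
      rw [h1_ord_div, hord v' hne, hx1 v' hv'S, sub_self]
    · intro hmem
      have hxH : x ∈ H ⟨v, hvS, hvns⟩ := hx3 v _ hm (hL1 _) h3a
      have h1 : Units.mk0 (z : F) hzF ∈ H ⟨v, hvS, hvns⟩ := by
        have h2 := (H ⟨v, hvS, hvns⟩).mul_mem hmem hxH
        rwa [div_mul_cancel] at h2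
      exact hz₀H _ z hzv rfl h1
    · intro v' hv'S hv'ns hne
      by_cases hm' : 𝔪 ≤ v'.asIdeal
      · have hxH : x ∈ H ⟨v', hv'S, hv'ns⟩ :=
          hx3 v' _ hm' (hL1 _) (hL3 ⟨v', hv'S, hv'ns⟩ hm').1
        have h1 : z - 1 ∈ v'.asIdeal := hzv' v' hv'S hne
        have hzn : z ∉ v'.asIdeal := fun h => hone v' (by
          have h2 := Ideal.sub_mem _ h h1
          simpa using h2)
        have huz : Units.mk0 (z : F) hzF ∈ H ⟨v', hv'S, hv'ns⟩ := by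
          refine (hL3 ⟨v', hv'S, hv'ns⟩ hm').1 _ 1 z (hone v') hzn ?_ ?_
          · have h2 := neg_mem h1
            rwa [neg_sub] at h2
          · simp
        exact (H _).div_mem huz hxH
      · rw [hL2 ⟨v', hv'S, hv'ns⟩ hm', h1_ord_div, hord v' hne]
        have h2 := dvd_neg.mpr (hx2 v' hv'ns hm')
        rwa [neg_sub] at h2
  · -- `v ∤ 𝔪`
    have hcop : IsCoprime v.asIdeal 𝔪 := by
      rw [Ideal.isCoprime_iff_sup_eq]
      by_contra hne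
      have h1 : v.asIdeal = v.asIdeal ⊔ 𝔪 := v.isMaximal.eq_of_le hne le_sup_left
      exact hm (h1 ▸ le_sup_right)
    obtain ⟨x, hx1, hx2, hx3⟩ :=
      h1_chars_ray F M p hdeg 𝔪 hunr T hT S hST hall v.asIdeal v.ne_bot hcop
    refine ⟨x, ?_, ?_, ?_⟩
    · rw [h1_mem_sUnits]
      intro v' hv'
      have hv'S : v' ∉ S := fun h => hv' (Finset.mem_coe.mpr h)
      have hne : v ≠ v' := fun h => hv'S (h ▸ hvS)
      rw [hx1 v' hv'S]
      exact h1_chars_cnt_prime_ne F hne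
    · rw [hL2 ⟨v, hvS, hvns⟩ hm]
      intro hdvd
      have h2 := hx2 v hvns hm
      rw [h1_chars_cnt_prime_self] at h2
      have h3 : (p : ℤ) ∣ 1 := by
        have h4 := dvd_sub hdvd h2
        simpa using h4
      have h5 : p ∣ 1 := by exact_mod_cast h3
      exact hp.one_lt.ne' (Nat.dvd_one.mp h5)
    · intro v' hv'S hv'ns hne
      by_cases hm' : 𝔪 ≤ v'.asIdeal
      · exact hx3 v' _ hm' (hL1 _) (hL3 ⟨v', hv'S, hv'ns⟩ hm').1
      · rw [hL2 ⟨v', hv'S, hv'ns⟩ hm']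
        have h2 := hx2 v' hv'ns hm'
        rw [h1_chars_cnt_prime_ne F (Ne.symm hne), sub_zero] at h2
        exact h2

/-! ### H1Chars.lean (deps: H1Loc, H1RayElt, H1Indep, H1Fiber, H1OrdExt) — step (C2): index ≥ p ^ ns -/

theorem h1_index_lower [IsGalois F M] (p : ℕ) [Fact p.Prime] (hdeg : Module.finrank F M = p)
    (ζ : F) (hζ : IsPrimitiveRoot ζ p) (𝔪 : Ideal (𝓞 F))
    (hp𝔪 : IsCoprime 𝔪 (Ideal.span {(p : 𝓞 F)})) (hunr : UnramifiedOutside F M 𝔪)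
    (T : Finset (HeightOneSpectrum (𝓞 M)))
    (hT : ∀ 𝔄 : Ideal (𝓞 M), 𝔄 ≠ ⊥ →
      ∃ (ℜ : Ideal (𝓞 M)) (y : 𝓞 M), ℜ ≠ ⊥ ∧ y ≠ 0 ∧ 𝔄 * ℜ = Ideal.span {y} ∧
        ∀ w, w ∉ T → h1_cnt M w ℜ = 0)
    (S : Finset (HeightOneSpectrum (𝓞 F))) (hS𝔪 : ∀ v : HeightOneSpectrum (𝓞 F), 𝔪 ≤ v.asIdeal → v ∈ S)
    (hST : ∀ w ∈ T, h1_under F w ∈ S)
    (hall : ∀ 𝔞 : Ideal (𝓞 F), 𝔞 ≠ ⊥ → IsCoprime 𝔞 𝔪 → RayNormRel F M 𝔪 𝔞 ⊤)
    (hidx : ((h1_sUnits M (h1_above F M (S : Set (HeightOneSpectrum (𝓞 F))))).map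
        (h1_nrm F M)).relIndex (h1_sUnits F (S : Set (HeightOneSpectrum (𝓞 F)))) ≠ 0) :
    p ^ {v : HeightOneSpectrum (𝓞 F) | v ∈ S ∧ h1_nonsplit F M v}.ncard ≤
      ((h1_sUnits M (h1_above F M (S : Set (HeightOneSpectrum (𝓞 F))))).map
        (h1_nrm F M)).relIndex (h1_sUnits F (S : Set (HeightOneSpectrum (𝓞 F)))) := by
  classical
  have hfin : {v : HeightOneSpectrum (𝓞 F) | v ∈ S ∧ h1_nonsplit F M v}.Finite :=
    S.finite_toSet.subset fun v hv => hv.1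
  letI : Fintype {v : HeightOneSpectrum (𝓞 F) // v ∈ S ∧ h1_nonsplit F M v} := hfin.fintype
  have hloc : ∀ i : {v : HeightOneSpectrum (𝓞 F) // v ∈ S ∧ h1_nonsplit F M v},
      ∃ H : Subgroup Fˣ,
        (∀ y : Mˣ, h1_nrm F M y ∈ H) ∧
        (¬ 𝔪 ≤ i.1.asIdeal → ∀ u : Fˣ, u ∈ H ↔ (p : ℤ) ∣ h1_ord F i.1 u) ∧
        (𝔪 ≤ i.1.asIdeal →
          (∀ (u : Fˣ) (a b : 𝓞 F), a ∉ i.1.asIdeal → b ∉ i.1.asIdeal → a - b ∈ i.1.asIdeal →
              (u : F) * a = b → u ∈ H) ∧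
          ∃ z₀ : 𝓞 F, z₀ ∉ i.1.asIdeal ^ 2 ∧ ∀ (u : Fˣ) (z : 𝓞 F),
              z - z₀ ∈ i.1.asIdeal ^ 2 → (u : F) = z → u ∉ H) :=
    fun i => h1_loc_group F M p hdeg ζ hζ 𝔪 hp𝔪 hunr i.1 i.2.2
  choose H hL1 hL2 hL3 using hloc
  have helt : ∀ i : {v : HeightOneSpectrum (𝓞 F) // v ∈ S ∧ h1_nonsplit F M v},
      ∃ e : Fˣ, e ∈ h1_sUnits F (S : Set (HeightOneSpectrum (𝓞 F))) ∧ e ∉ H i ∧
        ∀ (v' : HeightOneSpectrum (𝓞 F)) (hv'S : v' ∈ S) (hv'ns : h1_nonsplit F M v'),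
          v' ≠ i.1 → e ∈ H ⟨v', hv'S, hv'ns⟩ :=
    fun i => h1_chars_exists_elt F M p hdeg 𝔪 hunr T hT S hS𝔪 hST hall H hL1 hL2 hL3
      i.1 i.2.1 i.2.2
  choose e heA he hne using helt
  have key := h1_indep p
    ((h1_sUnits M (h1_above F M (S : Set (HeightOneSpectrum (𝓞 F))))).map (h1_nrm F M))
    (h1_sUnits F (S : Set (HeightOneSpectrum (𝓞 F)))) H e
    (fun i u hu => by
      obtain ⟨y, -, rfl⟩ := Subgroup.mem_map.mp hu
      exact hL1 i y)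
    heA he
    (fun i => by
      have h1 : e i ^ p = h1_nrm F M (h1_inc F M (e i)) := by
        apply Units.ext
        rw [h1_nrm_coe, h1_inc_coe, Algebra.norm_algebraMap, hdeg, Units.val_pow_eq_pow_val]
      rw [h1]
      exact hL1 i _)
    (fun i j hij => hne i j.1 j.2.1 j.2.2 fun h => hij (Subtype.ext h).symm)
    hidx
  have hcard : Fintype.card {v : HeightOneSpectrum (𝓞 F) // v ∈ S ∧ h1_nonsplit F M v}
      = {v : HeightOneSpectrum (𝓞 F) | v ∈ S ∧ h1_nonsplit F M v}.ncard := by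
    rw [← Nat.card_eq_fintype_card]
    exact Nat.card_coe_set_eq _
  rw [← hcard]
  exact key

end main

end Fermat.Agent.S14
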