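import Mathlib
import Fermat.Agent.S14.H1Defs

/-! P18 (S14) block H1 (route A, S-units): a finite set of primes supporting integral
representatives of all ideal classes. -/

set_option autoImplicit false

namespace Fermat.Agent.S14

open NumberField IsDedekindDomain nonZeroDivisors

/-! ### H1ClassKill.lean (deps: H1Defs) -/

/-- A finite set of primes supporting representatives of all ideal classes. -/
theorem h1_class_kill (M : Type*) [Field M] [NumberField M] :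
    ∃ T : Finset (HeightOneSpectrum (𝓞 M)), ∀ 𝔄 : Ideal (𝓞 M), 𝔄 ≠ ⊥ →
      ∃ (ℜ : Ideal (𝓞 M)) (y : 𝓞 M), ℜ ≠ ⊥ ∧ y ≠ 0 ∧ 𝔄 * ℜ = Ideal.span {y} ∧
        ∀ w, w ∉ T → h1_cnt M w ℜ = 0 := by
  classical
  have hrep : ∀ c : ClassGroup (𝓞 M), ∃ I : (Ideal (𝓞 M))⁰, ClassGroup.mk0 I = c :=
    fun c => ClassGroup.mk0_surjective c
  choose I hI using hrep
  have hI0 : ∀ c, (I c : Ideal (𝓞 M)) ≠ 0 := fun c => nonZeroDivisors.coe_ne_zero (I c)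
  refine ⟨Finset.univ.biUnion (fun c => (Ideal.finite_factors (hI0 c)).toFinset), ?_⟩
  intro 𝔄 h𝔄
  have h𝔄' : 𝔄 ∈ (Ideal (𝓞 M))⁰ := mem_nonZeroDivisors_of_ne_zero h𝔄
  set c := (ClassGroup.mk0 ⟨𝔄, h𝔄'⟩)⁻¹ with hc
  have hprod : (𝔄 * (I c : Ideal (𝓞 M))) ∈ (Ideal (𝓞 M))⁰ := mul_mem h𝔄' (I c).2
  have hone : ClassGroup.mk0 ⟨𝔄 * (I c : Ideal (𝓞 M)), hprod⟩ = 1 := by
    have h1 : (⟨𝔄 * (I c : Ideal (𝓞 M)), hprod⟩ : (Ideal (𝓞 M))⁰) = ⟨𝔄, h𝔄'⟩ * I c := rfl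
    rw [h1, map_mul, hI c, hc, mul_inv_cancel]
  obtain ⟨y, hy⟩ := ((ClassGroup.mk0_eq_one_iff hprod).mp hone).principal
  refine ⟨I c, y, hI0 c, ?_, hy, ?_⟩
  · rintro rfl
    have h0 : 𝔄 * (I c : Ideal (𝓞 M)) = ⊥ := by
      rw [hy]
      exact Ideal.span_singleton_eq_bot.mpr rfl
    exact (mul_ne_zero h𝔄 (hI0 c)) h0
  · intro w hw
    have hnd : ¬ w.asIdeal ∣ (I c : Ideal (𝓞 M)) := by
      intro hd
      apply hw
      rw [Finset.mem_biUnion]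
      exact ⟨c, Finset.mem_univ c, (Set.Finite.mem_toFinset _).mpr hd⟩
    unfold h1_cnt
    rw [FractionalIdeal.count_coe M w (hI0 c)]
    have h2 := (Associates.count_ne_zero_iff_dvd (hI0 c) w.irreducible).not.mpr hnd
    rw [not_not] at h2
    rw [h2]
    rfl

end Fermat.Agent.S14
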