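import Mathlib

/-! P18 (S14) block H1 (route A, S-units): Hilbert 90 for a cyclic extension, in any universe. -/

set_option autoImplicit false

namespace Fermat.Agent.S14

open NumberField IsDedekindDomain nonZeroDivisors

/-! ### H1Hilb90.lean (Mathlib only; the cyclic form of Hilbert 90 in Mathlib lives in `Type`
only, so it is deduced here from the universe-polymorphic cocycle form) -/

/-- The partial products `∏_{j < i} σ^j u` of the conjugates of a unit. -/
private noncomputable def h1_hilb90_part {K L : Type*} [Field K] [Field L] [Algebra K L]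
    (σ : L ≃ₐ[K] L) (u : Lˣ) (i : ℕ) : Lˣ :=
  ∏ j ∈ Finset.range i, (σ ^ j) • u

private theorem h1_hilb90_part_add {K L : Type*} [Field K] [Field L] [Algebra K L]
    (σ : L ≃ₐ[K] L) (u : Lˣ) (i k : ℕ) :
    h1_hilb90_part σ u (i + k) = h1_hilb90_part σ u i * (σ ^ i) • h1_hilb90_part σ u k := by
  unfold h1_hilb90_part
  rw [Finset.prod_range_add, Finset.smul_prod']
  congr 1
  refine Finset.prod_congr rfl fun j _ => ?_
  rw [← mul_smul, ← pow_add]

private theorem h1_hilb90_part_one {K L : Type*} [Field K] [Field L] [Algebra K L]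
    (σ : L ≃ₐ[K] L) (u : Lˣ) : h1_hilb90_part σ u 1 = u := by
  unfold h1_hilb90_part
  rw [Finset.prod_range_one, pow_zero, one_smul]

/-- The full product of the conjugates is the norm. -/
private theorem h1_hilb90_part_order {K L : Type*} [Field K] [Field L] [Algebra K L]
    [FiniteDimensional K L] [IsGalois K L] (σ : L ≃ₐ[K] L)
    (hσ : ∀ τ : L ≃ₐ[K] L, τ ∈ Subgroup.zpowers σ) (u : Lˣ)
    (hu : Algebra.norm K (u : L) = 1) : h1_hilb90_part σ u (orderOf σ) = 1 := by
  have hpos : 0 < orderOf σ := orderOf_pos σ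
  have h1 : algebraMap K L (Algebra.norm K (u : L)) = ∏ τ : L ≃ₐ[K] L, τ (u : L) :=
    Algebra.norm_eq_prod_automorphisms K (u : L)
  rw [hu, map_one] at h1
  apply Units.ext
  rw [Units.val_one, h1]
  unfold h1_hilb90_part
  rw [Units.coe_prod]
  refine Finset.prod_nbij (fun j => σ ^ j) (fun _ _ => Finset.mem_univ _) ?_ ?_ ?_
  · rw [Finset.coe_range]
    exact pow_injOn_Iio_orderOf
  · intro τ _
    obtain ⟨k, hk⟩ := (Submonoid.mem_powers_iff τ σ).mp (mem_powers_iff_mem_zpowers.mpr (hσ τ))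
    refine ⟨k % orderOf σ, ?_, ?_⟩
    · rw [Finset.coe_range]
      exact Nat.mod_lt _ hpos
    · show σ ^ (k % orderOf σ) = τ
      rw [pow_mod_orderOf, hk]
  · intro j _
    rfl

private theorem h1_hilb90_part_mul_order {K L : Type*} [Field K] [Field L] [Algebra K L]
    [FiniteDimensional K L] [IsGalois K L] (σ : L ≃ₐ[K] L)
    (hσ : ∀ τ : L ≃ₐ[K] L, τ ∈ Subgroup.zpowers σ) (u : Lˣ)
    (hu : Algebra.norm K (u : L) = 1) (m : ℕ) : h1_hilb90_part σ u (orderOf σ * m) = 1 := by
  induction m with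
  | zero =>
    unfold h1_hilb90_part
    rw [Nat.mul_zero, Finset.prod_range_zero]
  | succ m ih =>
    rw [Nat.mul_succ, h1_hilb90_part_add, ih, h1_hilb90_part_order σ hσ u hu, smul_one, one_mul]

/-- The partial products only depend on the power of `σ`. -/
private theorem h1_hilb90_part_congr {K L : Type*} [Field K] [Field L] [Algebra K L]
    [FiniteDimensional K L] [IsGalois K L] (σ : L ≃ₐ[K] L)
    (hσ : ∀ τ : L ≃ₐ[K] L, τ ∈ Subgroup.zpowers σ) (u : Lˣ)
    (hu : Algebra.norm K (u : L) = 1) {i j : ℕ} (hij : σ ^ i = σ ^ j) :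
    h1_hilb90_part σ u i = h1_hilb90_part σ u j := by
  have key : ∀ i : ℕ, h1_hilb90_part σ u i = h1_hilb90_part σ u (i % orderOf σ) := by
    intro i
    conv_lhs => rw [← Nat.mod_add_div i (orderOf σ)]
    rw [h1_hilb90_part_add, h1_hilb90_part_mul_order σ hσ u hu, smul_one, mul_one]
  rw [key i, key j, pow_inj_mod.mp hij]

/-- Hilbert 90 for a cyclic extension, universe polymorphic. -/
theorem h1_hilbert90 {K L : Type*} [Field K] [Field L] [Algebra K L] [FiniteDimensional K L]
    [IsGalois K L] (σ : L ≃ₐ[K] L) (hσ : ∀ τ : L ≃ₐ[K] L, τ ∈ Subgroup.zpowers σ) (x : L)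
    (hx : Algebra.norm K x = 1) : ∃ y : Lˣ, x = σ (y : L) / (y : L) := by
  have hx0 : x ≠ 0 := by
    rintro rfl
    rw [Algebra.norm_zero] at hx
    exact zero_ne_one hx
  have hu : Algebra.norm K ((Units.mk0 x hx0 : Lˣ) : L) = 1 := hx
  have hpow : ∀ τ : L ≃ₐ[K] L, ∃ k : ℕ, σ ^ k = τ := fun τ =>
    (Submonoid.mem_powers_iff τ σ).mp (mem_powers_iff_mem_zpowers.mpr (hσ τ))
  choose k hk using hpow
  have hcoc : groupCohomology.IsMulCocycle₁
      (fun τ : L ≃ₐ[K] L => h1_hilb90_part σ (Units.mk0 x hx0) (k τ)) := by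
    intro g h
    show h1_hilb90_part σ (Units.mk0 x hx0) (k (g * h)) =
      g • h1_hilb90_part σ (Units.mk0 x hx0) (k h) * h1_hilb90_part σ (Units.mk0 x hx0) (k g)
    have h1 : σ ^ k (g * h) = σ ^ (k g + k h) := by
      rw [pow_add, hk, hk, hk]
    rw [h1_hilb90_part_congr σ hσ _ hu h1, h1_hilb90_part_add, hk, mul_comm]
  obtain ⟨β, hβ⟩ := groupCohomology.isMulCoboundary₁_of_isMulCocycle₁_of_aut_to_units _ hcoc
  refine ⟨β, ?_⟩
  have h2 : σ • β / β = Units.mk0 x hx0 := by
    have h3 : σ ^ k σ = σ ^ 1 := by rw [hk, pow_one]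
    rw [hβ σ]
    show h1_hilb90_part σ (Units.mk0 x hx0) (k σ) = Units.mk0 x hx0
    rw [h1_hilb90_part_congr σ hσ _ hu h3, h1_hilb90_part_one]
  have h4 := congrArg (fun z : Lˣ => (z : L)) h2
  simp only [Units.val_div_eq_div_val, Units.val_mk0] at h4
  rw [← h4]
  rfl

end Fermat.Agent.S14
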