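import Mathlib
import Fermat.Agent.S14.Defs
import Fermat.Agent.S14.H1Defs

/-!
# P18 (S14) block H1 (route A, S-units): orders under the Galois action and under `F ⊂ M`

* `h1_ord_gal` : `ord_{σ w}(σ y) = ord_w(y)`;
* `h1_ord_inc` : `ord_w(x) = e · ord_v(x)` for `x ∈ Fˣ`, with `e ≥ 1`;
* `h1_ord_inc_of_unram` : `e = 1` at a prime with trivial inertia.
-/

set_option autoImplicit false

namespace Fermat.Agent.S14

open NumberField IsDedekindDomain nonZeroDivisors

/-- The valuation at `v` is the exponential of minus the order. -/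
theorem h1_ordext_val (K : Type*) [Field K] [NumberField K] (v : HeightOneSpectrum (𝓞 K))
    (x : Kˣ) : v.valuation K (x : K) = WithZero.exp (-(h1_ord K v x)) := by
  obtain ⟨a, b, hb, hx⟩ := IsFractionRing.div_surjective (A := 𝓞 K) (x : K)
  have hb0 : b ≠ 0 := nonZeroDivisors.ne_zero hb
  have ha0 : a ≠ 0 := by
    rintro rfl
    rw [map_zero, zero_div] at hx
    exact x.ne_zero hx.symm
  have hb0' : algebraMap (𝓞 K) K b ≠ 0 := by
    rw [Ne, FaithfulSMul.algebraMap_eq_zero_iff]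
    exact hb0
  have ha0' : algebraMap (𝓞 K) K a ≠ 0 := by
    rw [Ne, FaithfulSMul.algebraMap_eq_zero_iff]
    exact ha0
  have hxab : x = Units.mk0 _ ha0' / Units.mk0 _ hb0' := by
    ext
    rw [Units.val_div_eq_div_val, Units.val_mk0, Units.val_mk0, hx]
  have ha : h1_ord K v (Units.mk0 _ ha0') =
      ((Associates.mk v.asIdeal).count (Associates.mk (Ideal.span {a})).factors : ℤ) := by
    rw [h1_ord_eq_cnt K v _ a rfl, h1_cnt, FractionalIdeal.count_coe]
    rwa [Ne, Ideal.zero_eq_bot, Ideal.span_singleton_eq_bot]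
  have hb' : h1_ord K v (Units.mk0 _ hb0') =
      ((Associates.mk v.asIdeal).count (Associates.mk (Ideal.span {b})).factors : ℤ) := by
    rw [h1_ord_eq_cnt K v _ b rfl, h1_cnt, FractionalIdeal.count_coe]
    rwa [Ne, Ideal.zero_eq_bot, Ideal.span_singleton_eq_bot]
  rw [← hx, map_div₀, HeightOneSpectrum.valuation_of_algebraMap,
    HeightOneSpectrum.valuation_of_algebraMap, v.intValuation_if_neg ha0,
    v.intValuation_if_neg hb0, hxab, h1_ord_div, ha, hb', ← WithZero.exp_sub]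
  congr 1
  ring

variable (F M : Type*) [Field F] [NumberField F] [Field M] [NumberField M] [Algebra F M]

omit [NumberField F] [NumberField M] in
/-- Coercion of the Galois action on the ring of integers. -/
theorem h1_ordext_coe_smul (σ : M ≃ₐ[F] M) (a : 𝓞 M) :
    algebraMap (𝓞 M) M (σ • a) = σ (algebraMap (𝓞 M) M a) := by
  rw [algebraMap.smul' σ a M]
  rfl

omit [NumberField F] [NumberField M] in
/-- If `σ` maps `w` into `w'` then it maps `w ^ n` into `w' ^ n`. -/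
theorem h1_ordext_smul_mem_pow (σ : M ≃ₐ[F] M) (w w' : HeightOneSpectrum (𝓞 M))
    (h : ∀ x : 𝓞 M, x ∈ w.asIdeal → σ • x ∈ w'.asIdeal) (n : ℕ) (a : 𝓞 M)
    (ha : a ∈ w.asIdeal ^ n) : σ • a ∈ w'.asIdeal ^ n := by
  have h1 : w.asIdeal ≤ Ideal.comap (MulSemiringAction.toRingHom (M ≃ₐ[F] M) (𝓞 M) σ)
      w'.asIdeal := fun x hx => h x hx
  have h2 := (Ideal.pow_right_mono h1 n).trans (Ideal.le_comap_pow _ n)
  exact h2 ha

omit [NumberField F] in
/-- If `σ` maps `w` into `w'` then `σ` does not increase valuations of integers. -/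
theorem h1_ordext_intVal_le (σ : M ≃ₐ[F] M) (w w' : HeightOneSpectrum (𝓞 M))
    (h : ∀ x : 𝓞 M, x ∈ w.asIdeal → σ • x ∈ w'.asIdeal) (a : 𝓞 M) :
    w'.intValuation (σ • a) ≤ w.intValuation a := by
  rcases eq_or_ne a 0 with rfl | ha
  · simp
  rw [w.intValuation_eq_exp_neg_multiplicity ha, HeightOneSpectrum.intValuation_le_pow_iff_mem]
  apply h1_ordext_smul_mem_pow F M σ w w' h
  rw [← HeightOneSpectrum.intValuation_le_pow_iff_mem, w.intValuation_eq_exp_neg_multiplicity ha]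

omit [NumberField F] in
/-- If `σ` maps `w` onto `w'` then `σ` preserves valuations of integers. -/
theorem h1_ordext_intVal_eq (σ : M ≃ₐ[F] M) (w w' : HeightOneSpectrum (𝓞 M))
    (h : ∀ x : 𝓞 M, x ∈ w.asIdeal ↔ σ • x ∈ w'.asIdeal) (a : 𝓞 M) :
    w'.intValuation (σ • a) = w.intValuation a := by
  refine le_antisymm (h1_ordext_intVal_le F M σ w w' (fun x hx => (h x).mp hx) a) ?_
  have h' : ∀ x : 𝓞 M, x ∈ w'.asIdeal → σ⁻¹ • x ∈ w.asIdeal := by
    intro x hx
    rw [h, smul_inv_smul]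
    exact hx
  have := h1_ordext_intVal_le F M σ⁻¹ w' w h' (σ • a)
  rwa [inv_smul_smul] at this

omit [NumberField F] in
/-- If `σ` maps `w` onto `w'` then `σ` preserves valuations. -/
theorem h1_ordext_val_eq (σ : M ≃ₐ[F] M) (w w' : HeightOneSpectrum (𝓞 M))
    (h : ∀ x : 𝓞 M, x ∈ w.asIdeal ↔ σ • x ∈ w'.asIdeal) (y : M) :
    w'.valuation M (σ y) = w.valuation M y := by
  obtain ⟨a, b, hb, rfl⟩ := IsFractionRing.div_surjective (A := 𝓞 M) y
  rw [map_div₀, ← h1_ordext_coe_smul, ← h1_ordext_coe_smul, map_div₀, map_div₀,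
    HeightOneSpectrum.valuation_of_algebraMap, HeightOneSpectrum.valuation_of_algebraMap,
    HeightOneSpectrum.valuation_of_algebraMap, HeightOneSpectrum.valuation_of_algebraMap,
    h1_ordext_intVal_eq F M σ w w' h, h1_ordext_intVal_eq F M σ w w' h]

/-- `ord_{σ w}(σ y) = ord_w(y)`. -/
theorem h1_ord_gal (σ : M ≃ₐ[F] M) (w w' : HeightOneSpectrum (𝓞 M))
    (h : ∀ x : 𝓞 M, x ∈ w.asIdeal ↔ σ • x ∈ w'.asIdeal) (y : Mˣ) :
    h1_ord M w' (h1_gal σ y) = h1_ord M w y := by
  have h1 := h1_ordext_val_eq F M σ w w' h (y : M)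
  rw [← h1_gal_coe, h1_ordext_val, h1_ordext_val, WithZero.exp_inj, neg_inj] at h1
  exact h1

/-- `ord_w(x) = e(w|v) · ord_v(x)` for `x ∈ Fˣ`. -/
theorem h1_ordext_inc (w : HeightOneSpectrum (𝓞 M)) (x : Fˣ) :
    h1_ord M w (h1_inc F M x) =
      ((h1_under F w).asIdeal.ramificationIdx' w.asIdeal : ℤ) * h1_ord F (h1_under F w) x := by
  have : w.asIdeal.LiesOver (h1_under F w).asIdeal := ⟨rfl⟩
  have h1 := HeightOneSpectrum.valuation_liesOver M (h1_under F w) w (x : F)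
  rw [← h1_inc_coe, h1_ordext_val, h1_ordext_val, ← WithZero.exp_nsmul, WithZero.exp_inj] at h1
  rw [nsmul_eq_mul] at h1
  linarith

/-- `ord_w(x) = e · ord_v(x)` for `x ∈ Fˣ`, with `e ≥ 1`. -/
theorem h1_ord_inc (w : HeightOneSpectrum (𝓞 M)) :
    ∃ e : ℕ, 0 < e ∧ ∀ x : Fˣ, h1_ord M w (h1_inc F M x) = e * h1_ord F (h1_under F w) x := by
  have : w.asIdeal.LiesOver (h1_under F w).asIdeal := ⟨rfl⟩
  exact ⟨(h1_under F w).asIdeal.ramificationIdx' w.asIdeal,
    Nat.pos_of_ne_zero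
      (Ideal.IsDedekindDomain.ramificationIdx'_ne_zero_of_liesOver w.asIdeal (h1_under F w).ne_bot),
    h1_ordext_inc F M w⟩

/-- `e = 1` at a prime with trivial inertia. -/
theorem h1_ord_inc_of_unram [IsGalois F M] (w : HeightOneSpectrum (𝓞 M))
    (hw : InertiaTrivialAt F M w.asIdeal) (x : Fˣ) :
    h1_ord M w (h1_inc F M x) = h1_ord F (h1_under F w) x := by
  have : w.asIdeal.LiesOver (h1_under F w).asIdeal := ⟨rfl⟩
  have htriv : w.asIdeal.inertia (M ≃ₐ[F] M) = ⊥ := by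
    rw [eq_bot_iff]
    intro σ hσ
    rw [Subgroup.mem_bot]
    exact hw σ hσ
  have hcard : Nat.card (w.asIdeal.inertia (M ≃ₐ[F] M)) =
      (h1_under F w).asIdeal.ramificationIdxIn (𝓞 M) :=
    Ideal.card_inertia_eq_ramificationIdxIn (h1_under F w).asIdeal w.asIdeal
  rw [Ideal.ramificationIdxIn_eq_ramificationIdx (h1_under F w).asIdeal w.asIdeal (M ≃ₐ[F] M),
    htriv] at hcard
  have he : (h1_under F w).asIdeal.ramificationIdx' w.asIdeal = 1 := by
    rw [Ideal.ramificationIdx'_eq_ramificationIdx (h1_under F w).asIdeal w.asIdeal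
      (h1_under F w).ne_bot, ← hcard]
    simp
  rw [h1_ordext_inc, he]
  simp

end Fermat.Agent.S14
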