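import Mathlib
import Fermat.Agent.S14.Defs
import Fermat.Agent.S14.H1Defs
import Fermat.Agent.S14.H1Hilb90
import Fermat.Agent.S14.H1Fiber
import Fermat.Agent.S14.H1OrdExt

/-!
# P18 (S14), block H1 (route A, S-units), step (C1): `H¹(E_{M,S}) = 1`

If every divisor of `F` prime to `S` is the divisor of an element of `Fˣ` away from `S`, and
`M/F` (cyclic of prime degree) is unramified outside `S`, then every `S`-unit of `M` of norm `1`
is of the form `σ η / η` with `η` an `S`-unit.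
-/

set_option autoImplicit false

namespace Fermat.Agent.S14

open NumberField IsDedekindDomain nonZeroDivisors

/-- An integral ideal with prescribed, finitely supported orders. -/
theorem h1_desc_exists_ideal (K : Type*) [Field K] [NumberField K]
    (n : HeightOneSpectrum (𝓞 K) → ℕ) (hn : {v | n v ≠ 0}.Finite) :
    ∃ 𝔞 : Ideal (𝓞 K), 𝔞 ≠ ⊥ ∧ ∀ v, h1_cnt K v 𝔞 = n v := by
  classical
  have h0 : ∀ v ∈ hn.toFinset,
      ((v.asIdeal ^ n v : Ideal (𝓞 K)) : FractionalIdeal (𝓞 K)⁰ K) ≠ 0 :=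
    fun v _ => FractionalIdeal.coeIdeal_ne_zero.mpr (pow_ne_zero _ v.ne_bot)
  refine ⟨∏ v ∈ hn.toFinset, v.asIdeal ^ n v, ?_, fun u => ?_⟩
  · rw [← Ideal.zero_eq_bot, Finset.prod_ne_zero_iff]
    exact fun v _ => pow_ne_zero _ v.ne_bot
  · unfold h1_cnt
    rw [← FractionalIdeal.coeIdealHom_apply (𝓞 K)⁰ K, map_prod]
    simp only [FractionalIdeal.coeIdealHom_apply]
    rw [FractionalIdeal.count_prod K u hn.toFinset _ h0]
    simp only [FractionalIdeal.coeIdeal_pow, FractionalIdeal.count_pow,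
      FractionalIdeal.count_maximal, mul_ite, mul_one, mul_zero]
    rw [Finset.sum_ite_eq']
    by_cases hu : u ∈ hn.toFinset
    · rw [if_pos hu]
    · rw [if_neg hu]
      have : n u = 0 := by
        by_contra h
        exact hu (hn.mem_toFinset.mpr h)
      rw [this, Nat.cast_zero]

variable (F M : Type*) [Field F] [NumberField F] [Field M] [NumberField M] [Algebra F M]

/-! ### H1Desc.lean (deps: H1Hilb90, H1Fiber, H1OrdExt) — step (C1): `H¹(E_{M,S}) = 1` -/

theorem h1_H1_vanish [IsGalois F M] (p : ℕ) [Fact p.Prime] (hdeg : Module.finrank F M = p)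
    (σ : M ≃ₐ[F] M) (hσ : σ ≠ 1) (S : Set (HeightOneSpectrum (𝓞 F)))
    (hunr : ∀ w : HeightOneSpectrum (𝓞 M), h1_under F w ∉ S → InertiaTrivialAt F M w.asIdeal)
    (hB : ∀ 𝔞 : Ideal (𝓞 F), 𝔞 ≠ ⊥ → (∀ v ∈ S, h1_cnt F v 𝔞 = 0) →
      ∃ x : Fˣ, ∀ v, v ∉ S → h1_ord F v x = h1_cnt F v 𝔞)
    (ε : Mˣ) (hε : ε ∈ h1_sUnits M (h1_above F M S)) (hN : h1_nrm F M ε = 1) :
    ∃ η ∈ h1_sUnits M (h1_above F M S), ε = h1_gal σ η / η := by
  classical
  -- `σ` generates the Galois group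
  have hcard : Nat.card (M ≃ₐ[F] M) = p := by rw [IsGalois.card_aut_eq_finrank, hdeg]
  have hgen : ∀ τ : M ≃ₐ[F] M, τ ∈ Subgroup.zpowers σ :=
    fun τ => mem_zpowers_of_prime_card hcard hσ
  have hpow : ∀ τ : M ≃ₐ[F] M, ∃ k : ℕ, σ ^ k = τ :=
    fun τ => (Submonoid.mem_powers_iff τ σ).mp (mem_powers_of_prime_card hcard hσ)
  -- Hilbert 90
  have hN' : Algebra.norm F (ε : M) = 1 := by
    have := congrArg (fun u : Fˣ => (u : F)) hN
    simpa [h1_nrm_coe] using this
  obtain ⟨y, hy⟩ := h1_hilbert90 σ hgen (ε : M) hN'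
  have hεy : ε * y = h1_gal σ y := by
    apply Units.ext
    rw [Units.val_mul, h1_gal_coe, hy, div_mul_cancel₀ _ y.ne_zero]
  -- the orders of `y` are invariant under `σ` outside `S`
  have hstep : ∀ w w' : HeightOneSpectrum (𝓞 M), h1_under F w ∉ S →
      (∀ x : 𝓞 M, x ∈ w.asIdeal ↔ σ • x ∈ w'.asIdeal) → h1_ord M w' y = h1_ord M w y := by
    intro w w' hw h
    have h1 := h1_ord_gal F M σ w w' h y
    have hw' : h1_under F w' ∉ S := by
      obtain ⟨w'', hu, h''⟩ := h1_exists_gal_image F M σ w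
      have hww : w'' = w' := by
        apply HeightOneSpectrum.ext
        ext x
        have e1 := h'' (σ⁻¹ • x)
        have e2 := h (σ⁻¹ • x)
        rw [smul_inv_smul] at e1 e2
        exact e1.symm.trans e2
      rw [← hww, hu]
      exact hw
    have h2 : h1_ord M w' ε = 0 := hε w' hw'
    rw [← hεy, h1_ord_mul, h2, zero_add] at h1
    exact h1
  have hinv : ∀ (k : ℕ) (w w' : HeightOneSpectrum (𝓞 M)), h1_under F w ∉ S →
      (∀ x : 𝓞 M, x ∈ w.asIdeal ↔ (σ ^ k) • x ∈ w'.asIdeal) →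
      h1_ord M w' y = h1_ord M w y := by
    intro k
    induction k with
    | zero =>
      intro w w' _ h
      have hww : w' = w := by
        apply HeightOneSpectrum.ext
        ext x
        simpa using (h x).symm
      rw [hww]
    | succ k ih =>
      intro w w' hw h
      obtain ⟨w₁, hu, h₁⟩ := h1_exists_gal_image F M (σ ^ k) w
      have hw₁ : h1_under F w₁ ∉ S := by rw [hu]; exact hw
      have h₂ : ∀ x : 𝓞 M, x ∈ w₁.asIdeal ↔ σ • x ∈ w'.asIdeal := by
        intro x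
        have e1 := h₁ ((σ ^ k)⁻¹ • x)
        have e2 := h ((σ ^ k)⁻¹ • x)
        rw [smul_inv_smul] at e1
        rw [pow_succ', mul_smul, smul_inv_smul] at e2
        exact e1.symm.trans e2
      rw [hstep w₁ w' hw₁ h₂, ih w w₁ hw h₁]
  have hconst : ∀ w w' : HeightOneSpectrum (𝓞 M), h1_under F w ∉ S →
      h1_under F w = h1_under F w' → h1_ord M w' y = h1_ord M w y := by
    intro w w' hw huu
    obtain ⟨τ, hτ⟩ := h1_fiber_transitive F M w w' huu
    obtain ⟨k, rfl⟩ := hpow τ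
    exact hinv k w w' hw hτ
  -- a prime of `M` above each prime of `F`
  choose W hW using h1_fiber_nonempty F M
  -- the divisor of `y` outside `S`, positive and negative parts
  have hfin : {w : HeightOneSpectrum (𝓞 M) | h1_ord M w y ≠ 0}.Finite :=
    FractionalIdeal.finite_factors (FractionalIdeal.spanSingleton (𝓞 M)⁰ (y : M))
  have hfin' : {v : HeightOneSpectrum (𝓞 F) | h1_ord M (W v) y ≠ 0}.Finite := by
    refine (hfin.image (h1_under F)).subset ?_
    intro v hv
    exact ⟨W v, hv, hW v⟩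
  obtain ⟨𝔞₁, h𝔞₁, hc₁⟩ := h1_desc_exists_ideal F
    (fun v => if v ∈ S then 0 else (h1_ord M (W v) y).toNat) (hfin'.subset (by
      intro v hv
      simp only [Set.mem_ofPred_eq] at hv ⊢
      intro h0
      apply hv
      rw [h0]
      simp))
  obtain ⟨𝔞₂, h𝔞₂, hc₂⟩ := h1_desc_exists_ideal F
    (fun v => if v ∈ S then 0 else (- h1_ord M (W v) y).toNat) (hfin'.subset (by
      intro v hv
      simp only [Set.mem_ofPred_eq] at hv ⊢
      intro h0
      apply hv
      rw [h0]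
      simp))
  obtain ⟨x₁, hx₁⟩ := hB 𝔞₁ h𝔞₁ (fun v hv => by rw [hc₁, if_pos hv, Nat.cast_zero])
  obtain ⟨x₂, hx₂⟩ := hB 𝔞₂ h𝔞₂ (fun v hv => by rw [hc₂, if_pos hv, Nat.cast_zero])
  have hx : ∀ v, v ∉ S → h1_ord F v (x₁ / x₂) = h1_ord M (W v) y := by
    intro v hv
    rw [h1_ord_div, hx₁ v hv, hx₂ v hv, hc₁, hc₂, if_neg hv, if_neg hv]
    omega
  have hfix : h1_gal σ (h1_inc F M (x₁ / x₂)) = h1_inc F M (x₁ / x₂) := by
    apply Units.ext
    rw [h1_gal_coe, h1_inc_coe, AlgEquiv.commutes]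
  refine ⟨y / h1_inc F M (x₁ / x₂), ?_, ?_⟩
  · intro w hw
    have hw' : h1_under F w ∉ S := hw
    rw [h1_ord_div, h1_ord_inc_of_unram F M w (hunr w hw'), hx _ hw',
      hconst w (W (h1_under F w)) hw' (hW _).symm, sub_self]
  · rw [map_div, hfix, ← hεy, div_div_div_cancel_right, mul_div_cancel_right]

end Fermat.Agent.S14
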