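import Mathlib
import Fermat.Agent.S14.H1Defs
import Fermat.Agent.S14.H1Fiber
import Fermat.Agent.S14.H1OrdExt

/-!
# P18 (S14) block H1 (route A, S-units): Galois-fixed `S`-units, norm as product of conjugates

For a Galois extension `M/F` of number fields of prime degree `p` and `σ ≠ 1` in `Gal(M/F)`:

* `h1_gal_iterate_p` : `σ ^ p` acts trivially on `Mˣ`;
* `h1_inc_nrm` : the norm of `y ∈ Mˣ` (viewed in `Mˣ`) is `∏_{i < p} σ^i y`;
* `h1_sUnits_gal` : the group of `S`-units of `M` (for the primes above `S`) is stable under `σ`;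
* `h1_sUnits_fixed` : the `σ`-fixed `S`-units of `M` are the `S`-units of `F`.
-/

set_option autoImplicit false

namespace Fermat.Agent.S14

open NumberField IsDedekindDomain nonZeroDivisors

variable (F M : Type*) [Field F] [NumberField F] [Field M] [NumberField M] [Algebra F M]

/-! ### H1Fix.lean (deps: H1Fiber, H1OrdExt) — Galois-fixed S-units, norm as product of conjugates -/

variable {F M} in
/-- Iterating `h1_gal σ` is `h1_gal` of a power of `σ`. -/
theorem h1_fix_iterate (σ : M ≃ₐ[F] M) (i : ℕ) (y : Mˣ) :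
    (h1_gal σ)^[i] y = h1_gal (σ ^ i) y := by
  induction i with
  | zero =>
    apply Units.ext
    rw [Function.iterate_zero, id_eq, pow_zero, h1_gal_coe, AlgEquiv.one_apply]
  | succ i ih =>
    apply Units.ext
    rw [Function.iterate_succ_apply', ih, h1_gal_coe, h1_gal_coe, h1_gal_coe, pow_succ',
      AlgEquiv.mul_apply]

variable {F M} in
/-- In a Galois extension of degree `p`, every automorphism has `p`-th power `1`. -/
theorem h1_fix_pow_eq_one [IsGalois F M] (p : ℕ) (hdeg : Module.finrank F M = p)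
    (σ : M ≃ₐ[F] M) : σ ^ p = 1 := by
  have h := pow_card_eq_one' (G := M ≃ₐ[F] M) (x := σ)
  rwa [IsGalois.card_aut_eq_finrank, hdeg] at h

variable {F M} in
/-- In a Galois extension of prime degree `p`, the powers `σ ^ i`, `i < p`, of a nontrivial
automorphism enumerate the Galois group. -/
theorem h1_fix_bijective [IsGalois F M] (p : ℕ) [Fact p.Prime] (hdeg : Module.finrank F M = p)
    (σ : M ≃ₐ[F] M) (hσ : σ ≠ 1) :
    Function.Bijective (fun i : Fin p => σ ^ (i : ℕ)) := by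
  have hp : p.Prime := Fact.out
  have hord : orderOf σ = p := orderOf_eq_prime (h1_fix_pow_eq_one p hdeg σ) hσ
  rw [Nat.bijective_iff_injective_and_card]
  refine ⟨?_, ?_⟩
  · intro i j hij
    apply Fin.ext
    have hi : (i : ℕ) ∈ Set.Iio (orderOf σ) := by rw [hord]; exact i.2
    have hj : (j : ℕ) ∈ Set.Iio (orderOf σ) := by rw [hord]; exact j.2
    exact pow_injOn_Iio_orderOf hi hj hij
  · rw [Nat.card_eq_fintype_card, Fintype.card_fin, IsGalois.card_aut_eq_finrank, hdeg]

theorem h1_gal_iterate_p [IsGalois F M] (p : ℕ) [Fact p.Prime] (hdeg : Module.finrank F M = p)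
    (σ : M ≃ₐ[F] M) (y : Mˣ) : (h1_gal σ)^[p] y = y := by
  rw [h1_fix_iterate, h1_fix_pow_eq_one p hdeg σ]
  apply Units.ext
  rw [h1_gal_coe, AlgEquiv.one_apply]

theorem h1_inc_nrm [IsGalois F M] (p : ℕ) [Fact p.Prime] (hdeg : Module.finrank F M = p)
    (σ : M ≃ₐ[F] M) (hσ : σ ≠ 1) (y : Mˣ) :
    h1_inc F M (h1_nrm F M y) = ∏ i ∈ Finset.range p, (h1_gal σ)^[i] y := by
  apply Units.ext
  rw [h1_inc_coe, h1_nrm_coe, Algebra.norm_eq_prod_automorphisms, Units.coe_prod]
  have h1 : ∏ i ∈ Finset.range p, (((h1_gal σ)^[i] y : Mˣ) : M) =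
      ∏ i : Fin p, (σ ^ (i : ℕ)) (y : M) := by
    rw [← Fin.prod_univ_eq_prod_range (fun i => (((h1_gal σ)^[i] y : Mˣ) : M)) p]
    refine Finset.prod_congr rfl (fun i _ => ?_)
    rw [h1_fix_iterate, h1_gal_coe]
  rw [h1]
  exact (Fintype.prod_bijective _ (h1_fix_bijective p hdeg σ hσ)
    (fun i : Fin p => (σ ^ (i : ℕ)) (y : M)) (fun τ : M ≃ₐ[F] M => τ (y : M)) (fun _ => rfl)).symm

theorem h1_sUnits_gal (σ : M ≃ₐ[F] M) (S : Set (HeightOneSpectrum (𝓞 F))) (y : Mˣ)
    (hy : y ∈ h1_sUnits M (h1_above F M S)) : h1_gal σ y ∈ h1_sUnits M (h1_above F M S) := by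
  intro w' hw'
  obtain ⟨w, hw, hiff⟩ := h1_exists_gal_image F M σ⁻¹ w'
  have hiff' : ∀ x : 𝓞 M, x ∈ w.asIdeal ↔ σ • x ∈ w'.asIdeal := by
    intro x
    rw [hiff (σ • x), inv_smul_smul]
  rw [h1_ord_gal F M σ w w' hiff' y]
  apply hy w
  intro hmem
  apply hw'
  rw [h1_mem_above] at hmem ⊢
  rwa [hw] at hmem

theorem h1_sUnits_fixed [IsGalois F M] (p : ℕ) [Fact p.Prime] (hdeg : Module.finrank F M = p)
    (σ : M ≃ₐ[F] M) (hσ : σ ≠ 1) (S : Set (HeightOneSpectrum (𝓞 F))) :
    h1_sUnits M (h1_above F M S) ⊓ MonoidHom.eqLocus (h1_gal σ) (MonoidHom.id Mˣ)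
      = (h1_sUnits F S).map (h1_inc F M) := by
  ext y
  constructor
  · rintro ⟨hyS, hyσ⟩
    have hfix : σ (y : M) = (y : M) := by
      have h1 : h1_gal σ y = y := hyσ
      have h2 := congrArg (fun u : Mˣ => (u : M)) h1
      simpa only [h1_gal_coe] using h2
    have hpow : ∀ i : ℕ, (σ ^ i) (y : M) = (y : M) := by
      intro i
      induction i with
      | zero => rw [pow_zero, AlgEquiv.one_apply]
      | succ i ih => rw [pow_succ', AlgEquiv.mul_apply, ih, hfix]
    have hall : ∀ τ : M ≃ₐ[F] M, τ (y : M) = (y : M) := by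
      intro τ
      obtain ⟨i, rfl⟩ := (h1_fix_bijective p hdeg σ hσ).2 τ
      exact hpow i
    obtain ⟨x, hx⟩ := (IsGalois.mem_range_algebraMap_iff_fixed (F := F) (y : M)).mpr hall
    have hx0 : x ≠ 0 := by
      rintro rfl
      rw [map_zero] at hx
      exact y.ne_zero hx.symm
    have hinc : h1_inc F M (Units.mk0 x hx0) = y := by
      apply Units.ext
      rw [h1_inc_coe, Units.val_mk0, hx]
    refine ⟨Units.mk0 x hx0, ?_, hinc⟩
    intro v hv
    obtain ⟨w, hw⟩ := h1_fiber_nonempty F M v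
    obtain ⟨e, he, hord⟩ := h1_ord_inc F M w
    have h0 : h1_ord M w y = 0 := by
      apply hyS w
      intro hmem
      rw [h1_mem_above, hw] at hmem
      exact hv hmem
    rw [← hinc, hord, hw] at h0
    have he' : (e : ℤ) ≠ 0 := by exact_mod_cast he.ne'
    exact (mul_eq_zero.mp h0).resolve_left he'
  · rintro ⟨x, hx, rfl⟩
    refine ⟨?_, ?_⟩
    · intro w hw
      obtain ⟨e, _, hord⟩ := h1_ord_inc F M w
      rw [hord, hx (h1_under F w) (fun hmem => hw hmem), mul_zero]
    · show h1_gal σ (h1_inc F M x) = h1_inc F M x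
      apply Units.ext
      rw [h1_gal_coe, h1_inc_coe, AlgEquiv.commutes]

end Fermat.Agent.S14
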