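import Mathlib
import Fermat.Agent.S14.H1Lattice

/-! P18 (S14) block H1 (route A, S-units): multiplicative consumer form of the lattice lemma
`h1_lattice`, for a subgroup `E` of a commutative group stable under an endomorphism `s` of
prime order `p` with norm `N = ∏ i < p, s^[i]`. -/

set_option autoImplicit false

namespace Fermat.Agent.S14

open NumberField IsDedekindDomain nonZeroDivisors

/-! ### H1Herbrand.lean (deps: H1Lattice `h1_lattice`, note 604) -/

section

variable {A : Type*} [CommGroup A]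

/-- The restriction of `s` to `E`, as an endomorphism of the additive group `Additive E`. -/
def h1_herbrand_end (s : A →* A) (E : Subgroup A) (hEs : ∀ x ∈ E, s x ∈ E) :
    Module.End ℤ (Additive ↥E) :=
  (MonoidHom.toAdditive ((s.comp E.subtype).codRestrict E fun x => hEs x x.2)).toIntLinearMap

theorem h1_herbrand_end_apply (s : A →* A) (E : Subgroup A) (hEs : ∀ x ∈ E, s x ∈ E)
    (x : Additive ↥E) :
    ((Additive.toMul (h1_herbrand_end s E hEs x) : ↥E) : A)
      = s ((Additive.toMul x : ↥E) : A) := rfl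

theorem h1_herbrand_end_pow_apply (s : A →* A) (E : Subgroup A) (hEs : ∀ x ∈ E, s x ∈ E)
    (i : ℕ) (x : Additive ↥E) :
    ((Additive.toMul ((h1_herbrand_end s E hEs ^ i) x) : ↥E) : A)
      = s^[i] ((Additive.toMul x : ↥E) : A) := by
  induction i generalizing x with
  | zero => rfl
  | succ i ih =>
    rw [pow_succ, Module.End.mul_apply, ih, h1_herbrand_end_apply, Function.iterate_succ_apply]

theorem h1_herbrand_end_sum_apply (s : A →* A) (E : Subgroup A) (hEs : ∀ x ∈ E, s x ∈ E)
    (p : ℕ) (x : Additive ↥E) :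
    ((Additive.toMul ((∑ i ∈ Finset.range p, h1_herbrand_end s E hEs ^ i) x) : ↥E) : A)
      = ∏ i ∈ Finset.range p, s^[i] ((Additive.toMul x : ↥E) : A) := by
  rw [LinearMap.sum_apply, toMul_sum, Subgroup.val_finsetProd]
  exact Finset.prod_congr rfl fun i _ => h1_herbrand_end_pow_apply s E hEs i x

theorem h1_herbrand_mem_ker (s : A →* A) (E : Subgroup A) (hEs : ∀ x ∈ E, s x ∈ E)
    (x : Additive ↥E) :
    x ∈ LinearMap.ker (h1_herbrand_end s E hEs - 1)
      ↔ s ((Additive.toMul x : ↥E) : A) = ((Additive.toMul x : ↥E) : A) := by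
  rw [LinearMap.mem_ker, LinearMap.sub_apply, Module.End.one_apply, sub_eq_zero]
  constructor
  · intro h
    rw [← h1_herbrand_end_apply s E hEs, h]
  · intro h
    apply Additive.toMul.injective
    apply Subtype.ext
    rw [h1_herbrand_end_apply, h]

/-- The fixed points of the restriction of `s`, additively and multiplicatively. -/
def h1_herbrand_kerEquiv (s : A →* A) (E : Subgroup A) (hEs : ∀ x ∈ E, s x ∈ E) :
    ↥(LinearMap.ker (h1_herbrand_end s E hEs - 1))
      ≃+ Additive ↥(E ⊓ MonoidHom.eqLocus s (MonoidHom.id A)) where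
  toFun x := Additive.ofMul ⟨((Additive.toMul x.1 : ↥E) : A), (Additive.toMul x.1).2,
    (h1_herbrand_mem_ker s E hEs x.1).mp x.2⟩
  invFun y := ⟨Additive.ofMul ⟨((Additive.toMul y : ↥(E ⊓ MonoidHom.eqLocus s (MonoidHom.id A))) : A),
    (Additive.toMul y).2.1⟩, (h1_herbrand_mem_ker s E hEs _).mpr (Additive.toMul y).2.2⟩
  left_inv _ := rfl
  right_inv _ := rfl
  map_add' _ _ := rfl

theorem h1_herbrand_kerEquiv_apply (s : A →* A) (E : Subgroup A) (hEs : ∀ x ∈ E, s x ∈ E)
    (x : ↥(LinearMap.ker (h1_herbrand_end s E hEs - 1))) :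
    ((Additive.toMul (h1_herbrand_kerEquiv s E hEs x) :
        ↥(E ⊓ MonoidHom.eqLocus s (MonoidHom.id A))) : A)
      = ((Additive.toMul x.1 : ↥E) : A) := rfl

/-- Translation of the relative index of the norms in the fixed points. -/
theorem h1_herbrand_relIndex (p : ℕ) (s N : A →* A)
    (hN : ∀ x, N x = ∏ i ∈ Finset.range p, s^[i] x)
    (E : Subgroup A) (hEs : ∀ x ∈ E, s x ∈ E) :
    (LinearMap.range (∑ i ∈ Finset.range p, h1_herbrand_end s E hEs ^ i)).toAddSubgroup.relIndex
        (LinearMap.ker (h1_herbrand_end s E hEs - 1)).toAddSubgroup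
      = (E.map N).relIndex (E ⊓ MonoidHom.eqLocus s (MonoidHom.id A)) := by
  unfold AddSubgroup.relIndex Subgroup.relIndex AddSubgroup.index Subgroup.index
  refine Nat.card_congr (Quotient.congr
    ((h1_herbrand_kerEquiv s E hEs).toEquiv.trans Additive.toMul) fun x y => ?_)
  rw [QuotientAddGroup.leftRel_apply, QuotientGroup.leftRel_apply,
    AddSubgroup.mem_addSubgroupOf, Subgroup.mem_subgroupOf]
  have key : ∀ z : Additive ↥E, N ((Additive.toMul z : ↥E) : A)
      = ((Additive.toMul ((∑ i ∈ Finset.range p, h1_herbrand_end s E hEs ^ i) z) : ↥E) : A) := by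
    intro z
    rw [hN, h1_herbrand_end_sum_apply]
  constructor
  · rintro ⟨z, hz⟩
    refine ⟨_, (Additive.toMul z).2, ?_⟩
    rw [key, hz]
    rfl
  · rintro ⟨z, hzE, hz⟩
    refine ⟨Additive.ofMul ⟨z, hzE⟩, ?_⟩
    apply Additive.toMul.injective
    apply Subtype.ext
    rw [← key]
    exact hz

end

/-- Multiplicative consumer form of the lattice lemma: if `H¹(E) = 1` then
`p ^ a = p ^ b * [E^s : N E]`. -/
theorem h1_herbrand_mul {A : Type*} [CommGroup A] (p : ℕ) [Fact p.Prime] (s N : A →* A)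
    (hs : ∀ x, s^[p] x = x) (hN : ∀ x, N x = ∏ i ∈ Finset.range p, s^[i] x)
    (E : Subgroup A) (hEs : ∀ x ∈ E, s x ∈ E) (hfin : Module.Finite ℤ (Additive ↥E))
    (a b : ℕ)
    (ha : Module.finrank ℤ (Additive ↥(E ⊓ MonoidHom.eqLocus s (MonoidHom.id A))) = a)
    (hb : Module.finrank ℤ (Additive ↥E) = a + b * (p - 1))
    (h1 : ∀ x ∈ E, N x = 1 → ∃ y ∈ E, x = s y / y) :
    (E.map N).relIndex (E ⊓ MonoidHom.eqLocus s (MonoidHom.id A)) ≠ 0 ∧
      p ^ a = p ^ b * (E.map N).relIndex (E ⊓ MonoidHom.eqLocus s (MonoidHom.id A)) := by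
  have hsE : h1_herbrand_end s E hEs ^ p = 1 := by
    refine LinearMap.ext fun x => ?_
    apply Additive.toMul.injective
    apply Subtype.ext
    rw [h1_herbrand_end_pow_apply, hs]
    rfl
  have ha' : Module.finrank ℤ ↥(LinearMap.ker (h1_herbrand_end s E hEs - 1)) = a := by
    rw [← ha]
    exact (h1_herbrand_kerEquiv s E hEs).toIntLinearEquiv.finrank_eq
  obtain ⟨-, h2, h3⟩ := h1_lattice p (h1_herbrand_end s E hEs) hsE a b ha' hb
  have hle : (LinearMap.ker (∑ i ∈ Finset.range p, h1_herbrand_end s E hEs ^ i)).toAddSubgroup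
      ≤ (LinearMap.range (h1_herbrand_end s E hEs - 1)).toAddSubgroup := by
    intro x hx
    have hx' : N ((Additive.toMul x : ↥E) : A) = 1 := by
      rw [hN, ← h1_herbrand_end_sum_apply s E hEs, LinearMap.mem_ker.mp hx]
      rfl
    obtain ⟨y, hyE, hy⟩ := h1 _ (Additive.toMul x).2 hx'
    refine ⟨Additive.ofMul ⟨y, hyE⟩, ?_⟩
    apply Additive.toMul.injective
    apply Subtype.ext
    exact hy.symm
  rw [AddSubgroup.relIndex_eq_one.mpr hle, one_mul, h1_herbrand_relIndex p s N hN E hEs] at h3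
  rw [h1_herbrand_relIndex p s N hN E hEs] at h2
  exact ⟨h2, h3⟩

end Fermat.Agent.S14
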