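import Mathlib
import Fermat.Agent.S14.H1Defs
import Fermat.Agent.S14.H1SUnitOrd
import Fermat.Agent.S14.H1SUnitOrdLemmas

/-!
# P18 (S14) block H1, slice (d2): Dirichlet's `S`-unit theorem, rank form

For a finite set `S` of primes of a number field `K`, the group `h1_sUnits K S` of `S`-units is
finitely generated of rank `rank (𝓞 K)ˣ + #S`: the valuation vector `h1_sunitOrd K S` has kernel
the units of `𝓞 K` and its range has full rank `#S`.
-/

set_option autoImplicit false

namespace Fermat.Agent.S14

open NumberField IsDedekindDomain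

/-- The range of the valuation vector has full rank `#S`. -/
theorem h1_sunitOrd_finrank_range (K : Type*) [Field K] [NumberField K]
    (S : Finset (HeightOneSpectrum (𝓞 K))) :
    Module.finrank ℤ (LinearMap.range (h1_sunitOrd K S)) = S.card := by
  classical
  have hcard : Module.finrank ℤ (↥S → ℤ) = S.card := by
    rw [Module.finrank_fintype_fun_eq_card, Fintype.card_coe]
  apply le_antisymm
  · rw [← hcard]
    exact Submodule.finrank_le _
  · choose h x hpos hx using fun v : ↥S => h1_sunitOrd_single K S v
    let b : ↥S → LinearMap.range (h1_sunitOrd K S) := fun v =>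
      ⟨h1_sunitOrd K S (x v), LinearMap.mem_range_self _ _⟩
    have hb : LinearIndependent ℤ b := by
      apply LinearIndependent.of_comp (LinearMap.range (h1_sunitOrd K S)).subtype
      rw [Fintype.linearIndependent_iff]
      intro g hg w
      have h1 := congrFun hg w
      simp only [Function.comp_apply, Submodule.coe_subtype, b, hx, Finset.sum_apply,
        Pi.smul_apply, Pi.single_apply, smul_eq_mul, Pi.zero_apply] at h1
      rw [Finset.sum_eq_single w] at h1
      · simp only [if_true, mul_one] at h1
        rcases mul_eq_zero.1 h1 with h2 | h2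
        · exact h2
        · exact absurd (by exact_mod_cast h2) (hpos w).ne'
      · intro v _ hvw
        rw [if_neg (Ne.symm hvw)]
        simp
      · intro hw
        exact absurd (Finset.mem_univ w) hw
    have := hb.fintype_card_le_finrank
    rwa [Fintype.card_coe] at this

/-- The inclusion of the units of `𝓞 K` into the `S`-units, as a `ℤ`-linear map on `Additive`. -/
noncomputable def h1_su_unitIncl (K : Type*) [Field K] [NumberField K]
    (S : Finset (HeightOneSpectrum (𝓞 K))) :
    Additive (𝓞 K)ˣ →ₗ[ℤ] Additive ↥(h1_sUnits K (S : Set (HeightOneSpectrum (𝓞 K)))) :=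
  AddMonoidHom.toIntLinearMap
    (MonoidHom.toAdditive
      ((Units.map (algebraMap (𝓞 K) K : 𝓞 K →* K)).codRestrict
        (h1_sUnits K (S : Set (HeightOneSpectrum (𝓞 K))))
        (fun u => h1_mem_sUnits.2 fun v _ => h1_ord_unit K v u)))

theorem h1_su_unitIncl_coe (K : Type*) [Field K] [NumberField K]
    (S : Finset (HeightOneSpectrum (𝓞 K))) (u : Additive (𝓞 K)ˣ) :
    ((Additive.toMul (h1_su_unitIncl K S u) :
      ↥(h1_sUnits K (S : Set (HeightOneSpectrum (𝓞 K))))) : Kˣ) =
      Units.map (algebraMap (𝓞 K) K : 𝓞 K →* K) (Additive.toMul u) := rfl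

theorem h1_su_unitIncl_injective (K : Type*) [Field K] [NumberField K]
    (S : Finset (HeightOneSpectrum (𝓞 K))) : Function.Injective (h1_su_unitIncl K S) := by
  intro u u' huu'
  have h1 := congrArg (fun y => ((Additive.toMul y :
      ↥(h1_sUnits K (S : Set (HeightOneSpectrum (𝓞 K))))) : Kˣ)) huu'
  simp only [h1_su_unitIncl_coe] at h1
  have h2 : Function.Injective (Units.map (algebraMap (𝓞 K) K : 𝓞 K →* K)) :=
    Units.map_injective (FaithfulSMul.algebraMap_injective (𝓞 K) K)
  exact Additive.toMul.injective (h2 h1)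

theorem h1_su_range_unitIncl (K : Type*) [Field K] [NumberField K]
    (S : Finset (HeightOneSpectrum (𝓞 K))) :
    LinearMap.range (h1_su_unitIncl K S) = LinearMap.ker (h1_sunitOrd K S) := by
  ext x
  rw [LinearMap.mem_range, LinearMap.mem_ker, h1_sunitOrd_ker]
  constructor
  · rintro ⟨u, rfl⟩
    exact ⟨Additive.toMul u, (h1_su_unitIncl_coe K S u).symm⟩
  · rintro ⟨u, hu⟩
    refine ⟨Additive.ofMul u, ?_⟩
    apply Additive.toMul.injective
    apply Subtype.ext
    rw [h1_su_unitIncl_coe]
    exact hu

/-- The kernel of the valuation vector has the rank of the unit group. -/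
theorem h1_sunitOrd_finrank_ker (K : Type*) [Field K] [NumberField K]
    (S : Finset (HeightOneSpectrum (𝓞 K))) :
    Module.Finite ℤ (LinearMap.ker (h1_sunitOrd K S)) ∧
    Module.finrank ℤ (LinearMap.ker (h1_sunitOrd K S)) = Module.finrank ℤ (Additive (𝓞 K)ˣ) := by
  rw [← h1_su_range_unitIncl]
  exact ⟨Module.Finite.range _, LinearMap.finrank_range_of_inj (h1_su_unitIncl_injective K S)⟩

/-- (U2) **Dirichlet's `S`-unit theorem, rank form.** -/
theorem h1_sunit_rank (K : Type*) [Field K] [NumberField K]
    (S : Finset (HeightOneSpectrum (𝓞 K))) :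
    Module.Finite ℤ (Additive ↥(h1_sUnits K (S : Set (HeightOneSpectrum (𝓞 K))))) ∧
    Module.finrank ℤ (Additive ↥(h1_sUnits K (S : Set (HeightOneSpectrum (𝓞 K)))))
      = Module.finrank ℤ (Additive (𝓞 K)ˣ) + S.card := by
  obtain ⟨hfin, hker⟩ := h1_sunitOrd_finrank_ker K S
  have hq : Module.Finite ℤ
      (Additive ↥(h1_sUnits K (S : Set (HeightOneSpectrum (𝓞 K)))) ⧸
        LinearMap.ker (h1_sunitOrd K S)) :=
    Module.Finite.equiv (h1_sunitOrd K S).quotKerEquivRange.symm
  have hM : Module.Finite ℤ (Additive ↥(h1_sUnits K (S : Set (HeightOneSpectrum (𝓞 K))))) :=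
    Module.Finite.of_submodule_quotient (LinearMap.ker (h1_sunitOrd K S))
  refine ⟨hM, ?_⟩
  have h1 := (LinearMap.ker (h1_sunitOrd K S)).finrank_quotient_add_finrank
  have h2 := (h1_sunitOrd K S).quotKerEquivRange.finrank_eq
  rw [h2, h1_sunitOrd_finrank_range, hker] at h1
  rw [← h1, add_comm]

end Fermat.Agent.S14
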