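import Mathlib
import Fermat.Agent.S14.H1Defs
import Fermat.Agent.S14.H1Defs2
import Fermat.Agent.S14.H1SUnit
import Fermat.Agent.S14.H1UnitsRank
import Fermat.Agent.S14.H1Fiber
import Fermat.Agent.S14.H1Fix

/-!
# P18 (S14) block H1 (route A, S-units): ranks of `E_{M,S}` and of its Galois-fixed subgroup

`h1_rank_count`: for `M/F` Galois of prime degree `p ≥ 3` with `ζ_p ∈ F` and a finite set `S` of
primes of `F`, the group `E` of `S_M`-units of `M` (`S_M` = primes above `S`) is finitely
generated, `rank E^σ = a`, `rank E = a + b (p - 1)` and `a + 1 = b + #{nonsplit primes in S}`.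
-/

set_option autoImplicit false

namespace Fermat.Agent.S14

open NumberField IsDedekindDomain nonZeroDivisors

/-- The `S`-unit rank theorem for a set of primes which is (the coercion of) a finset. -/
theorem h1_rank_sunit_of_eq (K : Type*) [Field K] [NumberField K]
    (X : Set (HeightOneSpectrum (𝓞 K))) (T : Finset (HeightOneSpectrum (𝓞 K)))
    (hX : X = (T : Set (HeightOneSpectrum (𝓞 K)))) :
    Module.Finite ℤ (Additive ↥(h1_sUnits K X)) ∧
    Module.finrank ℤ (Additive ↥(h1_sUnits K X))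
      = Module.finrank ℤ (Additive (𝓞 K)ˣ) + T.card := by
  subst hX
  exact h1_sunit_rank K T

/-- Equal subgroups have the same rank. -/
theorem h1_rank_finrank_congr {G : Type*} [CommGroup G] {H H' : Subgroup G} (h : H = H') :
    Module.finrank ℤ (Additive ↥H) = Module.finrank ℤ (Additive ↥H') := by
  subst h
  rfl

/-- The image of a subgroup under an injective homomorphism has the same rank. -/
theorem h1_rank_finrank_map {G G' : Type*} [CommGroup G] [CommGroup G'] (f : G →* G')
    (hf : Function.Injective f) (H : Subgroup G) :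
    Module.finrank ℤ (Additive ↥(H.map f)) = Module.finrank ℤ (Additive ↥H) :=
  (LinearEquiv.finrank_eq
    (AddEquiv.toIntLinearEquiv (MulEquiv.toAdditive (H.equivMapOfInjective f hf)))).symm

/-- The arithmetic of the rank count. -/
theorem h1_rank_arith (p rF rM c ns sm : ℕ) (hp : 1 ≤ p) (h1 : rM + 1 = p * (rF + 1))
    (hns : ns ≤ c) (hsm : sm = ns + p * (c - ns)) :
    rM + sm = (rF + c) + (rF + 1 + (c - ns)) * (p - 1) ∧
      (rF + c) + 1 = (rF + 1 + (c - ns)) + ns := by
  obtain ⟨q, rfl⟩ := Nat.exists_eq_add_of_le hp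
  obtain ⟨d, rfl⟩ := Nat.exists_eq_add_of_le hns
  subst hsm
  rw [Nat.add_sub_cancel_left, Nat.add_sub_cancel_left]
  refine ⟨?_, by ring⟩
  have h2 : rM + (ns + (1 + q) * d) + 1 = (rF + (ns + d) + (rF + 1 + d) * q) + 1 := by
    calc rM + (ns + (1 + q) * d) + 1 = (rM + 1) + (ns + (1 + q) * d) := by ring
      _ = (rF + (ns + d) + (rF + 1 + d) * q) + 1 := by rw [h1]; ring
  exact Nat.add_right_cancel h2

section ext

variable (F M : Type*) [Field F] [NumberField F] [Field M] [NumberField M] [Algebra F M]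

/-- The primes of `M` above a finite set `S` of primes of `F` form a finite set, of cardinality
`ns + p (#S - ns)`, `ns` the number of nonsplit primes in `S`. -/
theorem h1_rank_card_above [IsGalois F M] (p : ℕ) [Fact p.Prime]
    (hdeg : Module.finrank F M = p) (S : Finset (HeightOneSpectrum (𝓞 F))) :
    ∃ T : Finset (HeightOneSpectrum (𝓞 M)),
      h1_above F M (S : Set (HeightOneSpectrum (𝓞 F))) = (T : Set (HeightOneSpectrum (𝓞 M))) ∧
      {v : HeightOneSpectrum (𝓞 F) | v ∈ S ∧ h1_nonsplit F M v}.ncard ≤ S.card ∧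
      T.card = {v : HeightOneSpectrum (𝓞 F) | v ∈ S ∧ h1_nonsplit F M v}.ncard +
        p * (S.card - {v : HeightOneSpectrum (𝓞 F) | v ∈ S ∧ h1_nonsplit F M v}.ncard) := by
  classical
  let fib : HeightOneSpectrum (𝓞 F) → Finset (HeightOneSpectrum (𝓞 M)) := fun v =>
    (h1_fiber_finite F M v).toFinset
  have hfib : ∀ v w, w ∈ fib v ↔ h1_under F w = v := fun v w => by
    simp only [fib, Set.Finite.mem_toFinset, Set.mem_ofPred_eq]
  have hset : {v : HeightOneSpectrum (𝓞 F) | v ∈ S ∧ h1_nonsplit F M v} =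
      ((S.filter (fun v => h1_nonsplit F M v) : Finset (HeightOneSpectrum (𝓞 F))) :
        Set (HeightOneSpectrum (𝓞 F))) := by
    ext v
    simp only [Set.mem_ofPred_eq, Finset.coe_filter]
  refine ⟨S.biUnion fib, ?_, ?_, ?_⟩
  · ext w
    simp only [h1_mem_above, Finset.coe_biUnion, Set.mem_iUnion, Finset.mem_coe, hfib,
      exists_prop]
    constructor
    · intro h
      exact ⟨_, h, rfl⟩
    · rintro ⟨v, hv, rfl⟩
      exact hv
  · rw [hset, Set.ncard_coe_finset]
    exact Finset.card_filter_le _ _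
  · have hdisj : ∀ v ∈ S, ∀ v' ∈ S, v ≠ v' → Disjoint (fib v) (fib v') := by
      intro v _ v' _ hvv'
      rw [Finset.disjoint_left]
      intro w hw hw'
      rw [hfib] at hw hw'
      exact hvv' (hw.symm.trans hw')
    rw [Finset.card_biUnion hdisj]
    have hcard : ∀ v ∈ S, (fib v).card = if h1_nonsplit F M v then 1 else p := by
      intro v _
      have h1 : (fib v).card = {w : HeightOneSpectrum (𝓞 M) | h1_under F w = v}.ncard :=
        (Set.ncard_eq_toFinset_card _ (h1_fiber_finite F M v)).symm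
      rw [h1]
      split_ifs with hns
      · obtain ⟨w, hw⟩ := h1_fiber_nonempty F M v
        rw [Set.ncard_eq_one]
        refine ⟨w, ?_⟩
        ext w'
        simp only [Set.mem_ofPred_eq, Set.mem_singleton_iff]
        exact ⟨fun h => hns w' w h hw, fun h => h ▸ hw⟩
      · rcases h1_fiber_ncard F M p hdeg v with h | h
        · exfalso
          apply hns
          obtain ⟨w, hw⟩ := Set.ncard_eq_one.1 h
          intro w₁ w₂ h₁ h₂
          have e₁ : w₁ ∈ {w : HeightOneSpectrum (𝓞 M) | h1_under F w = v} := h₁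
          have e₂ : w₂ ∈ {w : HeightOneSpectrum (𝓞 M) | h1_under F w = v} := h₂
          rw [hw, Set.mem_singleton_iff] at e₁ e₂
          rw [e₁, e₂]
        · exact h
    rw [Finset.sum_congr rfl hcard, Finset.sum_ite, Finset.sum_const, Finset.sum_const,
      smul_eq_mul, smul_eq_mul, mul_one, hset, Set.ncard_coe_finset]
    have h2 := Finset.card_filter_add_card_filter_not (s := S)
      (fun v => h1_nonsplit F M v)
    rw [← h2, Nat.add_sub_cancel_left, mul_comm]

theorem h1_rank_count [IsGalois F M] (p : ℕ) [Fact p.Prime] (hp : 3 ≤ p)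
    (hdeg : Module.finrank F M = p) (ζ : F) (hζ : IsPrimitiveRoot ζ p)
    (σ : M ≃ₐ[F] M) (hσ : σ ≠ 1) (S : Finset (HeightOneSpectrum (𝓞 F))) :
    ∃ a b : ℕ,
      Module.Finite ℤ (Additive ↥(h1_sUnits M (h1_above F M (S : Set (HeightOneSpectrum (𝓞 F)))))) ∧
      Module.finrank ℤ (Additive ↥(h1_sUnits M (h1_above F M (S : Set (HeightOneSpectrum (𝓞 F))))
        ⊓ MonoidHom.eqLocus (h1_gal σ) (MonoidHom.id Mˣ))) = a ∧
      Module.finrank ℤ (Additive ↥(h1_sUnits M (h1_above F M (S : Set (HeightOneSpectrum (𝓞 F))))))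
        = a + b * (p - 1) ∧
      a + 1 = b + {v : HeightOneSpectrum (𝓞 F) | v ∈ S ∧ h1_nonsplit F M v}.ncard := by
  obtain ⟨T, hT, hns, hcard⟩ := h1_rank_card_above F M p hdeg S
  obtain ⟨hfin, hrk⟩ := h1_rank_sunit_of_eq M _ T hT
  have hF := (h1_sunit_rank F S).2
  have hrel := h1_units_rank_rel (F := F) (M := M) p hp hdeg ζ hζ
  have hinj : Function.Injective (h1_inc F M) :=
    Units.map_injective (algebraMap F M).injective
  have hfix : Module.finrank ℤ
      (Additive ↥(h1_sUnits M (h1_above F M (S : Set (HeightOneSpectrum (𝓞 F))))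
        ⊓ MonoidHom.eqLocus (h1_gal σ) (MonoidHom.id Mˣ))) =
      Module.finrank ℤ (Additive (𝓞 F)ˣ) + S.card := by
    rw [h1_rank_finrank_congr (h1_sUnits_fixed F M p hdeg σ hσ (S : Set (HeightOneSpectrum (𝓞 F)))),
      h1_rank_finrank_map _ hinj, hF]
  obtain ⟨e1, e2⟩ := h1_rank_arith p (Module.finrank ℤ (Additive (𝓞 F)ˣ))
    (Module.finrank ℤ (Additive (𝓞 M)ˣ)) S.card
    {v : HeightOneSpectrum (𝓞 F) | v ∈ S ∧ h1_nonsplit F M v}.ncard T.card (by omega) hrel hns
    hcard
  exact ⟨Module.finrank ℤ (Additive (𝓞 F)ˣ) + S.card,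
    Module.finrank ℤ (Additive (𝓞 F)ˣ) + 1 +
      (S.card - {v : HeightOneSpectrum (𝓞 F) | v ∈ S ∧ h1_nonsplit F M v}.ncard),
    hfin, hfix, by rw [hrk]; exact e1, e2⟩

end ext

end Fermat.Agent.S14
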