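import Mathlib
import Fermat.Agent.S14.Defs
import Fermat.Agent.S14.H1Defs
import Fermat.Agent.S14.H1Defs2
import Fermat.Agent.S14.H1ClassKill
import Fermat.Agent.S14.H1RayElt
import Fermat.Agent.S14.H1Desc
import Fermat.Agent.S14.H1Herbrand
import Fermat.Agent.S14.H1Chars
import Fermat.Agent.S14.H1Fix
import Fermat.Agent.S14.H1Rank

/-!
# P18 (S14), block H1: the first inequality with tame modulus

`first_inequality_A` (route A backup of `first_inequality`): for a Galois extension `M/F` of number fields of prime degree `p ≥ 3`, with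
`ζ_p ∈ F`, unramified outside the modulus `𝔪` (prime to `p`), some ideal of `F` prime to `𝔪` is not
in `P_{𝔪,1} · N(I_M(𝔪))`.

Proof by contradiction through `S`-units: Herbrand quotient from ranks (`h1_herbrand_mul`,
`h1_rank_count`), vanishing of `H¹` of the `S`-units (`h1_H1_vanish`), and independent local
conditions at the nonsplit primes of `S` (`h1_index_lower`).
-/

set_option autoImplicit false

namespace Fermat.Agent.S14

open NumberField IsDedekindDomain nonZeroDivisors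

/-- An ideal with no prime factor among the primes containing `𝔪` is coprime to `𝔪`. -/
private theorem h1_fiA_isCoprime {F : Type*} [Field F] [NumberField F] (𝔪 𝔞 : Ideal (𝓞 F))
    (h𝔞 : 𝔞 ≠ ⊥)
    (h : ∀ v : HeightOneSpectrum (𝓞 F), 𝔪 ≤ v.asIdeal → h1_cnt F v 𝔞 = 0) : IsCoprime 𝔞 𝔪 := by
  rw [Ideal.isCoprime_iff_sup_eq]
  by_contra hne
  obtain ⟨P, hPmax, hle⟩ := Ideal.exists_le_maximal _ hne
  have h𝔞P : 𝔞 ≤ P := le_trans le_sup_left hle
  have h𝔪P : 𝔪 ≤ P := le_trans le_sup_right hle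
  have hP0 : P ≠ ⊥ := fun h0 => h𝔞 (le_bot_iff.mp (h0 ▸ h𝔞P))
  let v : HeightOneSpectrum (𝓞 F) := ⟨P, hPmax.isPrime, hP0⟩
  have h0 := h v h𝔪P
  have h1 : FractionalIdeal.count F v ((v.asIdeal : Ideal (𝓞 F)) : FractionalIdeal (𝓞 F)⁰ F)
      ≤ FractionalIdeal.count F v ((𝔞 : Ideal (𝓞 F)) : FractionalIdeal (𝓞 F)⁰ F) :=
    FractionalIdeal.count_mono F v (FractionalIdeal.coeIdeal_ne_zero.mpr h𝔞)
      (FractionalIdeal.coeIdeal_le_coeIdeal F |>.mpr h𝔞P)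
  rw [FractionalIdeal.count_self] at h1
  unfold h1_cnt at h0
  omega

theorem first_inequality_A (p : ℕ) [Fact p.Prime] (hp : 3 ≤ p)
    (F M : Type*) [Field F] [NumberField F] [Field M] [NumberField M] [Algebra F M] [IsGalois F M]
    (hdeg : Module.finrank F M = p) (ζ : F) (hζ : IsPrimitiveRoot ζ p)
    (𝔪 : Ideal (𝓞 F)) (h𝔪0 : 𝔪 ≠ ⊥) (h𝔪 : 𝔪.IsRadical)
    (hp𝔪 : IsCoprime 𝔪 (Ideal.span {(p : 𝓞 F)}))
    (hunr : UnramifiedOutside F M 𝔪) :
    ∃ 𝔞 : Ideal (𝓞 F), 𝔞 ≠ ⊥ ∧ IsCoprime 𝔞 𝔪 ∧ ¬ RayNormRel F M 𝔪 𝔞 ⊤ := by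
  classical
  by_contra hcon
  have hall : ∀ 𝔞 : Ideal (𝓞 F), 𝔞 ≠ ⊥ → IsCoprime 𝔞 𝔪 → RayNormRel F M 𝔪 𝔞 ⊤ := by
    intro 𝔞 h1 h2
    by_contra h3
    exact hcon ⟨𝔞, h1, h2, h3⟩
  obtain ⟨T, hT⟩ := h1_class_kill M
  have hfin𝔪 : {v : HeightOneSpectrum (𝓞 F) | v.asIdeal ∣ 𝔪}.Finite := Ideal.finite_factors h𝔪0
  let S : Finset (HeightOneSpectrum (𝓞 F)) := T.image (h1_under F) ∪ hfin𝔪.toFinset
  have hS𝔪 : ∀ v : HeightOneSpectrum (𝓞 F), 𝔪 ≤ v.asIdeal → v ∈ S := by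
    intro v hv
    refine Finset.mem_union_right _ ?_
    rw [Set.Finite.mem_toFinset]
    exact Ideal.dvd_iff_le.mpr hv
  have hST : ∀ w ∈ T, h1_under F w ∈ S := fun w hw =>
    Finset.mem_union_left _ (Finset.mem_image_of_mem _ hw)
  -- a generator of the Galois group
  have hcard : Nat.card (M ≃ₐ[F] M) = p := by
    rw [IsGalois.card_aut_eq_finrank, hdeg]
  obtain ⟨σ, hσ⟩ : ∃ σ : M ≃ₐ[F] M, σ ≠ 1 := by
    have : Nontrivial (M ≃ₐ[F] M) := by
      have h1 : 1 < Nat.card (M ≃ₐ[F] M) := by rw [hcard]; omega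
      exact (Finite.one_lt_card_iff_nontrivial).mp h1
    exact exists_ne 1
  -- step (B) in the form needed by `h1_H1_vanish`
  have hB : ∀ 𝔞 : Ideal (𝓞 F), 𝔞 ≠ ⊥ →
      (∀ v ∈ (S : Set (HeightOneSpectrum (𝓞 F))), h1_cnt F v 𝔞 = 0) →
      ∃ x : Fˣ, ∀ v, v ∉ (S : Set (HeightOneSpectrum (𝓞 F))) → h1_ord F v x = h1_cnt F v 𝔞 := by
    intro 𝔞 h𝔞 hcnt
    have hcop : IsCoprime 𝔞 𝔪 :=
      h1_fiA_isCoprime 𝔪 𝔞 h𝔞 (fun v hv => hcnt v (Finset.mem_coe.mpr (hS𝔪 v hv)))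
    obtain ⟨x, hx1, -, -⟩ := h1_ray_elt F M p hdeg 𝔪 T hT 𝔞 h𝔞 (hall 𝔞 h𝔞 hcop)
    refine ⟨x, fun v hv => hx1 v (fun w hw hwv => hv ?_)⟩
    rw [← hwv]
    exact Finset.mem_coe.mpr (hST w hw)
  have hunrS : ∀ w : HeightOneSpectrum (𝓞 M),
      h1_under F w ∉ (S : Set (HeightOneSpectrum (𝓞 F))) → InertiaTrivialAt F M w.asIdeal := by
    intro w hw
    exact hunr w.asIdeal w.isPrime w.ne_bot (fun hle => hw (Finset.mem_coe.mpr (hS𝔪 _ hle)))
  -- ranks
  obtain ⟨a, b, hfin, ha, hb, hab⟩ := h1_rank_count F M p hp hdeg ζ hζ σ hσ S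
  -- Herbrand quotient with trivial `H¹`
  have hinj : Function.Injective (h1_inc F M) := by
    intro x y hxy
    apply Units.ext
    have := congrArg (fun u : Mˣ => (u : M)) hxy
    simpa [h1_inc_coe] using this
  obtain ⟨hk0, hk⟩ := h1_herbrand_mul p (h1_gal σ) ((h1_inc F M).comp (h1_nrm F M))
    (h1_gal_iterate_p F M p hdeg σ) (fun y => h1_inc_nrm F M p hdeg σ hσ y)
    (h1_sUnits M (h1_above F M (S : Set (HeightOneSpectrum (𝓞 F)))))
    (fun y hy => h1_sUnits_gal F M σ _ y hy) hfin a b ha hb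
    (by
      intro ε hε hN
      have hN' : h1_nrm F M ε = 1 := by
        apply hinj
        rw [map_one]
        exact hN
      exact h1_H1_vanish F M p hdeg σ hσ _ hunrS hB ε hε hN')
  -- transfer of the index to `Fˣ`
  have hrel : ((h1_sUnits M (h1_above F M (S : Set (HeightOneSpectrum (𝓞 F))))).map
        ((h1_inc F M).comp (h1_nrm F M))).relIndex
        (h1_sUnits M (h1_above F M (S : Set (HeightOneSpectrum (𝓞 F))))
          ⊓ MonoidHom.eqLocus (h1_gal σ) (MonoidHom.id Mˣ))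
      = ((h1_sUnits M (h1_above F M (S : Set (HeightOneSpectrum (𝓞 F))))).map
        (h1_nrm F M)).relIndex (h1_sUnits F (S : Set (HeightOneSpectrum (𝓞 F)))) := by
    rw [h1_sUnits_fixed F M p hdeg σ hσ, ← Subgroup.map_map]
    exact Subgroup.relIndex_map_map_of_injective _ _ hinj
  rw [hrel] at hk0 hk
  have hlow := h1_index_lower F M p hdeg ζ hζ 𝔪 hp𝔪 hunr T hT S hS𝔪 hST hall hk0
  -- arithmetic
  set k := ((h1_sUnits M (h1_above F M (S : Set (HeightOneSpectrum (𝓞 F))))).map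
        (h1_nrm F M)).relIndex (h1_sUnits F (S : Set (HeightOneSpectrum (𝓞 F)))) with hkdef
  set ns := {v : HeightOneSpectrum (𝓞 F) | v ∈ S ∧ h1_nonsplit F M v}.ncard with hnsdef
  have hp2 : 2 ≤ p := by omega
  have hpos : 0 < p ^ b := pow_pos (by omega) b
  have h1 : p ^ b * p ^ ns = p ^ b * (p * k) := by
    calc p ^ b * p ^ ns = p ^ (a + 1) := by rw [← pow_add, hab]
      _ = p ^ a * p := by rw [pow_succ]
      _ = p ^ b * k * p := by rw [hk]
      _ = p ^ b * (p * k) := by ring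
  have h2 : p ^ ns = p * k := Nat.eq_of_mul_eq_mul_left hpos h1
  have h3 : p * k ≤ k := h2 ▸ hlow
  have h4 : k = 0 := by
    by_contra hk'
    have : 2 * k ≤ p * k := Nat.mul_le_mul_right k hp2
    omega
  exact hk0 h4

end Fermat.Agent.S14
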