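import Mathlib
import Fermat.Agent.S14.Defs
import Fermat.Agent.S14.H1Defs
import Fermat.Agent.S14.H1Defs2
import Fermat.Agent.S14.H1Hilb90
import Fermat.Agent.S14.H1Fiber
import Fermat.Agent.S14.H1OrdExt

/-!
# P18 (S14), block H1 (route A, S-units), second team: step (C1), `H¹(E_{M,S}) = 1`

If `ε` is an `S_M`-unit of norm `1`, then `ε = σ η / η` for an `S_M`-unit `η` (under the
hypothesis `hB` that every ideal prime to `S` is, away from `S`, the divisor of an element of `F`).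
-/

set_option autoImplicit false

namespace Fermat.Agent.S14

open NumberField IsDedekindDomain nonZeroDivisors

/-- An integral ideal with prescribed orders on a finite set of primes, and order `0` elsewhere. -/
theorem h1_descB_exists_ideal (K : Type*) [Field K] [NumberField K]
    (s : Finset (HeightOneSpectrum (𝓞 K))) (n : HeightOneSpectrum (𝓞 K) → ℕ) :
    ∃ 𝔞 : Ideal (𝓞 K), 𝔞 ≠ ⊥ ∧
      (∀ v, v ∈ s → h1_cnt K v 𝔞 = (n v : ℤ)) ∧ (∀ v, v ∉ s → h1_cnt K v 𝔞 = 0) := by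
  classical
  have hne : ∀ v ∈ s, ((v.asIdeal ^ n v : Ideal (𝓞 K)) : FractionalIdeal (𝓞 K)⁰ K) ≠ 0 := by
    intro v _
    rw [FractionalIdeal.coeIdeal_pow]
    exact pow_ne_zero _ (FractionalIdeal.coeIdeal_ne_zero.mpr v.ne_bot)
  have hcnt : ∀ v, h1_cnt K v (∏ u ∈ s, u.asIdeal ^ n u) = if v ∈ s then (n v : ℤ) else 0 := by
    intro v
    unfold h1_cnt
    have h1 : ((∏ u ∈ s, u.asIdeal ^ n u : Ideal (𝓞 K)) : FractionalIdeal (𝓞 K)⁰ K) =
        ∏ u ∈ s, ((u.asIdeal ^ n u : Ideal (𝓞 K)) : FractionalIdeal (𝓞 K)⁰ K) :=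
      map_prod (FractionalIdeal.coeIdealHom (𝓞 K)⁰ K) _ s
    rw [h1, FractionalIdeal.count_prod K v s _ hne]
    have h2 : ∀ u ∈ s, FractionalIdeal.count K v
        ((u.asIdeal ^ n u : Ideal (𝓞 K)) : FractionalIdeal (𝓞 K)⁰ K) =
        if u = v then (n v : ℤ) else 0 := by
      intro u _
      rw [FractionalIdeal.coeIdeal_pow, FractionalIdeal.count_pow, FractionalIdeal.count_maximal]
      split_ifs with h
      · rw [h, mul_one]
      · rw [mul_zero]
    rw [Finset.sum_congr rfl h2, Finset.sum_ite_eq']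
  refine ⟨∏ u ∈ s, u.asIdeal ^ n u, ?_, fun v hv => ?_, fun v hv => ?_⟩
  · rw [← Ideal.zero_eq_bot, Finset.prod_ne_zero_iff]
    intro v _
    exact pow_ne_zero _ v.ne_bot
  · rw [hcnt v, if_pos hv]
  · rw [hcnt v, if_neg hv]

variable (F M : Type*) [Field F] [NumberField F] [Field M] [NumberField M] [Algebra F M]

/-- Two primes of `M` related by an element of the Galois group lie above the same prime. -/
theorem h1_descB_under_eq (τ : M ≃ₐ[F] M) (w w' : HeightOneSpectrum (𝓞 M))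
    (h : ∀ x : 𝓞 M, x ∈ w.asIdeal ↔ τ • x ∈ w'.asIdeal) : h1_under F w' = h1_under F w := by
  apply HeightOneSpectrum.ext
  ext x
  rw [h1_under_asIdeal, h1_under_asIdeal]
  show algebraMap (𝓞 F) (𝓞 M) x ∈ w'.asIdeal ↔ algebraMap (𝓞 F) (𝓞 M) x ∈ w.asIdeal
  rw [h (algebraMap (𝓞 F) (𝓞 M) x), h1_fiber_smul_algebraMap F M τ x]

/-- If `ε = σ y / y` has order `0` at `σ w`, then `y` has the same order at `w` and at `σ w`. -/
theorem h1_descB_ord_step (σ : M ≃ₐ[F] M) (y ε : Mˣ) (hy : ε = h1_gal σ y / y)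
    (w w' : HeightOneSpectrum (𝓞 M)) (h : ∀ x : 𝓞 M, x ∈ w.asIdeal ↔ σ • x ∈ w'.asIdeal)
    (hε : h1_ord M w' ε = 0) : h1_ord M w' y = h1_ord M w y := by
  rw [hy, h1_ord_div, h1_ord_gal F M σ w w' h y] at hε
  linarith

/-- If `ε = σ y / y` is an `S_M`-unit, then `y` has the same order at `w` and at `σ ^ k w`, for `w`
not above `S`. -/
theorem h1_descB_ord_pow (σ : M ≃ₐ[F] M) (S : Set (HeightOneSpectrum (𝓞 F))) (y ε : Mˣ)
    (hε : ε ∈ h1_sUnits M (h1_above F M S)) (hy : ε = h1_gal σ y / y) (k : ℕ) :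
    ∀ w w' : HeightOneSpectrum (𝓞 M), h1_under F w ∉ S →
      (∀ x : 𝓞 M, x ∈ w.asIdeal ↔ (σ ^ k) • x ∈ w'.asIdeal) →
      h1_ord M w' y = h1_ord M w y := by
  induction k with
  | zero =>
    intro w w' _ h
    have hww' : w' = w := by
      apply HeightOneSpectrum.ext
      ext x
      rw [h x, pow_zero, one_smul]
    rw [hww']
  | succ k ih =>
    intro w w' hw h
    obtain ⟨w'', hu, hw''⟩ := h1_exists_gal_image F M (σ ^ k) w
    have h1 : ∀ x : 𝓞 M, x ∈ w''.asIdeal ↔ σ • x ∈ w'.asIdeal := by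
      intro x
      have h2 := hw'' ((σ ^ k)⁻¹ • x)
      rw [smul_inv_smul] at h2
      rw [← h2, h, pow_succ', mul_smul, smul_inv_smul]
    have hw''S : h1_under F w'' ∉ S := by rw [hu]; exact hw
    have hw'S : h1_under F w' ∉ S := by rw [h1_descB_under_eq F M σ w'' w' h1]; exact hw''S
    rw [h1_descB_ord_step F M σ y ε hy w'' w' h1 (hε w' hw'S), ih w w'' hw hw'']

/-- If `ε = σ y / y` is an `S_M`-unit and `σ` generates the Galois group, then the order of `y` is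
constant on the primes above a given prime outside `S`. -/
theorem h1_descB_ord_const [IsGalois F M] (σ : M ≃ₐ[F] M)
    (hgen : ∀ τ : M ≃ₐ[F] M, τ ∈ Subgroup.zpowers σ)
    (S : Set (HeightOneSpectrum (𝓞 F))) (y ε : Mˣ)
    (hε : ε ∈ h1_sUnits M (h1_above F M S)) (hy : ε = h1_gal σ y / y)
    (w w' : HeightOneSpectrum (𝓞 M)) (hw : h1_under F w ∉ S)
    (hww' : h1_under F w = h1_under F w') : h1_ord M w' y = h1_ord M w y := by
  obtain ⟨τ, hτ⟩ := h1_fiber_transitive F M w w' hww'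
  obtain ⟨k, hk⟩ := (Submonoid.mem_powers_iff τ σ).mp (mem_powers_iff_mem_zpowers.mpr (hgen τ))
  rw [← hk] at hτ
  exact h1_descB_ord_pow F M σ S y ε hε hy k w w' hw hτ

/-- Step (C1): `H¹(E_{M,S}) = 1`. -/
theorem h1_H1_vanish_B [IsGalois F M] (p : ℕ) [Fact p.Prime] (hdeg : Module.finrank F M = p)
    (σ : M ≃ₐ[F] M) (hσ : σ ≠ 1) (S : Set (HeightOneSpectrum (𝓞 F)))
    (hunr : ∀ w : HeightOneSpectrum (𝓞 M), h1_under F w ∉ S → InertiaTrivialAt F M w.asIdeal)
    (hB : ∀ 𝔞 : Ideal (𝓞 F), 𝔞 ≠ ⊥ → (∀ v ∈ S, h1_cnt F v 𝔞 = 0) →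
      ∃ x : Fˣ, ∀ v, v ∉ S → h1_ord F v x = h1_cnt F v 𝔞)
    (ε : Mˣ) (hε : ε ∈ h1_sUnits M (h1_above F M S)) (hN : h1_nrm F M ε = 1) :
    ∃ η ∈ h1_sUnits M (h1_above F M S), ε = h1_gal σ η / η := by
  classical
  -- `σ` generates the Galois group
  have hcard : Nat.card (M ≃ₐ[F] M) = p := by rw [IsGalois.card_aut_eq_finrank, hdeg]
  have hgen : ∀ τ : M ≃ₐ[F] M, τ ∈ Subgroup.zpowers σ := by
    intro τ
    rw [zpowers_eq_top_of_prime_card hcard hσ]
    exact Subgroup.mem_top τ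
  -- Hilbert 90
  have hnorm : Algebra.norm F (ε : M) = 1 := congrArg (fun u : Fˣ => (u : F)) hN
  obtain ⟨y₀, hy₀⟩ := h1_hilbert90 σ hgen (ε : M) hnorm
  -- scale `y₀` to an integer of `M`
  obtain ⟨d, hd, hint⟩ := exists_integral_multiples ℤ ℚ ({(y₀ : M)} : Finset M)
  have hint' : IsIntegral ℤ (d • (y₀ : M)) := hint _ (Finset.mem_singleton_self _)
  have hdM : (d : M) ≠ 0 := Int.cast_ne_zero.mpr hd
  have ha0 : d • (y₀ : M) ≠ 0 := by
    rw [zsmul_eq_mul]
    exact mul_ne_zero hdM y₀.ne_zero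
  have hya : ((Units.mk0 (d • (y₀ : M)) ha0 : Mˣ) : M) = ((⟨d • (y₀ : M), hint'⟩ : 𝓞 M) : M) := rfl
  generalize (⟨d • (y₀ : M), hint'⟩ : 𝓞 M) = a at hya
  have hεy : ε = h1_gal σ (Units.mk0 (d • (y₀ : M)) ha0) / Units.mk0 (d • (y₀ : M)) ha0 := by
    apply Units.ext
    rw [Units.val_div_eq_div_val, h1_gal_coe, hy₀, Units.val_mk0, map_zsmul, zsmul_eq_mul,
      zsmul_eq_mul, mul_div_mul_left _ _ hdM]
  generalize Units.mk0 (d • (y₀ : M)) ha0 = y at hya hεy
  -- the orders of `y` are nonnegative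
  have hnonneg : ∀ w, 0 ≤ h1_ord M w y := by
    intro w
    rw [h1_ord_eq_cnt M w y a hya]
    exact FractionalIdeal.count_coe_nonneg M w _
  -- the order of `y` is nonzero at finitely many primes only
  have hfin : {w : HeightOneSpectrum (𝓞 M) | h1_ord M w y ≠ 0}.Finite :=
    FractionalIdeal.finite_factors (FractionalIdeal.spanSingleton (𝓞 M)⁰ (y : M))
  -- choice of a prime of `M` above each prime of `F`
  choose wv hwv using h1_fiber_nonempty F M
  -- the ideal of `F` which is the divisor of `y` outside `S`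
  obtain ⟨𝔞, h𝔞0, h𝔞1, h𝔞2⟩ := h1_descB_exists_ideal F
    ((hfin.toFinset.image (h1_under F)).filter (fun v => v ∉ S))
    (fun v => (h1_ord M (wv v) y).toNat)
  have h𝔞S : ∀ v ∈ S, h1_cnt F v 𝔞 = 0 := by
    intro v hv
    apply h𝔞2
    rw [Finset.mem_filter]
    exact fun h => h.2 hv
  have h𝔞 : ∀ v, v ∉ S → h1_cnt F v 𝔞 = h1_ord M (wv v) y := by
    intro v hv
    by_cases hmem : v ∈ (hfin.toFinset.image (h1_under F)).filter (fun v => v ∉ S)
    · rw [h𝔞1 v hmem, Int.toNat_of_nonneg (hnonneg _)]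
    · rw [h𝔞2 v hmem]
      by_contra hne
      apply hmem
      rw [Finset.mem_filter, Finset.mem_image]
      exact ⟨⟨wv v, hfin.mem_toFinset.mpr (Ne.symm hne), hwv v⟩, hv⟩
  obtain ⟨x, hx⟩ := hB 𝔞 h𝔞0 h𝔞S
  -- the element `η`
  refine ⟨y / h1_inc F M x, ?_, ?_⟩
  · intro w hw
    have hwS : h1_under F w ∉ S := hw
    rw [h1_ord_div, h1_ord_inc_of_unram F M w (hunr w hwS) x, hx _ hwS, h𝔞 _ hwS,
      h1_descB_ord_const F M σ hgen S y ε hε hεy w (wv (h1_under F w)) hwS (hwv _).symm, sub_self]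
  · have hfix : h1_gal σ (h1_inc F M x) = h1_inc F M x := by
      apply Units.ext
      rw [h1_gal_coe, h1_inc_coe]
      exact σ.commutes _
    rw [map_div, hfix, div_div_div_cancel_right]
    exact hεy

end Fermat.Agent.S14
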