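import Mathlib
import Fermat.Agent.S14.Defs
import Fermat.Agent.S14.H1Defs
import Fermat.Agent.S14.H1BDefs

set_option autoImplicit false

namespace Fermat.Agent.S14

open NumberField IsDedekindDomain
open scoped Pointwise

variable (F M : Type*) [Field F] [NumberField F] [Field M] [NumberField M] [Algebra F M]

/-- The order of a product of two nonzero integral ideals. -/
theorem h1be2_cnt_mul (K : Type*) [Field K] [NumberField K] (v : HeightOneSpectrum (𝓞 K))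
    (I J : Ideal (𝓞 K)) (hI : I ≠ ⊥) (hJ : J ≠ ⊥) :
    h1_cnt K v (I * J) = h1_cnt K v I + h1_cnt K v J := by
  unfold h1_cnt
  rw [FractionalIdeal.coeIdeal_mul]
  exact FractionalIdeal.count_mul K v (FractionalIdeal.coeIdeal_ne_zero.mpr hI)
    (FractionalIdeal.coeIdeal_ne_zero.mpr hJ)

/-- Finite support of the order function of an integral ideal. -/
theorem h1be2_finite_cnt_support (K : Type*) [Field K] [NumberField K] (I : Ideal (𝓞 K)) :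
    {w : HeightOneSpectrum (𝓞 K) | h1_cnt K w I ≠ 0}.Finite := by
  have h := FractionalIdeal.finite_factors (K := K) (I : FractionalIdeal (nonZeroDivisors (𝓞 K)) K)
  exact h

omit [NumberField F] in
/-- The ray element attached to a pair of integers of `F`. -/
theorem h1be2_ray_mem (𝔪 : Ideal (𝓞 F)) (a b : 𝓞 F) (ha0 : a ≠ 0)
    (hab : a - b ∈ 𝔪) (hcopa : IsCoprime (Ideal.span {a}) 𝔪) (x : Mˣ)
    (hx : (x : M) * algebraMap F M (a : F) = algebraMap F M (b : F)) :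
    x ∈ h1b_ray (h1b_mod F M 𝔪) := by
  rw [h1b_mem_ray]
  refine ⟨algebraMap (𝓞 F) (𝓞 M) b, algebraMap (𝓞 F) (𝓞 M) a, ?_, ?_, ?_, hx⟩
  · intro h
    apply ha0
    apply FaithfulSMul.algebraMap_injective (𝓞 F) (𝓞 M)
    rw [h, map_zero]
  · rw [Ideal.isCoprime_iff_exists] at hcopa ⊢
    obtain ⟨i, hi, j, hj, hij⟩ := hcopa
    refine ⟨algebraMap (𝓞 F) (𝓞 M) i, ?_, algebraMap (𝓞 F) (𝓞 M) j,
      Ideal.mem_map_of_mem _ hj, ?_⟩
    · have h := Ideal.mem_map_of_mem (algebraMap (𝓞 F) (𝓞 M)) hi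
      rwa [Ideal.map_span, Set.image_singleton] at h
    · rw [← map_add, hij, map_one]
  · have h : b - a ∈ 𝔪 := by
      have : b - a = -(a - b) := by ring
      rw [this]; exact 𝔪.neg_mem hab
    have h2 := Ideal.mem_map_of_mem (algebraMap (𝓞 F) (𝓞 M)) h
    rwa [map_sub] at h2

/-- (e2, core) an ideal related to `⊤` is a principal ray times a norm, given the two
dictionary facts `hinc` (e2a) and `hnorm` (e2b) as hypotheses. -/
theorem h1b_rel_mem_core (p : ℕ) (σ : M ≃ₐ[F] M) (𝔪 : Ideal (𝓞 F))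
    (hinc : ∀ (w : h1b_W F M 𝔪) (c : Fˣ),
      h1_ord M w.1 (h1_inc F M c) = h1_ord F (h1_under F w.1) c)
    (hnorm : ∀ (w : h1b_W F M 𝔪) (𝔄 : Ideal (𝓞 M)), 𝔄 ≠ ⊥ →
      h1_cnt F (h1_under F w.1) (Ideal.relNorm (𝓞 F) 𝔄)
        = ∑ i ∈ Finset.range p, h1_cnt M (h1b_smulPrime (σ ^ i) w.1) 𝔄)
    (𝔞 : Ideal (𝓞 F)) (h𝔞 : 𝔞 ≠ ⊥) (hrel : RayNormRel F M 𝔪 𝔞 ⊤) :
    ∃ (x : Mˣ) (y : h1b_W F M 𝔪 →₀ ℤ), x ∈ h1b_ray (h1b_mod F M 𝔪) ∧ h1_gal σ x = x ∧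
      ∀ w : h1b_W F M 𝔪, h1_cnt F (h1_under F w.1) 𝔞
        = h1_ord M w.1 x + ∑ i ∈ Finset.range p, y (h1b_perm (σ ^ i) 𝔪 w) := by
  obtain ⟨a, b, 𝔄, 𝔅, ha0, hb0, hab, hcopa, hcopb, h𝔄, h𝔅, -, -, heq⟩ := hrel
  have ha0' : (a : F) ≠ 0 := by exact_mod_cast ha0
  have hb0' : (b : F) ≠ 0 := by exact_mod_cast hb0
  set ua : Fˣ := Units.mk0 (a : F) ha0' with hua
  set ub : Fˣ := Units.mk0 (b : F) hb0' with hub
  have hfin : {w : h1b_W F M 𝔪 | h1_cnt M w.1 𝔅 - h1_cnt M w.1 𝔄 ≠ 0}.Finite := by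
    have h1 : ({w : HeightOneSpectrum (𝓞 M) | h1_cnt M w 𝔅 ≠ 0} ∪
        {w : HeightOneSpectrum (𝓞 M) | h1_cnt M w 𝔄 ≠ 0}).Finite :=
      (h1be2_finite_cnt_support M 𝔅).union (h1be2_finite_cnt_support M 𝔄)
    refine (h1.preimage (Subtype.val_injective.injOn)).subset ?_
    intro w hw
    show h1_cnt M w.1 𝔅 ≠ 0 ∨ h1_cnt M w.1 𝔄 ≠ 0
    by_contra hcon
    rw [not_or, not_not, not_not] at hcon
    apply hw
    show h1_cnt M w.1 𝔅 - h1_cnt M w.1 𝔄 = 0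
    rw [hcon.1, hcon.2, sub_zero]
  refine ⟨h1_inc F M (ub / ua), Finsupp.ofSupportFinite _ hfin, ?_, ?_, ?_⟩
  · apply h1be2_ray_mem F M 𝔪 a b ha0 hab hcopa
    rw [h1_inc_coe, ← map_mul]
    congr 1
    rw [Units.val_div_eq_div_val]
    show (b : F) / (a : F) * (a : F) = (b : F)
    field_simp
  · apply Units.ext
    rw [h1_gal_coe, h1_inc_coe]
    exact σ.commutes _
  · intro w
    have hNA : Ideal.relNorm (𝓞 F) 𝔄 ≠ ⊥ := by rwa [Ne, Ideal.relNorm_eq_bot_iff]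
    have hNB : Ideal.relNorm (𝓞 F) 𝔅 ≠ ⊥ := by rwa [Ne, Ideal.relNorm_eq_bot_iff]
    have hsa : Ideal.span {a} ≠ ⊥ := by rwa [Ne, Ideal.span_singleton_eq_bot]
    have hsb : Ideal.span {b} ≠ ⊥ := by rwa [Ne, Ideal.span_singleton_eq_bot]
    have h1 := congrArg (h1_cnt F (h1_under F w.1)) heq
    rw [Ideal.mul_top, h1be2_cnt_mul F _ _ _ (mul_ne_zero hsa h𝔞) hNA,
      h1be2_cnt_mul F _ _ _ hsa h𝔞, h1be2_cnt_mul F _ _ _ hsb hNB] at h1
    have h2 : h1_ord M w.1 (h1_inc F M (ub / ua))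
        = h1_cnt F (h1_under F w.1) (Ideal.span {b}) - h1_cnt F (h1_under F w.1) (Ideal.span {a}) := by
      rw [hinc, h1_ord_div, h1_ord_eq_cnt F _ ub b rfl, h1_ord_eq_cnt F _ ua a rfl]
    have h3 : ∑ i ∈ Finset.range p,
        (Finsupp.ofSupportFinite (fun w : h1b_W F M 𝔪 => h1_cnt M w.1 𝔅 - h1_cnt M w.1 𝔄) hfin)
          (h1b_perm (σ ^ i) 𝔪 w)
        = h1_cnt F (h1_under F w.1) (Ideal.relNorm (𝓞 F) 𝔅)
          - h1_cnt F (h1_under F w.1) (Ideal.relNorm (𝓞 F) 𝔄) := by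
      rw [hnorm w 𝔅 h𝔅, hnorm w 𝔄 h𝔄, ← Finset.sum_sub_distrib]
      rfl
    rw [h2, h3]
    linarith

end Fermat.Agent.S14
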