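import Mathlib
import Fermat.Agent.S14.Defs
import Fermat.Agent.S14.H1Defs
import Fermat.Agent.S14.H1BDefs
import Fermat.Agent.S14.H1SplitB

/-!
# P18 (S14), block H1, route B, slice (e2b), third team

The relative norm on divisors: for a Galois extension `M/F` of prime degree `p` with group
generated by `σ`, a prime `w` of `M` at which `M/F` is unramified and `v` the prime of `F`
below `w`, `ord_v (N 𝔄) = ∑_{i<p} ord_{σ^i w} 𝔄` for every nonzero ideal `𝔄` of `𝓞 M`.
-/

set_option autoImplicit false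

namespace Fermat.Agent.S14

open NumberField IsDedekindDomain nonZeroDivisors
open scoped Pointwise

section cnt

variable (K : Type*) [Field K] [NumberField K] (v : HeightOneSpectrum (𝓞 K))

theorem h1be2b3_cnt_mul {I J : Ideal (𝓞 K)} (hI : I ≠ ⊥) (hJ : J ≠ ⊥) :
    h1_cnt K v (I * J) = h1_cnt K v I + h1_cnt K v J := by
  unfold h1_cnt
  rw [FractionalIdeal.coeIdeal_mul]
  exact FractionalIdeal.count_mul K v (FractionalIdeal.coeIdeal_ne_zero.mpr hI)
    (FractionalIdeal.coeIdeal_ne_zero.mpr hJ)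

theorem h1be2b3_cnt_top : h1_cnt K v ⊤ = 0 := by
  unfold h1_cnt
  rw [FractionalIdeal.coeIdeal_top]
  exact FractionalIdeal.count_one K v

theorem h1be2b3_cnt_prime (w : HeightOneSpectrum (𝓞 K)) [Decidable (w = v)] :
    h1_cnt K v w.asIdeal = if w = v then 1 else 0 :=
  FractionalIdeal.count_maximal K v w

theorem h1be2b3_cnt_prime_pow (w : HeightOneSpectrum (𝓞 K)) (n : ℕ) [Decidable (w = v)] :
    h1_cnt K v (w.asIdeal ^ n) = if w = v then (n : ℤ) else 0 := by
  unfold h1_cnt
  rw [FractionalIdeal.coeIdeal_pow, FractionalIdeal.count_pow, FractionalIdeal.count_maximal]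
  split_ifs <;> simp

end cnt

section main

variable (F M : Type*) [Field F] [NumberField F] [Field M] [NumberField M] [Algebra F M]

variable {F M} in
/-- Powers of an element fixing a prime fix it. -/
theorem h1be2b3_pow_fix (τ : M ≃ₐ[F] M) (w : HeightOneSpectrum (𝓞 M))
    (h : h1b_smulPrime τ w = w) (n : ℕ) : h1b_smulPrime (τ ^ n) w = w := by
  induction n with
  | zero => rw [pow_zero, h1b_smulPrime_one]
  | succ n ih => rw [pow_succ, h1b_smulPrime_mul, h, ih]

/-- Transitivity of the Galois action on the primes above a given prime. -/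
theorem h1be2b3_exists_smul [IsGalois F M] (w Q : HeightOneSpectrum (𝓞 M))
    (hv : h1_under F Q = h1_under F w) : ∃ τ : M ≃ₐ[F] M, h1b_smulPrime τ w = Q := by
  have h1 : w.asIdeal.LiesOver (h1_under F w).asIdeal := ⟨rfl⟩
  have h2 : Q.asIdeal.LiesOver (h1_under F w).asIdeal := ⟨by rw [← hv]; rfl⟩
  obtain ⟨τ, hτ⟩ := Ideal.exists_smul_eq_of_isGaloisGroup (h1_under F w).asIdeal w.asIdeal
    Q.asIdeal (M ≃ₐ[F] M)
  exact ⟨τ, HeightOneSpectrum.ext hτ⟩

/-- The prime case. -/
theorem h1be2b3_prime (p : ℕ) [Fact p.Prime] [IsGalois F M] (hdeg : Module.finrank F M = p)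
    (σ : M ≃ₐ[F] M) (hσ : σ ≠ 1) (w Q : HeightOneSpectrum (𝓞 M))
    (hQ : h1_under F Q = h1_under F w → InertiaTrivialAt F M Q.asIdeal) :
    h1_cnt F (h1_under F w) (Ideal.relNorm (𝓞 F) Q.asIdeal)
      = ∑ i ∈ Finset.range p, h1_cnt M (h1b_smulPrime (σ ^ i) w) Q.asIdeal := by
  classical
  have hp : p.Prime := Fact.out
  have hcard : Nat.card (M ≃ₐ[F] M) = p := by rw [IsGalois.card_aut_eq_finrank F M, hdeg]
  have hσp : σ ^ p = 1 := by rw [← hcard]; exact pow_card_eq_one'
  rw [h1_splitb_relNorm F M Q, h1be2b3_cnt_prime_pow]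
  simp_rw [h1be2b3_cnt_prime]
  by_cases hv : h1_under F Q = h1_under F w
  · rw [if_pos hv]
    have hcount := h1_splitb_count F M p hdeg Q
    rw [(h1_splitb_inertia_eq_bot_iff F M Q).mpr (hQ hv), Subgroup.card_bot, mul_one] at hcount
    have hf : Q.asIdeal.inertiaDeg (𝓞 F) ∣ p := ⟨_, by rw [← hcount]; ring⟩
    rcases (Nat.dvd_prime hp).mp hf with hf1 | hfp
    · -- `f = 1`, `g = p`
      rw [hf1, mul_one] at hcount
      rw [hf1, Nat.cast_one]
      obtain ⟨τ, hτ⟩ := h1be2b3_exists_smul F M w Q hv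
      obtain ⟨n, hn⟩ := (mem_powers_of_prime_card hcard hσ : τ ∈ Submonoid.powers σ)
      have hn' : σ ^ n = τ := hn
      have hmod : σ ^ (n % p) = τ := by
        rw [← hn']
        conv_rhs => rw [← Nat.mod_add_div n p, pow_add, pow_mul, hσp, one_pow, mul_one]
      have hj : n % p ∈ Finset.range p := Finset.mem_range.mpr (Nat.mod_lt _ hp.pos)
      rw [Finset.sum_eq_single_of_mem (n % p) hj]
      · rw [hmod, hτ, if_pos rfl]
      · intro i hi hne
        rw [if_neg]
        intro hQi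
        -- `σ ^ i` and `σ ^ (n % p)` both send `w` to `Q`
        have hfix : h1b_smulPrime ((σ ^ (n % p))⁻¹ * σ ^ i) w = w := by
          rw [h1b_smulPrime_mul, ← hQi, hmod, ← hτ, ← h1b_smulPrime_mul, inv_mul_cancel,
            h1b_smulPrime_one]
        have hne1 : (σ ^ (n % p))⁻¹ * σ ^ i ≠ 1 := by
          intro h1
          have h2 : σ ^ i = σ ^ (n % p) := by
            rw [← mul_one (σ ^ (n % p)), ← h1, mul_inv_cancel_left]
          have hord : orderOf σ = p := orderOf_eq_prime hσp hσ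
          have h3 := (pow_inj_mod.mp h2)
          rw [hord, Nat.mod_eq_of_lt (Finset.mem_range.mp hi),
            Nat.mod_eq_of_lt (Nat.mod_lt _ hp.pos)] at h3
          exact hne h3
        -- then the whole group fixes `w`, so `w` is the unique prime above `v`
        have hall : ∀ ρ : M ≃ₐ[F] M, h1b_smulPrime ρ w = w := by
          intro ρ
          obtain ⟨k, hk⟩ := (mem_powers_of_prime_card hcard hne1 :
            ρ ∈ Submonoid.powers ((σ ^ (n % p))⁻¹ * σ ^ i))
          have hk' : ((σ ^ (n % p))⁻¹ * σ ^ i) ^ k = ρ := hk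
          rw [← hk']
          exact h1be2b3_pow_fix _ w hfix k
        have huniq : ∀ w' : HeightOneSpectrum (𝓞 M), h1_under F w' = h1_under F w → w' = w := by
          intro w' hw'
          obtain ⟨ρ, hρ⟩ := h1be2b3_exists_smul F M w w' hw'
          rw [← hρ, hall ρ]
        have hg1 := (h1_splitb_ncard_eq_one_iff F M w).mpr huniq
        rw [← hv, hcount] at hg1
        exact hp.one_lt.ne' hg1
    · -- `f = p`, `g = 1`
      rw [hfp] at hcount ⊢
      have hg1 : ((h1_under F Q).asIdeal.primesOver (𝓞 M)).ncard = 1 := by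
        have := hp.pos
        exact Nat.eq_of_mul_eq_mul_right this (by rw [one_mul]; exact hcount)
      have huniq := (h1_splitb_ncard_eq_one_iff F M Q).mp hg1
      rw [Finset.sum_congr rfl (g := fun _ => (1 : ℤ))]
      · simp
      · intro i _
        rw [if_pos]
        exact (huniq _ (by rw [h1b_under_smulPrime, hv])).symm
  · rw [if_neg hv]
    symm
    apply Finset.sum_eq_zero
    intro i _
    rw [if_neg]
    intro h
    apply hv
    rw [h, h1b_under_smulPrime]

/-- (e2b) the relative norm on divisors: `ord_v (N 𝔄) = ∑_{i<p} ord_{σ^i w} 𝔄` for `w | v`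
unramified. -/
theorem h1b_cnt_relNorm_3 (p : ℕ) [Fact p.Prime] [IsGalois F M] (hdeg : Module.finrank F M = p)
    (σ : M ≃ₐ[F] M) (hσ : σ ≠ 1) (𝔪 : Ideal (𝓞 F)) (hunr : UnramifiedOutside F M 𝔪)
    (w : h1b_W F M 𝔪) (𝔄 : Ideal (𝓞 M)) (h𝔄 : 𝔄 ≠ ⊥) :
    h1_cnt F (h1_under F w.1) (Ideal.relNorm (𝓞 F) 𝔄)
      = ∑ i ∈ Finset.range p, h1_cnt M (h1b_smulPrime (σ ^ i) w.1) 𝔄 := by
  have key : ∀ 𝔄 : Ideal (𝓞 M), 𝔄 ≠ ⊥ →
      h1_cnt F (h1_under F w.1) (Ideal.relNorm (𝓞 F) 𝔄)
        = ∑ i ∈ Finset.range p, h1_cnt M (h1b_smulPrime (σ ^ i) w.1) 𝔄 := by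
    intro 𝔄
    induction 𝔄 using UniqueFactorizationMonoid.induction_on_prime with
    | h₁ => intro h; exact absurd rfl h
    | h₂ x hx =>
      intro _
      rw [Ideal.isUnit_iff.mp hx, Ideal.relNorm_top, h1be2b3_cnt_top]
      simp [h1be2b3_cnt_top]
    | h₃ a q ha hq ih =>
      intro _
      have ha' : a ≠ ⊥ := ha
      have hq0 : q ≠ ⊥ := hq.ne_zero
      have hqp : q.IsPrime := (Ideal.prime_iff_isPrime hq0).mp hq
      let Q : HeightOneSpectrum (𝓞 M) := ⟨q, hqp, hq0⟩
      have hQ : h1_under F Q = h1_under F w.1 → InertiaTrivialAt F M Q.asIdeal := by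
        intro hv
        apply hunr q hqp hq0
        have h2 := w.2
        rw [← hv] at h2
        exact h2
      have hprime := h1be2b3_prime F M p hdeg σ hσ w.1 Q hQ
      rw [map_mul, h1be2b3_cnt_mul F _ (Ideal.relNorm_eq_bot_iff.not.mpr hq0)
        (Ideal.relNorm_eq_bot_iff.not.mpr ha'), ih ha', hprime, ← Finset.sum_add_distrib]
      apply Finset.sum_congr rfl
      intro i _
      rw [h1be2b3_cnt_mul M _ hq0 ha']
  exact key 𝔄 h𝔄

end main

end Fermat.Agent.S14
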