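import Mathlib
import Fermat.Agent.S14.Defs
import Fermat.Agent.S14.H1Defs
import Fermat.Agent.S14.H1BDefs
import Fermat.Agent.S14.H1DictB2a
import Fermat.Agent.S14.H1DictB2b3
import Fermat.Agent.S14.H1DictB2Core

/-!
# P18 (S14), block H1, route B, slice (e2): norm relations are norms

An ideal `𝔞` of `F` with `RayNormRel F M 𝔪 𝔞 ⊤` has divisor (on the primes of `M` not above `𝔪`)
equal to the divisor of a `σ`-fixed element of the ray modulo `𝔪 𝓞_M` plus a norm of a divisor.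
-/

set_option autoImplicit false

namespace Fermat.Agent.S14

open NumberField IsDedekindDomain
open scoped Pointwise

variable (F M : Type*) [Field F] [NumberField F] [Field M] [NumberField M] [Algebra F M]

/-- **(e2)** an ideal related to `⊤` is a principal ray times a norm. -/
theorem h1b_rel_mem (p : ℕ) [Fact p.Prime] [IsGalois F M] (hdeg : Module.finrank F M = p)
    (σ : M ≃ₐ[F] M) (hσ : σ ≠ 1) (𝔪 : Ideal (𝓞 F)) (h𝔪 : 𝔪 ≠ ⊥)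
    (hunr : UnramifiedOutside F M 𝔪) (𝔞 : Ideal (𝓞 F)) (h𝔞 : 𝔞 ≠ ⊥) (hcop : IsCoprime 𝔞 𝔪)
    (hrel : RayNormRel F M 𝔪 𝔞 ⊤) :
    ∃ (x : Mˣ) (y : h1b_W F M 𝔪 →₀ ℤ), x ∈ h1b_ray (h1b_mod F M 𝔪) ∧ h1_gal σ x = x ∧
      ∀ w : h1b_W F M 𝔪, h1_cnt F (h1_under F w.1) 𝔞
        = h1_ord M w.1 x + ∑ i ∈ Finset.range p, y (h1b_perm (σ ^ i) 𝔪 w) :=
  h1b_rel_mem_core F M p σ 𝔪 (fun w c => h1b_ord_inc F M 𝔪 hunr w c)
    (fun w 𝔄 h𝔄 => h1b_cnt_relNorm_3 F M p hdeg σ hσ 𝔪 hunr w 𝔄 h𝔄) 𝔞 h𝔞 hrel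

end Fermat.Agent.S14
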