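import Mathlib
import Fermat.Agent.S14.Defs
import Fermat.Agent.S14.H1Defs
import Fermat.Agent.S14.H1BDefs
import Fermat.Agent.S14.H1SplitB

/-!
# P18 (S14), block H1, route B, (e2b): the relative norm on divisors

`h1b_cnt_relNorm` : for `w | v` unramified, `ord_v (N 𝔄) = ∑_{i<p} ord_{σ^i w} 𝔄`.
-/

set_option autoImplicit false

namespace Fermat.Agent.S14

open NumberField IsDedekindDomain
open scoped Pointwise

section cnt

variable (K : Type*) [Field K] [NumberField K] (v : HeightOneSpectrum (𝓞 K))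

theorem h1be2b_cnt_mul (I J : Ideal (𝓞 K)) (hI : I ≠ ⊥) (hJ : J ≠ ⊥) :
    h1_cnt K v (I * J) = h1_cnt K v I + h1_cnt K v J := by
  unfold h1_cnt
  rw [FractionalIdeal.coeIdeal_mul, FractionalIdeal.count_mul K v
    (FractionalIdeal.coeIdeal_ne_zero.mpr hI) (FractionalIdeal.coeIdeal_ne_zero.mpr hJ)]

theorem h1be2b_cnt_top : h1_cnt K v ⊤ = 0 := by
  unfold h1_cnt
  rw [FractionalIdeal.coeIdeal_top, FractionalIdeal.count_one]

theorem h1be2b_cnt_pow_self (n : ℕ) : h1_cnt K v (v.asIdeal ^ n) = n := by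
  unfold h1_cnt
  rw [FractionalIdeal.coeIdeal_pow, FractionalIdeal.count_pow_self]

theorem h1be2b_cnt_pow_of_ne (w : HeightOneSpectrum (𝓞 K)) (hw : w ≠ v) (n : ℕ) :
    h1_cnt K v (w.asIdeal ^ n) = 0 := by
  unfold h1_cnt
  rw [FractionalIdeal.coeIdeal_pow, FractionalIdeal.count_pow,
    FractionalIdeal.count_maximal_coprime K v hw, mul_zero]

theorem h1be2b_cnt_self : h1_cnt K v v.asIdeal = 1 :=
  FractionalIdeal.count_self K v

theorem h1be2b_cnt_of_ne (w : HeightOneSpectrum (𝓞 K)) (hw : w ≠ v) :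
    h1_cnt K v w.asIdeal = 0 :=
  FractionalIdeal.count_maximal_coprime K v hw

end cnt

section grp

variable {F M : Type*} [Field F] [NumberField F] [Field M] [NumberField M] [Algebra F M]

theorem h1be2b_card_gal (p : ℕ) [IsGalois F M] (hdeg : Module.finrank F M = p) :
    Nat.card (M ≃ₐ[F] M) = p := by
  rw [IsGalois.card_aut_eq_finrank, hdeg]

theorem h1be2b_orderOf (p : ℕ) [Fact p.Prime] [IsGalois F M] (hdeg : Module.finrank F M = p)
    (σ : M ≃ₐ[F] M) (hσ : σ ≠ 1) : orderOf σ = p := by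
  have hcard := h1be2b_card_gal (F := F) (M := M) p hdeg
  refine orderOf_eq_prime ?_ hσ
  rw [← hcard]
  exact pow_card_eq_one'

/-- Every element of the Galois group is `σ ^ i` with `i < p`. -/
theorem h1be2b_exists_pow (p : ℕ) [Fact p.Prime] [IsGalois F M] (hdeg : Module.finrank F M = p)
    (σ : M ≃ₐ[F] M) (hσ : σ ≠ 1) (τ : M ≃ₐ[F] M) : ∃ i, i < p ∧ σ ^ i = τ := by
  have hcard := h1be2b_card_gal (F := F) (M := M) p hdeg
  have hp : p.Prime := Fact.out
  have hord := h1be2b_orderOf p hdeg σ hσ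
  obtain ⟨n, hn⟩ := (Submonoid.mem_powers_iff _ _).mp (mem_powers_of_prime_card hcard hσ (g' := τ))
  refine ⟨n % p, Nat.mod_lt _ hp.pos, ?_⟩
  rw [← hord, pow_mod_orderOf]
  exact hn

theorem h1be2b_smulPrime_pow_fixed (τ : M ≃ₐ[F] M) (w : HeightOneSpectrum (𝓞 M))
    (h : h1b_smulPrime τ w = w) (n : ℕ) : h1b_smulPrime (τ ^ n) w = w := by
  induction n with
  | zero => rw [pow_zero, h1b_smulPrime_one]
  | succ n ih => rw [pow_succ, h1b_smulPrime_mul, h, ih]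

/-- A prime fixed by a nontrivial element is fixed by the whole group. -/
theorem h1be2b_all_fixed (p : ℕ) [Fact p.Prime] [IsGalois F M] (hdeg : Module.finrank F M = p)
    (τ : M ≃ₐ[F] M) (hτ : τ ≠ 1) (w : HeightOneSpectrum (𝓞 M))
    (h : h1b_smulPrime τ w = w) (ρ : M ≃ₐ[F] M) : h1b_smulPrime ρ w = w := by
  obtain ⟨i, _, rfl⟩ := h1be2b_exists_pow p hdeg τ hτ ρ
  exact h1be2b_smulPrime_pow_fixed τ w h i

/-- Transitivity of the Galois action on the primes above a given prime. -/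
theorem h1be2b_transitive [IsGalois F M] (w w' : HeightOneSpectrum (𝓞 M))
    (h : h1_under F w = h1_under F w') : ∃ τ : M ≃ₐ[F] M, h1b_smulPrime τ w = w' := by
  have h1 : w.asIdeal.LiesOver (h1_under F w).asIdeal := ⟨rfl⟩
  have h2 : w'.asIdeal.LiesOver (h1_under F w).asIdeal := ⟨by rw [h]; rfl⟩
  obtain ⟨τ, hτ⟩ := Ideal.exists_smul_eq_of_isGaloisGroup (h1_under F w).asIdeal w.asIdeal
    w'.asIdeal (M ≃ₐ[F] M)
  exact ⟨τ, HeightOneSpectrum.ext hτ⟩

/-- If `Q` is not the unique prime above its restriction, `i ↦ σ ^ i • w` hits `Q` at most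
once for `i < p`. -/
theorem h1be2b_pow_lt_absurd (p : ℕ) [Fact p.Prime] [IsGalois F M]
    (hdeg : Module.finrank F M = p) (σ : M ≃ₐ[F] M) (hσ : σ ≠ 1)
    (w Q : HeightOneSpectrum (𝓞 M))
    (hg : ¬ ∀ w' : HeightOneSpectrum (𝓞 M), h1_under F w' = h1_under F Q → w' = Q)
    {i j : ℕ} (hj : j < p) (hij : i < j) (h1 : h1b_smulPrime (σ ^ i) w = Q)
    (h2 : h1b_smulPrime (σ ^ j) w = Q) : False := by
  have hord := h1be2b_orderOf p hdeg σ hσ
  have hτ1 : σ ^ (j - i) ≠ 1 := by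
    intro h
    have hdvd : p ∣ j - i := by
      rw [← hord]
      exact orderOf_dvd_of_pow_eq_one h
    have := Nat.le_of_dvd (by omega) hdvd
    omega
  have hfix : h1b_smulPrime (σ ^ (j - i)) Q = Q := by
    nth_rewrite 1 [← h1]
    rw [← h1b_smulPrime_mul, ← pow_add, Nat.sub_add_cancel hij.le, h2]
  apply hg
  intro w' hw'
  obtain ⟨ρ, hρ⟩ := h1be2b_transitive Q w' hw'.symm
  rw [← hρ]
  exact h1be2b_all_fixed p hdeg _ hτ1 Q hfix ρ

end grp

section NF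

variable (F M : Type*) [Field F] [NumberField F] [Field M] [NumberField M] [Algebra F M]

/-- The prime case of `h1b_cnt_relNorm`. -/
theorem h1be2b_prime_case (p : ℕ) [Fact p.Prime] [IsGalois F M] (hdeg : Module.finrank F M = p)
    (σ : M ≃ₐ[F] M) (hσ : σ ≠ 1) (𝔪 : Ideal (𝓞 F)) (hunr : UnramifiedOutside F M 𝔪)
    (w : h1b_W F M 𝔪) (Q : HeightOneSpectrum (𝓞 M)) :
    h1_cnt F (h1_under F w.1) (Ideal.relNorm (𝓞 F) Q.asIdeal)
      = ∑ i ∈ Finset.range p, h1_cnt M (h1b_smulPrime (σ ^ i) w.1) Q.asIdeal := by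
  have hp : p.Prime := Fact.out
  rw [h1_splitb_relNorm]
  by_cases hv : h1_under F Q = h1_under F w.1
  · have hunrQ : InertiaTrivialAt F M Q.asIdeal := by
      refine hunr Q.asIdeal Q.isPrime Q.ne_bot ?_
      have h : Ideal.under (𝓞 F) Q.asIdeal = (h1_under F w.1).asIdeal := by
        rw [← hv]
        rfl
      rw [h]
      exact w.2
    have hcount := h1_splitb_count F M p hdeg Q
    rw [(h1_splitb_inertia_eq_bot_iff F M Q).mpr hunrQ, Subgroup.card_bot, mul_one] at hcount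
    rw [← hv, h1be2b_cnt_pow_self]
    by_cases hg : ((h1_under F Q).asIdeal.primesOver (𝓞 M)).ncard = 1
    · rw [hg, one_mul] at hcount
      have hall := (h1_splitb_ncard_eq_one_iff F M Q).mp hg
      have hone : ∀ i ∈ Finset.range p,
          h1_cnt M (h1b_smulPrime (σ ^ i) w.1) Q.asIdeal = 1 := by
        intro i _
        have h : h1b_smulPrime (σ ^ i) w.1 = Q := hall _ (by rw [h1b_under_smulPrime, hv])
        rw [h]
        exact h1be2b_cnt_self M Q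
      rw [Finset.sum_congr rfl hone, Finset.sum_const, Finset.card_range, hcount]
      simp
    · have hgp : ((h1_under F Q).asIdeal.primesOver (𝓞 M)).ncard = p :=
        ((Nat.dvd_prime hp).mp ⟨_, hcount.symm⟩).resolve_left hg
      have hf : Q.asIdeal.inertiaDeg (𝓞 F) = 1 := by
        rw [hgp] at hcount
        exact (Nat.mul_eq_left hp.ne_zero).mp hcount
      have hg' : ¬ ∀ w' : HeightOneSpectrum (𝓞 M), h1_under F w' = h1_under F Q → w' = Q :=
        fun h => hg ((h1_splitb_ncard_eq_one_iff F M Q).mpr h)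
      obtain ⟨τ, hτ⟩ := h1be2b_transitive w.1 Q hv.symm
      obtain ⟨i₀, hi₀, rfl⟩ := h1be2b_exists_pow p hdeg σ hσ τ
      have huniq : ∀ i ∈ Finset.range p, i ≠ i₀ →
          h1_cnt M (h1b_smulPrime (σ ^ i) w.1) Q.asIdeal = 0 := by
        intro i hi hne
        apply h1be2b_cnt_of_ne
        intro heq
        rcases lt_or_gt_of_ne hne with h | h
        · exact h1be2b_pow_lt_absurd p hdeg σ hσ w.1 Q hg' hi₀ h heq.symm hτ
        · exact h1be2b_pow_lt_absurd p hdeg σ hσ w.1 Q hg' (Finset.mem_range.mp hi) h hτ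
            heq.symm
      rw [Finset.sum_eq_single_of_mem i₀ (Finset.mem_range.mpr hi₀) huniq, hτ,
        h1be2b_cnt_self, hf, Nat.cast_one]
  · rw [h1be2b_cnt_pow_of_ne F _ _ hv]
    symm
    apply Finset.sum_eq_zero
    intro i _
    apply h1be2b_cnt_of_ne
    intro h
    apply hv
    rw [h, h1b_under_smulPrime]

/-- (e2b) the relative norm on divisors: `ord_v (N 𝔄) = ∑_{i<p} ord_{σ^i w} 𝔄` for `w | v`
unramified. -/
theorem h1b_cnt_relNorm (p : ℕ) [Fact p.Prime] [IsGalois F M] (hdeg : Module.finrank F M = p)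
    (σ : M ≃ₐ[F] M) (hσ : σ ≠ 1) (𝔪 : Ideal (𝓞 F)) (hunr : UnramifiedOutside F M 𝔪)
    (w : h1b_W F M 𝔪) (𝔄 : Ideal (𝓞 M)) (h𝔄 : 𝔄 ≠ ⊥) :
    h1_cnt F (h1_under F w.1) (Ideal.relNorm (𝓞 F) 𝔄)
      = ∑ i ∈ Finset.range p, h1_cnt M (h1b_smulPrime (σ ^ i) w.1) 𝔄 := by
  revert h𝔄
  refine UniqueFactorizationMonoid.induction_on_prime
    (P := fun 𝔄 : Ideal (𝓞 M) => 𝔄 ≠ ⊥ →
      h1_cnt F (h1_under F w.1) (Ideal.relNorm (𝓞 F) 𝔄)
        = ∑ i ∈ Finset.range p, h1_cnt M (h1b_smulPrime (σ ^ i) w.1) 𝔄) 𝔄 ?_ ?_ ?_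
  · intro h
    exact absurd Ideal.zero_eq_bot h
  · intro x hx _
    rw [Ideal.isUnit_iff] at hx
    subst hx
    rw [Ideal.relNorm_top, h1be2b_cnt_top]
    symm
    apply Finset.sum_eq_zero
    intro i _
    exact h1be2b_cnt_top M _
  · intro 𝔄 Q h𝔄0 hQ ih _
    have hQp : Q.IsPrime := Ideal.isPrime_of_prime hQ
    have hQ0 : Q ≠ ⊥ := hQ.ne_zero
    have h𝔄' : 𝔄 ≠ ⊥ := h𝔄0
    have hNQ : Ideal.relNorm (𝓞 F) Q ≠ ⊥ := fun h => hQ0 (Ideal.relNorm_eq_bot_iff.mp h)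
    have hN𝔄 : Ideal.relNorm (𝓞 F) 𝔄 ≠ ⊥ := fun h => h𝔄' (Ideal.relNorm_eq_bot_iff.mp h)
    rw [map_mul, h1be2b_cnt_mul F _ _ _ hNQ hN𝔄, ih h𝔄',
      h1be2b_prime_case F M p hdeg σ hσ 𝔪 hunr w ⟨Q, hQp, hQ0⟩, ← Finset.sum_add_distrib]
    apply Finset.sum_congr rfl
    intro i _
    rw [h1be2b_cnt_mul M _ _ _ hQ0 h𝔄']

end NF

end Fermat.Agent.S14
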