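import Mathlib
import Fermat.Agent.S14.H1Defs
import Fermat.Agent.S14.H1Fiber
import Fermat.Agent.S14.H1OrdExt

/-! P18 (S14) block H1 (route A, S-units), second team: Galois-fixed S-units and the norm as a
product of conjugates. -/

set_option autoImplicit false

namespace Fermat.Agent.S14

open NumberField IsDedekindDomain nonZeroDivisors

variable (F M : Type*) [Field F] [NumberField F] [Field M] [NumberField M] [Algebra F M]

/-- Iterating `h1_gal σ` is `h1_gal` of a power. -/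
theorem h1_fixB_iterate (σ : M ≃ₐ[F] M) (i : ℕ) (y : Mˣ) :
    (h1_gal σ)^[i] y = h1_gal (σ ^ i) y := by
  induction i with
  | zero =>
    apply Units.ext
    simp [h1_gal_coe]
  | succ i ih =>
    rw [Function.iterate_succ_apply', ih]
    apply Units.ext
    rw [h1_gal_coe, h1_gal_coe, h1_gal_coe, pow_succ', AlgEquiv.mul_apply]

/-- The Galois group of a Galois extension of degree `p` has `p` elements. -/
theorem h1_fixB_card [IsGalois F M] (p : ℕ) (hdeg : Module.finrank F M = p) :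
    Nat.card (M ≃ₐ[F] M) = p := by
  rw [IsGalois.card_aut_eq_finrank, hdeg]

/-- `σ ^ p = 1`. -/
theorem h1_fixB_pow [IsGalois F M] (p : ℕ) (hdeg : Module.finrank F M = p) (σ : M ≃ₐ[F] M) :
    σ ^ p = 1 := by
  rw [← h1_fixB_card F M p hdeg]
  exact pow_card_eq_one'

theorem h1_gal_iterate_p_B [IsGalois F M] (p : ℕ) [Fact p.Prime] (hdeg : Module.finrank F M = p)
    (σ : M ≃ₐ[F] M) (y : Mˣ) : (h1_gal σ)^[p] y = y := by
  rw [h1_fixB_iterate, h1_fixB_pow F M p hdeg σ]
  apply Units.ext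
  simp [h1_gal_coe]

theorem h1_inc_nrm_B [IsGalois F M] (p : ℕ) [Fact p.Prime] (hdeg : Module.finrank F M = p)
    (σ : M ≃ₐ[F] M) (hσ : σ ≠ 1) (y : Mˣ) :
    h1_inc F M (h1_nrm F M y) = ∏ i ∈ Finset.range p, (h1_gal σ)^[i] y := by
  classical
  have hp : p.Prime := Fact.out
  have hpow : σ ^ p = 1 := h1_fixB_pow F M p hdeg σ
  have hord : orderOf σ = p := orderOf_eq_prime hpow hσ
  have hinj : Set.InjOn (fun i : ℕ => σ ^ i) (Finset.range p : Set ℕ) := by
    have h := pow_injOn_Iio_orderOf (x := σ)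
    rw [hord] at h
    intro a ha b hb hab
    exact h (by simpa using ha) (by simpa using hb) hab
  have himg : Finset.image (fun i : ℕ => σ ^ i) (Finset.range p) = Finset.univ := by
    apply Finset.eq_univ_of_card
    rw [Finset.card_image_of_injOn hinj, Finset.card_range, ← Nat.card_eq_fintype_card,
      h1_fixB_card F M p hdeg]
  apply Units.ext
  rw [h1_inc_coe, h1_nrm_coe, Algebra.norm_eq_prod_automorphisms, Units.coe_prod]
  rw [← himg, Finset.prod_image hinj]
  refine Finset.prod_congr rfl ?_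
  intro i _
  rw [h1_fixB_iterate, h1_gal_coe]

theorem h1_sUnits_gal_B (σ : M ≃ₐ[F] M) (S : Set (HeightOneSpectrum (𝓞 F))) (y : Mˣ)
    (hy : y ∈ h1_sUnits M (h1_above F M S)) : h1_gal σ y ∈ h1_sUnits M (h1_above F M S) := by
  rw [h1_mem_sUnits] at hy ⊢
  intro w' hw'
  obtain ⟨w, hw, hmem⟩ := h1_exists_gal_image F M σ⁻¹ w'
  have hmem' : ∀ x : 𝓞 M, x ∈ w.asIdeal ↔ σ • x ∈ w'.asIdeal := by
    intro x
    rw [hmem (σ • x), inv_smul_smul]
  rw [h1_ord_gal F M σ w w' hmem' y]
  apply hy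
  rw [h1_mem_above] at hw' ⊢
  rw [hw]
  exact hw'

/-- If `σ ≠ 1` in a Galois group of prime order, an element fixed by `σ` lies in the base. -/
theorem h1_fixB_mem_range_of_fixed [IsGalois F M] (p : ℕ) [Fact p.Prime]
    (hdeg : Module.finrank F M = p) (σ : M ≃ₐ[F] M) (hσ : σ ≠ 1) (x : M) (hx : σ x = x) :
    ∃ y : F, algebraMap F M y = x := by
  have hcard : Nat.card (M ≃ₐ[F] M) = p := h1_fixB_card F M p hdeg
  have hfix : ∀ τ : M ≃ₐ[F] M, τ x = x := by
    intro τ
    have hτ : τ ∈ Subgroup.zpowers σ := mem_zpowers_of_prime_card hcard hσ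
    have hstab : Subgroup.zpowers σ ≤ MulAction.stabilizer (M ≃ₐ[F] M) x := by
      rw [Subgroup.zpowers_le]
      exact hx
    exact hstab hτ
  exact (IsGalois.mem_range_algebraMap_iff_fixed x).mpr hfix

theorem h1_sUnits_fixed_B [IsGalois F M] (p : ℕ) [Fact p.Prime] (hdeg : Module.finrank F M = p)
    (σ : M ≃ₐ[F] M) (hσ : σ ≠ 1) (S : Set (HeightOneSpectrum (𝓞 F))) :
    h1_sUnits M (h1_above F M S) ⊓ MonoidHom.eqLocus (h1_gal σ) (MonoidHom.id Mˣ)
      = (h1_sUnits F S).map (h1_inc F M) := by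
  ext y
  rw [Subgroup.mem_inf, Subgroup.mem_map]
  constructor
  · rintro ⟨hy, hfix⟩
    have hfix' : σ (y : M) = (y : M) := by
      have h := congrArg (fun u : Mˣ => (u : M)) hfix
      simpa [h1_gal_coe] using h
    obtain ⟨x₀, hx₀⟩ := h1_fixB_mem_range_of_fixed F M p hdeg σ hσ (y : M) hfix'
    have hx₀ne : x₀ ≠ 0 := by
      rintro rfl
      rw [map_zero] at hx₀
      exact y.ne_zero hx₀.symm
    have hinc : h1_inc F M (Units.mk0 x₀ hx₀ne) = y := by
      apply Units.ext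
      rw [h1_inc_coe, Units.val_mk0, hx₀]
    refine ⟨Units.mk0 x₀ hx₀ne, ?_, hinc⟩
    rw [h1_mem_sUnits] at hy ⊢
    intro v hv
    obtain ⟨w, hw⟩ := h1_fiber_nonempty F M v
    obtain ⟨e, he, hord⟩ := h1_ord_inc F M w
    have h0 : h1_ord M w y = 0 := by
      apply hy
      rw [h1_mem_above, hw]
      exact hv
    rw [← hinc, hord, hw] at h0
    have he' : (e : ℤ) ≠ 0 := by exact_mod_cast he.ne'
    exact (mul_eq_zero.mp h0).resolve_left he'
  · rintro ⟨x, hx, rfl⟩
    refine ⟨?_, ?_⟩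
    · rw [h1_mem_sUnits] at hx ⊢
      intro w hw
      obtain ⟨e, _, hord⟩ := h1_ord_inc F M w
      rw [hord, hx _ hw, mul_zero]
    · change h1_gal σ (h1_inc F M x) = h1_inc F M x
      apply Units.ext
      rw [h1_gal_coe, h1_inc_coe, AlgEquiv.commutes]

end Fermat.Agent.S14
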