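import Mathlib

set_option autoImplicit false

/-!
# P18 (S14), block H1, lattice lemma (second team): the torsion-free quotient

For an abelian group `X` and an endomorphism `f` of `X`, `h1_latB_bar f` is the endomorphism
induced by `f` on the quotient of `X` by its torsion subgroup, and `h1_latB_barHom X` is the ring
homomorphism `f ↦ f̄`.
-/

namespace Fermat.Agent.S14

/-- The endomorphism induced by `f` on the quotient of `X` by its torsion submodule. -/
noncomputable def h1_latB_bar {X : Type*} [AddCommGroup X] (f : Module.End ℤ X) :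
    Module.End ℤ (X ⧸ Submodule.torsion ℤ X) :=
  (Submodule.torsion ℤ X).mapQ (Submodule.torsion ℤ X) f (fun x hx => by
    rw [Submodule.mem_comap]
    obtain ⟨a, ha⟩ := (Submodule.mem_torsion_iff x).mp hx
    refine (Submodule.mem_torsion_iff _).mpr ⟨a, ?_⟩
    rw [Submonoid.smul_def, ← map_smul, ← Submonoid.smul_def, ha, map_zero])

theorem h1_latB_bar_mk {X : Type*} [AddCommGroup X] (f : Module.End ℤ X) (x : X) :
    h1_latB_bar f (Submodule.Quotient.mk x) = Submodule.Quotient.mk (f x) := rfl

/-- `f ↦ f̄` as a ring homomorphism. -/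
noncomputable def h1_latB_barHom (X : Type*) [AddCommGroup X] :
    Module.End ℤ X →+* Module.End ℤ (X ⧸ Submodule.torsion ℤ X) where
  toFun := h1_latB_bar
  map_one' := by
    ext x
    rfl
  map_mul' f g := by
    ext x
    rfl
  map_zero' := by
    ext x
    rfl
  map_add' f g := by
    ext x
    rfl

theorem h1_latB_barHom_mk {X : Type*} [AddCommGroup X] (f : Module.End ℤ X) (x : X) :
    h1_latB_barHom X f (Submodule.Quotient.mk x) = Submodule.Quotient.mk (f x) := rfl

end Fermat.Agent.S14
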