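import Mathlib
import Fermat.Agent.S14.H1LatBDefs

set_option autoImplicit false

/-!
# P18 (S14), block H1, lattice lemma (second team): the cyclotomic determinant

* `h1_latB_id1`: `(X - 1)^(p-1) = (1 + X + ... + X^(p-1)) + p * V` in `ℤ[X]`.
* `h1_latB_id2`: `p = (X - 1)^(p-1) * U + (1 + X + ... + X^(p-1)) * W` in `ℤ[X]`.
* `h1_latB_det_cyclo`: if `1 + s + ... + s^(p-1) = 0` on a finitely generated abelian group `X`
  of rank `c * (p - 1)`, then the endomorphism induced by `s - 1` on `X` modulo torsion is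
  injective and the absolute value of its determinant is `p ^ c`.
-/

namespace Fermat.Agent.S14

/-- In characteristic `p`: `(X - 1)^(p-1) = 1 + X + ... + X^(p-1)`. -/
theorem h1_latBc_zmod (p : ℕ) [Fact p.Prime] :
    ((Polynomial.X - 1 : Polynomial (ZMod p)) ^ (p - 1))
      = ∑ i ∈ Finset.range p, Polynomial.X ^ i := by
  have hp : p - 1 + 1 = p := Nat.sub_add_cancel (Fact.out : p.Prime).one_le
  have h1 : ((Polynomial.X - 1 : Polynomial (ZMod p)) ^ (p - 1)
      - ∑ i ∈ Finset.range p, Polynomial.X ^ i) * (Polynomial.X - 1) = 0 := by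
    rw [sub_mul, ← pow_succ, hp, geom_sum_mul, sub_pow_char, one_pow, sub_self]
  have h2 : (Polynomial.X - 1 : Polynomial (ZMod p)) ≠ 0 := by
    have := Polynomial.X_sub_C_ne_zero (1 : ZMod p)
    simpa using this
  rcases mul_eq_zero.mp h1 with h | h
  · exact sub_eq_zero.mp h
  · exact absurd h h2

theorem h1_latB_id1 (p : ℕ) [Fact p.Prime] :
    ∃ V : Polynomial ℤ, (Polynomial.X - 1 : Polynomial ℤ) ^ (p - 1)
      = ∑ i ∈ Finset.range p, Polynomial.X ^ i + Polynomial.C (p : ℤ) * V := by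
  have h : Polynomial.C (p : ℤ) ∣ (Polynomial.X - 1 : Polynomial ℤ) ^ (p - 1)
      - ∑ i ∈ Finset.range p, Polynomial.X ^ i := by
    rw [Polynomial.C_dvd_iff_dvd_coeff]
    intro i
    rw [← ZMod.intCast_zmod_eq_zero_iff_dvd]
    have h3 : ((Polynomial.X - 1 : Polynomial ℤ) ^ (p - 1)
        - ∑ i ∈ Finset.range p, Polynomial.X ^ i).map (Int.castRingHom (ZMod p)) = 0 := by
      rw [Polynomial.map_sub, Polynomial.map_pow, Polynomial.map_sub, Polynomial.map_X,
        Polynomial.map_one, Polynomial.map_sum]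
      simp only [Polynomial.map_pow, Polynomial.map_X]
      rw [h1_latBc_zmod p, sub_self]
    have h4 := congrArg (fun q => Polynomial.coeff q i) h3
    simp only [Polynomial.coeff_map, Polynomial.coeff_zero] at h4
    exact h4
  obtain ⟨V, hV⟩ := h
  exact ⟨V, by rw [← hV]; ring⟩

theorem h1_latB_id2 (p : ℕ) [Fact p.Prime] :
    ∃ U W : Polynomial ℤ, (Polynomial.C (p : ℤ) : Polynomial ℤ)
      = (Polynomial.X - 1) ^ (p - 1) * U + (∑ i ∈ Finset.range p, Polynomial.X ^ i) * W := by
  have hp : p - 1 + 1 = p := Nat.sub_add_cancel (Fact.out : p.Prime).one_le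
  have hp0 : p ≠ 0 := (Fact.out : p.Prime).ne_zero
  have ha : (Polynomial.X - 1 : Polynomial ℤ) ^ (p - 1)
      ∣ ∏ k ∈ Finset.range (p - 1), ((Polynomial.X : Polynomial ℤ) ^ (k + 1) - 1) := by
    have h : ∏ _k ∈ Finset.range (p - 1), (Polynomial.X - 1 : Polynomial ℤ)
        ∣ ∏ k ∈ Finset.range (p - 1), ((Polynomial.X : Polynomial ℤ) ^ (k + 1) - 1) := by
      apply Finset.prod_dvd_prod_of_dvd
      intro k _
      have := sub_dvd_pow_sub_pow (Polynomial.X : Polynomial ℤ) 1 (k + 1)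
      simpa using this
    simpa [Finset.prod_const] using h
  have hb : (∑ i ∈ Finset.range p, Polynomial.X ^ i : Polynomial ℤ)
      ∣ (-1) ^ (p - 1) * ∏ k ∈ Finset.range (p - 1), ((Polynomial.X : Polynomial ℤ) ^ (k + 1) - 1)
        - Polynomial.C (p : ℤ) := by
    rw [← Polynomial.cyclotomic_prime ℤ p]
    have hμ : IsPrimitiveRoot (Complex.exp (2 * Real.pi * Complex.I / p)) p :=
      Complex.isPrimitiveRoot_exp p hp0
    rw [Polynomial.cyclotomic_eq_minpoly hμ (Nat.pos_of_ne_zero hp0)]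
    apply minpoly.isIntegrallyClosed_dvd (hμ.isIntegral (Nat.pos_of_ne_zero hp0))
    have hμ' : IsPrimitiveRoot (Complex.exp (2 * Real.pi * Complex.I / p)) (p - 1 + 1) := by
      rwa [hp]
    have h := hμ'.prod_pow_sub_one_eq_order
    simp only [map_sub, map_mul, map_pow, map_neg, map_one, map_prod, Polynomial.aeval_X,
      Polynomial.aeval_C]
    rw [h]
    have h5 : ((p - 1 : ℕ) : ℂ) + 1 = (p : ℂ) := by
      exact_mod_cast congrArg (Nat.cast : ℕ → ℂ) hp
    rw [h5]
    simp
  obtain ⟨U₀, hU⟩ := ha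
  obtain ⟨W₀, hW⟩ := hb
  refine ⟨(-1) ^ (p - 1) * U₀, -W₀, ?_⟩
  linear_combination (-1) ^ (p - 1) * hU - hW

theorem h1_latB_det_cyclo {X : Type*} [AddCommGroup X] [Module.Finite ℤ X] (p : ℕ) [Fact p.Prime]
    (s : Module.End ℤ X) (hN : ∑ i ∈ Finset.range p, s ^ i = 0) (c : ℕ)
    (hc : Module.finrank ℤ X = c * (p - 1)) :
    Function.Injective (h1_latB_barHom X (s - 1)) ∧
      (LinearMap.det (h1_latB_barHom X (s - 1))).natAbs = p ^ c := by
  have hp2 : 2 ≤ p := (Fact.out : p.Prime).two_le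
  have hp1 : p - 1 ≠ 0 := by omega
  have hp0 : p ≠ 0 := by omega
  have hfree : Module.Free ℤ (X ⧸ Submodule.torsion ℤ X) := inferInstance
  have hfin : Module.Finite ℤ (X ⧸ Submodule.torsion ℤ X) := inferInstance
  have hrank : Module.finrank ℤ (X ⧸ Submodule.torsion ℤ X) = c * (p - 1) := by
    have h1 := Submodule.finrank_quotient_add_finrank (Submodule.torsion ℤ X)
    have h2 := (Submodule.torsion_isTorsion (R := ℤ) (M := X)).finrank_eq_zero
    omega
  have hsum : ∑ i ∈ Finset.range p, (h1_latB_barHom X s) ^ i = 0 := by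
    simp only [← map_pow, ← map_sum, hN, map_zero]
  have hsub : h1_latB_barHom X (s - 1) = h1_latB_barHom X s - 1 := by rw [map_sub, map_one]
  obtain ⟨V, hV⟩ := h1_latB_id1 p
  obtain ⟨U, W, hUW⟩ := h1_latB_id2 p
  have e1 := congrArg (Polynomial.aeval (h1_latB_barHom X s)) hV
  have e2 := congrArg (Polynomial.aeval (h1_latB_barHom X s)) hUW
  simp only [map_pow, map_sub, map_add, map_mul, map_sum, map_one, Polynomial.aeval_X,
    Polynomial.aeval_C, hsum, zero_add, zero_mul, add_zero, Algebra.algebraMap_eq_smul_one,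
    smul_mul_assoc, one_mul] at e1 e2
  have d1 := congrArg LinearMap.det e1
  have d2 := congrArg LinearMap.det e2
  rw [map_pow, LinearMap.det_smul, hrank] at d1
  rw [LinearMap.det_smul, map_one, mul_one, map_mul, map_pow, hrank] at d2
  rw [hsub]
  set d := LinearMap.det (h1_latB_barHom X s - 1) with hd
  set g := LinearMap.det (Polynomial.aeval (h1_latB_barHom X s) V) with hg
  set h := LinearMap.det (Polynomial.aeval (h1_latB_barHom X s) U) with hh
  have hpn : ((p : ℤ) ^ (c * (p - 1))) ≠ 0 := pow_ne_zero _ (by exact_mod_cast hp0)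
  have hgh : g * h = 1 := by
    have : (p : ℤ) ^ (c * (p - 1)) * (g * h) = (p : ℤ) ^ (c * (p - 1)) * 1 := by
      rw [mul_one, ← mul_assoc, ← d1, ← d2]
    exact mul_left_cancel₀ hpn this
  have hg1 : g.natAbs = 1 := by
    have := congrArg Int.natAbs hgh
    rw [Int.natAbs_mul] at this
    exact Nat.eq_one_of_mul_eq_one_right this
  have hdn : d.natAbs ^ (p - 1) = (p ^ c) ^ (p - 1) := by
    have := congrArg Int.natAbs d1
    rw [Int.natAbs_pow, Int.natAbs_mul, Int.natAbs_pow, Int.natAbs_natCast, hg1, mul_one] at this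
    rw [this, pow_mul]
  have hdc : d.natAbs = p ^ c := Nat.pow_left_injective hp1 hdn
  refine ⟨?_, hdc⟩
  have hd0 : d ≠ 0 := by
    intro h0
    rw [h0] at hdc
    simp at hdc
    exact absurd hdc.symm (pow_ne_zero _ hp0)
  rw [← LinearMap.ker_eq_bot]
  by_contra hker
  exact hd0 ((LinearMap.det_eq_zero_iff_ker_ne_bot).mpr hker)

end Fermat.Agent.S14
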