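import Mathlib
import Fermat.Agent.S14.H1LatBDefs

set_option autoImplicit false

/-!
# P18 (S14), block H1, lattice lemma (second team): index of the image of an endomorphism

For a finitely generated abelian group `X` with torsion subgroup `T` and an endomorphism `f` of
`X` whose induced endomorphism `f̄` of `X ⧸ T` is injective, the kernel of `f` is finite and
`[X : f X] = |det f̄| * |ker f|` (`h1_latB_index_eq`).  In particular
`[X : n X] = n ^ rank X * |X[n]|` for `0 < n` (`h1_latB_index_smul`).
-/

namespace Fermat.Agent.S14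

/-- The torsion subgroup of a finitely generated abelian group is finite. -/
theorem h1_latBi_finite_torsion (X : Type*) [AddCommGroup X] [Module.Finite ℤ X] :
    Finite (Submodule.torsion ℤ X) :=
  Module.finite_of_fg_torsion _ (Submodule.torsion_isTorsion)

/-- If `f̄` is injective then the kernel of `f` is contained in the torsion subgroup. -/
theorem h1_latBi_ker_le_torsion {X : Type*} [AddCommGroup X] (f : Module.End ℤ X)
    (hinj : Function.Injective (h1_latB_barHom X f)) :
    LinearMap.ker f ≤ Submodule.torsion ℤ X := by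
  intro x hx
  rw [LinearMap.mem_ker] at hx
  have h1 : h1_latB_barHom X f (Submodule.Quotient.mk x) = h1_latB_barHom X f 0 := by
    rw [h1_latB_barHom_mk, hx, map_zero, Submodule.Quotient.mk_zero]
  exact (Submodule.Quotient.mk_eq_zero _).mp (hinj h1)

/-- An endomorphism preserves the torsion subgroup. -/
theorem h1_latBi_map_torsion {X : Type*} [AddCommGroup X] (f : Module.End ℤ X) (x : X)
    (hx : x ∈ Submodule.torsion ℤ X) : f x ∈ Submodule.torsion ℤ X := by
  obtain ⟨a, ha⟩ := (Submodule.mem_torsion_iff x).mp hx
  refine (Submodule.mem_torsion_iff _).mpr ⟨a, ?_⟩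
  rw [Submonoid.smul_def, ← map_smul, ← Submonoid.smul_def, ha, map_zero]

/-- If `f̄` is injective and `f x` is torsion then `x` is torsion. -/
theorem h1_latBi_mem_torsion_of_map {X : Type*} [AddCommGroup X] (f : Module.End ℤ X)
    (hinj : Function.Injective (h1_latB_barHom X f)) (x : X)
    (hx : f x ∈ Submodule.torsion ℤ X) : x ∈ Submodule.torsion ℤ X := by
  have h1 : h1_latB_barHom X f (Submodule.Quotient.mk x) = h1_latB_barHom X f 0 := by
    rw [h1_latB_barHom_mk, map_zero]
    exact (Submodule.Quotient.mk_eq_zero _).mpr hx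
  exact (Submodule.Quotient.mk_eq_zero _).mp (hinj h1)

/-- For an injective endomorphism of a free `ℤ`-module of finite rank, the absolute value of the
determinant is the index of the image. -/
theorem h1_latBi_natAbs_det {M : Type*} [AddCommGroup M] [Module.Free ℤ M] [Module.Finite ℤ M]
    (g : Module.End ℤ M) (hg : Function.Injective g) :
    (LinearMap.det g).natAbs = (LinearMap.range g).toAddSubgroup.index := by
  have h := Submodule.natAbs_det_equiv (LinearMap.range g) (LinearEquiv.ofInjective g hg)
  have h2 : (LinearMap.range g).subtype ∘ₗ AddMonoidHom.toIntLinearMap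
      ((LinearEquiv.ofInjective g hg : M ≃ₗ[ℤ] LinearMap.range g) : M →+ LinearMap.range g)
        = g := by
    ext x
    rfl
  rw [h2] at h
  rw [h]
  rfl

/-- The index of `T + f X` is the absolute value of the determinant of `f̄`. -/
theorem h1_latBi_index_sup {X : Type*} [AddCommGroup X] [Module.Finite ℤ X] (f : Module.End ℤ X)
    (hinj : Function.Injective (h1_latB_barHom X f)) :
    ((Submodule.torsion ℤ X).toAddSubgroup ⊔ (LinearMap.range f).toAddSubgroup).index =
      (LinearMap.det (h1_latB_barHom X f)).natAbs := by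
  rw [h1_latBi_natAbs_det _ hinj]
  have hsurj : Function.Surjective ((Submodule.torsion ℤ X).mkQ.toAddMonoidHom) :=
    Submodule.mkQ_surjective _
  rw [← AddSubgroup.index_comap_of_surjective _ hsurj]
  congr 1
  ext x
  rw [AddSubgroup.mem_sup, AddSubgroup.mem_comap]
  constructor
  · rintro ⟨t, ht, y, ⟨z, rfl⟩, rfl⟩
    refine ⟨Submodule.Quotient.mk z, ?_⟩
    rw [h1_latB_barHom_mk]
    symm
    refine (Submodule.Quotient.eq _).mpr ?_
    rw [add_sub_cancel_right]
    exact ht
  · rintro ⟨y, hy⟩
    obtain ⟨z, rfl⟩ := Submodule.mkQ_surjective _ y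
    refine ⟨x - f z, ?_, f z, ⟨z, rfl⟩, sub_add_cancel _ _⟩
    exact (Submodule.Quotient.eq _).mp hy.symm

/-- For an endomorphism of a finite abelian group, the index of the image is the order of the
kernel. -/
theorem h1_latBi_index_range {G : Type*} [AddCommGroup G] [Finite G] (g : G →+ G) :
    g.range.index = Nat.card g.ker := by
  have h1 := AddSubgroup.card_mul_index g.ker
  have h2 := AddSubgroup.card_mul_index g.range
  rw [AddSubgroup.index_ker] at h1
  have h3 : 0 < Nat.card g.range := Nat.card_pos
  have h4 : Nat.card g.range * g.range.index = Nat.card g.range * Nat.card g.ker := by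
    rw [h2, ← h1, mul_comm]
  exact Nat.eq_of_mul_eq_mul_left h3 h4

/-- The relative index of `f X` in `T` is the order of the kernel of `f`. -/
theorem h1_latBi_relIndex {X : Type*} [AddCommGroup X] [Module.Finite ℤ X] (f : Module.End ℤ X)
    (hinj : Function.Injective (h1_latB_barHom X f)) :
    (LinearMap.range f).toAddSubgroup.relIndex (Submodule.torsion ℤ X).toAddSubgroup =
      Nat.card (LinearMap.ker f) := by
  have : Finite (Submodule.torsion ℤ X).toAddSubgroup := h1_latBi_finite_torsion X
  let fT : (Submodule.torsion ℤ X).toAddSubgroup →+ (Submodule.torsion ℤ X).toAddSubgroup :=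
    { toFun := fun x => ⟨f x.1, h1_latBi_map_torsion f x.1 x.2⟩
      map_zero' := by
        ext
        simp
      map_add' := by
        intro a b
        ext
        simp }
  have hfT : ∀ x, (fT x).1 = f x.1 := fun x => rfl
  have hrange : (LinearMap.range f).toAddSubgroup.addSubgroupOf
      (Submodule.torsion ℤ X).toAddSubgroup = fT.range := by
    ext y
    rw [AddSubgroup.mem_addSubgroupOf, AddMonoidHom.mem_range]
    constructor
    · rintro ⟨x, hx⟩
      have hx' : x ∈ Submodule.torsion ℤ X := by
        refine h1_latBi_mem_torsion_of_map f hinj x ?_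
        rw [hx]
        exact y.2
      exact ⟨⟨x, hx'⟩, Subtype.ext hx⟩
    · rintro ⟨x, hx⟩
      exact ⟨x.1, congrArg Subtype.val hx⟩
  rw [AddSubgroup.relIndex, hrange, h1_latBi_index_range]
  refine Nat.card_congr ?_
  exact
    { toFun := fun x => ⟨x.1.1, by
        have h := x.2
        rw [AddMonoidHom.mem_ker] at h
        have h' := congrArg Subtype.val h
        rw [hfT] at h'
        exact h'⟩
      invFun := fun x => ⟨⟨x.1, h1_latBi_ker_le_torsion f hinj x.2⟩, by
        rw [AddMonoidHom.mem_ker]
        refine Subtype.ext ?_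
        rw [hfT]
        exact x.2⟩
      left_inv := fun x => rfl
      right_inv := fun x => rfl }

/-- If `f̄` is injective then the kernel of `f` is finite and `[X : f X] = |det f̄| * |ker f|`. -/
theorem h1_latB_index_eq {X : Type*} [AddCommGroup X] [Module.Finite ℤ X] (f : Module.End ℤ X)
    (hinj : Function.Injective (h1_latB_barHom X f)) :
    Nat.card (LinearMap.ker f) ≠ 0 ∧
    (LinearMap.range f).toAddSubgroup.index =
      (LinearMap.det (h1_latB_barHom X f)).natAbs * Nat.card (LinearMap.ker f) := by
  constructor
  · have : Finite (Submodule.torsion ℤ X) := h1_latBi_finite_torsion X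
    have : Finite (LinearMap.ker f) :=
      Finite.of_injective (fun x : LinearMap.ker f =>
        (⟨x.1, h1_latBi_ker_le_torsion f hinj x.2⟩ : Submodule.torsion ℤ X))
        (fun a b h => Subtype.ext
          (congrArg (fun t : Submodule.torsion ℤ X => (t : X)) h))
    exact Nat.card_pos.ne'
  · rw [← AddSubgroup.relIndex_mul_index
      (le_sup_right : (LinearMap.range f).toAddSubgroup ≤
        (Submodule.torsion ℤ X).toAddSubgroup ⊔ (LinearMap.range f).toAddSubgroup),
      AddSubgroup.relIndex_sup_right, h1_latBi_index_sup f hinj, h1_latBi_relIndex f hinj,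
      mul_comm]

/-- For `0 < n`, the `n`-torsion of `X` is finite and `[X : n X] = n ^ rank X * |X[n]|`. -/
theorem h1_latB_index_smul {X : Type*} [AddCommGroup X] [Module.Finite ℤ X] (n : ℕ) (hn : 0 < n) :
    Nat.card (LinearMap.ker ((n : ℤ) • (1 : Module.End ℤ X))) ≠ 0 ∧
    (LinearMap.range ((n : ℤ) • (1 : Module.End ℤ X))).toAddSubgroup.index
      = n ^ Module.finrank ℤ X * Nat.card (LinearMap.ker ((n : ℤ) • (1 : Module.End ℤ X))) := by
  have hbar : h1_latB_barHom X ((n : ℤ) • (1 : Module.End ℤ X)) =
      (n : ℤ) • (1 : Module.End ℤ (X ⧸ Submodule.torsion ℤ X)) := by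
    rw [map_zsmul, map_one]
  have hinj : Function.Injective (h1_latB_barHom X ((n : ℤ) • (1 : Module.End ℤ X))) := by
    rw [hbar]
    intro a b hab
    have hab' : (n : ℤ) • a = (n : ℤ) • b := hab
    exact smul_right_injective _ (Int.natCast_ne_zero.mpr hn.ne') hab'
  have hrank : Module.finrank ℤ (X ⧸ Submodule.torsion ℤ X) = Module.finrank ℤ X := by
    have h := Submodule.finrank_quotient_add_finrank (Submodule.torsion ℤ X)
    rw [(Submodule.torsion_isTorsion (R := ℤ) (M := X)).finrank_eq_zero, add_zero] at h
    exact h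
  have hdet : (LinearMap.det (h1_latB_barHom X ((n : ℤ) • (1 : Module.End ℤ X)))).natAbs =
      n ^ Module.finrank ℤ X := by
    rw [hbar, LinearMap.det_smul, hrank, map_one, mul_one, Int.natAbs_pow, Int.natAbs_natCast]
  have h := h1_latB_index_eq ((n : ℤ) • (1 : Module.End ℤ X)) hinj
  rw [hdet] at h
  exact h

end Fermat.Agent.S14
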