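import Mathlib
import Fermat.Agent.S14.H1LatBDefs
import Fermat.Agent.S14.H1LatBIndex
import Fermat.Agent.S14.H1LatBCyclo

set_option autoImplicit false

/-!
# P18 (S14), block H1, lattice lemma (second team): assembly

For a finitely generated abelian group `Λ` with an endomorphism `s` such that `s ^ p = 1`,
writing `D = s - 1`, `N = ∑ i < p, s ^ i`, `a = rank (ker D)` and `rank Λ = a + b (p - 1)`, we
prove `[ker N : D Λ] * p ^ a = p ^ b * [ker D : N Λ]` (both indices being finite).
-/

namespace Fermat.Agent.S14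

/-- If `∑ i < p, s ^ i = 0` on `X` and `rank X = c (p - 1)`, then `ker (s - 1)` is finite and
`[X : (s - 1) X] = p ^ c * |ker (s - 1)|`. -/
theorem h1_latB_index_cyclo {X : Type*} [AddCommGroup X] [Module.Finite ℤ X] (p : ℕ)
    [Fact p.Prime] (s : Module.End ℤ X) (hN : ∑ i ∈ Finset.range p, s ^ i = 0) (c : ℕ)
    (hc : Module.finrank ℤ X = c * (p - 1)) :
    Nat.card (LinearMap.ker (s - 1)) ≠ 0 ∧
    (LinearMap.range (s - 1)).toAddSubgroup.index = p ^ c * Nat.card (LinearMap.ker (s - 1)) := by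
  obtain ⟨hinj, hdet⟩ := h1_latB_det_cyclo p s hN c hc
  have h := h1_latB_index_eq (s - 1) hinj
  rw [hdet] at h
  exact h

/-- Transfer lemma, range part: the image of the restriction of `g` to a stable submodule `Y`,
seen inside `Y`. -/
theorem h1_latBm_restrict_range {Λ : Type*} [AddCommGroup Λ] (g : Module.End ℤ Λ)
    (Y : Submodule ℤ Λ) (h : ∀ x ∈ Y, g x ∈ Y) :
    (LinearMap.range (g.restrict h)).toAddSubgroup =
      (Y.toAddSubgroup.map g.toAddMonoidHom).addSubgroupOf Y.toAddSubgroup := by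
  ext ⟨y, hy⟩
  rw [AddSubgroup.mem_addSubgroupOf, Submodule.mem_toAddSubgroup, LinearMap.mem_range,
    AddSubgroup.mem_map]
  constructor
  · rintro ⟨⟨x, hx⟩, hxy⟩
    exact ⟨x, hx, congrArg Subtype.val hxy⟩
  · rintro ⟨x, hx, hxy⟩
    exact ⟨⟨x, hx⟩, Subtype.ext hxy⟩

/-- Transfer lemma, index part. -/
theorem h1_latBm_restrict_index {Λ : Type*} [AddCommGroup Λ] (g : Module.End ℤ Λ)
    (Y : Submodule ℤ Λ) (h : ∀ x ∈ Y, g x ∈ Y) :
    (LinearMap.range (g.restrict h)).toAddSubgroup.index =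
      (Y.toAddSubgroup.map g.toAddMonoidHom).relIndex Y.toAddSubgroup := by
  rw [h1_latBm_restrict_range g Y h]
  rfl

/-- Transfer lemma, kernel part. -/
theorem h1_latBm_restrict_card_ker {Λ : Type*} [AddCommGroup Λ] (g : Module.End ℤ Λ)
    (Y : Submodule ℤ Λ) (h : ∀ x ∈ Y, g x ∈ Y) :
    Nat.card (LinearMap.ker (g.restrict h)) = Nat.card ↥(LinearMap.ker g ⊓ Y) := by
  have h1 : ∀ x : LinearMap.ker (g.restrict h), (x.1.1 : Λ) ∈ LinearMap.ker g ⊓ Y := by
    intro x
    refine ⟨?_, x.1.2⟩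
    have hx := x.2
    rw [LinearMap.mem_ker] at hx
    have hx' := congrArg Subtype.val hx
    rw [LinearMap.coe_restrict_apply] at hx'
    exact LinearMap.mem_ker.mpr hx'
  have h2 : ∀ x : ↥(LinearMap.ker g ⊓ Y),
      (⟨x.1, x.2.2⟩ : Y) ∈ LinearMap.ker (g.restrict h) := by
    intro x
    rw [LinearMap.mem_ker]
    apply Subtype.ext
    rw [LinearMap.coe_restrict_apply]
    exact LinearMap.mem_ker.mp x.2.1
  exact Nat.card_congr
    { toFun := fun x => ⟨x.1.1, h1 x⟩
      invFun := fun x => ⟨⟨x.1, x.2.2⟩, h2 x⟩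
      left_inv := fun x => rfl
      right_inv := fun x => rfl }

/-- Bookkeeping lemma. -/
theorem h1_latBm_map_relIndex {Λ : Type*} [AddCommGroup Λ] (g : Λ →+ Λ) (Y Z : AddSubgroup Λ)
    (h : g.range ≤ Z) :
    (Y.map g).relIndex Z = (Y ⊔ g.ker).index * g.range.relIndex Z := by
  rw [← AddSubgroup.relIndex_mul_relIndex (H := Y.map g) (K := g.range) (L := Z)
    (AddSubgroup.map_le_range g Y) h, ← AddSubgroup.index_comap, AddSubgroup.comap_map_eq]

/-- Transfer and bookkeeping combined. -/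
theorem h1_latBm_restrict_index_eq {Λ : Type*} [AddCommGroup Λ] (g : Module.End ℤ Λ)
    (Y : Submodule ℤ Λ) (h : ∀ x ∈ Y, g x ∈ Y) (hr : LinearMap.range g ≤ Y) :
    (LinearMap.range (g.restrict h)).toAddSubgroup.index =
      (Y.toAddSubgroup ⊔ (LinearMap.ker g).toAddSubgroup).index *
        (LinearMap.range g).toAddSubgroup.relIndex Y.toAddSubgroup := by
  rw [h1_latBm_restrict_index g Y h, h1_latBm_map_relIndex g.toAddMonoidHom Y.toAddSubgroup
    Y.toAddSubgroup (by rw [← LinearMap.range_toAddSubgroup]; exact hr)]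
  rfl

/-- On `ker (s - 1)`, every power of `s` acts trivially. -/
theorem h1_latBm_pow_apply_of_mem {Λ : Type*} [AddCommGroup Λ] (s : Module.End ℤ Λ) (x : Λ)
    (hx : x ∈ LinearMap.ker (s - 1)) (i : ℕ) : (s ^ i) x = x := by
  have hsx : s x = x := by
    rw [LinearMap.mem_ker, LinearMap.sub_apply, Module.End.one_apply, sub_eq_zero] at hx
    exact hx
  induction i with
  | zero => rw [pow_zero, Module.End.one_apply]
  | succ i ih => rw [pow_succ, Module.End.mul_apply, hsx, ih]

/-- On `ker (s - 1)`, the norm `∑ i < p, s ^ i` acts as multiplication by `p`. -/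
theorem h1_latBm_norm_apply_of_mem {Λ : Type*} [AddCommGroup Λ] (p : ℕ) (s : Module.End ℤ Λ)
    (x : Λ) (hx : x ∈ LinearMap.ker (s - 1)) :
    (∑ i ∈ Finset.range p, s ^ i) x = (p : ℤ) • x := by
  rw [LinearMap.sum_apply, Finset.sum_congr rfl (fun i _ => h1_latBm_pow_apply_of_mem s x hx i),
    Finset.sum_const, Finset.card_range, natCast_zsmul]

/-- The final arithmetic step. -/
theorem h1_latBm_arith (p a b m t u v : ℕ) (hp : 0 < p) (ht : t ≠ 0)
    (hu : m * u = p ^ a * t) (hv : m * v = p ^ b * t) :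
    v ≠ 0 ∧ u ≠ 0 ∧ v * p ^ a = p ^ b * u := by
  have hpa : p ^ a ≠ 0 := (pow_pos hp a).ne'
  have hpb : p ^ b ≠ 0 := (pow_pos hp b).ne'
  have hm : m ≠ 0 := by
    rintro rfl
    rw [zero_mul] at hu
    exact mul_ne_zero hpa ht hu.symm
  have hv0 : v ≠ 0 := by
    rintro rfl
    rw [mul_zero] at hv
    exact mul_ne_zero hpb ht hv.symm
  have hu0 : u ≠ 0 := by
    rintro rfl
    rw [mul_zero] at hu
    exact mul_ne_zero hpa ht hu.symm
  refine ⟨hv0, hu0, ?_⟩
  have hmt : 0 < m * t := Nat.pos_of_ne_zero (mul_ne_zero hm ht)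
  apply Nat.eq_of_mul_eq_mul_right hmt
  calc v * p ^ a * (m * t) = (m * v) * (p ^ a * t) := by ring
    _ = (p ^ b * t) * (m * u) := by rw [hv, hu]
    _ = p ^ b * u * (m * t) := by ring

/-- The lattice lemma: for a finitely generated abelian group `Λ` with an endomorphism `s` such
that `s ^ p = 1`, with `D = s - 1`, `N = ∑ i < p, s ^ i`, `a = rank (ker D)` and
`rank Λ = a + b (p - 1)`, both `[ker N : D Λ]` and `[ker D : N Λ]` are finite and
`[ker N : D Λ] * p ^ a = p ^ b * [ker D : N Λ]`. -/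
theorem h1_lattice_B {Λ : Type*} [AddCommGroup Λ] [Module.Finite ℤ Λ] (p : ℕ) [Fact p.Prime]
    (s : Module.End ℤ Λ) (hs : s ^ p = 1) (a b : ℕ)
    (ha : Module.finrank ℤ (LinearMap.ker (s - 1)) = a)
    (hb : Module.finrank ℤ Λ = a + b * (p - 1)) :
    (LinearMap.range (s - 1)).toAddSubgroup.relIndex
        (LinearMap.ker (∑ i ∈ Finset.range p, s ^ i)).toAddSubgroup ≠ 0 ∧
    (LinearMap.range (∑ i ∈ Finset.range p, s ^ i)).toAddSubgroup.relIndex
        (LinearMap.ker (s - 1)).toAddSubgroup ≠ 0 ∧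
    (LinearMap.range (s - 1)).toAddSubgroup.relIndex
        (LinearMap.ker (∑ i ∈ Finset.range p, s ^ i)).toAddSubgroup * p ^ a
      = p ^ b * (LinearMap.range (∑ i ∈ Finset.range p, s ^ i)).toAddSubgroup.relIndex
        (LinearMap.ker (s - 1)).toAddSubgroup := by
  have hp : 0 < p := (Fact.out : p.Prime).pos
  -- notation
  set D : Module.End ℤ Λ := s - 1 with hD
  set N : Module.End ℤ Λ := ∑ i ∈ Finset.range p, s ^ i with hN
  -- (0) the ring identities and the stability statements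
  have hND : N * D = 0 := by rw [hN, hD, geom_sum_mul, hs, sub_self]
  have hDN : D * N = 0 := by rw [hN, hD, mul_geom_sum, hs, sub_self]
  have hDK : LinearMap.range D ≤ LinearMap.ker N := by
    rintro _ ⟨x, rfl⟩
    rw [LinearMap.mem_ker, ← Module.End.mul_apply, hND, LinearMap.zero_apply]
  have hNF : LinearMap.range N ≤ LinearMap.ker D := by
    rintro _ ⟨x, rfl⟩
    rw [LinearMap.mem_ker, ← Module.End.mul_apply, hDN, LinearMap.zero_apply]
  have hNF' : ∀ x ∈ LinearMap.ker D, N x ∈ LinearMap.ker D := fun x _ => hNF ⟨x, rfl⟩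
  have hDK' : ∀ x ∈ LinearMap.ker N, D x ∈ LinearMap.ker N := fun x _ => hDK ⟨x, rfl⟩
  have hsK : ∀ x ∈ LinearMap.ker N, s x ∈ LinearMap.ker N := by
    intro x hx
    have hsx : s x = D x + x := by
      rw [hD, LinearMap.sub_apply, Module.End.one_apply, sub_add_cancel]
    rw [hsx]
    exact add_mem (hDK' x hx) hx
  -- (4) on `F = ker D`, the norm is multiplication by `p`
  have hNFres : N.restrict hNF' = (p : ℤ) • (1 : Module.End ℤ (LinearMap.ker D)) := by
    ext x
    rw [LinearMap.coe_restrict_apply, LinearMap.smul_apply, Module.End.one_apply,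
      Submodule.coe_smul]
    exact h1_latBm_norm_apply_of_mem p s x.1 x.2
  obtain ⟨hF1, hF2⟩ := h1_latB_index_smul (X := LinearMap.ker D) p hp
  rw [← hNFres, ha, h1_latBm_restrict_card_ker N _ hNF',
    h1_latBm_restrict_index_eq N _ hNF' hNF] at hF2
  rw [← hNFres, h1_latBm_restrict_card_ker N _ hNF'] at hF1
  -- (5) the rank of `K = ker N`
  have hrankK : Module.finrank ℤ (LinearMap.ker N) = b * (p - 1) := by
    have hN'mem : ∀ x, N x ∈ LinearMap.ker D := fun x => hNF ⟨x, rfl⟩
    have hker : LinearMap.ker (N.codRestrict (LinearMap.ker D) hN'mem) = LinearMap.ker N :=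
      LinearMap.ker_codRestrict _ _ _
    have htors : Module.IsTorsion ℤ
        (↥(LinearMap.ker D) ⧸ LinearMap.range (N.codRestrict (LinearMap.ker D) hN'mem)) := by
      intro y
      obtain ⟨y, rfl⟩ := Submodule.Quotient.mk_surjective _ y
      refine ⟨⟨(p : ℤ), mem_nonZeroDivisors_of_ne_zero (by exact_mod_cast hp.ne')⟩, ?_⟩
      rw [Submonoid.mk_smul, ← Submodule.Quotient.mk_smul, Submodule.Quotient.mk_eq_zero]
      refine ⟨y.1, ?_⟩
      apply Subtype.ext
      rw [LinearMap.codRestrict_apply, Submodule.coe_smul]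
      exact h1_latBm_norm_apply_of_mem p s y.1 y.2
    have h1 := Submodule.finrank_quotient_add_finrank
      (LinearMap.range (N.codRestrict (LinearMap.ker D) hN'mem))
    rw [htors.finrank_eq_zero, zero_add, ha] at h1
    have h2 := Submodule.finrank_quotient_add_finrank
      (LinearMap.ker (N.codRestrict (LinearMap.ker D) hN'mem))
    rw [LinearEquiv.finrank_eq (N.codRestrict (LinearMap.ker D) hN'mem).quotKerEquivRange, h1,
      hker, hb] at h2
    exact Nat.add_left_cancel h2
  -- (6) on `K = ker N`, the norm of the restriction of `s` vanishes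
  have hsum : ∑ i ∈ Finset.range p, (s.restrict hsK) ^ i = 0 := by
    ext x
    have hpow : ∀ i ∈ Finset.range p, (((s.restrict hsK) ^ i) x : Λ) = (s ^ i) x.1 := by
      intro i _
      rw [Module.End.pow_restrict, LinearMap.coe_restrict_apply]
    rw [LinearMap.sum_apply, LinearMap.zero_apply, AddSubmonoidClass.coe_finsetSum,
      Finset.sum_congr rfl hpow, ← LinearMap.sum_apply]
    exact LinearMap.mem_ker.mp x.2
  have hDres : s.restrict hsK - 1 = D.restrict hDK' := by
    ext x
    rw [LinearMap.sub_apply, Module.End.one_apply, LinearMap.coe_restrict_apply,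
      AddSubgroupClass.coe_sub, LinearMap.coe_restrict_apply, hD, LinearMap.sub_apply,
      Module.End.one_apply]
  obtain ⟨hK1, hK2⟩ := h1_latB_index_cyclo (X := LinearMap.ker N) p (s.restrict hsK) hsum b hrankK
  rw [hDres, h1_latBm_restrict_card_ker D _ hDK',
    h1_latBm_restrict_index_eq D _ hDK' hDK] at hK2
  -- (7) conclusion
  rw [sup_comm (LinearMap.ker N).toAddSubgroup (LinearMap.ker D).toAddSubgroup,
    inf_comm (LinearMap.ker D) (LinearMap.ker N)] at hK2
  exact h1_latBm_arith p a b _ _ _ _ hp hF1 hF2 hK2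

end Fermat.Agent.S14
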