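import Mathlib
import Fermat.Agent.S14.Defs
import Fermat.Agent.S14.H1Defs
import Fermat.Agent.S14.H1Defs2
import Fermat.Agent.S14.H1Fiber
import Fermat.Agent.S14.H1SplitB
import Fermat.Agent.S14.H1Norm

/-!
# P18 (S14), block H1 (route A, S-units): uniform local norm group at a nonsplit prime
(second team)

For a nonsplit prime `v` of `F` (a unique prime `w` of `M` above it) in a Galois extension `M/F`
of prime degree `p`, unramified outside `𝔪` (with `𝔪` prime to `p`), we produce a subgroup `H` of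
`Fˣ` containing all norms from `Mˣ`, such that

* if `v ∤ 𝔪` then `H = {u | p ∣ ord_v u}`;
* if `v ∣ 𝔪` then `H` contains the elements `b / a` with `a ≡ b mod v` prime to `v`, and misses
  all elements congruent modulo `v ^ 2` to some fixed `z₀ ∉ v ^ 2`.

Inert case (`h1_loc_group_B`, first branch): `H = {u | p ∣ ord_v u}`.

Ramified case (`h1_locB_ramified_group`, which has the statement of the module H1LocRam and is
proved here independently): `H` is the subgroup generated by the norms and by the quotients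
`b / a` with `a ≡ b mod v`.  If a `v`-unit `z` lies in `H`, say `z = N(y) * (b / a)`, then
`ord_w y = 0`, so `y = s / t` with `s`, `t` integers outside `w`; as the inertia group is the
whole Galois group and the residue degree is one, `N(s) ≡ c ^ p mod v` for an integer `c` of `F`,
so the class of `z` modulo `v` is a `p`-th power.  Since `p ∉ v` and `F` contains a primitive
`p`-th root of unity, the `p`-th power map on the residue field is not injective on units, hence
not surjective: some residue class `z₀` is missed by `H`.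
-/

set_option autoImplicit false

namespace Fermat.Agent.S14

open NumberField IsDedekindDomain nonZeroDivisors

/-- `k ≤ ord_v J` iff `J ⊆ v ^ k`, for a nonzero ideal `J`. -/
theorem h1_locB_le_cnt_iff (K : Type*) [Field K] [NumberField K] (v : HeightOneSpectrum (𝓞 K))
    (J : Ideal (𝓞 K)) (hJ : J ≠ ⊥) (k : ℕ) : (k : ℤ) ≤ h1_cnt K v J ↔ J ≤ v.asIdeal ^ k := by
  classical
  unfold h1_cnt
  rw [FractionalIdeal.count_coe K v hJ, Nat.cast_le,
    ← Associates.prime_pow_dvd_iff_le (Associates.mk_ne_zero.mpr hJ) v.associates_irreducible,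
    ← Associates.mk_pow, Associates.mk_le_mk_iff_dvd, Ideal.dvd_iff_le]

/-- The order at `v` of a nonzero integer `a` is `≥ k` iff `a ∈ v ^ k`. -/
theorem h1_locB_le_ord_iff (K : Type*) [Field K] [NumberField K] (v : HeightOneSpectrum (𝓞 K))
    (u : Kˣ) (a : 𝓞 K) (h : (u : K) = a) (k : ℕ) :
    (k : ℤ) ≤ h1_ord K v u ↔ a ∈ v.asIdeal ^ k := by
  have ha : a ≠ 0 := by
    rintro rfl
    exact u.ne_zero (by rw [h]; rfl)
  have hJ : Ideal.span {a} ≠ ⊥ := by
    rw [Ne, Ideal.span_singleton_eq_bot]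
    exact ha
  rw [h1_ord_eq_cnt K v u a h, h1_locB_le_cnt_iff K v _ hJ k, Ideal.span_singleton_le_iff_mem]

/-- The order at `v` of a nonzero integer is nonnegative. -/
theorem h1_locB_ord_nonneg (K : Type*) [Field K] [NumberField K] (v : HeightOneSpectrum (𝓞 K))
    (u : Kˣ) (a : 𝓞 K) (h : (u : K) = a) : 0 ≤ h1_ord K v u := by
  have h0 := (h1_locB_le_ord_iff K v u a h 0).mpr (by rw [pow_zero, Ideal.one_eq_top]; trivial)
  exact_mod_cast h0

/-- An integer outside `v` has order `0` at `v`. -/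
theorem h1_locB_ord_eq_zero (K : Type*) [Field K] [NumberField K] (v : HeightOneSpectrum (𝓞 K))
    (u : Kˣ) (a : 𝓞 K) (h : (u : K) = a) (ha : a ∉ v.asIdeal) : h1_ord K v u = 0 := by
  have h0 := h1_locB_ord_nonneg K v u a h
  have h1 : ¬ ((1 : ℕ) : ℤ) ≤ h1_ord K v u := by
    rw [h1_locB_le_ord_iff K v u a h 1, pow_one]
    exact ha
  push_cast at h1
  omega

/-- An integer in `v` but not in `v ^ 2` has order `1` at `v`. -/
theorem h1_locB_ord_eq_one (K : Type*) [Field K] [NumberField K] (v : HeightOneSpectrum (𝓞 K))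
    (u : Kˣ) (a : 𝓞 K) (h : (u : K) = a) (ha : a ∈ v.asIdeal) (ha2 : a ∉ v.asIdeal ^ 2) :
    h1_ord K v u = 1 := by
  have h1 : ((1 : ℕ) : ℤ) ≤ h1_ord K v u := by
    rw [h1_locB_le_ord_iff K v u a h 1, pow_one]
    exact ha
  have h2 : ¬ ((2 : ℕ) : ℤ) ≤ h1_ord K v u := by
    rw [h1_locB_le_ord_iff K v u a h 2]
    exact ha2
  push_cast at h1 h2
  omega

/-- The subgroup of `Kˣ` of elements whose order at `v` is divisible by `p`. -/
def h1_locB_ordSubgroup (K : Type*) [Field K] [NumberField K] (v : HeightOneSpectrum (𝓞 K))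
    (p : ℕ) : Subgroup Kˣ where
  carrier := {u | (p : ℤ) ∣ h1_ord K v u}
  mul_mem' {x y} hx hy := by
    show (p : ℤ) ∣ h1_ord K v (x * y)
    rw [h1_ord_mul]
    exact dvd_add hx hy
  one_mem' := by
    show (p : ℤ) ∣ h1_ord K v 1
    rw [h1_ord_one]
    exact dvd_zero _
  inv_mem' {x} hx := by
    show (p : ℤ) ∣ h1_ord K v x⁻¹
    rw [h1_ord_inv]
    exact (dvd_neg).mpr hx

theorem h1_locB_mem_ordSubgroup (K : Type*) [Field K] [NumberField K]
    (v : HeightOneSpectrum (𝓞 K)) (p : ℕ) (u : Kˣ) :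
    u ∈ h1_locB_ordSubgroup K v p ↔ (p : ℤ) ∣ h1_ord K v u :=
  Iff.rfl

/-- A quotient `b / a` of two integers outside `v` has order `0` at `v`. -/
theorem h1_locB_ord_quot_eq_zero (K : Type*) [Field K] [NumberField K]
    (v : HeightOneSpectrum (𝓞 K)) (u : Kˣ) (a b : 𝓞 K) (ha : a ∉ v.asIdeal)
    (hb : b ∉ v.asIdeal) (h : (u : K) * a = b) : h1_ord K v u = 0 := by
  have ha0 : (a : K) ≠ 0 := by
    intro h0
    apply ha
    have : a = 0 := by exact_mod_cast h0
    rw [this]
    exact zero_mem _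
  have hb0 : (b : K) ≠ 0 := by
    intro h0
    apply hb
    have : b = 0 := by exact_mod_cast h0
    rw [this]
    exact zero_mem _
  have hmul : u * Units.mk0 (a : K) ha0 = Units.mk0 (b : K) hb0 := Units.ext h
  have h1 := h1_ord_mul K v u (Units.mk0 (a : K) ha0)
  rw [hmul, h1_locB_ord_eq_zero K v (Units.mk0 (a : K) ha0) a rfl ha,
    h1_locB_ord_eq_zero K v (Units.mk0 (b : K) hb0) b rfl hb] at h1
  omega

/-- The valuation at `v` of a nonzero integer, in terms of the order of its ideal. -/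
theorem h1_locB_intValuation (K : Type*) [Field K] [NumberField K] (v : HeightOneSpectrum (𝓞 K))
    (a : 𝓞 K) (ha : a ≠ 0) :
    v.intValuation a = WithZero.exp (-(h1_cnt K v (Ideal.span {a}))) := by
  classical
  have hJ : Ideal.span {a} ≠ 0 := by
    rw [Ne, Ideal.zero_eq_bot, Ideal.span_singleton_eq_bot]
    exact ha
  rw [v.intValuation_if_neg ha, h1_cnt, FractionalIdeal.count_coe K v hJ]

/-- The valuation at `v` of `u : Kˣ` in terms of its order. -/
theorem h1_locB_valuation (K : Type*) [Field K] [NumberField K] (v : HeightOneSpectrum (𝓞 K))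
    (u : Kˣ) : v.valuation K (u : K) = WithZero.exp (-(h1_ord K v u)) := by
  obtain ⟨a, b, hb, hab⟩ := IsFractionRing.div_surjective (𝓞 K) (u : K)
  have hb0 : b ≠ 0 := nonZeroDivisors.ne_zero hb
  have hbK : algebraMap (𝓞 K) K b ≠ 0 := by
    rw [Ne, FaithfulSMul.algebraMap_eq_zero_iff]
    exact hb0
  have ha0 : a ≠ 0 := by
    rintro rfl
    rw [map_zero, zero_div] at hab
    exact u.ne_zero hab.symm
  have haK : algebraMap (𝓞 K) K a ≠ 0 := by
    rw [Ne, FaithfulSMul.algebraMap_eq_zero_iff]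
    exact ha0
  have hu : u = Units.mk0 _ haK / Units.mk0 _ hbK := by
    apply Units.ext
    rw [Units.val_div_eq_div_val, Units.val_mk0, Units.val_mk0, hab]
  have h1 : h1_ord K v u = h1_cnt K v (Ideal.span {a}) - h1_cnt K v (Ideal.span {b}) := by
    rw [hu, h1_ord_div, h1_ord_eq_cnt K v (Units.mk0 _ haK) a rfl,
      h1_ord_eq_cnt K v (Units.mk0 _ hbK) b rfl]
  rw [h1, ← hab, map_div₀, v.valuation_of_algebraMap, v.valuation_of_algebraMap,
    h1_locB_intValuation K v a ha0, h1_locB_intValuation K v b hb0, neg_sub, ← WithZero.exp_sub]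
  congr 1
  ring

/-- An element of order `0` at `v` is a quotient of two integers outside `v`. -/
theorem h1_locB_exists_quot (K : Type*) [Field K] [NumberField K] (v : HeightOneSpectrum (𝓞 K))
    (y : Kˣ) (hy : h1_ord K v y = 0) :
    ∃ s t : 𝓞 K, s ∉ v.asIdeal ∧ t ∉ v.asIdeal ∧ (y : K) * (t : K) = (s : K) := by
  have hval : v.valuation K (y : K) = 1 := by
    rw [h1_locB_valuation, hy, neg_zero, WithZero.exp_zero]
  obtain ⟨n, ⟨d, hd⟩, hnd⟩ := v.exists_primeCompl_mul_eq_of_integer (y : K) hval.le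
  have hd' : d ∉ v.asIdeal := hd
  have hd1 : v.valuation K (algebraMap (𝓞 K) K d) = 1 := v.valuation_eq_one_iff_notMem.mpr hd'
  have hn1 : v.valuation K (algebraMap (𝓞 K) K n) = 1 := by
    rw [← hnd, map_mul, hval, hd1, mul_one]
  exact ⟨n, d, v.valuation_eq_one_iff_notMem.mp hn1, hd', hnd⟩

/-- The quotients `b / a` of integers `a ≡ b mod v` outside `v` ("units congruent to one"). -/
def h1_locB_oneUnits (K : Type*) [Field K] [NumberField K] (v : HeightOneSpectrum (𝓞 K)) :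
    Subgroup Kˣ where
  carrier := {u | ∃ a b : 𝓞 K, a ∉ v.asIdeal ∧ b ∉ v.asIdeal ∧ a - b ∈ v.asIdeal ∧
    (u : K) * (a : K) = (b : K)}
  one_mem' := by
    have h1 : (1 : 𝓞 K) ∉ v.asIdeal := fun h =>
      v.isPrime.ne_top ((Ideal.eq_top_iff_one _).mpr h)
    exact ⟨1, 1, h1, h1, by rw [sub_self]; exact zero_mem _, by rw [Units.val_one, one_mul]⟩
  mul_mem' := by
    rintro x y ⟨a, b, ha, hb, hab, h⟩ ⟨a', b', ha', hb', hab', h'⟩
    refine ⟨a * a', b * b', ?_, ?_, ?_, ?_⟩
    · exact fun hm => (v.isPrime.mem_or_mem hm).elim ha ha'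
    · exact fun hm => (v.isPrime.mem_or_mem hm).elim hb hb'
    · have e : a * a' - b * b' = a * (a' - b') + (a - b) * b' := by ring
      rw [e]
      exact add_mem (Ideal.mul_mem_left _ _ hab') (Ideal.mul_mem_right _ _ hab)
    · have e1 : ((a * a' : 𝓞 K) : K) = (a : K) * (a' : K) := map_mul (algebraMap (𝓞 K) K) a a'
      have e2 : ((b * b' : 𝓞 K) : K) = (b : K) * (b' : K) := map_mul (algebraMap (𝓞 K) K) b b'
      rw [Units.val_mul, e1, e2, ← h, ← h']
      ring
  inv_mem' := by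
    rintro x ⟨a, b, ha, hb, hab, h⟩
    refine ⟨b, a, hb, ha, ?_, ?_⟩
    · have e : b - a = -(a - b) := by ring
      rw [e]
      exact neg_mem hab
    · rw [← h, Units.val_inv_eq_inv_val, ← mul_assoc, inv_mul_cancel₀ x.ne_zero, one_mul]

theorem h1_locB_mem_oneUnits (K : Type*) [Field K] [NumberField K] (v : HeightOneSpectrum (𝓞 K))
    (u : Kˣ) : u ∈ h1_locB_oneUnits K v ↔ ∃ a b : 𝓞 K, a ∉ v.asIdeal ∧ b ∉ v.asIdeal ∧
      a - b ∈ v.asIdeal ∧ (u : K) * (a : K) = (b : K) :=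
  Iff.rfl

/-- If `p ∉ v` and `K` contains a primitive `p`-th root of unity, some residue class modulo `v` of
integers prime to `v` contains no element of the shape `c ^ p / d ^ p`. -/
theorem h1_locB_exists_nonresidue (K : Type*) [Field K] [NumberField K]
    (v : HeightOneSpectrum (𝓞 K)) (p : ℕ) [Fact p.Prime] (ζ : K) (hζ : IsPrimitiveRoot ζ p)
    (hpv : (p : 𝓞 K) ∉ v.asIdeal) :
    ∃ z₀ : 𝓞 K, z₀ ∉ v.asIdeal ∧
      ∀ c d : 𝓞 K, d ∉ v.asIdeal → z₀ * d ^ p - c ^ p ∉ v.asIdeal := by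
  have hpp : p.Prime := Fact.out
  have : NeZero p := ⟨hpp.ne_zero⟩
  have hmax : v.asIdeal.IsMaximal := v.isMaximal
  let _ : Field (𝓞 K ⧸ v.asIdeal) := Ideal.Quotient.field v.asIdeal
  -- the class of the root of unity
  have hζ' : IsPrimitiveRoot hζ.toInteger p := hζ.toInteger_isPrimitiveRoot
  set e : 𝓞 K ⧸ v.asIdeal := Ideal.Quotient.mk v.asIdeal hζ.toInteger with he
  have hep : e ^ p = 1 := by
    rw [he, ← map_pow, hζ'.pow_eq_one, map_one]
  have he1 : e ≠ 1 := by
    intro h1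
    apply hpv
    have hsum := congrArg (Ideal.Quotient.mk v.asIdeal) (hζ'.geom_sum_eq_zero hpp.one_lt)
    rw [map_sum, map_zero] at hsum
    simp only [map_pow, ← he, h1, one_pow, Finset.sum_const, Finset.card_range, nsmul_eq_mul,
      mul_one] at hsum
    rw [← map_natCast (Ideal.Quotient.mk v.asIdeal) p] at hsum
    exact Ideal.Quotient.eq_zero_iff_mem.mp hsum
  have he0 : e ≠ 0 := by
    rintro h0
    rw [h0, zero_pow hpp.ne_zero] at hep
    exact zero_ne_one hep
  -- the `p`-th power map on the units of the residue field is not injective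
  have hninj : ¬ Function.Injective (powMonoidHom p : (𝓞 K ⧸ v.asIdeal)ˣ →* (𝓞 K ⧸ v.asIdeal)ˣ) := by
    intro hinj
    apply he1
    have h2 : (powMonoidHom p : (𝓞 K ⧸ v.asIdeal)ˣ →* (𝓞 K ⧸ v.asIdeal)ˣ) (Units.mk0 e he0)
        = (powMonoidHom p : (𝓞 K ⧸ v.asIdeal)ˣ →* (𝓞 K ⧸ v.asIdeal)ˣ) 1 := by
      apply Units.ext
      simp only [powMonoidHom_apply, Units.val_pow_eq_pow_val, Units.val_mk0, hep, one_pow,
        Units.val_one]
    have h3 := congrArg Units.val (hinj h2)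
    simpa using h3
  have hnsurj : ¬ Function.Surjective
      (powMonoidHom p : (𝓞 K ⧸ v.asIdeal)ˣ →* (𝓞 K ⧸ v.asIdeal)ˣ) :=
    fun hs => hninj (Finite.injective_iff_surjective.mpr hs)
  rw [Function.Surjective] at hnsurj
  push Not at hnsurj
  obtain ⟨ū, hū⟩ := hnsurj
  obtain ⟨z₀, hz₀⟩ := Ideal.Quotient.mk_surjective (ū : 𝓞 K ⧸ v.asIdeal)
  refine ⟨z₀, ?_, ?_⟩
  · intro hmem
    have h0 : Ideal.Quotient.mk v.asIdeal z₀ = 0 := Ideal.Quotient.eq_zero_iff_mem.mpr hmem
    rw [hz₀] at h0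
    exact ū.ne_zero h0
  · intro c d hd hmem
    have hd0 : Ideal.Quotient.mk v.asIdeal d ≠ 0 := fun h => hd (Ideal.Quotient.eq_zero_iff_mem.mp h)
    have heq : (ū : 𝓞 K ⧸ v.asIdeal) * Ideal.Quotient.mk v.asIdeal d ^ p
        = Ideal.Quotient.mk v.asIdeal c ^ p := by
      have h0 := Ideal.Quotient.eq_zero_iff_mem.mpr hmem
      rw [map_sub, map_mul, map_pow, map_pow, hz₀, sub_eq_zero] at h0
      exact h0
    have hc0 : Ideal.Quotient.mk v.asIdeal c ≠ 0 := by
      intro h0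
      rw [h0, zero_pow hpp.ne_zero] at heq
      exact mul_ne_zero ū.ne_zero (pow_ne_zero p hd0) heq
    apply hū (Units.mk0 _ hc0 / Units.mk0 _ hd0)
    apply Units.ext
    simp only [powMonoidHom_apply, Units.val_pow_eq_pow_val, Units.val_div_eq_div_val,
      Units.val_mk0, div_pow]
    rw [← heq, mul_div_assoc, div_self (pow_ne_zero p hd0), mul_one]

variable (F M : Type*) [Field F] [NumberField F] [Field M] [NumberField M] [Algebra F M]

/-- At a ramified prime `w` over `v`, the norm of an integer `s ∉ w` is congruent modulo `v` to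
the `p`-th power of an integer `c ∉ v` of `F`. -/
theorem h1_locB_norm_congr [IsGalois F M] (p : ℕ) [Fact p.Prime] (hdeg : Module.finrank F M = p)
    (w : HeightOneSpectrum (𝓞 M)) (hw : ¬ InertiaTrivialAt F M w.asIdeal) (s : 𝓞 M)
    (hs : s ∉ w.asIdeal) :
    ∃ n c : 𝓞 F, (n : F) = Algebra.norm F (s : M) ∧ c ∉ (h1_under F w).asIdeal ∧
      n - c ^ p ∈ (h1_under F w).asIdeal := by
  classical
  obtain ⟨n, hn, -⟩ := h1_relNorm_span F M s
  obtain ⟨c, hc⟩ := h1_ramified_residue F M p hdeg w hw s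
  have hinert := h1_ramified_inertia F M p hdeg w hw
  refine ⟨n, c, hn, ?_, ?_⟩
  · intro hcv
    apply hs
    have hcw : algebraMap (𝓞 F) (𝓞 M) c ∈ w.asIdeal := hcv
    have := w.asIdeal.add_mem hc hcw
    rwa [sub_add_cancel] at this
  · -- the norm is the product of the conjugates
    have hprod : algebraMap (𝓞 F) (𝓞 M) n = ∏ σ : M ≃ₐ[F] M, σ • s := by
      apply RingOfIntegers.coe_injective
      rw [map_prod]
      have h1 : algebraMap (𝓞 M) M (algebraMap (𝓞 F) (𝓞 M) n)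
          = algebraMap F M (algebraMap (𝓞 F) F n) := by
        rw [← IsScalarTower.algebraMap_apply, ← IsScalarTower.algebraMap_apply]
      have h2 : algebraMap (𝓞 F) F n = Algebra.norm F (s : M) := hn
      rw [h1, h2, Algebra.norm_eq_prod_automorphisms]
      rfl
    -- reduce modulo `w`
    have hcard : Fintype.card (M ≃ₐ[F] M) = p := by
      rw [← Nat.card_eq_fintype_card, IsGalois.card_aut_eq_finrank, hdeg]
    have hq : Ideal.Quotient.mk w.asIdeal (algebraMap (𝓞 F) (𝓞 M) n)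
        = Ideal.Quotient.mk w.asIdeal (algebraMap (𝓞 F) (𝓞 M) (c ^ p)) := by
      rw [hprod, map_prod]
      have h3 : ∀ σ : M ≃ₐ[F] M, Ideal.Quotient.mk w.asIdeal (σ • s)
          = Ideal.Quotient.mk w.asIdeal (algebraMap (𝓞 F) (𝓞 M) c) := by
        intro σ
        rw [Ideal.Quotient.eq]
        have e : σ • s - algebraMap (𝓞 F) (𝓞 M) c = (σ • s - s) + (s - algebraMap (𝓞 F) (𝓞 M) c) := by
          ring
        rw [e]
        exact add_mem (hinert σ s) hc
      simp only [h3, Finset.prod_const, Finset.card_univ, hcard]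
      rw [map_pow, map_pow]
    have hmem : algebraMap (𝓞 F) (𝓞 M) (n - c ^ p) ∈ w.asIdeal := by
      rw [map_sub]
      exact Ideal.Quotient.eq.mp hq
    exact hmem

/-- The local norm group at a ramified prime (statement of the module H1LocRam, proved here
independently): the subgroup generated by the norms and the units congruent to one misses a
whole residue class of `v`-units. -/
theorem h1_locB_ramified_group [IsGalois F M] (p : ℕ) [Fact p.Prime]
    (hdeg : Module.finrank F M = p) (ζ : F) (hζ : IsPrimitiveRoot ζ p)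
    (w : HeightOneSpectrum (𝓞 M)) (hw : ¬ InertiaTrivialAt F M w.asIdeal)
    (hpv : (p : 𝓞 F) ∉ (h1_under F w).asIdeal) :
    ∃ H : Subgroup Fˣ,
      (∀ y : Mˣ, h1_nrm F M y ∈ H) ∧
      (∀ (u : Fˣ) (a b : 𝓞 F), a ∉ (h1_under F w).asIdeal → b ∉ (h1_under F w).asIdeal →
          a - b ∈ (h1_under F w).asIdeal → (u : F) * a = b → u ∈ H) ∧
      (∃ z₀ : 𝓞 F, z₀ ∉ (h1_under F w).asIdeal ∧ ∀ (u : Fˣ) (z : 𝓞 F),
          z - z₀ ∈ (h1_under F w).asIdeal → (u : F) = z → u ∉ H) := by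
  obtain ⟨z₀, hz₀, hz₀'⟩ := h1_locB_exists_nonresidue F (h1_under F w) p ζ hζ hpv
  refine ⟨(h1_nrm F M).range ⊔ h1_locB_oneUnits F (h1_under F w),
    fun y => Subgroup.mem_sup_left ⟨y, rfl⟩,
    fun u a b ha hb hab hu => Subgroup.mem_sup_right ⟨a, b, ha, hb, hab, hu⟩,
    z₀, hz₀, fun u z hz hu hmem => ?_⟩
  obtain ⟨_, ⟨y, rfl⟩, u₁, ⟨a, b, ha, hb, hab, hu₁⟩, hmul⟩ := Subgroup.mem_sup.mp hmem
  -- `z` is prime to `v`
  have hzv : z ∉ (h1_under F w).asIdeal := by
    intro hzv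
    apply hz₀
    have := (h1_under F w).asIdeal.sub_mem hzv hz
    rwa [sub_sub_cancel] at this
  -- hence `y` has order `0` at `w`
  have ho : h1_ord F (h1_under F w) (h1_nrm F M y) = 0 := by
    have h1 := h1_ord_mul F (h1_under F w) (h1_nrm F M y) u₁
    rw [hmul, h1_locB_ord_eq_zero F (h1_under F w) u z hu hzv,
      h1_locB_ord_quot_eq_zero F (h1_under F w) u₁ a b ha hb hu₁] at h1
    omega
  have huniq := h1_ramified_unique F M p hdeg w hw
  have hf : Ideal.relNorm (𝓞 F) w.asIdeal = (h1_under F w).asIdeal ^ 1 := by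
    rw [pow_one]
    exact h1_relNorm_ramified F M p hdeg w hw
  have hy0 : h1_ord M w y = 0 := by
    have h2 := h1_ord_nrm_of_unique F M w huniq 1 hf y
    rw [ho] at h2
    push_cast at h2
    omega
  -- write `y = s / t` and reduce the norms of `s`, `t` modulo `v`
  obtain ⟨s, t, hs, ht, hst⟩ := h1_locB_exists_quot M w y hy0
  obtain ⟨ns, cs, hns, -, hcs⟩ := h1_locB_norm_congr F M p hdeg w hw s hs
  obtain ⟨nt, ct, hnt, hct, hct'⟩ := h1_locB_norm_congr F M p hdeg w hw t ht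
  have hnorm : ((h1_nrm F M y : Fˣ) : F) * (nt : F) = (ns : F) := by
    rw [hns, hnt, h1_nrm_coe, ← map_mul, hst]
  have hzF : (z : F) = ((h1_nrm F M y : Fˣ) : F) * (u₁ : F) := by
    rw [← hu, ← hmul, Units.val_mul]
  have hkeyF : (z : F) * (a : F) * (nt : F) = (b : F) * (ns : F) := by
    rw [hzF, ← hnorm, ← hu₁]
    ring
  have hkey : z * a * nt = b * ns := by
    apply RingOfIntegers.coe_injective
    rw [map_mul, map_mul, map_mul]
    exact hkeyF
  -- `b * (z₀ * ct ^ p - cs ^ p) ∈ v`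
  have hmemv : b * (z₀ * ct ^ p - cs ^ p) ∈ (h1_under F w).asIdeal := by
    have e : b * (z₀ * ct ^ p - cs ^ p)
        = b * (ns - cs ^ p) - ((z - z₀) * (a * nt) + (a - b) * (z₀ * nt)
          + (nt - ct ^ p) * (z₀ * b)) := by
      linear_combination hkey
    rw [e]
    exact sub_mem (Ideal.mul_mem_left _ _ hcs)
      (add_mem (add_mem (Ideal.mul_mem_right _ _ hz) (Ideal.mul_mem_right _ _ hab))
        (Ideal.mul_mem_right _ _ hct'))
  rcases (h1_under F w).isPrime.mem_or_mem hmemv with h | h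
  · exact hb h
  · exact hz₀' cs ct hct h

/-! ### H1Loc (second team): uniform local norm group -/

theorem h1_loc_group_B [IsGalois F M] (p : ℕ) [Fact p.Prime] (hdeg : Module.finrank F M = p)
    (ζ : F) (hζ : IsPrimitiveRoot ζ p) (𝔪 : Ideal (𝓞 F))
    (hp𝔪 : IsCoprime 𝔪 (Ideal.span {(p : 𝓞 F)})) (hunr : UnramifiedOutside F M 𝔪)
    (v : HeightOneSpectrum (𝓞 F)) (hv : h1_nonsplit F M v) :
    ∃ H : Subgroup Fˣ,
      (∀ y : Mˣ, h1_nrm F M y ∈ H) ∧
      (¬ 𝔪 ≤ v.asIdeal → ∀ u : Fˣ, u ∈ H ↔ (p : ℤ) ∣ h1_ord F v u) ∧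
      (𝔪 ≤ v.asIdeal →
        (∀ (u : Fˣ) (a b : 𝓞 F), a ∉ v.asIdeal → b ∉ v.asIdeal → a - b ∈ v.asIdeal →
            (u : F) * a = b → u ∈ H) ∧
        ∃ z₀ : 𝓞 F, z₀ ∉ v.asIdeal ^ 2 ∧ ∀ (u : Fˣ) (z : 𝓞 F),
            z - z₀ ∈ v.asIdeal ^ 2 → (u : F) = z → u ∉ H) := by
  have hpp : p.Prime := Fact.out
  obtain ⟨w, hwv⟩ := h1_fiber_nonempty F M v
  have huniq : ∀ w' : HeightOneSpectrum (𝓞 M), h1_under F w' = h1_under F w → w' = w :=
    fun w' hw' => hv w' w (hw'.trans hwv) hwv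
  have hsq : v.asIdeal ^ 2 ≤ v.asIdeal := Ideal.pow_le_self two_ne_zero
  by_cases hw : InertiaTrivialAt F M w.asIdeal
  · -- inert case
    have hf : Ideal.relNorm (𝓞 F) w.asIdeal = (h1_under F w).asIdeal ^ p :=
      h1_relNorm_inert F M p hdeg w huniq hw
    refine ⟨h1_locB_ordSubgroup F v p, fun y => ?_, fun _ u => Iff.rfl, fun _ => ⟨?_, ?_⟩⟩
    · rw [h1_locB_mem_ordSubgroup, ← hwv, h1_ord_nrm_of_unique F M w huniq p hf y]
      exact dvd_mul_right _ _
    · intro u a b ha hb _ hu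
      rw [h1_locB_mem_ordSubgroup, h1_locB_ord_quot_eq_zero F v u a b ha hb hu]
      exact dvd_zero _
    · obtain ⟨z₀, hz₀, hz₀'⟩ :=
        Ideal.exists_mem_pow_notMem_pow_succ v.asIdeal v.ne_bot v.isPrime.ne_top 1
      rw [pow_one] at hz₀
      refine ⟨z₀, hz₀', fun u z hz hu => ?_⟩
      have hz1 : z ∈ v.asIdeal := by
        have := v.asIdeal.add_mem (hsq hz) hz₀
        rwa [sub_add_cancel] at this
      have hz2 : z ∉ v.asIdeal ^ 2 := by
        intro hz2
        apply hz₀'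
        have := (v.asIdeal ^ 2).sub_mem hz2 hz
        rwa [sub_sub_cancel] at this
      rw [h1_locB_mem_ordSubgroup, h1_locB_ord_eq_one F v u z hu hz1 hz2]
      intro hdvd
      have h1 : p ∣ 1 := by exact_mod_cast hdvd
      exact hpp.one_lt.ne' (Nat.dvd_one.mp h1)
  · -- ramified case
    have h𝔪v : 𝔪 ≤ v.asIdeal := by
      by_contra hcon
      apply hw
      refine hunr w.asIdeal w.isPrime w.ne_bot ?_
      rw [← h1_under_asIdeal, hwv]
      exact hcon
    have hpv : (p : 𝓞 F) ∉ (h1_under F w).asIdeal := by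
      rw [hwv]
      intro hpmem
      have hsup : 𝔪 ⊔ Ideal.span {(p : 𝓞 F)} = ⊤ := Ideal.isCoprime_iff_sup_eq.mp hp𝔪
      have hle : 𝔪 ⊔ Ideal.span {(p : 𝓞 F)} ≤ v.asIdeal :=
        sup_le h𝔪v ((Ideal.span_singleton_le_iff_mem _).mpr hpmem)
      rw [hsup] at hle
      exact v.isPrime.ne_top (top_le_iff.mp hle)
    obtain ⟨H, hH1, hH2, z₀, hz₀, hH3⟩ := h1_locB_ramified_group F M p hdeg ζ hζ w hw hpv
    rw [hwv] at hH2 hz₀ hH3
    refine ⟨H, hH1, fun hcon => absurd h𝔪v hcon, fun _ => ⟨hH2, z₀, fun h => hz₀ (hsq h), ?_⟩⟩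
    intro u z hz hu
    exact hH3 u z (hsq hz) hu

end Fermat.Agent.S14
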