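import Mathlib
import Fermat.Agent.S14.Defs
import Fermat.Agent.S14.H1Defs
import Fermat.Agent.S14.H1Defs2
import Fermat.Agent.S14.H1SplitB

/-!
# P18 (S14), block H1 (route A), second team: the local norm group at a ramified prime

`M/F` Galois of prime degree `p`, `w` a prime of `M` with nontrivial inertia, `v` the prime of
`F` below `w`, `p ∉ v`, `F ∋ ζ` a primitive `p`-th root of unity. With `ϱ ∈ w ∖ w ^ 2` and
`ϖ := N ϱ`, the subgroup

`H := {u | ∃ m n a b c d, c, d ∉ v, a ≡ c ^ p, b ≡ d ^ p (mod v), u * (b * ϖ ^ m) = a * ϖ ^ n}`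

of `Fˣ` contains all norms from `Mˣ` and all `b / a` with `a ≡ b (mod v)` prime to `v`, and it
misses a whole residue class of `v`-units (`h1_ramified_group_B`).
-/

set_option autoImplicit false

namespace Fermat.Agent.S14

open NumberField IsDedekindDomain nonZeroDivisors

/-! ### A generic subgroup of `Kˣ` attached to a prime `v` of `R`, an element `ϖ ∈ v` and `p` -/

section generic

variable {R : Type*} (K : Type*) [CommRing R] [Field K] [Algebra R K]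

/-- The subgroup of `Kˣ` of the elements `ϖ ^ (n - m) * a / b` with `a`, `b` congruent modulo `v`
to `p`-th powers of elements outside `v`. -/
def h1_locramB_grp (v : Ideal R) [v.IsPrime] (ϖ : R) (p : ℕ) : Subgroup Kˣ where
  carrier := {u | ∃ (m n : ℕ) (a b c d : R), c ∉ v ∧ d ∉ v ∧ a - c ^ p ∈ v ∧ b - d ^ p ∈ v ∧
    (u : K) * algebraMap R K (b * ϖ ^ m) = algebraMap R K (a * ϖ ^ n)}
  mul_mem' := by
    rintro u₁ u₂ ⟨m₁, n₁, a₁, b₁, c₁, d₁, hc₁, hd₁, ha₁, hb₁, h₁⟩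
      ⟨m₂, n₂, a₂, b₂, c₂, d₂, hc₂, hd₂, ha₂, hb₂, h₂⟩
    refine ⟨m₁ + m₂, n₁ + n₂, a₁ * a₂, b₁ * b₂, c₁ * c₂, d₁ * d₂, ?_, ?_, ?_, ?_, ?_⟩
    · exact fun h => (Ideal.IsPrime.mem_or_mem inferInstance h).elim hc₁ hc₂
    · exact fun h => (Ideal.IsPrime.mem_or_mem inferInstance h).elim hd₁ hd₂
    · have e : a₁ * a₂ - (c₁ * c₂) ^ p = a₁ * (a₂ - c₂ ^ p) + c₂ ^ p * (a₁ - c₁ ^ p) := by ring
      rw [e]
      exact v.add_mem (v.mul_mem_left _ ha₂) (v.mul_mem_left _ ha₁)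
    · have e : b₁ * b₂ - (d₁ * d₂) ^ p = b₁ * (b₂ - d₂ ^ p) + d₂ ^ p * (b₁ - d₁ ^ p) := by ring
      rw [e]
      exact v.add_mem (v.mul_mem_left _ hb₂) (v.mul_mem_left _ hb₁)
    · have e1 : b₁ * b₂ * ϖ ^ (m₁ + m₂) = (b₁ * ϖ ^ m₁) * (b₂ * ϖ ^ m₂) := by ring
      have e2 : a₁ * a₂ * ϖ ^ (n₁ + n₂) = (a₁ * ϖ ^ n₁) * (a₂ * ϖ ^ n₂) := by ring
      rw [e1, e2, map_mul (algebraMap R K) (b₁ * ϖ ^ m₁), map_mul (algebraMap R K) (a₁ * ϖ ^ n₁),
        ← h₁, ← h₂, Units.val_mul]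
      ring
  one_mem' := by
    refine ⟨0, 0, 1, 1, 1, 1, ?_, ?_, ?_, ?_, ?_⟩
    · exact fun h => Ideal.IsPrime.ne_top inferInstance ((Ideal.eq_top_iff_one v).mpr h)
    · exact fun h => Ideal.IsPrime.ne_top inferInstance ((Ideal.eq_top_iff_one v).mpr h)
    · simp
    · simp
    · simp
  inv_mem' := by
    rintro u ⟨m, n, a, b, c, d, hc, hd, ha, hb, h⟩
    refine ⟨n, m, b, a, d, c, hd, hc, hb, ha, ?_⟩
    rw [← h, Units.val_inv_eq_inv_val, ← mul_assoc, inv_mul_cancel₀ u.ne_zero, one_mul]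

variable {K}

theorem h1_locramB_mem_grp (v : Ideal R) [v.IsPrime] (ϖ : R) (p : ℕ) (u : Kˣ) :
    u ∈ h1_locramB_grp K v ϖ p ↔ ∃ (m n : ℕ) (a b c d : R), c ∉ v ∧ d ∉ v ∧ a - c ^ p ∈ v ∧
      b - d ^ p ∈ v ∧ (u : K) * algebraMap R K (b * ϖ ^ m) = algebraMap R K (a * ϖ ^ n) :=
  Iff.rfl

/-- Comparing `ϖ`-adic expansions: if `x ϖ^m = y ϖ^n` with `x, y ∉ v`, `ϖ ∈ v` nonzero,
then `x = y`. -/
theorem h1_locramB_cancel [IsDomain R] (v : Ideal R) [v.IsPrime] (ϖ : R) (hϖ : ϖ ∈ v)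
    (hϖ0 : ϖ ≠ 0) (x y : R) (hx : x ∉ v) (hy : y ∉ v) (m n : ℕ)
    (h : x * ϖ ^ m = y * ϖ ^ n) : x = y := by
  have key : ∀ (x y : R), x ∉ v → y ∉ v → ∀ (m j : ℕ), x * ϖ ^ m = y * ϖ ^ (m + j) → x = y := by
    intro x y hx hy m j h
    have h1 : x * ϖ ^ m = (y * ϖ ^ j) * ϖ ^ m := by rw [h]; ring
    have h2 : x = y * ϖ ^ j := mul_right_cancel₀ (pow_ne_zero m hϖ0) h1
    rcases Nat.eq_zero_or_pos j with hj | hj
    · rw [h2, hj, pow_zero, mul_one]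
    · exfalso
      apply hx
      rw [h2]
      exact v.mul_mem_left _ (v.pow_mem_of_mem hϖ j hj)
  rcases le_total m n with hmn | hmn
  · obtain ⟨j, rfl⟩ := Nat.exists_eq_add_of_le hmn
    exact key x y hx hy m j h
  · obtain ⟨j, rfl⟩ := Nat.exists_eq_add_of_le hmn
    exact (key y x hy hx n j h.symm).symm

/-- Elements `b / a` with `a ≡ b` modulo `v` prime to `v` are in the group. -/
theorem h1_locramB_one_units (v : Ideal R) [v.IsPrime] (ϖ : R) (p : ℕ) (hp : 0 < p) (u : Kˣ)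
    (a b : R) (ha : a ∉ v) (hab : a - b ∈ v) (h : (u : K) * algebraMap R K a = algebraMap R K b) :
    u ∈ h1_locramB_grp K v ϖ p := by
  obtain ⟨q, rfl⟩ : ∃ q, p = q + 1 := ⟨p - 1, by omega⟩
  refine ⟨0, 0, b * a ^ q, a ^ (q + 1), a, a, ha, ha, ?_, ?_, ?_⟩
  · have e : b * a ^ q - a ^ (q + 1) = - (a ^ q * (a - b)) := by ring
    rw [e]
    exact v.neg_mem (v.mul_mem_left _ hab)
  · simp
  · rw [pow_zero, mul_one, mul_one, map_mul, ← h, pow_succ, map_mul]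
    ring

/-- An element of `R` outside `v` whose class is not a quotient of `p`-th powers modulo `v`
is not in the group. -/
theorem h1_locramB_not_mem [IsDomain R] (hinj : Function.Injective (algebraMap R K))
    (v : Ideal R) [v.IsPrime] (ϖ : R) (hϖ : ϖ ∈ v)
    (hϖ0 : ϖ ≠ 0) (p : ℕ) (z₀ : R) (hz₀ : z₀ ∉ v)
    (hz : ∀ c d : R, c ∉ v → d ∉ v → z₀ * d ^ p - c ^ p ∉ v)
    (u : Kˣ) (z : R) (hzz : z - z₀ ∈ v) (hu : (u : K) = algebraMap R K z) :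
    u ∉ h1_locramB_grp K v ϖ p := by
  rintro ⟨m, n, a, b, c, d, hc, hd, ha, hb, h⟩
  have hzv : z ∉ v := by
    intro hz'
    apply hz₀
    have e : z₀ = z - (z - z₀) := by ring
    rw [e]
    exact v.sub_mem hz' hzz
  have hav : a ∉ v := by
    intro ha'
    have e : c ^ p = a - (a - c ^ p) := by ring
    exact hc (Ideal.IsPrime.mem_of_pow_mem inferInstance p (e ▸ v.sub_mem ha' ha))
  have hbv : b ∉ v := by
    intro hb'
    have e : d ^ p = b - (b - d ^ p) := by ring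
    exact hd (Ideal.IsPrime.mem_of_pow_mem inferInstance p (e ▸ v.sub_mem hb' hb))
  rw [hu, ← map_mul] at h
  have h' : (z * b) * ϖ ^ m = a * ϖ ^ n := by
    rw [← mul_assoc] at h
    exact hinj h
  have hzb : z * b ∉ v := fun h => (Ideal.IsPrime.mem_or_mem inferInstance h).elim hzv hbv
  have hzba : z * b = a := h1_locramB_cancel v ϖ hϖ hϖ0 (z * b) a hzb hav m n h'
  apply hz c d hc hd
  have e : z₀ * d ^ p - c ^ p = (a - c ^ p) - z * (b - d ^ p) - (z - z₀) * d ^ p := by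
    rw [← hzba]; ring
  rw [e]
  exact v.sub_mem (v.sub_mem ha (v.mul_mem_left _ hb)) (v.mul_mem_right _ hzz)

end generic

section ext

variable (F M : Type*) [Field F] [NumberField F] [Field M] [NumberField M] [Algebra F M]

/-- The integral norm is the restriction of the field norm. -/
theorem h1_locramB_coe_intNorm (s : 𝓞 M) :
    ((Algebra.intNorm (𝓞 F) (𝓞 M) s : 𝓞 F) : F) = Algebra.norm F (s : M) :=
  Algebra.algebraMap_intNorm (A := 𝓞 F) (K := F) (L := M) (B := 𝓞 M) s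

/-- The integral norm is the product of the conjugates. -/
theorem h1_locramB_algebraMap_intNorm [IsGalois F M] (s : 𝓞 M) :
    algebraMap (𝓞 F) (𝓞 M) (Algebra.intNorm (𝓞 F) (𝓞 M) s) = ∏ τ : M ≃ₐ[F] M, τ • s := by
  apply RingOfIntegers.ext
  have e1 : ((algebraMap (𝓞 F) (𝓞 M) (Algebra.intNorm (𝓞 F) (𝓞 M) s) : 𝓞 M) : M)
      = algebraMap F M ((Algebra.intNorm (𝓞 F) (𝓞 M) s : 𝓞 F) : F) := rfl
  have e2 : ∀ x : 𝓞 M, (x : M) = algebraMap (𝓞 M) M x := fun _ => rfl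
  rw [e1, h1_locramB_coe_intNorm, Algebra.norm_eq_prod_automorphisms, e2 (∏ τ : M ≃ₐ[F] M, τ • s),
    map_prod]
  rfl

/-- At a ramified prime `w` (Galois of prime degree `p`), the norm of an element outside `w`
is a `p`-th power modulo the prime below. -/
theorem h1_locramB_norm_congr [IsGalois F M] (p : ℕ) [Fact p.Prime]
    (hdeg : Module.finrank F M = p) (w : HeightOneSpectrum (𝓞 M))
    (hw : ¬ InertiaTrivialAt F M w.asIdeal) (s : 𝓞 M) (hs : s ∉ w.asIdeal) :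
    ∃ c : 𝓞 F, c ∉ (h1_under F w).asIdeal ∧
      Algebra.intNorm (𝓞 F) (𝓞 M) s - c ^ p ∈ (h1_under F w).asIdeal := by
  obtain ⟨c, hc⟩ := h1_ramified_residue F M p hdeg w hw s
  have hin := h1_ramified_inertia F M p hdeg w hw
  refine ⟨c, ?_, ?_⟩
  · intro hcv
    have hcw : algebraMap (𝓞 F) (𝓞 M) c ∈ w.asIdeal := hcv
    apply hs
    have e : s = (s - algebraMap (𝓞 F) (𝓞 M) c) + algebraMap (𝓞 F) (𝓞 M) c := by ring
    rw [e]
    exact Ideal.add_mem _ hc hcw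
  · show algebraMap (𝓞 F) (𝓞 M) (Algebra.intNorm (𝓞 F) (𝓞 M) s - c ^ p) ∈ w.asIdeal
    rw [map_sub, map_pow, h1_locramB_algebraMap_intNorm, ← Ideal.Quotient.eq, map_prod, map_pow]
    have h1 : ∀ τ : M ≃ₐ[F] M, Ideal.Quotient.mk w.asIdeal (τ • s)
        = Ideal.Quotient.mk w.asIdeal (algebraMap (𝓞 F) (𝓞 M) c) := by
      intro τ
      rw [Ideal.Quotient.eq]
      have e : τ • s - algebraMap (𝓞 F) (𝓞 M) c
          = (τ • s - s) + (s - algebraMap (𝓞 F) (𝓞 M) c) := by ring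
      rw [e]
      exact Ideal.add_mem _ (hin τ s) hc
    rw [Finset.prod_congr rfl (fun τ _ => h1 τ), Finset.prod_const, Finset.card_univ,
      ← Nat.card_eq_fintype_card, IsGalois.card_aut_eq_finrank, hdeg]

/-- A uniformizer `ϱ` at `w` and the decomposition `y * t = ϱ ^ k * s` with `s, t ∉ w`. -/
theorem h1_locramB_decomp (w : HeightOneSpectrum (𝓞 M)) :
    ∃ ϱ : 𝓞 M, ϱ ∈ w.asIdeal ∧ ϱ ≠ 0 ∧ ∀ y : 𝓞 M, y ≠ 0 →
      ∃ (k : ℕ) (s t : 𝓞 M), s ∉ w.asIdeal ∧ t ∉ w.asIdeal ∧ y * t = ϱ ^ k * s := by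
  have hprime : w.asIdeal.IsPrime := w.isPrime
  obtain ⟨ϱ, hϱ1, hϱ2⟩ := Ideal.exists_mem_pow_notMem_pow_succ w.asIdeal w.ne_bot hprime.ne_top 1
  rw [pow_one] at hϱ1
  have hϱ0 : ϱ ≠ 0 := by
    rintro rfl
    exact hϱ2 (Ideal.zero_mem _)
  obtain ⟨𝔅, h𝔅⟩ : w.asIdeal ∣ Ideal.span {ϱ} := by
    rw [Ideal.dvd_iff_le, Ideal.span_singleton_le_iff_mem]
    exact hϱ1
  have h𝔅w : ¬ 𝔅 ≤ w.asIdeal := by
    intro hle
    apply hϱ2
    have h2 : Ideal.span {ϱ} ≤ w.asIdeal ^ (1 + 1) := by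
      rw [h𝔅, pow_succ, pow_one]
      exact Ideal.mul_mono_right hle
    exact h2 (Ideal.mem_span_singleton_self ϱ)
  obtain ⟨t₀, ht₀𝔅, ht₀w⟩ := SetLike.not_le_iff_exists.mp h𝔅w
  refine ⟨ϱ, hϱ1, hϱ0, fun y hy => ?_⟩
  have hex : ∃ k : ℕ, y ∉ w.asIdeal ^ k := by
    by_contra hcon
    have hall : ∀ k : ℕ, y ∈ w.asIdeal ^ k := fun k => by
      by_contra hk
      exact hcon ⟨k, hk⟩
    have hmem : y ∈ (⨅ i : ℕ, w.asIdeal ^ i) := by
      rw [Ideal.mem_iInf]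
      exact hall
    rw [Ideal.iInf_pow_eq_bot_of_isDomain _ hprime.ne_top] at hmem
    exact hy ((Submodule.mem_bot _).mp hmem)
  classical
  have hk' : y ∉ w.asIdeal ^ (Nat.find hex) := Nat.find_spec hex
  have hk'pos : Nat.find hex ≠ 0 := by
    intro h0
    rw [h0, pow_zero, Ideal.one_eq_top] at hk'
    exact hk' trivial
  obtain ⟨k, hk⟩ : ∃ k, Nat.find hex = k + 1 := Nat.exists_eq_succ_of_ne_zero hk'pos
  have hyk : y ∈ w.asIdeal ^ k := by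
    by_contra hcon
    have := Nat.find_min' hex hcon
    omega
  rw [hk] at hk'
  have hmem : y * t₀ ^ k ∈ Ideal.span {ϱ ^ k} := by
    rw [← Ideal.span_singleton_pow, h𝔅, mul_pow]
    exact Ideal.mul_mem_mul hyk (Ideal.pow_mem_pow ht₀𝔅 k)
  obtain ⟨s, hs⟩ := Ideal.mem_span_singleton'.mp hmem
  refine ⟨k, s, t₀ ^ k, ?_, ?_, ?_⟩
  · intro hsw
    have h1 : y * t₀ ^ k ∈ w.asIdeal ^ (k + 1) := by
      rw [← hs, pow_succ']
      exact Ideal.mul_mem_mul hsw (Ideal.pow_mem_pow hϱ1 k)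
    rw [mul_comm] at h1
    rcases Ideal.IsPrime.mul_mem_pow w.asIdeal h1 with h2 | h2
    · exact ht₀w (hprime.mem_of_pow_mem k h2)
    · exact hk' h2
  · exact fun h => ht₀w (hprime.mem_of_pow_mem k h)
  · rw [← hs, mul_comm]

/-- If `p ∉ v` and `F` contains a primitive `p`-th root of unity, some unit modulo `v` is not a
quotient of `p`-th powers. -/
theorem h1_locramB_nonpow (p : ℕ) [Fact p.Prime] (ζ : F) (hζ : IsPrimitiveRoot ζ p)
    (v : HeightOneSpectrum (𝓞 F)) (hpv : (p : 𝓞 F) ∉ v.asIdeal) :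
    ∃ z₀ : 𝓞 F, z₀ ∉ v.asIdeal ∧ ∀ c d : 𝓞 F, c ∉ v.asIdeal → d ∉ v.asIdeal →
      z₀ * d ^ p - c ^ p ∉ v.asIdeal := by
  have hp : p.Prime := Fact.out
  have : NeZero p := ⟨hp.ne_zero⟩
  have hmax : v.asIdeal.IsMaximal := v.isMaximal
  let _ := Ideal.Quotient.field v.asIdeal
  have hfin : Finite (𝓞 F ⧸ v.asIdeal) := inferInstance
  have hζ' : IsPrimitiveRoot hζ.toInteger p := hζ.toInteger_isPrimitiveRoot
  have hsum : ∑ i ∈ Finset.range p, hζ.toInteger ^ i = 0 := hζ'.geom_sum_eq_zero hp.one_lt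
  have h1 : Ideal.Quotient.mk v.asIdeal hζ.toInteger ≠ 1 := by
    intro h
    have h2 := congrArg (Ideal.Quotient.mk v.asIdeal) hsum
    rw [map_sum] at h2
    simp only [map_pow, h, one_pow, Finset.sum_const, Finset.card_range, nsmul_eq_mul, mul_one,
      map_zero] at h2
    apply hpv
    rw [← Ideal.Quotient.eq_zero_iff_mem, map_natCast]
    exact h2
  have hninj : ¬ Function.Injective (fun x : 𝓞 F ⧸ v.asIdeal => x ^ p) := by
    intro hinj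
    apply h1
    apply hinj
    show (Ideal.Quotient.mk v.asIdeal hζ.toInteger) ^ p = 1 ^ p
    rw [← map_pow, hζ'.pow_eq_one, map_one, one_pow]
  have hnsurj : ¬ Function.Surjective (fun x : 𝓞 F ⧸ v.asIdeal => x ^ p) :=
    fun hs => hninj (Finite.injective_iff_surjective.mpr hs)
  obtain ⟨t, ht⟩ : ∃ t : 𝓞 F ⧸ v.asIdeal, ∀ x : 𝓞 F ⧸ v.asIdeal, x ^ p ≠ t := by
    by_contra hcon
    apply hnsurj
    intro t
    by_contra ht
    exact hcon ⟨t, fun x hx => ht ⟨x, hx⟩⟩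
  obtain ⟨z₀, rfl⟩ := Ideal.Quotient.mk_surjective t
  refine ⟨z₀, ?_, ?_⟩
  · intro hz
    have h0 : Ideal.Quotient.mk v.asIdeal z₀ = 0 := Ideal.Quotient.eq_zero_iff_mem.mpr hz
    exact ht 0 (by rw [h0, zero_pow hp.ne_zero])
  · intro c d hc hd hmem
    have hd' : Ideal.Quotient.mk v.asIdeal d ≠ 0 :=
      fun h => hd (Ideal.Quotient.eq_zero_iff_mem.mp h)
    have e : Ideal.Quotient.mk v.asIdeal z₀ * (Ideal.Quotient.mk v.asIdeal d) ^ p
        = (Ideal.Quotient.mk v.asIdeal c) ^ p := by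
      have h3 := Ideal.Quotient.eq.mpr hmem
      rw [map_mul, map_pow, map_pow] at h3
      exact h3
    apply ht (Ideal.Quotient.mk v.asIdeal c / Ideal.Quotient.mk v.asIdeal d)
    rw [div_pow, ← e, mul_div_assoc, div_self (pow_ne_zero p hd'), mul_one]

/-- **Local norm group at a ramified prime** (second team). -/
theorem h1_ramified_group_B [IsGalois F M] (p : ℕ) [Fact p.Prime] (hdeg : Module.finrank F M = p)
    (ζ : F) (hζ : IsPrimitiveRoot ζ p) (w : HeightOneSpectrum (𝓞 M))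
    (hw : ¬ InertiaTrivialAt F M w.asIdeal) (hpv : (p : 𝓞 F) ∉ (h1_under F w).asIdeal) :
    ∃ H : Subgroup Fˣ,
      (∀ y : Mˣ, h1_nrm F M y ∈ H) ∧
      (∀ (u : Fˣ) (a b : 𝓞 F), a ∉ (h1_under F w).asIdeal → b ∉ (h1_under F w).asIdeal →
          a - b ∈ (h1_under F w).asIdeal → (u : F) * a = b → u ∈ H) ∧
      (∃ z₀ : 𝓞 F, z₀ ∉ (h1_under F w).asIdeal ∧ ∀ (u : Fˣ) (z : 𝓞 F),
          z - z₀ ∈ (h1_under F w).asIdeal → (u : F) = z → u ∉ H) := by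
  have hp : p.Prime := Fact.out
  obtain ⟨ϱ, hϱw, hϱ0, hdec⟩ := h1_locramB_decomp M w
  have hvp : (h1_under F w).asIdeal.IsPrime := (h1_under F w).isPrime
  have hϖ0 : Algebra.intNorm (𝓞 F) (𝓞 M) ϱ ≠ 0 := Algebra.intNorm_ne_zero.mpr hϱ0
  have hϖv : Algebra.intNorm (𝓞 F) (𝓞 M) ϱ ∈ (h1_under F w).asIdeal := by
    show algebraMap (𝓞 F) (𝓞 M) (Algebra.intNorm (𝓞 F) (𝓞 M) ϱ) ∈ w.asIdeal
    exact Ideal.mem_of_dvd _ (Algebra.dvd_algebraMap_intNorm_self _ _ ϱ) hϱw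
  refine ⟨h1_locramB_grp F (h1_under F w).asIdeal (Algebra.intNorm (𝓞 F) (𝓞 M) ϱ) p, ?_, ?_, ?_⟩
  · have key : ∀ y : 𝓞 M, y ≠ 0 → ∀ u : Fˣ, (u : F) = Algebra.norm F (y : M) →
        u ∈ h1_locramB_grp F (h1_under F w).asIdeal (Algebra.intNorm (𝓞 F) (𝓞 M) ϱ) p := by
      intro y hy u hu
      obtain ⟨k, s, t, hs, ht, hyt⟩ := hdec y hy
      obtain ⟨c, hc, hsc⟩ := h1_locramB_norm_congr F M p hdeg w hw s hs
      obtain ⟨d, hd, htd⟩ := h1_locramB_norm_congr F M p hdeg w hw t ht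
      refine ⟨0, k, Algebra.intNorm (𝓞 F) (𝓞 M) s, Algebra.intNorm (𝓞 F) (𝓞 M) t, c, d, hc, hd,
        hsc, htd, ?_⟩
      have h1 := congrArg (Algebra.intNorm (𝓞 F) (𝓞 M)) hyt
      rw [map_mul, map_mul, map_pow] at h1
      rw [hu, ← h1_locramB_coe_intNorm]
      show algebraMap (𝓞 F) F (Algebra.intNorm (𝓞 F) (𝓞 M) y) * algebraMap (𝓞 F) F _
        = algebraMap (𝓞 F) F _
      rw [← map_mul, pow_zero, mul_one, h1, mul_comm]
    intro y
    obtain ⟨y₁, y₂, hy₂, hy⟩ := IsFractionRing.div_surjective (A := 𝓞 M) (y : M)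
    have hy₂0 : y₂ ≠ 0 := nonZeroDivisors.ne_zero hy₂
    have hy₂M : (algebraMap (𝓞 M) M y₂) ≠ 0 := by
      intro h
      exact hy₂0 (FaithfulSMul.algebraMap_injective (𝓞 M) M (by rw [h, map_zero]))
    have hy₁0 : y₁ ≠ 0 := by
      rintro rfl
      rw [map_zero, zero_div] at hy
      exact y.ne_zero hy.symm
    have hy₁M : (algebraMap (𝓞 M) M y₁) ≠ 0 := by
      intro h
      exact hy₁0 (FaithfulSMul.algebraMap_injective (𝓞 M) M (by rw [h, map_zero]))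
    have hn₁ : Algebra.norm F (algebraMap (𝓞 M) M y₁) ≠ 0 := Algebra.norm_ne_zero_iff.mpr hy₁M
    have hn₂ : Algebra.norm F (algebraMap (𝓞 M) M y₂) ≠ 0 := Algebra.norm_ne_zero_iff.mpr hy₂M
    have hdiv : h1_nrm F M y = Units.mk0 _ hn₁ / Units.mk0 _ hn₂ := by
      rw [eq_div_iff_mul_eq']
      apply Units.ext
      rw [Units.val_mul, h1_nrm_coe, Units.val_mk0, Units.val_mk0, ← map_mul, ← hy,
        div_mul_cancel₀ _ hy₂M]
    rw [hdiv]
    exact Subgroup.div_mem _ (key y₁ hy₁0 _ rfl) (key y₂ hy₂0 _ rfl)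
  · intro u a b ha _ hab h
    exact h1_locramB_one_units (h1_under F w).asIdeal _ p hp.pos u a b ha hab h
  · obtain ⟨z₀, hz₀, hz⟩ := h1_locramB_nonpow F p ζ hζ (h1_under F w) hpv
    refine ⟨z₀, hz₀, fun u z hzz hu => ?_⟩
    exact h1_locramB_not_mem (FaithfulSMul.algebraMap_injective (𝓞 F) F) (h1_under F w).asIdeal _
      hϖv hϖ0 p z₀ hz₀ hz u z hzz hu

end ext

end Fermat.Agent.S14
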