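import Mathlib

/-!
# P18 (S14), block H1, file H1LocRam (second team): two auxiliary lemmas

* `h1_locramBaux_decomp` : a uniformiser `ϖ` at a prime `w` and the decomposition
  `y * t = ϖ ^ k * s` with `s, t ∉ w` of every nonzero integer `y`.
* `h1_locramBaux_nonpow` : if `F` contains a primitive `p`-th root of unity and `p ∉ v`, then
  there is a `v`-unit `z₀` which is not a `p`-th power modulo `v` (in the strong form
  `z₀ * d ^ p - c ^ p ∉ v` for all `c, d ∉ v`).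
-/

set_option autoImplicit false

namespace Fermat.Agent.S14

open NumberField IsDedekindDomain

theorem h1_locramBaux_decomp (M : Type*) [Field M] [NumberField M]
    (w : HeightOneSpectrum (𝓞 M)) :
    ∃ ϖ : 𝓞 M, ϖ ∈ w.asIdeal ∧ ϖ ≠ 0 ∧ ∀ y : 𝓞 M, y ≠ 0 →
      ∃ (k : ℕ) (s t : 𝓞 M), s ∉ w.asIdeal ∧ t ∉ w.asIdeal ∧ y * t = ϖ ^ k * s := by
  classical
  have hP : w.asIdeal.IsPrime := w.isPrime
  have hP0 : w.asIdeal ≠ ⊥ := w.ne_bot
  have hP1 : w.asIdeal ≠ ⊤ := hP.ne_top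
  obtain ⟨ϖ, hϖ1, hϖ2⟩ := Ideal.exists_mem_pow_notMem_pow_succ w.asIdeal hP0 hP1 1
  rw [pow_one] at hϖ1
  have hϖ0 : ϖ ≠ 0 := by
    rintro rfl
    exact hϖ2 (Ideal.zero_mem _)
  -- `span {ϖ} = w * 𝔅`
  obtain ⟨𝔅, h𝔅⟩ : w.asIdeal ∣ Ideal.span {ϖ} := by
    rw [Ideal.dvd_iff_le, Ideal.span_singleton_le_iff_mem]
    exact hϖ1
  -- `𝔅 ⊄ w`
  have h𝔅w : ¬ 𝔅 ≤ w.asIdeal := by
    intro hle
    apply hϖ2
    have : ϖ ∈ w.asIdeal * 𝔅 := by
      rw [← h𝔅]
      exact Ideal.mem_span_singleton_self ϖ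
    have h2 : w.asIdeal * 𝔅 ≤ w.asIdeal ^ (1 + 1) := by
      rw [pow_succ, pow_one]
      exact Ideal.mul_mono_right hle
    exact h2 this
  obtain ⟨t₀, ht₀𝔅, ht₀w⟩ := SetLike.not_le_iff_exists.mp h𝔅w
  refine ⟨ϖ, hϖ1, hϖ0, ?_⟩
  intro y hy
  -- the exact power of `w` dividing `y`
  have hex : ∃ k : ℕ, y ∉ w.asIdeal ^ (k + 1) := by
    by_contra hcon
    push Not at hcon
    apply hy
    have hinf : (⨅ i : ℕ, w.asIdeal ^ i) = ⊥ := Ideal.iInf_pow_eq_bot_of_isDomain _ hP1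
    have : y ∈ (⨅ i : ℕ, w.asIdeal ^ i) := by
      rw [Ideal.mem_iInf]
      intro i
      rcases i with _ | i
      · simp
      · exact hcon i
    rw [hinf] at this
    simpa using this
  let k := Nat.find hex
  have hk1 : y ∉ w.asIdeal ^ (k + 1) := Nat.find_spec hex
  have hk0 : y ∈ w.asIdeal ^ k := by
    rcases Nat.eq_zero_or_pos k with h0 | hpos
    · rw [h0]; simp
    · have := Nat.find_min hex (Nat.sub_lt hpos Nat.one_pos)
      push Not at this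
      rwa [Nat.sub_add_cancel hpos] at this
  -- `y * t₀ ^ k ∈ w ^ k * 𝔅 ^ k = span {ϖ ^ k}`
  have hmem : y * t₀ ^ k ∈ Ideal.span {ϖ ^ k} := by
    rw [← Ideal.span_singleton_pow, h𝔅, mul_pow]
    exact Ideal.mul_mem_mul hk0 (Ideal.pow_mem_pow ht₀𝔅 k)
  obtain ⟨s, hs⟩ := Ideal.mem_span_singleton'.mp hmem
  refine ⟨k, s, t₀ ^ k, ?_, ?_, ?_⟩
  · intro hsw
    have h1 : y * t₀ ^ k ∈ w.asIdeal ^ (k + 1) := by
      rw [← hs, pow_succ, mul_comm s]
      refine Ideal.mul_mem_mul ?_ hsw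
      exact Ideal.pow_mem_pow hϖ1 k
    rw [mul_comm] at h1
    rcases Ideal.IsPrime.mul_mem_pow w.asIdeal h1 with h2 | h2
    · exact ht₀w (hP.mem_of_pow_mem k h2)
    · exact hk1 h2
  · intro h
    exact ht₀w (hP.mem_of_pow_mem k h)
  · rw [← hs, mul_comm]

theorem h1_locramBaux_nonpow (F : Type*) [Field F] [NumberField F] (p : ℕ) [Fact p.Prime]
    (ζ : F) (hζ : IsPrimitiveRoot ζ p) (v : HeightOneSpectrum (𝓞 F))
    (hpv : (p : 𝓞 F) ∉ v.asIdeal) :
    ∃ z₀ : 𝓞 F, z₀ ∉ v.asIdeal ∧ ∀ c d : 𝓞 F, c ∉ v.asIdeal → d ∉ v.asIdeal →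
      z₀ * d ^ p - c ^ p ∉ v.asIdeal := by
  classical
  have hp : p.Prime := Fact.out
  have hmax : v.asIdeal.IsMaximal := v.isMaximal
  have : Finite (𝓞 F ⧸ v.asIdeal) := v.asIdeal.finiteQuotientOfFreeOfNeBot v.ne_bot
  -- the root of unity as an integer
  have hζint : IsIntegral ℤ ζ := hζ.isIntegral hp.pos
  let ζ' : 𝓞 F := ⟨ζ, hζint⟩
  have hζ' : IsPrimitiveRoot ζ' p := by
    have h1 : IsPrimitiveRoot (algebraMap (𝓞 F) F ζ') p := hζ
    exact h1.of_map_of_injective (FaithfulSMul.algebraMap_injective (𝓞 F) F)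
  have hsum : ∑ i ∈ Finset.range p, ζ' ^ i = 0 := hζ'.geom_sum_eq_zero hp.one_lt
  have hpow : ζ' ^ p = 1 := hζ'.pow_eq_one
  let mk := Ideal.Quotient.mk v.asIdeal
  have hmk1 : mk ζ' ≠ 1 := by
    intro h
    apply hpv
    have h2 : mk (∑ i ∈ Finset.range p, ζ' ^ i) = mk (p : 𝓞 F) := by
      rw [map_sum]
      simp only [map_pow, h, one_pow, Finset.sum_const, Finset.card_range, nsmul_eq_mul, mul_one]
      rw [map_natCast]
    rw [hsum, map_zero] at h2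
    exact Ideal.Quotient.eq_zero_iff_mem.mp h2.symm
  -- `x ↦ x ^ p` is not injective on the residue field, hence not surjective
  have hninj : ¬ Function.Injective (fun x : 𝓞 F ⧸ v.asIdeal => x ^ p) := by
    intro hinj
    apply hmk1
    apply hinj
    show mk ζ' ^ p = 1 ^ p
    rw [one_pow, ← map_pow, hpow, map_one]
  have hnsurj : ¬ Function.Surjective (fun x : 𝓞 F ⧸ v.asIdeal => x ^ p) := fun h =>
    hninj (Finite.injective_iff_surjective.mpr h)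
  obtain ⟨t, ht⟩ : ∃ t : 𝓞 F ⧸ v.asIdeal, ∀ x : 𝓞 F ⧸ v.asIdeal, x ^ p ≠ t := by
    by_contra hcon
    push Not at hcon
    exact hnsurj hcon
  obtain ⟨z₀, rfl⟩ := Ideal.Quotient.mk_surjective t
  refine ⟨z₀, ?_, ?_⟩
  · intro hz
    apply ht 0
    rw [zero_pow hp.ne_zero]
    exact (Ideal.Quotient.eq_zero_iff_mem.mpr hz).symm
  · intro c d _ hd hcd
    obtain ⟨e, i, hi, he⟩ := hmax.exists_inv hd
    apply ht (mk (c * e))
    have h1 : mk (z₀ * d ^ p) = mk (c ^ p) := by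
      rw [← sub_eq_zero, ← map_sub]
      exact Ideal.Quotient.eq_zero_iff_mem.mpr hcd
    have h2 : mk (e * d) = 1 := by
      rw [← sub_eq_zero, ← map_one mk, ← map_sub]
      apply Ideal.Quotient.eq_zero_iff_mem.mpr
      have h3 : e * d - 1 = -i := by rw [← he]; ring
      rw [h3]
      exact neg_mem hi
    calc mk (c * e) ^ p = mk (c ^ p) * mk e ^ p := by rw [map_mul, mul_pow, map_pow]
      _ = mk z₀ * (mk (e * d)) ^ p := by rw [← h1]; simp only [map_mul, map_pow]; ring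
      _ = mk z₀ := by rw [h2, one_pow, mul_one]

end Fermat.Agent.S14
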