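import Mathlib
import Fermat.Agent.S14.Defs
import Fermat.Agent.S14.H1Defs

/-! P18 (S14) block H1 (route A, S-units), extra team: orders under the Galois action and under
the inclusion `F ⊂ M` (the three lemmas of `H1OrdExt`, with suffix `_C`). -/

set_option autoImplicit false

namespace Fermat.Agent.S14

open NumberField IsDedekindDomain nonZeroDivisors

/-- The order of a nonzero principal ideal, as a natural number. -/
private theorem h1_ordextc_cnt_span (K : Type*) [Field K] [NumberField K]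
    (v : HeightOneSpectrum (𝓞 K)) (a : 𝓞 K) (ha : a ≠ 0) :
    h1_cnt K v (Ideal.span {a}) =
      ((Associates.mk v.asIdeal).count (Associates.mk (Ideal.span {a})).factors : ℤ) := by
  classical
  unfold h1_cnt
  refine FractionalIdeal.count_coe K v ?_
  rw [Ne, Ideal.zero_eq_bot, Ideal.span_singleton_eq_bot]
  exact ha

/-- Membership in a power of a prime, in terms of the order. -/
private theorem h1_ordextc_mem_pow_iff (K : Type*) [Field K] [NumberField K]
    (v : HeightOneSpectrum (𝓞 K)) (a : 𝓞 K) (ha : a ≠ 0) (n : ℕ) :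
    a ∈ v.asIdeal ^ n ↔
      n ≤ (Associates.mk v.asIdeal).count (Associates.mk (Ideal.span {a})).factors := by
  classical
  rw [← Associates.le_singleton_iff,
    Associates.prime_pow_dvd_iff_le (Associates.mk_ne_zero'.mpr ha) v.associates_irreducible]

/-- Two "logarithmic" functions on `Kˣ` which agree on the nonzero integers agree. -/
private theorem h1_ordextc_ext (K : Type*) [Field K] [NumberField K] (f g : Kˣ → ℤ)
    (hf : ∀ x y, f (x / y) = f x - f y) (hg : ∀ x y, g (x / y) = g x - g y)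
    (h : ∀ (a : 𝓞 K) (u : Kˣ), a ≠ 0 → (u : K) = a → f u = g u) (x : Kˣ) : f x = g x := by
  obtain ⟨a, b, hb, hab⟩ := IsFractionRing.div_surjective (𝓞 K) (x : K)
  have hb0 : b ≠ 0 := nonZeroDivisors.ne_zero hb
  have ha0 : a ≠ 0 := by
    rintro rfl
    rw [map_zero, zero_div] at hab
    exact x.ne_zero hab.symm
  have hb0' : algebraMap (𝓞 K) K b ≠ 0 := by
    rw [Ne, FaithfulSMul.algebraMap_eq_zero_iff]
    exact hb0
  have ha0' : algebraMap (𝓞 K) K a ≠ 0 := by
    rw [Ne, FaithfulSMul.algebraMap_eq_zero_iff]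
    exact ha0
  have hx : x = Units.mk0 _ ha0' / Units.mk0 _ hb0' := by
    ext
    rw [Units.val_div_eq_div_val]
    exact hab.symm
  rw [hx, hf, hg, h a _ ha0 rfl, h b _ hb0 rfl]

/-- An automorphism maps powers of an ideal into powers of its image. -/
private theorem h1_ordextc_smul_mem_pow (F M : Type*) [Field F] [Field M] [Algebra F M]
    (σ : M ≃ₐ[F] M) (I J : Ideal (𝓞 M))
    (h : ∀ x : 𝓞 M, x ∈ I → σ • x ∈ J) (n : ℕ) (a : 𝓞 M) (ha : a ∈ I ^ n) :
    σ • a ∈ J ^ n := by
  have hmap : I.map (MulSemiringAction.toRingHom (M ≃ₐ[F] M) (𝓞 M) σ) ≤ J :=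
    Ideal.map_le_iff_le_comap.mpr fun x hx => h x hx
  have h1 : MulSemiringAction.toRingHom (M ≃ₐ[F] M) (𝓞 M) σ a ∈
      (I ^ n).map (MulSemiringAction.toRingHom (M ≃ₐ[F] M) (𝓞 M) σ) :=
    Ideal.mem_map_of_mem _ ha
  rw [Ideal.map_pow] at h1
  exact Ideal.pow_right_mono hmap n h1

section ext

variable (F M : Type*) [Field F] [NumberField F] [Field M] [NumberField M] [Algebra F M]

/-- `ord_{σ w}(σ y) = ord_w(y)`. -/
theorem h1_ord_gal_C (σ : M ≃ₐ[F] M) (w w' : HeightOneSpectrum (𝓞 M))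
    (h : ∀ x : 𝓞 M, x ∈ w.asIdeal ↔ σ • x ∈ w'.asIdeal) (y : Mˣ) :
    h1_ord M w' (h1_gal σ y) = h1_ord M w y := by
  refine h1_ordextc_ext M (fun y => h1_ord M w' (h1_gal σ y)) (fun y => h1_ord M w y)
    (fun x y => ?_) (fun x y => h1_ord_div M w x y) (fun a u ha hu => ?_) y
  · show h1_ord M w' (h1_gal σ (x / y)) = h1_ord M w' (h1_gal σ x) - h1_ord M w' (h1_gal σ y)
    rw [map_div, h1_ord_div]
  · show h1_ord M w' (h1_gal σ u) = h1_ord M w u
    have hσa : σ • a ≠ 0 := by
      intro h0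
      apply ha
      have h1 : σ⁻¹ • (σ • a) = σ⁻¹ • (0 : 𝓞 M) := by rw [h0]
      rwa [inv_smul_smul, smul_zero] at h1
    have hu' : ((h1_gal σ u : Mˣ) : M) = ((σ • a : 𝓞 M) : M) := by
      rw [h1_gal_coe, hu]
      rfl
    rw [h1_ord_eq_cnt M w' _ (σ • a) hu', h1_ord_eq_cnt M w u a hu,
      h1_ordextc_cnt_span M w' _ hσa, h1_ordextc_cnt_span M w a ha]
    have hinv : ∀ x : 𝓞 M, x ∈ w'.asIdeal → σ⁻¹ • x ∈ w.asIdeal := by
      intro x hx
      rw [h (σ⁻¹ • x), smul_inv_smul]
      exact hx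
    have hle1 : (Associates.mk w.asIdeal).count (Associates.mk (Ideal.span {a})).factors ≤
        (Associates.mk w'.asIdeal).count (Associates.mk (Ideal.span {σ • a})).factors := by
      rw [← h1_ordextc_mem_pow_iff M w' _ hσa]
      exact h1_ordextc_smul_mem_pow F M σ _ _ (fun x hx => (h x).mp hx) _ a
        ((h1_ordextc_mem_pow_iff M w a ha _).mpr le_rfl)
    have hle2 : (Associates.mk w'.asIdeal).count (Associates.mk (Ideal.span {σ • a})).factors ≤
        (Associates.mk w.asIdeal).count (Associates.mk (Ideal.span {a})).factors := by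
      rw [← h1_ordextc_mem_pow_iff M w a ha]
      have h2 := h1_ordextc_smul_mem_pow F M σ⁻¹ _ _ hinv _ (σ • a)
        ((h1_ordextc_mem_pow_iff M w' _ hσa _).mpr le_rfl)
      rwa [inv_smul_smul] at h2
    rw [le_antisymm hle1 hle2]

/-- The order at `w` of an element of `F` is the ramification index times its order below. -/
private theorem h1_ordextc_inc (w : HeightOneSpectrum (𝓞 M)) (x : Fˣ) :
    h1_ord M w (h1_inc F M x) =
      ((h1_under F w).asIdeal.ramificationIdx' w.asIdeal : ℤ) * h1_ord F (h1_under F w) x := by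
  classical
  have hlies : w.asIdeal.LiesOver (h1_under F w).asIdeal := ⟨rfl⟩
  refine h1_ordextc_ext F (fun x => h1_ord M w (h1_inc F M x))
    (fun x => ((h1_under F w).asIdeal.ramificationIdx' w.asIdeal : ℤ) * h1_ord F (h1_under F w) x)
    (fun x y => ?_) (fun x y => ?_) (fun a u ha hu => ?_) x
  · show h1_ord M w (h1_inc F M (x / y)) = h1_ord M w (h1_inc F M x) - h1_ord M w (h1_inc F M y)
    rw [map_div, h1_ord_div]
  · show _ * h1_ord F (h1_under F w) (x / y) = _ * h1_ord F (h1_under F w) x -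
      _ * h1_ord F (h1_under F w) y
    rw [h1_ord_div, mul_sub]
  · show h1_ord M w (h1_inc F M u) = _ * h1_ord F (h1_under F w) u
    have ha' : algebraMap (𝓞 F) (𝓞 M) a ≠ 0 := by
      rw [Ne, FaithfulSMul.algebraMap_eq_zero_iff]
      exact ha
    have hu' : ((h1_inc F M u : Mˣ) : M) = ((algebraMap (𝓞 F) (𝓞 M) a : 𝓞 M) : M) := by
      rw [h1_inc_coe, hu]
      rfl
    rw [h1_ord_eq_cnt M w _ _ hu', h1_ord_eq_cnt F (h1_under F w) u a hu,
      h1_ordextc_cnt_span M w _ ha', h1_ordextc_cnt_span F (h1_under F w) a ha]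
    have h1 := HeightOneSpectrum.intValuation_liesOver (h1_under F w) w a
    rw [(h1_under F w).intValuation_if_neg ha, w.intValuation_if_neg ha', ← WithZero.exp_nsmul,
      WithZero.exp_inj, nsmul_eq_mul] at h1
    linarith

/-- `ord_w(x) = e · ord_v(x)` for `x ∈ Fˣ`, with `e ≥ 1`. -/
theorem h1_ord_inc_C (w : HeightOneSpectrum (𝓞 M)) :
    ∃ e : ℕ, 0 < e ∧ ∀ x : Fˣ, h1_ord M w (h1_inc F M x) = e * h1_ord F (h1_under F w) x := by
  have hlies : w.asIdeal.LiesOver (h1_under F w).asIdeal := ⟨rfl⟩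
  exact ⟨(h1_under F w).asIdeal.ramificationIdx' w.asIdeal,
    Nat.pos_of_ne_zero
      (Ideal.IsDedekindDomain.ramificationIdx'_ne_zero_of_liesOver w.asIdeal (h1_under F w).ne_bot),
    fun x => h1_ordextc_inc F M w x⟩

/-- `e = 1` at a prime with trivial inertia. -/
theorem h1_ord_inc_of_unram_C [IsGalois F M] (w : HeightOneSpectrum (𝓞 M))
    (hw : InertiaTrivialAt F M w.asIdeal) (x : Fˣ) :
    h1_ord M w (h1_inc F M x) = h1_ord F (h1_under F w) x := by
  have hlies : w.asIdeal.LiesOver (h1_under F w).asIdeal := ⟨rfl⟩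
  have htriv : w.asIdeal.inertia (M ≃ₐ[F] M) = ⊥ := by
    rw [eq_bot_iff]
    intro σ hσ
    rw [Subgroup.mem_bot]
    exact hw σ hσ
  have hcard : Nat.card (w.asIdeal.inertia (M ≃ₐ[F] M)) =
      (h1_under F w).asIdeal.ramificationIdxIn (𝓞 M) :=
    Ideal.card_inertia_eq_ramificationIdxIn (h1_under F w).asIdeal w.asIdeal
  rw [Ideal.ramificationIdxIn_eq_ramificationIdx (h1_under F w).asIdeal w.asIdeal (M ≃ₐ[F] M),
    htriv] at hcard
  have he : (h1_under F w).asIdeal.ramificationIdx' w.asIdeal = 1 := by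
    rw [Ideal.ramificationIdx'_eq_ramificationIdx (h1_under F w).asIdeal w.asIdeal
      (h1_under F w).ne_bot, ← hcard]
    simp
  rw [h1_ordextc_inc F M w x, he, Nat.cast_one, one_mul]

end ext

end Fermat.Agent.S14
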