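import Mathlib
import Fermat.Agent.S14.H1Defs
import Fermat.Agent.S14.H1Defs2
import Fermat.Agent.S14.H1SUnit
import Fermat.Agent.S14.H1UnitsRank
import Fermat.Agent.S14.H1Fiber
import Fermat.Agent.S14.H1FixB

/-! P18 (S14) block H1 (route A, S-units), second team: ranks of `E_{M,S}` and of its fixed
subgroup (`h1_rank_count_B`). -/

set_option autoImplicit false

namespace Fermat.Agent.S14

open NumberField IsDedekindDomain nonZeroDivisors

variable (F M : Type*) [Field F] [NumberField F] [Field M] [NumberField M] [Algebra F M]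

/-- A nonsplit prime has exactly one prime above it. -/
theorem h1_rankB_ncard_of_nonsplit
    (hne : ∀ v : HeightOneSpectrum (𝓞 F), ∃ w : HeightOneSpectrum (𝓞 M), h1_under F w = v)
    (v : HeightOneSpectrum (𝓞 F)) (h : h1_nonsplit F M v) :
    {w : HeightOneSpectrum (𝓞 M) | h1_under F w = v}.ncard = 1 := by
  obtain ⟨w₀, hw₀⟩ := hne v
  rw [Set.ncard_eq_one]
  refine ⟨w₀, ?_⟩
  ext w
  simp only [Set.mem_ofPred_eq, Set.mem_singleton_iff]
  exact ⟨fun hw => h w w₀ hw hw₀, fun hw => hw ▸ hw₀⟩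

/-- A prime with exactly one prime above it is nonsplit. -/
theorem h1_rankB_nonsplit_of_ncard (v : HeightOneSpectrum (𝓞 F))
    (h : {w : HeightOneSpectrum (𝓞 M) | h1_under F w = v}.ncard = 1) :
    h1_nonsplit F M v := by
  rw [Set.ncard_eq_one] at h
  obtain ⟨a, ha⟩ := h
  intro w w' hw hw'
  have h1 : w ∈ {w : HeightOneSpectrum (𝓞 M) | h1_under F w = v} := hw
  have h2 : w' ∈ {w : HeightOneSpectrum (𝓞 M) | h1_under F w = v} := hw'
  rw [ha, Set.mem_singleton_iff] at h1 h2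
  rw [h1, h2]

/-- Counting the primes above a finite set `S`. -/
theorem h1_rankB_card (p : ℕ) (S : Finset (HeightOneSpectrum (𝓞 F)))
    (S_M : Finset (HeightOneSpectrum (𝓞 M)))
    (hS_M : (S_M : Set (HeightOneSpectrum (𝓞 M)))
      = h1_above F M (S : Set (HeightOneSpectrum (𝓞 F))))
    (hne : ∀ v : HeightOneSpectrum (𝓞 F), ∃ w : HeightOneSpectrum (𝓞 M), h1_under F w = v)
    (hcard : ∀ v : HeightOneSpectrum (𝓞 F),
      {w : HeightOneSpectrum (𝓞 M) | h1_under F w = v}.ncard = 1 ∨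
        {w : HeightOneSpectrum (𝓞 M) | h1_under F w = v}.ncard = p) :
    ∃ ns d : ℕ, {v : HeightOneSpectrum (𝓞 F) | v ∈ S ∧ h1_nonsplit F M v}.ncard = ns ∧
      S.card = d + ns ∧ S_M.card = ns + p * d := by
  classical
  have hmem : ∀ w, w ∈ S_M ↔ h1_under F w ∈ S := by
    intro w
    have := Set.ext_iff.1 hS_M w
    simpa [h1_above] using this
  have h1 : S_M.card = ∑ v ∈ S, (S_M.filter (fun w => h1_under F w = v)).card :=
    Finset.card_eq_sum_card_fiberwise (fun w hw => (hmem w).1 hw)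
  have h2 : ∀ v ∈ S, (S_M.filter (fun w => h1_under F w = v)).card
      = if h1_nonsplit F M v then 1 else p := by
    intro v hv
    have h3 : (S_M.filter (fun w => h1_under F w = v)).card
        = {w : HeightOneSpectrum (𝓞 M) | h1_under F w = v}.ncard := by
      rw [← Set.ncard_coe_finset]
      congr 1
      ext w
      simp only [Finset.coe_filter, Set.mem_ofPred_eq, hmem]
      exact ⟨fun h => h.2, fun h => ⟨h ▸ hv, h⟩⟩
    rw [h3]
    split_ifs with h
    · exact h1_rankB_ncard_of_nonsplit F M hne v h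
    · rcases hcard v with h4 | h4
      · exact absurd (h1_rankB_nonsplit_of_ncard F M v h4) h
      · exact h4
  rw [Finset.sum_congr rfl h2, Finset.sum_ite] at h1
  simp only [Finset.sum_const, smul_eq_mul, mul_one] at h1
  refine ⟨(S.filter (fun v => h1_nonsplit F M v)).card,
    (S.filter (fun v => ¬ h1_nonsplit F M v)).card, ?_, ?_, ?_⟩
  · rw [← Set.ncard_coe_finset]
    congr 1
    ext v
    simp
  · rw [add_comm]
    exact (Finset.card_filter_add_card_filter_not _).symm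
  · rw [h1, mul_comm]

/-- The rank count, from the fibre facts and the description of the fixed `S`-units. -/
theorem h1_rankB_core (p : ℕ) [Fact p.Prime] (hp : 3 ≤ p)
    (hdeg : Module.finrank F M = p) (ζ : F) (hζ : IsPrimitiveRoot ζ p)
    (σ : M ≃ₐ[F] M) (S : Finset (HeightOneSpectrum (𝓞 F)))
    (hfin : ∀ v : HeightOneSpectrum (𝓞 F),
      {w : HeightOneSpectrum (𝓞 M) | h1_under F w = v}.Finite)
    (hne : ∀ v : HeightOneSpectrum (𝓞 F), ∃ w : HeightOneSpectrum (𝓞 M), h1_under F w = v)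
    (hcard : ∀ v : HeightOneSpectrum (𝓞 F),
      {w : HeightOneSpectrum (𝓞 M) | h1_under F w = v}.ncard = 1 ∨
        {w : HeightOneSpectrum (𝓞 M) | h1_under F w = v}.ncard = p)
    (hfix : h1_sUnits M (h1_above F M (S : Set (HeightOneSpectrum (𝓞 F))))
        ⊓ MonoidHom.eqLocus (h1_gal σ) (MonoidHom.id Mˣ)
      = (h1_sUnits F (S : Set (HeightOneSpectrum (𝓞 F)))).map (h1_inc F M)) :
    ∃ a b : ℕ,
      Module.Finite ℤ (Additive ↥(h1_sUnits M (h1_above F M (S : Set (HeightOneSpectrum (𝓞 F)))))) ∧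
      Module.finrank ℤ (Additive ↥(h1_sUnits M (h1_above F M (S : Set (HeightOneSpectrum (𝓞 F))))
        ⊓ MonoidHom.eqLocus (h1_gal σ) (MonoidHom.id Mˣ))) = a ∧
      Module.finrank ℤ (Additive ↥(h1_sUnits M (h1_above F M (S : Set (HeightOneSpectrum (𝓞 F))))))
        = a + b * (p - 1) ∧
      a + 1 = b + {v : HeightOneSpectrum (𝓞 F) | v ∈ S ∧ h1_nonsplit F M v}.ncard := by
  classical
  have hfinS : (h1_above F M (S : Set (HeightOneSpectrum (𝓞 F)))).Finite := by
    have : h1_above F M (S : Set (HeightOneSpectrum (𝓞 F)))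
        = ⋃ v ∈ S, {w : HeightOneSpectrum (𝓞 M) | h1_under F w = v} := by
      ext w
      simp [h1_above]
    rw [this]
    exact Set.Finite.biUnion S.finite_toSet (fun v _ => hfin v)
  have hS_M : (hfinS.toFinset : Set (HeightOneSpectrum (𝓞 M)))
      = h1_above F M (S : Set (HeightOneSpectrum (𝓞 F))) := hfinS.coe_toFinset
  obtain ⟨hMfin, hMrank⟩ := h1_sunit_rank M hfinS.toFinset
  rw [hS_M] at hMfin hMrank
  obtain ⟨-, hFrank⟩ := h1_sunit_rank F S
  obtain ⟨ns, d, hns, hSd, hSM⟩ := h1_rankB_card F M p S hfinS.toFinset hS_M hne hcard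
  have hrel := h1_units_rank_rel (F := F) (M := M) p hp hdeg ζ hζ
  have hinj : Function.Injective (h1_inc F M) :=
    Units.map_injective (algebraMap F M).injective
  have hfixrank : Module.finrank ℤ
      (Additive ↥(h1_sUnits M (h1_above F M (S : Set (HeightOneSpectrum (𝓞 F))))
        ⊓ MonoidHom.eqLocus (h1_gal σ) (MonoidHom.id Mˣ)))
      = Module.finrank ℤ (Additive ↥(h1_sUnits F (S : Set (HeightOneSpectrum (𝓞 F))))) := by
    rw [hfix]
    exact (LinearEquiv.finrank_eq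
      ((Subgroup.equivMapOfInjective _ _ hinj).toAdditive.toIntLinearEquiv)).symm
  refine ⟨Module.finrank ℤ (Additive (𝓞 F)ˣ) + S.card,
    Module.finrank ℤ (Additive (𝓞 F)ˣ) + 1 + d, hMfin, ?_, ?_, ?_⟩
  · rw [hfixrank, hFrank]
  · rw [hMrank, hSM, hSd]
    obtain ⟨q, rfl⟩ : ∃ q, p = q + 1 := ⟨p - 1, by omega⟩
    have hrM : Module.finrank ℤ (Additive (𝓞 M)ˣ)
        = q * (Module.finrank ℤ (Additive (𝓞 F)ˣ) + 1) + Module.finrank ℤ (Additive (𝓞 F)ˣ) := by
      have : Module.finrank ℤ (Additive (𝓞 M)ˣ) + 1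
          = q * (Module.finrank ℤ (Additive (𝓞 F)ˣ) + 1)
            + Module.finrank ℤ (Additive (𝓞 F)ˣ) + 1 := by
        rw [hrel]; ring
      omega
    rw [hrM, Nat.add_sub_cancel]
    ring
  · rw [hns, hSd]
    ring

/-- Ranks of the `S`-units of `M` and of their Galois-fixed part. -/
theorem h1_rank_count_B [IsGalois F M] (p : ℕ) [Fact p.Prime] (hp : 3 ≤ p)
    (hdeg : Module.finrank F M = p) (ζ : F) (hζ : IsPrimitiveRoot ζ p)
    (σ : M ≃ₐ[F] M) (hσ : σ ≠ 1) (S : Finset (HeightOneSpectrum (𝓞 F))) :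
    ∃ a b : ℕ,
      Module.Finite ℤ (Additive ↥(h1_sUnits M (h1_above F M (S : Set (HeightOneSpectrum (𝓞 F)))))) ∧
      Module.finrank ℤ (Additive ↥(h1_sUnits M (h1_above F M (S : Set (HeightOneSpectrum (𝓞 F))))
        ⊓ MonoidHom.eqLocus (h1_gal σ) (MonoidHom.id Mˣ))) = a ∧
      Module.finrank ℤ (Additive ↥(h1_sUnits M (h1_above F M (S : Set (HeightOneSpectrum (𝓞 F))))))
        = a + b * (p - 1) ∧
      a + 1 = b + {v : HeightOneSpectrum (𝓞 F) | v ∈ S ∧ h1_nonsplit F M v}.ncard :=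
  h1_rankB_core F M p hp hdeg ζ hζ σ S (h1_fiber_finite F M) (h1_fiber_nonempty F M)
    (h1_fiber_ncard F M p hdeg)
    (h1_sUnits_fixed_B F M p hdeg σ hσ (S : Set (HeightOneSpectrum (𝓞 F))))

end Fermat.Agent.S14
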