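import Mathlib
import Fermat.Agent.S14.Defs
import Fermat.Agent.S14.H1Defs
import Fermat.Agent.S14.H1BDefs

/-!
# P18 (S14), block H1, route B, slice (f): finiteness of the ray class group

`h1b_index_ne_zero` : the image of the ray modulo `𝔪 𝓞_M` under the divisor map
`Mˣ → Div(M, prime to 𝔪)` has finite index (for `𝔪 ≠ 0`).

Proof: every divisor `d` prime to `𝔪` is `div(𝔞) - div(𝔟)` with integral ideals `𝔞, 𝔟` prime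
to `𝔐 = 𝔪 𝓞_M`; multiplying by a representative `𝔯(c)` (prime to `𝔐`) of the inverse ideal
class makes them principal, `𝔯([𝔞]) 𝔞 = (t₁)`, `𝔯([𝔟]) 𝔟 = (t₂)`.  The map
`d ↦ ([𝔞], [𝔟], t₁ mod 𝔐, t₂ mod 𝔐)` takes finitely many values, and two divisors with the same
value differ by the divisor of an element of the ray.
-/

set_option autoImplicit false

namespace Fermat.Agent.S14

open NumberField IsDedekindDomain
open scoped Pointwise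

section h1bf_general

/-- A subgroup `H` of `J` has finite index as soon as some map `g` from `J` to a finite type
satisfies `g d = g d' → d⁻¹ * d' ∈ H`. -/
theorem h1bf_index_ne_zero_of_reflect {J : Type*} [Group J] (H : Subgroup J) {Y : Type*}
    [Finite Y] (g : J → Y) (hg : ∀ d d' : J, g d = g d' → d⁻¹ * d' ∈ H) : H.index ≠ 0 := by
  have hinj : Function.Injective (fun q : J ⧸ H => g (Quotient.out q)) := by
    intro q q' hqq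
    have h := hg _ _ hqq
    have h2 : (QuotientGroup.mk (Quotient.out q) : J ⧸ H) = QuotientGroup.mk (Quotient.out q') :=
      QuotientGroup.eq.mpr h
    rw [QuotientGroup.out_eq', QuotientGroup.out_eq'] at h2
    exact h2
  have : Finite (J ⧸ H) := Finite.of_injective _ hinj
  exact Subgroup.index_ne_zero_of_finite

end h1bf_general

section h1bf_cnt

variable {M : Type*} [Field M] [NumberField M]

theorem h1bf_cnt_mul (v : HeightOneSpectrum (𝓞 M)) {I J : Ideal (𝓞 M)} (hI : I ≠ ⊥)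
    (hJ : J ≠ ⊥) : h1_cnt M v (I * J) = h1_cnt M v I + h1_cnt M v J := by
  unfold h1_cnt
  rw [FractionalIdeal.coeIdeal_mul, FractionalIdeal.count_mul M v
    (FractionalIdeal.coeIdeal_ne_zero.mpr hI) (FractionalIdeal.coeIdeal_ne_zero.mpr hJ)]

theorem h1bf_cnt_top (v : HeightOneSpectrum (𝓞 M)) : h1_cnt M v ⊤ = 0 := by
  unfold h1_cnt
  rw [FractionalIdeal.coeIdeal_top, FractionalIdeal.count_one]

theorem h1bf_cnt_pow (v : HeightOneSpectrum (𝓞 M)) (I : Ideal (𝓞 M)) (n : ℕ) :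
    h1_cnt M v (I ^ n) = n * h1_cnt M v I := by
  unfold h1_cnt
  rw [FractionalIdeal.coeIdeal_pow, FractionalIdeal.count_pow]

theorem h1bf_cnt_self (v : HeightOneSpectrum (𝓞 M)) : h1_cnt M v v.asIdeal = 1 := by
  unfold h1_cnt
  exact FractionalIdeal.count_self M v

theorem h1bf_cnt_of_ne (v w : HeightOneSpectrum (𝓞 M)) (h : w ≠ v) :
    h1_cnt M v w.asIdeal = 0 := by
  unfold h1_cnt
  exact FractionalIdeal.count_maximal_coprime M v h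

end h1bf_cnt

section h1bf_ideals

variable {M : Type*} [Field M] [NumberField M]

/-- Every divisor supported on primes prime to `𝔐` is `div 𝔞 - div 𝔟` with integral ideals
`𝔞, 𝔟` prime to `𝔐`. -/
theorem h1bf_exists_ideals (𝔐 : Ideal (𝓞 M)) (P : HeightOneSpectrum (𝓞 M) → Prop)
    (hP : ∀ w, P w → IsCoprime w.asIdeal 𝔐) (d : {w // P w} →₀ ℤ) :
    ∃ 𝔞 𝔟 : Ideal (𝓞 M), 𝔞 ≠ ⊥ ∧ 𝔟 ≠ ⊥ ∧ IsCoprime 𝔞 𝔐 ∧ IsCoprime 𝔟 𝔐 ∧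
      ∀ w : {w // P w}, d w = h1_cnt M w.1 𝔞 - h1_cnt M w.1 𝔟 := by
  induction d using Finsupp.induction_linear with
  | zero =>
    refine ⟨⊤, ⊤, top_ne_bot, top_ne_bot, ?_, ?_, fun w => ?_⟩
    · rw [← Ideal.one_eq_top]; exact isCoprime_one_left
    · rw [← Ideal.one_eq_top]; exact isCoprime_one_left
    · rw [h1bf_cnt_top]; simp
  | add d₁ d₂ h₁ h₂ =>
    obtain ⟨𝔞₁, 𝔟₁, ha₁, hb₁, hca₁, hcb₁, h₁⟩ := h₁
    obtain ⟨𝔞₂, 𝔟₂, ha₂, hb₂, hca₂, hcb₂, h₂⟩ := h₂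
    refine ⟨𝔞₁ * 𝔞₂, 𝔟₁ * 𝔟₂, mul_ne_zero ha₁ ha₂, mul_ne_zero hb₁ hb₂,
      IsCoprime.mul_left hca₁ hca₂, IsCoprime.mul_left hcb₁ hcb₂, fun w => ?_⟩
    rw [Finsupp.add_apply, h₁ w, h₂ w, h1bf_cnt_mul w.1 ha₁ ha₂, h1bf_cnt_mul w.1 hb₁ hb₂]
    ring
  | single w n =>
    have hw0 : w.1.asIdeal ≠ ⊥ := w.1.ne_bot
    refine ⟨w.1.asIdeal ^ n.toNat, w.1.asIdeal ^ (-n).toNat, pow_ne_zero _ hw0,
      pow_ne_zero _ hw0, IsCoprime.pow_left (hP w.1 w.2), IsCoprime.pow_left (hP w.1 w.2),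
      fun w' => ?_⟩
    rw [h1bf_cnt_pow, h1bf_cnt_pow, ← sub_mul, Int.toNat_sub_toNat_neg]
    by_cases hww : w = w'
    · subst hww
      rw [Finsupp.single_eq_same, h1bf_cnt_self, mul_one]
    · have hne : w.1 ≠ w'.1 := fun h => hww (Subtype.ext h)
      rw [Finsupp.single_eq_of_ne (Ne.symm hww), h1bf_cnt_of_ne _ _ hne, mul_zero]

end h1bf_ideals

section h1bf_class

variable {M : Type*} [Field M] [NumberField M]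

/-- `𝔯` is a nonzero integral ideal prime to `𝔐` in the ideal class `c⁻¹`. -/
def h1bf_IsRep (𝔐 : Ideal (𝓞 M)) (c : ClassGroup (𝓞 M)) (𝔯 : Ideal (𝓞 M)) : Prop :=
  ∃ h0 : 𝔯 ≠ ⊥, IsCoprime 𝔯 𝔐 ∧
    ClassGroup.mk0 ⟨𝔯, mem_nonZeroDivisors_of_ne_zero h0⟩ = c⁻¹

open Classical in
/-- A chosen nonzero integral ideal prime to `𝔐` in the class `c⁻¹` (if there is one). -/
noncomputable def h1bf_rep (𝔐 : Ideal (𝓞 M)) (c : ClassGroup (𝓞 M)) : Ideal (𝓞 M) :=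
  if h : ∃ 𝔯, h1bf_IsRep 𝔐 c 𝔯 then h.choose else ⊤

theorem h1bf_rep_spec (𝔐 : Ideal (𝓞 M)) (c : ClassGroup (𝓞 M))
    (h : ∃ 𝔯, h1bf_IsRep 𝔐 c 𝔯) : h1bf_IsRep 𝔐 c (h1bf_rep 𝔐 c) := by
  unfold h1bf_rep
  rw [dif_pos h]
  exact h.choose_spec

/-- For a nonzero ideal `𝔞` prime to `𝔐`, the power `𝔞 ^ (h - 1)` is prime to `𝔐` and lies in
the inverse class. -/
theorem h1bf_exists_isRep (𝔐 : Ideal (𝓞 M)) (𝔞 : Ideal (𝓞 M)) (h0 : 𝔞 ≠ ⊥)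
    (hc : IsCoprime 𝔞 𝔐) :
    ∃ 𝔯, h1bf_IsRep 𝔐 (ClassGroup.mk0 ⟨𝔞, mem_nonZeroDivisors_of_ne_zero h0⟩) 𝔯 := by
  refine ⟨𝔞 ^ (Fintype.card (ClassGroup (𝓞 M)) - 1), pow_ne_zero _ h0,
    IsCoprime.pow_left hc, ?_⟩
  have hpos : 0 < Fintype.card (ClassGroup (𝓞 M)) := Fintype.card_pos
  have e1 : (⟨𝔞 ^ (Fintype.card (ClassGroup (𝓞 M)) - 1),
      mem_nonZeroDivisors_of_ne_zero (pow_ne_zero _ h0)⟩ : nonZeroDivisors (Ideal (𝓞 M))) =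
      (⟨𝔞, mem_nonZeroDivisors_of_ne_zero h0⟩ : nonZeroDivisors (Ideal (𝓞 M))) ^
        (Fintype.card (ClassGroup (𝓞 M)) - 1) := by
    apply Subtype.ext
    rw [SubmonoidClass.coe_pow]
  rw [e1, map_pow]
  apply eq_inv_of_mul_eq_one_left
  rw [← pow_succ, Nat.sub_add_cancel hpos, pow_card_eq_one]

/-- For a nonzero ideal `𝔞` prime to `𝔐`, the product `𝔯([𝔞]) 𝔞` is principal, generated by
a nonzero `t` prime to `𝔐`. -/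
theorem h1bf_exists_gen (𝔐 : Ideal (𝓞 M)) (𝔞 : Ideal (𝓞 M)) (h0 : 𝔞 ≠ ⊥)
    (hc : IsCoprime 𝔞 𝔐) :
    ∃ (c : ClassGroup (𝓞 M)) (t : 𝓞 M), t ≠ 0 ∧ IsCoprime (Ideal.span {t}) 𝔐 ∧
      h1bf_rep 𝔐 c ≠ ⊥ ∧ h1bf_rep 𝔐 c * 𝔞 = Ideal.span {t} := by
  obtain ⟨hr0, hrc, hcls⟩ := h1bf_rep_spec 𝔐 _ (h1bf_exists_isRep 𝔐 𝔞 h0 hc)
  obtain ⟨t, ht0, ht⟩ := ClassGroup.mk0_eq_mk0_inv_iff.mp hcls
  refine ⟨_, t, ht0, ?_, hr0, ht⟩
  rw [← ht]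
  exact IsCoprime.mul_left hrc hc

/-- Every divisor `d` prime to `𝔐` is `div (t₁) - div 𝔯(c₁) - (div (t₂) - div 𝔯(c₂))` with
`t₁, t₂` nonzero integers prime to `𝔐`. -/
theorem h1bf_exists_data (𝔐 : Ideal (𝓞 M)) (P : HeightOneSpectrum (𝓞 M) → Prop)
    (hP : ∀ w, P w → IsCoprime w.asIdeal 𝔐) (d : {w // P w} →₀ ℤ) :
    ∃ (c₁ c₂ : ClassGroup (𝓞 M)) (t₁ t₂ : 𝓞 M), t₁ ≠ 0 ∧ t₂ ≠ 0 ∧
      IsCoprime (Ideal.span {t₁}) 𝔐 ∧ IsCoprime (Ideal.span {t₂}) 𝔐 ∧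
      ∀ w : {w // P w}, d w =
        (h1_cnt M w.1 (Ideal.span {t₁}) - h1_cnt M w.1 (h1bf_rep 𝔐 c₁)) -
          (h1_cnt M w.1 (Ideal.span {t₂}) - h1_cnt M w.1 (h1bf_rep 𝔐 c₂)) := by
  obtain ⟨𝔞, 𝔟, ha, hb, hca, hcb, hd⟩ := h1bf_exists_ideals 𝔐 P hP d
  obtain ⟨c₁, t₁, ht₁, hct₁, hr₁, e₁⟩ := h1bf_exists_gen 𝔐 𝔞 ha hca
  obtain ⟨c₂, t₂, ht₂, hct₂, hr₂, e₂⟩ := h1bf_exists_gen 𝔐 𝔟 hb hcb
  refine ⟨c₁, c₂, t₁, t₂, ht₁, ht₂, hct₁, hct₂, fun w => ?_⟩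
  rw [hd w, ← e₁, ← e₂, h1bf_cnt_mul w.1 hr₁ ha, h1bf_cnt_mul w.1 hr₂ hb]
  ring

end h1bf_class

section h1bf_main

variable (F M : Type*) [Field F] [NumberField F] [Field M] [NumberField M] [Algebra F M]

omit [NumberField F] in
/-- The primes of `M` not above `𝔪` are prime to `𝔪 𝓞_M`. -/
theorem h1bf_isCoprime_W (𝔪 : Ideal (𝓞 F)) (w : HeightOneSpectrum (𝓞 M))
    (hw : ¬ 𝔪 ≤ (h1_under F w).asIdeal) : IsCoprime w.asIdeal (h1b_mod F M 𝔪) := by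
  rw [Ideal.isCoprime_iff_sup_eq]
  by_contra hne
  have h1 : w.asIdeal = w.asIdeal ⊔ h1b_mod F M 𝔪 := w.isMaximal.eq_of_le hne le_sup_left
  have h2 : h1b_mod F M 𝔪 ≤ w.asIdeal := h1 ▸ le_sup_right
  exact hw (Ideal.map_le_iff_le_comap.mp h2)

omit [NumberField F] [NumberField M] in
theorem h1bf_mod_ne_bot (𝔪 : Ideal (𝓞 F)) (h𝔪 : 𝔪 ≠ ⊥) : h1b_mod F M 𝔪 ≠ ⊥ := by
  intro h
  exact h𝔪 ((Ideal.map_eq_bot_iff_of_injective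
    (FaithfulSMul.algebraMap_injective (𝓞 F) (𝓞 M))).mp h)

theorem h1b_index_ne_zero (𝔪 : Ideal (𝓞 F)) (h𝔪 : 𝔪 ≠ ⊥) :
    ((h1b_ray (h1b_mod F M 𝔪)).map (h1b_dv F M 𝔪)).index ≠ 0 := by
  classical
  have h𝔐 : h1b_mod F M 𝔪 ≠ ⊥ := h1bf_mod_ne_bot F M 𝔪 h𝔪
  have : Finite (𝓞 M ⧸ h1b_mod F M 𝔪) := Ideal.finiteQuotientOfFreeOfNeBot _ h𝔐
  have hP : ∀ w : HeightOneSpectrum (𝓞 M), ¬ 𝔪 ≤ (h1_under F w).asIdeal →
      IsCoprime w.asIdeal (h1b_mod F M 𝔪) := h1bf_isCoprime_W F M 𝔪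
  choose c₁ c₂ t₁ t₂ ht₁ ht₂ hc₁ hc₂ hd using
    fun d : Multiplicative (h1b_W F M 𝔪 →₀ ℤ) =>
      h1bf_exists_data (h1b_mod F M 𝔪) _ hP (Multiplicative.toAdd d)
  refine h1bf_index_ne_zero_of_reflect _
    (fun d => (c₁ d, c₂ d, Ideal.Quotient.mk (h1b_mod F M 𝔪) (t₁ d),
      Ideal.Quotient.mk (h1b_mod F M 𝔪) (t₂ d))) ?_
  intro d d' hdd
  simp only [Prod.mk.injEq] at hdd
  obtain ⟨e1, e2, e3, e4⟩ := hdd
  rw [Ideal.Quotient.eq] at e3 e4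
  have hu : ∀ t : 𝓞 M, t ≠ 0 → (t : M) ≠ 0 := fun t ht => by exact_mod_cast ht
  refine Subgroup.mem_map.mpr ⟨Units.mk0 (t₁ d' : M) (hu _ (ht₁ d')) *
    Units.mk0 (t₂ d : M) (hu _ (ht₂ d)) *
    (Units.mk0 (t₂ d' : M) (hu _ (ht₂ d')) * Units.mk0 (t₁ d : M) (hu _ (ht₁ d)))⁻¹, ?_, ?_⟩
  · rw [h1b_mem_ray]
    refine ⟨t₁ d' * t₂ d, t₂ d' * t₁ d, mul_ne_zero (ht₂ d') (ht₁ d),
      h1b_isCoprime_mul (hc₂ d') (hc₁ d), ?_, ?_⟩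
    · have e : t₁ d' * t₂ d - t₂ d' * t₁ d =
          -(t₁ d - t₁ d') * t₂ d + t₁ d * (t₂ d - t₂ d') := by ring
      rw [e]
      exact Ideal.add_mem _ (Ideal.mul_mem_right _ _ (neg_mem e3))
        (Ideal.mul_mem_left _ _ e4)
    · have e : (Units.mk0 (t₁ d' : M) (hu _ (ht₁ d')) *
          Units.mk0 (t₂ d : M) (hu _ (ht₂ d)) *
          (Units.mk0 (t₂ d' : M) (hu _ (ht₂ d')) * Units.mk0 (t₁ d : M) (hu _ (ht₁ d)))⁻¹) *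
          (Units.mk0 (t₂ d' : M) (hu _ (ht₂ d')) * Units.mk0 (t₁ d : M) (hu _ (ht₁ d))) =
          Units.mk0 (t₁ d' : M) (hu _ (ht₁ d')) * Units.mk0 (t₂ d : M) (hu _ (ht₂ d)) :=
        inv_mul_cancel_right _ _
      exact congrArg Units.val e
  · apply Multiplicative.toAdd.injective
    ext w
    rw [h1b_dv_apply, toAdd_mul, toAdd_inv, Finsupp.add_apply, Finsupp.neg_apply, hd d w,
      hd d' w, ← e1, ← e2, h1_ord_mul, h1_ord_inv, h1_ord_mul, h1_ord_mul,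
      h1_ord_eq_cnt M w.1 _ (t₁ d') rfl, h1_ord_eq_cnt M w.1 _ (t₂ d) rfl,
      h1_ord_eq_cnt M w.1 _ (t₂ d') rfl, h1_ord_eq_cnt M w.1 _ (t₁ d) rfl]
    ring

end h1bf_main

end Fermat.Agent.S14
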