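import Mathlib

/-!
# P18 (S14) block H1, slice (d2): the valuation vector of an `S`-unit

`h1_sunitVal K S : Additive (S-units of K) →ₗ[ℤ] (S → ℤ)`, `x ↦ (ord_v x)_{v ∈ S}`, for a finite
set `S` of finite places of a number field `K`.  (The lemmas about its kernel and its range are
in `H1SUnitValLemmas.lean` and `H1SUnit.lean`.)
-/

set_option autoImplicit false

namespace Fermat.Agent.S14

open NumberField IsDedekindDomain

/-- The valuation vector `x ↦ (ord_v x)_{v ∈ S}` on the group of `S`-units, as a `ℤ`-linear map
on `Additive` (`ord_v x := - toAdd (v.valuationOfNeZero x)`, so that `ord_v ≥ 0` on integers). -/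
noncomputable def h1_sunitVal (K : Type*) [Field K] [NumberField K]
    (S : Finset (HeightOneSpectrum (𝓞 K))) :
    Additive ↥((S : Set (HeightOneSpectrum (𝓞 K))).unit K) →ₗ[ℤ] (↥S → ℤ) :=
  AddMonoidHom.toIntLinearMap
    { toFun := fun x v =>
        - Multiplicative.toAdd ((v : HeightOneSpectrum (𝓞 K)).valuationOfNeZero
            ((Additive.toMul x : ↥((S : Set (HeightOneSpectrum (𝓞 K))).unit K)) : Kˣ))
      map_zero' := by
        funext v
        simp
      map_add' := fun x y => by
        funext v
        simp [add_comm] }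

theorem h1_sunitVal_apply (K : Type*) [Field K] [NumberField K]
    (S : Finset (HeightOneSpectrum (𝓞 K)))
    (x : Additive ↥((S : Set (HeightOneSpectrum (𝓞 K))).unit K)) (v : ↥S) :
    h1_sunitVal K S x v = - Multiplicative.toAdd ((v : HeightOneSpectrum (𝓞 K)).valuationOfNeZero
      ((Additive.toMul x : ↥((S : Set (HeightOneSpectrum (𝓞 K))).unit K)) : Kˣ)) := rfl

end Fermat.Agent.S14
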