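import Mathlib
import Fermat.Agent.S14.Defs
import Fermat.Agent.S14.H1Defs

/-!
# P18 (S14), block H1 (route A, S-units), second team: inert and ramified primes

Let `M/F` be a Galois extension of number fields of prime degree `p` and `w` a prime of `M`
above the prime `v` of `F`.  From `g * (e * f) = p` and `e = #(inertia group)` we get:

* `h1_relNorm_inert_B` : if `w` is the only prime above `v` and its inertia group is trivial then
  `N w = v ^ p`;
* `h1_ramified_unique_B`, `h1_ramified_inertia_B`, `h1_ramified_residue_B`,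
  `h1_relNorm_ramified_B` : if the inertia group of `w` is not trivial then `w` is the only prime
  above `v`, the inertia group is the whole Galois group, the residue degree is one and `N w = v`.
-/

set_option autoImplicit false

namespace Fermat.Agent.S14

open NumberField IsDedekindDomain nonZeroDivisors

variable (F M : Type*) [Field F] [NumberField F] [Field M] [NumberField M] [Algebra F M]

omit [NumberField F] [NumberField M] in
/-- `w` lies over the prime below it. -/
theorem h1_splitbB_liesOver (w : HeightOneSpectrum (𝓞 M)) :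
    w.asIdeal.LiesOver (h1_under F w).asIdeal := ⟨rfl⟩

/-- The fundamental identity `g * e * f = p`, with `e` the order of the inertia group. -/
theorem h1_splitbB_fund [IsGalois F M] (p : ℕ) (hdeg : Module.finrank F M = p)
    (w : HeightOneSpectrum (𝓞 M)) :
    ((h1_under F w).asIdeal.primesOver (𝓞 M)).ncard *
      Nat.card (w.asIdeal.inertia (M ≃ₐ[F] M)) * w.asIdeal.inertiaDeg (𝓞 F) = p := by
  have : w.asIdeal.LiesOver (h1_under F w).asIdeal := h1_splitbB_liesOver F M w
  rw [Ideal.ncard_primesOver_mul_card_inertia_mul_finrank (G := M ≃ₐ[F] M)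
    (h1_under F w).asIdeal w.asIdeal, IsGalois.card_aut_eq_finrank, hdeg]

omit [NumberField F] [NumberField M] in
/-- The set of primes above `v` is `{w}` if `w` is the only prime above `v`. -/
theorem h1_splitbB_ncard_of_unique (w : HeightOneSpectrum (𝓞 M))
    (huniq : ∀ w' : HeightOneSpectrum (𝓞 M), h1_under F w' = h1_under F w → w' = w) :
    ((h1_under F w).asIdeal.primesOver (𝓞 M)).ncard = 1 := by
  rw [Set.ncard_eq_one]
  refine ⟨w.asIdeal, ?_⟩
  ext Q
  constructor
  · rintro ⟨hQ, hQv⟩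
    have hQ0 : Q ≠ ⊥ := by
      rintro rfl
      have h := hQv.over
      rw [Ideal.under_bot] at h
      exact (h1_under F w).ne_bot h
    have h1 : h1_under F (⟨Q, hQ, hQ0⟩ : HeightOneSpectrum (𝓞 M)) = h1_under F w :=
      HeightOneSpectrum.ext hQv.over.symm
    exact congrArg HeightOneSpectrum.asIdeal (huniq _ h1)
  · rintro rfl
    exact ⟨w.isPrime, h1_splitbB_liesOver F M w⟩

omit [NumberField F] [NumberField M] in
/-- Uniqueness of the prime above `v` from `g = 1`. -/
theorem h1_splitbB_unique_of_ncard (w : HeightOneSpectrum (𝓞 M))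
    (h : ((h1_under F w).asIdeal.primesOver (𝓞 M)).ncard = 1) :
    ∀ w' : HeightOneSpectrum (𝓞 M), h1_under F w' = h1_under F w → w' = w := by
  intro w' hw'
  obtain ⟨Q, hQ⟩ := Set.ncard_eq_one.mp h
  have h1 : w.asIdeal ∈ (h1_under F w).asIdeal.primesOver (𝓞 M) :=
    ⟨w.isPrime, h1_splitbB_liesOver F M w⟩
  have h2 : w'.asIdeal ∈ (h1_under F w).asIdeal.primesOver (𝓞 M) :=
    ⟨w'.isPrime, hw' ▸ h1_splitbB_liesOver F M w'⟩
  rw [hQ, Set.mem_singleton_iff] at h1 h2
  exact HeightOneSpectrum.ext (h2.trans h1.symm)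

/-- Trivial inertia ⇒ the inertia subgroup is `⊥`. -/
theorem h1_splitbB_inertia_card_of_trivial (w : HeightOneSpectrum (𝓞 M))
    (hw : InertiaTrivialAt F M w.asIdeal) :
    Nat.card (w.asIdeal.inertia (M ≃ₐ[F] M)) = 1 := by
  rw [Subgroup.card_eq_one, Subgroup.eq_bot_iff_forall]
  intro σ hσ
  exact hw σ hσ

/-- Nontrivial inertia ⇒ the inertia subgroup has order `p`. -/
theorem h1_splitbB_inertia_card_of_ramified [IsGalois F M] (p : ℕ) [Fact p.Prime]
    (hdeg : Module.finrank F M = p) (w : HeightOneSpectrum (𝓞 M))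
    (hw : ¬ InertiaTrivialAt F M w.asIdeal) :
    Nat.card (w.asIdeal.inertia (M ≃ₐ[F] M)) = p := by
  have hdvd : Nat.card (w.asIdeal.inertia (M ≃ₐ[F] M)) ∣ p := by
    have h := Subgroup.card_subgroup_dvd_card (w.asIdeal.inertia (M ≃ₐ[F] M))
    rwa [IsGalois.card_aut_eq_finrank, hdeg] at h
  rcases (Nat.dvd_prime (Fact.out : p.Prime)).mp hdvd with h1 | h1
  · exfalso
    apply hw
    intro σ hσ
    rw [Subgroup.card_eq_one, Subgroup.eq_bot_iff_forall] at h1
    exact h1 σ hσ
  · exact h1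

/-- Nontrivial inertia ⇒ `g = 1` and `f = 1`. -/
theorem h1_splitbB_ramified_nums [IsGalois F M] (p : ℕ) [Fact p.Prime]
    (hdeg : Module.finrank F M = p) (w : HeightOneSpectrum (𝓞 M))
    (hw : ¬ InertiaTrivialAt F M w.asIdeal) :
    ((h1_under F w).asIdeal.primesOver (𝓞 M)).ncard = 1 ∧ w.asIdeal.inertiaDeg (𝓞 F) = 1 := by
  have h := h1_splitbB_fund F M p hdeg w
  rw [h1_splitbB_inertia_card_of_ramified F M p hdeg w hw] at h
  have hp : 0 < p := (Fact.out : p.Prime).pos
  have h2 : ((h1_under F w).asIdeal.primesOver (𝓞 M)).ncard * w.asIdeal.inertiaDeg (𝓞 F) = 1 := by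
    have h3 : p * (((h1_under F w).asIdeal.primesOver (𝓞 M)).ncard *
        w.asIdeal.inertiaDeg (𝓞 F)) = p * 1 := by
      rw [mul_one, mul_left_comm, ← mul_assoc]
      exact h
    exact Nat.eq_of_mul_eq_mul_left hp h3
  exact ⟨Nat.eq_one_of_mul_eq_one_right h2, Nat.eq_one_of_mul_eq_one_left h2⟩

/-- `N w = v ^ f`. -/
theorem h1_splitbB_relNorm (w : HeightOneSpectrum (𝓞 M)) :
    Ideal.relNorm (𝓞 F) w.asIdeal = (h1_under F w).asIdeal ^ w.asIdeal.inertiaDeg (𝓞 F) := by
  have : w.asIdeal.LiesOver (h1_under F w).asIdeal := h1_splitbB_liesOver F M w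
  exact Ideal.relNorm_eq_pow_of_isMaximal w.asIdeal (h1_under F w).asIdeal

/-- Inert prime: unique above `v`, trivial inertia ⇒ `N w = v ^ p`. -/
theorem h1_relNorm_inert_B [IsGalois F M] (p : ℕ) [Fact p.Prime] (hdeg : Module.finrank F M = p)
    (w : HeightOneSpectrum (𝓞 M))
    (huniq : ∀ w' : HeightOneSpectrum (𝓞 M), h1_under F w' = h1_under F w → w' = w)
    (hw : InertiaTrivialAt F M w.asIdeal) :
    Ideal.relNorm (𝓞 F) w.asIdeal = (h1_under F w).asIdeal ^ p := by
  have h := h1_splitbB_fund F M p hdeg w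
  rw [h1_splitbB_ncard_of_unique F M w huniq, h1_splitbB_inertia_card_of_trivial F M w hw,
    one_mul, one_mul] at h
  rw [h1_splitbB_relNorm, h]

/-- Ramified prime ⇒ it is the unique prime above `v`. -/
theorem h1_ramified_unique_B [IsGalois F M] (p : ℕ) [Fact p.Prime] (hdeg : Module.finrank F M = p)
    (w : HeightOneSpectrum (𝓞 M)) (hw : ¬ InertiaTrivialAt F M w.asIdeal) :
    ∀ w' : HeightOneSpectrum (𝓞 M), h1_under F w' = h1_under F w → w' = w :=
  h1_splitbB_unique_of_ncard F M w (h1_splitbB_ramified_nums F M p hdeg w hw).1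

/-- Ramified prime ⇒ the whole Galois group is the inertia group. -/
theorem h1_ramified_inertia_B [IsGalois F M] (p : ℕ) [Fact p.Prime] (hdeg : Module.finrank F M = p)
    (w : HeightOneSpectrum (𝓞 M)) (hw : ¬ InertiaTrivialAt F M w.asIdeal) :
    ∀ (σ : M ≃ₐ[F] M) (x : 𝓞 M), σ • x - x ∈ w.asIdeal := by
  have h := h1_splitbB_inertia_card_of_ramified F M p hdeg w hw
  have htop : w.asIdeal.inertia (M ≃ₐ[F] M) = ⊤ := by
    apply Subgroup.eq_top_of_card_eq
    rw [h, IsGalois.card_aut_eq_finrank, hdeg]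
  intro σ x
  have hσ : σ ∈ w.asIdeal.inertia (M ≃ₐ[F] M) := htop ▸ Subgroup.mem_top σ
  exact hσ x

/-- Ramified prime ⇒ residue degree one. -/
theorem h1_ramified_residue_B [IsGalois F M] (p : ℕ) [Fact p.Prime] (hdeg : Module.finrank F M = p)
    (w : HeightOneSpectrum (𝓞 M)) (hw : ¬ InertiaTrivialAt F M w.asIdeal) :
    ∀ x : 𝓞 M, ∃ c : 𝓞 F, x - algebraMap (𝓞 F) (𝓞 M) c ∈ w.asIdeal := by
  have : w.asIdeal.LiesOver (h1_under F w).asIdeal := h1_splitbB_liesOver F M w
  have hf := (h1_splitbB_ramified_nums F M p hdeg w hw).2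
  rw [Ideal.inertiaDeg_eq_of_isMaximal (h1_under F w).asIdeal w.asIdeal] at hf
  let : Field (𝓞 F ⧸ (h1_under F w).asIdeal) := Ideal.Quotient.field _
  have hbij : Function.Bijective
      (algebraMap (𝓞 F ⧸ (h1_under F w).asIdeal) (𝓞 M ⧸ w.asIdeal)) :=
    Algebra.finrank_eq_one_iff_bijective_algebraMap.mp hf
  intro x
  obtain ⟨c', hc'⟩ := hbij.2 (Ideal.Quotient.mk w.asIdeal x)
  obtain ⟨c, rfl⟩ := Ideal.Quotient.mk_surjective c'
  refine ⟨c, ?_⟩
  rw [← Ideal.Quotient.eq, ← hc']
  rfl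

/-- Ramified prime ⇒ `N w = v`. -/
theorem h1_relNorm_ramified_B [IsGalois F M] (p : ℕ) [Fact p.Prime] (hdeg : Module.finrank F M = p)
    (w : HeightOneSpectrum (𝓞 M)) (hw : ¬ InertiaTrivialAt F M w.asIdeal) :
    Ideal.relNorm (𝓞 F) w.asIdeal = (h1_under F w).asIdeal := by
  rw [h1_splitbB_relNorm, (h1_splitbB_ramified_nums F M p hdeg w hw).2, pow_one]

end Fermat.Agent.S14
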