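import Mathlib
import Fermat.Agent.S14.Defs
import Fermat.Agent.S14.H1Defs

/-! P18 (S14) block H1 (route A, S-units): inert and ramified primes in a Galois extension of
prime degree (extra team, suffix `_C`). -/

set_option autoImplicit false

namespace Fermat.Agent.S14

open NumberField IsDedekindDomain nonZeroDivisors

variable (F M : Type*) [Field F] [NumberField F] [Field M] [NumberField M] [Algebra F M]

/-- The fundamental identity `g * #I * f = [M : F]` at a prime `w` of `M`. -/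
private theorem h1_splitbc_count [IsGalois F M] (w : HeightOneSpectrum (𝓞 M)) :
    ((h1_under F w).asIdeal.primesOver (𝓞 M)).ncard *
        Nat.card (w.asIdeal.inertia (M ≃ₐ[F] M)) * w.asIdeal.inertiaDeg (𝓞 F) =
      Module.finrank F M := by
  have : w.asIdeal.LiesOver (h1_under F w).asIdeal := ⟨rfl⟩
  rw [← IsGalois.card_aut_eq_finrank F M]
  exact Ideal.ncard_primesOver_mul_card_inertia_mul_finrank (G := M ≃ₐ[F] M)
    (h1_under F w).asIdeal w.asIdeal

/-- Triviality of the inertia group, in terms of Mathlib's inertia subgroup. -/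
private theorem h1_splitbc_inertia_eq_bot (w : HeightOneSpectrum (𝓞 M)) :
    InertiaTrivialAt F M w.asIdeal ↔ w.asIdeal.inertia (M ≃ₐ[F] M) = ⊥ := by
  rw [Subgroup.eq_bot_iff_forall]
  rfl

/-- The relative norm of a prime is the prime below to the power the inertia degree. -/
private theorem h1_splitbc_relNorm (w : HeightOneSpectrum (𝓞 M)) :
    Ideal.relNorm (𝓞 F) w.asIdeal = (h1_under F w).asIdeal ^ w.asIdeal.inertiaDeg (𝓞 F) := by
  have : w.asIdeal.LiesOver (h1_under F w).asIdeal := ⟨rfl⟩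
  exact Ideal.relNorm_eq_pow_of_isMaximal w.asIdeal (h1_under F w).asIdeal

omit [NumberField F] [NumberField M] in
/-- A prime of `M` above the prime below `w` is in `primesOver`. -/
private theorem h1_splitbc_mem_primesOver (w w' : HeightOneSpectrum (𝓞 M))
    (h : h1_under F w' = h1_under F w) :
    w'.asIdeal ∈ (h1_under F w).asIdeal.primesOver (𝓞 M) := by
  refine ⟨w'.isPrime, ⟨?_⟩⟩
  rw [← h]
  rfl

/-- The three numerical invariants at a ramified prime: `g = 1`, `I = G`, `f = 1`. -/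
private theorem h1_splitbc_ramified [IsGalois F M] (p : ℕ) [Fact p.Prime]
    (hdeg : Module.finrank F M = p) (w : HeightOneSpectrum (𝓞 M))
    (hw : ¬ InertiaTrivialAt F M w.asIdeal) :
    ((h1_under F w).asIdeal.primesOver (𝓞 M)).ncard = 1 ∧
      w.asIdeal.inertia (M ≃ₐ[F] M) = ⊤ ∧ w.asIdeal.inertiaDeg (𝓞 F) = 1 := by
  have hp : p.Prime := Fact.out
  have hcount := h1_splitbc_count F M w
  rw [hdeg] at hcount
  have hcardG : Nat.card (M ≃ₐ[F] M) = p := by rw [IsGalois.card_aut_eq_finrank, hdeg]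
  have hdvd : Nat.card (w.asIdeal.inertia (M ≃ₐ[F] M)) ∣ p := by
    rw [← hcardG]
    exact Subgroup.card_subgroup_dvd_card _
  have hne1 : Nat.card (w.asIdeal.inertia (M ≃ₐ[F] M)) ≠ 1 := by
    intro h1
    exact hw ((h1_splitbc_inertia_eq_bot F M w).mpr (Subgroup.card_eq_one.mp h1))
  have hI : Nat.card (w.asIdeal.inertia (M ≃ₐ[F] M)) = p :=
    ((Nat.dvd_prime hp).mp hdvd).resolve_left hne1
  rw [hI] at hcount
  have hgf : ((h1_under F w).asIdeal.primesOver (𝓞 M)).ncard *
      w.asIdeal.inertiaDeg (𝓞 F) = 1 := by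
    apply Nat.eq_of_mul_eq_mul_right hp.pos
    rw [one_mul, mul_right_comm]
    exact hcount
  refine ⟨Nat.eq_one_of_mul_eq_one_right hgf, ?_, Nat.eq_one_of_mul_eq_one_left hgf⟩
  exact Subgroup.eq_top_of_card_eq _ (by rw [hI, hcardG])

/-- Inert prime: unique above `v`, trivial inertia ⇒ `N w = v ^ p`. -/
theorem h1_relNorm_inert_C [IsGalois F M] (p : ℕ) [Fact p.Prime] (hdeg : Module.finrank F M = p)
    (w : HeightOneSpectrum (𝓞 M))
    (huniq : ∀ w' : HeightOneSpectrum (𝓞 M), h1_under F w' = h1_under F w → w' = w)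
    (hw : InertiaTrivialAt F M w.asIdeal) :
    Ideal.relNorm (𝓞 F) w.asIdeal = (h1_under F w).asIdeal ^ p := by
  have hcount := h1_splitbc_count F M w
  have hI : Nat.card (w.asIdeal.inertia (M ≃ₐ[F] M)) = 1 :=
    Subgroup.card_eq_one.mpr ((h1_splitbc_inertia_eq_bot F M w).mp hw)
  have hg : ((h1_under F w).asIdeal.primesOver (𝓞 M)).ncard = 1 := by
    have hset : (h1_under F w).asIdeal.primesOver (𝓞 M) = {w.asIdeal} := by
      ext Q
      rw [Set.mem_singleton_iff]
      constructor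
      · rintro ⟨hQp, hQo⟩
        have hQ0 : Q ≠ ⊥ := by
          rintro rfl
          have h1 : (h1_under F w).asIdeal = (⊥ : Ideal (𝓞 M)).under (𝓞 F) := hQo.over
          rw [Ideal.under_bot] at h1
          exact (h1_under F w).ne_bot h1
        have h2 : h1_under F (⟨Q, hQp, hQ0⟩ : HeightOneSpectrum (𝓞 M)) = h1_under F w :=
          HeightOneSpectrum.ext hQo.over.symm
        exact congrArg HeightOneSpectrum.asIdeal (huniq _ h2)
      · rintro rfl
        exact h1_splitbc_mem_primesOver F M w w rfl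
    rw [hset, Set.ncard_singleton]
  rw [hI, hg, hdeg, one_mul, one_mul] at hcount
  rw [h1_splitbc_relNorm, hcount]

/-- Ramified prime ⇒ it is the unique prime above `v`. -/
theorem h1_ramified_unique_C [IsGalois F M] (p : ℕ) [Fact p.Prime]
    (hdeg : Module.finrank F M = p)
    (w : HeightOneSpectrum (𝓞 M)) (hw : ¬ InertiaTrivialAt F M w.asIdeal) :
    ∀ w' : HeightOneSpectrum (𝓞 M), h1_under F w' = h1_under F w → w' = w := by
  intro w' hw'
  obtain ⟨hg, -, -⟩ := h1_splitbc_ramified F M p hdeg w hw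
  obtain ⟨Q, hQ⟩ := Set.ncard_eq_one.mp hg
  have h1 : w'.asIdeal = Q := by
    have := h1_splitbc_mem_primesOver F M w w' hw'
    rwa [hQ, Set.mem_singleton_iff] at this
  have h2 : w.asIdeal = Q := by
    have := h1_splitbc_mem_primesOver F M w w rfl
    rwa [hQ, Set.mem_singleton_iff] at this
  exact HeightOneSpectrum.ext (h1.trans h2.symm)

/-- Ramified prime ⇒ the whole Galois group is the inertia group. -/
theorem h1_ramified_inertia_C [IsGalois F M] (p : ℕ) [Fact p.Prime]
    (hdeg : Module.finrank F M = p)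
    (w : HeightOneSpectrum (𝓞 M)) (hw : ¬ InertiaTrivialAt F M w.asIdeal) :
    ∀ (σ : M ≃ₐ[F] M) (x : 𝓞 M), σ • x - x ∈ w.asIdeal := by
  intro σ x
  obtain ⟨-, hI, -⟩ := h1_splitbc_ramified F M p hdeg w hw
  have hσ : σ ∈ w.asIdeal.inertia (M ≃ₐ[F] M) := by
    rw [hI]
    exact Subgroup.mem_top σ
  exact hσ x

/-- Ramified prime ⇒ residue degree one. -/
theorem h1_ramified_residue_C [IsGalois F M] (p : ℕ) [Fact p.Prime]
    (hdeg : Module.finrank F M = p)
    (w : HeightOneSpectrum (𝓞 M)) (hw : ¬ InertiaTrivialAt F M w.asIdeal) :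
    ∀ x : 𝓞 M, ∃ c : 𝓞 F, x - algebraMap (𝓞 F) (𝓞 M) c ∈ w.asIdeal := by
  intro x
  obtain ⟨-, -, hf⟩ := h1_splitbc_ramified F M p hdeg w hw
  have : w.asIdeal.LiesOver (h1_under F w).asIdeal := ⟨rfl⟩
  rw [Ideal.inertiaDeg_eq_of_isMaximal (h1_under F w).asIdeal w.asIdeal] at hf
  let _ : Field (𝓞 F ⧸ (h1_under F w).asIdeal) := Ideal.Quotient.field _
  let _ : Field (𝓞 M ⧸ w.asIdeal) := Ideal.Quotient.field _
  have hbij := (Algebra.finrank_eq_one_iff_bijective_algebraMap
    (F := 𝓞 F ⧸ (h1_under F w).asIdeal) (E := 𝓞 M ⧸ w.asIdeal)).mp hf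
  obtain ⟨c', hc'⟩ := hbij.2 (Ideal.Quotient.mk w.asIdeal x)
  obtain ⟨c, rfl⟩ := Ideal.Quotient.mk_surjective c'
  refine ⟨c, ?_⟩
  rw [← Ideal.Quotient.eq, ← hc']
  rfl

/-- Ramified prime ⇒ `N w = v`. -/
theorem h1_relNorm_ramified_C [IsGalois F M] (p : ℕ) [Fact p.Prime]
    (hdeg : Module.finrank F M = p)
    (w : HeightOneSpectrum (𝓞 M)) (hw : ¬ InertiaTrivialAt F M w.asIdeal) :
    Ideal.relNorm (𝓞 F) w.asIdeal = (h1_under F w).asIdeal := by
  obtain ⟨-, -, hf⟩ := h1_splitbc_ramified F M p hdeg w hw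
  rw [h1_splitbc_relNorm, hf, pow_one]

end Fermat.Agent.S14
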