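import Mathlib
import Fermat.Agent.S14.Defs

/-!
# P18 (S14), block H1 (route B): the tame character lemma

Let `M/F` be an extension of number fields, `σ ∈ Aut(M/F)` with `σ ^ p = 1` and `P` a prime of
`𝓞 M` not containing `p`.

* `h1tb_eq_one_of_sq` : if `σ` acts trivially on `𝓞 M ⧸ P ^ 2`, then `σ = 1`.
* `h1tb_eq_one_of_uniformizer` : if `σ` acts trivially on `𝓞 M ⧸ P`, the residue field of `P` is
  the residue field of `F`, and `σ π ≡ π mod P ^ 2` for one `π ∈ P ∖ P ^ 2`, then `σ = 1`.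

The abstract core `h1tb_ringHom_eq_id` is about a ring endomorphism of a Dedekind domain.
-/

set_option autoImplicit false

namespace Fermat.Agent.S14

open NumberField

/-! ### The abstract core -/

section Core

variable {S : Type*} [CommRing S]

/-- If `f ≡ id mod P ^ n`, then `f` maps `P` into `P`. -/
theorem h1tb_map_mem {f : S →+* S} {P : Ideal S} {n : ℕ} (hn : 1 ≤ n)
    (h : ∀ x, f x - x ∈ P ^ n) {b : S} (hb : b ∈ P) : f b ∈ P := by
  have h1 : f b - b ∈ P := by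
    have h2 := Ideal.pow_le_pow_right (I := P) hn (h b)
    rwa [pow_one] at h2
  have h3 : f b = (f b - b) + b := by ring
  rw [h3]
  exact P.add_mem h1 hb

/-- If `f ≡ id mod P ^ n` with `n ≥ 2`, then `f - id` maps `P ^ n` into `P ^ (n + 1)`. -/
theorem h1tb_sub_mem_of_mem {f : S →+* S} {P : Ideal S} {n : ℕ} (hn : 2 ≤ n)
    (h : ∀ x, f x - x ∈ P ^ n) {y : S} (hy : y ∈ P ^ n) : f y - y ∈ P ^ (n + 1) := by
  obtain ⟨m, rfl⟩ : ∃ m, n = m + 1 := ⟨n - 1, by omega⟩
  have hm : 1 ≤ m := by omega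
  rw [pow_succ] at hy
  refine Submodule.mul_induction_on hy ?_ ?_
  · intro a ha b hb
    have e : f (a * b) - a * b = (f a - a) * f b + a * (f b - b) := by
      rw [map_mul]; ring
    rw [e]
    refine Ideal.add_mem _ ?_ ?_
    · rw [pow_succ (P) (m + 1)]
      exact Ideal.mul_mem_mul (h a) (h1tb_map_mem (by omega) h hb)
    · have h4 : a * (f b - b) ∈ P ^ m * P ^ (m + 1) := Ideal.mul_mem_mul ha (h b)
      rw [← pow_add] at h4
      exact Ideal.pow_le_pow_right (by omega) h4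
  · intro x y hx hy
    have e : f (x + y) - (x + y) = (f x - x) + (f y - y) := by
      rw [map_add]; ring
    rw [e]
    exact Ideal.add_mem _ hx hy

/-- If `f ≡ id mod P ^ n`, then all iterates of `f` are `≡ id mod P ^ n`. -/
theorem h1tb_iterate_sub_mem {f : S →+* S} {P : Ideal S} {n : ℕ}
    (h : ∀ x, f x - x ∈ P ^ n) (k : ℕ) (x : S) : f^[k] x - x ∈ P ^ n := by
  induction k with
  | zero => simp
  | succ k ih =>
    have e : f^[k + 1] x - x = (f (f^[k] x) - f^[k] x) + (f^[k] x - x) := by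
      rw [Function.iterate_succ_apply']; ring
    rw [e]
    exact Ideal.add_mem _ (h _) ih

/-- If `f ≡ id mod P ^ n` with `n ≥ 2`, then `f^[k] x ≡ x + k (f x - x) mod P ^ (n + 1)`. -/
theorem h1tb_iterate_sub_sub_mem {f : S →+* S} {P : Ideal S} {n : ℕ} (hn : 2 ≤ n)
    (h : ∀ x, f x - x ∈ P ^ n) (k : ℕ) (x : S) :
    f^[k] x - x - (k : S) * (f x - x) ∈ P ^ (n + 1) := by
  induction k with
  | zero => simp
  | succ k ih =>
    have e : f^[k + 1] x - x - ((k + 1 : ℕ) : S) * (f x - x) =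
        (f (f^[k] x - x) - (f^[k] x - x)) + (f^[k] x - x - (k : S) * (f x - x)) := by
      rw [Function.iterate_succ_apply', map_sub]; push_cast; ring
    rw [e]
    exact Ideal.add_mem _ (h1tb_sub_mem_of_mem hn h (h1tb_iterate_sub_mem h k x)) ih

/-- If `f ^ p = id` and `f ≡ id mod P ^ n` with `n ≥ 2`, then `p (f x - x) ∈ P ^ (n + 1)`. -/
theorem h1tb_natCast_mul_sub_mem {f : S →+* S} {p : ℕ} (hf : ∀ x, f^[p] x = x) {P : Ideal S}
    {n : ℕ} (hn : 2 ≤ n) (h : ∀ x, f x - x ∈ P ^ n) (x : S) :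
    (p : S) * (f x - x) ∈ P ^ (n + 1) := by
  have h1 := h1tb_iterate_sub_sub_mem hn h p x
  rw [hf x, sub_self, zero_sub] at h1
  exact (Ideal.neg_mem_iff _).1 h1

/-- **Tame character lemma, abstract form.**  Let `f` be a ring endomorphism of a Dedekind
domain with `f ^ p = id`, and let `P` be a prime not containing `p`.  If `f ≡ id mod P ^ 2`,
then `f = id`. -/
theorem h1tb_ringHom_eq_id [IsDedekindDomain S] (f : S →+* S) (p : ℕ)
    (hf : ∀ x, f^[p] x = x) (P : Ideal S) (hP : P.IsPrime) (hpP : (p : S) ∉ P)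
    (h : ∀ x, f x - x ∈ P ^ 2) (x : S) : f x = x := by
  have key : ∀ n : ℕ, ∀ x, f x - x ∈ P ^ (n + 2) := by
    intro n
    induction n with
    | zero => exact h
    | succ n ih =>
      intro x
      have h1 := h1tb_natCast_mul_sub_mem hf (by omega : 2 ≤ n + 2) ih x
      exact (Ideal.IsPrime.mul_mem_pow P h1).resolve_left hpP
  have h2 : f x - x ∈ ⨅ i : ℕ, P ^ i := by
    rw [Ideal.mem_iInf]
    intro i
    exact Ideal.pow_le_pow_right (by omega : i ≤ i + 2) (key i x)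
  rw [Ideal.iInf_pow_eq_bot_of_isDomain P hP.ne_top, Ideal.mem_bot] at h2
  exact sub_eq_zero.1 h2

end Core

/-! ### Number fields -/

section NumberField

variable (F M : Type*) [Field F] [Field M] [Algebra F M]

/-- The Galois action on the ring of integers is the restriction of the action on the field. -/
theorem h1tb_coe_smul (σ : M ≃ₐ[F] M) (x : 𝓞 M) : ((σ • x : 𝓞 M) : M) = σ (x : M) :=
  rfl

/-- Iterating the action of `σ` is the action of the powers of `σ`. -/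
theorem h1tb_iterate_toRingHom (σ : M ≃ₐ[F] M) (k : ℕ) (x : 𝓞 M) :
    (MulSemiringAction.toRingHom (M ≃ₐ[F] M) (𝓞 M) σ)^[k] x = σ ^ k • x := by
  induction k with
  | zero => simp
  | succ k ih =>
    rw [Function.iterate_succ_apply', ih, pow_succ', mul_smul]
    rfl

/-- `σ` fixes the image of `𝓞 F` in `𝓞 M`. -/
theorem h1tb_smul_algebraMap (σ : M ≃ₐ[F] M) (a : 𝓞 F) :
    σ • algebraMap (𝓞 F) (𝓞 M) a = algebraMap (𝓞 F) (𝓞 M) a := by
  apply RingOfIntegers.ext
  exact σ.commutes (a : F)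

variable [NumberField M]

/-- An automorphism acting trivially on the ring of integers is trivial. -/
theorem h1tb_eq_one_of_forall_smul (σ : M ≃ₐ[F] M) (h : ∀ x : 𝓞 M, σ • x = x) : σ = 1 := by
  ext y
  obtain ⟨a, b, -, rfl⟩ := IsFractionRing.div_surjective (A := 𝓞 M) y
  have ha : σ (algebraMap (𝓞 M) M a) = algebraMap (𝓞 M) M a :=
    (h1tb_coe_smul F M σ a).symm.trans (congrArg _ (h a))
  have hb : σ (algebraMap (𝓞 M) M b) = algebraMap (𝓞 M) M b :=
    (h1tb_coe_smul F M σ b).symm.trans (congrArg _ (h b))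
  rw [map_div₀, ha, hb, AlgEquiv.one_apply]

/-- **Tame character lemma.**  If `σ ^ p = 1`, the prime `P` of `𝓞 M` does not contain `p`, and
`σ` acts trivially on `𝓞 M ⧸ P ^ 2`, then `σ = 1`. -/
theorem h1tb_eq_one_of_sq (p : ℕ) (σ : M ≃ₐ[F] M) (hσ : σ ^ p = 1) (P : Ideal (𝓞 M))
    (hP : P.IsPrime) (hpP : (p : 𝓞 M) ∉ P) (h : ∀ x : 𝓞 M, σ • x - x ∈ P ^ 2) : σ = 1 := by
  apply h1tb_eq_one_of_forall_smul F M σ
  intro x
  refine h1tb_ringHom_eq_id (MulSemiringAction.toRingHom (M ≃ₐ[F] M) (𝓞 M) σ) p ?_ P hP hpP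
    (fun y => h y) x
  intro y
  rw [h1tb_iterate_toRingHom, hσ, one_smul]

/-- A prime `P` of a Dedekind domain is generated modulo `P ^ 2` by any `π ∈ P ∖ P ^ 2`. -/
theorem h1tb_span_sup_sq {S : Type*} [CommRing S] [IsDedekindDomain S] (P : Ideal S)
    (hP : P.IsPrime) (π : S) (hπ : π ∈ P) (hπ2 : π ∉ P ^ 2) : Ideal.span {π} ⊔ P ^ 2 = P := by
  have hP0 : P ≠ ⊥ := by
    rintro rfl
    exact hπ2 (by rw [Ideal.mem_bot.1 hπ]; exact Ideal.zero_mem _)
  have h1 : P ^ (1 + 1) < Ideal.span {π} ⊔ P ^ 2 := by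
    refine lt_of_le_of_ne le_sup_right ?_
    intro h
    apply hπ2
    have h3 : π ∈ Ideal.span {π} ⊔ P ^ 2 := Ideal.mem_sup_left (Ideal.mem_span_singleton_self π)
    rw [← h] at h3
    exact h3
  have h2 : Ideal.span {π} ⊔ P ^ 2 ≤ P ^ 1 := by
    rw [pow_one]
    exact sup_le ((Ideal.span_singleton_le_iff_mem _).2 hπ) (Ideal.pow_le_self two_ne_zero)
  have h4 := Ideal.eq_prime_pow_of_succ_lt_of_le hP0 h1 h2
  rwa [pow_one] at h4

/-- **Tame character lemma, uniformizer form.**  Suppose `σ ^ p = 1`, the prime `P` of `𝓞 M` does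
not contain `p`, `σ` acts trivially on `𝓞 M ⧸ P`, and every residue class modulo `P` contains an
element of `𝓞 F`.  If `σ π ≡ π mod P ^ 2` for one `π ∈ P ∖ P ^ 2`, then `σ = 1`. -/
theorem h1tb_eq_one_of_uniformizer (p : ℕ) (σ : M ≃ₐ[F] M) (hσ : σ ^ p = 1) (P : Ideal (𝓞 M))
    (hP : P.IsPrime) (hpP : (p : 𝓞 M) ∉ P)
    (hin : ∀ x : 𝓞 M, σ • x - x ∈ P)
    (hres : ∀ x : 𝓞 M, ∃ a : 𝓞 F, x - algebraMap (𝓞 F) (𝓞 M) a ∈ P)
    (π : 𝓞 M) (hπ : π ∈ P) (hπ2 : π ∉ P ^ 2) (hσπ : σ • π - π ∈ P ^ 2) : σ = 1 := by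
  have hsup := h1tb_span_sup_sq P hP π hπ hπ2
  have hσP : ∀ b ∈ P, σ • b ∈ P := fun b hb => by
    have h1 : σ • b = (σ • b - b) + b := by ring
    rw [h1]
    exact P.add_mem (hin b) hb
  have hσP2 : ∀ e ∈ P ^ 2, σ • e ∈ P ^ 2 := by
    intro e he
    rw [pow_two] at he ⊢
    refine Submodule.mul_induction_on he ?_ ?_
    · intro a ha b hb
      rw [smul_mul']
      exact Ideal.mul_mem_mul (hσP a ha) (hσP b hb)
    · intro x y hx hy
      rw [smul_add]
      exact Ideal.add_mem _ hx hy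
  apply h1tb_eq_one_of_sq F M p σ hσ P hP hpP
  intro x
  obtain ⟨a, ha⟩ := hres x
  rw [← hsup] at ha
  obtain ⟨c, e, he, hce⟩ := Ideal.mem_span_singleton_sup.1 ha
  have hx : x = algebraMap (𝓞 F) (𝓞 M) a + (c * π + e) := by rw [hce]; ring
  have e1 : σ • x - x = σ • c * (σ • π - π) + (σ • c - c) * π + (σ • e - e) := by
    rw [hx, smul_add, smul_add, smul_mul', h1tb_smul_algebraMap]; ring
  rw [e1]
  refine Ideal.add_mem _ (Ideal.add_mem _ (Ideal.mul_mem_left _ _ hσπ) ?_)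
    (Ideal.sub_mem _ (hσP2 e he) he)
  rw [pow_two]
  exact Ideal.mul_mem_mul (hin c) hπ

end NumberField

end Fermat.Agent.S14
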