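import Mathlib
import Fermat.Agent.S14.H1UnitsDefs
import Fermat.Agent.S14.H1UnitsRank

/-!
# P18 (S14), block H1, slice (d3), second team: Herbrand quotient of units — core

`h1_uhB_herbrand_of` is the statement of `h1_units_herbrand_B` (file `H1UnitsB.lean`) relative to
its three inputs, taken as explicit hypotheses: the lattice index formula (`h1_lattice`), the rank
of a finite-index subgroup of the units (`h1_finrank_units_sub`) and the rank of its fixed part
(`h1_finrank_fixed_units`).

The first part is a dictionary, for a commutative group `U`, a subgroup `E` and endomorphisms of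
`U` preserving `E`, between subgroups of `U` and `ℤ`-submodules of `Additive ↥E`.
-/

set_option autoImplicit false

namespace Fermat.Agent.S14

open NumberField

/-! ### Dictionary between a stable subgroup and its additive version -/

section Abstract

variable {U : Type*} [CommGroup U]

/-- Restriction to a subgroup `E` of an endomorphism preserving `E`. -/
noncomputable def h1_uhB_res (E : Subgroup U) (f : U →* U) (hf : ∀ x ∈ E, f x ∈ E) :
    ↥E →* ↥E where
  toFun x := ⟨f x, hf x x.2⟩
  map_one' := Subtype.ext (map_one f)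
  map_mul' x y := Subtype.ext (map_mul f (x : U) (y : U))

theorem h1_uhB_res_coe (E : Subgroup U) (f : U →* U) (hf : ∀ x ∈ E, f x ∈ E) (x : ↥E) :
    ((h1_uhB_res E f hf x : ↥E) : U) = f x :=
  rfl

/-- The `ℤ`-linear endomorphism of `Additive ↥E` induced by an endomorphism preserving `E`. -/
noncomputable def h1_uhB_lin (E : Subgroup U) (f : U →* U) (hf : ∀ x ∈ E, f x ∈ E) :
    Module.End ℤ (Additive ↥E) :=
  (MonoidHom.toAdditive (h1_uhB_res E f hf)).toIntLinearMap

theorem h1_uhB_lin_apply (E : Subgroup U) (f : U →* U) (hf : ∀ x ∈ E, f x ∈ E)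
    (x : Additive ↥E) :
    h1_uhB_lin E f hf x = Additive.ofMul (h1_uhB_res E f hf (Additive.toMul x)) :=
  rfl

theorem h1_uhB_range (E : Subgroup U) (f : U →* U) (hf : ∀ x ∈ E, f x ∈ E) :
    (LinearMap.range (h1_uhB_lin E f hf)).toAddSubgroup =
      Subgroup.toAddSubgroup ((E.map f).subgroupOf E) := by
  ext x
  constructor
  · rintro ⟨y, rfl⟩
    show ((h1_uhB_res E f hf (Additive.toMul y) : ↥E) : U) ∈ E.map f
    rw [h1_uhB_res_coe]
    exact Subgroup.mem_map_of_mem f (Additive.toMul y).2
  · intro hx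
    have hx' : ((Additive.toMul x : ↥E) : U) ∈ E.map f := hx
    obtain ⟨y, hy, hyx⟩ := Subgroup.mem_map.mp hx'
    refine ⟨Additive.ofMul ⟨y, hy⟩, ?_⟩
    rw [h1_uhB_lin_apply]
    apply Additive.toMul.injective
    apply Subtype.ext
    exact hyx

theorem h1_uhB_ker (E : Subgroup U) (f : U →* U) (hf : ∀ x ∈ E, f x ∈ E) :
    (LinearMap.ker (h1_uhB_lin E f hf)).toAddSubgroup =
      Subgroup.toAddSubgroup ((f.ker ⊓ E).subgroupOf E) := by
  ext x
  have key : h1_uhB_lin E f hf x = 0 ↔ f ((Additive.toMul x : ↥E) : U) = 1 := by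
    rw [h1_uhB_lin_apply]
    constructor
    · intro h
      have h1 : h1_uhB_res E f hf (Additive.toMul x) = 1 := Additive.ofMul.injective h
      have h2 := congrArg (Subtype.val) h1
      exact h2
    · intro h
      have h1 : h1_uhB_res E f hf (Additive.toMul x) = 1 := Subtype.ext h
      rw [h1]
      rfl
  constructor
  · intro hx
    have h1 : h1_uhB_lin E f hf x = 0 := hx
    show ((Additive.toMul x : ↥E) : U) ∈ f.ker ⊓ E
    exact ⟨MonoidHom.mem_ker.mpr (key.mp h1), (Additive.toMul x).2⟩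
  · intro hx
    have hx' : ((Additive.toMul x : ↥E) : U) ∈ f.ker ⊓ E := hx
    show h1_uhB_lin E f hf x = 0
    exact key.mpr (MonoidHom.mem_ker.mp hx'.1)

/-- Relative indices of ranges in kernels, computed in `Additive ↥E` or in `U`. -/
theorem h1_uhB_relIndex (E : Subgroup U) (f g : U →* U) (hf : ∀ x ∈ E, f x ∈ E)
    (hg : ∀ x ∈ E, g x ∈ E) :
    (LinearMap.range (h1_uhB_lin E f hf)).toAddSubgroup.relIndex
        (LinearMap.ker (h1_uhB_lin E g hg)).toAddSubgroup =
      (E.map f).relIndex (g.ker ⊓ E) := by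
  rw [h1_uhB_range, h1_uhB_ker, Subgroup.relIndex_toAddSubgroup,
    Subgroup.relIndex_subgroupOf inf_le_right]

/-- The kernel of the induced endomorphism has the rank of the corresponding subgroup. -/
theorem h1_uhB_finrank_ker (E : Subgroup U) (f : U →* U) (hf : ∀ x ∈ E, f x ∈ E) :
    Module.finrank ℤ (LinearMap.ker (h1_uhB_lin E f hf)) =
      Module.finrank ℤ (Additive ↥(f.ker ⊓ E)) := by
  set g : Additive ↥(f.ker ⊓ E) →ₗ[ℤ] Additive ↥E :=
    (MonoidHom.toAdditive (Subgroup.inclusion (inf_le_right : f.ker ⊓ E ≤ E))).toIntLinearMap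
    with hg
  have hginj : Function.Injective g := by
    intro x y hxy
    have h1 : Subgroup.inclusion (inf_le_right : f.ker ⊓ E ≤ E) (Additive.toMul x) =
        Subgroup.inclusion (inf_le_right : f.ker ⊓ E ≤ E) (Additive.toMul y) :=
      Additive.ofMul.injective hxy
    exact Additive.toMul.injective (Subgroup.inclusion_injective _ h1)
  have hrange : LinearMap.range g = LinearMap.ker (h1_uhB_lin E f hf) := by
    ext x
    constructor
    · rintro ⟨y, rfl⟩
      rw [LinearMap.mem_ker, h1_uhB_lin_apply]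
      have h1 : h1_uhB_res E f hf (Additive.toMul (g y)) = 1 := by
        apply Subtype.ext
        rw [h1_uhB_res_coe]
        exact MonoidHom.mem_ker.mp (Additive.toMul y).2.1
      rw [h1]
      rfl
    · intro hx
      rw [LinearMap.mem_ker, h1_uhB_lin_apply] at hx
      have h1 : h1_uhB_res E f hf (Additive.toMul x) = 1 := Additive.ofMul.injective hx
      have h2 : f ((Additive.toMul x : ↥E) : U) = 1 := congrArg Subtype.val h1
      refine ⟨Additive.ofMul ⟨((Additive.toMul x : ↥E) : U),
        ⟨MonoidHom.mem_ker.mpr h2, (Additive.toMul x).2⟩⟩, ?_⟩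
      rfl
  rw [← hrange, LinearMap.finrank_range_of_inj hginj]

/-- `Additive ↥E` is a finitely generated `ℤ`-module when `Additive U` is. -/
theorem h1_uhB_finite (E : Subgroup U) [Module.Finite ℤ (Additive U)] :
    Module.Finite ℤ (Additive ↥E) := by
  have hinj : Function.Injective (MonoidHom.toAdditive E.subtype).toIntLinearMap := by
    intro x y hxy
    have h1 : E.subtype (Additive.toMul x) = E.subtype (Additive.toMul y) :=
      Additive.ofMul.injective hxy
    exact Additive.toMul.injective (E.subtype_injective h1)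
  exact Module.Finite.of_injective _ hinj

variable (E : Subgroup U) (a : U ≃* U) (ha : ∀ x ∈ E, a x ∈ E)

include ha in
/-- The powers of an automorphism preserving `E` preserve `E`. -/
theorem h1_uhB_pow_mem (i : ℕ) : ∀ x ∈ E, (a ^ i) x ∈ E := by
  induction i with
  | zero =>
    intro x hx
    rw [pow_zero]
    exact hx
  | succ i ih =>
    intro x hx
    rw [pow_succ, MulAut.mul_apply]
    exact ih _ (ha x hx)

/-- Powers of the induced endomorphism. -/
theorem h1_uhB_lin_pow (i : ℕ) :
    (h1_uhB_lin E a.toMonoidHom ha) ^ i =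
      h1_uhB_lin E (a ^ i : U ≃* U).toMonoidHom (h1_uhB_pow_mem E a ha i) := by
  induction i with
  | zero =>
    rw [pow_zero]
    apply LinearMap.ext
    intro x
    rfl
  | succ i ih =>
    rw [pow_succ, ih]
    apply LinearMap.ext
    intro x
    rfl

/-- If `a ^ p = 1` then the induced endomorphism has `p`-th power `1`. -/
theorem h1_uhB_lin_pow_eq_one {p : ℕ} (hap : a ^ p = 1) :
    (h1_uhB_lin E a.toMonoidHom ha) ^ p = 1 := by
  rw [h1_uhB_lin_pow]
  apply LinearMap.ext
  intro x
  rw [h1_uhB_lin_apply]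
  apply Additive.toMul.injective
  apply Subtype.ext
  show (a ^ p) ((Additive.toMul x : ↥E) : U) = ((Additive.toMul x : ↥E) : U)
  rw [hap]
  rfl

include ha in
/-- The difference operator preserves `E`. -/
theorem h1_uhB_diff_mem : ∀ x ∈ E, (a.toMonoidHom / MonoidHom.id U) x ∈ E := by
  intro x hx
  exact E.div_mem (ha x hx) hx

include ha in
/-- The norm operator preserves `E`. -/
theorem h1_uhB_norm_mem (p : ℕ) :
    ∀ x ∈ E, (∏ i ∈ Finset.range p, (a ^ i : U ≃* U).toMonoidHom) x ∈ E := by
  intro x hx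
  rw [MonoidHom.finsetProd_apply]
  exact Subgroup.prod_mem E fun i _ => h1_uhB_pow_mem E a ha i x hx

/-- The induced endomorphism of the difference operator. -/
theorem h1_uhB_lin_diff :
    h1_uhB_lin E a.toMonoidHom ha - 1 =
      h1_uhB_lin E (a.toMonoidHom / MonoidHom.id U) (h1_uhB_diff_mem E a ha) := by
  apply LinearMap.ext
  intro x
  rfl

/-- The induced endomorphism of the norm operator. -/
theorem h1_uhB_lin_norm (p : ℕ) :
    ∑ i ∈ Finset.range p, (h1_uhB_lin E a.toMonoidHom ha) ^ i =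
      h1_uhB_lin E (∏ i ∈ Finset.range p, (a ^ i : U ≃* U).toMonoidHom)
        (h1_uhB_norm_mem E a ha p) := by
  apply LinearMap.ext
  intro x
  rw [LinearMap.sum_apply, h1_uhB_lin_apply]
  have h1 : ∀ i ∈ Finset.range p, ((h1_uhB_lin E a.toMonoidHom ha) ^ i) x =
      Additive.ofMul (h1_uhB_res E (a ^ i : U ≃* U).toMonoidHom (h1_uhB_pow_mem E a ha i)
        (Additive.toMul x)) := by
    intro i _
    rw [h1_uhB_lin_pow]
    rfl
  rw [Finset.sum_congr rfl h1, ← ofMul_prod]
  congr 1
  apply Subtype.ext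
  rw [h1_uhB_res_coe, MonoidHom.finsetProd_apply, Subgroup.val_finsetProd]
  rfl

end Abstract

/-! ### The abstract Herbrand quotient computation -/

section AbstractHerbrand

/-- `p r - 1 = (r - 1) + r (p - 1)` for `p, r ≥ 1`. -/
theorem h1_uhB_arith (p r : ℕ) (hp : 1 ≤ p) (hr : 1 ≤ r) :
    p * r - 1 = (r - 1) + r * (p - 1) := by
  obtain ⟨P, rfl⟩ := Nat.exists_eq_add_of_le' hp
  obtain ⟨R, rfl⟩ := Nat.exists_eq_add_of_le' hr
  have h : (P + 1) * (R + 1) = (R + (R + 1) * P) + 1 := by ring
  rw [h, Nat.add_sub_cancel, Nat.add_sub_cancel, Nat.add_sub_cancel]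

variable {U : Type*} [CommGroup U]

/-- The Herbrand quotient computation for an automorphism `a` of order dividing `p` of a
commutative group `U` and a stable subgroup `E`, relative to the lattice index formula for
`Additive ↥E` and to the ranks of `E` and of its fixed part. -/
theorem h1_uhB_herbrand_abstract (E : Subgroup U) (a : U ≃* U) (ha : ∀ x ∈ E, a x ∈ E) (p : ℕ)
    (hp : 1 ≤ p) (hap : a ^ p = 1)
    (hlat : ∀ (s : Module.End ℤ (Additive ↥E)) (_ : s ^ p = 1) (a' b : ℕ)
      (_ : Module.finrank ℤ (LinearMap.ker (s - 1)) = a')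
      (_ : Module.finrank ℤ (Additive ↥E) = a' + b * (p - 1)),
      (LinearMap.range (s - 1)).toAddSubgroup.relIndex
          (LinearMap.ker (∑ i ∈ Finset.range p, s ^ i)).toAddSubgroup ≠ 0 ∧
      (LinearMap.range (∑ i ∈ Finset.range p, s ^ i)).toAddSubgroup.relIndex
          (LinearMap.ker (s - 1)).toAddSubgroup ≠ 0 ∧
      (LinearMap.range (s - 1)).toAddSubgroup.relIndex
          (LinearMap.ker (∑ i ∈ Finset.range p, s ^ i)).toAddSubgroup * p ^ a'
        = p ^ b * (LinearMap.range (∑ i ∈ Finset.range p, s ^ i)).toAddSubgroup.relIndex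
          (LinearMap.ker (s - 1)).toAddSubgroup)
    (r : ℕ) (hr : 1 ≤ r)
    (hrankE : Module.finrank ℤ (Additive ↥E) = p * r - 1)
    (hrankfix : Module.finrank ℤ (Additive ↥((a.toMonoidHom / MonoidHom.id U).ker ⊓ E)) = r - 1) :
    (E.map (∏ i ∈ Finset.range p, (a ^ i : U ≃* U).toMonoidHom)).relIndex
        ((a.toMonoidHom / MonoidHom.id U).ker ⊓ E) ≠ 0 ∧
    (E.map (a.toMonoidHom / MonoidHom.id U)).relIndex
        ((∏ i ∈ Finset.range p, (a ^ i : U ≃* U).toMonoidHom).ker ⊓ E)
      = p * (E.map (∏ i ∈ Finset.range p, (a ^ i : U ≃* U).toMonoidHom)).relIndex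
        ((a.toMonoidHom / MonoidHom.id U).ker ⊓ E) := by
  have hs : (h1_uhB_lin E a.toMonoidHom ha) ^ p = 1 := h1_uhB_lin_pow_eq_one E a ha hap
  have hker : Module.finrank ℤ (LinearMap.ker (h1_uhB_lin E a.toMonoidHom ha - 1)) = r - 1 := by
    rw [h1_uhB_lin_diff, h1_uhB_finrank_ker, hrankfix]
  have hb : Module.finrank ℤ (Additive ↥E) = (r - 1) + r * (p - 1) := by
    rw [hrankE]
    exact h1_uhB_arith p r hp hr
  obtain ⟨-, h2, h3⟩ := hlat (h1_uhB_lin E a.toMonoidHom ha) hs (r - 1) r hker hb
  rw [h1_uhB_lin_diff, h1_uhB_lin_norm, h1_uhB_relIndex] at h2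
  rw [h1_uhB_lin_diff, h1_uhB_lin_norm, h1_uhB_relIndex, h1_uhB_relIndex] at h3
  refine ⟨h2, ?_⟩
  have hpow : p ^ r = p ^ (r - 1) * p := by
    rw [← pow_succ, Nat.sub_add_cancel hr]
  have hpos : 0 < p ^ (r - 1) := pow_pos hp _
  rw [hpow, mul_assoc, mul_comm _ (p ^ (r - 1))] at h3
  exact Nat.eq_of_mul_eq_mul_left hpos h3

end AbstractHerbrand

/-! ### Units of a cyclic extension of prime degree -/

section Units

variable {F M : Type*} [Field F] [NumberField F] [Field M] [NumberField M] [Algebra F M]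

omit [NumberField F] [NumberField M] in
/-- Powers of the automorphism of the unit group induced by `σ`. -/
theorem h1_uhB_unitAut_pow (σ : M ≃ₐ[F] M) (i : ℕ) :
    (h1_unitAut σ) ^ i = h1_unitAut (σ ^ i) := by
  induction i with
  | zero =>
    rw [pow_zero, pow_zero]
    apply MulEquiv.ext
    intro ε
    apply Units.ext
    rw [h1_unitAut_coe, one_smul]
    rfl
  | succ i ih =>
    rw [pow_succ, pow_succ, ih]
    apply MulEquiv.ext
    intro ε
    apply Units.ext
    rw [MulAut.mul_apply, h1_unitAut_coe, h1_unitAut_coe, h1_unitAut_coe, mul_smul]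

/-- **Herbrand quotient of units, core form**: the statement of `h1_units_herbrand_B` relative to
the lattice index formula for `Additive ↥E` and to the ranks of `E` and of its `σ`-fixed part. -/
theorem h1_uhB_herbrand_of (p : ℕ) [Fact p.Prime] (hp : 3 ≤ p) [IsGalois F M]
    (hdeg : Module.finrank F M = p) (ζ : F) (hζ : IsPrimitiveRoot ζ p)
    (σ : M ≃ₐ[F] M) (E : Subgroup (𝓞 M)ˣ)
    (hEσ : ∀ ε ∈ E, h1_unitAut σ ε ∈ E)
    (hlat : ∀ (s : Module.End ℤ (Additive ↥E)) (_ : s ^ p = 1) (a' b : ℕ)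
      (_ : Module.finrank ℤ (LinearMap.ker (s - 1)) = a')
      (_ : Module.finrank ℤ (Additive ↥E) = a' + b * (p - 1)),
      (LinearMap.range (s - 1)).toAddSubgroup.relIndex
          (LinearMap.ker (∑ i ∈ Finset.range p, s ^ i)).toAddSubgroup ≠ 0 ∧
      (LinearMap.range (∑ i ∈ Finset.range p, s ^ i)).toAddSubgroup.relIndex
          (LinearMap.ker (s - 1)).toAddSubgroup ≠ 0 ∧
      (LinearMap.range (s - 1)).toAddSubgroup.relIndex
          (LinearMap.ker (∑ i ∈ Finset.range p, s ^ i)).toAddSubgroup * p ^ a'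
        = p ^ b * (LinearMap.range (∑ i ∈ Finset.range p, s ^ i)).toAddSubgroup.relIndex
          (LinearMap.ker (s - 1)).toAddSubgroup)
    (hsub : Module.finrank ℤ (Additive ↥E) = Fintype.card (InfinitePlace M) - 1)
    (hfix : Module.finrank ℤ (Additive ↥((h1_unitDiff σ).ker ⊓ E)) =
      Fintype.card (InfinitePlace F) - 1) :
    (E.map (h1_unitNorm p σ)).relIndex ((h1_unitDiff σ).ker ⊓ E) ≠ 0 ∧
    (E.map (h1_unitDiff σ)).relIndex ((h1_unitNorm p σ).ker ⊓ E)
      = p * (E.map (h1_unitNorm p σ)).relIndex ((h1_unitDiff σ).ker ⊓ E) := by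
  have hp1 : 1 ≤ p := le_trans (by norm_num) hp
  have hσp : σ ^ p = 1 := by
    have h1 : Nat.card (M ≃ₐ[F] M) = p := by
      rw [IsGalois.card_aut_eq_finrank, hdeg]
    rw [← h1]
    exact pow_card_eq_one'
  have hap : (h1_unitAut σ) ^ p = 1 := by
    rw [h1_uhB_unitAut_pow, hσp]
    apply MulEquiv.ext
    intro ε
    apply Units.ext
    rw [h1_unitAut_coe, one_smul]
    rfl
  have hr : 1 ≤ Fintype.card (InfinitePlace F) := Fintype.card_pos
  have hrankE : Module.finrank ℤ (Additive ↥E) = p * Fintype.card (InfinitePlace F) - 1 := by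
    rw [hsub, h1_card_infinitePlace p hp hdeg ζ hζ]
  exact h1_uhB_herbrand_abstract E (h1_unitAut σ) hEσ p hp1 hap hlat
    (Fintype.card (InfinitePlace F)) hr hrankE hfix

end Units

end Fermat.Agent.S14
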