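import Mathlib
import Fermat.Agent.S14.H1UnitsDefs

/-!
# P18 (S14), block H1, slice (d3), file 1 (second team): ranks of subgroups of units

* `h1_finrank_units_sub_B`: a subgroup of finite index of the unit group of `𝓞 M` has rank
  `#(infinite places of M) - 1`;
* `h1_finrank_fixed_units_B`: for a Galois extension `M / F` of prime degree `p` with group
  generated by `σ`, the `σ`-fixed units inside a subgroup `E` of finite index of the units of `M`
  form a group of rank `#(infinite places of F) - 1`.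

The `σ`-fixed units are exactly the units of `𝓞 F` (`h1_ufB_ker_unitDiff`).
-/

set_option autoImplicit false

namespace Fermat.Agent.S14

open NumberField

/-- A submodule of finite index of a finitely generated `ℤ`-module has the same rank. -/
theorem h1_ufB_finrank_of_index_ne_zero {X : Type*} [AddCommGroup X] [Module.Finite ℤ X]
    (Y : Submodule ℤ X) (hY : Y.toAddSubgroup.index ≠ 0) :
    Module.finrank ℤ Y = Module.finrank ℤ X := by
  have hFI : Y.toAddSubgroup.FiniteIndex := ⟨hY⟩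
  have hfin' : Finite (X ⧸ Y.toAddSubgroup) := AddSubgroup.finite_quotient_of_finiteIndex
  have hfin : Finite (X ⧸ Y) := hfin'
  have htor : Module.IsTorsion ℤ (X ⧸ Y) := by
    intro q
    have hc : (Nat.card (X ⧸ Y) : ℤ) ≠ 0 := by exact_mod_cast Nat.card_pos.ne'
    refine ⟨⟨(Nat.card (X ⧸ Y) : ℤ), mem_nonZeroDivisors_of_ne_zero hc⟩, ?_⟩
    show (Nat.card (X ⧸ Y) : ℤ) • q = 0
    rw [natCast_zsmul]
    exact card_nsmul_eq_zero'
  have h0 : Module.finrank ℤ (X ⧸ Y) = 0 := Module.finrank_eq_zero_iff_isTorsion.mpr htor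
  have h1 := Y.finrank_quotient_add_finrank
  omega

section Units

variable {F M : Type*} [Field F] [NumberField F] [Field M] [NumberField M] [Algebra F M]

/-- A subgroup of finite index of the unit group has rank `#(infinite places) - 1`. -/
theorem h1_finrank_units_sub_B (E : Subgroup (𝓞 M)ˣ) (hE : E.index ≠ 0) :
    Module.finrank ℤ (Additive ↥E) = Fintype.card (InfinitePlace M) - 1 := by
  let j : Additive ↥E →ₗ[ℤ] Additive (𝓞 M)ˣ := (MonoidHom.toAdditive E.subtype).toIntLinearMap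
  have hj : Function.Injective j := fun a b h => Subtype.ext h
  have hrange : (LinearMap.range j).toAddSubgroup = Subgroup.toAddSubgroup E := by
    ext x
    constructor
    · rintro ⟨y, rfl⟩
      exact (Additive.toMul y).2
    · intro hx
      exact ⟨Additive.ofMul ⟨Additive.toMul x, hx⟩, rfl⟩
  have hidx : (LinearMap.range j).toAddSubgroup.index ≠ 0 := by
    rw [hrange, Subgroup.index_toAddSubgroup]
    exact hE
  rw [← LinearMap.finrank_range_of_inj hj, h1_ufB_finrank_of_index_ne_zero _ hidx,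
    NumberField.Units.finrank_eq]
  rfl

omit [NumberField F] [NumberField M] in
/-- The map `(𝓞 F)ˣ → (𝓞 M)ˣ` induced by the inclusion is injective. -/
theorem h1_ufB_unitsMap_injective :
    Function.Injective (Units.map (algebraMap (𝓞 F) (𝓞 M) : 𝓞 F →* 𝓞 M)) :=
  Units.map_injective (FaithfulSMul.algebraMap_injective (𝓞 F) (𝓞 M))

omit [NumberField F] [NumberField M] in
/-- The coercion to `M` of the image of a unit of `𝓞 F`. -/
theorem h1_ufB_unitsMap_coe (u : (𝓞 F)ˣ) :
    (((Units.map (algebraMap (𝓞 F) (𝓞 M) : 𝓞 F →* 𝓞 M) u : (𝓞 M)ˣ) : 𝓞 M) : M) =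
      algebraMap F M ((u : 𝓞 F) : F) := rfl

omit [NumberField F] in
/-- An element of `F` whose image in `M` is (the coercion of) a unit of `𝓞 M` comes from a unit of
`𝓞 F`. -/
theorem h1_ufB_exists_unit (ε : (𝓞 M)ˣ) (y : F) (hy : algebraMap F M y = ((ε : 𝓞 M) : M)) :
    ∃ u : (𝓞 F)ˣ, Units.map (algebraMap (𝓞 F) (𝓞 M) : 𝓞 F →* 𝓞 M) u = ε := by
  have hinj : Function.Injective (algebraMap F M) := (algebraMap F M).injective
  have hyint : IsIntegral ℤ y := by
    rw [← isIntegral_algebraMap_iff hinj, hy]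
    exact RingOfIntegers.isIntegral_coe (ε : 𝓞 M)
  have hinv : ((ε : 𝓞 M) : M) * (((ε⁻¹ : (𝓞 M)ˣ) : 𝓞 M) : M) = 1 := by
    rw [← map_mul, Units.mul_inv, map_one]
  have hy' : algebraMap F M y⁻¹ = (((ε⁻¹ : (𝓞 M)ˣ) : 𝓞 M) : M) := by
    rw [map_inv₀, hy]
    exact inv_eq_of_mul_eq_one_right hinv
  have hyint' : IsIntegral ℤ y⁻¹ := by
    rw [← isIntegral_algebraMap_iff hinj, hy']
    exact RingOfIntegers.isIntegral_coe ((ε⁻¹ : (𝓞 M)ˣ) : 𝓞 M)
  have hy0 : y ≠ 0 := by
    rintro rfl
    rw [map_zero] at hy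
    rw [← hy, zero_mul] at hinv
    exact zero_ne_one hinv
  let a : 𝓞 F := ⟨y, hyint⟩
  let b : 𝓞 F := ⟨y⁻¹, hyint'⟩
  have hab : a * b = 1 := RingOfIntegers.ext (mul_inv_cancel₀ hy0)
  have hba : b * a = 1 := RingOfIntegers.ext (inv_mul_cancel₀ hy0)
  refine ⟨⟨a, b, hab, hba⟩, ?_⟩
  apply Units.ext
  apply RingOfIntegers.ext
  rw [h1_ufB_unitsMap_coe]
  exact hy

/-- **The `σ`-fixed units are the units of the base field** (`σ` a generator of the Galois group
of prime order). -/
theorem h1_ufB_ker_unitDiff (p : ℕ) [Fact p.Prime] [IsGalois F M]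
    (hdeg : Module.finrank F M = p) (σ : M ≃ₐ[F] M) (hσ : σ ≠ 1) :
    (h1_unitDiff σ).ker = (Units.map (algebraMap (𝓞 F) (𝓞 M) : 𝓞 F →* 𝓞 M)).range := by
  ext ε
  rw [MonoidHom.mem_ker, h1_unitDiff_apply, div_eq_one, MonoidHom.mem_range]
  constructor
  · intro h
    have h1 : σ ((ε : 𝓞 M) : M) = ((ε : 𝓞 M) : M) := by
      rw [← h1_unitAut_coe_coe, h]
    have htop : Subgroup.zpowers σ = ⊤ :=
      zpowers_eq_top_of_prime_card (by rw [IsGalois.card_aut_eq_finrank, hdeg]) hσ
    have hle : Subgroup.zpowers σ ≤ MulAction.stabilizer (M ≃ₐ[F] M) (((ε : 𝓞 M) : M)) := by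
      rw [Subgroup.zpowers_le, MulAction.mem_stabilizer_iff]
      exact h1
    have h2 : ∀ τ : M ≃ₐ[F] M, τ ((ε : 𝓞 M) : M) = ((ε : 𝓞 M) : M) := by
      intro τ
      have hτ : τ ∈ Subgroup.zpowers σ := by
        rw [htop]
        trivial
      exact MulAction.mem_stabilizer_iff.mp (hle hτ)
    obtain ⟨y, hy⟩ := (IsGalois.mem_range_algebraMap_iff_fixed _).mpr h2
    exact h1_ufB_exists_unit ε y hy
  · rintro ⟨u, rfl⟩
    apply Units.ext
    apply RingOfIntegers.ext
    rw [h1_unitAut_coe_coe, h1_ufB_unitsMap_coe]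
    exact σ.commutes _

/-- The `σ`-fixed units in a subgroup `E` of finite index have rank `#(infinite places of F) - 1`
(`σ` a generator of the Galois group of prime order). -/
theorem h1_finrank_fixed_units_B (p : ℕ) [Fact p.Prime] [IsGalois F M]
    (hdeg : Module.finrank F M = p) (σ : M ≃ₐ[F] M) (hσ : σ ≠ 1) (E : Subgroup (𝓞 M)ˣ)
    (hE : E.index ≠ 0) :
    Module.finrank ℤ (Additive ↥((h1_unitDiff σ).ker ⊓ E)) =
      Fintype.card (InfinitePlace F) - 1 := by
  have hker := h1_ufB_ker_unitDiff p hdeg σ hσ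
  have hinj : Function.Injective (Units.map (algebraMap (𝓞 F) (𝓞 M) : 𝓞 F →* 𝓞 M)) :=
    h1_ufB_unitsMap_injective
  have hEF : (E.comap (Units.map (algebraMap (𝓞 F) (𝓞 M) : 𝓞 F →* 𝓞 M))).index ≠ 0 := by
    rw [Subgroup.index_comap]
    exact ne_zero_of_dvd_ne_zero hE (Subgroup.relIndex_dvd_index_of_normal E _)
  rw [hker, ← Subgroup.map_comap_eq, ← h1_finrank_units_sub_B _ hEF]
  exact (LinearEquiv.finrank_eq
    (Subgroup.equivMapOfInjective _ _ hinj).toAdditive.toIntLinearEquiv).symm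

end Units

end Fermat.Agent.S14
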