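import Mathlib
import Fermat.Agent.S14.H1UnitsDefs
import Fermat.Agent.S14.H1UnitsRank
import Fermat.Agent.S14.H1UnitsFixB
import Fermat.Agent.S14.H1LatticeB
import Fermat.Agent.S14.H1UnitsBCore

/-!
# P18 (S14), block H1, slice (d3), second team: Herbrand quotient of units

`h1_units_herbrand_B`: for a cyclic extension `M/F` of number fields of prime degree `p ≥ 3` with
`F` containing a primitive `p`-th root of unity, a generator `σ` of the Galois group and a
`σ`-stable subgroup `E` of finite index of the units of `M`, one has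
`|H¹(E)| = p · |Ĥ⁰(E)|`, both finite.

The argument is in `H1UnitsBCore.lean` (`h1_uhB_herbrand_of`); here its three inputs are supplied:
the lattice index formula `h1_lattice_B` (`H1LatticeB.lean`) and the ranks
`h1_finrank_units_sub_B`, `h1_finrank_fixed_units_B` (`H1UnitsFixB.lean`).
-/

set_option autoImplicit false

namespace Fermat.Agent.S14

open NumberField

section Units

variable {F M : Type*} [Field F] [NumberField F] [Field M] [NumberField M] [Algebra F M]

/-- **Herbrand quotient of units**: for a `σ`-stable subgroup `E` of finite index of the units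
of `M`, `|H¹(E)| = p · |Ĥ⁰(E)|`. -/
theorem h1_units_herbrand_B (p : ℕ) [Fact p.Prime] (hp : 3 ≤ p) [IsGalois F M]
    (hdeg : Module.finrank F M = p) (ζ : F) (hζ : IsPrimitiveRoot ζ p)
    (σ : M ≃ₐ[F] M) (hσ : σ ≠ 1) (E : Subgroup (𝓞 M)ˣ) (hE : E.index ≠ 0)
    (hEσ : ∀ ε ∈ E, h1_unitAut σ ε ∈ E) :
    (E.map (h1_unitNorm p σ)).relIndex ((h1_unitDiff σ).ker ⊓ E) ≠ 0 ∧
    (E.map (h1_unitDiff σ)).relIndex ((h1_unitNorm p σ).ker ⊓ E)
      = p * (E.map (h1_unitNorm p σ)).relIndex ((h1_unitDiff σ).ker ⊓ E) := by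
  have hfin : Module.Finite ℤ (Additive ↥E) := h1_uhB_finite E
  exact h1_uhB_herbrand_of p hp hdeg ζ hζ σ E hEσ
    (fun s hs a b ha hb => h1_lattice_B p s hs a b ha hb)
    (h1_finrank_units_sub_B E hE) (h1_finrank_fixed_units_B p hdeg σ hσ E hE)

end Units

end Fermat.Agent.S14
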