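import Mathlib
import Fermat.Agent.S14.Defs
import Fermat.Agent.S14.H2Defs
import Fermat.Agent.S14.H2AuxCore
import Fermat.Agent.S14.H2Tame
import Fermat.Agent.S14.H2AuxPrime

/-!
# P18 (S14), block H2, slice [A6]: the auxiliary set `T`

`h2_exists_T` : Step 4 of the second inequality.  The proof is in `H2AuxCore.lean`
(`h2x_exists_T_core`); here its two inputs are plugged in: the auxiliary prime (slice [A4],
`h2_exists_aux_prime`) and the tame index bound (slice [A5], `h2_relIndex_unitsAt_le`).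
-/

set_option autoImplicit false

namespace Fermat.Agent.S14

open NumberField IsDedekindDomain

set_option linter.unusedVariables false in
/-- [A6] Step 4: the auxiliary set `T`. -/
theorem h2_exists_T (p : ℕ) [Fact p.Prime] (hp : 3 ≤ p)
    (F M : Type*) [Field F] [NumberField F] [Field M] [NumberField M] [Algebra F M] [IsGalois F M]
    (hdeg : Module.finrank F M = p) (ζ : F) (hζ : IsPrimitiveRoot ζ p)
    (S₀ : Finset (HeightOneSpectrum (𝓞 F)))
    (a : 𝓞 F) (α : 𝓞 M) (ha0 : a ≠ 0)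
    (haS : ∀ v : HeightOneSpectrum (𝓞 F), a ∈ v.asIdeal → v ∈ S₀)
    (hα : α ^ p = algebraMap (𝓞 F) (𝓞 M) a) (hαF : ∀ y : F, algebraMap F M y ≠ (α : M))
    (heven : 2 ∣ Module.finrank ℚ F)
    (hcount : p ^ (Module.finrank ℚ F / 2 + S₀.card) ≤
      (powMonoidHom p : Fˣ →* Fˣ).range.relIndex (h2U F (S₀ : Set (HeightOneSpectrum (𝓞 F))))) :
    ∃ T : Finset (HeightOneSpectrum (𝓞 F)),
      (∀ v ∈ T, v ∉ S₀) ∧
      (∀ v ∈ T, ∃ 𝔔 : Ideal (𝓞 M), 𝔔.IsPrime ∧ Ideal.relNorm (𝓞 F) 𝔔 = v.asIdeal) ∧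
      T.card + 1 = Module.finrank ℚ F / 2 + S₀.card ∧
      h2T2 F p S₀ T := by
  have hau : algebraMap (𝓞 F) F a ≠ 0 := by
    rw [Ne, map_eq_zero_iff _ (FaithfulSMul.algebraMap_injective (𝓞 F) F)]
    exact ha0
  exact h2x_exists_T_core p F M S₀ (Units.mk0 (algebraMap (𝓞 F) F a) hau)
    (fun x hx B => h2_exists_aux_prime p hp F M hdeg ζ hζ a α hα hαF
      (Units.mk0 (algebraMap (𝓞 F) F a) hau) rfl x hx B)
    (fun T => h2_relIndex_unitsAt_le p F T) heven hcount

end Fermat.Agent.S14
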