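import Mathlib
import Fermat.Agent.S14.Defs
import Fermat.Agent.S14.H2Defs

/-!
# P18 (S14), block H2, slice [A5] (second implementation): the tame index

For a finite set `T` of primes of a number field `F`, the group of elements of `Fˣ` which are
units at every prime of `T`, modulo those which are local `p`-th powers (to precision `1`) at
every prime of `T`, is finite of order at most `p ^ |T|` (`h2_relIndex_unitsAt_le_B`).

At a single prime `v` the residue field `k = 𝓞 F ⧸ v` is finite, so `kˣ` is cyclic; if `g ∈ 𝓞 F`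
lifts a generator then every `v`-unit lies in `g ^ i · h2Dv F p v 1` for some `i < p`.
-/

set_option autoImplicit false

namespace Fermat.Agent.S14

open NumberField IsDedekindDomain

/-- If every element of `K` lies in `r • H` for some `r` in the finite set `R`, then `H` has
finite index at most `|R|` in `K`. -/
theorem h2t_relIndex_le_card_B {G : Type*} [Group G] (H K : Subgroup G) (R : Finset G)
    (h : ∀ x ∈ K, ∃ r ∈ R, r⁻¹ * x ∈ H) : H.relIndex K ≠ 0 ∧ H.relIndex K ≤ R.card := by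
  classical
  have h' : ∀ x : K, ∃ r : R, (r : G)⁻¹ * (x : G) ∈ H := fun x => by
    obtain ⟨r, hr, hrx⟩ := h x x.2
    exact ⟨⟨r, hr⟩, hrx⟩
  choose f hf using h'
  have hφ : Function.Injective (fun q : K ⧸ H.subgroupOf K => f q.out) := by
    intro q₁ q₂ hq
    have hq' : f q₁.out = f q₂.out := hq
    rw [← QuotientGroup.out_eq' q₁, ← QuotientGroup.out_eq' q₂, QuotientGroup.eq,
      Subgroup.mem_subgroupOf]
    have h1 := hf q₁.out
    have h2 := hf q₂.out
    rw [hq'] at h1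
    have h3 := H.mul_mem (H.inv_mem h1) h2
    have h4 : (((f q₂.out : R) : G)⁻¹ * (q₁.out : G))⁻¹ * (((f q₂.out : R) : G)⁻¹ * (q₂.out : G))
        = (q₁.out : G)⁻¹ * (q₂.out : G) := by group
    rw [h4] at h3
    exact h3
  have : Finite (K ⧸ H.subgroupOf K) := Finite.of_injective _ hφ
  refine ⟨?_, ?_⟩
  · exact Nat.card_pos.ne'
  · calc H.relIndex K = Nat.card (K ⧸ H.subgroupOf K) := rfl
      _ ≤ Nat.card R := Nat.card_le_card_of_injective _ hφ
      _ = R.card := Nat.card_eq_finsetCard R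

/-- At a single prime `v` there is `g ∈ Fˣ` such that every `v`-unit lies in
`g ^ i · h2Dv F p v 1` for some `i < p`. -/
theorem h2t_exists_rep_B (p : ℕ) (hp : 0 < p) (F : Type*) [Field F] [NumberField F]
    (v : HeightOneSpectrum (𝓞 F)) :
    ∃ g : Fˣ, ∀ x : Fˣ, v.valuation F (x : F) = 1 →
      ∃ i < p, (g ^ i)⁻¹ * x ∈ h2Dv F p v 1 := by
  have : v.asIdeal.IsMaximal := v.isMaximal
  let _ : Field (𝓞 F ⧸ v.asIdeal) := Ideal.Quotient.field v.asIdeal
  have : Finite (𝓞 F ⧸ v.asIdeal) := v.asIdeal.finiteQuotientOfFreeOfNeBot v.ne_bot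
  obtain ⟨gbar, hgbar⟩ := IsCyclic.exists_generator (α := (𝓞 F ⧸ v.asIdeal)ˣ)
  obtain ⟨g₀, hg₀⟩ := Ideal.Quotient.mk_surjective (gbar : 𝓞 F ⧸ v.asIdeal)
  have hg₀v : g₀ ∉ v.asIdeal := by
    intro h
    have h0 : (gbar : 𝓞 F ⧸ v.asIdeal) = 0 := by
      rw [← hg₀]
      exact Ideal.Quotient.eq_zero_iff_mem.mpr h
    exact gbar.ne_zero h0
  have hG1 : v.valuation F (algebraMap (𝓞 F) F g₀) = 1 :=
    (HeightOneSpectrum.valuation_eq_one_iff_notMem v).mpr hg₀v
  have hG0 : algebraMap (𝓞 F) F g₀ ≠ 0 := by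
    intro h
    rw [h, map_zero] at hG1
    exact zero_ne_one hG1
  refine ⟨Units.mk0 (algebraMap (𝓞 F) F g₀) hG0, fun x hx => ?_⟩
  obtain ⟨n, ⟨d, hd⟩, hnd⟩ := v.exists_primeCompl_mul_eq_of_integer (x : F) hx.le
  have hdv : d ∉ v.asIdeal := hd
  have hD1 : v.valuation F (algebraMap (𝓞 F) F d) = 1 :=
    (HeightOneSpectrum.valuation_eq_one_iff_notMem v).mpr hdv
  have hD0 : algebraMap (𝓞 F) F d ≠ 0 := by
    intro h
    rw [h, map_zero] at hD1
    exact zero_ne_one hD1
  have hN1 : v.valuation F (algebraMap (𝓞 F) F n) = 1 := by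
    rw [← hnd, map_mul, hx, hD1, mul_one]
  have hnv : n ∉ v.asIdeal := (HeightOneSpectrum.valuation_eq_one_iff_notMem v).mp hN1
  have hnbar : Ideal.Quotient.mk v.asIdeal n ≠ 0 := fun h =>
    hnv (Ideal.Quotient.eq_zero_iff_mem.mp h)
  have hdbar : Ideal.Quotient.mk v.asIdeal d ≠ 0 := fun h =>
    hdv (Ideal.Quotient.eq_zero_iff_mem.mp h)
  obtain ⟨m, hm⟩ : ∃ m : ℕ, gbar ^ m = Units.mk0 _ hnbar * (Units.mk0 _ hdbar)⁻¹ :=
    mem_powers_iff_mem_zpowers.mpr (hgbar _)
  -- the congruence `n ≡ d * g₀ ^ m` modulo `v`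
  have hmem : n - d * g₀ ^ m ∈ v.asIdeal := by
    rw [← Ideal.Quotient.eq, map_mul, map_pow, hg₀]
    have h1 := congrArg Units.val hm
    rw [Units.val_pow_eq_pow_val, Units.val_mul, Units.val_mk0, Units.val_inv_eq_inv_val,
      Units.val_mk0] at h1
    rw [h1, mul_comm, inv_mul_cancel_right₀ hdbar]
  refine ⟨m % p, Nat.mod_lt m hp, Units.mk0 (algebraMap (𝓞 F) F g₀) hG0 ^ (m / p), ?_, ?_⟩
  · have key : (((Units.mk0 (algebraMap (𝓞 F) F g₀) hG0 ^ (m % p))⁻¹ * x : Fˣ) : F) /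
        ((Units.mk0 (algebraMap (𝓞 F) F g₀) hG0 ^ (m / p) : Fˣ) : F) ^ p
        = (x : F) / (algebraMap (𝓞 F) F g₀) ^ m := by
      rw [Units.val_mul, Units.val_inv_eq_inv_val, Units.val_pow_eq_pow_val,
        Units.val_pow_eq_pow_val, Units.val_mk0, ← pow_mul', inv_mul_eq_div, div_div, ← pow_add,
        Nat.mod_add_div]
    rw [key, map_div₀, map_pow, hx, hG1, one_pow, div_one]
  · have key : (((Units.mk0 (algebraMap (𝓞 F) F g₀) hG0 ^ (m % p))⁻¹ * x : Fˣ) : F) /
        ((Units.mk0 (algebraMap (𝓞 F) F g₀) hG0 ^ (m / p) : Fˣ) : F) ^ p - 1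
        = algebraMap (𝓞 F) F (n - d * g₀ ^ m) /
          (algebraMap (𝓞 F) F d * (algebraMap (𝓞 F) F g₀) ^ m) := by
      rw [Units.val_mul, Units.val_inv_eq_inv_val, Units.val_pow_eq_pow_val,
        Units.val_pow_eq_pow_val, Units.val_mk0, ← pow_mul', inv_mul_eq_div, div_div, ← pow_add,
        Nat.mod_add_div, map_sub, map_mul, map_pow, ← hnd]
      field_simp
    rw [key, map_div₀, map_mul, map_pow, hD1, hG1, one_pow, mul_one, div_one,
      HeightOneSpectrum.valuation_of_algebraMap]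
    exact (v.intValuation_le_pow_iff_mem _ 1).mpr (by rwa [pow_one])

/-- The tame index at a single prime `v`, inside any group of `v`-units. -/
theorem h2t_relIndex_single_B (p : ℕ) (hp : 0 < p) (F : Type*) [Field F] [NumberField F]
    (v : HeightOneSpectrum (𝓞 F)) (V : Subgroup Fˣ)
    (hV : ∀ x ∈ V, v.valuation F (x : F) = 1) :
    (h2Dv F p v 1).relIndex V ≠ 0 ∧ (h2Dv F p v 1).relIndex V ≤ p := by
  classical
  obtain ⟨g, hg⟩ := h2t_exists_rep_B p hp F v
  have h := h2t_relIndex_le_card_B (h2Dv F p v 1) V ((Finset.range p).image fun i => g ^ i)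
    (fun x hx => by
      obtain ⟨i, hi, hix⟩ := hg x (hV x hx)
      exact ⟨g ^ i, Finset.mem_image.mpr ⟨i, Finset.mem_range.mpr hi, rfl⟩, hix⟩)
  refine ⟨h.1, h.2.trans ?_⟩
  exact Finset.card_image_le.trans (Finset.card_range p).le

/-- [A5] tame index: the units at `T` modulo local `p`-th powers on `T` (precision 1) have
order at most `p ^ |T|`. -/
theorem h2_relIndex_unitsAt_le_B (p : ℕ) [Fact p.Prime] (F : Type*) [Field F] [NumberField F]
    (T : Finset (HeightOneSpectrum (𝓞 F))) :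
    (h2D F p T (fun _ => 1)).relIndex (h2U F ((T : Set (HeightOneSpectrum (𝓞 F)))ᶜ)) ≠ 0 ∧
      (h2D F p T (fun _ => 1)).relIndex (h2U F ((T : Set (HeightOneSpectrum (𝓞 F)))ᶜ)) ≤
        p ^ T.card := by
  classical
  have hp : 0 < p := (Fact.out : p.Prime).pos
  have key : ∀ T' : Finset (HeightOneSpectrum (𝓞 F)), T' ⊆ T →
      (h2D F p T' (fun _ => 1)).relIndex (h2U F ((T : Set (HeightOneSpectrum (𝓞 F)))ᶜ)) ≠ 0 ∧
      (h2D F p T' (fun _ => 1)).relIndex (h2U F ((T : Set (HeightOneSpectrum (𝓞 F)))ᶜ)) ≤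
        p ^ T'.card := by
    intro T'
    induction T' using Finset.induction_on with
    | empty =>
      intro _
      have h0 : h2D F p ∅ (fun _ => 1) = ⊤ := by
        ext y
        simp [mem_h2D]
      rw [h0, Subgroup.relIndex_top_left]
      simp
    | insert v s hv ih =>
      intro hsub
      have hvT : v ∈ T := hsub (Finset.mem_insert_self v s)
      obtain ⟨ih0, ih1⟩ := ih (fun w hw => hsub (Finset.mem_insert_of_mem hw))
      obtain ⟨h0, h1⟩ := h2t_relIndex_single_B p hp F v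
        (h2U F ((T : Set (HeightOneSpectrum (𝓞 F)))ᶜ))
        (fun x hx => hx v (fun hvc => hvc (Finset.mem_coe.mpr hvT)))
      have hD : h2D F p (insert v s) (fun _ => 1) = h2Dv F p v 1 ⊓ h2D F p s (fun _ => 1) := by
        ext y
        simp [mem_h2D, Subgroup.mem_inf]
      rw [hD, Finset.card_insert_of_notMem hv, pow_succ']
      exact ⟨Subgroup.relIndex_inf_ne_zero h0 ih0,
        Subgroup.relIndex_inf_le.trans (Nat.mul_le_mul h1 ih1)⟩
  exact key T (Finset.Subset.refl T)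

end Fermat.Agent.S14
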