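import Mathlib
import Fermat.Agent.S14.Defs
import Fermat.Agent.S14.H2Defs
import Fermat.Agent.S14.H2TameB

/-!
# P18 (S14), block H2, slice [A6] (second team): the auxiliary set `T` — core

`h2_exists_T_core_B`: the construction of the auxiliary set of primes `T` of Step 4 of the second
inequality, with the two inputs [A4] (existence of auxiliary primes) and [A5] (the tame index
bound) as hypotheses.  The group-theoretic lemmas on relative indices are proved here
(`h2x_…_B`).  `h2_exists_T_of_aux_B` is the same statement with [A5] supplied by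
`h2_relIndex_unitsAt_le_B` and only [A4] (for the Kummer generator `a`) left as a hypothesis.
-/

set_option autoImplicit false

namespace Fermat.Agent.S14

open NumberField IsDedekindDomain

/-! ### Relative indices in a commutative group -/

/-- The relative index is monotone in the ambient subgroup (when finite). -/
theorem h2x_relIndex_le_of_le_B {G : Type*} [Group G] (K L H : Subgroup G) (hKL : K ≤ L)
    (h0 : H.relIndex L ≠ 0) : H.relIndex K ≤ H.relIndex L ∧ H.relIndex K ≠ 0 :=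
  ⟨Subgroup.relIndex_le_of_le_right hKL h0,
    fun h => h0 (Subgroup.relIndex_eq_zero_of_le_right hKL h)⟩

/-- The relative index of `H` in `K` is the order of the image of `K` in the quotient by `H`. -/
theorem h2x_relIndex_eq_card_map_B {G : Type*} [CommGroup G] (H K : Subgroup G) :
    H.relIndex K = Nat.card (K.map (QuotientGroup.mk' H)) := by
  have h := Subgroup.relIndex_ker (K := K) (QuotientGroup.mk' H)
  rwa [QuotientGroup.ker_mk'] at h

/-- If `K ≤ L` have the same (finite) relative index with respect to `H`, then `L ≤ K ⊔ H`. -/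
theorem h2x_le_sup_of_relIndex_le_B {G : Type*} [CommGroup G] (K L H : Subgroup G) (hKL : K ≤ L)
    (h0 : H.relIndex L ≠ 0) (h : H.relIndex L ≤ H.relIndex K) : L ≤ K ⊔ H := by
  rw [h2x_relIndex_eq_card_map_B, h2x_relIndex_eq_card_map_B] at h
  rw [h2x_relIndex_eq_card_map_B] at h0
  have hfin : Finite (L.map (QuotientGroup.mk' H)) := Nat.finite_of_card_ne_zero h0
  have hle : K.map (QuotientGroup.mk' H) ≤ L.map (QuotientGroup.mk' H) := Subgroup.map_mono hKL
  have heq := Subgroup.eq_of_le_of_card_ge hle h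
  have h1 : L ≤ (L.map (QuotientGroup.mk' H)).comap (QuotientGroup.mk' H) :=
    Subgroup.le_comap_map _ _
  rw [← heq, Subgroup.comap_map_eq, QuotientGroup.ker_mk'] at h1
  exact h1

/-- Cutting by a further subgroup `H'` containing the `p`-th powers of `K` multiplies the
relative index by at least `p`, as soon as some element of `K ⊓ H` is not in `H'`. -/
theorem h2x_mul_relIndex_le_B {G : Type*} [CommGroup G] (H H' K : Subgroup G) (p : ℕ)
    [Fact p.Prime] (h0 : (H ⊓ H').relIndex K ≠ 0) (x : G) (hxK : x ∈ K) (hxH : x ∈ H)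
    (hxH' : x ∉ H') (hp : ∀ y ∈ K, y ^ p ∈ H') : p * H.relIndex K ≤ (H ⊓ H').relIndex K := by
  have h1 : H'.relIndex (H ⊓ K) * H.relIndex K = (H' ⊓ H).relIndex K :=
    Subgroup.relIndex_inf_mul_relIndex H' H K
  rw [inf_comm H H', ← h1]
  have h2 : H'.relIndex (H ⊓ K) ≠ 0 := by
    intro h
    apply h0
    rw [inf_comm H H', ← h1, h, zero_mul]
  have h3 : p ∣ H'.relIndex (H ⊓ K) := by
    rw [h2x_relIndex_eq_card_map_B] at h2 ⊢
    have hmem : QuotientGroup.mk' H' x ∈ (H ⊓ K).map (QuotientGroup.mk' H') :=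
      Subgroup.mem_map_of_mem _ ⟨hxH, hxK⟩
    have hne : QuotientGroup.mk' H' x ≠ 1 := by
      intro h
      exact hxH' ((QuotientGroup.eq_one_iff x).mp h)
    have hpow : (QuotientGroup.mk' H' x) ^ p = 1 := by
      rw [← map_pow]
      exact (QuotientGroup.eq_one_iff (x ^ p)).mpr (hp x hxK)
    have hord : orderOf (QuotientGroup.mk' H' x) = p := orderOf_eq_prime hpow hne
    have hdvd := Subgroup.orderOf_dvd_natCard ((H ⊓ K).map (QuotientGroup.mk' H')) hmem
    rwa [hord] at hdvd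
  exact Nat.mul_le_mul_right _ (Nat.le_of_dvd (Nat.pos_of_ne_zero h2) h3)

/-- Adjoining an element `u` with `u ^ p ∈ P` divides the relative index by at most `p`. -/
theorem h2x_relIndex_zpowers_sup_B {G : Type*} [CommGroup G] (P K : Subgroup G) (u : G) (p : ℕ)
    (hp : 0 < p) (hu : u ^ p ∈ P) :
    P.relIndex K ≤ p * (Subgroup.zpowers u ⊔ P).relIndex K := by
  have h1 : P.relIndex ((Subgroup.zpowers u ⊔ P) ⊓ K) * (Subgroup.zpowers u ⊔ P).relIndex K
      = (P ⊓ (Subgroup.zpowers u ⊔ P)).relIndex K :=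
    Subgroup.relIndex_inf_mul_relIndex P (Subgroup.zpowers u ⊔ P) K
  rw [inf_eq_left.mpr (le_sup_right : P ≤ Subgroup.zpowers u ⊔ P)] at h1
  rw [← h1]
  apply Nat.mul_le_mul_right
  -- the index of `P` in `zpowers u ⊔ P` is the order of the class of `u`, a divisor of `p`
  have h2 : P.relIndex (Subgroup.zpowers u ⊔ P) = orderOf (QuotientGroup.mk' P u) := by
    rw [Subgroup.relIndex_sup_right, h2x_relIndex_eq_card_map_B, MonoidHom.map_zpowers,
      Nat.card_zpowers]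
  have h3 : orderOf (QuotientGroup.mk' P u) ∣ p := by
    apply orderOf_dvd_of_pow_eq_one
    rw [← map_pow]
    exact (QuotientGroup.eq_one_iff (u ^ p)).mpr hu
  have h4 : P.relIndex (Subgroup.zpowers u ⊔ P) ≠ 0 := by
    rw [h2]
    intro h
    rw [h] at h3
    exact hp.ne' (Nat.eq_zero_of_zero_dvd h3)
  calc P.relIndex ((Subgroup.zpowers u ⊔ P) ⊓ K)
      ≤ P.relIndex (Subgroup.zpowers u ⊔ P) := Subgroup.relIndex_le_of_le_right inf_le_left h4
    _ ≤ p := by rw [h2]; exact Nat.le_of_dvd hp h3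

/-! ### The construction of `T` -/

/-- The inductive step of the construction: for `k + 1 ≤ n₀` there is a set `T` of `k` primes
outside `S₀`, each the relative norm of a prime of `M`, such that the `S₀`-units have index at
least `p ^ k` modulo the local `p`-th powers (precision `1`) at `T`. -/
theorem h2x_exists_T_aux_B (p : ℕ) [Fact p.Prime]
    (F M : Type*) [Field F] [NumberField F] [Field M] [NumberField M] [Algebra F M]
    (S₀ : Finset (HeightOneSpectrum (𝓞 F))) (u : Fˣ)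
    (hA4 : ∀ x : Fˣ, x ∉ Subgroup.zpowers u ⊔ (powMonoidHom p : Fˣ →* Fˣ).range → ∀ B : ℕ,
      ∃ (v : HeightOneSpectrum (𝓞 F)) (𝔔 : Ideal (𝓞 M)), B < Ideal.absNorm v.asIdeal ∧
        𝔔.IsPrime ∧ Ideal.relNorm (𝓞 F) 𝔔 = v.asIdeal ∧ x ∉ h2Dv F p v 1)
    (hA5 : ∀ T : Finset (HeightOneSpectrum (𝓞 F)),
      (h2D F p T (fun _ => 1)).relIndex (h2U F ((T : Set (HeightOneSpectrum (𝓞 F)))ᶜ)) ≠ 0 ∧
        (h2D F p T (fun _ => 1)).relIndex (h2U F ((T : Set (HeightOneSpectrum (𝓞 F)))ᶜ)) ≤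
          p ^ T.card)
    (n₀ : ℕ)
    (hcount : p ^ n₀ ≤
      (powMonoidHom p : Fˣ →* Fˣ).range.relIndex (h2U F (S₀ : Set (HeightOneSpectrum (𝓞 F)))))
    (k : ℕ) (hk : k + 1 ≤ n₀) :
    ∃ T : Finset (HeightOneSpectrum (𝓞 F)), T.card = k ∧ (∀ v ∈ T, v ∉ S₀) ∧
      (∀ v ∈ T, ∃ 𝔔 : Ideal (𝓞 M), 𝔔.IsPrime ∧ Ideal.relNorm (𝓞 F) 𝔔 = v.asIdeal) ∧
      p ^ k ≤ (h2D F p T (fun _ => 1)).relIndex
        (h2U F (S₀ : Set (HeightOneSpectrum (𝓞 F)))) := by
  classical
  have hUV : ∀ T' : Finset (HeightOneSpectrum (𝓞 F)), (∀ v ∈ T', v ∉ S₀) →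
      h2U F (S₀ : Set (HeightOneSpectrum (𝓞 F)))
        ≤ h2U F ((T' : Set (HeightOneSpectrum (𝓞 F)))ᶜ) := by
    intro T' hT'
    apply h2U_mono
    intro v hv hvT
    exact hT' v hvT hv
  induction k with
  | zero =>
    refine ⟨∅, rfl, fun v hv => absurd hv (Finset.notMem_empty v),
      fun v hv => absurd hv (Finset.notMem_empty v), ?_⟩
    have h : h2D F p ∅ (fun _ => 1) = ⊤ := by simp [h2D]
    rw [h, Subgroup.relIndex_top_left, pow_zero]
  | succ k ih =>
    obtain ⟨T, hcard, hTS, hT𝔔, hTk⟩ := ih (by omega)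
    -- (a) the index of the `S₀`-units modulo `D_T` is finite, at most `p ^ k`
    obtain ⟨hle, hne⟩ := h2x_relIndex_le_of_le_B _ _ (h2D F p T (fun _ => 1)) (hUV T hTS)
      (hA5 T).1
    have hle' : (h2D F p T (fun _ => 1)).relIndex
        (h2U F (S₀ : Set (HeightOneSpectrum (𝓞 F)))) ≤ p ^ k := by
      have h := (hA5 T).2
      rw [hcard] at h
      exact hle.trans h
    -- (b) an `S₀`-unit in `D_T` outside `u ^ ℤ · (Fˣ) ^ p`
    have hx : ∃ x : Fˣ, x ∈ h2U F (S₀ : Set (HeightOneSpectrum (𝓞 F))) ∧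
        x ∈ h2D F p T (fun _ => 1) ∧
        x ∉ Subgroup.zpowers u ⊔ (powMonoidHom p : Fˣ →* Fˣ).range := by
      by_contra hcon
      have hsub : h2D F p T (fun _ => 1) ⊓ h2U F (S₀ : Set (HeightOneSpectrum (𝓞 F)))
          ≤ Subgroup.zpowers u ⊔ (powMonoidHom p : Fˣ →* Fˣ).range := by
        intro x hx
        by_contra hxW
        exact hcon ⟨x, hx.2, hx.1, hxW⟩
      have h1 : (Subgroup.zpowers u ⊔ (powMonoidHom p : Fˣ →* Fˣ).range).relIndex
          (h2U F (S₀ : Set (HeightOneSpectrum (𝓞 F))))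
          ≤ (h2D F p T (fun _ => 1)).relIndex (h2U F (S₀ : Set (HeightOneSpectrum (𝓞 F)))) := by
        have h := Subgroup.relIndex_le_of_le_left
          (L := h2U F (S₀ : Set (HeightOneSpectrum (𝓞 F)))) hsub
          (by rwa [Subgroup.inf_relIndex_right])
        rwa [Subgroup.inf_relIndex_right] at h
      have hu : u ^ p ∈ (powMonoidHom p : Fˣ →* Fˣ).range := ⟨u, rfl⟩
      have h2 := h2x_relIndex_zpowers_sup_B (powMonoidHom p : Fˣ →* Fˣ).range
        (h2U F (S₀ : Set (HeightOneSpectrum (𝓞 F)))) u p (Fact.out : p.Prime).pos hu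
      have h3 : p ^ n₀ ≤ p ^ (k + 1) := by
        calc p ^ n₀ ≤ (powMonoidHom p : Fˣ →* Fˣ).range.relIndex
              (h2U F (S₀ : Set (HeightOneSpectrum (𝓞 F)))) := hcount
          _ ≤ p * (Subgroup.zpowers u ⊔ (powMonoidHom p : Fˣ →* Fˣ).range).relIndex
              (h2U F (S₀ : Set (HeightOneSpectrum (𝓞 F)))) := h2
          _ ≤ p * p ^ k := Nat.mul_le_mul_left _ (h1.trans hle')
          _ = p ^ (k + 1) := by ring
      have h4 := (Nat.pow_le_pow_iff_right (Fact.out : p.Prime).one_lt).mp h3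
      omega
    obtain ⟨x, hxU, hxD, hxW⟩ := hx
    -- (c) a new prime at which `x` is not a local `p`-th power
    obtain ⟨v, 𝔔, hB, h𝔔, hrel, hxv⟩ := hA4 x hxW
      (∑ w ∈ S₀, Ideal.absNorm w.asIdeal + ∑ w ∈ T, Ideal.absNorm w.asIdeal)
    have hvS : v ∉ S₀ := by
      intro hv
      have h := Finset.single_le_sum
        (f := fun w : HeightOneSpectrum (𝓞 F) => Ideal.absNorm w.asIdeal)
        (fun _ _ => Nat.zero_le _) hv
      omega
    have hvT : v ∉ T := by
      intro hv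
      have h := Finset.single_le_sum
        (f := fun w : HeightOneSpectrum (𝓞 F) => Ideal.absNorm w.asIdeal)
        (fun _ _ => Nat.zero_le _) hv
      omega
    have hT'S : ∀ w ∈ insert v T, w ∉ S₀ := by
      intro w hw
      rcases Finset.mem_insert.mp hw with rfl | hw
      · exact hvS
      · exact hTS w hw
    have hD' : h2D F p (insert v T) (fun _ => 1)
        = h2D F p T (fun _ => 1) ⊓ h2Dv F p v 1 := by
      ext y
      simp only [mem_h2D, Subgroup.mem_inf, Finset.mem_insert, forall_eq_or_imp]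
      tauto
    refine ⟨insert v T, by rw [Finset.card_insert_of_notMem hvT, hcard], hT'S, ?_, ?_⟩
    · intro w hw
      rcases Finset.mem_insert.mp hw with rfl | hw
      · exact ⟨𝔔, h𝔔, hrel⟩
      · exact hT𝔔 w hw
    · -- (d) the index is multiplied by at least `p`
      obtain ⟨-, hne'⟩ := h2x_relIndex_le_of_le_B _ _ (h2D F p (insert v T) (fun _ => 1))
        (hUV _ hT'S) (hA5 _).1
      rw [hD'] at hne' ⊢
      have h5 := h2x_mul_relIndex_le_B (h2D F p T (fun _ => 1)) (h2Dv F p v 1)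
        (h2U F (S₀ : Set (HeightOneSpectrum (𝓞 F)))) p hne' x hxU hxD hxv
        (fun y _ => pow_mem_h2Dv F p v 1 y)
      calc p ^ (k + 1) = p * p ^ k := by ring
        _ ≤ p * (h2D F p T (fun _ => 1)).relIndex
            (h2U F (S₀ : Set (HeightOneSpectrum (𝓞 F)))) := Nat.mul_le_mul_left _ hTk
        _ ≤ _ := h5

/-- [A6] core: the auxiliary set `T`, given the existence of auxiliary primes ([A4], for the
Kummer generator `u`) and the tame index bound ([A5]). -/
theorem h2_exists_T_core_B (p : ℕ) [Fact p.Prime]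
    (F M : Type*) [Field F] [NumberField F] [Field M] [NumberField M] [Algebra F M]
    (S₀ : Finset (HeightOneSpectrum (𝓞 F))) (u : Fˣ)
    (hA4 : ∀ x : Fˣ, x ∉ Subgroup.zpowers u ⊔ (powMonoidHom p : Fˣ →* Fˣ).range → ∀ B : ℕ,
      ∃ (v : HeightOneSpectrum (𝓞 F)) (𝔔 : Ideal (𝓞 M)), B < Ideal.absNorm v.asIdeal ∧
        𝔔.IsPrime ∧ Ideal.relNorm (𝓞 F) 𝔔 = v.asIdeal ∧ x ∉ h2Dv F p v 1)
    (hA5 : ∀ T : Finset (HeightOneSpectrum (𝓞 F)),
      (h2D F p T (fun _ => 1)).relIndex (h2U F ((T : Set (HeightOneSpectrum (𝓞 F)))ᶜ)) ≠ 0 ∧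
        (h2D F p T (fun _ => 1)).relIndex (h2U F ((T : Set (HeightOneSpectrum (𝓞 F)))ᶜ)) ≤
          p ^ T.card)
    (heven : 2 ∣ Module.finrank ℚ F)
    (hcount : p ^ (Module.finrank ℚ F / 2 + S₀.card) ≤
      (powMonoidHom p : Fˣ →* Fˣ).range.relIndex (h2U F (S₀ : Set (HeightOneSpectrum (𝓞 F))))) :
    ∃ T : Finset (HeightOneSpectrum (𝓞 F)),
      (∀ v ∈ T, v ∉ S₀) ∧
      (∀ v ∈ T, ∃ 𝔔 : Ideal (𝓞 M), 𝔔.IsPrime ∧ Ideal.relNorm (𝓞 F) 𝔔 = v.asIdeal) ∧
      T.card + 1 = Module.finrank ℚ F / 2 + S₀.card ∧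
      h2T2 F p S₀ T := by
  have hpos : 0 < Module.finrank ℚ F := Module.finrank_pos
  obtain ⟨K, hK⟩ : ∃ K, K + 1 = Module.finrank ℚ F / 2 + S₀.card := by
    obtain ⟨m, hm⟩ := heven
    exact ⟨Module.finrank ℚ F / 2 + S₀.card - 1, by omega⟩
  obtain ⟨T, hcard, hTS, hT𝔔, hTK⟩ :=
    h2x_exists_T_aux_B p F M S₀ u hA4 hA5 _ hcount K hK.le
  refine ⟨T, hTS, hT𝔔, by rw [hcard, hK], ?_⟩
  have hUV : h2U F (S₀ : Set (HeightOneSpectrum (𝓞 F)))
      ≤ h2U F ((T : Set (HeightOneSpectrum (𝓞 F)))ᶜ) := by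
    apply h2U_mono
    intro v hv hvT
    exact hTS v hvT hv
  have hle : (h2D F p T (fun _ => 1)).relIndex (h2U F ((T : Set (HeightOneSpectrum (𝓞 F)))ᶜ))
      ≤ (h2D F p T (fun _ => 1)).relIndex (h2U F (S₀ : Set (HeightOneSpectrum (𝓞 F)))) := by
    have h := (hA5 T).2
    rw [hcard] at h
    exact h.trans hTK
  have hsup := h2x_le_sup_of_relIndex_le_B _ _ (h2D F p T (fun _ => 1)) hUV (hA5 T).1 hle
  intro y hy
  have hyV : y ∈ h2U F ((T : Set (HeightOneSpectrum (𝓞 F)))ᶜ) := by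
    rw [mem_h2U]
    intro v hv
    apply hy v
    by_contra hvT
    exact hv hvT
  obtain ⟨ε, hε, d, hd, rfl⟩ := Subgroup.mem_sup.mp (hsup hyV)
  refine ⟨ε⁻¹, inv_mem hε, ?_⟩
  rw [mul_comm ε d, mul_assoc, mul_inv_cancel, mul_one]
  exact hd

/-- [A6] with only the existence of auxiliary primes ([A4], for the integral Kummer generator
`a`) as a hypothesis; the tame index bound [A5] is `h2_relIndex_unitsAt_le_B`. -/
theorem h2_exists_T_of_aux_B (p : ℕ) [Fact p.Prime]
    (F M : Type*) [Field F] [NumberField F] [Field M] [NumberField M] [Algebra F M]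
    (S₀ : Finset (HeightOneSpectrum (𝓞 F))) (a : 𝓞 F) (ha0 : a ≠ 0)
    (hA4 : ∀ u : Fˣ, (u : F) = algebraMap (𝓞 F) F a → ∀ x : Fˣ,
      x ∉ Subgroup.zpowers u ⊔ (powMonoidHom p : Fˣ →* Fˣ).range → ∀ B : ℕ,
      ∃ (v : HeightOneSpectrum (𝓞 F)) (𝔔 : Ideal (𝓞 M)), B < Ideal.absNorm v.asIdeal ∧
        𝔔.IsPrime ∧ Ideal.relNorm (𝓞 F) 𝔔 = v.asIdeal ∧ x ∉ h2Dv F p v 1)
    (heven : 2 ∣ Module.finrank ℚ F)
    (hcount : p ^ (Module.finrank ℚ F / 2 + S₀.card) ≤
      (powMonoidHom p : Fˣ →* Fˣ).range.relIndex (h2U F (S₀ : Set (HeightOneSpectrum (𝓞 F))))) :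
    ∃ T : Finset (HeightOneSpectrum (𝓞 F)),
      (∀ v ∈ T, v ∉ S₀) ∧
      (∀ v ∈ T, ∃ 𝔔 : Ideal (𝓞 M), 𝔔.IsPrime ∧ Ideal.relNorm (𝓞 F) 𝔔 = v.asIdeal) ∧
      T.card + 1 = Module.finrank ℚ F / 2 + S₀.card ∧
      h2T2 F p S₀ T := by
  have hu0 : algebraMap (𝓞 F) F a ≠ 0 := RingOfIntegers.coe_ne_zero_iff.mpr ha0
  exact h2_exists_T_core_B p F M S₀ (Units.mk0 _ hu0) (hA4 (Units.mk0 _ hu0) rfl)
    (fun T => h2_relIndex_unitsAt_le_B p F T) heven hcount

end Fermat.Agent.S14
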