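import Mathlib
import Fermat.Agent.S14.Defs
import Fermat.Agent.S14.H2Defs
import Fermat.Agent.S14.H2AuxBCore
import Fermat.Agent.S14.H2AuxPrime

/-!
# P18 (S14), block H2, slice [A6] (second team): the auxiliary set `T`

`h2_exists_T_B`: Step 4 of the second inequality.  There is a finite set `T` of primes of `F`
outside `S₀`, each the relative norm of a prime of `M`, with `|T| + 1 = [F : ℚ] / 2 + |S₀|`, such
that every `T`-unit becomes a local `p`-th power at all the primes of `T` after multiplication by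
an `S₀`-unit.  The construction is `h2_exists_T_of_aux_B` (file `H2AuxBCore.lean`), applied to
the auxiliary primes of [A4].
-/

set_option autoImplicit false

namespace Fermat.Agent.S14

open NumberField IsDedekindDomain

set_option linter.unusedVariables false in
/-- [A6] Step 4: the auxiliary set `T` (second team). -/
theorem h2_exists_T_B (p : ℕ) [Fact p.Prime] (hp : 3 ≤ p)
    (F M : Type*) [Field F] [NumberField F] [Field M] [NumberField M] [Algebra F M] [IsGalois F M]
    (hdeg : Module.finrank F M = p) (ζ : F) (hζ : IsPrimitiveRoot ζ p)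
    (S₀ : Finset (HeightOneSpectrum (𝓞 F)))
    (a : 𝓞 F) (α : 𝓞 M) (ha0 : a ≠ 0)
    (haS : ∀ v : HeightOneSpectrum (𝓞 F), a ∈ v.asIdeal → v ∈ S₀)
    (hα : α ^ p = algebraMap (𝓞 F) (𝓞 M) a) (hαF : ∀ y : F, algebraMap F M y ≠ (α : M))
    (heven : 2 ∣ Module.finrank ℚ F)
    (hcount : p ^ (Module.finrank ℚ F / 2 + S₀.card) ≤
      (powMonoidHom p : Fˣ →* Fˣ).range.relIndex (h2U F (S₀ : Set (HeightOneSpectrum (𝓞 F))))) :
    ∃ T : Finset (HeightOneSpectrum (𝓞 F)),
      (∀ v ∈ T, v ∉ S₀) ∧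
      (∀ v ∈ T, ∃ 𝔔 : Ideal (𝓞 M), 𝔔.IsPrime ∧ Ideal.relNorm (𝓞 F) 𝔔 = v.asIdeal) ∧
      T.card + 1 = Module.finrank ℚ F / 2 + S₀.card ∧
      h2T2 F p S₀ T :=
  h2_exists_T_of_aux_B p F M S₀ a ha0
    (fun u hu x hx B => h2_exists_aux_prime p hp F M hdeg ζ hζ a α hα hαF u hu x hx B)
    heven hcount

end Fermat.Agent.S14
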