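import Mathlib
import Fermat.Agent.S14.Defs
import Fermat.Agent.S14.H2Defs
import Fermat.Agent.S14.H2KummerField

/-!
# P18 (S14), block H2: the Kummer extension `M(x ^ (1/p))` with an integral generator

Let `M` be a number field containing a primitive `p`-th root of unity `ζ` and let `x ∈ 𝓞 M` be
nonzero and not a `p`-th power in `M`.  There is a Galois extension `M₂ / M` of degree `p` with
cyclic Galois group and an integer `γ ∈ 𝓞 M₂` with `γ ^ p = x`, such that an automorphism fixing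
`γ` is trivial and every automorphism multiplies `γ` by a power of `ζ`
(`h2_exists_kummerField_int`; the form `h2_exists_kummerField_int_core` takes the existence of
Kummer extensions as a hypothesis).
-/

set_option autoImplicit false

namespace Fermat.Agent.S14

open NumberField IsDedekindDomain

universe u

/-- The properties of a `p`-th root `β` of a non-`p`-th power `x ∈ 𝓞 M` in a Galois extension
`M₂ / M` of degree `p`. -/
theorem h2ki_of_root (p : ℕ) [Fact p.Prime] (M M₂ : Type*) [Field M] [NumberField M]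
    [Field M₂] [NumberField M₂] [Algebra M M₂] [IsGalois M M₂]
    (ζ : M) (hζ : IsPrimitiveRoot ζ p) (hdeg : Module.finrank M M₂ = p)
    (x : 𝓞 M) (hx0 : x ≠ 0) (hx : ∀ γ : M, γ ^ p ≠ (x : M))
    (β : M₂) (hβ : β ^ p = algebraMap M M₂ (x : M)) :
    ∃ γ : 𝓞 M₂, IsCyclic (M₂ ≃ₐ[M] M₂) ∧ γ ^ p = algebraMap (𝓞 M) (𝓞 M₂) x ∧
      (∀ φ : M₂ ≃ₐ[M] M₂, φ (γ : M₂) = (γ : M₂) → φ = 1) ∧
      (∀ φ : M₂ ≃ₐ[M] M₂, ∃ k : ℕ, φ (γ : M₂) = algebraMap M M₂ (ζ ^ k) * (γ : M₂)) := by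
  classical
  have hp : p.Prime := Fact.out
  have : NeZero p := ⟨hp.ne_zero⟩
  have hcard : Nat.card (M₂ ≃ₐ[M] M₂) = p := by rw [IsGalois.card_aut_eq_finrank, hdeg]
  have hcyc : IsCyclic (M₂ ≃ₐ[M] M₂) := isCyclic_of_prime_card hcard
  have hxM : (x : M) ≠ 0 := RingOfIntegers.coe_ne_zero_iff.mpr hx0
  have hβ0 : β ≠ 0 := by
    intro h
    rw [h, zero_pow hp.ne_zero] at hβ
    exact hxM ((map_eq_zero (algebraMap M M₂)).mp hβ.symm)
  have hβint : IsIntegral ℤ β := by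
    have h1 : IsIntegral ℤ (algebraMap M M₂ (x : M)) :=
      (RingOfIntegers.isIntegral_coe x).algebraMap
    rw [← hβ] at h1
    exact IsIntegral.of_pow hp.pos h1
  have hβM : ∀ c : M, algebraMap M M₂ c ≠ β := by
    intro c hc
    apply hx c
    apply (algebraMap M M₂).injective
    rw [map_pow, hc, hβ]
  obtain ⟨γ, hγ⟩ : ∃ γ : 𝓞 M₂, algebraMap (𝓞 M₂) M₂ γ = β := ⟨⟨β, hβint⟩, rfl⟩
  have hγ' : (γ : M₂) = β := hγ
  refine ⟨γ, hcyc, ?_, ?_, ?_⟩
  · apply RingOfIntegers.ext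
    show algebraMap (𝓞 M₂) M₂ (γ ^ p) = algebraMap (𝓞 M₂) M₂ (algebraMap (𝓞 M) (𝓞 M₂) x)
    rw [map_pow, hγ, ← IsScalarTower.algebraMap_apply (𝓞 M) (𝓞 M₂) M₂,
      IsScalarTower.algebraMap_apply (𝓞 M) M M₂]
    exact hβ
  · intro φ hφ
    rw [hγ'] at hφ
    by_contra hφ1
    have hgen : Subgroup.zpowers φ = ⊤ := zpowers_eq_top_of_prime_card hcard hφ1
    have hfix : ∀ τ : M₂ ≃ₐ[M] M₂, τ β = β := by
      intro τ
      have hτ : τ ∈ Subgroup.zpowers φ := by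
        rw [hgen]
        exact Subgroup.mem_top τ
      have hle : Subgroup.zpowers φ ≤ MulAction.stabilizer (M₂ ≃ₐ[M] M₂) β := by
        rw [Subgroup.zpowers_le]
        exact hφ
      exact hle hτ
    obtain ⟨c, hc⟩ := (IsGalois.mem_range_algebraMap_iff_fixed β).mpr hfix
    exact hβM c hc
  · intro φ
    rw [hγ']
    have hζ₂ : IsPrimitiveRoot (algebraMap M M₂ ζ) p :=
      hζ.map_of_injective (algebraMap M M₂).injective
    have h1 : (φ β / β) ^ p = 1 := by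
      rw [div_pow, ← map_pow, hβ, AlgEquiv.commutes, ← hβ, div_self (pow_ne_zero p hβ0)]
    obtain ⟨k, -, hk⟩ := hζ₂.eq_pow_of_pow_eq_one h1
    exact ⟨k, by rw [map_pow, hk, div_mul_cancel₀ _ hβ0]⟩

/-- The Kummer extension `M(x ^ (1/p))` of a number field `M ∋ ζ_p`, for `x ∈ 𝓞 M` not a `p`-th
power, with an integral generator `γ`, `γ ^ p = x`; the existence of Kummer extensions enters as
the hypothesis `hKF`. -/
theorem h2_exists_kummerField_int_core (p : ℕ) [Fact p.Prime] (M : Type u) [Field M]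
    [NumberField M] (ζ : M) (hζ : IsPrimitiveRoot ζ p)
    (hKF : ∀ y : Mˣ, (∀ z : Mˣ, y ≠ z ^ p) → ∃ (M₂ : Type u) (_ : Field M₂) (_ : NumberField M₂)
      (_ : Algebra M M₂) (_ : IsGalois M M₂) (β : M₂),
      Module.finrank M M₂ = p ∧ β ^ p = algebraMap M M₂ (y : M))
    (x : 𝓞 M) (hx0 : x ≠ 0) (hx : ∀ γ : M, γ ^ p ≠ (x : M)) :
    ∃ (M₂ : Type u) (_ : Field M₂) (_ : NumberField M₂) (_ : Algebra M M₂) (_ : IsGalois M M₂)
      (γ : 𝓞 M₂),
      Module.finrank M M₂ = p ∧ IsCyclic (M₂ ≃ₐ[M] M₂) ∧ γ ^ p = algebraMap (𝓞 M) (𝓞 M₂) x ∧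
      (∀ φ : M₂ ≃ₐ[M] M₂, φ (γ : M₂) = (γ : M₂) → φ = 1) ∧
      (∀ φ : M₂ ≃ₐ[M] M₂, ∃ k : ℕ, φ (γ : M₂) = algebraMap M M₂ (ζ ^ k) * (γ : M₂)) := by
  have hxM : (x : M) ≠ 0 := RingOfIntegers.coe_ne_zero_iff.mpr hx0
  have hy : ∀ z : Mˣ, Units.mk0 (x : M) hxM ≠ z ^ p := by
    intro z hz
    apply hx (z : M)
    have h1 := congrArg (fun w : Mˣ => (w : M)) hz
    simp only [Units.val_mk0, Units.val_pow_eq_pow_val] at h1
    exact h1.symm
  obtain ⟨M₂, hF, hNF, hAlg, hGal, β, hdeg, hβ⟩ := hKF (Units.mk0 (x : M) hxM) hy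
  obtain ⟨γ, h1, h2, h3, h4⟩ := h2ki_of_root p M M₂ ζ hζ hdeg x hx0 hx β hβ
  exact ⟨M₂, hF, hNF, hAlg, hGal, γ, hdeg, h1, h2, h3, h4⟩

/-- The Kummer extension `M(x ^ (1/p))` of a number field `M ∋ ζ_p`, for `x ∈ 𝓞 M` not a `p`-th
power: Galois of degree `p` with cyclic group, with an integral generator `γ`, `γ ^ p = x`, on
which the Galois group acts faithfully through multiplication by powers of `ζ`. -/
theorem h2_exists_kummerField_int (p : ℕ) [Fact p.Prime] (M : Type u) [Field M]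
    [NumberField M] (ζ : M) (hζ : IsPrimitiveRoot ζ p)
    (x : 𝓞 M) (hx0 : x ≠ 0) (hx : ∀ γ : M, γ ^ p ≠ (x : M)) :
    ∃ (M₂ : Type u) (_ : Field M₂) (_ : NumberField M₂) (_ : Algebra M M₂) (_ : IsGalois M M₂)
      (γ : 𝓞 M₂),
      Module.finrank M M₂ = p ∧ IsCyclic (M₂ ≃ₐ[M] M₂) ∧ γ ^ p = algebraMap (𝓞 M) (𝓞 M₂) x ∧
      (∀ φ : M₂ ≃ₐ[M] M₂, φ (γ : M₂) = (γ : M₂) → φ = 1) ∧
      (∀ φ : M₂ ≃ₐ[M] M₂, ∃ k : ℕ, φ (γ : M₂) = algebraMap M M₂ (ζ ^ k) * (γ : M₂)) :=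
  h2_exists_kummerField_int_core p M ζ hζ (fun y hy => h2_exists_kummerField p M ζ hζ y hy)
    x hx0 hx

end Fermat.Agent.S14
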