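import Mathlib
import Fermat.Agent.S14.Defs
import Fermat.Agent.S14.H2Defs
import Fermat.Agent.S14.H2KummerRoot
import Fermat.Agent.S14.H2KummerInt
import Fermat.Agent.S42.CyclicInert
import Fermat.Agent.S42.FrobQbarCore

/-!
# P18 (S14), block H2, slice [A4] (second team): the auxiliary prime

Let `M = F(α)`, `α ^ p = a`, be a Galois extension of degree `p` of a number field `F` containing
a primitive `p`-th root of unity, and let `x ∈ Fˣ` be outside `a ^ ℤ · (Fˣ) ^ p`.  Then there are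
primes `v` of `F` of arbitrarily large norm which are relative norms of primes of `M` and at which
`x` is not a local `p`-th power (`h2_exists_aux_prime_B`).

Proof.  After clearing denominators `x = ξ / d ^ p` with `ξ ∈ 𝓞 F`; by Kummer theory
(`h2_not_pow_of_not_mem`) `ξ` is not a `p`-th power in `M`, so `M₂ = M(Γ)`, `Γ ^ p = ξ`, is cyclic
of degree `p` over `M` (`h2_exists_kummerField_int`).  A cyclic extension has infinitely many
inert primes of degree one (`infinite_inertSet`): take such a prime `𝔚` of `M` of large norm and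
`v = 𝔚 ∩ 𝓞 F`; then `N_{M/F} 𝔚 = v` (`h2ap_relNorm_B`) and `𝔓 = 𝔚 𝓞 M₂` is a prime stable under
`Gal(M₂ / M)`.  If `x` were a local `p`-th power at `v` then `ξ c₂ ^ p ≡ c₁ ^ p` modulo `v` with
`c₂ ∉ v` (`h2ap_exists_cong_B`), so `Γ c₂ ≡ η c₁` modulo `𝔓` for a `p`-th root of unity `η`;
applying `φ ≠ 1` in `Gal(M₂ / M)` gives `φ Γ ≡ Γ`, i.e. `(η' - 1) Γ ∈ 𝔓` with `η' ≠ 1` a `p`-th
root of unity, whence `p ∈ v` or `ξ ∈ v`, which is excluded when the norm of `v` is large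
(`h2ap_key_B`).
-/

set_option autoImplicit false

namespace Fermat.Agent.S14

open NumberField IsDedekindDomain

/-- Abstract key lemma: a ring map `f : R₀ → R₂` of domains, an endomorphism `g` of `R₂` fixing
the image of `f` and stabilising a prime `𝔓`, a primitive `p`-th root of unity `ζ` of `R₀`, and a
`p`-th root `Γ` of `f ξ` moved by `g`; if `ξ` and `p` are not in `𝔓`, then `ξ` is not a `p`-th
power residue modulo `𝔓` (in the form `ξ c₂ ^ p ≡ c₁ ^ p`, `c₂ ∉ 𝔓`). -/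
theorem h2ap_key_B {R₀ R₂ : Type*} [CommRing R₀] [IsDomain R₀] [CommRing R₂] [IsDomain R₂]
    (f : R₀ →+* R₂) (hf : Function.Injective f) (g : R₂ →+* R₂) (hg : ∀ r : R₀, g (f r) = f r)
    (𝔓 : Ideal R₂) [h𝔓 : 𝔓.IsPrime] (hg𝔓 : ∀ y ∈ 𝔓, g y ∈ 𝔓)
    (p : ℕ) [hpp : Fact p.Prime] (ζ : R₀) (hζ : IsPrimitiveRoot ζ p)
    (ξ : R₀) (hξ : f ξ ∉ 𝔓) (hp𝔓 : f (p : R₀) ∉ 𝔓)
    (Γ : R₂) (hΓ : Γ ^ p = f ξ) (hgΓ : g Γ ≠ Γ)
    (c₁ c₂ : R₀) (hc₂ : f c₂ ∉ 𝔓) (hc : f (ξ * c₂ ^ p - c₁ ^ p) ∈ 𝔓) : False := by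
  have hpos : 0 < p := hpp.out.pos
  have : NeZero p := ⟨hpos.ne'⟩
  have hζ₂ : IsPrimitiveRoot (f ζ) p := hζ.map_of_injective hf
  -- every `p`-th root of unity of `R₂` is the image of a `p`-th root of unity of `R₀`
  have hroots : ∀ η ∈ Polynomial.nthRootsFinset p (1 : R₂), ∃ η₀ : R₀, η₀ ^ p = 1 ∧ f η₀ = η := by
    intro η hη
    rw [Polynomial.mem_nthRootsFinset hpos] at hη
    obtain ⟨i, -, hi⟩ := hζ₂.eq_pow_of_pow_eq_one hη
    refine ⟨ζ ^ i, ?_, ?_⟩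
    · rw [← pow_mul, mul_comm, pow_mul, hζ.pow_eq_one, one_pow]
    · rw [map_pow, hi]
  -- Step A: `g Γ - Γ ∈ 𝔓`
  have hA : g Γ - Γ ∈ 𝔓 := by
    have h1 : (Γ * f c₂) ^ p - (f c₁) ^ p ∈ 𝔓 := by
      have : (Γ * f c₂) ^ p - (f c₁) ^ p = f (ξ * c₂ ^ p - c₁ ^ p) := by
        rw [mul_pow, hΓ, map_sub, map_mul, map_pow, map_pow]
      rw [this]
      exact hc
    rw [hζ₂.pow_sub_pow_eq_prod_sub_mul _ _ hpos, Ideal.IsPrime.prod_mem_iff] at h1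
    obtain ⟨η, hη, hmem⟩ := h1
    obtain ⟨η₀, -, rfl⟩ := hroots η hη
    have h2 : g (Γ * f c₂ - f η₀ * f c₁) ∈ 𝔓 := hg𝔓 _ hmem
    rw [map_sub, map_mul, map_mul, hg, hg, hg] at h2
    have h3 : (g Γ - Γ) * f c₂ ∈ 𝔓 := by
      have : (g Γ - Γ) * f c₂ = (g Γ * f c₂ - f η₀ * f c₁) - (Γ * f c₂ - f η₀ * f c₁) := by ring
      rw [this]
      exact 𝔓.sub_mem h2 hmem
    exact (h𝔓.mem_or_mem h3).resolve_right hc₂
  -- Step B: `g Γ = η Γ` for a `p`-th root of unity `η ≠ 1`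
  have hB : (g Γ) ^ p - Γ ^ p = 0 := by
    rw [← map_pow, hΓ, hg, sub_self]
  rw [hζ₂.pow_sub_pow_eq_prod_sub_mul _ _ hpos, Finset.prod_eq_zero_iff] at hB
  obtain ⟨η, hη, hηΓ⟩ := hB
  obtain ⟨η₀, hη₀, rfl⟩ := hroots η hη
  have hgΓ' : g Γ = f η₀ * Γ := sub_eq_zero.mp hηΓ
  have hη₀1 : η₀ ≠ 1 := by
    rintro rfl
    rw [map_one, one_mul] at hgΓ'
    exact hgΓ hgΓ'
  have hΓ𝔓 : Γ ∉ 𝔓 := by
    intro h
    apply hξ
    rw [← hΓ]
    exact 𝔓.pow_mem_of_mem h p hpos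
  have hη𝔓 : f (η₀ - 1) ∈ 𝔓 := by
    have h3 : f (η₀ - 1) * Γ ∈ 𝔓 := by
      have : f (η₀ - 1) * Γ = g Γ - Γ := by
        rw [hgΓ', map_sub, map_one, sub_mul, one_mul]
      rw [this]
      exact hA
    exact (h𝔓.mem_or_mem h3).resolve_right hΓ𝔓
  -- the geometric sum
  have hsum : ∑ j ∈ Finset.range p, η₀ ^ j = 0 := by
    have h4 := geom_sum_mul η₀ p
    rw [hη₀, sub_self] at h4
    exact (mul_eq_zero.mp h4).resolve_right (sub_ne_zero.mpr hη₀1)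
  apply hp𝔓
  have hq : Ideal.Quotient.mk 𝔓 (f η₀) = 1 := by
    have h5 : Ideal.Quotient.mk 𝔓 (f (η₀ - 1)) = 0 := Ideal.Quotient.eq_zero_iff_mem.mpr hη𝔓
    rw [map_sub, map_sub, map_one, map_one, sub_eq_zero] at h5
    exact h5
  rw [← Ideal.Quotient.eq_zero_iff_mem]
  have h6 : Ideal.Quotient.mk 𝔓 (f (∑ j ∈ Finset.range p, η₀ ^ j)) = (p : R₂ ⧸ 𝔓) := by
    rw [map_sum, map_sum]
    simp only [map_pow, hq, one_pow, Finset.sum_const, Finset.card_range, nsmul_eq_mul, mul_one]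
  rw [hsum, map_zero, map_zero] at h6
  rw [map_natCast, map_natCast]
  exact h6.symm

/-- A prime of `M` of prime absolute norm is of relative degree one over `F`: its relative norm
is its restriction to `F`, a prime of `F` of the same absolute norm. -/
theorem h2ap_relNorm_B (F M : Type*) [Field F] [NumberField F] [Field M] [NumberField M]
    [Algebra F M] (𝔚 : Ideal (𝓞 M)) (h𝔚 : (Ideal.absNorm 𝔚).Prime) :
    ∃ v : HeightOneSpectrum (𝓞 F), v.asIdeal = 𝔚.under (𝓞 F) ∧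
      Ideal.relNorm (𝓞 F) 𝔚 = v.asIdeal ∧ Ideal.absNorm v.asIdeal = Ideal.absNorm 𝔚 := by
  have h𝔚bot : 𝔚 ≠ ⊥ := by
    intro h
    rw [h, Ideal.absNorm_bot] at h𝔚
    exact Nat.not_prime_zero h𝔚
  have h𝔚prime : 𝔚.IsPrime := Ideal.isPrime_of_irreducible_absNorm h𝔚
  have h𝔚max : 𝔚.IsMaximal := h𝔚prime.isMaximal h𝔚bot
  have hvbot : 𝔚.under (𝓞 F) ≠ ⊥ := Ideal.under_ne_bot (𝓞 F) h𝔚bot
  have hvprime : (𝔚.under (𝓞 F)).IsPrime := inferInstance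
  have hvmax : (𝔚.under (𝓞 F)).IsMaximal := hvprime.isMaximal hvbot
  have h1 : Ideal.relNorm (𝓞 F) 𝔚 = (𝔚.under (𝓞 F)) ^ 𝔚.inertiaDeg (𝓞 F) :=
    Ideal.relNorm_eq_pow_of_isMaximal 𝔚 (𝔚.under (𝓞 F))
  have h2 : Ideal.absNorm (Ideal.relNorm (𝓞 F) 𝔚) = Ideal.absNorm 𝔚 :=
    Ideal.absNorm_relNorm (𝓞 F) (𝓞 M) 𝔚
  rw [h1, map_pow] at h2
  have h3 := (Nat.Prime.pow_eq_iff h𝔚).mp h2
  refine ⟨⟨𝔚.under (𝓞 F), hvprime, hvbot⟩, rfl, ?_, h3.1⟩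
  rw [h1, h3.2, pow_one]

/-- A nonzero element whose norm is smaller than the norm of an ideal is not in the ideal. -/
theorem h2ap_not_mem_B (F : Type*) [Field F] [NumberField F] (I : Ideal (𝓞 F)) (e : 𝓞 F)
    (he : e ≠ 0) (h : Ideal.absNorm (Ideal.span {e}) < Ideal.absNorm I) : e ∉ I := by
  intro hmem
  have h1 : Ideal.absNorm I ∣ Ideal.absNorm (Ideal.span {e}) :=
    Ideal.absNorm_dvd_absNorm_of_le ((Ideal.span_singleton_le_iff_mem I).mpr hmem)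
  have h2 : Ideal.absNorm (Ideal.span {e}) ≠ 0 := by
    rw [Ne, Ideal.absNorm_eq_zero_iff, Ideal.span_singleton_eq_bot]
    exact he
  exact absurd (Nat.le_of_dvd (Nat.pos_of_ne_zero h2) h1) (not_le.mpr h)

/-- From a local `p`-th power (precision one) to a congruence between integers. -/
theorem h2ap_exists_cong_B (p : ℕ) (hp : p ≠ 0) (F : Type*) [Field F] [NumberField F]
    (v : HeightOneSpectrum (𝓞 F)) (ξ : 𝓞 F) (z : F) (hz : z ≠ 0)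
    (h1 : v.valuation F (algebraMap (𝓞 F) F ξ / z ^ p) = 1)
    (h2 : v.valuation F (algebraMap (𝓞 F) F ξ / z ^ p - 1) < 1) :
    ∃ c₁ c₂ : 𝓞 F, c₂ ∉ v.asIdeal ∧ ξ * c₂ ^ p - c₁ ^ p ∈ v.asIdeal := by
  have hzp : z ^ p ≠ 0 := pow_ne_zero p hz
  have hvz : v.valuation F z ≤ 1 := by
    have h3 : v.valuation F (algebraMap (𝓞 F) F ξ) = v.valuation F z ^ p := by
      rw [map_div₀, map_pow] at h1
      exact (div_eq_one_iff_eq (by rw [← map_pow]; exact (Valuation.ne_zero_iff _).mpr hzp)).mp h1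
    have h4 : v.valuation F z ^ p ≤ 1 := h3 ▸ v.valuation_le_one ξ
    exact (pow_le_one_iff hp).mp h4
  obtain ⟨n, d, hnd⟩ := v.exists_primeCompl_mul_eq_of_integer z hvz
  have hd : (d : 𝓞 F) ∉ v.asIdeal := d.prop
  have hd0 : algebraMap (𝓞 F) F (d : 𝓞 F) ≠ 0 := by
    intro h0
    apply hd
    have : (d : 𝓞 F) = 0 := by
      apply FaithfulSMul.algebraMap_injective (𝓞 F) F
      rw [h0, map_zero]
    rw [this]
    exact v.asIdeal.zero_mem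
  refine ⟨n, d, hd, ?_⟩
  have hkey : algebraMap (𝓞 F) F (ξ * (d : 𝓞 F) ^ p - n ^ p)
      = (algebraMap (𝓞 F) F ξ / z ^ p - 1) * algebraMap (𝓞 F) F n ^ p := by
    simp only [map_sub, map_mul, map_pow]
    rw [← hnd]
    field_simp
    ring
  have hlt : v.valuation F (algebraMap (𝓞 F) F (ξ * (d : 𝓞 F) ^ p - n ^ p)) < 1 := by
    rw [hkey, map_mul]
    calc v.valuation F (algebraMap (𝓞 F) F ξ / z ^ p - 1)
          * v.valuation F (algebraMap (𝓞 F) F n ^ p)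
        ≤ v.valuation F (algebraMap (𝓞 F) F ξ / z ^ p - 1) * 1 := by
          gcongr
          rw [map_pow]
          exact pow_le_one' (v.valuation_le_one n) p
      _ < 1 := by rwa [mul_one]
  exact (v.valuation_lt_one_iff_mem _).mp hlt

/-- Clearing the denominator of `x` by a `p`-th power. -/
theorem h2ap_exists_int_B (p : ℕ) (hp : p ≠ 0) (F : Type*) [Field F] [NumberField F] (x : F) :
    ∃ d ξ : 𝓞 F, d ≠ 0 ∧ x * algebraMap (𝓞 F) F d ^ p = algebraMap (𝓞 F) F ξ := by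
  obtain ⟨n, d, hd, rfl⟩ := IsFractionRing.div_surjective (A := 𝓞 F) x
  have hd0 : d ≠ 0 := nonZeroDivisors.ne_zero hd
  have hd0' : algebraMap (𝓞 F) F d ≠ 0 := by
    intro h0
    apply hd0
    apply FaithfulSMul.algebraMap_injective (𝓞 F) F
    rw [h0, map_zero]
  refine ⟨d, n * d ^ (p - 1), hd0, ?_⟩
  obtain ⟨k, rfl⟩ : ∃ k, p = k + 1 := Nat.exists_eq_succ_of_ne_zero hp
  simp only [Nat.add_sub_cancel, map_mul, map_pow]
  field_simp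
  ring

/-- [A4] (second team) auxiliary prime: a prime `v` of `F` of large norm which is the relative
norm of a prime of `M` and at which `x` is not a local `p`-th power. -/
theorem h2_exists_aux_prime_B (p : ℕ) [Fact p.Prime] (hp : 3 ≤ p)
    (F M : Type*) [Field F] [NumberField F] [Field M] [NumberField M] [Algebra F M] [IsGalois F M]
    (hdeg : Module.finrank F M = p) (ζ : F) (hζ : IsPrimitiveRoot ζ p)
    (a : 𝓞 F) (α : 𝓞 M) (hα : α ^ p = algebraMap (𝓞 F) (𝓞 M) a)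
    (hαF : ∀ y : F, algebraMap F M y ≠ (α : M))
    (u : Fˣ) (hu : (u : F) = algebraMap (𝓞 F) F a)
    (x : Fˣ) (hx : x ∉ Subgroup.zpowers u ⊔ (powMonoidHom p : Fˣ →* Fˣ).range) (B : ℕ) :
    ∃ (v : HeightOneSpectrum (𝓞 F)) (𝔔 : Ideal (𝓞 M)), B < Ideal.absNorm v.asIdeal ∧
      𝔔.IsPrime ∧ Ideal.relNorm (𝓞 F) 𝔔 = v.asIdeal ∧ x ∉ h2Dv F p v 1 := by
  have hpp : p.Prime := Fact.out
  have hp0 : p ≠ 0 := hpp.ne_zero
  -- (0) clear denominators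
  obtain ⟨d, ξ, hd0, hξ⟩ := h2ap_exists_int_B p hp0 F (x : F)
  have hd0' : algebraMap (𝓞 F) F d ≠ 0 :=
    (map_ne_zero_iff _ (FaithfulSMul.algebraMap_injective (𝓞 F) F)).mpr hd0
  have hξ0 : ξ ≠ 0 := by
    rintro rfl
    rw [map_zero] at hξ
    exact mul_ne_zero x.ne_zero (pow_ne_zero p hd0') hξ
  -- (1) Kummer: `ξ` is not a `p`-th power in `M`
  have hroot := h2_not_pow_of_not_mem p F M hdeg ζ hζ a α hα hαF u hu x hx
  have hξM : ∀ γ : M, γ ^ p ≠ ((algebraMap (𝓞 F) (𝓞 M) ξ : 𝓞 M) : M) := by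
    intro γ hγ
    apply hroot (γ / algebraMap F M (algebraMap (𝓞 F) F d))
    have h1 : ((algebraMap (𝓞 F) (𝓞 M) ξ : 𝓞 M) : M)
        = algebraMap F M (algebraMap (𝓞 F) F ξ) := by
      rw [RingOfIntegers.coe_eq_algebraMap, ← IsScalarTower.algebraMap_apply (𝓞 F) (𝓞 M) M,
        IsScalarTower.algebraMap_apply (𝓞 F) F M]
    rw [div_pow, hγ, h1, ← hξ, map_mul, map_pow, mul_div_assoc,
      div_self (pow_ne_zero p ((map_ne_zero _).mpr hd0')), mul_one]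
  -- (2) the Kummer field `M₂ = M(Γ)`, `Γ ^ p = ξ`
  have hζM : IsPrimitiveRoot (algebraMap F M ζ) p :=
    hζ.map_of_injective (algebraMap F M).injective
  obtain ⟨M₂, _, _, _, _, Γ, hdeg₂, hcyc, hΓ, hfix, -⟩ :=
    h2_exists_kummerField_int p M (algebraMap F M ζ) hζM (algebraMap (𝓞 F) (𝓞 M) ξ)
      ((map_ne_zero_iff _ (RingOfIntegers.algebraMap.injective F M)).mpr hξ0) hξM
  have hcard : Nat.card (M₂ ≃ₐ[M] M₂) = p := by
    rw [IsGalois.card_aut_eq_finrank, hdeg₂]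
  obtain ⟨φ, hφ⟩ : ∃ φ : M₂ ≃ₐ[M] M₂, φ ≠ 1 := by
    have : Nontrivial (M₂ ≃ₐ[M] M₂) := by
      rw [← Finite.one_lt_card_iff_nontrivial, hcard]
      exact hpp.one_lt
    exact exists_ne 1
  -- (3) an inert prime of `M` of degree one and of large norm
  have hinf := Fermat.Agent.S42.infinite_inertSet M M₂
  obtain ⟨𝔚, ⟨hℓ, h𝔓⟩, hB⟩ := Fermat.Agent.S42.fq_exists_inert_gt M M₂ hinf
    (max B (Ideal.absNorm (Ideal.span {(p : 𝓞 F) * ξ})))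
  -- (4) the prime `v` of `F` below it
  obtain ⟨v, hv, hnorm, habs⟩ := h2ap_relNorm_B F M 𝔚.asIdeal hℓ
  refine ⟨v, 𝔚.asIdeal, ?_, 𝔚.isPrime, hnorm, ?_⟩
  · rw [habs]
    exact lt_of_le_of_lt (le_max_left _ _) hB
  -- (5) `x` is not a local `p`-th power at `v`
  rintro ⟨z, hz1, hz2⟩
  have hpξ : (p : 𝓞 F) * ξ ∉ v.asIdeal := by
    apply h2ap_not_mem_B F v.asIdeal _ (mul_ne_zero (Nat.cast_ne_zero.mpr hp0) hξ0)
    rw [habs]
    exact lt_of_le_of_lt (le_max_right _ _) hB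
  have hpv : (p : 𝓞 F) ∉ v.asIdeal := fun h => hpξ (v.asIdeal.mul_mem_right _ h)
  have hξv : ξ ∉ v.asIdeal := fun h => hpξ (v.asIdeal.mul_mem_left _ h)
  -- the congruence `ξ c₂ ^ p ≡ c₁ ^ p` modulo `v`
  have hzd : (z : F) * algebraMap (𝓞 F) F d ≠ 0 := mul_ne_zero z.ne_zero hd0'
  have hquot : algebraMap (𝓞 F) F ξ / ((z : F) * algebraMap (𝓞 F) F d) ^ p
      = (x : F) / (z : F) ^ p := by
    rw [← hξ, mul_pow, mul_div_mul_right _ _ (pow_ne_zero p hd0')]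
  have hexp : WithZero.exp (-((1 : ℕ) : ℤ)) < (1 : WithZero (Multiplicative ℤ)) := by
    rw [← WithZero.exp_zero, WithZero.exp_lt_exp]
    norm_num
  obtain ⟨c₁, c₂, hc₂, hc⟩ := h2ap_exists_cong_B p hp0 F v ξ _ hzd (by rw [hquot]; exact hz1)
    (by rw [hquot]; exact lt_of_le_of_lt hz2 hexp)
  -- the rings `𝓞 F → 𝓞 M₂`, the automorphism and the prime `𝔓 = 𝔚 𝓞 M₂`
  let f : 𝓞 F →+* 𝓞 M₂ := (algebraMap (𝓞 M) (𝓞 M₂)).comp (algebraMap (𝓞 F) (𝓞 M))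
  have hf : Function.Injective f :=
    (RingOfIntegers.algebraMap.injective M M₂).comp (RingOfIntegers.algebraMap.injective F M)
  let g' : 𝓞 M₂ ≃ₐ[𝓞 M] 𝓞 M₂ := galRestrict (𝓞 M) M M₂ (𝓞 M₂) φ
  let g : 𝓞 M₂ →+* 𝓞 M₂ := (g' : 𝓞 M₂ →ₐ[𝓞 M] 𝓞 M₂).toRingHom
  have hg : ∀ r : 𝓞 F, g (f r) = f r := fun r => g'.commutes _
  have h𝔓def : (𝔚.asIdeal.map (algebraMap (𝓞 M) (𝓞 M₂))).comap (algebraMap (𝓞 M) (𝓞 M₂))
      = 𝔚.asIdeal :=
    ((𝔚.isMaximal).eq_of_le (Ideal.comap_ne_top _ h𝔓.ne_top) Ideal.le_comap_map).symm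
  have hfv : ∀ r : 𝓞 F, f r ∈ 𝔚.asIdeal.map (algebraMap (𝓞 M) (𝓞 M₂)) ↔ r ∈ v.asIdeal := by
    intro r
    have h1 : f r ∈ 𝔚.asIdeal.map (algebraMap (𝓞 M) (𝓞 M₂)) ↔
        algebraMap (𝓞 F) (𝓞 M) r ∈
          (𝔚.asIdeal.map (algebraMap (𝓞 M) (𝓞 M₂))).comap (algebraMap (𝓞 M) (𝓞 M₂)) := Iff.rfl
    rw [h1, h𝔓def, hv]
    exact Iff.rfl
  have hg𝔓 : ∀ y ∈ 𝔚.asIdeal.map (algebraMap (𝓞 M) (𝓞 M₂)),
      g y ∈ 𝔚.asIdeal.map (algebraMap (𝓞 M) (𝓞 M₂)) := by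
    intro y hy
    have h1 : g y ∈ (𝔚.asIdeal.map (algebraMap (𝓞 M) (𝓞 M₂))).map g := Ideal.mem_map_of_mem g hy
    rw [Ideal.map_map] at h1
    have h2 : g.comp (algebraMap (𝓞 M) (𝓞 M₂)) = algebraMap (𝓞 M) (𝓞 M₂) :=
      RingHom.ext fun r => g'.commutes r
    rwa [h2] at h1
  -- the primitive root of unity in `𝓞 F`
  have hζint : IsIntegral ℤ ζ := hζ.isIntegral hpp.pos
  have hζ₀ : IsPrimitiveRoot (⟨ζ, hζint⟩ : 𝓞 F) p :=
    IsPrimitiveRoot.of_map_of_injective (f := algebraMap (𝓞 F) F) hζ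
      (FaithfulSMul.algebraMap_injective (𝓞 F) F)
  have hgΓ : g Γ ≠ Γ := by
    intro h
    apply hφ
    apply hfix φ
    have h3 := congrArg (algebraMap (𝓞 M₂) M₂) h
    rwa [show algebraMap (𝓞 M₂) M₂ (g Γ) = φ (algebraMap (𝓞 M₂) M₂ Γ) from
      algebraMap_galRestrict_apply (𝓞 M) φ Γ] at h3
  exact h2ap_key_B f hf g hg (𝔚.asIdeal.map (algebraMap (𝓞 M) (𝓞 M₂))) (h𝔓 := h𝔓) hg𝔓 p
    (⟨ζ, hζint⟩ : 𝓞 F) hζ₀ ξ ((hfv ξ).not.mpr hξv) ((hfv _).not.mpr hpv) Γ hΓ hgΓ c₁ c₂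
    ((hfv c₂).not.mpr hc₂) ((hfv _).mpr hc)

end Fermat.Agent.S14
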