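import Mathlib
import Fermat.Agent.S14.Defs
import Fermat.Agent.S14.H2Defs

/-!
# P18, block H2, slice [A9] (second team): abstract group-theoretic counting

Pure group theory in a commutative group `G` (written multiplicatively), used in Tate's Kummer
counting argument for the second inequality:

* `h2g_relIndex_le_of_le_B`, `h2g_le_sup_of_relIndex_le_B`: monotonicity of `H.relIndex ·` and
  the equality case;
* `h2g_mul_relIndex_le_B`: cutting by a subgroup `H'` containing the `p`-th powers and missing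
  an element multiplies the relative index by at least `p`;
* `h2g_relIndex_zpowers_sup_B`: enlarging `P` by an element whose `p`-th power lies in `P`
  divides the relative index by at most `p`;
* `h2_exists_pow_mul_mem_B`: the final counting step.
-/

set_option autoImplicit false

namespace Fermat.Agent.S14

/-- The relative index `H.relIndex ·` is monotone (when finite). -/
theorem h2g_relIndex_le_of_le_B {G : Type*} [CommGroup G] (K L H : Subgroup G) (hKL : K ≤ L)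
    (h0 : H.relIndex L ≠ 0) : H.relIndex K ≤ H.relIndex L ∧ H.relIndex K ≠ 0 :=
  ⟨Subgroup.relIndex_le_of_le_right hKL h0,
    fun h => h0 (Subgroup.relIndex_eq_zero_of_le_right hKL h)⟩

/-- For `K ≤ L`: `[L : H ∩ L] = [K : H ∩ K] · [L : K (H ∩ L)]`. -/
theorem h2g_relIndex_mul_B {G : Type*} [CommGroup G] (K L H : Subgroup G) (hKL : K ≤ L) :
    H.relIndex K * (K ⊔ (H ⊓ L)).relIndex L = H.relIndex L := by
  have h1 := Subgroup.relIndex_mul_relIndex (H ⊓ L) (K ⊔ (H ⊓ L)) L le_sup_right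
    (sup_le hKL inf_le_right)
  rw [Subgroup.inf_relIndex_right] at h1
  have h2 : (H ⊓ L).relIndex (K ⊔ (H ⊓ L)) = H.relIndex K := by
    rw [Subgroup.relIndex_sup_right, ← Subgroup.inf_relIndex_right (H ⊓ L) K, inf_assoc,
      inf_eq_right.mpr hKL, Subgroup.inf_relIndex_right]
  rw [← h2]
  exact h1

/-- If `K ≤ L` and `[L : H ∩ L] ≤ [K : H ∩ K]` (finite) then `L ≤ K H`. -/
theorem h2g_le_sup_of_relIndex_le_B {G : Type*} [CommGroup G] (K L H : Subgroup G) (hKL : K ≤ L)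
    (h0 : H.relIndex L ≠ 0) (h : H.relIndex L ≤ H.relIndex K) : L ≤ K ⊔ H := by
  have h1 := h2g_relIndex_mul_B K L H hKL
  have hK0 : H.relIndex K ≠ 0 := fun h' => h0 (by rw [← h1, h', zero_mul])
  have h3 : (K ⊔ (H ⊓ L)).relIndex L ≠ 0 := fun h' => h0 (by rw [← h1, h', mul_zero])
  have h4 : H.relIndex K * (K ⊔ (H ⊓ L)).relIndex L ≤ H.relIndex K * 1 := by
    rw [h1, mul_one]
    exact h
  have h5 : (K ⊔ (H ⊓ L)).relIndex L ≤ 1 := Nat.le_of_mul_le_mul_left h4 (Nat.pos_of_ne_zero hK0)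
  have h2 : (K ⊔ (H ⊓ L)).relIndex L = 1 := by omega
  exact (Subgroup.relIndex_eq_one.mp h2).trans (sup_le_sup_left inf_le_left K)

/-- If `x ∈ K ∩ H`, `x ∉ H'` and `H'` contains the `p`-th powers of `K`, then
`[K : H ∩ H' ∩ K] ≥ p · [K : H ∩ K]`. -/
theorem h2g_mul_relIndex_le_B {G : Type*} [CommGroup G] (H H' K : Subgroup G) (p : ℕ)
    [Fact p.Prime] (h0 : (H ⊓ H').relIndex K ≠ 0) (x : G) (hxK : x ∈ K) (hxH : x ∈ H)
    (hxH' : x ∉ H') (hp : ∀ y ∈ K, y ^ p ∈ H') :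
    p * H.relIndex K ≤ (H ⊓ H').relIndex K := by
  have h1 : H'.relIndex (H ⊓ K) * H.relIndex K = (H ⊓ H').relIndex K := by
    rw [Subgroup.relIndex_inf_mul_relIndex, inf_comm]
  have h2 : H'.relIndex (H ⊓ K) ≠ 0 := fun h' => h0 (by rw [← h1, h', zero_mul])
  have h3 : p ∣ H'.relIndex (H ⊓ K) := by
    let q : ↥(H ⊓ K) →* ↥(H ⊓ K) ⧸ H'.subgroupOf (H ⊓ K) :=
      QuotientGroup.mk' (H'.subgroupOf (H ⊓ K))
    let xL : ↥(H ⊓ K) := ⟨x, hxH, hxK⟩
    have hq1 : q xL ≠ 1 := by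
      rw [Ne, QuotientGroup.mk'_apply, QuotientGroup.eq_one_iff, Subgroup.mem_subgroupOf]
      exact hxH'
    have hqp : q xL ^ p = 1 := by
      rw [← map_pow, QuotientGroup.mk'_apply, QuotientGroup.eq_one_iff, Subgroup.mem_subgroupOf,
        Subgroup.coe_pow]
      exact hp x hxK
    have hord : orderOf (q xL) = p := orderOf_eq_prime hqp hq1
    have hdvd := orderOf_dvd_natCard (q xL)
    rw [hord] at hdvd
    exact hdvd
  have h4 : p ≤ H'.relIndex (H ⊓ K) := Nat.le_of_dvd (Nat.pos_of_ne_zero h2) h3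
  calc p * H.relIndex K ≤ H'.relIndex (H ⊓ K) * H.relIndex K := Nat.mul_le_mul_right _ h4
    _ = (H ⊓ H').relIndex K := h1

/-- If `u ^ p ∈ P` (`p > 0`) then `P ∩ ⟨u⟩` has index at most `p` in `⟨u⟩`. -/
theorem h2g_relIndex_zpowers_le_B {G : Type*} [CommGroup G] (P : Subgroup G) (u : G) (p : ℕ)
    (hp : 0 < p) (hu : u ^ p ∈ P) :
    P.relIndex (Subgroup.zpowers u) ≠ 0 ∧ P.relIndex (Subgroup.zpowers u) ≤ p := by
  let q : ↥(Subgroup.zpowers u) →* ↥(Subgroup.zpowers u) ⧸ P.subgroupOf (Subgroup.zpowers u) :=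
    QuotientGroup.mk' (P.subgroupOf (Subgroup.zpowers u))
  let u' : ↥(Subgroup.zpowers u) := ⟨u, Subgroup.mem_zpowers u⟩
  let f : Fin p → ↥(Subgroup.zpowers u) ⧸ P.subgroupOf (Subgroup.zpowers u) :=
    fun i => q (u' ^ (i : ℕ))
  have hpZ : (p : ℤ) ≠ 0 := by exact_mod_cast hp.ne'
  have hf : Function.Surjective f := by
    intro c
    obtain ⟨z, rfl⟩ := QuotientGroup.mk'_surjective (P.subgroupOf (Subgroup.zpowers u)) c
    obtain ⟨k, hk⟩ := Subgroup.mem_zpowers_iff.mp z.2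
    have hr0 : 0 ≤ k % (p : ℤ) := Int.emod_nonneg k hpZ
    have hrp : k % (p : ℤ) < (p : ℤ) := Int.emod_lt_of_pos k (by exact_mod_cast hp)
    have hrn : ((k % (p : ℤ)).toNat : ℤ) = k % (p : ℤ) := Int.toNat_of_nonneg hr0
    refine ⟨⟨(k % (p : ℤ)).toNat, by omega⟩, ?_⟩
    show q (u' ^ (k % (p : ℤ)).toNat) = q z
    rw [QuotientGroup.mk'_apply, QuotientGroup.mk'_apply, QuotientGroup.eq,
      Subgroup.mem_subgroupOf]
    have hval : ((((u' ^ (k % (p : ℤ)).toNat)⁻¹ * z : ↥(Subgroup.zpowers u))) : G)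
        = (u ^ p) ^ (k / (p : ℤ)) := by
      rw [Subgroup.coe_mul, Subgroup.coe_inv, Subgroup.coe_pow, ← hk, ← zpow_natCast u p,
        ← zpow_mul, ← zpow_natCast u (k % (p : ℤ)).toNat, hrn, ← zpow_neg, ← zpow_add]
      congr 1
      have := Int.emod_add_mul_ediv k (p : ℤ)
      omega
    rw [hval]
    exact Subgroup.zpow_mem P hu _
  have hfin : Finite (↥(Subgroup.zpowers u) ⧸ P.subgroupOf (Subgroup.zpowers u)) :=
    Finite.of_surjective f hf
  have hcard : Nat.card (↥(Subgroup.zpowers u) ⧸ P.subgroupOf (Subgroup.zpowers u)) ≤ p := by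
    have h := Nat.card_le_card_of_surjective f hf
    rwa [Nat.card_fin] at h
  exact ⟨Nat.card_pos.ne', hcard⟩

/-- If `u ^ p ∈ P` (`p > 0`) then `[K : P ∩ K] ≤ p · [K : ⟨u⟩ P ∩ K]`. -/
theorem h2g_relIndex_zpowers_sup_B {G : Type*} [CommGroup G] (P K : Subgroup G) (u : G) (p : ℕ)
    (hp : 0 < p) (hu : u ^ p ∈ P) (h0 : (Subgroup.zpowers u ⊔ P).relIndex K ≠ 0) :
    P.relIndex K ≤ p * (Subgroup.zpowers u ⊔ P).relIndex K ∧ P.relIndex K ≠ 0 := by
  have hPZ : P ≤ Subgroup.zpowers u ⊔ P := le_sup_right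
  have h1 : P.relIndex ((Subgroup.zpowers u ⊔ P) ⊓ K) * (Subgroup.zpowers u ⊔ P).relIndex K
      = P.relIndex K := by
    rw [Subgroup.relIndex_inf_mul_relIndex, inf_eq_left.mpr hPZ]
  obtain ⟨hz0, hzp⟩ := h2g_relIndex_zpowers_le_B P u p hp hu
  have h2 : P.relIndex (Subgroup.zpowers u ⊔ P) = P.relIndex (Subgroup.zpowers u) :=
    Subgroup.relIndex_sup_right _ _
  have h3 := h2g_relIndex_le_of_le_B ((Subgroup.zpowers u ⊔ P) ⊓ K) (Subgroup.zpowers u ⊔ P) P
    inf_le_left (by rw [h2]; exact hz0)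
  refine ⟨?_, ?_⟩
  · rw [← h1]
    exact Nat.mul_le_mul_right _ (h3.1.trans (by rw [h2]; exact hzp))
  · rw [← h1]
    exact mul_ne_zero h3.2 h0

/-- [A9] abstract counting: if `D` has index at most `p ^ (n + 1)`, contains the `p`-th powers,
and `[A : A ∩ D] ≥ p ^ n`, then `A D` has index at most `p`; hence every class modulo `A D` is a
power of the class of any `y ∉ A D`. -/
theorem h2_exists_pow_mul_mem_B {G : Type*} [CommGroup G] (p : ℕ) [Fact p.Prime]
    (A D : Subgroup G) (n : ℕ) (hD0 : D.index ≠ 0) (hD : D.index ≤ p ^ (n + 1))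
    (hA : p ^ n ≤ D.relIndex A) (hpow : (powMonoidHom p : G →* G).range ≤ D)
    (x y : G) (hy : y ∉ A ⊔ D) : ∃ j : ℕ, x * y ^ j ∈ A ⊔ D := by
  have hDB : D ≤ A ⊔ D := le_sup_right
  have h1 : D.relIndex (A ⊔ D) * (A ⊔ D).index = D.index := Subgroup.relIndex_mul_index hDB
  have h2 : D.relIndex (A ⊔ D) = D.relIndex A := Subgroup.relIndex_sup_right _ _
  have hB0 : (A ⊔ D).index ≠ 0 := fun h => hD0 (by rw [← h1, h, mul_zero])
  have hBp : (A ⊔ D).index ≤ p := by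
    have h3 : p ^ n * (A ⊔ D).index ≤ p ^ n * p := by
      calc p ^ n * (A ⊔ D).index ≤ D.relIndex (A ⊔ D) * (A ⊔ D).index :=
            Nat.mul_le_mul_right _ (by rw [h2]; exact hA)
        _ = D.index := h1
        _ ≤ p ^ (n + 1) := hD
        _ = p ^ n * p := pow_succ p n
    exact Nat.le_of_mul_le_mul_left h3 (pow_pos (Fact.out : p.Prime).pos n)
  have hfin : Finite (G ⧸ (A ⊔ D)) := Subgroup.index_ne_zero_iff_finite.mp hB0
  have hy1 : QuotientGroup.mk' (A ⊔ D) y ≠ 1 := by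
    rw [Ne, QuotientGroup.mk'_apply, QuotientGroup.eq_one_iff]
    exact hy
  have hyp : QuotientGroup.mk' (A ⊔ D) y ^ p = 1 := by
    rw [← map_pow, QuotientGroup.mk'_apply, QuotientGroup.eq_one_iff]
    exact hDB (hpow ⟨y, rfl⟩)
  have hord : orderOf (QuotientGroup.mk' (A ⊔ D) y) = p := orderOf_eq_prime hyp hy1
  have htop : Subgroup.zpowers (QuotientGroup.mk' (A ⊔ D) y) = ⊤ := by
    apply Subgroup.eq_top_of_le_card
    rw [Nat.card_zpowers, hord]
    exact hBp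
  have hx : (QuotientGroup.mk' (A ⊔ D) x)⁻¹ ∈ Subgroup.zpowers (QuotientGroup.mk' (A ⊔ D) y) := by
    rw [htop]
    exact Subgroup.mem_top _
  obtain ⟨j, hj⟩ := mem_powers_iff_mem_zpowers.mpr hx
  refine ⟨j, ?_⟩
  have hj' : QuotientGroup.mk' (A ⊔ D) y ^ j = (QuotientGroup.mk' (A ⊔ D) x)⁻¹ := hj
  rw [← QuotientGroup.eq_one_iff, ← QuotientGroup.mk'_apply, map_mul, map_pow, hj',
    mul_inv_cancel]

end Fermat.Agent.S14
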