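import Mathlib
import Fermat.Agent.S14.Defs
import Fermat.Agent.S14.H2Defs
import Fermat.Agent.S14.H2Ray

/-!
# P18 (S14), block H2, slice [A8] (second version): ideal bookkeeping for Step 7

If `(x) = 𝔞 𝔰` with `𝔰` supported on `S₀` and `x ∈ A · D`, then `𝔞 ~ ⊤` for the relation
`RayNormRel F M ((∏ S₀) ^ N)`.  Route: splitting of integral ideals into an `S`-supported part and
a part prime to `S`, and uniqueness of such a splitting.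
-/

set_option autoImplicit false

namespace Fermat.Agent.S14

open NumberField IsDedekindDomain

section ded

variable {R : Type*} [CommRing R] [IsDedekindDomain R]

omit [IsDedekindDomain R] in
/-- An ideal supported on `S` and an ideal prime to `S` are coprime. -/
theorem h2i_isCoprime_B {S : Finset (HeightOneSpectrum R)} {I J : Ideal R} (hI : I ≠ ⊥)
    (hS : ∀ v : HeightOneSpectrum R, I ≤ v.asIdeal → v ∈ S)
    (hP : ∀ v ∈ S, ¬ J ≤ v.asIdeal) : IsCoprime I J := by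
  rw [Ideal.isCoprime_iff_sup_eq]
  by_contra hne
  obtain ⟨P, hPmax, hle⟩ := Ideal.exists_le_maximal _ hne
  have hPbot : P ≠ ⊥ := by
    intro h
    apply hI
    rw [← le_bot_iff, ← h]
    exact le_sup_left.trans hle
  exact hP ⟨P, hPmax.isPrime, hPbot⟩ (hS ⟨P, hPmax.isPrime, hPbot⟩ (le_sup_left.trans hle))
    (le_sup_right.trans hle)

/-- A power of a prime not containing `A` is coprime to `A`. -/
theorem h2i_isCoprime_pow_B (v : HeightOneSpectrum R) (k : ℕ) {A : Ideal R}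
    (hA : ¬ A ≤ v.asIdeal) : IsCoprime (v.asIdeal ^ k) A := by
  apply IsCoprime.pow_left
  rw [Ideal.isCoprime_iff_sup_eq]
  by_contra hne
  have h1 : v.asIdeal = v.asIdeal ⊔ A := v.isMaximal.eq_of_le hne le_sup_left
  apply hA
  rw [h1]
  exact le_sup_right

omit [IsDedekindDomain R] in
theorem h2i_supp_mul_B {S : Finset (HeightOneSpectrum R)} {I J : Ideal R}
    (hI : ∀ v : HeightOneSpectrum R, I ≤ v.asIdeal → v ∈ S)
    (hJ : ∀ v : HeightOneSpectrum R, J ≤ v.asIdeal → v ∈ S) :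
    ∀ v : HeightOneSpectrum R, I * J ≤ v.asIdeal → v ∈ S := by
  intro v hv
  rcases (Ideal.IsPrime.mul_le v.isPrime).mp hv with h | h
  · exact hI v h
  · exact hJ v h

omit [IsDedekindDomain R] in
theorem h2i_supp_pow_B {S : Finset (HeightOneSpectrum R)} {I : Ideal R}
    (hI : ∀ v : HeightOneSpectrum R, I ≤ v.asIdeal → v ∈ S) (k : ℕ) :
    ∀ v : HeightOneSpectrum R, I ^ k ≤ v.asIdeal → v ∈ S := by
  intro v hv
  have := v.isPrime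
  exact hI v (Ideal.IsPrime.le_of_pow_le hv)

theorem h2i_supp_prod_B (S S' : Finset (HeightOneSpectrum R)) (hS' : S' ⊆ S)
    (n : HeightOneSpectrum R → ℕ) :
    ∀ v : HeightOneSpectrum R, (∏ u ∈ S', u.asIdeal ^ n u) ≤ v.asIdeal → v ∈ S := by
  intro v hv
  obtain ⟨u, hu, hle⟩ := (Ideal.IsPrime.prod_le v.isPrime).mp hv
  have := v.isPrime
  have h1 : u.asIdeal ≤ v.asIdeal := Ideal.IsPrime.le_of_pow_le hle
  have h2 : u.asIdeal = v.asIdeal := u.isMaximal.eq_of_le v.isPrime.ne_top h1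
  have h3 : u = v := HeightOneSpectrum.ext h2
  rw [← h3]
  exact hS' hu

omit [IsDedekindDomain R] in
theorem h2i_prime_mul_B {S : Finset (HeightOneSpectrum R)} {I J : Ideal R}
    (hI : ∀ v ∈ S, ¬ I ≤ v.asIdeal) (hJ : ∀ v ∈ S, ¬ J ≤ v.asIdeal) :
    ∀ v ∈ S, ¬ I * J ≤ v.asIdeal := by
  intro v hv h
  rcases (Ideal.IsPrime.mul_le v.isPrime).mp h with h | h
  · exact hI v hv h
  · exact hJ v hv h

omit [IsDedekindDomain R] in
theorem h2i_prime_pow_B {S : Finset (HeightOneSpectrum R)} {I : Ideal R}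
    (hI : ∀ v ∈ S, ¬ I ≤ v.asIdeal) (k : ℕ) : ∀ v ∈ S, ¬ I ^ k ≤ v.asIdeal := by
  intro v hv h
  have := v.isPrime
  exact hI v hv (Ideal.IsPrime.le_of_pow_le h)

omit [IsDedekindDomain R] in
theorem h2i_prime_of_supp_B {S T : Finset (HeightOneSpectrum R)} {I : Ideal R}
    (hI : ∀ v : HeightOneSpectrum R, I ≤ v.asIdeal → v ∈ T) (hTS : ∀ v ∈ T, v ∉ S) :
    ∀ v ∈ S, ¬ I ≤ v.asIdeal :=
  fun v hv h => hTS v (hI v h) hv

/-- Splitting of a nonzero ideal into an `S`-part and a part prime to `S`. -/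
theorem h2i_exists_split_B (S : Finset (HeightOneSpectrum R)) {I : Ideal R} (hI : I ≠ ⊥) :
    ∃ (n : HeightOneSpectrum R → ℕ) (I' : Ideal R),
      I = (∏ v ∈ S, v.asIdeal ^ n v) * I' ∧ ∀ v ∈ S, ¬ I' ≤ v.asIdeal := by
  classical
  induction S using Finset.induction_on with
  | empty => exact ⟨fun _ => 0, I, by simp, by simp⟩
  | insert u s hu ih =>
    obtain ⟨n, I', hI', hP⟩ := ih
    have hI'0 : I' ≠ 0 := by
      rintro rfl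
      rw [mul_zero] at hI'
      exact hI hI'
    have hfin : FiniteMultiplicity u.asIdeal I' :=
      FiniteMultiplicity.of_not_isUnit (by rw [Ideal.isUnit_iff]; exact u.isPrime.ne_top) hI'0
    obtain ⟨c, hc, hnd⟩ := hfin.exists_eq_pow_mul_and_not_dvd
    refine ⟨Function.update n u (multiplicity u.asIdeal I'), c, ?_, ?_⟩
    · have h1 : ∏ v ∈ s, v.asIdeal ^ (Function.update n u (multiplicity u.asIdeal I') v)
          = ∏ v ∈ s, v.asIdeal ^ n v := by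
        apply Finset.prod_congr rfl
        intro v hv
        rw [Function.update_of_ne (ne_of_mem_of_not_mem hv hu)]
      rw [Finset.prod_insert hu, Function.update_self, h1]
      calc I = (∏ v ∈ s, v.asIdeal ^ n v) * I' := hI'
        _ = (∏ v ∈ s, v.asIdeal ^ n v) * (u.asIdeal ^ multiplicity u.asIdeal I' * c) := by
            rw [← hc]
        _ = _ := by ring
    · intro v hv hle
      rcases Finset.mem_insert.mp hv with rfl | hv'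
      · exact hnd (Ideal.dvd_iff_le.mpr hle)
      · apply hP v hv'
        rw [hc]
        exact Ideal.mul_le_right.trans hle

/-- Uniqueness of the splitting. -/
theorem h2i_unique_B {S : Finset (HeightOneSpectrum R)} {I₁ I₂ J₁ J₂ : Ideal R}
    (h0 : I₁ * J₁ ≠ ⊥) (h : I₁ * J₁ = I₂ * J₂)
    (hI₁ : ∀ v : HeightOneSpectrum R, I₁ ≤ v.asIdeal → v ∈ S)
    (hI₂ : ∀ v : HeightOneSpectrum R, I₂ ≤ v.asIdeal → v ∈ S)
    (hJ₁ : ∀ v ∈ S, ¬ J₁ ≤ v.asIdeal) (hJ₂ : ∀ v ∈ S, ¬ J₂ ≤ v.asIdeal) : J₁ = J₂ := by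
  have hI₁0 : I₁ ≠ ⊥ := by
    rintro rfl
    exact h0 (by simp)
  have hI₂0 : I₂ ≠ ⊥ := by
    rintro rfl
    rw [h] at h0
    exact h0 (by simp)
  have c1 : IsCoprime I₁ J₂ := h2i_isCoprime_B hI₁0 hI₁ hJ₂
  have c2 : IsCoprime I₂ J₁ := h2i_isCoprime_B hI₂0 hI₂ hJ₁
  have d1 : I₁ ∣ I₂ := c1.dvd_of_dvd_mul_right (h ▸ Dvd.intro J₁ rfl)
  have d2 : I₂ ∣ I₁ := c2.dvd_of_dvd_mul_right (h.symm ▸ Dvd.intro J₂ rfl)
  have e : I₁ = I₂ := le_antisymm (Ideal.dvd_iff_le.mp d2) (Ideal.dvd_iff_le.mp d1)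
  subst e
  exact mul_left_cancel₀ hI₁0 h

/-- Two nonzero ideals contained in the same prime powers are equal. -/
theorem h2i_eq_of_pow_B {I J : Ideal R} (hI : I ≠ ⊥) (hJ : J ≠ ⊥)
    (h : ∀ (v : HeightOneSpectrum R) (k : ℕ), I ≤ v.asIdeal ^ k ↔ J ≤ v.asIdeal ^ k) : I = J := by
  have hI' : Associates.mk I ≠ 0 := Associates.mk_ne_zero.mpr hI
  have hJ' : Associates.mk J ≠ 0 := Associates.mk_ne_zero.mpr hJ
  have h1 : Associates.mk I = Associates.mk J := by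
    apply Associates.eq_of_eq_counts hI' hJ'
    intro q hq
    obtain ⟨P, rfl⟩ := Associates.mk_surjective q
    have hP : Irreducible P := Associates.irreducible_mk.mp hq
    have hPprime : Prime P := UniqueFactorizationMonoid.irreducible_iff_prime.mp hP
    have key : ∀ (L : Ideal R), L ≠ ⊥ → ∀ k : ℕ,
        k ≤ (Associates.mk P).count (Associates.mk L).factors ↔ L ≤ P ^ k := by
      intro L hL k
      rw [← Associates.prime_pow_dvd_iff_le (Associates.mk_ne_zero.mpr hL) hq, ← Associates.mk_pow,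
        Associates.mk_le_mk_iff_dvd, Ideal.dvd_iff_le]
    apply eq_of_forall_le_iff
    intro k
    rw [key I hI, key J hJ]
    exact h ⟨P, Ideal.isPrime_of_prime hPprime, hPprime.ne_zero⟩ k
  exact associated_iff_eq.mp (Associates.mk_eq_mk_iff_associated.mp h1)

theorem h2i_part_le_B {S : Finset (HeightOneSpectrum R)} {A₁ B₁ A₂ B₂ : Ideal R}
    (hA₂ : ∀ v : HeightOneSpectrum R, A₂ ≤ v.asIdeal → v ∈ S)
    (hB₁ : ∀ v ∈ S, ¬ B₁ ≤ v.asIdeal)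
    (h : ∀ v : HeightOneSpectrum R, v ∉ S → ∀ k : ℕ,
      A₁ * B₁ ≤ v.asIdeal ^ k → A₂ * B₂ ≤ v.asIdeal ^ k)
    (v : HeightOneSpectrum R) (k : ℕ) (hle : B₁ ≤ v.asIdeal ^ k) : B₂ ≤ v.asIdeal ^ k := by
  rcases Nat.eq_zero_or_pos k with rfl | hk
  · rw [pow_zero, Ideal.one_eq_top]
    exact le_top
  by_cases hv : v ∈ S
  · exact absurd (hle.trans (Ideal.pow_le_self hk.ne')) (hB₁ v hv)
  · have h3 : A₂ * B₂ ≤ v.asIdeal ^ k := h v hv k (Ideal.mul_le_right.trans hle)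
    have hc : IsCoprime (v.asIdeal ^ k) A₂ := h2i_isCoprime_pow_B v k (fun hA => hv (hA₂ v hA))
    exact Ideal.dvd_iff_le.mp (hc.dvd_of_dvd_mul_left (Ideal.dvd_iff_le.mpr h3))

/-- The prime-to-`S` parts of two ideals which are contained in the same prime powers outside `S`
are equal. -/
theorem h2i_part_eq_B {S : Finset (HeightOneSpectrum R)} {A₁ B₁ A₂ B₂ : Ideal R}
    (h1 : A₁ * B₁ ≠ ⊥) (h2 : A₂ * B₂ ≠ ⊥)
    (hA₁ : ∀ v : HeightOneSpectrum R, A₁ ≤ v.asIdeal → v ∈ S)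
    (hA₂ : ∀ v : HeightOneSpectrum R, A₂ ≤ v.asIdeal → v ∈ S)
    (hB₁ : ∀ v ∈ S, ¬ B₁ ≤ v.asIdeal) (hB₂ : ∀ v ∈ S, ¬ B₂ ≤ v.asIdeal)
    (h : ∀ v : HeightOneSpectrum R, v ∉ S → ∀ k : ℕ,
      A₁ * B₁ ≤ v.asIdeal ^ k ↔ A₂ * B₂ ≤ v.asIdeal ^ k) : B₁ = B₂ := by
  have hB₁0 : B₁ ≠ ⊥ := by
    rintro rfl
    exact h1 (by simp)
  have hB₂0 : B₂ ≠ ⊥ := by
    rintro rfl
    exact h2 (by simp)
  apply h2i_eq_of_pow_B hB₁0 hB₂0
  intro v k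
  exact ⟨h2i_part_le_B hA₂ hB₁ (fun v hv k => (h v hv k).mp) v k,
    h2i_part_le_B hA₁ hB₂ (fun v hv k => (h v hv k).mpr) v k⟩

end ded

/-- The main computation: from `x a = w z ^ p b` in `F` to the relation `𝔞 ~ ⊤`. -/
theorem h2i_core_B (p : ℕ)
    (F M : Type*) [Field F] [NumberField F] [Field M] [NumberField M] [Algebra F M]
    (hdeg : Module.finrank F M = p)
    (S₀ T : Finset (HeightOneSpectrum (𝓞 F))) (N : ℕ) (hN : 1 ≤ N)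
    (hTS : ∀ v ∈ T, v ∉ S₀)
    (hsplit : ∀ v ∈ T, ∃ 𝔔 : Ideal (𝓞 M), 𝔔.IsPrime ∧ Ideal.relNorm (𝓞 F) 𝔔 = v.asIdeal)
    (𝔞 : Ideal (𝓞 F)) (hcop : IsCoprime 𝔞 ((∏ v ∈ S₀, v.asIdeal) ^ N))
    (x : 𝓞 F) (hx : x ≠ 0) (𝔰 : Ideal (𝓞 F))
    (h𝔰 : ∀ v : HeightOneSpectrum (𝓞 F), 𝔰 ≤ v.asIdeal → v ∈ S₀)
    (hx𝔞 : Ideal.span {x} = 𝔞 * 𝔰)
    (w z : Fˣ)
    (hw : w ∈ h2U F ((S₀ : Set (HeightOneSpectrum (𝓞 F))) ∪ (T : Set (HeightOneSpectrum (𝓞 F)))))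
    (a b : 𝓞 F) (ha0 : a ≠ 0) (hb0 : b ≠ 0)
    (haS : ∀ v ∈ S₀, a ∉ v.asIdeal) (hbS : ∀ v ∈ S₀, b ∉ v.asIdeal)
    (hab : a - b ∈ (∏ v ∈ S₀, v.asIdeal) ^ N)
    (heq : algebraMap (𝓞 F) F x * algebraMap (𝓞 F) F a =
      (w : F) * (z : F) ^ p * algebraMap (𝓞 F) F b) :
    RayNormRel F M ((∏ v ∈ S₀, v.asIdeal) ^ N) 𝔞 ⊤ := by
  classical
  have hinj : Function.Injective (algebraMap (𝓞 F) F) := IsFractionRing.injective (𝓞 F) F
  -- numerators and denominators of `w` and `z`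
  obtain ⟨w₁, w₂, hw₂, hwF⟩ := IsFractionRing.div_surjective (A := 𝓞 F) (w : F)
  obtain ⟨z₁, z₂, hz₂, hzF⟩ := IsFractionRing.div_surjective (A := 𝓞 F) (z : F)
  have hw₂0 : w₂ ≠ 0 := nonZeroDivisors.ne_zero hw₂
  have hz₂0 : z₂ ≠ 0 := nonZeroDivisors.ne_zero hz₂
  have hw₂F : algebraMap (𝓞 F) F w₂ ≠ 0 := fun h => hw₂0 (hinj (h.trans (map_zero _).symm))
  have hz₂F : algebraMap (𝓞 F) F z₂ ≠ 0 := fun h => hz₂0 (hinj (h.trans (map_zero _).symm))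
  have hw₁0 : w₁ ≠ 0 := by
    rintro rfl
    rw [map_zero, zero_div] at hwF
    exact w.ne_zero hwF.symm
  have hz₁0 : z₁ ≠ 0 := by
    rintro rfl
    rw [map_zero, zero_div] at hzF
    exact z.ne_zero hzF.symm
  -- the integral identity
  have hint : x * a * w₂ * z₂ ^ p = w₁ * z₁ ^ p * b := by
    apply hinj
    simp only [map_mul, map_pow]
    rw [heq, ← hwF, ← hzF, div_pow]
    field_simp
  have hE : Ideal.span {x} * Ideal.span {a} * Ideal.span {w₂} * Ideal.span {z₂} ^ p =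
      Ideal.span {w₁} * Ideal.span {z₁} ^ p * Ideal.span {b} := by
    simp only [Ideal.span_singleton_mul_span_singleton, Ideal.span_singleton_pow]
    rw [hint]
  have hE0 : Ideal.span {x} * Ideal.span {a} * Ideal.span {w₂} * Ideal.span {z₂} ^ p ≠ ⊥ := by
    simp only [Ideal.span_singleton_mul_span_singleton, Ideal.span_singleton_pow]
    rw [Ne, Ideal.span_singleton_eq_bot]
    exact mul_ne_zero (mul_ne_zero (mul_ne_zero hx ha0) hw₂0) (pow_ne_zero p hz₂0)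
  -- splittings
  have hsp : ∀ c : 𝓞 F, c ≠ 0 → Ideal.span {c} ≠ ⊥ := fun c hc => by
    rwa [Ne, Ideal.span_singleton_eq_bot]
  obtain ⟨nz₁, Z₁, hZ₁, hZ₁P⟩ := h2i_exists_split_B S₀ (hsp z₁ hz₁0)
  obtain ⟨nz₂, Z₂, hZ₂, hZ₂P⟩ := h2i_exists_split_B S₀ (hsp z₂ hz₂0)
  obtain ⟨nw₁, W₁, hW₁, hW₁P⟩ := h2i_exists_split_B (S₀ ∪ T) (hsp w₁ hw₁0)
  obtain ⟨nw₂, W₂, hW₂, hW₂P⟩ := h2i_exists_split_B (S₀ ∪ T) (hsp w₂ hw₂0)
  have hdisj : Disjoint S₀ T := Finset.disjoint_left.mpr (fun v hvS hvT => hTS v hvT hvS)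
  -- the prime-to-`S₀ ∪ T` parts of `w₁` and `w₂` agree
  have hWeq : W₁ = W₂ := by
    apply h2i_part_eq_B (S := S₀ ∪ T) (A₁ := ∏ v ∈ S₀ ∪ T, v.asIdeal ^ nw₁ v)
      (A₂ := ∏ v ∈ S₀ ∪ T, v.asIdeal ^ nw₂ v)
    · rw [← hW₁]
      exact hsp w₁ hw₁0
    · rw [← hW₂]
      exact hsp w₂ hw₂0
    · exact h2i_supp_prod_B _ _ (Finset.Subset.refl _) _
    · exact h2i_supp_prod_B _ _ (Finset.Subset.refl _) _
    · exact hW₁P
    · exact hW₂P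
    · intro v hv k
      rw [← hW₁, ← hW₂, Ideal.span_singleton_le_iff_mem, Ideal.span_singleton_le_iff_mem,
        ← v.intValuation_le_pow_iff_mem, ← v.intValuation_le_pow_iff_mem]
      have hv' : v ∉ (S₀ : Set (HeightOneSpectrum (𝓞 F))) ∪ (T : Set (HeightOneSpectrum (𝓞 F))) := by
        intro h
        apply hv
        rcases h with h | h
        · exact Finset.mem_union_left _ h
        · exact Finset.mem_union_right _ h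
      have h1 : v.valuation F (w : F) = 1 := hw v hv'
      rw [← hwF, map_div₀, div_eq_one_iff_eq ((map_ne_zero _).mpr hw₂F),
        v.valuation_of_algebraMap, v.valuation_of_algebraMap] at h1
      rw [h1]
  subst hWeq
  rw [Finset.prod_union hdisj] at hW₁ hW₂
  -- uniqueness of the `S₀`-splitting
  have hW₁0 : W₁ ≠ ⊥ := by
    rintro rfl
    rw [Ideal.mul_bot] at hW₁
    exact hsp w₁ hw₁0 hW₁
  have hP𝔞 : ∀ v ∈ S₀, ¬ 𝔞 ≤ v.asIdeal := by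
    intro v hv hle
    have h1 : (∏ u ∈ S₀, u.asIdeal) ^ N ≤ v.asIdeal :=
      (Ideal.pow_le_self (Nat.one_le_iff_ne_zero.mp hN)).trans
        (Ideal.prod_le_inf.trans (Finset.inf_le hv))
    have h2 := Ideal.isCoprime_iff_sup_eq.mp hcop
    exact v.isPrime.ne_top (top_le_iff.mp (h2 ▸ sup_le hle h1))
  have hPa : ∀ v ∈ S₀, ¬ Ideal.span {a} ≤ v.asIdeal := fun v hv h =>
    haS v hv ((Ideal.span_singleton_le_iff_mem _).mp h)
  have hPb : ∀ v ∈ S₀, ¬ Ideal.span {b} ≤ v.asIdeal := fun v hv h =>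
    hbS v hv ((Ideal.span_singleton_le_iff_mem _).mp h)
  have hPW : ∀ v ∈ S₀, ¬ W₁ ≤ v.asIdeal := fun v hv => hW₁P v (Finset.mem_union_left _ hv)
  have hPT : ∀ n : HeightOneSpectrum (𝓞 F) → ℕ, ∀ v ∈ S₀,
      ¬ (∏ u ∈ T, u.asIdeal ^ n u) ≤ v.asIdeal := fun n =>
    h2i_prime_of_supp_B (h2i_supp_prod_B T T (Finset.Subset.refl _) n) hTS
  have hSS : ∀ n : HeightOneSpectrum (𝓞 F) → ℕ, ∀ v : HeightOneSpectrum (𝓞 F),
      (∏ u ∈ S₀, u.asIdeal ^ n u) ≤ v.asIdeal → v ∈ S₀ := fun n =>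
    h2i_supp_prod_B S₀ S₀ (Finset.Subset.refl _) n
  have hkey : W₁ * (Ideal.span {a} * 𝔞 * ((∏ v ∈ T, v.asIdeal ^ nw₂ v) * Z₂ ^ p)) =
      W₁ * (Ideal.span {b} * ((∏ v ∈ T, v.asIdeal ^ nw₁ v) * Z₁ ^ p)) := by
    have hE' := hE
    have hE0' := hE0
    rw [hx𝔞, hW₂, hZ₂] at hE0'
    rw [hx𝔞, hW₁, hW₂, hZ₁, hZ₂] at hE'
    apply h2i_unique_B (S := S₀)
      (I₁ := 𝔰 * (∏ v ∈ S₀, v.asIdeal ^ nw₂ v) * (∏ v ∈ S₀, v.asIdeal ^ nz₂ v) ^ p)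
      (I₂ := (∏ v ∈ S₀, v.asIdeal ^ nw₁ v) * (∏ v ∈ S₀, v.asIdeal ^ nz₁ v) ^ p)
    · intro h
      apply hE0'
      rw [← h]
      ring
    · calc _ = 𝔞 * 𝔰 * Ideal.span {a} *
            ((∏ v ∈ S₀, v.asIdeal ^ nw₂ v) * (∏ v ∈ T, v.asIdeal ^ nw₂ v) * W₁) *
            ((∏ v ∈ S₀, v.asIdeal ^ nz₂ v) * Z₂) ^ p := by ring
        _ = _ := hE'
        _ = _ := by ring
    · exact h2i_supp_mul_B (h2i_supp_mul_B h𝔰 (hSS _)) (h2i_supp_pow_B (hSS _) p)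
    · exact h2i_supp_mul_B (hSS _) (h2i_supp_pow_B (hSS _) p)
    · exact h2i_prime_mul_B hPW (h2i_prime_mul_B (h2i_prime_mul_B hPa hP𝔞)
        (h2i_prime_mul_B (hPT _) (h2i_prime_pow_B hZ₂P p)))
    · exact h2i_prime_mul_B hPW (h2i_prime_mul_B hPb
        (h2i_prime_mul_B (hPT _) (h2i_prime_pow_B hZ₁P p)))
  have hkey' := mul_left_cancel₀ hW₁0 hkey
  -- the primes of `M` above `T`
  have hQ : ∀ v : HeightOneSpectrum (𝓞 F), ∃ 𝔔 : Ideal (𝓞 M),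
      v ∈ T → Ideal.relNorm (𝓞 F) 𝔔 = v.asIdeal := by
    intro v
    by_cases hv : v ∈ T
    · obtain ⟨𝔔, -, h𝔔⟩ := hsplit v hv
      exact ⟨𝔔, fun _ => h𝔔⟩
    · exact ⟨⊤, fun h => absurd h hv⟩
  choose 𝔔 h𝔔 using hQ
  have hnorm : ∀ (n : HeightOneSpectrum (𝓞 F) → ℕ) (Z : Ideal (𝓞 F)),
      Ideal.relNorm (𝓞 F) ((∏ v ∈ T, 𝔔 v ^ n v) * Z.map (algebraMap (𝓞 F) (𝓞 M))) =
        (∏ v ∈ T, v.asIdeal ^ n v) * Z ^ p := by
    intro n Z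
    rw [map_mul, map_prod, Ideal.relNorm_algebraMap,
      ← IsFractionRing.finrank_eq (𝓞 F) F (𝓞 M) M, hdeg]
    congr 1
    apply Finset.prod_congr rfl
    intro v hv
    rw [map_pow, h𝔔 v hv]
  have h𝔣0 : (∏ v ∈ S₀, v.asIdeal) ^ N ≠ ⊥ :=
    pow_ne_zero N (Finset.prod_ne_zero_iff.mpr (fun v _ => v.ne_bot))
  have h𝔣S : ∀ v : HeightOneSpectrum (𝓞 F), (∏ u ∈ S₀, u.asIdeal) ^ N ≤ v.asIdeal → v ∈ S₀ := by
    have h1 := hSS (fun _ => 1)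
    simp only [pow_one] at h1
    exact h2i_supp_pow_B h1 N
  have hcopP : ∀ J : Ideal (𝓞 F), (∀ v ∈ S₀, ¬ J ≤ v.asIdeal) →
      IsCoprime J ((∏ v ∈ S₀, v.asIdeal) ^ N) := fun J hJ =>
    (h2i_isCoprime_B h𝔣0 h𝔣S hJ).symm
  have hN₂ : ∀ v ∈ S₀, ¬ (∏ u ∈ T, u.asIdeal ^ nw₂ u) * Z₂ ^ p ≤ v.asIdeal :=
    h2i_prime_mul_B (hPT _) (h2i_prime_pow_B hZ₂P p)
  have hN₁ : ∀ v ∈ S₀, ¬ (∏ u ∈ T, u.asIdeal ^ nw₁ u) * Z₁ ^ p ≤ v.asIdeal :=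
    h2i_prime_mul_B (hPT _) (h2i_prime_pow_B hZ₁P p)
  have hne : ∀ (n : HeightOneSpectrum (𝓞 F) → ℕ) (Z : Ideal (𝓞 F)),
      (∀ v ∈ S₀, ¬ (∏ u ∈ T, u.asIdeal ^ n u) * Z ^ p ≤ v.asIdeal) → Z ≠ ⊥ →
      (∏ v ∈ T, 𝔔 v ^ n v) * Z.map (algebraMap (𝓞 F) (𝓞 M)) ≠ ⊥ := by
    intro n Z _ hZ h
    have h1 := hnorm n Z
    rw [h, Ideal.relNorm_bot] at h1
    have h2 : (∏ v ∈ T, v.asIdeal ^ n v) * Z ^ p ≠ ⊥ :=
      mul_ne_zero (Finset.prod_ne_zero_iff.mpr (fun v _ => pow_ne_zero _ v.ne_bot))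
        (pow_ne_zero p hZ)
    exact h2 h1.symm
  have hZ₁0 : Z₁ ≠ ⊥ := by
    rintro rfl
    rw [Ideal.mul_bot] at hZ₁
    exact hsp z₁ hz₁0 hZ₁
  have hZ₂0 : Z₂ ≠ ⊥ := by
    rintro rfl
    rw [Ideal.mul_bot] at hZ₂
    exact hsp z₂ hz₂0 hZ₂
  refine ⟨a, b, (∏ v ∈ T, 𝔔 v ^ nw₂ v) * Z₂.map (algebraMap (𝓞 F) (𝓞 M)),
    (∏ v ∈ T, 𝔔 v ^ nw₁ v) * Z₁.map (algebraMap (𝓞 F) (𝓞 M)), ha0, hb0, hab, hcopP _ hPa,
    hcopP _ hPb, hne _ _ hN₂ hZ₂0, hne _ _ hN₁ hZ₁0, ?_, ?_, ?_⟩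
  · rw [hnorm]
    exact hcopP _ hN₂
  · rw [hnorm]
    exact hcopP _ hN₁
  · rw [hnorm, hnorm, Ideal.mul_top]
    exact hkey'

/-- [A8] Step 7, ideal bookkeeping (second version): if `(x) = 𝔞 𝔰` with `𝔰` supported on `S₀`
and `x ∈ A · D`, then `𝔞 ~ ⊤`. -/
theorem h2_rayNormRel_of_mem_B (p : ℕ) [Fact p.Prime]
    (F M : Type*) [Field F] [NumberField F] [Field M] [NumberField M] [Algebra F M] [IsGalois F M]
    (hdeg : Module.finrank F M = p)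
    (S₀ T : Finset (HeightOneSpectrum (𝓞 F))) (N : ℕ) (hN : 1 ≤ N)
    (hTS : ∀ v ∈ T, v ∉ S₀)
    (hsplit : ∀ v ∈ T, ∃ 𝔔 : Ideal (𝓞 M), 𝔔.IsPrime ∧ Ideal.relNorm (𝓞 F) 𝔔 = v.asIdeal)
    (𝔞 : Ideal (𝓞 F)) (h𝔞 : 𝔞 ≠ ⊥) (hcop : IsCoprime 𝔞 ((∏ v ∈ S₀, v.asIdeal) ^ N))
    (x : 𝓞 F) (hx : x ≠ 0) (𝔰 : Ideal (𝓞 F))
    (h𝔰 : ∀ v : HeightOneSpectrum (𝓞 F), 𝔰 ≤ v.asIdeal → v ∈ S₀)
    (hx𝔞 : Ideal.span {x} = 𝔞 * 𝔰)
    (xu : Fˣ) (hxu : (xu : F) = algebraMap (𝓞 F) F x)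
    (hmem : xu ∈ h2U F ((S₀ : Set (HeightOneSpectrum (𝓞 F))) ∪ (T : Set (HeightOneSpectrum (𝓞 F))))
      ⊔ h2D F p S₀ (fun _ => N)) :
    RayNormRel F M ((∏ v ∈ S₀, v.asIdeal) ^ N) 𝔞 ⊤ := by
  rcases S₀.eq_empty_or_nonempty with rfl | ⟨v₀, hv₀⟩
  · -- no prime in `S₀`: the modulus is `⊤`, `𝔰 = ⊤` and `𝔞` is principal
    have h𝔰0 : 𝔰 ≠ ⊥ := by
      rintro rfl
      rw [Ideal.mul_bot, Ideal.span_singleton_eq_bot] at hx𝔞
      exact hx hx𝔞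
    have h𝔰top : 𝔰 = ⊤ := by
      by_contra hne
      obtain ⟨P, hPmax, hle⟩ := Ideal.exists_le_maximal 𝔰 hne
      have hPbot : P ≠ ⊥ := by
        intro h
        apply h𝔰0
        rw [← le_bot_iff, ← h]
        exact hle
      exact absurd (h𝔰 ⟨P, hPmax.isPrime, hPbot⟩ hle) (Finset.notMem_empty _)
    rw [h𝔰top, Ideal.mul_top] at hx𝔞
    have htop : (∏ v ∈ (∅ : Finset (HeightOneSpectrum (𝓞 F))), v.asIdeal) ^ N = ⊤ := by
      rw [Finset.prod_empty, one_pow, Ideal.one_eq_top]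
    rw [htop]
    have hct : ∀ I : Ideal (𝓞 F), IsCoprime I ⊤ := fun I => by
      rw [← Ideal.one_eq_top]
      exact isCoprime_one_right
    refine ⟨1, x, ⊤, ⊤, one_ne_zero, hx, Submodule.mem_top, hct _, hct _, top_ne_bot, top_ne_bot,
      hct _, hct _, ?_⟩
    rw [Ideal.span_singleton_one, Ideal.relNorm_top, Ideal.mul_top, Ideal.mul_top, Ideal.mul_top,
      Ideal.top_mul, hx𝔞]
  · obtain ⟨w, hw, d, hd, hwd⟩ := Subgroup.mem_sup.mp hmem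
    obtain ⟨z, a, b, haS, hbS, hab, heq⟩ := h2_exists_ray_of_mem_D p F S₀ N d hd
    have ha0 : a ≠ 0 := fun h => haS v₀ hv₀ (h ▸ zero_mem _)
    have hb0 : b ≠ 0 := fun h => hbS v₀ hv₀ (h ▸ zero_mem _)
    refine h2i_core_B p F M hdeg S₀ T N hN hTS hsplit 𝔞 hcop x hx 𝔰 h𝔰 hx𝔞 w z hw a b ha0 hb0
      haS hbS hab ?_
    rw [← hxu, ← hwd, Units.val_mul, mul_assoc, heq]
    ring

end Fermat.Agent.S14
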