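import Mathlib
import Fermat.Agent.S14.Defs
import Fermat.Agent.S14.H2Defs
import Fermat.Agent.S14.H2Ray

/-!
# P18 (S14), block H2, slice [A8] (third version): ideal bookkeeping

If `(x) = 𝔞 𝔰` with `𝔰` supported on `S₀` and `x ∈ U_{S₀ ∪ T} · D`, then `𝔞 ~ ⊤` modulo
`(∏ v ∈ S₀, v) ^ N`.  The bookkeeping is done prime by prime with `FractionalIdeal.count`.
-/

set_option autoImplicit false

namespace Fermat.Agent.S14

open NumberField IsDedekindDomain
open scoped nonZeroDivisors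

section h2iCount

variable {R : Type*} [CommRing R] [IsDedekindDomain R]
  (K : Type*) [Field K] [Algebra R K] [IsFractionRing R K]

/-- (L1) the count of a nonzero integral ideal at `v` vanishes iff `v` does not contain it. -/
theorem h2i_count_eq_zero_iff_C (I : Ideal R) (hI : I ≠ ⊥) (v : HeightOneSpectrum R) :
    FractionalIdeal.count K v (I : FractionalIdeal R⁰ K) = 0 ↔ ¬ I ≤ v.asIdeal := by
  classical
  have hI0 : I ≠ 0 := by rwa [Ne, Ideal.zero_eq_bot]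
  rw [FractionalIdeal.count_coe K v hI0, Nat.cast_eq_zero, ← Ideal.dvd_iff_le,
    ← Associates.count_ne_zero_iff_dvd hI0 v.irreducible, not_not]

/-- Pushing the coercion through a product of prime powers. -/
theorem h2i_coe_prod_pow_C (s : Finset (HeightOneSpectrum R))
    (n : HeightOneSpectrum R → ℕ) :
    ((∏ u ∈ s, u.asIdeal ^ n u : Ideal R) : FractionalIdeal R⁰ K) =
      ∏ u ∈ s, (u.asIdeal : FractionalIdeal R⁰ K) ^ n u := by
  have h := map_prod (FractionalIdeal.coeIdealHom R⁰ K) (fun u => u.asIdeal ^ n u) s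
  simp only [FractionalIdeal.coeIdealHom_apply, FractionalIdeal.coeIdeal_pow] at h
  exact h

/-- The count of a product of prime powers as a sum. -/
theorem h2i_count_prod_pow_sum_C (s : Finset (HeightOneSpectrum R))
    (n : HeightOneSpectrum R → ℕ) (v : HeightOneSpectrum R) :
    FractionalIdeal.count K v ((∏ u ∈ s, u.asIdeal ^ n u : Ideal R) : FractionalIdeal R⁰ K) =
      ∑ u ∈ s, (n u : ℤ) * FractionalIdeal.count K v (u.asIdeal : FractionalIdeal R⁰ K) := by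
  rw [h2i_coe_prod_pow_C K s n, FractionalIdeal.count_prod K v s _
    (fun u _ => pow_ne_zero _ (FractionalIdeal.coeIdeal_ne_zero.mpr u.ne_bot))]
  exact Finset.sum_congr rfl (fun u _ => FractionalIdeal.count_pow K v (n u) _)

/-- (L2a) the count of a product of prime powers at a prime of the index set. -/
theorem h2i_count_prod_pow_of_mem_C (s : Finset (HeightOneSpectrum R))
    (n : HeightOneSpectrum R → ℕ) (v : HeightOneSpectrum R) (hv : v ∈ s) :
    FractionalIdeal.count K v ((∏ u ∈ s, u.asIdeal ^ n u : Ideal R) : FractionalIdeal R⁰ K) =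
      (n v : ℤ) := by
  rw [h2i_count_prod_pow_sum_C K s n v, Finset.sum_eq_single v]
  · rw [FractionalIdeal.count_self, mul_one]
  · intro u _ huv
    rw [FractionalIdeal.count_maximal_coprime K v huv, mul_zero]
  · intro h
    exact absurd hv h

/-- (L2b) the count of a product of prime powers at a prime outside the index set. -/
theorem h2i_count_prod_pow_of_notMem_C (s : Finset (HeightOneSpectrum R))
    (n : HeightOneSpectrum R → ℕ) (v : HeightOneSpectrum R) (hv : v ∉ s) :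
    FractionalIdeal.count K v ((∏ u ∈ s, u.asIdeal ^ n u : Ideal R) : FractionalIdeal R⁰ K) =
      0 := by
  rw [h2i_count_prod_pow_sum_C K s n v]
  refine Finset.sum_eq_zero (fun u hu => ?_)
  have huv : u ≠ v := fun h => hv (h ▸ hu)
  rw [FractionalIdeal.count_maximal_coprime K v huv, mul_zero]

/-- (L3) two nonzero integral ideals with the same counts are equal. -/
theorem h2i_ideal_ext_C (I J : Ideal R) (hI : I ≠ ⊥) (hJ : J ≠ ⊥)
    (h : ∀ v : HeightOneSpectrum R, FractionalIdeal.count K v (I : FractionalIdeal R⁰ K) =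
      FractionalIdeal.count K v (J : FractionalIdeal R⁰ K)) : I = J := by
  have hI' : (I : FractionalIdeal R⁰ K) ≠ 0 := FractionalIdeal.coeIdeal_ne_zero.mpr hI
  have hJ' : (J : FractionalIdeal R⁰ K) ≠ 0 := FractionalIdeal.coeIdeal_ne_zero.mpr hJ
  have h1 := FractionalIdeal.finprod_heightOneSpectrum_factorization' K hI'
  have h2 := FractionalIdeal.finprod_heightOneSpectrum_factorization' K hJ'
  have h3 : (I : FractionalIdeal R⁰ K) = (J : FractionalIdeal R⁰ K) := by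
    rw [← h1, ← h2]
    exact finprod_congr fun v => by rw [h v]
  exact FractionalIdeal.coeIdeal_injective h3

/-- (L4) an element of valuation one has count zero. -/
theorem h2i_count_spanSingleton_C (v : HeightOneSpectrum R) (y : K)
    (hy : v.valuation K y = 1) :
    FractionalIdeal.count K v (FractionalIdeal.spanSingleton R⁰ y) = 0 := by
  have hy0 : y ≠ 0 := by
    rintro rfl
    simp at hy
  obtain ⟨r, s, hs, rfl⟩ := IsFractionRing.div_surjective (A := R) y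
  have hs0 : s ≠ 0 := nonZeroDivisors.ne_zero hs
  have hsK : algebraMap R K s ≠ 0 := by
    simpa using hs0
  have hr0 : r ≠ 0 := by
    rintro rfl
    simp at hy0
  have hne : FractionalIdeal.spanSingleton R⁰ (algebraMap R K r / algebraMap R K s) ≠ 0 :=
    FractionalIdeal.spanSingleton_ne_zero_iff.mpr hy0
  have heq : FractionalIdeal.spanSingleton R⁰ (algebraMap R K r / algebraMap R K s) =
      FractionalIdeal.spanSingleton R⁰ ((algebraMap R K) s)⁻¹ *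
        ((Ideal.span {r} : Ideal R) : FractionalIdeal R⁰ K) := by
    rw [FractionalIdeal.coeIdeal_span_singleton,
      FractionalIdeal.spanSingleton_mul_spanSingleton, div_eq_inv_mul]
  rw [FractionalIdeal.count_well_defined K v hne heq]
  rw [map_div₀, v.valuation_of_algebraMap, v.valuation_of_algebraMap,
    v.intValuation_if_neg hr0, v.intValuation_if_neg hs0,
    div_eq_one_iff_eq WithZero.exp_ne_zero] at hy
  have := WithZero.exp_injective hy
  omega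

end h2iCount

section h2iCoprime

variable {R : Type*} [CommRing R] [IsDedekindDomain R]

/-- (L5) an ideal contained in no prime of `s` is coprime to every power of their product. -/
theorem h2i_isCoprime_prod_pow_C (I : Ideal R) (s : Finset (HeightOneSpectrum R)) (N : ℕ)
    (h : ∀ v ∈ s, ¬ I ≤ v.asIdeal) : IsCoprime I ((∏ v ∈ s, v.asIdeal) ^ N) := by
  apply IsCoprime.pow_right
  apply IsCoprime.prod_right
  intro v hv
  rw [Ideal.isCoprime_iff_sup_eq]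
  by_contra hne
  have h1 : v.asIdeal = I ⊔ v.asIdeal := v.isMaximal.eq_of_le hne le_sup_right
  exact h v hv (h1 ▸ le_sup_left)

omit [IsDedekindDomain R] in
/-- (L6) converse of (L5) for a positive exponent. -/
theorem h2i_not_le_of_isCoprime_C (I : Ideal R) (s : Finset (HeightOneSpectrum R)) (N : ℕ)
    (hN : 1 ≤ N) (h : IsCoprime I ((∏ v ∈ s, v.asIdeal) ^ N)) :
    ∀ v ∈ s, ¬ I ≤ v.asIdeal := by
  intro v hv hle
  rw [Ideal.isCoprime_iff_sup_eq] at h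
  have h1 : (∏ u ∈ s, u.asIdeal) ^ N ≤ v.asIdeal :=
    (Ideal.pow_le_self (by omega)).trans
      (Ideal.le_of_dvd (Finset.dvd_prod_of_mem (fun u : HeightOneSpectrum R => u.asIdeal) hv))
  have h2 : (⊤ : Ideal R) ≤ v.asIdeal := h ▸ sup_le hle h1
  exact v.isPrime.ne_top (top_le_iff.mp h2)

omit [IsDedekindDomain R] in
/-- (L7) a nonzero ideal contained in no nonzero prime is the unit ideal. -/
theorem h2i_eq_top_of_forall_not_le_C (I : Ideal R) (hI : I ≠ ⊥)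
    (h : ∀ v : HeightOneSpectrum R, ¬ I ≤ v.asIdeal) : I = ⊤ := by
  by_contra hne
  obtain ⟨M, hM, hIM⟩ := Ideal.exists_le_maximal I hne
  have hMne : M ≠ ⊥ := fun hbot => hI (le_bot_iff.mp (hbot ▸ hIM))
  exact h ⟨M, hM.isPrime, hMne⟩ hIM

end h2iCoprime

section h2iGeneralMain

variable {R : Type*} [CommRing R] [IsDedekindDomain R]
  (K : Type*) [Field K] [Algebra R K] [IsFractionRing R K]

theorem h2i_count_mul_C (I J : Ideal R) (hI : I ≠ ⊥) (hJ : J ≠ ⊥) (v : HeightOneSpectrum R) :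
    FractionalIdeal.count K v ((I * J : Ideal R) : FractionalIdeal R⁰ K) =
      FractionalIdeal.count K v (I : FractionalIdeal R⁰ K) +
        FractionalIdeal.count K v (J : FractionalIdeal R⁰ K) := by
  rw [FractionalIdeal.coeIdeal_mul, FractionalIdeal.count_mul K v
    (FractionalIdeal.coeIdeal_ne_zero.mpr hI) (FractionalIdeal.coeIdeal_ne_zero.mpr hJ)]

theorem h2i_count_pow_C (I : Ideal R) (n : ℕ) (v : HeightOneSpectrum R) :
    FractionalIdeal.count K v ((I ^ n : Ideal R) : FractionalIdeal R⁰ K) =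
      n * FractionalIdeal.count K v (I : FractionalIdeal R⁰ K) := by
  rw [FractionalIdeal.coeIdeal_pow, FractionalIdeal.count_pow]

theorem h2i_prod_pow_ne_bot_C (s : Finset (HeightOneSpectrum R)) (n : HeightOneSpectrum R → ℕ) :
    (∏ u ∈ s, u.asIdeal ^ n u : Ideal R) ≠ ⊥ := by
  rw [← Ideal.zero_eq_bot, Finset.prod_ne_zero_iff]
  intro u _
  exact pow_ne_zero _ u.ne_bot

end h2iGeneralMain

theorem h2i_isCoprime_top_C {A : Type*} [CommSemiring A] (I : Ideal A) : IsCoprime I ⊤ := by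
  rw [← Ideal.one_eq_top]
  exact isCoprime_one_right

/-- The case `S₀ = ∅`: then `𝔰 = ⊤` and `𝔞` is principal. -/
theorem h2i_rayNormRel_empty_C (F M : Type*) [Field F] [NumberField F] [Field M] [NumberField M]
    [Algebra F M] (N : ℕ) (𝔞 : Ideal (𝓞 F)) (x : 𝓞 F) (hx : x ≠ 0) (𝔰 : Ideal (𝓞 F))
    (h𝔰 : ∀ v : HeightOneSpectrum (𝓞 F), ¬ 𝔰 ≤ v.asIdeal)
    (hx𝔞 : Ideal.span {x} = 𝔞 * 𝔰) :
    RayNormRel F M ((∏ v ∈ (∅ : Finset (HeightOneSpectrum (𝓞 F))), v.asIdeal) ^ N) 𝔞 ⊤ := by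
  have h𝔰0 : 𝔰 ≠ ⊥ := by
    rintro rfl
    rw [Ideal.mul_bot, Ideal.span_singleton_eq_bot] at hx𝔞
    exact hx hx𝔞
  have h𝔰top : 𝔰 = ⊤ := h2i_eq_top_of_forall_not_le_C 𝔰 h𝔰0 h𝔰
  rw [h𝔰top, Ideal.mul_top] at hx𝔞
  have hf : (∏ v ∈ (∅ : Finset (HeightOneSpectrum (𝓞 F))), v.asIdeal) ^ N = ⊤ := by
    rw [Finset.prod_empty, one_pow, Ideal.one_eq_top]
  rw [hf, ← hx𝔞]
  refine ⟨1, x, ⊤, ⊤, one_ne_zero, hx, Submodule.mem_top, h2i_isCoprime_top_C _,
    h2i_isCoprime_top_C _, top_ne_bot, top_ne_bot, h2i_isCoprime_top_C _, h2i_isCoprime_top_C _, ?_⟩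
  rw [Ideal.span_singleton_one, Ideal.top_mul, Ideal.mul_top]

/-- [A8] Step 7, ideal bookkeeping: if `(x) = 𝔞 𝔰` with `𝔰` supported on `S₀` and `x ∈ A · D`,
then `𝔞 ~ ⊤`. -/
theorem h2_rayNormRel_of_mem_C (p : ℕ) [Fact p.Prime]
    (F M : Type*) [Field F] [NumberField F] [Field M] [NumberField M] [Algebra F M] [IsGalois F M]
    (hdeg : Module.finrank F M = p)
    (S₀ T : Finset (HeightOneSpectrum (𝓞 F))) (N : ℕ) (hN : 1 ≤ N)
    (hTS : ∀ v ∈ T, v ∉ S₀)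
    (hsplit : ∀ v ∈ T, ∃ 𝔔 : Ideal (𝓞 M), 𝔔.IsPrime ∧ Ideal.relNorm (𝓞 F) 𝔔 = v.asIdeal)
    (𝔞 : Ideal (𝓞 F)) (h𝔞 : 𝔞 ≠ ⊥) (hcop : IsCoprime 𝔞 ((∏ v ∈ S₀, v.asIdeal) ^ N))
    (x : 𝓞 F) (hx : x ≠ 0) (𝔰 : Ideal (𝓞 F))
    (h𝔰 : ∀ v : HeightOneSpectrum (𝓞 F), 𝔰 ≤ v.asIdeal → v ∈ S₀)
    (hx𝔞 : Ideal.span {x} = 𝔞 * 𝔰)
    (xu : Fˣ) (hxu : (xu : F) = algebraMap (𝓞 F) F x)
    (hmem : xu ∈ h2U F ((S₀ : Set (HeightOneSpectrum (𝓞 F))) ∪ (T : Set (HeightOneSpectrum (𝓞 F))))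
      ⊔ h2D F p S₀ (fun _ => N)) :
    RayNormRel F M ((∏ v ∈ S₀, v.asIdeal) ^ N) 𝔞 ⊤ := by
  classical
  rcases S₀.eq_empty_or_nonempty with hS | ⟨v₀, hv₀⟩
  · subst hS
    exact h2i_rayNormRel_empty_C F M N 𝔞 x hx 𝔰 (fun v hv => by simpa using h𝔰 v hv) hx𝔞
  obtain ⟨w, hw, d, hd, hwd⟩ := Subgroup.mem_sup.mp hmem
  obtain ⟨z, a, b, haS, hbS, hab, hdab⟩ := h2_exists_ray_of_mem_D p F S₀ N d hd
  have ha0 : a ≠ 0 := by
    rintro rfl
    exact haS v₀ hv₀ (Ideal.zero_mem _)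
  have hb0 : b ≠ 0 := by
    rintro rfl
    exact hbS v₀ hv₀ (Ideal.zero_mem _)
  have h𝔰0 : 𝔰 ≠ ⊥ := by
    rintro rfl
    rw [Ideal.mul_bot, Ideal.span_singleton_eq_bot] at hx𝔞
    exact hx hx𝔞
  have hkey : algebraMap (𝓞 F) F x * algebraMap (𝓞 F) F a =
      (w : F) * (z : F) ^ p * algebraMap (𝓞 F) F b := by
    rw [← hxu, ← hwd, Units.val_mul, mul_assoc, hdab, mul_assoc]
  have hspa : (Ideal.span {a} : Ideal (𝓞 F)) ≠ ⊥ := by
    rwa [Ne, Ideal.span_singleton_eq_bot]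
  have hspb : (Ideal.span {b} : Ideal (𝓞 F)) ≠ ⊥ := by
    rwa [Ne, Ideal.span_singleton_eq_bot]
  have hspx : (Ideal.span {x} : Ideal (𝓞 F)) ≠ ⊥ := by
    rwa [Ne, Ideal.span_singleton_eq_bot]
  -- the exponents of `w` and `z`
  obtain ⟨t, ht⟩ : ∃ t : HeightOneSpectrum (𝓞 F) → ℤ, ∀ v, t v =
      FractionalIdeal.count F v (FractionalIdeal.spanSingleton (𝓞 F)⁰ (w : F)) := ⟨_, fun _ => rfl⟩
  obtain ⟨e, he⟩ : ∃ e : HeightOneSpectrum (𝓞 F) → ℤ, ∀ v, e v =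
      FractionalIdeal.count F v (FractionalIdeal.spanSingleton (𝓞 F)⁰ (z : F)) := ⟨_, fun _ => rfl⟩
  -- the fundamental relation between the counts
  have hE : ∀ v : HeightOneSpectrum (𝓞 F),
      FractionalIdeal.count F v (𝔞 : FractionalIdeal (𝓞 F)⁰ F) +
        FractionalIdeal.count F v (𝔰 : FractionalIdeal (𝓞 F)⁰ F) +
        FractionalIdeal.count F v ((Ideal.span {a} : Ideal (𝓞 F)) : FractionalIdeal (𝓞 F)⁰ F) =
      t v + p * e v +
        FractionalIdeal.count F v ((Ideal.span {b} : Ideal (𝓞 F)) : FractionalIdeal (𝓞 F)⁰ F) := by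
    intro v
    have h1 : ((Ideal.span {x} * Ideal.span {a} : Ideal (𝓞 F)) : FractionalIdeal (𝓞 F)⁰ F) =
        FractionalIdeal.spanSingleton (𝓞 F)⁰ (w : F) *
          FractionalIdeal.spanSingleton (𝓞 F)⁰ (z : F) ^ p *
          ((Ideal.span {b} : Ideal (𝓞 F)) : FractionalIdeal (𝓞 F)⁰ F) := by
      rw [FractionalIdeal.coeIdeal_mul, FractionalIdeal.coeIdeal_span_singleton,
        FractionalIdeal.coeIdeal_span_singleton, FractionalIdeal.coeIdeal_span_singleton,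
        FractionalIdeal.spanSingleton_mul_spanSingleton, FractionalIdeal.spanSingleton_pow,
        FractionalIdeal.spanSingleton_mul_spanSingleton,
        FractionalIdeal.spanSingleton_mul_spanSingleton, hkey]
    have hw0 : FractionalIdeal.spanSingleton (𝓞 F)⁰ (w : F) ≠ 0 :=
      FractionalIdeal.spanSingleton_ne_zero_iff.mpr w.ne_zero
    have hz0 : FractionalIdeal.spanSingleton (𝓞 F)⁰ (z : F) ≠ 0 :=
      FractionalIdeal.spanSingleton_ne_zero_iff.mpr z.ne_zero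
    have h2 := congrArg (FractionalIdeal.count F v) h1
    rw [h2i_count_mul_C F _ _ hspx hspa v, hx𝔞, h2i_count_mul_C F _ _ h𝔞 h𝔰0 v,
      FractionalIdeal.count_mul F v (mul_ne_zero hw0 (pow_ne_zero p hz0))
        (FractionalIdeal.coeIdeal_ne_zero.mpr hspb),
      FractionalIdeal.count_mul F v hw0 (pow_ne_zero p hz0), FractionalIdeal.count_pow,
      ← ht v, ← he v] at h2
    exact h2
  have htz : ∀ v : HeightOneSpectrum (𝓞 F), v ∉ S₀ → v ∉ T → t v = 0 := by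
    intro v h1 h2
    rw [ht v]
    apply h2i_count_spanSingleton_C F v
    apply hw v
    simp [h1, h2]
  -- the finite support of `z` outside `S₀`
  have hfin : {v : HeightOneSpectrum (𝓞 F) | ¬ e v = 0}.Finite := by
    have h1 := FractionalIdeal.finite_factors (FractionalIdeal.spanSingleton (𝓞 F)⁰ (z : F))
    rw [Filter.eventually_cofinite] at h1
    refine h1.subset ?_
    intro v hv
    have hv' : ¬ e v = 0 := hv
    rw [he v] at hv'
    exact hv'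
  obtain ⟨Z, hZ⟩ : ∃ Z : Finset (HeightOneSpectrum (𝓞 F)), ∀ v, v ∈ Z ↔ e v ≠ 0 ∧ v ∉ S₀ := by
    refine ⟨hfin.toFinset.filter (fun v => v ∉ S₀), fun v => ?_⟩
    simp
  -- the ideals
  obtain ⟨tp, htp⟩ : ∃ I : Ideal (𝓞 F), I = ∏ v ∈ T, v.asIdeal ^ (t v).toNat := ⟨_, rfl⟩
  obtain ⟨tm, htm⟩ : ∃ I : Ideal (𝓞 F), I = ∏ v ∈ T, v.asIdeal ^ (-t v).toNat := ⟨_, rfl⟩
  obtain ⟨zp, hzp⟩ : ∃ I : Ideal (𝓞 F), I = ∏ v ∈ Z, v.asIdeal ^ (e v).toNat := ⟨_, rfl⟩
  obtain ⟨zm, hzm⟩ : ∃ I : Ideal (𝓞 F), I = ∏ v ∈ Z, v.asIdeal ^ (-e v).toNat := ⟨_, rfl⟩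
  have htp0 : tp ≠ ⊥ := htp ▸ h2i_prod_pow_ne_bot_C _ _
  have htm0 : tm ≠ ⊥ := htm ▸ h2i_prod_pow_ne_bot_C _ _
  have hzp0 : zp ≠ ⊥ := hzp ▸ h2i_prod_pow_ne_bot_C _ _
  have hzm0 : zm ≠ ⊥ := hzm ▸ h2i_prod_pow_ne_bot_C _ _
  -- their counts
  have ctpS : ∀ v ∈ S₀, FractionalIdeal.count F v (tp : FractionalIdeal (𝓞 F)⁰ F) = 0 := by
    intro v hv
    rw [htp]
    exact h2i_count_prod_pow_of_notMem_C F T _ v (fun h => hTS v h hv)
  have ctmS : ∀ v ∈ S₀, FractionalIdeal.count F v (tm : FractionalIdeal (𝓞 F)⁰ F) = 0 := by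
    intro v hv
    rw [htm]
    exact h2i_count_prod_pow_of_notMem_C F T _ v (fun h => hTS v h hv)
  have czpS : ∀ v ∈ S₀, FractionalIdeal.count F v (zp : FractionalIdeal (𝓞 F)⁰ F) = 0 := by
    intro v hv
    rw [hzp]
    exact h2i_count_prod_pow_of_notMem_C F Z _ v (fun h => ((hZ v).mp h).2 hv)
  have czmS : ∀ v ∈ S₀, FractionalIdeal.count F v (zm : FractionalIdeal (𝓞 F)⁰ F) = 0 := by
    intro v hv
    rw [hzm]
    exact h2i_count_prod_pow_of_notMem_C F Z _ v (fun h => ((hZ v).mp h).2 hv)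
  have ctp : ∀ v, v ∉ S₀ →
      FractionalIdeal.count F v (tp : FractionalIdeal (𝓞 F)⁰ F) = ((t v).toNat : ℤ) := by
    intro v hv
    rw [htp]
    by_cases hvT : v ∈ T
    · exact h2i_count_prod_pow_of_mem_C F T _ v hvT
    · rw [h2i_count_prod_pow_of_notMem_C F T _ v hvT, htz v hv hvT]
      rfl
  have ctm : ∀ v, v ∉ S₀ →
      FractionalIdeal.count F v (tm : FractionalIdeal (𝓞 F)⁰ F) = ((-t v).toNat : ℤ) := by
    intro v hv
    rw [htm]
    by_cases hvT : v ∈ T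
    · exact h2i_count_prod_pow_of_mem_C F T _ v hvT
    · rw [h2i_count_prod_pow_of_notMem_C F T _ v hvT, htz v hv hvT]
      rfl
  have czp : ∀ v, v ∉ S₀ →
      FractionalIdeal.count F v (zp : FractionalIdeal (𝓞 F)⁰ F) = ((e v).toNat : ℤ) := by
    intro v hv
    rw [hzp]
    by_cases hvZ : v ∈ Z
    · exact h2i_count_prod_pow_of_mem_C F Z _ v hvZ
    · have he0 : e v = 0 := by
        by_contra h
        exact hvZ ((hZ v).mpr ⟨h, hv⟩)
      rw [h2i_count_prod_pow_of_notMem_C F Z _ v hvZ, he0]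
      rfl
  have czm : ∀ v, v ∉ S₀ →
      FractionalIdeal.count F v (zm : FractionalIdeal (𝓞 F)⁰ F) = ((-e v).toNat : ℤ) := by
    intro v hv
    rw [hzm]
    by_cases hvZ : v ∈ Z
    · exact h2i_count_prod_pow_of_mem_C F Z _ v hvZ
    · have he0 : e v = 0 := by
        by_contra h
        exact hvZ ((hZ v).mpr ⟨h, hv⟩)
      rw [h2i_count_prod_pow_of_notMem_C F Z _ v hvZ, he0]
      rfl
  -- the primes of `M` above the primes of `T`
  obtain ⟨Q, hQ⟩ : ∃ Q : HeightOneSpectrum (𝓞 F) → Ideal (𝓞 M),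
      ∀ v ∈ T, Ideal.relNorm (𝓞 F) (Q v) = v.asIdeal := by
    refine ⟨fun v => if h : v ∈ T then (hsplit v h).choose else ⊤, fun v hv => ?_⟩
    simp only [dif_pos hv]
    exact (hsplit v hv).choose_spec.2
  have hNp : Ideal.relNorm (𝓞 F) (∏ v ∈ T, Q v ^ (t v).toNat) = tp := by
    rw [htp, map_prod]
    exact Finset.prod_congr rfl (fun v hv => by rw [map_pow, hQ v hv])
  have hNm : Ideal.relNorm (𝓞 F) (∏ v ∈ T, Q v ^ (-t v).toNat) = tm := by
    rw [htm, map_prod]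
    exact Finset.prod_congr rfl (fun v hv => by rw [map_pow, hQ v hv])
  have hmap : ∀ I : Ideal (𝓞 F),
      Ideal.relNorm (𝓞 F) (I.map (algebraMap (𝓞 F) (𝓞 M))) = I ^ p := by
    intro I
    rw [Ideal.relNorm_algebraMap, ← IsFractionRing.finrank_eq (𝓞 F) F (𝓞 M) M, hdeg]
  obtain ⟨𝔄, h𝔄⟩ : ∃ J : Ideal (𝓞 M), J =
      (∏ v ∈ T, Q v ^ (-t v).toNat) * zm.map (algebraMap (𝓞 F) (𝓞 M)) := ⟨_, rfl⟩
  obtain ⟨𝔅, h𝔅⟩ : ∃ J : Ideal (𝓞 M), J =
      (∏ v ∈ T, Q v ^ (t v).toNat) * zp.map (algebraMap (𝓞 F) (𝓞 M)) := ⟨_, rfl⟩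
  have hN𝔄 : Ideal.relNorm (𝓞 F) 𝔄 = tm * zm ^ p := by
    rw [h𝔄, map_mul, hNm, hmap]
  have hN𝔅 : Ideal.relNorm (𝓞 F) 𝔅 = tp * zp ^ p := by
    rw [h𝔅, map_mul, hNp, hmap]
  have hm0 : tm * zm ^ p ≠ ⊥ := mul_ne_zero htm0 (pow_ne_zero p hzm0)
  have hp0 : tp * zp ^ p ≠ ⊥ := mul_ne_zero htp0 (pow_ne_zero p hzp0)
  have ha𝔣 : ∀ v ∈ S₀, ¬ (Ideal.span {a} : Ideal (𝓞 F)) ≤ v.asIdeal :=
    fun v hv h => haS v hv ((Ideal.span_singleton_le_iff_mem _).mp h)
  have hb𝔣 : ∀ v ∈ S₀, ¬ (Ideal.span {b} : Ideal (𝓞 F)) ≤ v.asIdeal :=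
    fun v hv h => hbS v hv ((Ideal.span_singleton_le_iff_mem _).mp h)
  have h𝔞𝔣 : ∀ v ∈ S₀, ¬ 𝔞 ≤ v.asIdeal := h2i_not_le_of_isCoprime_C 𝔞 S₀ N hN hcop
  refine ⟨a, b, 𝔄, 𝔅, ha0, hb0, hab, h2i_isCoprime_prod_pow_C _ S₀ N ha𝔣,
    h2i_isCoprime_prod_pow_C _ S₀ N hb𝔣, ?_, ?_, ?_, ?_, ?_⟩
  · intro h
    rw [h, Ideal.relNorm_bot] at hN𝔄
    exact hm0 hN𝔄.symm
  · intro h
    rw [h, Ideal.relNorm_bot] at hN𝔅
    exact hp0 hN𝔅.symm
  · rw [hN𝔄]
    apply h2i_isCoprime_prod_pow_C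
    intro v hv
    rw [← h2i_count_eq_zero_iff_C F _ hm0 v, h2i_count_mul_C F _ _ htm0 (pow_ne_zero p hzm0) v,
      h2i_count_pow_C, ctmS v hv, czmS v hv]
    simp
  · rw [hN𝔅]
    apply h2i_isCoprime_prod_pow_C
    intro v hv
    rw [← h2i_count_eq_zero_iff_C F _ hp0 v, h2i_count_mul_C F _ _ htp0 (pow_ne_zero p hzp0) v,
      h2i_count_pow_C, ctpS v hv, czpS v hv]
    simp
  · rw [hN𝔄, hN𝔅, Ideal.mul_top]
    apply h2i_ideal_ext_C F _ _ (mul_ne_zero (mul_ne_zero hspa h𝔞) hm0) (mul_ne_zero hspb hp0)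
    intro v
    rw [h2i_count_mul_C F _ _ (mul_ne_zero hspa h𝔞) hm0 v, h2i_count_mul_C F _ _ hspa h𝔞 v,
      h2i_count_mul_C F _ _ htm0 (pow_ne_zero p hzm0) v, h2i_count_pow_C,
      h2i_count_mul_C F _ _ hspb hp0 v, h2i_count_mul_C F _ _ htp0 (pow_ne_zero p hzp0) v,
      h2i_count_pow_C]
    by_cases hv : v ∈ S₀
    · rw [ctmS v hv, czmS v hv, ctpS v hv, czpS v hv,
        (h2i_count_eq_zero_iff_C F _ hspa v).mpr (ha𝔣 v hv),
        (h2i_count_eq_zero_iff_C F _ hspb v).mpr (hb𝔣 v hv),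
        (h2i_count_eq_zero_iff_C F _ h𝔞 v).mpr (h𝔞𝔣 v hv)]
      ring
    · have hs0 : FractionalIdeal.count F v (𝔰 : FractionalIdeal (𝓞 F)⁰ F) = 0 :=
        (h2i_count_eq_zero_iff_C F _ h𝔰0 v).mpr (fun h => hv (h𝔰 v h))
      have hEv := hE v
      rw [hs0] at hEv
      rw [ctm v hv, czm v hv, ctp v hv, czp v hv]
      have h1 : ((t v).toNat : ℤ) - ((-t v).toNat : ℤ) = t v := Int.toNat_sub_toNat_neg _
      have h2 : ((e v).toNat : ℤ) - ((-e v).toNat : ℤ) = e v := Int.toNat_sub_toNat_neg _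
      linear_combination hEv - h1 - (p : ℤ) * h2

end Fermat.Agent.S14
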