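import Mathlib
import Fermat.Agent.S14.Defs
import Fermat.Agent.S14.H2Defs

/-!
# P18 (S14), block H2, slice [A3] (core): an integral Kummer generator which is an `S₀`-unit

Let `M / F` be a Galois extension of number fields of prime degree `p`, with `ζ ∈ F` a primitive
`p`-th root of unity.  Then `M = F(α₁)` with `α₁ ^ p ∈ F` (Kummer theory), and after scaling,
`α₂ ∈ 𝓞 M`, `α₂ ^ p = a₂ ∈ 𝓞 F`.  If the ideal `(a₂)` is a `p`-th power `𝔟 ^ p` (hypothesis `hpow`,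
which holds when `M / F` is unramified everywhere: slice [A3u]) and `S₀` generates the class group
(`h2CG`), then `𝔟 𝔰 = (β)` with `𝔰` supported on `S₀`, and `α := β / α₂`, `a := β ^ p / a₂` is a
Kummer generator with `(a) = 𝔰 ^ p` supported on `S₀`.
-/

set_option autoImplicit false

namespace Fermat.Agent.S14

open NumberField IsDedekindDomain

/-- Step (1): a Kummer generator of a cyclic extension of prime degree `p` of a field containing
a primitive `p`-th root of unity. -/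
theorem h2k_exists_root (p : ℕ) [Fact p.Prime] (F M : Type*) [Field F] [Field M] [Algebra F M]
    [FiniteDimensional F M] [IsGalois F M] (hdeg : Module.finrank F M = p) (ζ : F)
    (hζ : IsPrimitiveRoot ζ p) :
    ∃ (α₁ : M) (a₁ : F), α₁ ^ p = algebraMap F M a₁ ∧ ∀ y : F, algebraMap F M y ≠ α₁ := by
  have hcard : Nat.card (M ≃ₐ[F] M) = p := by rw [IsGalois.card_aut_eq_finrank, hdeg]
  have : IsCyclic (M ≃ₐ[F] M) := isCyclic_of_prime_card hcard
  have hK : (primitiveRoots (Module.finrank F M) F).Nonempty := by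
    rw [hdeg]
    exact ⟨ζ, (mem_primitiveRoots (Fact.out : p.Prime).pos).mpr hζ⟩
  obtain ⟨α₁, ⟨a₁, ha₁⟩, htop⟩ := exists_root_adjoin_eq_top_of_isCyclic F M hK
  rw [hdeg] at ha₁
  refine ⟨α₁, a₁, ha₁.symm, ?_⟩
  intro y hy
  have hbot : IntermediateField.adjoin F {α₁} = ⊥ := by
    rw [IntermediateField.adjoin_simple_eq_bot_iff, IntermediateField.mem_bot]
    exact ⟨y, hy⟩
  rw [htop] at hbot
  have h1 : Module.finrank F M = 1 :=
    IntermediateField.bot_eq_top_iff_finrank_eq_one.mp hbot.symm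
  rw [hdeg] at h1
  exact (Fact.out : p.Prime).one_lt.ne' h1

/-- An integral element of a field, as an element of the ring of integers. -/
theorem h2k_exists_mk {K : Type*} [Field K] (x : K) (hx : IsIntegral ℤ x) :
    ∃ y : 𝓞 K, algebraMap (𝓞 K) K y = x :=
  ⟨⟨x, hx⟩, rfl⟩

/-- Step (2): an integral Kummer generator. -/
theorem h2k_exists_integral_root (p : ℕ) [Fact p.Prime]
    (F M : Type*) [Field F] [NumberField F] [Field M] [NumberField M] [Algebra F M] [IsGalois F M]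
    (hdeg : Module.finrank F M = p) (ζ : F) (hζ : IsPrimitiveRoot ζ p) :
    ∃ (a₂ : 𝓞 F) (α₂ : 𝓞 M), a₂ ≠ 0 ∧ α₂ ^ p = algebraMap (𝓞 F) (𝓞 M) a₂ ∧
      ∀ y : F, algebraMap F M y ≠ (α₂ : M) := by
  have hp : p.Prime := Fact.out
  obtain ⟨α₁, a₁, hα₁, hα₁F⟩ := h2k_exists_root p F M hdeg ζ hζ
  have hα₁0 : α₁ ≠ 0 := fun h => hα₁F 0 (by rw [map_zero, h])
  have halg : IsAlgebraic ℤ α₁ :=
    (IsFractionRing.isAlgebraic_iff ℤ ℚ M).mpr (Algebra.IsAlgebraic.isAlgebraic α₁)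
  obtain ⟨m, hm0, hm⟩ := halg.exists_integral_multiple
  have hmM : (m : M) ≠ 0 := Int.cast_ne_zero.mpr hm0
  have hsm : m • α₁ = (m : M) * α₁ := zsmul_eq_mul α₁ m
  -- the element `a₂ = m ^ p * a₁` of `F` is integral
  have hpow : (m • α₁) ^ p = algebraMap F M ((m : F) ^ p * a₁) := by
    rw [hsm, mul_pow, hα₁, map_mul, map_pow, map_intCast]
  have hint : IsIntegral ℤ ((m : F) ^ p * a₁) := by
    have h1 : IsIntegral ℤ (algebraMap F M ((m : F) ^ p * a₁)) := hpow ▸ hm.pow p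
    exact (isIntegral_algebraMap_iff (algebraMap F M).injective).mp h1
  obtain ⟨a₂, ha₂⟩ := h2k_exists_mk _ hint
  obtain ⟨α₂, hα₂⟩ := h2k_exists_mk _ hm
  refine ⟨a₂, α₂, ?_, ?_, ?_⟩
  · intro h0
    have h1 : (m : F) ^ p * a₁ = 0 := by rw [← ha₂, h0, map_zero]
    have h2 : (m • α₁) ^ p = 0 := by rw [hpow, h1, map_zero]
    have h3 : m • α₁ = 0 := pow_eq_zero_iff hp.ne_zero |>.mp h2
    rw [hsm] at h3
    rcases mul_eq_zero.mp h3 with h | h
    · exact hmM h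
    · exact hα₁0 h
  · apply RingOfIntegers.ext
    show (algebraMap (𝓞 M) M) (α₂ ^ p) = algebraMap F M (algebraMap (𝓞 F) F a₂)
    rw [map_pow, hα₂, ha₂]
    exact hpow
  · intro y hy
    have hy' : algebraMap F M y = (m : M) * α₁ := (hy.trans hα₂).trans hsm
    apply hα₁F (y / (m : F))
    rw [map_div₀, map_intCast, hy', mul_div_cancel_left₀ _ hmM]

/-- Steps (3)–(4), with the divisibility of the ideal `(a₂)` by `p` as a hypothesis `hpow`. -/
theorem h2k_exists_kummer_gen_core (p : ℕ) [Fact p.Prime]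
    (F M : Type*) [Field F] [NumberField F] [Field M] [NumberField M] [Algebra F M] [IsGalois F M]
    (hdeg : Module.finrank F M = p) (ζ : F) (hζ : IsPrimitiveRoot ζ p)
    (hpow : ∀ (a : 𝓞 F) (α : 𝓞 M), a ≠ 0 → α ^ p = algebraMap (𝓞 F) (𝓞 M) a →
      ∃ 𝔟 : Ideal (𝓞 F), 𝔟 ≠ ⊥ ∧ 𝔟 ^ p = Ideal.span {a})
    (S₀ : Finset (HeightOneSpectrum (𝓞 F))) (hCG : h2CG F S₀) :
    ∃ (a : 𝓞 F) (α : 𝓞 M), a ≠ 0 ∧
      (∀ v : HeightOneSpectrum (𝓞 F), a ∈ v.asIdeal → v ∈ S₀) ∧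
      α ^ p = algebraMap (𝓞 F) (𝓞 M) a ∧ ∀ y : F, algebraMap F M y ≠ (α : M) := by
  have hp : p.Prime := Fact.out
  obtain ⟨a₂, α₂, ha₂, hα₂, hα₂F⟩ := h2k_exists_integral_root p F M hdeg ζ hζ
  obtain ⟨𝔟, h𝔟0, h𝔟⟩ := hpow a₂ α₂ ha₂ hα₂
  obtain ⟨β, 𝔰, hβ0, h𝔰, hβ⟩ := hCG 𝔟 h𝔟0
  -- `(β ^ p) = (a₂) 𝔰 ^ p`, so `β ^ p = a * a₂` with `(a) = 𝔰 ^ p`
  have h1 : Ideal.span {β ^ p} = Ideal.span {a₂} * 𝔰 ^ p := by
    rw [← Ideal.span_singleton_pow, hβ, mul_pow, h𝔟]
  have h2 : β ^ p ∈ Ideal.span {a₂} := by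
    have hle : Ideal.span {β ^ p} ≤ Ideal.span {a₂} := by
      rw [h1]
      exact Ideal.le_of_dvd (Dvd.intro _ rfl)
    exact hle (Ideal.mem_span_singleton_self _)
  obtain ⟨a, ha⟩ := Ideal.mem_span_singleton'.mp h2
  have ha0 : a ≠ 0 := by
    rintro rfl
    rw [zero_mul] at ha
    exact pow_ne_zero p hβ0 ha.symm
  have h3 : Ideal.span {a} = 𝔰 ^ p := by
    have h4 : Ideal.span {a₂} * Ideal.span {a} = Ideal.span {a₂} * 𝔰 ^ p := by
      rw [Ideal.span_singleton_mul_span_singleton, mul_comm a₂ a, ha, h1]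
    have h5 : Ideal.span {a₂} ≠ (⊥ : Ideal (𝓞 F)) :=
      fun h => ha₂ (Ideal.span_singleton_eq_bot.mp h)
    exact mul_left_cancel₀ h5 h4
  -- the elements of `M`
  have hα₂M : (α₂ : M) ^ p = algebraMap F M (a₂ : F) := by
    have h := congrArg (algebraMap (𝓞 M) M) hα₂
    rw [map_pow] at h
    exact h
  have hα₂0 : (α₂ : M) ≠ 0 := fun h => hα₂F 0 (by rw [map_zero, h])
  have hβF : (β : F) ^ p = (a : F) * (a₂ : F) := by
    have h := congrArg (algebraMap (𝓞 F) F) ha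
    rw [map_mul, map_pow] at h
    exact h.symm
  have hβF0 : (β : F) ≠ 0 := RingOfIntegers.coe_ne_zero_iff.mpr hβ0
  have hquot : (algebraMap F M (β : F) / (α₂ : M)) ^ p = algebraMap F M (a : F) := by
    rw [div_pow, ← map_pow, hβF, map_mul, hα₂M]
    exact mul_div_cancel_right₀ _ (by rw [← hα₂M]; exact pow_ne_zero p hα₂0)
  have hint : IsIntegral ℤ (algebraMap F M (β : F) / (α₂ : M)) := by
    refine IsIntegral.of_pow hp.pos ?_
    rw [hquot]
    exact map_isIntegral_int (algebraMap F M) (RingOfIntegers.isIntegral_coe a)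
  obtain ⟨α, hα⟩ := h2k_exists_mk _ hint
  refine ⟨a, α, ha0, ?_, ?_, ?_⟩
  · intro v hv
    apply h𝔰 v
    have h6 : 𝔰 ^ p ≤ v.asIdeal := by
      rw [← h3, Ideal.span_singleton_le_iff_mem]
      exact hv
    exact Ideal.IsPrime.le_of_pow_le h6
  · apply RingOfIntegers.ext
    show (algebraMap (𝓞 M) M) (α ^ p) = algebraMap F M (algebraMap (𝓞 F) F a)
    rw [map_pow, hα]
    exact hquot
  · intro y hy
    have hy' : algebraMap F M y = algebraMap F M (β : F) / (α₂ : M) := hy.trans hα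
    have hy0 : y ≠ 0 := by
      rintro rfl
      rw [map_zero] at hy'
      rcases div_eq_zero_iff.mp hy'.symm with h | h
      · exact hβF0 ((map_eq_zero (algebraMap F M)).mp h)
      · exact hα₂0 h
    have hyM : algebraMap F M y ≠ 0 := (map_ne_zero (algebraMap F M)).mpr hy0
    apply hα₂F ((β : F) / y)
    rw [map_div₀]
    rw [eq_div_iff hα₂0] at hy'
    rw [div_eq_iff hyM, mul_comm]
    exact hy'.symm

end Fermat.Agent.S14
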