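import Mathlib
import Fermat.Agent.S14.Defs
import Fermat.Agent.S14.H2Defs

/-!
# P18 (S14), block H2, slice [A3] (second team): an integral Kummer generator which is an
`S₀`-unit — core

`M/F` is a Galois extension of number fields of prime degree `p`, and `F` contains a primitive
`p`-th root of unity.  Then `M = F(α₁)` with `α₁ ^ p ∈ F` (Kummer theory); after multiplication by
an integer we get `α₂ ∈ 𝓞 M` with `α₂ ^ p = a₂ ∈ 𝓞 F`, `α₂ ∉ F`
(`h2k_exists_integral_gen_B`).  If the ideal `(a₂)` is a `p`-th power `𝔟 ^ p` (this is where the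
extension being unramified enters; hypothesis `hpow` of the core, slice [A3u]) and `S₀` generates
the class group (`h2CG`), write `(β) = 𝔟 𝔰` with `𝔰` supported on `S₀`; then `a := β ^ p / a₂`
generates `𝔰 ^ p`, so it is an `S₀`-unit, and `α := β / α₂` is an integral generator with
`α ^ p = a` (`h2k_exists_kummer_gen_core_B`).
-/

set_option autoImplicit false

namespace Fermat.Agent.S14

open NumberField IsDedekindDomain

/-- The image in `M` of an element of `𝓞 F`, computed through `𝓞 M` or through `F`. -/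
theorem h2k_algebraMap_comm_B (F M : Type*) [Field F] [NumberField F] [Field M] [NumberField M]
    [Algebra F M] (a : 𝓞 F) :
    algebraMap (𝓞 M) M (algebraMap (𝓞 F) (𝓞 M) a) = algebraMap F M (algebraMap (𝓞 F) F a) := by
  rw [← IsScalarTower.algebraMap_apply (𝓞 F) (𝓞 M) M, ← IsScalarTower.algebraMap_apply (𝓞 F) F M]

/-- Kummer theory + clearing denominators: an integral Kummer generator. -/
theorem h2k_exists_integral_gen_B (p : ℕ) [Fact p.Prime]
    (F M : Type*) [Field F] [NumberField F] [Field M] [NumberField M] [Algebra F M] [IsGalois F M]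
    (hdeg : Module.finrank F M = p) (ζ : F) (hζ : IsPrimitiveRoot ζ p) :
    ∃ (a₂ : 𝓞 F) (α₂ : 𝓞 M), a₂ ≠ 0 ∧ α₂ ^ p = algebraMap (𝓞 F) (𝓞 M) a₂ ∧
      ∀ y : F, algebraMap F M y ≠ (α₂ : M) := by
  have hpp : p.Prime := Fact.out
  -- `Gal(M/F)` is cyclic of order `p`
  have hcard : Nat.card (M ≃ₐ[F] M) = p := by
    rw [IsGalois.card_aut_eq_finrank, hdeg]
  have hcyc : IsCyclic (M ≃ₐ[F] M) := isCyclic_of_prime_card hcard
  have hK : (primitiveRoots (Module.finrank F M) F).Nonempty := by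
    rw [hdeg]
    exact ⟨ζ, (mem_primitiveRoots hpp.pos).mpr hζ⟩
  obtain ⟨α₁, ⟨a₁, ha₁⟩, htop⟩ := exists_root_adjoin_eq_top_of_isCyclic F M hK
  rw [hdeg] at ha₁
  -- `α₁ ∉ F`
  have hα₁F : ∀ y : F, algebraMap F M y ≠ α₁ := by
    intro y hy
    have h1 : IntermediateField.adjoin F {α₁} = ⊥ := by
      rw [IntermediateField.adjoin_simple_eq_bot_iff, ← hy]
      exact IntermediateField.algebraMap_mem _ y
    rw [htop] at h1
    have h2 := IntermediateField.bot_eq_top_iff_finrank_eq_one.mp h1.symm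
    rw [hdeg] at h2
    exact hpp.one_lt.ne' h2
  -- an integral multiple of `α₁`
  have halgQ : Algebra.IsAlgebraic ℤ ℚ := IsLocalization.isAlgebraic ℚ (nonZeroDivisors ℤ)
  have halgM : Algebra.IsAlgebraic ℤ M := Algebra.IsAlgebraic.trans ℤ ℚ M
  obtain ⟨d, hd0, hd⟩ := (Algebra.IsAlgebraic.isAlgebraic (R := ℤ) α₁).exists_integral_multiple
  have hdM : (d : M) ≠ 0 := Int.cast_ne_zero.mpr hd0
  have hdF : (d : F) ≠ 0 := Int.cast_ne_zero.mpr hd0
  have hsmul : d • α₁ = (d : M) * α₁ := zsmul_eq_mul α₁ d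
  -- the radicand
  have hrad : algebraMap F M ((d : F) ^ p * a₁) = (d • α₁) ^ p := by
    rw [map_mul, map_pow, map_intCast, ha₁, hsmul, mul_pow]
  have hradint : IsIntegral ℤ ((d : F) ^ p * a₁) := by
    rw [← isIntegral_algebraMap_iff (FaithfulSMul.algebraMap_injective F M), hrad]
    exact hd.pow p
  refine ⟨⟨(d : F) ^ p * a₁, hradint⟩, ⟨d • α₁, hd⟩, ?_, ?_, ?_⟩
  · intro h0
    have h1 : (d : F) ^ p * a₁ = 0 := by
      have := congrArg (algebraMap (𝓞 F) F) h0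
      rwa [RingOfIntegers.map_mk, map_zero] at this
    have h2 : (d • α₁) ^ p = 0 := by rw [← hrad, h1, map_zero]
    have h3 : d • α₁ = 0 := pow_eq_zero_iff hpp.ne_zero |>.mp h2
    rw [hsmul] at h3
    have h4 : α₁ = 0 := (mul_eq_zero.mp h3).resolve_left hdM
    exact hα₁F 0 (by rw [map_zero, h4])
  · apply RingOfIntegers.ext
    show algebraMap (𝓞 M) M (_ ^ p) = algebraMap (𝓞 M) M (algebraMap (𝓞 F) (𝓞 M) _)
    rw [h2k_algebraMap_comm_B, map_pow, RingOfIntegers.map_mk, RingOfIntegers.map_mk, hrad]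
  · intro y hy
    have hy' : algebraMap F M y = (d : M) * α₁ := by
      rw [hy, ← hsmul]
      rfl
    apply hα₁F (y / (d : F))
    rw [map_div₀, map_intCast, hy', mul_div_cancel_left₀ _ hdM]

/-- [A3] core (second team): an integral Kummer generator which is an `S₀`-unit, assuming that
Kummer radicands generate `p`-th power ideals (slice [A3u], a consequence of `M/F` being
unramified). -/
theorem h2k_exists_kummer_gen_core_B (p : ℕ) [Fact p.Prime]
    (F M : Type*) [Field F] [NumberField F] [Field M] [NumberField M] [Algebra F M] [IsGalois F M]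
    (hdeg : Module.finrank F M = p) (ζ : F) (hζ : IsPrimitiveRoot ζ p)
    (hpow : ∀ (a : 𝓞 F) (α : 𝓞 M), a ≠ 0 → α ^ p = algebraMap (𝓞 F) (𝓞 M) a →
      ∃ 𝔟 : Ideal (𝓞 F), 𝔟 ≠ ⊥ ∧ 𝔟 ^ p = Ideal.span {a})
    (S₀ : Finset (HeightOneSpectrum (𝓞 F))) (hCG : h2CG F S₀) :
    ∃ (a : 𝓞 F) (α : 𝓞 M), a ≠ 0 ∧
      (∀ v : HeightOneSpectrum (𝓞 F), a ∈ v.asIdeal → v ∈ S₀) ∧
      α ^ p = algebraMap (𝓞 F) (𝓞 M) a ∧ ∀ y : F, algebraMap F M y ≠ (α : M) := by
  have hpp : p.Prime := Fact.out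
  obtain ⟨a₂, α₂, ha₂, hα₂, hα₂F⟩ := h2k_exists_integral_gen_B p F M hdeg ζ hζ
  obtain ⟨𝔟, h𝔟, h𝔟p⟩ := hpow a₂ α₂ ha₂ hα₂
  obtain ⟨β, 𝔰, hβ, h𝔰, hβ𝔰⟩ := hCG 𝔟 h𝔟
  -- `a₂ ∣ β ^ p`
  have h1 : Ideal.span {β ^ p} = Ideal.span {a₂} * 𝔰 ^ p := by
    rw [← Ideal.span_singleton_pow, hβ𝔰, mul_pow, h𝔟p]
  have h2 : β ^ p ∈ Ideal.span {a₂} := by
    have h : β ^ p ∈ Ideal.span {β ^ p} := Ideal.mem_span_singleton_self _
    rw [h1] at h
    exact Ideal.mul_le_right (I := 𝔰 ^ p) (by rwa [mul_comm] at h)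
  obtain ⟨a, ha⟩ := Ideal.mem_span_singleton'.mp h2
  have ha0 : a ≠ 0 := by
    rintro rfl
    rw [zero_mul] at ha
    exact pow_ne_zero p hβ ha.symm
  -- `(a) = 𝔰 ^ p`
  have h3 : Ideal.span {a} = 𝔰 ^ p := by
    have h4 : Ideal.span {a₂} * Ideal.span {a} = Ideal.span {a₂} * 𝔰 ^ p := by
      rw [Ideal.span_singleton_mul_span_singleton, mul_comm, ha, h1]
    have h5 : Ideal.span {a₂} ≠ 0 := by
      rw [Ideal.zero_eq_bot, Ne, Ideal.span_singleton_eq_bot]
      exact ha₂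
    exact mul_left_cancel₀ h5 h4
  -- the images in `M`
  have hα₂M : (α₂ : M) ^ p = algebraMap F M (algebraMap (𝓞 F) F a₂) := by
    rw [← h2k_algebraMap_comm_B, ← hα₂, map_pow]
  have hα₂0 : (α₂ : M) ≠ 0 := by
    intro h0
    exact hα₂F 0 (by rw [map_zero, h0])
  have ha₂M : algebraMap F M (algebraMap (𝓞 F) F a₂) ≠ 0 := by
    rw [← hα₂M]
    exact pow_ne_zero p hα₂0
  have hβM : algebraMap F M (algebraMap (𝓞 F) F β) ≠ 0 := by
    rw [Ne, map_eq_zero, map_eq_zero_iff _ (FaithfulSMul.algebraMap_injective (𝓞 F) F)]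
    exact hβ
  -- `α := β / α₂`
  have hquot : (algebraMap F M (algebraMap (𝓞 F) F β) / (α₂ : M)) ^ p
      = algebraMap F M (algebraMap (𝓞 F) F a) := by
    rw [div_pow, hα₂M, ← map_pow, ← map_pow, ← ha, map_mul, map_mul, mul_div_assoc,
      div_self ha₂M, mul_one]
  have hint : IsIntegral ℤ (algebraMap F M (algebraMap (𝓞 F) F β) / (α₂ : M)) := by
    apply IsIntegral.of_pow hpp.pos
    rw [hquot]
    exact ((RingOfIntegers.isIntegral_coe a).map (IsScalarTower.toAlgHom ℤ F M))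
  refine ⟨a, ⟨_, hint⟩, ha0, ?_, ?_, ?_⟩
  · intro v hv
    apply h𝔰 v
    have h6 : 𝔰 ^ p ≤ v.asIdeal := by
      rw [← h3, Ideal.span_singleton_le_iff_mem]
      exact hv
    exact (Ideal.IsPrime.pow_le_iff hpp.ne_zero).mp h6
  · apply RingOfIntegers.ext
    show algebraMap (𝓞 M) M (_ ^ p) = algebraMap (𝓞 M) M (algebraMap (𝓞 F) (𝓞 M) _)
    rw [h2k_algebraMap_comm_B, map_pow, RingOfIntegers.map_mk, hquot]
  · intro y hy
    have hy' : algebraMap F M y = algebraMap F M (algebraMap (𝓞 F) F β) / (α₂ : M) := hy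
    have hy0 : y ≠ 0 := by
      rintro rfl
      rw [map_zero] at hy'
      exact div_ne_zero hβM hα₂0 hy'.symm
    apply hα₂F (algebraMap (𝓞 F) F β / y)
    rw [map_div₀, hy', div_div_cancel₀ hβM]

end Fermat.Agent.S14
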