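import Mathlib
import Fermat.Agent.S14.Defs
import Fermat.Agent.S14.H2Defs
import Fermat.Agent.S14.H2KummerBCore
import Fermat.Agent.S14.H2UnramPow

/-!
# P18 (S14), block H2, slice [A3] (second team): an integral Kummer generator which is an
`S₀`-unit

Glue of the core `h2k_exists_kummer_gen_core_B` (`H2KummerBCore.lean`) with slice [A3u]
`h2_exists_ideal_pow_eq` (`H2UnramPow.lean`): in an everywhere unramified Galois extension `M/F`
of prime degree `p` with `μ_p ⊆ F`, and `S₀` generating the class group of `F`, there are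
`a ∈ 𝓞 F` supported on `S₀` and `α ∈ 𝓞 M`, `α ∉ F`, with `α ^ p = a`.
-/

set_option autoImplicit false

namespace Fermat.Agent.S14

open NumberField IsDedekindDomain

/-- [A3] Steps 0/2 (second team): an integral Kummer generator which is an `S₀`-unit. -/
theorem h2_exists_kummer_gen_B (p : ℕ) [Fact p.Prime] (hp : 3 ≤ p)
    (F M : Type*) [Field F] [NumberField F] [Field M] [NumberField M] [Algebra F M] [IsGalois F M]
    (hdeg : Module.finrank F M = p) (ζ : F) (hζ : IsPrimitiveRoot ζ p)
    (hunr : UnramifiedEverywhere F M)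
    (S₀ : Finset (HeightOneSpectrum (𝓞 F))) (hCG : h2CG F S₀) :
    ∃ (a : 𝓞 F) (α : 𝓞 M), a ≠ 0 ∧
      (∀ v : HeightOneSpectrum (𝓞 F), a ∈ v.asIdeal → v ∈ S₀) ∧
      α ^ p = algebraMap (𝓞 F) (𝓞 M) a ∧ ∀ y : F, algebraMap F M y ≠ (α : M) :=
  have _ := hp
  h2k_exists_kummer_gen_core_B p F M hdeg ζ hζ
    (fun a α ha hα => h2_exists_ideal_pow_eq p F M hunr a α ha hα) S₀ hCG

end Fermat.Agent.S14
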