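import Mathlib
import Fermat.Agent.S14.Defs
import Fermat.Agent.S14.H2Defs

/-!
# P18 (S14), block H2, slice [A4a] (second team): Kummer theory for `M = F(α)`, `α ^ p = a`

If `M / F` is Galois of degree `p`, `α ∈ M \ F` with `α ^ p = a ∈ F`, and `x ∈ Fˣ` is a `p`-th
power in `M`, then `x ∈ a ^ ℤ · (Fˣ) ^ p`.
-/

set_option autoImplicit false

namespace Fermat.Agent.S14

open NumberField IsDedekindDomain

/-- A `p`-th root of unity different from `1` is a primitive `p`-th root of unity. -/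
theorem h2krB_isPrimitiveRoot (p : ℕ) [Fact p.Prime] {M : Type*} [Field M] (ξ : M)
    (h1 : ξ ^ p = 1) (h2 : ξ ≠ 1) : IsPrimitiveRoot ξ p := by
  have h := IsPrimitiveRoot.orderOf ξ
  rwa [orderOf_eq_prime h1 h2] at h

/-- Field-level core: `M / F` Galois of degree `p`, `α ∉ F`, `α ^ p = a ∈ F`, `a ≠ 0`;
if `γ ^ p = x ∈ F`, `x ≠ 0`, then `x = a ^ k * c ^ p` with `c ∈ F`, `c ≠ 0`. -/
theorem h2krB_core (p : ℕ) [Fact p.Prime]
    (F M : Type*) [Field F] [Field M] [Algebra F M] [FiniteDimensional F M] [IsGalois F M]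
    (hdeg : Module.finrank F M = p)
    (a : F) (ha : a ≠ 0) (α : M) (hα : α ^ p = algebraMap F M a)
    (hαF : ∀ y : F, algebraMap F M y ≠ α)
    (x : F) (hx : x ≠ 0) (γ : M) (hγ : γ ^ p = algebraMap F M x) :
    ∃ (k : ℕ) (c : F), c ≠ 0 ∧ x = a ^ k * c ^ p := by
  have hp : p.Prime := Fact.out
  have hα0 : α ≠ 0 := by
    rintro rfl
    rw [zero_pow hp.ne_zero] at hα
    exact ha ((map_eq_zero (algebraMap F M)).mp hα.symm)
  have hγ0 : γ ≠ 0 := by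
    rintro rfl
    rw [zero_pow hp.ne_zero] at hγ
    exact hx ((map_eq_zero (algebraMap F M)).mp hγ.symm)
  -- an automorphism moving `α`
  obtain ⟨σ, hσ⟩ : ∃ σ : M ≃ₐ[F] M, σ α ≠ α := by
    by_contra hcon
    have hcon' : ∀ σ : M ≃ₐ[F] M, σ α = α := fun σ => by_contra fun h => hcon ⟨σ, h⟩
    obtain ⟨y, hy⟩ := (IsGalois.mem_range_algebraMap_iff_fixed (F := F) (E := M) α).mpr hcon'
    exact hαF y hy
  have hσ1 : σ ≠ 1 := by
    rintro rfl
    exact hσ rfl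
  have hcard : Nat.card (M ≃ₐ[F] M) = p := by
    rw [IsGalois.card_aut_eq_finrank, hdeg]
  have htop : Subgroup.zpowers σ = ⊤ := zpowers_eq_top_of_prime_card hcard hσ1
  -- the root of unity `ζ₁ = σ α / α`
  set ζ₁ : M := σ α / α with hζ₁
  have hζ₁p : ζ₁ ^ p = 1 := by
    rw [hζ₁, div_pow, ← map_pow, hα, AlgEquiv.commutes, div_self]
    rw [← hα]
    exact pow_ne_zero _ hα0
  have hζ₁ne : ζ₁ ≠ 1 := by
    intro h
    rw [hζ₁, div_eq_one_iff_eq hα0] at h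
    exact hσ h
  have hprim : IsPrimitiveRoot ζ₁ p := h2krB_isPrimitiveRoot p ζ₁ hζ₁p hζ₁ne
  -- the root of unity `η = σ γ / γ`
  have hηp : (σ γ / γ) ^ p = 1 := by
    rw [div_pow, ← map_pow, hγ, AlgEquiv.commutes, div_self]
    rw [← hγ]
    exact pow_ne_zero _ hγ0
  have : NeZero p := ⟨hp.ne_zero⟩
  obtain ⟨k, -, hk⟩ := hprim.eq_pow_of_pow_eq_one hηp
  -- `δ = γ / α ^ k` is fixed by `σ`, hence by the whole Galois group
  have hσα : σ α = ζ₁ * α := by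
    rw [hζ₁, div_mul_cancel₀ _ hα0]
  have hσγ : σ γ = ζ₁ ^ k * γ := by
    rw [hk, div_mul_cancel₀ _ hγ0]
  have hζ₁0 : ζ₁ ≠ 0 := by
    intro h
    rw [h, zero_pow hp.ne_zero] at hζ₁p
    exact zero_ne_one hζ₁p
  have hδ : σ (γ / α ^ k) = γ / α ^ k := by
    rw [map_div₀, map_pow, hσγ, hσα, mul_pow, mul_div_mul_left _ _ (pow_ne_zero k hζ₁0)]
  have hfix : ∀ τ : M ≃ₐ[F] M, τ (γ / α ^ k) = γ / α ^ k := by
    intro τ
    have hτ : τ ∈ MulAction.stabilizer (M ≃ₐ[F] M) (γ / α ^ k) := by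
      have hle : Subgroup.zpowers σ ≤ MulAction.stabilizer (M ≃ₐ[F] M) (γ / α ^ k) := by
        rw [Subgroup.zpowers_le]
        exact hδ
      exact hle (htop ▸ Subgroup.mem_top τ)
    exact hτ
  obtain ⟨c, hc⟩ := (IsGalois.mem_range_algebraMap_iff_fixed (F := F) (E := M) (γ / α ^ k)).mpr hfix
  have hc0 : c ≠ 0 := by
    rintro rfl
    rw [map_zero] at hc
    exact div_ne_zero hγ0 (pow_ne_zero k hα0) hc.symm
  refine ⟨k, c, hc0, ?_⟩
  apply (algebraMap F M).injective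
  have hγeq : γ = algebraMap F M c * α ^ k := by
    rw [hc, div_mul_cancel₀ _ (pow_ne_zero k hα0)]
  rw [← hγ, hγeq, mul_pow, ← pow_mul, mul_comm k p, pow_mul, hα, map_mul, map_pow, map_pow]
  ring

/-- [A4a] (second team) Kummer: an element of `Fˣ` outside `u^ℤ · (Fˣ)^p` is not a `p`-th power
in `M = F(α)`, `α ^ p = a = u`. -/
theorem h2_not_pow_of_not_mem_B (p : ℕ) [Fact p.Prime]
    (F M : Type*) [Field F] [NumberField F] [Field M] [NumberField M] [Algebra F M] [IsGalois F M]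
    (hdeg : Module.finrank F M = p) (ζ : F) (hζ : IsPrimitiveRoot ζ p)
    (a : 𝓞 F) (α : 𝓞 M) (hα : α ^ p = algebraMap (𝓞 F) (𝓞 M) a)
    (hαF : ∀ y : F, algebraMap F M y ≠ (α : M))
    (u : Fˣ) (hu : (u : F) = algebraMap (𝓞 F) F a)
    (x : Fˣ) (hx : x ∉ Subgroup.zpowers u ⊔ (powMonoidHom p : Fˣ →* Fˣ).range) :
    ∀ γ : M, γ ^ p ≠ algebraMap F M (x : F) := by
  intro γ hγ
  have _hζ := hζ
  have hα' : (α : M) ^ p = algebraMap F M (u : F) := by
    have h1 : ((α ^ p : 𝓞 M) : M) = ((algebraMap (𝓞 F) (𝓞 M) a : 𝓞 M) : M) := by rw [hα]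
    have h2 : ((algebraMap (𝓞 F) (𝓞 M) a : 𝓞 M) : M) = algebraMap F M (algebraMap (𝓞 F) F a) :=
      rfl
    have h3 : ((α ^ p : 𝓞 M) : M) = (α : M) ^ p := map_pow (algebraMap (𝓞 M) M) α p
    rw [hu, ← h3, h1, h2]
  obtain ⟨k, c, hc0, hxc⟩ := h2krB_core p F M hdeg (u : F) u.ne_zero (α : M) hα' hαF
    (x : F) x.ne_zero γ hγ
  apply hx
  have hxeq : x = u ^ (k : ℤ) * (powMonoidHom p : Fˣ →* Fˣ) (Units.mk0 c hc0) := by
    apply Units.ext
    rw [zpow_natCast]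
    simpa using hxc
  rw [hxeq]
  exact Subgroup.mul_mem_sup (Subgroup.zpow_mem_zpowers u k) ⟨Units.mk0 c hc0, rfl⟩

end Fermat.Agent.S14
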