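import Mathlib
import Fermat.Agent.S14.Defs
import Fermat.Agent.S14.H2Defs

/-!
# P18 (S14), block H2, slice [A2]: the set `S₀` and the exponent `N`

* `h2m_moving`        : moving lemma in a Dedekind domain — every nonzero ideal `𝔟` contains a
                        nonzero `x` with `span {x} = 𝔟 * 𝔯` and `𝔯` coprime to a given ideal `𝔠`;
* `h2m_exists_rep`    : every ideal class contains a nonzero integral ideal coprime to `𝔠`;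
* `h2_exists_modulus` : the finite set `S₀` of primes (containing the primes over `p`, prime to
                        `𝔠`, generating the class group) and the exponent `N`.
-/

set_option autoImplicit false

namespace Fermat.Agent.S14

open NumberField IsDedekindDomain
open scoped nonZeroDivisors

/-- Moving lemma: every nonzero ideal `𝔟` of a Dedekind domain contains a nonzero element `x`
with `span {x} = 𝔟 * 𝔯`, where `𝔯` is coprime to the given nonzero ideal `𝔠`. -/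
theorem h2m_moving {R : Type*} [CommRing R] [IsDedekindDomain R] (𝔟 𝔠 : Ideal R) (h𝔟 : 𝔟 ≠ ⊥)
    (h𝔠 : 𝔠 ≠ ⊥) :
    ∃ (x : R) (𝔯 : Ideal R), x ≠ 0 ∧ Ideal.span {x} = 𝔟 * 𝔯 ∧ IsCoprime 𝔯 𝔠 := by
  by_cases htop : 𝔠 = ⊤
  · obtain ⟨x, hx𝔟, hx0⟩ := Submodule.exists_mem_ne_zero_of_ne_bot h𝔟
    obtain ⟨𝔯, h𝔯⟩ := Ideal.dvd_iff_le.2 ((Ideal.span_singleton_le_iff_mem 𝔟).2 hx𝔟)
    refine ⟨x, 𝔯, hx0, h𝔯, ?_⟩
    rw [Ideal.isCoprime_iff_sup_eq, htop, sup_top_eq]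
  · have hle : 𝔟 * 𝔠 ≤ 𝔟 := Ideal.mul_le_left
    have hne : 𝔟 * 𝔠 ≠ 0 := mul_ne_zero h𝔟 h𝔠
    obtain ⟨x, hx⟩ := IsDedekindDomain.exists_sup_span_eq hle hne
    have hx𝔟 : x ∈ 𝔟 := by
      rw [← hx]
      exact Ideal.mem_sup_right (Ideal.mem_span_singleton_self x)
    obtain ⟨𝔯, h𝔯⟩ := Ideal.dvd_iff_le.2 ((Ideal.span_singleton_le_iff_mem 𝔟).2 hx𝔟)
    have hsup : 𝔟 * (𝔠 ⊔ 𝔯) = 𝔟 * ⊤ := by
      rw [Ideal.mul_sup, ← h𝔯, hx, Ideal.mul_top]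
    have h2 : 𝔠 ⊔ 𝔯 = ⊤ := mul_left_cancel₀ h𝔟 hsup
    refine ⟨x, 𝔯, ?_, h𝔯, ?_⟩
    · rintro rfl
      have h3 : 𝔟 * 𝔠 = 𝔟 * ⊤ := by
        rw [Ideal.mul_top]
        rw [Ideal.span_singleton_eq_bot.2 rfl, sup_bot_eq] at hx
        exact hx
      exact htop (mul_left_cancel₀ h𝔟 h3)
    · rw [Ideal.isCoprime_iff_sup_eq, sup_comm]
      exact h2

/-- Every ideal class of a Dedekind domain contains a nonzero integral ideal coprime to a given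
nonzero ideal `𝔠`. -/
theorem h2m_exists_rep {R : Type*} [CommRing R] [IsDedekindDomain R] (𝔠 : Ideal R) (h𝔠 : 𝔠 ≠ ⊥)
    (c : ClassGroup R) :
    ∃ 𝔯 : (Ideal R)⁰, ClassGroup.mk0 𝔯 = c ∧ IsCoprime (𝔯 : Ideal R) 𝔠 := by
  obtain ⟨𝔟, h𝔟⟩ := ClassGroup.mk0_surjective c⁻¹
  obtain ⟨x, 𝔯, hx0, hx, hcop⟩ :=
    h2m_moving (𝔟 : Ideal R) 𝔠 (nonZeroDivisors.coe_ne_zero 𝔟) h𝔠
  have h𝔯0 : 𝔯 ≠ ⊥ := by
    rintro rfl
    rw [Ideal.mul_bot, Ideal.span_singleton_eq_bot] at hx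
    exact hx0 hx
  have h𝔯' : 𝔯 ∈ (Ideal R)⁰ := mem_nonZeroDivisors_of_ne_zero h𝔯0
  refine ⟨⟨𝔯, h𝔯'⟩, ?_, ?_⟩
  · have hmem : (𝔟 : Ideal R) * 𝔯 ∈ (Ideal R)⁰ := mul_mem 𝔟.2 h𝔯'
    have h2 : ClassGroup.mk0 ⟨(𝔟 : Ideal R) * 𝔯, hmem⟩ = 1 := by
      rw [ClassGroup.mk0_eq_one_iff]
      exact ⟨⟨x, hx.symm⟩⟩
    have h3 : (𝔟 * ⟨𝔯, h𝔯'⟩ : (Ideal R)⁰) = ⟨(𝔟 : Ideal R) * 𝔯, hmem⟩ :=
      Subtype.ext (Submonoid.coe_mul _ 𝔟 ⟨𝔯, h𝔯'⟩)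
    have h1 : ClassGroup.mk0 𝔟 * ClassGroup.mk0 ⟨𝔯, h𝔯'⟩ = 1 := by
      rw [← map_mul, h3]
      exact h2
    rw [h𝔟] at h1
    exact (inv_mul_eq_one.1 h1).symm
  · exact hcop

/-- [A2] Step 1: the set `S₀` and the exponent `N`. -/
theorem h2_exists_modulus (p : ℕ) [Fact p.Prime] (F : Type*) [Field F] [NumberField F]
    (𝔣₀ 𝔠 : Ideal (𝓞 F)) (h𝔣₀ : 𝔣₀ ≠ ⊥) (h𝔠 : 𝔠 ≠ ⊥)
    (hcop : IsCoprime 𝔠 (𝔣₀ * Ideal.span {(p : 𝓞 F)})) :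
    ∃ (S₀ : Finset (HeightOneSpectrum (𝓞 F))) (N : ℕ),
      (∀ v : HeightOneSpectrum (𝓞 F), (p : 𝓞 F) ∈ v.asIdeal → v ∈ S₀) ∧
      (∀ v ∈ S₀, ¬ 𝔠 ≤ v.asIdeal) ∧
      (∏ v ∈ S₀, v.asIdeal) ^ N ≤ 𝔣₀ ∧
      1 ≤ N ∧ (∀ v ∈ S₀, ∀ e : ℕ, (p : 𝓞 F) ∈ v.asIdeal ^ e → 3 * e + 1 ≤ N) ∧
      h2CG F S₀ := by
  classical
  -- representatives of the ideal classes, coprime to `𝔠`
  choose r hr1 hr2 using h2m_exists_rep 𝔠 h𝔠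
  have hp0 : (p : 𝓞 F) ≠ 0 := Nat.cast_ne_zero.2 (Fact.out : p.Prime).ne_zero
  have hspan : Ideal.span {(p : 𝓞 F)} ≠ ⊥ := by
    rw [Ne, Ideal.span_singleton_eq_bot]
    exact hp0
  have hprod0 : ∏ c : ClassGroup (𝓞 F), (r c : Ideal (𝓞 F)) ≠ 0 :=
    Finset.prod_ne_zero_iff.2 (fun c _ => nonZeroDivisors.coe_ne_zero (r c))
  have h𝔪0 : 𝔣₀ * Ideal.span {(p : 𝓞 F)} * ∏ c : ClassGroup (𝓞 F), (r c : Ideal (𝓞 F)) ≠ 0 :=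
    mul_ne_zero (mul_ne_zero h𝔣₀ hspan) hprod0
  have h𝔪cop : IsCoprime 𝔠
      (𝔣₀ * Ideal.span {(p : 𝓞 F)} * ∏ c : ClassGroup (𝓞 F), (r c : Ideal (𝓞 F))) :=
    hcop.mul_right (IsCoprime.prod_right (fun c _ => (hr2 c).symm))
  have hmem : ∀ v : HeightOneSpectrum (𝓞 F), v ∈ (Ideal.finite_factors h𝔪0).toFinset ↔
      𝔣₀ * Ideal.span {(p : 𝓞 F)} * ∏ c : ClassGroup (𝓞 F), (r c : Ideal (𝓞 F)) ≤ v.asIdeal := by
    intro v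
    rw [Set.Finite.mem_toFinset, Set.mem_ofPred_eq, Ideal.dvd_iff_le]
  -- the exponent
  have hrad : ∏ v ∈ (Ideal.finite_factors h𝔪0).toFinset, v.asIdeal ≤ 𝔣₀.radical := by
    rw [Ideal.radical_eq_sInf]
    refine le_sInf ?_
    rintro P ⟨hP1, hP2⟩
    have hPbot : P ≠ ⊥ := by
      rintro rfl
      exact h𝔣₀ (le_bot_iff.1 hP1)
    have hv : (⟨P, hP2, hPbot⟩ : HeightOneSpectrum (𝓞 F)) ∈
        (Ideal.finite_factors h𝔪0).toFinset :=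
      (hmem _).2 ((Ideal.mul_le_left.trans Ideal.mul_le_left).trans hP1)
    have hdvd := Finset.dvd_prod_of_mem (fun v : HeightOneSpectrum (𝓞 F) => v.asIdeal) hv
    exact Ideal.le_of_dvd hdvd
  obtain ⟨k, hk⟩ := Ideal.exists_radical_pow_le_of_fg 𝔣₀ (IsNoetherian.noetherian _)
  have hE0 : Ideal.absNorm (Ideal.span {(p : 𝓞 F)}) ≠ 0 := by
    rw [Ne, Ideal.absNorm_eq_zero_iff]
    exact hspan
  refine ⟨(Ideal.finite_factors h𝔪0).toFinset,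
    max k (3 * Ideal.absNorm (Ideal.span {(p : 𝓞 F)}) + 1), ?_, ?_, ?_, ?_, ?_, ?_⟩
  · -- primes over `p`
    intro v hv
    refine (hmem v).2 ?_
    exact (Ideal.mul_le_left.trans Ideal.mul_le_right).trans
      ((Ideal.span_singleton_le_iff_mem _).2 hv)
  · -- prime to `𝔠`
    intro v hv h𝔠v
    have h1 := (hmem v).1 hv
    have h2 : (⊤ : Ideal (𝓞 F)) ≤ v.asIdeal := by
      rw [← Ideal.isCoprime_iff_sup_eq.1 h𝔪cop]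
      exact sup_le h𝔠v h1
    exact v.isPrime.ne_top (top_le_iff.1 h2)
  · -- the power lies in `𝔣₀`
    exact ((Ideal.pow_le_pow_right (le_max_left _ _)).trans (Ideal.pow_right_mono hrad k)).trans hk
  · exact le_trans (by omega) (le_max_right _ _)
  · -- the bound on the ramification
    intro v _ e he
    have h1 : Ideal.span {(p : 𝓞 F)} ≤ v.asIdeal ^ e := (Ideal.span_singleton_le_iff_mem _).2 he
    have h2 := Ideal.absNorm_dvd_absNorm_of_le h1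
    rw [map_pow] at h2
    have h3 : Ideal.absNorm v.asIdeal ^ e ≤ Ideal.absNorm (Ideal.span {(p : 𝓞 F)}) :=
      Nat.le_of_dvd (Nat.pos_of_ne_zero hE0) h2
    have h4 : 2 ≤ Ideal.absNorm v.asIdeal := by
      have h0 : Ideal.absNorm v.asIdeal ≠ 0 := by
        rw [Ne, Ideal.absNorm_eq_zero_iff]
        exact v.ne_bot
      have h1' : Ideal.absNorm v.asIdeal ≠ 1 := by
        rw [Ne, Ideal.absNorm_eq_one_iff]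
        exact v.isPrime.ne_top
      omega
    have h5 : e < 2 ^ e := Nat.lt_two_pow_self
    have h6 : 2 ^ e ≤ Ideal.absNorm v.asIdeal ^ e := Nat.pow_le_pow_left h4 e
    have h7 : 3 * Ideal.absNorm (Ideal.span {(p : 𝓞 F)}) + 1 ≤
        max k (3 * Ideal.absNorm (Ideal.span {(p : 𝓞 F)}) + 1) := le_max_right _ _
    omega
  · -- the class group is generated by `S₀`
    intro 𝔞 h𝔞
    have h𝔞' : 𝔞 ∈ (Ideal (𝓞 F))⁰ := mem_nonZeroDivisors_of_ne_zero h𝔞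
    have hmem' : 𝔞 * (r (ClassGroup.mk0 ⟨𝔞, h𝔞'⟩)⁻¹ : Ideal (𝓞 F)) ∈ (Ideal (𝓞 F))⁰ :=
      mul_mem h𝔞' (r (ClassGroup.mk0 ⟨𝔞, h𝔞'⟩)⁻¹).2
    have h3 : ((⟨𝔞, h𝔞'⟩ : (Ideal (𝓞 F))⁰) * r (ClassGroup.mk0 ⟨𝔞, h𝔞'⟩)⁻¹) =
        ⟨𝔞 * (r (ClassGroup.mk0 ⟨𝔞, h𝔞'⟩)⁻¹ : Ideal (𝓞 F)), hmem'⟩ :=
      Subtype.ext (Submonoid.coe_mul _ ⟨𝔞, h𝔞'⟩ (r (ClassGroup.mk0 ⟨𝔞, h𝔞'⟩)⁻¹))
    have hprinc : ClassGroup.mk0
        ⟨𝔞 * (r (ClassGroup.mk0 ⟨𝔞, h𝔞'⟩)⁻¹ : Ideal (𝓞 F)), hmem'⟩ = 1 := by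
      rw [← h3, map_mul, hr1, mul_inv_cancel]
    obtain ⟨⟨x, hx⟩⟩ := (ClassGroup.mk0_eq_one_iff hmem').1 hprinc
    refine ⟨x, (r (ClassGroup.mk0 ⟨𝔞, h𝔞'⟩)⁻¹ : Ideal (𝓞 F)), ?_, ?_, hx.symm⟩
    · rintro rfl
      have h0 : 𝔞 * (r (ClassGroup.mk0 ⟨𝔞, h𝔞'⟩)⁻¹ : Ideal (𝓞 F)) = ⊥ := by
        rw [hx]
        exact Ideal.span_singleton_eq_bot.2 rfl
      exact mul_ne_zero h𝔞 (nonZeroDivisors.coe_ne_zero _) h0
    · intro v hv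
      refine (hmem v).2 ?_
      have hdvd := Finset.dvd_prod_of_mem (fun c : ClassGroup (𝓞 F) => (r c : Ideal (𝓞 F)))
        (Finset.mem_univ (ClassGroup.mk0 ⟨𝔞, h𝔞'⟩)⁻¹)
      have hle := Ideal.le_of_dvd hdvd
      exact (Ideal.mul_le_right.trans hle).trans hv

end Fermat.Agent.S14
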