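import Mathlib
import Fermat.Agent.S14.Defs
import Fermat.Agent.S14.H2Defs

/-!
# P18, block H2 (second team): ideals supported on completely split primes are norms

* `h2_relNorm_of_decomp_trivial_B`: if the decomposition group of a prime `P` of `𝓞 F'` in
  `Gal(F'/F)` is trivial then the relative norm of `P` is the prime of `𝓞 F` below `P`;
* `h2_supported_is_norm_B`: an ideal of `𝓞 F` supported on a set `S` of primes above which all
  decomposition groups are trivial is the relative norm of an ideal of `𝓞 F'`.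
-/

set_option autoImplicit false

namespace Fermat.Agent.S14

open NumberField IsDedekindDomain
open scoped Pointwise

theorem h2_relNorm_of_decomp_trivial_B
    (F F' : Type*) [Field F] [NumberField F] [Field F'] [NumberField F'] [Algebra F F']
    [IsGalois F F'] (P : Ideal (𝓞 F')) (hP : P.IsPrime) (hP0 : P ≠ ⊥)
    (hdec : ∀ σ : F' ≃ₐ[F] F', σ • P = P → σ = 1) :
    Ideal.relNorm (𝓞 F) P = Ideal.under (𝓞 F) P := by
  have hlies : P.LiesOver (Ideal.under (𝓞 F) P) := ⟨rfl⟩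
  have hPmax : P.IsMaximal := hP.isMaximal hP0
  have hpprime : (Ideal.under (𝓞 F) P).IsPrime := inferInstance
  have hp0 : Ideal.under (𝓞 F) P ≠ ⊥ := Ideal.under_ne_bot (𝓞 F) hP0
  have hpmax : (Ideal.under (𝓞 F) P).IsMaximal := hpprime.isMaximal hp0
  have hstab : Nat.card (MulAction.stabilizer (F' ≃ₐ[F] F') P) = 1 := by
    have hbot : MulAction.stabilizer (F' ≃ₐ[F] F') P = ⊥ := by
      rw [eq_bot_iff]
      intro σ hσ
      exact Subgroup.mem_bot.mpr (hdec σ (MulAction.mem_stabilizer_iff.mp hσ))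
    rw [hbot]
    exact Subgroup.card_bot
  have h1 := Ideal.card_stabilizer_eq (G := F' ≃ₐ[F] F') (Ideal.under (𝓞 F) P) P
  rw [hstab] at h1
  have hf : (Ideal.under (𝓞 F) P).inertiaDegIn (𝓞 F') = 1 :=
    Nat.eq_one_of_mul_eq_one_left h1.symm
  have hf' : P.inertiaDeg (𝓞 F) = 1 := by
    rw [← Ideal.inertiaDegIn_eq_inertiaDeg (Ideal.under (𝓞 F) P) P (F' ≃ₐ[F] F')]
    exact hf
  rw [Ideal.relNorm_eq_pow_of_isMaximal P (Ideal.under (𝓞 F) P), hf', pow_one]

theorem h2_supported_is_norm_B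
    (F F' : Type*) [Field F] [NumberField F] [Field F'] [NumberField F'] [Algebra F F']
    [IsGalois F F'] (S : Finset (HeightOneSpectrum (𝓞 F)))
    (hS : ∀ v ∈ S, ∀ P : Ideal (𝓞 F'), P.IsPrime → Ideal.under (𝓞 F) P = v.asIdeal →
      ∀ σ : F' ≃ₐ[F] F', σ • P = P → σ = 1)
    (J : Ideal (𝓞 F)) (hJ0 : J ≠ ⊥)
    (hJ : ∀ v : HeightOneSpectrum (𝓞 F), J ≤ v.asIdeal → v ∈ S) :
    ∃ 𝔖 : Ideal (𝓞 F'), 𝔖 ≠ ⊥ ∧ Ideal.relNorm (𝓞 F) 𝔖 = J := by
  revert hJ0 hJ
  induction J using UniqueFactorizationMonoid.induction_on_prime with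
  | h₁ =>
    intro h _
    exact absurd rfl h
  | h₂ x hx =>
    intro _ _
    refine ⟨⊤, top_ne_bot, ?_⟩
    rw [Ideal.relNorm_top, Ideal.isUnit_iff.mp hx]
  | h₃ a q ha0 hq ih =>
    intro _ hJ
    have hqprime : q.IsPrime := Ideal.isPrime_of_prime hq
    have hq0 : q ≠ ⊥ := hq.ne_zero
    obtain ⟨𝔖', h𝔖'0, h𝔖'⟩ := ih ha0 (fun v hv => hJ v (Ideal.mul_le_right.trans hv))
    have hvS : (⟨q, hqprime, hq0⟩ : HeightOneSpectrum (𝓞 F)) ∈ S :=
      hJ ⟨q, hqprime, hq0⟩ Ideal.mul_le_left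
    obtain ⟨⟨P, hPprime, hPlies⟩⟩ := (inferInstance : Nonempty (Ideal.primesOver q (𝓞 F')))
    have hPq : Ideal.under (𝓞 F) P = q := ((Ideal.liesOver_iff _ _).mp hPlies).symm
    have hP0 : P ≠ ⊥ := Ideal.ne_bot_of_liesOver_of_ne_bot hq0 P
    have hnorm : Ideal.relNorm (𝓞 F) P = q := by
      rw [h2_relNorm_of_decomp_trivial_B F F' P hPprime hP0
        (hS ⟨q, hqprime, hq0⟩ hvS P hPprime hPq), hPq]
    refine ⟨P * 𝔖', mul_ne_zero hP0 h𝔖'0, ?_⟩
    rw [map_mul, hnorm, h𝔖']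

end Fermat.Agent.S14
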