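import Mathlib
import Fermat.Agent.S14.Defs
import Fermat.Agent.S14.H2Defs
import Fermat.Agent.S14.H2SUnitB

/-!
# P18 (S14), block H2, Step 3: the `S`-unit count (interface names)

The proofs are in `H2SUnitB.lean` (`h2_even_finrank_B`, `h2_sunit_relIndex_B`); this file only
re-exports them under the interface names of the skeleton.
-/

set_option autoImplicit false

namespace Fermat.Agent.S14

open NumberField IsDedekindDomain

/-- A number field containing a primitive `p`-th root of unity, `p ≥ 3`, has even degree. -/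
theorem h2_even_finrank (p : ℕ) [Fact p.Prime] (hp : 3 ≤ p) (F : Type*) [Field F] [NumberField F]
    (ζ : F) (hζ : IsPrimitiveRoot ζ p) : 2 ∣ Module.finrank ℚ F :=
  h2_even_finrank_B p hp F ζ hζ

/-- Step 3, relIndex form (interface to helper11) -/
theorem h2_sunit_relIndex (p : ℕ) [Fact p.Prime] (hp : 3 ≤ p) (F : Type*) [Field F]
    [NumberField F] (ζ : F) (hζ : IsPrimitiveRoot ζ p) (S : Finset (HeightOneSpectrum (𝓞 F))) :
    p ^ (Module.finrank ℚ F / 2 + S.card) ≤
      (powMonoidHom p : Fˣ →* Fˣ).range.relIndex (h2U F (S : Set (HeightOneSpectrum (𝓞 F)))) :=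
  h2_sunit_relIndex_B p hp F ζ hζ S

end Fermat.Agent.S14
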