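import Mathlib
import Fermat.Agent.S14.Defs
import Fermat.Agent.S14.H2Defs
import Fermat.Agent.S14.H2ValExt
import Fermat.Agent.S14.H2KummerField
import Fermat.Agent.S14.H2SplitOut

/-!
# P18 (S14), block H2 (second implementation): a Kummer extension splits at the tame primes
where the radicand is a local `p`-th power

`F' = F(β)`, `β ^ p = y`, `ζ ∈ F` a primitive `p`-th root of unity.  Let `P` be a prime of `F'`
over a prime `v` of `F` with `v ∤ p`, and suppose `y` is a local `p`-th power at `v` to precision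
`1`: `y = z ^ p y₁` with `y₁` a `v`-unit congruent to `1` modulo `v`.  Then the decomposition group
of `P` is trivial (`h2_decomp_trivial_tame_B`).

Proof: `β₁ = β / z` satisfies `β₁ ^ p = y₁`, so `∏ μ, (β₁ - μ)` (over the `p`-th roots of unity
`μ`) has `P`-adic valuation `< 1` and some `β₁ - μ` has valuation `< 1`.  If `σ P = P` and
`σ β = ζ ^ k β` then `ζ ^ k β₁ - μ` has valuation `< 1` too, hence so has `μ (ζ ^ k - 1)`; as
`p` is a `P`-unit this forces `k = 0`, i.e. `σ β = β` and `σ = 1`.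
-/

set_option autoImplicit false

namespace Fermat.Agent.S14

open NumberField IsDedekindDomain
open scoped Pointwise

/-- If a finite product has valuation `< 1` then one of the factors has valuation `< 1`. -/
theorem h2stB_exists_lt_one_of_prod_lt_one {K : Type*} [Field K]
    (val : Valuation K (WithZero (Multiplicative ℤ))) {ι : Type*} (s : Finset ι) (f : ι → K)
    (h : val (∏ i ∈ s, f i) < 1) : ∃ i ∈ s, val (f i) < 1 := by
  by_contra hcon
  have h1 : ∀ i ∈ s, 1 ≤ val (f i) := fun i hi => not_lt.mp fun hlt => hcon ⟨i, hi, hlt⟩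
  rw [map_prod] at h
  exact absurd h (not_lt.mpr (Finset.prod_induction _ (fun x => 1 ≤ x)
    (fun a b ha hb => one_le_mul_of_one_le_of_one_le ha hb) le_rfl h1))

/-- A Kummer extension `F' = F(β)`, `β ^ p = y`, is totally split at the primes `P` of `F'` lying
over a prime `v ∤ p` of `F` at which `y` is a local `p`-th power (precision `1`). -/
theorem h2_decomp_trivial_tame_B (p : ℕ) [Fact p.Prime] (hp : 3 ≤ p)
    (F F' : Type*) [Field F] [NumberField F] [Field F'] [NumberField F'] [Algebra F F']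
    [IsGalois F F'] (hdeg : Module.finrank F F' = p) (ζ : F) (hζ : IsPrimitiveRoot ζ p)
    (y : Fˣ) (hy : ∀ z : Fˣ, y ≠ z ^ p) (β : F') (hβ : β ^ p = algebraMap F F' (y : F))
    (P : Ideal (𝓞 F')) (hP : P.IsPrime) (hP0 : P ≠ ⊥)
    (v : HeightOneSpectrum (𝓞 F)) (hv : v.asIdeal = Ideal.under (𝓞 F) P)
    (hvy : y ∈ h2Dv F p v 1) (hvp : v.valuation F (p : F) = 1) :
    ∀ σ : F' ≃ₐ[F] F', σ • P = P → σ = 1 := by
  intro σ hσ
  have _hp3 : 3 ≤ p := hp
  have hpp : p.Prime := Fact.out
  have hp0 : p ≠ 0 := hpp.ne_zero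
  have : NeZero p := ⟨hp0⟩
  let w : HeightOneSpectrum (𝓞 F') := ⟨P, hP, hP0⟩
  have hvw : v.asIdeal = Ideal.under (𝓞 F) w.asIdeal := hv
  have hσw : σ • w.asIdeal = w.asIdeal := hσ
  obtain ⟨z, -, hz2⟩ := hvy
  obtain ⟨k, hk, hkβ⟩ := h2so_kummer_smul p F F' ζ hζ y β hβ σ
  have hζ' : IsPrimitiveRoot (algebraMap F F' ζ) p :=
    hζ.map_of_injective (algebraMap F F').injective
  have hwζ : w.valuation F' (algebraMap F F' ζ) = 1 := by
    apply h2so_eq_one_of_pow_eq_one _ p hp0
    rw [← map_pow, hζ'.pow_eq_one, map_one]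
  have hwp : w.valuation F' (p : F') = 1 := by
    have h := h2so_val_ext_eq_one F F' w v hvw _ hvp
    rwa [map_natCast] at h
  -- the normalised radical `β₁ = β / z`
  have hβ₁p : (β / algebraMap F F' (z : F)) ^ p = algebraMap F F' ((y : F) / (z : F) ^ p) := by
    rw [div_pow, hβ, map_div₀, map_pow]
  have hlt : w.valuation F' ((β / algebraMap F F' (z : F)) ^ p - 1) < 1 := by
    rw [hβ₁p, ← map_one (algebraMap F F'), ← map_sub, h2_val_ext_lt_one_iff F F' w v hvw]
    refine lt_of_le_of_lt hz2 ?_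
    rw [← WithZero.exp_zero, WithZero.exp_lt_exp]
    norm_num
  -- one of the factors `β₁ - μ` has valuation `< 1`
  have hprod := hζ'.pow_sub_pow_eq_prod_sub_mul (β / algebraMap F F' (z : F)) 1 hpp.pos
  rw [one_pow] at hprod
  rw [hprod] at hlt
  obtain ⟨μ, hμ, hμlt⟩ := h2stB_exists_lt_one_of_prod_lt_one (w.valuation F') _ _ hlt
  rw [mul_one] at hμlt
  have hμp : μ ^ p = 1 := (Polynomial.mem_nthRootsFinset hpp.pos 1).mp hμ
  obtain ⟨j, -, hj⟩ := hζ'.eq_pow_of_pow_eq_one hμp
  have hwμ : w.valuation F' μ = 1 := by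
    apply h2so_eq_one_of_pow_eq_one _ p hp0
    rw [← map_pow, hμp, map_one]
  -- apply `σ`
  have hσμ : σ μ = μ := by
    rw [← hj, ← map_pow, AlgEquiv.commutes]
  have hσβ₁ : σ (β / algebraMap F F' (z : F) - μ)
      = algebraMap F F' ζ ^ k * (β / algebraMap F F' (z : F)) - μ := by
    rw [map_sub, map_div₀, hkβ, AlgEquiv.commutes, hσμ, mul_div_assoc]
  have hσlt : w.valuation F' (algebraMap F F' ζ ^ k * (β / algebraMap F F' (z : F)) - μ) < 1 := by
    rw [← hσβ₁, h2_val_smul_eq F F' w σ hσw]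
    exact hμlt
  have hkey : μ * (algebraMap F F' ζ ^ k - 1)
      = (algebraMap F F' ζ ^ k * (β / algebraMap F F' (z : F)) - μ)
        - algebraMap F F' ζ ^ k * (β / algebraMap F F' (z : F) - μ) := by
    ring
  have hlt2 : w.valuation F' (algebraMap F F' ζ ^ k - 1) < 1 := by
    have h1 : w.valuation F' (μ * (algebraMap F F' ζ ^ k - 1)) < 1 := by
      rw [hkey]
      refine lt_of_le_of_lt (Valuation.map_sub _ _ _) (max_lt hσlt ?_)
      rw [map_mul, map_pow, hwζ, one_pow, one_mul]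
      exact hμlt
    rwa [map_mul, hwμ, one_mul] at h1
  have hk0 : k = 0 := by
    by_contra hk0
    have hcop : k.Coprime p :=
      Nat.coprime_comm.1 ((Nat.Prime.coprime_iff_not_dvd hpp).2
        (Nat.not_dvd_of_pos_of_lt (Nat.pos_of_ne_zero hk0) hk))
    have hη : IsPrimitiveRoot (algebraMap F F' ζ ^ k) p := hζ'.pow_of_coprime k hcop
    have hη1 : w.valuation F' (algebraMap F F' ζ ^ k) ≤ 1 := by
      rw [map_pow, hwζ, one_pow]
    have h1 := h2so_val_prime_le p F' (w.valuation F') _ hη hη1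
    rw [hwp] at h1
    exact absurd hlt2 (not_lt.2 h1)
  apply h2so_kummer_eq_one p F F' hdeg y hy β hβ σ
  rw [hkβ, hk0, pow_zero, one_mul]

end Fermat.Agent.S14
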