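import Mathlib
import Fermat.Agent.S14.Defs
import Fermat.Agent.S14.H2Defs

/-!
# P18 (S14), block H2: the splitting lemma at primes of `S` (second team)

`F' = F(y^{1/p})`, `y` a local `p`-th power at `v` to precision `n` with
`exp (-n) < v(p) ^ 2`.  Then the decomposition group of every prime `P` of `F'` above `v`
is trivial.

Proof.  Write `y = z ^ p * y1`, `b1 = b / z` (so `b1 ^ p = y1`), `l = zeta - 1`.
In `F` one has `v(p) <= v(l) ^ (p - 1)` since `p = prod_{0 < i < p} (1 - zeta ^ i)` and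
`l` divides `1 - zeta ^ i`; hence `v(y1 - 1) < v(l) ^ p`.  Since
`y1 - 1 = prod_{mu ^ p = 1} (b1 - mu)`, some `mu` has `w(b1 - mu) < w(l)`.
If `s P = P` and `s b = zeta ^ k * b` then also `w(zeta ^ k * b1 - mu) < w(l)`, so
`w(zeta ^ k - 1) < w(zeta - 1)` (as `w(b1) = 1`), which forces `k = 0` because
`zeta - 1` is a multiple of `zeta ^ k - 1` when `k` is prime to `p`.  Hence `s b = b`
and `s = 1`.
-/

set_option autoImplicit false

namespace Fermat.Agent.S14

open NumberField IsDedekindDomain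
open scoped Pointwise

/-- Kummer: `s b = zeta ^ k * b`. -/
theorem h2wb_kummer_smul (p : ℕ) [Fact p.Prime] (F F' : Type*) [Field F] [Field F']
    [Algebra F F'] (ζ : F) (hζ : IsPrimitiveRoot ζ p) (y : Fˣ) (β : F')
    (hβ : β ^ p = algebraMap F F' (y : F)) (σ : F' ≃ₐ[F] F') :
    ∃ k : ℕ, k < p ∧ σ β = algebraMap F F' ζ ^ k * β := by
  have hp0 : p ≠ 0 := (Fact.out : p.Prime).ne_zero
  have : NeZero p := ⟨hp0⟩
  have hβ0 : β ≠ 0 := by
    intro h
    rw [h, zero_pow hp0] at hβ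
    exact y.ne_zero ((algebraMap F F').injective (by rw [map_zero]; exact hβ.symm))
  have hζ' : IsPrimitiveRoot (algebraMap F F' ζ) p :=
    hζ.map_of_injective (algebraMap F F').injective
  have h1 : (σ β / β) ^ p = 1 := by
    rw [div_pow, ← map_pow, hβ, σ.commutes, div_self]
    rw [← hβ]
    exact pow_ne_zero _ hβ0
  obtain ⟨k, hk, hk'⟩ := hζ'.eq_pow_of_pow_eq_one h1
  refine ⟨k, hk, ?_⟩
  rw [hk', div_mul_cancel₀ _ hβ0]

/-- Kummer: an automorphism fixing `b` is trivial. -/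
theorem h2wb_kummer_eq_one (p : ℕ) [Fact p.Prime] (F F' : Type*) [Field F] [Field F']
    [Algebra F F'] [FiniteDimensional F F'] [IsGalois F F'] (hdeg : Module.finrank F F' = p)
    (y : Fˣ) (hy : ∀ z : Fˣ, y ≠ z ^ p) (β : F')
    (hβ : β ^ p = algebraMap F F' (y : F)) (σ : F' ≃ₐ[F] F') (hσ : σ β = β) : σ = 1 := by
  by_contra hne
  have hcard : Nat.card (F' ≃ₐ[F] F') = p := by
    rw [IsGalois.card_aut_eq_finrank, hdeg]
  have htop : Subgroup.zpowers σ = ⊤ := zpowers_eq_top_of_prime_card hcard hne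
  have hstab : Subgroup.zpowers σ ≤ MulAction.stabilizer (F' ≃ₐ[F] F') β := by
    rw [Subgroup.zpowers_le, MulAction.mem_stabilizer_iff]
    exact hσ
  have hfix : ∀ f : F' ≃ₐ[F] F', f β = β := by
    intro f
    have hf : f ∈ MulAction.stabilizer (F' ≃ₐ[F] F') β := hstab (by rw [htop]; trivial)
    rw [MulAction.mem_stabilizer_iff] at hf
    exact hf
  have hbot : β ∈ (⊥ : IntermediateField F F') := (IsGalois.mem_bot_iff_fixed β).2 hfix
  rw [IntermediateField.mem_bot] at hbot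
  obtain ⟨b, rfl⟩ := hbot
  have hb : b ^ p = (y : F) := by
    apply (algebraMap F F').injective
    rw [map_pow, hβ]
  have hb0 : b ≠ 0 := by
    intro h
    rw [h, zero_pow (Fact.out : p.Prime).ne_zero] at hb
    exact y.ne_zero hb.symm
  apply hy (Units.mk0 b hb0)
  ext
  rw [Units.val_pow_eq_pow_val, Units.val_mk0, hb]

/-- Galois invariance of the maximal ideal of the valuation ring. -/
theorem h2wb_val_lt_one_smul (F F' : Type*) [Field F] [NumberField F] [Field F']
    [NumberField F'] [Algebra F F'] (w : HeightOneSpectrum (𝓞 F')) (σ : F' ≃ₐ[F] F')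
    (hσ : σ • w.asIdeal = w.asIdeal) (x : F') (hx : w.valuation F' x < 1) :
    w.valuation F' (σ x) < 1 := by
  obtain ⟨a, ⟨d, hdmem⟩, had⟩ := w.exists_primeCompl_mul_eq_of_integer x hx.le
  have hdmem' : d ∉ w.asIdeal := hdmem
  replace had : x * algebraMap (𝓞 F') F' d = algebraMap (𝓞 F') F' a := had
  have hd : w.valuation F' (algebraMap (𝓞 F') F' d) = 1 :=
    (HeightOneSpectrum.valuation_eq_one_iff_notMem w).2 hdmem'
  have ha : a ∈ w.asIdeal := by
    have h1 : w.valuation F' (algebraMap (𝓞 F') F' a) < 1 := by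
      rw [← had, map_mul, hd, mul_one]
      exact hx
    exact (HeightOneSpectrum.valuation_lt_one_iff_mem w a).1 h1
  have hσa : σ • a ∈ w.asIdeal := by
    rw [← hσ]
    exact Ideal.smul_mem_pointwise_smul_iff.2 ha
  have hσd : σ • d ∉ w.asIdeal := by
    intro h
    rw [← hσ, Ideal.smul_mem_pointwise_smul_iff] at h
    exact hdmem' h
  have hσd' : w.valuation F' (algebraMap (𝓞 F') F' (σ • d)) = 1 :=
    (HeightOneSpectrum.valuation_eq_one_iff_notMem w).2 hσd
  have hσa' : w.valuation F' (algebraMap (𝓞 F') F' (σ • a)) < 1 :=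
    (HeightOneSpectrum.valuation_lt_one_iff_mem w (σ • a)).2 hσa
  have hsmul : ∀ t : 𝓞 F', algebraMap (𝓞 F') F' (σ • t) = σ (algebraMap (𝓞 F') F' t) := by
    intro t
    rfl
  have key : σ x * algebraMap (𝓞 F') F' (σ • d) = algebraMap (𝓞 F') F' (σ • a) := by
    rw [hsmul, hsmul, ← map_mul, had]
  calc w.valuation F' (σ x)
      = w.valuation F' (σ x) * w.valuation F' (algebraMap (𝓞 F') F' (σ • d)) := by
        rw [hσd', mul_one]
    _ = w.valuation F' (algebraMap (𝓞 F') F' (σ • a)) := by rw [← map_mul, key]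
    _ < 1 := hσa'

/-- `x - 1` divides `x ^ m - 1` integrally. -/
theorem h2wb_val_pow_sub_one_le (F : Type*) [Field F] [NumberField F]
    (v : HeightOneSpectrum (𝓞 F)) (x : F) (hx : v.valuation F x ≤ 1) (m : ℕ) :
    v.valuation F (x ^ m - 1) ≤ v.valuation F (x - 1) := by
  rw [← mul_geom_sum, map_mul]
  have h : v.valuation F (∑ i ∈ Finset.range m, x ^ i) ≤ 1 := by
    apply Valuation.map_sum_le
    intro i _
    rw [map_pow]
    exact pow_le_one' hx i
  calc v.valuation F (x - 1) * v.valuation F (∑ i ∈ Finset.range m, x ^ i)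
      ≤ v.valuation F (x - 1) * 1 := mul_le_mul' le_rfl h
    _ = v.valuation F (x - 1) := mul_one _

/-- Comparison of valuations. -/
theorem h2wb_val_ext (F F' : Type*) [Field F] [NumberField F] [Field F'] [NumberField F']
    [Algebra F F'] (w : HeightOneSpectrum (𝓞 F')) (v : HeightOneSpectrum (𝓞 F))
    (hv : v.asIdeal = Ideal.under (𝓞 F) w.asIdeal) :
    ∃ e : ℕ, e ≠ 0 ∧ ∀ x : F, v.valuation F x ^ e = w.valuation F' (algebraMap F F' x) := by
  have : w.asIdeal.LiesOver v.asIdeal := ⟨hv⟩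
  exact ⟨_, Ideal.IsDedekindDomain.ramificationIdx'_ne_zero_of_liesOver w.asIdeal v.ne_bot,
    fun x => HeightOneSpectrum.valuation_liesOver F' v w x⟩

/-- A root of unity has valuation one. -/
theorem h2wb_val_root (p : ℕ) [Fact p.Prime] (F : Type*) [Field F] [NumberField F]
    (ζ : F) (hζ : IsPrimitiveRoot ζ p) (v : HeightOneSpectrum (𝓞 F)) :
    v.valuation F ζ = 1 := by
  have h : v.valuation F ζ ^ p = 1 := by
    rw [← map_pow, hζ.pow_eq_one, map_one]
  exact (pow_eq_one_iff_left (Fact.out : p.Prime).ne_zero).mp h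

/-- `v(p) <= v(zeta - 1) ^ (p - 1)`. -/
theorem h2wb_val_p_le (p : ℕ) [Fact p.Prime] (F : Type*) [Field F] [NumberField F]
    (ζ : F) (hζ : IsPrimitiveRoot ζ p) (v : HeightOneSpectrum (𝓞 F)) :
    v.valuation F (p : F) ≤ v.valuation F (ζ - 1) ^ (p - 1) := by
  have hp1 : p - 1 + 1 = p := Nat.sub_add_cancel (Fact.out : p.Prime).one_le
  have hζ' : IsPrimitiveRoot ζ (p - 1 + 1) := by rwa [hp1]
  have hprod : ∏ k ∈ Finset.range (p - 1), (1 - ζ ^ (k + 1)) = (p : F) := by
    rw [hζ'.prod_one_sub_pow_eq_order, ← Nat.cast_add_one, hp1]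
  rw [← hprod, map_prod]
  calc ∏ k ∈ Finset.range (p - 1), v.valuation F (1 - ζ ^ (k + 1))
      ≤ ∏ _k ∈ Finset.range (p - 1), v.valuation F (ζ - 1) := by
        apply Finset.prod_le_prod'
        intro k _
        rw [Valuation.map_sub_swap]
        exact h2wb_val_pow_sub_one_le F v ζ (h2wb_val_root p F ζ hζ v).le (k + 1)
    _ = v.valuation F (ζ - 1) ^ (p - 1) := by
        rw [Finset.prod_const, Finset.card_range]

/-- If `0 < k < p` then `v(zeta - 1) <= v(zeta ^ k - 1)`. -/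
theorem h2wb_val_zeta_sub_one_le (p : ℕ) [Fact p.Prime] (F : Type*) [Field F] [NumberField F]
    (ζ : F) (hζ : IsPrimitiveRoot ζ p) (v : HeightOneSpectrum (𝓞 F)) (k : ℕ) (hk0 : k ≠ 0)
    (hkp : k < p) :
    v.valuation F (ζ - 1) ≤ v.valuation F (ζ ^ k - 1) := by
  have hpp : p.Prime := Fact.out
  have hcop : Nat.Coprime k p :=
    ((Nat.Prime.coprime_iff_not_dvd hpp).2
      (Nat.not_dvd_of_pos_of_lt (Nat.pos_of_ne_zero hk0) hkp)).symm
  obtain ⟨m, -, hm⟩ := Nat.exists_mul_mod_eq_one_of_coprime hcop hpp.one_lt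
  have h1 : (ζ ^ k) ^ m = ζ := by
    rw [← pow_mul, pow_eq_pow_mod (k * m) hζ.pow_eq_one, hm, pow_one]
  have h2 : v.valuation F (ζ ^ k) ≤ 1 := by
    rw [map_pow, h2wb_val_root p F ζ hζ v, one_pow]
  have h3 := h2wb_val_pow_sub_one_le F v (ζ ^ k) h2 m
  rwa [h1] at h3

/-- Some `p`-th root of unity is close to `b`. -/
theorem h2wb_exists_close (p : ℕ) [Fact p.Prime] (F' : Type*) [Field F'] [NumberField F']
    (w : HeightOneSpectrum (𝓞 F')) (ζ' : F') (hζ' : IsPrimitiveRoot ζ' p) (b l : F')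
    (h : w.valuation F' (b ^ p - 1) < w.valuation F' l ^ p) :
    ∃ i : ℕ, i < p ∧ w.valuation F' (b - ζ' ^ i) < w.valuation F' l := by
  have hpp : p.Prime := Fact.out
  have : NeZero p := ⟨hpp.ne_zero⟩
  have hprod : b ^ p - 1 = ∏ μ ∈ Polynomial.nthRootsFinset p (1 : F'), (b - μ) := by
    have := hζ'.pow_sub_pow_eq_prod_sub_mul b 1 hpp.pos
    simpa using this
  by_contra hcon
  have hall : ∀ μ ∈ Polynomial.nthRootsFinset p (1 : F'),
      w.valuation F' l ≤ w.valuation F' (b - μ) := by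
    intro μ hμ
    rw [Polynomial.mem_nthRootsFinset hpp.pos] at hμ
    obtain ⟨i, hi, rfl⟩ := hζ'.eq_pow_of_pow_eq_one hμ
    exact not_lt.1 (fun hlt => hcon ⟨i, hi, hlt⟩)
  have hle : w.valuation F' l ^ p ≤ w.valuation F' (b ^ p - 1) := by
    rw [hprod, map_prod]
    calc w.valuation F' l ^ p
        = ∏ _μ ∈ Polynomial.nthRootsFinset p (1 : F'), w.valuation F' l := by
          rw [Finset.prod_const, hζ'.card_nthRootsFinset]
      _ ≤ ∏ μ ∈ Polynomial.nthRootsFinset p (1 : F'), w.valuation F' (b - μ) :=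
          Finset.prod_le_prod' hall
  exact absurd h (not_lt.2 hle)

set_option linter.unusedVariables false in
/-- The splitting lemma at the primes above `p` (second team).  The hypothesis `hvp` is kept
for compatibility with the skeleton statement, it is not needed by the argument. -/
theorem h2_decomp_trivial_wild_B (p : ℕ) [Fact p.Prime] (hp : 3 ≤ p)
    (F F' : Type*) [Field F] [NumberField F] [Field F'] [NumberField F'] [Algebra F F']
    [IsGalois F F'] (hdeg : Module.finrank F F' = p) (ζ : F) (hζ : IsPrimitiveRoot ζ p)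
    (y : Fˣ) (hy : ∀ z : Fˣ, y ≠ z ^ p) (β : F') (hβ : β ^ p = algebraMap F F' (y : F))
    (P : Ideal (𝓞 F')) (hP : P.IsPrime) (hP0 : P ≠ ⊥)
    (v : HeightOneSpectrum (𝓞 F)) (hv : v.asIdeal = Ideal.under (𝓞 F) P)
    (n : ℕ) (hvy : y ∈ h2Dv F p v n) (hvp : v.valuation F (p : F) < 1)
    (hn : WithZero.exp (-(n : ℤ)) < v.valuation F (p : F) ^ 2) :
    ∀ σ : F' ≃ₐ[F] F', σ • P = P → σ = 1 := by
  intro σ hσP
  have hpp : p.Prime := Fact.out
  obtain ⟨z, hz1, hz2⟩ := hvy
  let w : HeightOneSpectrum (𝓞 F') := ⟨P, hP, hP0⟩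
  have hσw : σ • w.asIdeal = w.asIdeal := hσP
  obtain ⟨e, he0, he⟩ := h2wb_val_ext F F' w v hv
  -- facts in F
  have hζ1 : v.valuation F ζ = 1 := h2wb_val_root p F ζ hζ v
  have hl1 : v.valuation F (ζ - 1) ≤ 1 := (v.valuation F).map_sub_le hζ1.le (by rw [map_one])
  have hl0 : ζ - 1 ≠ 0 := sub_ne_zero.2 (hζ.ne_one hpp.one_lt)
  have hpl : v.valuation F (p : F) ^ 2 ≤ v.valuation F (ζ - 1) ^ p := by
    calc v.valuation F (p : F) ^ 2 ≤ (v.valuation F (ζ - 1) ^ (p - 1)) ^ 2 :=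
          pow_le_pow_left' (h2wb_val_p_le p F ζ hζ v) 2
      _ = v.valuation F (ζ - 1) ^ ((p - 1) * 2) := (pow_mul _ _ _).symm
      _ ≤ v.valuation F (ζ - 1) ^ p := pow_le_pow_right_of_le_one' hl1 (by omega)
  have hy1 : v.valuation F ((y : F) / (z : F) ^ p - 1) < v.valuation F (ζ - 1) ^ p :=
    lt_of_le_of_lt hz2 (lt_of_lt_of_le hn hpl)
  -- transfer to F'
  set b : F' := β / algebraMap F F' (z : F) with hb
  have hbp : b ^ p = algebraMap F F' ((y : F) / (z : F) ^ p) := by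
    rw [hb, div_pow, hβ, map_div₀, map_pow]
  have hwb : w.valuation F' b = 1 := by
    have h : w.valuation F' b ^ p = 1 := by
      rw [← map_pow, hbp, ← he, hz1, one_pow]
    exact (pow_eq_one_iff_left hpp.ne_zero).mp h
  have hζ' : IsPrimitiveRoot (algebraMap F F' ζ) p :=
    hζ.map_of_injective (algebraMap F F').injective
  have hclose : w.valuation F' (b ^ p - 1) <
      w.valuation F' (algebraMap F F' (ζ - 1)) ^ p := by
    have h : b ^ p - 1 = algebraMap F F' ((y : F) / (z : F) ^ p - 1) := by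
      rw [hbp, map_sub, map_one]
    rw [h, ← he, ← he, ← pow_mul, mul_comm, pow_mul]
    exact pow_lt_pow_left₀ hy1 zero_le he0
  obtain ⟨i, hi, hib⟩ := h2wb_exists_close p F' w _ hζ' b _ hclose
  obtain ⟨k, hk, hkβ⟩ := h2wb_kummer_smul p F F' ζ hζ y β hβ σ
  have hσb : σ b = algebraMap F F' ζ ^ k * b := by
    rw [hb, map_div₀, σ.commutes, hkβ, mul_div_assoc]
  -- Galois invariance
  have hl0' : algebraMap F F' (ζ - 1) ≠ 0 := (map_ne_zero _).2 hl0
  have hwl0 : 0 < w.valuation F' (algebraMap F F' (ζ - 1)) :=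
    zero_lt_iff.2 ((Valuation.ne_zero_iff _).2 hl0')
  have h1 : w.valuation F' ((b - algebraMap F F' ζ ^ i) / algebraMap F F' (ζ - 1)) < 1 := by
    rw [map_div₀]
    exact (div_lt_one₀ hwl0).2 hib
  have h2 := h2wb_val_lt_one_smul F F' w σ hσw _ h1
  have h3 : σ ((b - algebraMap F F' ζ ^ i) / algebraMap F F' (ζ - 1))
      = (algebraMap F F' ζ ^ k * b - algebraMap F F' ζ ^ i) / algebraMap F F' (ζ - 1) := by
    rw [map_div₀, map_sub, map_pow, σ.commutes, σ.commutes, hσb]
  rw [h3, map_div₀, div_lt_one₀ hwl0] at h2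
  -- subtract
  have h4 : w.valuation F' ((algebraMap F F' ζ ^ k - 1) * b) <
      w.valuation F' (algebraMap F F' (ζ - 1)) := by
    have h : (algebraMap F F' ζ ^ k - 1) * b
        = (algebraMap F F' ζ ^ k * b - algebraMap F F' ζ ^ i)
          - (b - algebraMap F F' ζ ^ i) := by ring
    rw [h]
    exact (w.valuation F').map_sub_lt h2 hib
  rw [map_mul, hwb, mul_one] at h4
  have h5 : algebraMap F F' ζ ^ k - 1 = algebraMap F F' (ζ ^ k - 1) := by
    rw [map_sub, map_pow, map_one]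
  rw [h5, ← he, ← he] at h4
  have h6 : v.valuation F (ζ ^ k - 1) < v.valuation F (ζ - 1) := lt_of_pow_lt_pow_left' e h4
  rcases Nat.eq_zero_or_pos k with rfl | hkpos
  · apply h2wb_kummer_eq_one p F F' hdeg y hy β hβ σ
    rw [hkβ, pow_zero, one_mul]
  · exact absurd h6 (not_lt.2 (h2wb_val_zeta_sub_one_le p F ζ hζ v k hkpos.ne' hk))

end Fermat.Agent.S14
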