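import Mathlib
import Fermat.Agent.S14.Defs
import Fermat.Agent.S14.H2Defs

/-!
# P18 (S14), block H2a, slice [A3u] (second team): unramified Kummer radicands

If `M/F` is an everywhere unramified Galois extension of number fields and `α ^ p = a` with
`α ∈ 𝓞 M`, `a ∈ 𝓞 F` nonzero, then the ideal `(a)` of `𝓞 F` is a `p`-th power.

Proof: for a prime `v` of `𝓞 F` and a prime `w` of `𝓞 M` over `v`, the inertia group of `w` is
trivial, so `e(w | v) = 1`, and the multiplicity of `v` in `(a)` equals the multiplicity of `w`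
in `(a) 𝓞 M = (α) ^ p`, a multiple of `p`.
-/

set_option autoImplicit false

namespace Fermat.Agent.S14

open NumberField IsDedekindDomain

/-- In an everywhere unramified Galois extension all ramification indices are `1`. -/
theorem h2upB_ramificationIdx_eq_one
    (F M : Type*) [Field F] [NumberField F] [Field M] [NumberField M] [Algebra F M] [IsGalois F M]
    (hunr : UnramifiedEverywhere F M)
    (v : Ideal (𝓞 F)) [v.IsPrime] (hv : v ≠ ⊥) (w : Ideal (𝓞 M)) [w.IsPrime] [w.LiesOver v] :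
    v.ramificationIdx' w = 1 := by
  have hw0 : w ≠ ⊥ := Ideal.ne_bot_of_liesOver_of_ne_bot hv w
  have hfin : Finite (𝓞 F ⧸ v) := Ring.HasFiniteQuotients.finiteQuotient hv
  have hcard : Nat.card (w.inertia Gal(M/F)) = v.ramificationIdxIn (𝓞 M) :=
    Ideal.card_inertia_eq_ramificationIdxIn v w
  rw [Ideal.ramificationIdxIn_eq_ramificationIdx v w Gal(M/F)] at hcard
  rw [Ideal.ramificationIdx'_eq_ramificationIdx v w hv, ← hcard]
  have hsub : Subsingleton (w.inertia Gal(M/F)) := by
    refine ⟨fun σ τ => ?_⟩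
    have h1 : ∀ ρ : w.inertia Gal(M/F), (ρ : Gal(M/F)) = 1 := by
      rintro ⟨ρ, hρ⟩
      exact hunr w inferInstance hw0 ρ hρ
    exact Subtype.ext ((h1 σ).trans (h1 τ).symm)
  exact Nat.card_unique

/-- Every prime of `𝓞 F` occurs in `(a)` with multiplicity divisible by `p`. -/
theorem h2upB_dvd_count (p : ℕ) [Fact p.Prime]
    (F M : Type*) [Field F] [NumberField F] [Field M] [NumberField M] [Algebra F M] [IsGalois F M]
    (hunr : UnramifiedEverywhere F M)
    (a : 𝓞 F) (α : 𝓞 M) (ha : a ≠ 0) (hα : α ^ p = algebraMap (𝓞 F) (𝓞 M) a)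
    (v : Ideal (𝓞 F)) (hv : v ∈ UniqueFactorizationMonoid.normalizedFactors (Ideal.span {a})) :
    p ∣ Multiset.count v (UniqueFactorizationMonoid.normalizedFactors (Ideal.span {a})) := by
  have hp0 : p ≠ 0 := (Fact.out : p.Prime).ne_zero
  have hI : Ideal.span {a} ≠ ⊥ := by
    rw [Ne, Ideal.span_singleton_eq_bot]
    exact ha
  have hvprime : Prime v := UniqueFactorizationMonoid.prime_of_normalized_factor v hv
  have hv0 : v ≠ ⊥ := hvprime.ne_zero
  have : v.IsPrime := Ideal.isPrime_of_prime hvprime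
  obtain ⟨⟨w, hwp, hwl⟩⟩ := (inferInstance : Nonempty (Ideal.primesOver v (𝓞 M)))
  have := hwp
  have := hwl
  have hw0 : w ≠ ⊥ := Ideal.ne_bot_of_liesOver_of_ne_bot hv0 w
  have hwprime : Prime w := Ideal.prime_of_isPrime hw0 hwp
  have he := h2upB_ramificationIdx_eq_one F M hunr v hv0 w
  have h1 := Ideal.IsDedekindDomain.emultiplicity_map_eq_ramificationIdx'_mul (v := v) (w := w) hI
    hvprime.irreducible hwprime.irreducible hw0
  rw [he, Nat.cast_one, one_mul] at h1
  have h2 : (Ideal.span {a}).map (algebraMap (𝓞 F) (𝓞 M)) = Ideal.span {α} ^ p := by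
    rw [Ideal.map_span, Set.image_singleton, ← hα, Ideal.span_singleton_pow]
  have hα0 : Ideal.span {α} ≠ ⊥ := by
    intro h
    rw [h, Ideal.bot_pow hp0] at h2
    exact Ideal.map_ne_bot_of_ne_bot hI h2
  rw [h2, emultiplicity_pow hwprime,
    (FiniteMultiplicity.of_prime_left hwprime hα0).emultiplicity_eq_multiplicity,
    UniqueFactorizationMonoid.emultiplicity_eq_count_normalizedFactors hvprime.irreducible hI,
    normalize_eq] at h1
  exact ⟨multiplicity w (Ideal.span {α}), by exact_mod_cast h1.symm⟩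

/-- [A3u] unramified ⇒ the Kummer radicand generates a `p`-th power ideal. -/
theorem h2_exists_ideal_pow_eq_B (p : ℕ) [Fact p.Prime]
    (F M : Type*) [Field F] [NumberField F] [Field M] [NumberField M] [Algebra F M] [IsGalois F M]
    (hunr : UnramifiedEverywhere F M)
    (a : 𝓞 F) (α : 𝓞 M) (ha : a ≠ 0) (hα : α ^ p = algebraMap (𝓞 F) (𝓞 M) a) :
    ∃ 𝔟 : Ideal (𝓞 F), 𝔟 ≠ ⊥ ∧ 𝔟 ^ p = Ideal.span {a} := by
  classical
  have hp0 : p ≠ 0 := (Fact.out : p.Prime).ne_zero
  have hI : Ideal.span {a} ≠ ⊥ := by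
    rw [Ne, Ideal.span_singleton_eq_bot]
    exact ha
  obtain ⟨t, ht⟩ := Multiset.exists_smul_of_dvd_count _
    (fun v hv => h2upB_dvd_count p F M hunr a α ha hα v hv)
  have hprod : t.prod ^ p = Ideal.span {a} := by
    rw [← Multiset.prod_nsmul, ← ht]
    exact associated_iff_eq.mp (UniqueFactorizationMonoid.prod_normalizedFactors hI)
  refine ⟨t.prod, ?_, hprod⟩
  intro h0
  rw [h0, Ideal.bot_pow hp0] at hprod
  exact hI hprod.symm

end Fermat.Agent.S14
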