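import Mathlib

/-!
# P18 (S14) — Jacobi sums, ring-theoretic core (Mathlib only)

Let `F` be a finite field with `q` elements, `R` a commutative ring with a ring homomorphism
`φ : R →+* F`, `p ∣ q - 1` a prime, `ζ ∈ R` a primitive `p`-th root of unity whose image in `F`
is still primitive.  Then there is a multiplicative character `χ : F → R` lifting the power map
`x ↦ x ^ ((q - 1) / p)` (`exists_mulChar_lift`), and for every ring endomorphism `σ` of `R` with
`σ ζ = ζ ^ t`, `2 * (t % p) < p`, `t % p ≠ 0`, the conjugate `σ (J(χ, χ))` of the Jacobi sum lies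
in the kernel of `φ` (`map_map_jacobiSum_eq_zero`): its reduction is the power sum
`∑ x, x ^ i * (1 - x) ^ i` with `2 i < q - 1`, which vanishes.
-/

set_option autoImplicit false

namespace Fermat.Agent.S14

namespace JacobiCore

open Finset

section PowerSum

variable {F : Type*} [Field F] [Fintype F]

/-- `∑ x, x ^ i * (1 - x) ^ j = 0` in a finite field with `q` elements, if `i + j < q - 1`. -/
theorem sum_pow_mul_one_sub_pow (i j : ℕ) (h : i + j < Fintype.card F - 1) :
    ∑ x : F, x ^ i * (1 - x) ^ j = 0 := by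
  have key : ∀ x : F, x ^ i * (1 - x) ^ j =
      ∑ k ∈ range (j + 1), ((j.choose k : F) * (-1) ^ k) * x ^ (i + k) := by
    intro x
    have h1 : (1 - x) = (-x) + 1 := by ring
    rw [h1, add_pow, Finset.mul_sum]
    refine Finset.sum_congr rfl fun k _ => ?_
    rw [one_pow, mul_one, neg_pow, pow_add]
    ring
  simp_rw [key]
  rw [Finset.sum_comm]
  refine Finset.sum_eq_zero fun k hk => ?_
  rw [← Finset.mul_sum, FiniteField.sum_pow_lt_card_sub_one, mul_zero]
  have := Finset.mem_range.mp hk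
  omega

variable {R : Type*} [CommRing R]

/-- If `φ ∘ χ` and `φ ∘ ψ` are the power maps with exponents `i`, `j` and `i + j < q - 1`, then
the Jacobi sum `J(χ, ψ)` lies in the kernel of `φ`. -/
theorem map_jacobiSum_eq_zero (φ : R →+* F) (χ ψ : MulChar F R) (i j : ℕ)
    (hχ : ∀ x : F, φ (χ x) = x ^ i) (hψ : ∀ x : F, φ (ψ x) = x ^ j)
    (h : i + j < Fintype.card F - 1) : φ (jacobiSum χ ψ) = 0 := by
  rw [jacobiSum, map_sum]
  simp_rw [map_mul, hχ, hψ]
  exact sum_pow_mul_one_sub_pow i j h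

end PowerSum

section Lift

variable {F : Type*} [Field F] [Fintype F] {R : Type*} [CommRing R]

/-- A multiplicative character `F → R` lifting the power map `x ↦ x ^ ((q - 1) / p)` along
`φ : R →+* F`, with values in `{0} ∪ ⟨ζ⟩` (expressed through its behaviour under ring
endomorphisms raising `ζ` to a power). -/
theorem exists_mulChar_lift (φ : R →+* F) (p : ℕ) (hp : p.Prime)
    (hpq : p ∣ Fintype.card F - 1) (ζ : R) (hζ : IsPrimitiveRoot ζ p)
    (hφζ : IsPrimitiveRoot (φ ζ) p) :
    ∃ χ : MulChar F R, (∀ x : F, φ (χ x) = x ^ ((Fintype.card F - 1) / p)) ∧ χ ^ p = 1 ∧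
      ∀ (σ : R →+* R) (t : ℕ), σ ζ = ζ ^ t → t ≠ 0 → ∀ x : F, σ (χ x) = χ x ^ t := by
  classical
  have : NeZero p := ⟨hp.ne_zero⟩
  obtain ⟨g, hg⟩ := IsCyclic.exists_generator (α := Fˣ)
  set m := (Fintype.card F - 1) / p with hm
  have hmp : m * p = Fintype.card F - 1 := Nat.div_mul_cancel hpq
  have hq1 : 0 < Fintype.card F - 1 := by
    have := Fintype.one_lt_card (α := F)
    omega
  have hm0 : 0 < m := by
    rcases Nat.eq_zero_or_pos m with h | h
    · rw [h, zero_mul] at hmp; omega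
    · exact h
  -- the image of the generator
  have hη : ((g : F) ^ m) ^ p = 1 := by
    rw [← pow_mul, hmp, ← Units.val_pow_eq_pow_val, ← Fintype.card_units, pow_card_eq_one,
      Units.val_one]
  obtain ⟨k, _, hk⟩ := hφζ.eq_pow_of_pow_eq_one hη
  -- `ζ` as a unit
  have hζu : IsUnit ζ := hζ.isUnit hp.ne_zero
  set u : Rˣ := hζu.unit with hu
  have hucoe : (u : R) = ζ := hζu.unit_spec
  have hup : u ^ p = 1 := by
    apply Units.ext
    rw [Units.val_pow_eq_pow_val, hucoe, hζ.pow_eq_one, Units.val_one]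
  have hmem : u ^ k ∈ rootsOfUnity (Fintype.card Fˣ) R := by
    rw [mem_rootsOfUnity, Fintype.card_units, ← hmp, ← pow_mul, mul_comm m p, ← mul_assoc,
      mul_comm k p, mul_assoc, pow_mul, hup, one_pow]
  set χ : MulChar F R := MulChar.ofRootOfUnity hmem hg with hχ
  have hχg : χ g = (u ^ k : Rˣ) := MulChar.ofRootOfUnity_spec hmem hg
  -- values on units
  have hval : ∀ x : Fˣ, ∃ n : ℤ, g ^ n = x ∧ χ x = ((u ^ k) ^ n : Rˣ) := by
    intro x
    obtain ⟨n, hn⟩ := Subgroup.mem_zpowers_iff.mp (hg x)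
    refine ⟨n, hn, ?_⟩
    have h1 : χ.toUnitHom x = (χ.toUnitHom g) ^ n := by rw [← hn, map_zpow]
    have h2 : χ.toUnitHom g = u ^ k := by
      apply Units.ext
      rw [MulChar.coe_toUnitHom, hχg]
    rw [← MulChar.coe_toUnitHom, h1, h2]
  refine ⟨χ, ?_, ?_, ?_⟩
  · intro x
    rcases eq_or_ne x 0 with rfl | hx
    · rw [MulChar.map_zero, map_zero, zero_pow hm0.ne']
    · obtain ⟨n, hn, hχx⟩ := hval (Units.mk0 x hx)
      rw [Units.val_mk0] at hχx
      have h3 : (Units.map (φ : R →* F) (u ^ k) : Fˣ) = g ^ m := by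
        apply Units.ext
        rw [Units.coe_map, Units.val_pow_eq_pow_val, hucoe, Units.val_pow_eq_pow_val]
        simpa using hk
      have h4 : (Units.map (φ : R →* F) ((u ^ k) ^ n) : Fˣ) = (Units.mk0 x hx) ^ m := by
        rw [map_zpow, h3, ← hn, ← zpow_natCast, ← zpow_natCast, ← zpow_mul, ← zpow_mul, mul_comm]
      have h5 := congrArg (fun y : Fˣ => (y : F)) h4
      simp only [Units.coe_map, Units.val_pow_eq_pow_val, Units.val_mk0] at h5
      rw [hχx]
      simpa using h5
  · ext x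
    obtain ⟨n, hn, hχx⟩ := hval x
    have hunit : ((u ^ k) ^ n) ^ p = 1 := by
      rw [← zpow_natCast, ← zpow_mul, mul_comm, zpow_mul, zpow_natCast, ← pow_mul, mul_comm,
        pow_mul, hup, one_pow, one_zpow]
    rw [MulChar.pow_apply_coe, hχx, MulChar.one_apply_coe, ← Units.val_pow_eq_pow_val, hunit,
      Units.val_one]
  · intro σ t hσ ht x
    rcases eq_or_ne x 0 with rfl | hx
    · rw [MulChar.map_zero, map_zero, zero_pow ht]
    · obtain ⟨n, hn, hχx⟩ := hval (Units.mk0 x hx)
      rw [Units.val_mk0] at hχx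
      have h3 : (Units.map (σ : R →* R) u : Rˣ) = u ^ t := by
        apply Units.ext
        rw [Units.coe_map, Units.val_pow_eq_pow_val, hucoe]
        simpa using hσ
      have h4 : (Units.map (σ : R →* R) ((u ^ k) ^ n) : Rˣ) = ((u ^ k) ^ n) ^ t := by
        rw [map_zpow, map_pow, h3, ← pow_mul, mul_comm t k, pow_mul,
          ← zpow_natCast ((u ^ k) ^ n) t, ← zpow_mul, mul_comm, zpow_mul, zpow_natCast]
      have h5 := congrArg (fun y : Rˣ => (y : R)) h4
      simp only [Units.coe_map, Units.val_pow_eq_pow_val] at h5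
      rw [hχx]
      simpa using h5

/-- A character as in `exists_mulChar_lift` is nontrivial. -/
theorem mulChar_ne_one (φ : R →+* F) (p : ℕ) (hp : p.Prime) (hpq : p ∣ Fintype.card F - 1)
    (χ : MulChar F R) (hχ : ∀ x : F, φ (χ x) = x ^ ((Fintype.card F - 1) / p)) : χ ≠ 1 := by
  classical
  intro h1
  obtain ⟨g, hg⟩ := IsCyclic.exists_generator (α := Fˣ)
  set m := (Fintype.card F - 1) / p with hm
  have hmp : m * p = Fintype.card F - 1 := Nat.div_mul_cancel hpq
  have hq1 : 0 < Fintype.card F - 1 := by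
    have := Fintype.one_lt_card (α := F)
    omega
  have hgm : g ^ m = 1 := by
    apply Units.ext
    have := hχ (g : F)
    rw [h1, MulChar.one_apply_coe, map_one] at this
    rw [Units.val_pow_eq_pow_val, ← this, Units.val_one]
  have hord : orderOf g = Fintype.card F - 1 := by
    rw [orderOf_eq_card_of_forall_mem_zpowers hg, Nat.card_eq_fintype_card, Fintype.card_units]
  have hdvd : Fintype.card F - 1 ∣ m := by
    rw [← hord]; exact orderOf_dvd_of_pow_eq_one hgm
  have hm0 : 0 < m := by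
    rcases Nat.eq_zero_or_pos m with h | h
    · rw [h, zero_mul] at hmp; omega
    · exact h
  have hle := Nat.le_of_dvd hm0 hdvd
  have h2 := hp.two_le
  nlinarith

/-- The conjugates `σ (J(χ, χ))`, `σ ζ = ζ ^ t` with `0 < t % p < p / 2`, of the Jacobi sum lie in
the kernel of `φ`. -/
theorem map_map_jacobiSum_eq_zero (φ : R →+* F) (p : ℕ) (hpq : p ∣ Fintype.card F - 1)
    (ζ : R) (χ : MulChar F R) (hχ : ∀ x : F, φ (χ x) = x ^ ((Fintype.card F - 1) / p))
    (hσχ : ∀ (σ : R →+* R) (t : ℕ), σ ζ = ζ ^ t → t ≠ 0 → ∀ x : F, σ (χ x) = χ x ^ t)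
    (σ : R →+* R) (t : ℕ) (hσ : σ ζ = ζ ^ t) (ht0 : t % p ≠ 0) (ht : 2 * (t % p) < p) :
    φ (σ (jacobiSum χ χ)) = 0 := by
  set m := (Fintype.card F - 1) / p with hm
  have hmp : m * p = Fintype.card F - 1 := Nat.div_mul_cancel hpq
  have ht' : t ≠ 0 := by
    rintro rfl
    exact ht0 (Nat.zero_mod p)
  have hq1 : 0 < Fintype.card F - 1 := by
    have := Fintype.one_lt_card (α := F)
    omega
  have hm0 : 0 < m := by
    rcases Nat.eq_zero_or_pos m with h | h
    · rw [h, zero_mul] at hmp; omega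
    · exact h
  have key : ∀ x : F, φ ((χ.ringHomComp σ) x) = x ^ (m * (t % p)) := by
    intro x
    rw [MulChar.ringHomComp_apply, hσχ σ t hσ ht' x, map_pow, hχ x, ← pow_mul]
    rcases eq_or_ne x 0 with rfl | hx
    · rw [zero_pow (Nat.mul_ne_zero hm0.ne' ht'), zero_pow (Nat.mul_ne_zero hm0.ne' ht0)]
    · have hx1 : x ^ (m * p) = 1 := by
        rw [hmp]; exact FiniteField.pow_card_sub_one_eq_one x hx
      conv_lhs => rw [← Nat.div_add_mod t p]
      rw [mul_add, pow_add, ← mul_assoc, pow_mul, hx1, one_pow, one_mul]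
  rw [← jacobiSum_ringHomComp]
  refine map_jacobiSum_eq_zero φ _ _ _ _ key key ?_
  calc m * (t % p) + m * (t % p) = m * (2 * (t % p)) := by ring
    _ < m * p := Nat.mul_lt_mul_of_pos_left ht hm0
    _ = Fintype.card F - 1 := hmp

end Lift

end JacobiCore

end Fermat.Agent.S14
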